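/-
S41, block [COH]: generic transfer (corestriction) on `Hom(-, A)` along an injective group
homomorphism `f : H →* G` whose range has finite index.  Owner: helper4.

* `TransferData G H ι`, `TransferData.op`: two-group coset data (`perm : G → Perm ι`,
  `part : G → ι → H`) and the operator `(op ψ)(γ) = ∑ i, ψ (part γ i)`;
* `transferAlong f ψ`: the canonical transfer (junk value `0` unless `f` is injective with
  finitely many right cosets of the range);
* `transferAlong_apply_of_reps`: the transfer can be computed with ANY system of representatives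
  `r : ι → G` of the right cosets `f(H) r_i`, with `r i * γ = f (part γ i) * r (σ γ i)`.
-/
import Mathlib

set_option autoImplicit false

noncomputable section

namespace Fermat.Agent.S41

/-- Two-group coset data: a right action `perm` of `G` on the index set and a compatible
cocycle `part` with values in `H`. -/
structure TransferData (G H : Type*) [Group G] [Group H] (ι : Type*) where
  /-- the permutation of the representatives induced by right multiplication by `γ` -/
  perm : G → Equiv.Perm ι
  /-- the `H`-part of `r_i γ` -/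
  part : G → ι → H
  perm_mul : ∀ γ δ i, perm (γ * δ) i = perm δ (perm γ i)
  part_mul : ∀ γ δ i, part (γ * δ) i = part γ i * part δ (perm γ i)

namespace TransferData

variable {G H : Type*} [Group G] [Group H] {ι : Type*} [Fintype ι] (D : TransferData G H ι)
variable {A B : Type*} [AddCommGroup A] [AddCommGroup B]

/-- The transfer-type operator attached to coset data: `(op ψ)(γ) = ∑ i, ψ (part γ i)`. -/
def op (ψ : Additive H →+ A) : Additive G →+ A :=
  AddMonoidHom.mk' (fun γ => ∑ i, ψ (Additive.ofMul (D.part (Additive.toMul γ) i))) (by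
    intro γ δ
    have h : ∀ i, ψ (Additive.ofMul (D.part (Additive.toMul (γ + δ)) i)) =
        ψ (Additive.ofMul (D.part (Additive.toMul γ) i)) +
          ψ (Additive.ofMul (D.part (Additive.toMul δ) (D.perm (Additive.toMul γ) i))) := by
      intro i
      rw [toMul_add, D.part_mul, ofMul_mul, map_add]
    simp only [h, Finset.sum_add_distrib]
    congr 1
    exact Equiv.sum_comp (D.perm (Additive.toMul γ))
      (fun i => ψ (Additive.ofMul (D.part (Additive.toMul δ) i))))

theorem op_apply (ψ : Additive H →+ A) (γ : G) :
    D.op ψ (Additive.ofMul γ) = ∑ i, ψ (Additive.ofMul (D.part γ i)) := rfl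

theorem op_add (φ ψ : Additive H →+ A) : D.op (φ + ψ) = D.op φ + D.op ψ := by
  refine AddMonoidHom.ext fun γ => ?_
  obtain ⟨γ, rfl⟩ := Additive.ofMul.surjective γ
  simp only [op_apply, AddMonoidHom.add_apply, Finset.sum_add_distrib]

theorem op_zero : D.op (0 : Additive H →+ A) = 0 := by
  refine AddMonoidHom.ext fun γ => ?_
  obtain ⟨γ, rfl⟩ := Additive.ofMul.surjective γ
  simp only [op_apply, AddMonoidHom.zero_apply, Finset.sum_const_zero]

theorem op_neg (ψ : Additive H →+ A) : D.op (-ψ) = -D.op ψ := by
  refine AddMonoidHom.ext fun γ => ?_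
  obtain ⟨γ, rfl⟩ := Additive.ofMul.surjective γ
  simp only [op_apply, AddMonoidHom.neg_apply, Finset.sum_neg_distrib]

theorem op_sub (φ ψ : Additive H →+ A) : D.op (φ - ψ) = D.op φ - D.op ψ := by
  rw [sub_eq_add_neg, op_add, op_neg, sub_eq_add_neg]

theorem op_zsmul (n : ℤ) (ψ : Additive H →+ A) : D.op (n • ψ) = n • D.op ψ := by
  refine AddMonoidHom.ext fun γ => ?_
  obtain ⟨γ, rfl⟩ := Additive.ofMul.surjective γ
  simp only [op_apply, AddMonoidHom.smul_apply, Finset.smul_sum]

theorem op_nsmul (n : ℕ) (ψ : Additive H →+ A) : D.op (n • ψ) = n • D.op ψ := by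
  refine AddMonoidHom.ext fun γ => ?_
  obtain ⟨γ, rfl⟩ := Additive.ofMul.surjective γ
  simp only [op_apply, AddMonoidHom.smul_apply, Finset.smul_sum]

/-- Naturality in the coefficient group. -/
theorem op_comp (h : A →+ B) (ψ : Additive H →+ A) : D.op (h.comp ψ) = h.comp (D.op ψ) := by
  refine AddMonoidHom.ext fun γ => ?_
  obtain ⟨γ, rfl⟩ := Additive.ofMul.surjective γ
  simp only [op_apply, AddMonoidHom.comp_apply, map_sum]

end TransferData

/-! ### The canonical coset data of an injective homomorphism -/

section Canonical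

variable {G H : Type*} [Group G] [Group H] (f : H →* G)

/-- The right cosets `f(H) g` of the range of `f`. -/
abbrev RCosets : Type _ := Quotient (QuotientGroup.rightRel f.range)

/-- The class `f(H) g`. -/
def rcMk (g : G) : RCosets f := Quotient.mk (QuotientGroup.rightRel f.range) g

theorem rcMk_eq_iff {x y : G} : rcMk f x = rcMk f y ↔ y * x⁻¹ ∈ f.range := by
  unfold rcMk
  rw [Quotient.eq]
  exact QuotientGroup.rightRel_apply

theorem rcMk_mul_left (h : H) (g : G) : rcMk f (f h * g) = rcMk f g := by
  rw [rcMk_eq_iff]
  refine ⟨h⁻¹, ?_⟩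
  rw [map_inv, mul_inv_rev, mul_inv_cancel_left]

theorem rcMk_surjective : Function.Surjective (rcMk f) := Quotient.mk_surjective

/-- Right multiplication on right cosets. -/
def rcMul (γ : G) : RCosets f → RCosets f :=
  Quotient.map (fun x => x * γ) (by
    intro x y hxy
    have h1 : y * x⁻¹ ∈ f.range := QuotientGroup.rightRel_apply.mp hxy
    refine QuotientGroup.rightRel_apply.mpr ?_
    show y * γ * (x * γ)⁻¹ ∈ f.range
    rw [mul_inv_rev, mul_assoc, mul_inv_cancel_left]
    exact h1)

theorem rcMul_mk (γ g : G) : rcMul f γ (rcMk f g) = rcMk f (g * γ) := rfl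

theorem rcMul_mul (γ δ : G) (x : RCosets f) : rcMul f (γ * δ) x = rcMul f δ (rcMul f γ x) := by
  obtain ⟨g, rfl⟩ := rcMk_surjective f x
  rw [rcMul_mk, rcMul_mk, rcMul_mk, mul_assoc]

theorem rcMul_one (x : RCosets f) : rcMul f 1 x = x := by
  obtain ⟨g, rfl⟩ := rcMk_surjective f x
  rw [rcMul_mk, mul_one]

/-- Right multiplication as a permutation of the right cosets. -/
def rcPerm (γ : G) : Equiv.Perm (RCosets f) where
  toFun := rcMul f γ
  invFun := rcMul f γ⁻¹
  left_inv x := by rw [← rcMul_mul, mul_inv_cancel, rcMul_one]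
  right_inv x := by rw [← rcMul_mul, inv_mul_cancel, rcMul_one]

theorem rcPerm_apply (γ : G) (x : RCosets f) : rcPerm f γ x = rcMul f γ x := rfl

/-- The chosen representative of a right coset. -/
def rcRep (x : RCosets f) : G := Quotient.out x

theorem rcMk_rcRep (x : RCosets f) : rcMk f (rcRep f x) = x := Quotient.out_eq x

theorem rcRep_mul_mem (γ : G) (x : RCosets f) :
    rcRep f x * γ * (rcRep f (rcMul f γ x))⁻¹ ∈ f.range := by
  have h : rcMk f (rcRep f (rcMul f γ x)) = rcMk f (rcRep f x * γ) := by
    rw [rcMk_rcRep, ← rcMul_mk, rcMk_rcRep]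
  exact (rcMk_eq_iff f).mp h

/-- The `H`-part of `rep(x) γ`. -/
def rcPart (γ : G) (x : RCosets f) : H := (rcRep_mul_mem f γ x).choose

theorem rcPart_spec (γ : G) (x : RCosets f) :
    f (rcPart f γ x) = rcRep f x * γ * (rcRep f (rcMul f γ x))⁻¹ :=
  (rcRep_mul_mem f γ x).choose_spec

/-- The canonical coset data of an injective homomorphism. -/
def rcData (hf : Function.Injective f) : TransferData G H (RCosets f) where
  perm := rcPerm f
  part := rcPart f
  perm_mul γ δ x := rcMul_mul f γ δ x
  part_mul γ δ x := by
    apply hf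
    rw [map_mul, rcPart_spec, rcPart_spec, rcPart_spec, rcPerm_apply, rcMul_mul]
    group

variable {A B : Type*} [AddCommGroup A] [AddCommGroup B]

/-- Auxiliary form of the transfer with explicit hypotheses. -/
def transferAux (hf : Function.Injective f) (hfin : Finite (RCosets f))
    (ψ : Additive H →+ A) : Additive G →+ A :=
  @TransferData.op G H _ _ (RCosets f) (@Fintype.ofFinite _ hfin) (rcData f hf) A _ ψ

theorem transferAux_apply (hf : Function.Injective f) (hfin : Finite (RCosets f))
    (ψ : Additive H →+ A) (γ : G) :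
    transferAux f hf hfin ψ (Additive.ofMul γ) =
      @Finset.sum (RCosets f) A _ (@Finset.univ _ (@Fintype.ofFinite _ hfin))
        (fun x => ψ (Additive.ofMul (rcPart f γ x))) := rfl

open Classical in
/-- The transfer `Hom(H, A) → Hom(G, A)` along `f : H →* G` (junk value `0` unless `f` is
injective and its range has finitely many right cosets). -/
def transferAlong (ψ : Additive H →+ A) : Additive G →+ A :=
  if h : Function.Injective f ∧ Finite (RCosets f) then transferAux f h.1 h.2 ψ else 0

theorem transferAlong_of_cond (hf : Function.Injective f) (hfin : Finite (RCosets f))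
    (ψ : Additive H →+ A) : transferAlong f ψ = transferAux f hf hfin ψ := by
  unfold transferAlong
  rw [dif_pos ⟨hf, hfin⟩]

theorem transferAlong_add (φ ψ : Additive H →+ A) :
    transferAlong f (φ + ψ) = transferAlong f φ + transferAlong f ψ := by
  unfold transferAlong
  split_ifs with h
  · exact @TransferData.op_add G H _ _ (RCosets f) (@Fintype.ofFinite _ h.2) (rcData f h.1) A _ φ ψ
  · rw [add_zero]

theorem transferAlong_zero : transferAlong f (0 : Additive H →+ A) = 0 := by
  unfold transferAlong
  split_ifs with h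
  · exact @TransferData.op_zero G H _ _ (RCosets f) (@Fintype.ofFinite _ h.2) (rcData f h.1) A _
  · rfl

theorem transferAlong_neg (ψ : Additive H →+ A) :
    transferAlong f (-ψ) = -transferAlong f ψ := by
  unfold transferAlong
  split_ifs with h
  · exact @TransferData.op_neg G H _ _ (RCosets f) (@Fintype.ofFinite _ h.2) (rcData f h.1) A _ ψ
  · rw [neg_zero]

theorem transferAlong_sub (φ ψ : Additive H →+ A) :
    transferAlong f (φ - ψ) = transferAlong f φ - transferAlong f ψ := by
  rw [sub_eq_add_neg, transferAlong_add, transferAlong_neg, sub_eq_add_neg]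

theorem transferAlong_zsmul (n : ℤ) (ψ : Additive H →+ A) :
    transferAlong f (n • ψ) = n • transferAlong f ψ := by
  unfold transferAlong
  split_ifs with h
  · exact @TransferData.op_zsmul G H _ _ (RCosets f) (@Fintype.ofFinite _ h.2) (rcData f h.1) A _
      n ψ
  · rw [smul_zero]

theorem transferAlong_nsmul (n : ℕ) (ψ : Additive H →+ A) :
    transferAlong f (n • ψ) = n • transferAlong f ψ := by
  unfold transferAlong
  split_ifs with h
  · exact @TransferData.op_nsmul G H _ _ (RCosets f) (@Fintype.ofFinite _ h.2) (rcData f h.1) A _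
      n ψ
  · rw [smul_zero]

/-- Naturality of the transfer in the coefficient group. -/
theorem transferAlong_comp (h : A →+ B) (ψ : Additive H →+ A) :
    transferAlong f (h.comp ψ) = h.comp (transferAlong f ψ) := by
  unfold transferAlong
  split_ifs with h'
  · exact @TransferData.op_comp G H _ _ (RCosets f) (@Fintype.ofFinite _ h'.2) (rcData f h'.1)
      A B _ _ h ψ
  · rw [AddMonoidHom.comp_zero]

/-- **Computation of the transfer with an arbitrary system of representatives.**
If `r : ι → G` represents the right cosets of `f(H)` (`hcov`: every `g` is `f h * r i`;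
`hinj`: distinct indices give distinct cosets) and `r i * γ = f (part i) * r (σ i)`, then
`(transferAlong f ψ)(γ) = ∑ i, ψ (part i)`. -/
theorem transferAlong_apply_of_reps (hf : Function.Injective f) {ι : Type*} [Fintype ι]
    (r : ι → G) (hcov : ∀ g : G, ∃ i, ∃ h : H, g = f h * r i)
    (hinj : ∀ i j, (∃ h : H, r i = f h * r j) → i = j)
    (γ : G) (σ : ι → ι) (part : ι → H) (hspec : ∀ i, r i * γ = f (part i) * r (σ i))
    (ψ : Additive H →+ A) :
    transferAlong f ψ (Additive.ofMul γ) = ∑ i, ψ (Additive.ofMul (part i)) := by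
  classical
  -- the index set is in bijection with the right cosets
  have hbij : Function.Bijective (fun i => rcMk f (r i)) := by
    constructor
    · intro i j hij
      have h1 : r j * (r i)⁻¹ ∈ f.range := (rcMk_eq_iff f).mp hij
      obtain ⟨h, hh⟩ := h1
      exact (hinj j i ⟨h, by rw [hh, inv_mul_cancel_right]⟩).symm
    · intro x
      obtain ⟨g, rfl⟩ := rcMk_surjective f x
      obtain ⟨i, h, rfl⟩ := hcov g
      exact ⟨i, (rcMk_mul_left f h (r i)).symm⟩
  let e : ι ≃ RCosets f := Equiv.ofBijective _ hbij
  have he : ∀ i, e i = rcMk f (r i) := fun i => rfl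
  have hfin : Finite (RCosets f) := Finite.of_equiv ι e
  -- the chosen representative of the coset of `r i`
  have hc : ∀ i, ∃ h : H, rcRep f (e i) = f h * r i := by
    intro i
    have h1 : rcMk f (r i) = rcMk f (rcRep f (e i)) := by rw [rcMk_rcRep, he]
    obtain ⟨h, hh⟩ := (rcMk_eq_iff f).mp h1
    exact ⟨h, by rw [hh, inv_mul_cancel_right]⟩
  choose c hc using hc
  -- `σ` is compatible with the canonical permutation
  have hσ : ∀ i, rcMul f γ (e i) = e (σ i) := by
    intro i
    rw [he, he, rcMul_mk, hspec i, rcMk_mul_left]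
  have hσbij : Function.Bijective σ := by
    have h1 : σ = e.symm ∘ rcMul f γ ∘ e := by
      funext i
      simp only [Function.comp_apply, hσ, Equiv.symm_apply_apply]
    rw [h1]
    exact e.symm.bijective.comp ((rcPerm f γ).bijective.comp e.bijective)
  let σe : Equiv.Perm ι := Equiv.ofBijective σ hσbij
  -- the canonical part in terms of the given one
  have hpart : ∀ i, rcPart f γ (e i) = c i * part i * (c (σ i))⁻¹ := by
    intro i
    apply hf
    rw [rcPart_spec, hσ, hc i, hc (σ i), map_mul, map_mul, map_inv]
    have h2 := hspec i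
    calc f (c i) * r i * γ * (f (c (σ i)) * r (σ i))⁻¹
        = f (c i) * (r i * γ) * (r (σ i))⁻¹ * (f (c (σ i)))⁻¹ := by group
      _ = f (c i) * (f (part i) * r (σ i)) * (r (σ i))⁻¹ * (f (c (σ i)))⁻¹ := by rw [h2]
      _ = f (c i) * f (part i) * (f (c (σ i)))⁻¹ := by group
  rw [transferAlong_of_cond f hf hfin, transferAux_apply]
  have hsum : ∀ (inst : Fintype (RCosets f)),
      (@Finset.sum (RCosets f) A _ (@Finset.univ _ inst)
        fun x => ψ (Additive.ofMul (rcPart f γ x))) =
      ∑ i, ψ (Additive.ofMul (part i)) := by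
    intro inst
    rw [← Equiv.sum_comp e]
    have h3 : ∀ i, ψ (Additive.ofMul (rcPart f γ (e i))) =
        ψ (Additive.ofMul (c i)) + ψ (Additive.ofMul (part i)) -
          ψ (Additive.ofMul (c (σe i))) := by
      intro i
      rw [hpart i, ofMul_mul, ofMul_mul, map_add, map_add, ofMul_inv, map_neg, ← sub_eq_add_neg]
      rfl
    simp only [h3, Finset.sum_sub_distrib, Finset.sum_add_distrib]
    rw [Equiv.sum_comp σe (fun i => ψ (Additive.ofMul (c i)))]
    abel
  exact hsum _

/-- `transfer ∘ restriction = index`, computed with an arbitrary system of representatives. -/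
theorem transferAlong_comp_self (hf : Function.Injective f) {ι : Type*} [Fintype ι]
    (r : ι → G) (hcov : ∀ g : G, ∃ i, ∃ h : H, g = f h * r i)
    (hinj : ∀ i j, (∃ h : H, r i = f h * r j) → i = j)
    (φ : Additive G →+ A) :
    transferAlong f (φ.comp (MonoidHom.toAdditive f)) = Fintype.card ι • φ := by
  classical
  refine AddMonoidHom.ext fun γ => ?_
  obtain ⟨γ, rfl⟩ := Additive.ofMul.surjective γ
  -- build `σ` and `part` from the covering property
  have hex : ∀ i, ∃ j, ∃ h : H, r i * γ = f h * r j := fun i => hcov (r i * γ)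
  choose σ part hspec using hex
  rw [transferAlong_apply_of_reps f hf r hcov hinj γ σ part hspec]
  -- `σ` is a bijection
  have hσinj : Function.Injective σ := by
    intro i j hij
    apply hinj
    have h1 := hspec i
    have h2 := hspec j
    rw [hij] at h1
    refine ⟨part i * (part j)⁻¹, ?_⟩
    have h3 : r i = f (part i) * r (σ j) * γ⁻¹ := by rw [← h1, mul_inv_cancel_right]
    have h4 : r (σ j) = (f (part j))⁻¹ * (r j * γ) := by rw [h2, inv_mul_cancel_left]
    rw [h3, h4, map_mul, map_inv]
    group
  let σe : Equiv.Perm ι := Equiv.ofBijective σ (Finite.injective_iff_bijective.mp hσinj)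
  have h5 : ∀ i, (φ.comp (MonoidHom.toAdditive f)) (Additive.ofMul (part i)) =
      φ (Additive.ofMul (r i)) + φ (Additive.ofMul γ) - φ (Additive.ofMul (r (σe i))) := by
    intro i
    have h6 : f (part i) = r i * γ * (r (σ i))⁻¹ := by rw [hspec i, mul_inv_cancel_right]
    show φ (Additive.ofMul (f (part i))) = _
    rw [h6, ofMul_mul, ofMul_mul, map_add, map_add, ofMul_inv, map_neg, ← sub_eq_add_neg]
    rfl
  simp only [h5, Finset.sum_sub_distrib, Finset.sum_add_distrib]
  rw [Equiv.sum_comp σe (fun i => φ (Additive.ofMul (r i)))]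
  simp only [Finset.sum_const, Finset.card_univ, AddMonoidHom.smul_apply]
  abel

end Canonical

end Fermat.Agent.S41
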