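/-
S41 (level raising): shared definitions of block [COH].  Owner: helper4.

* `Lpar M = Hom_par(Γ₀(M), ℤ)`;
* `incl₁ N q`, `incl₂ N q : Γ₀(Nq) →* Γ₀(N)`: the inclusion and `γ ↦ δ γ δ⁻¹`, `δ = diag(q,1)`;
* `res₁`, `res₂`: restriction along `incl₁`, `incl₂`;
* `tr₁`, `tr₂`: transfer along `incl₁`, `incl₂` (`transferAlong` of `S41/Transfer.lean`).
All definitions are total in `N q` (no primality hypotheses).
-/
import Mathlib
import Fermat.Prelude.Def_ModularCurve_PeriodMap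
import Fermat.Agent.S16.HeckeHom
import Fermat.Agent.S41.Transfer

set_option autoImplicit false

noncomputable section

open CongruenceSubgroup ModularCurve.Period
open scoped MatrixGroups

namespace Fermat.Agent.S41

/-- The parabolic lattice `L_M = Hom_par(Γ₀(M), ℤ)`. -/
abbrev Lpar (M : ℕ) : Submodule ℤ (Additive (Gamma0 M) →+ ℤ) := parabolicHoms ℤ (Gamma0 M) ℤ

section COH

variable (N q : ℕ)

theorem gamma0_mul_le : Gamma0 (N * q) ≤ Gamma0 N := by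
  intro g hg
  rw [Fermat.Agent.S16.mem_Gamma0_iff_dvd] at hg ⊢
  exact (Dvd.intro _ (by push_cast; rfl)).trans hg

/-- `ι₁` : the inclusion `Γ₀(Nq) → Γ₀(N)`. -/
def incl₁ : Gamma0 (N * q) →* Gamma0 N := Subgroup.inclusion (gamma0_mul_le N q)

theorem incl₁_coe (γ : Gamma0 (N * q)) : ((incl₁ N q γ : Gamma0 N) : SL(2, ℤ)) = γ := rfl

theorem incl₁_injective : Function.Injective (incl₁ N q) :=
  Subgroup.inclusion_injective (gamma0_mul_le N q)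

variable {N q} in
theorem dvd_lower_left (γ : Gamma0 (N * q)) : ((N * q : ℕ) : ℤ) ∣ (γ : SL(2, ℤ)) 1 0 :=
  Fermat.Agent.S16.mem_Gamma0_iff_dvd.mp γ.2

variable {N q} in
theorem q_mul_div (γ : Gamma0 (N * q)) :
    (q : ℤ) * ((γ : SL(2, ℤ)) 1 0 / (q : ℤ)) = (γ : SL(2, ℤ)) 1 0 := by
  have h : (q : ℤ) ∣ (γ : SL(2, ℤ)) 1 0 :=
    (Dvd.intro_left (N : ℤ) (by push_cast; rfl)).trans (dvd_lower_left γ)
  exact Int.mul_ediv_cancel' h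

variable {N q} in
theorem N_dvd_div (γ : Gamma0 (N * q)) : (N : ℤ) ∣ (γ : SL(2, ℤ)) 1 0 / (q : ℤ) := by
  obtain ⟨k, hk⟩ := dvd_lower_left γ
  rcases Nat.eq_zero_or_pos q with hq | hq
  · subst hq
    simp
  · have hq0 : (q : ℤ) ≠ 0 := by exact_mod_cast hq.ne'
    refine ⟨k, ?_⟩
    rw [hk]
    push_cast
    rw [mul_comm (N : ℤ) (q : ℤ), mul_assoc, Int.mul_ediv_cancel_left _ hq0]

/-- The matrix `δ γ δ⁻¹ = [[a, q b],[c / q, d]]`, `δ = diag(q,1)`. -/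
def conjMat (γ : Gamma0 (N * q)) : SL(2, ℤ) :=
  ⟨!![(γ : SL(2, ℤ)) 0 0, (q : ℤ) * (γ : SL(2, ℤ)) 0 1;
      (γ : SL(2, ℤ)) 1 0 / (q : ℤ), (γ : SL(2, ℤ)) 1 1], by
    have hdet := Matrix.SpecialLinearGroup.det_coe (γ : SL(2, ℤ))
    rw [Matrix.det_fin_two] at hdet
    rw [Matrix.det_fin_two_of]
    have h := q_mul_div γ
    calc (γ : SL(2, ℤ)) 0 0 * (γ : SL(2, ℤ)) 1 1 -
          (q : ℤ) * (γ : SL(2, ℤ)) 0 1 * ((γ : SL(2, ℤ)) 1 0 / (q : ℤ))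
        = (γ : SL(2, ℤ)) 0 0 * (γ : SL(2, ℤ)) 1 1 -
          (γ : SL(2, ℤ)) 0 1 * ((q : ℤ) * ((γ : SL(2, ℤ)) 1 0 / (q : ℤ))) := by ring
      _ = 1 := by rw [h]; exact hdet⟩

theorem conjMat_mem (γ : Gamma0 (N * q)) : conjMat N q γ ∈ Gamma0 N := by
  rw [Fermat.Agent.S16.mem_Gamma0_iff_dvd]
  show (N : ℤ) ∣ (γ : SL(2, ℤ)) 1 0 / (q : ℤ)
  exact N_dvd_div γ

theorem conjMat_apply_zero_zero (γ : Gamma0 (N * q)) :
    (conjMat N q γ) 0 0 = (γ : SL(2, ℤ)) 0 0 := rfl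
theorem conjMat_apply_zero_one (γ : Gamma0 (N * q)) :
    (conjMat N q γ) 0 1 = (q : ℤ) * (γ : SL(2, ℤ)) 0 1 := rfl
theorem conjMat_apply_one_zero (γ : Gamma0 (N * q)) :
    (conjMat N q γ) 1 0 = (γ : SL(2, ℤ)) 1 0 / (q : ℤ) := rfl
theorem conjMat_apply_one_one (γ : Gamma0 (N * q)) :
    (conjMat N q γ) 1 1 = (γ : SL(2, ℤ)) 1 1 := rfl

theorem q_mul_conjMat_apply_one_zero (γ : Gamma0 (N * q)) :
    (q : ℤ) * (conjMat N q γ) 1 0 = (γ : SL(2, ℤ)) 1 0 := q_mul_div γ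

theorem conjMat_mul (γ γ' : Gamma0 (N * q)) :
    conjMat N q (γ * γ') = conjMat N q γ * conjMat N q γ' := by
  have h := q_mul_div γ
  have h' := q_mul_div γ'
  have hm := q_mul_div (γ * γ')
  have e10 : ((γ * γ' : Gamma0 (N * q)) : SL(2, ℤ)) 1 0 =
      (γ : SL(2, ℤ)) 1 0 * (γ' : SL(2, ℤ)) 0 0 + (γ : SL(2, ℤ)) 1 1 * (γ' : SL(2, ℤ)) 1 0 := by
    rw [Subgroup.coe_mul, Matrix.SpecialLinearGroup.coe_mul, Matrix.mul_apply, Fin.sum_univ_two]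
  -- the lower left entry
  have key : ((γ * γ' : Gamma0 (N * q)) : SL(2, ℤ)) 1 0 / (q : ℤ) =
      (γ : SL(2, ℤ)) 1 0 / (q : ℤ) * (γ' : SL(2, ℤ)) 0 0 +
        (γ : SL(2, ℤ)) 1 1 * ((γ' : SL(2, ℤ)) 1 0 / (q : ℤ)) := by
    rcases Nat.eq_zero_or_pos q with hq | hq
    · subst hq
      simp
    · have hq0 : (q : ℤ) ≠ 0 := by exact_mod_cast hq.ne'
      apply mul_left_cancel₀ hq0
      rw [hm, e10, mul_add, ← mul_assoc, h, mul_left_comm, h']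
  have mulE : ∀ (X Y : SL(2, ℤ)) (i j : Fin 2), (X * Y) i j = X i 0 * Y 0 j + X i 1 * Y 1 j := by
    intro X Y i j
    rw [Matrix.SpecialLinearGroup.coe_mul, Matrix.mul_apply, Fin.sum_univ_two]
  apply Subtype.ext
  ext i j
  fin_cases i <;> fin_cases j
  · show ((γ * γ' : Gamma0 (N * q)) : SL(2, ℤ)) 0 0 = (conjMat N q γ * conjMat N q γ') 0 0
    rw [mulE, Subgroup.coe_mul, mulE]
    show _ = (γ : SL(2, ℤ)) 0 0 * (γ' : SL(2, ℤ)) 0 0 +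
      (q : ℤ) * (γ : SL(2, ℤ)) 0 1 * ((γ' : SL(2, ℤ)) 1 0 / (q : ℤ))
    linear_combination (-(γ : SL(2, ℤ)) 0 1) * h'
  · show (q : ℤ) * ((γ * γ' : Gamma0 (N * q)) : SL(2, ℤ)) 0 1 =
      (conjMat N q γ * conjMat N q γ') 0 1
    rw [mulE, Subgroup.coe_mul, mulE]
    show _ = (γ : SL(2, ℤ)) 0 0 * ((q : ℤ) * (γ' : SL(2, ℤ)) 0 1) +
      (q : ℤ) * (γ : SL(2, ℤ)) 0 1 * (γ' : SL(2, ℤ)) 1 1
    ring
  · show ((γ * γ' : Gamma0 (N * q)) : SL(2, ℤ)) 1 0 / (q : ℤ) =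
      (conjMat N q γ * conjMat N q γ') 1 0
    rw [key, mulE]
    rfl
  · show ((γ * γ' : Gamma0 (N * q)) : SL(2, ℤ)) 1 1 = (conjMat N q γ * conjMat N q γ') 1 1
    rw [mulE, Subgroup.coe_mul, mulE]
    show _ = (γ : SL(2, ℤ)) 1 0 / (q : ℤ) * ((q : ℤ) * (γ' : SL(2, ℤ)) 0 1) +
      (γ : SL(2, ℤ)) 1 1 * (γ' : SL(2, ℤ)) 1 1
    linear_combination (-(γ' : SL(2, ℤ)) 0 1) * h

/-- `ι₂` : `γ ↦ δ γ δ⁻¹`, `δ = diag(q,1)`, i.e. `[[a,b],[c,d]] ↦ [[a, q b],[c / q, d]]`. -/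
def incl₂ : Gamma0 (N * q) →* Gamma0 N :=
  MonoidHom.mk' (fun γ => ⟨conjMat N q γ, conjMat_mem N q γ⟩)
    (fun γ γ' => Subtype.ext (conjMat_mul N q γ γ'))

theorem incl₂_coe (γ : Gamma0 (N * q)) :
    ((incl₂ N q γ : Gamma0 N) : SL(2, ℤ)) = conjMat N q γ := rfl

theorem incl₂_entries (γ : Gamma0 (N * q)) :
    ((incl₂ N q γ : Gamma0 N) : SL(2, ℤ)) 0 0 = (γ : SL(2, ℤ)) 0 0 ∧
    ((incl₂ N q γ : Gamma0 N) : SL(2, ℤ)) 0 1 = q * (γ : SL(2, ℤ)) 0 1 ∧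
    (q : ℤ) * ((incl₂ N q γ : Gamma0 N) : SL(2, ℤ)) 1 0 = (γ : SL(2, ℤ)) 1 0 ∧
    ((incl₂ N q γ : Gamma0 N) : SL(2, ℤ)) 1 1 = (γ : SL(2, ℤ)) 1 1 :=
  ⟨rfl, rfl, q_mul_div γ, rfl⟩

theorem incl₂_injective (hq : q ≠ 0) : Function.Injective (incl₂ N q) := by
  intro γ γ' h
  have hq0 : (q : ℤ) ≠ 0 := by exact_mod_cast hq
  have h1 : conjMat N q γ = conjMat N q γ' := congrArg Subtype.val h
  have e := fun i j => congrArg (fun M : SL(2, ℤ) => M i j) h1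
  apply Subtype.ext
  ext i j
  fin_cases i <;> fin_cases j
  · exact e 0 0
  · exact mul_left_cancel₀ hq0 (e 0 1)
  · have := e 1 0
    show (γ : SL(2, ℤ)) 1 0 = (γ' : SL(2, ℤ)) 1 0
    rw [← q_mul_div γ, ← q_mul_div γ']
    exact congrArg (fun x => (q : ℤ) * x) this
  · exact e 1 1

variable {A : Type*} [AddCommGroup A]

/-- restriction along `ι₁` -/
def res₁ (φ : Additive (Gamma0 N) →+ A) : Additive (Gamma0 (N * q)) →+ A :=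
  φ.comp (MonoidHom.toAdditive (incl₁ N q))

/-- restriction along `ι₂` -/
def res₂ (φ : Additive (Gamma0 N) →+ A) : Additive (Gamma0 (N * q)) →+ A :=
  φ.comp (MonoidHom.toAdditive (incl₂ N q))

theorem res₁_apply (φ : Additive (Gamma0 N) →+ A) (γ : Gamma0 (N * q)) :
    res₁ N q φ (Additive.ofMul γ) = φ (Additive.ofMul (incl₁ N q γ)) := rfl

theorem res₂_apply (φ : Additive (Gamma0 N) →+ A) (γ : Gamma0 (N * q)) :
    res₂ N q φ (Additive.ofMul γ) = φ (Additive.ofMul (incl₂ N q γ)) := rfl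

/-- transfer (corestriction) along `ι₁` -/
def tr₁ (ψ : Additive (Gamma0 (N * q)) →+ A) : Additive (Gamma0 N) →+ A :=
  transferAlong (incl₁ N q) ψ

/-- transfer (corestriction) along `ι₂` -/
def tr₂ (ψ : Additive (Gamma0 (N * q)) →+ A) : Additive (Gamma0 N) →+ A :=
  transferAlong (incl₂ N q) ψ

theorem tr₁_add (ψ ψ' : Additive (Gamma0 (N * q)) →+ A) :
    tr₁ N q (ψ + ψ') = tr₁ N q ψ + tr₁ N q ψ' := transferAlong_add _ ψ ψ'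
theorem tr₂_add (ψ ψ' : Additive (Gamma0 (N * q)) →+ A) :
    tr₂ N q (ψ + ψ') = tr₂ N q ψ + tr₂ N q ψ' := transferAlong_add _ ψ ψ'

theorem tr₁_zero : tr₁ N q (0 : Additive (Gamma0 (N * q)) →+ A) = 0 := transferAlong_zero _
theorem tr₂_zero : tr₂ N q (0 : Additive (Gamma0 (N * q)) →+ A) = 0 := transferAlong_zero _

theorem tr₁_neg (ψ : Additive (Gamma0 (N * q)) →+ A) : tr₁ N q (-ψ) = -tr₁ N q ψ :=
  transferAlong_neg _ ψ
theorem tr₂_neg (ψ : Additive (Gamma0 (N * q)) →+ A) : tr₂ N q (-ψ) = -tr₂ N q ψ :=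
  transferAlong_neg _ ψ

theorem tr₁_sub (ψ ψ' : Additive (Gamma0 (N * q)) →+ A) :
    tr₁ N q (ψ - ψ') = tr₁ N q ψ - tr₁ N q ψ' := transferAlong_sub _ ψ ψ'
theorem tr₂_sub (ψ ψ' : Additive (Gamma0 (N * q)) →+ A) :
    tr₂ N q (ψ - ψ') = tr₂ N q ψ - tr₂ N q ψ' := transferAlong_sub _ ψ ψ'

theorem tr₁_zsmul (n : ℤ) (ψ : Additive (Gamma0 (N * q)) →+ A) :
    tr₁ N q (n • ψ) = n • tr₁ N q ψ := transferAlong_zsmul _ n ψ
theorem tr₂_zsmul (n : ℤ) (ψ : Additive (Gamma0 (N * q)) →+ A) :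
    tr₂ N q (n • ψ) = n • tr₂ N q ψ := transferAlong_zsmul _ n ψ

theorem tr₁_nsmul (n : ℕ) (ψ : Additive (Gamma0 (N * q)) →+ A) :
    tr₁ N q (n • ψ) = n • tr₁ N q ψ := transferAlong_nsmul _ n ψ
theorem tr₂_nsmul (n : ℕ) (ψ : Additive (Gamma0 (N * q)) →+ A) :
    tr₂ N q (n • ψ) = n • tr₂ N q ψ := transferAlong_nsmul _ n ψ

/-- naturality in the coefficient group -/
theorem tr₁_comp {B : Type*} [AddCommGroup B] (h : A →+ B) (ψ : Additive (Gamma0 (N * q)) →+ A) :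
    tr₁ N q (h.comp ψ) = h.comp (tr₁ N q ψ) := transferAlong_comp _ h ψ
theorem tr₂_comp {B : Type*} [AddCommGroup B] (h : A →+ B) (ψ : Additive (Gamma0 (N * q)) →+ A) :
    tr₂ N q (h.comp ψ) = h.comp (tr₂ N q ψ) := transferAlong_comp _ h ψ

/-- **Computing `tr₁`**: any system of representatives `r : ι → Γ₀(N)` of `Γ₀(Nq) \ Γ₀(N)` with
`r i * γ = incl₁ (part i) * r (σ i)` gives `(tr₁ ψ)(γ) = ∑ i, ψ (part i)`. -/
theorem tr₁_apply_of_reps {ι : Type*} [Fintype ι] (r : ι → Gamma0 N)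
    (hcov : ∀ g : Gamma0 N, ∃ i, ∃ h : Gamma0 (N * q), g = incl₁ N q h * r i)
    (hinj : ∀ i j, (∃ h : Gamma0 (N * q), r i = incl₁ N q h * r j) → i = j)
    (γ : Gamma0 N) (σ : ι → ι) (part : ι → Gamma0 (N * q))
    (hspec : ∀ i, r i * γ = incl₁ N q (part i) * r (σ i))
    (ψ : Additive (Gamma0 (N * q)) →+ A) :
    tr₁ N q ψ (Additive.ofMul γ) = ∑ i, ψ (Additive.ofMul (part i)) :=
  transferAlong_apply_of_reps (incl₁ N q) (incl₁_injective N q) r hcov hinj γ σ part hspec ψ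

/-- **Computing `tr₂`**: any system of representatives `r : ι → Γ₀(N)` of
`incl₂(Γ₀(Nq)) \ Γ₀(N)` with `r i * γ = incl₂ (part i) * r (σ i)` gives
`(tr₂ ψ)(γ) = ∑ i, ψ (part i)`. -/
theorem tr₂_apply_of_reps (hq : q ≠ 0) {ι : Type*} [Fintype ι] (r : ι → Gamma0 N)
    (hcov : ∀ g : Gamma0 N, ∃ i, ∃ h : Gamma0 (N * q), g = incl₂ N q h * r i)
    (hinj : ∀ i j, (∃ h : Gamma0 (N * q), r i = incl₂ N q h * r j) → i = j)
    (γ : Gamma0 N) (σ : ι → ι) (part : ι → Gamma0 (N * q))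
    (hspec : ∀ i, r i * γ = incl₂ N q (part i) * r (σ i))
    (ψ : Additive (Gamma0 (N * q)) →+ A) :
    tr₂ N q ψ (Additive.ofMul γ) = ∑ i, ψ (Additive.ofMul (part i)) :=
  transferAlong_apply_of_reps (incl₂ N q) (incl₂_injective N q hq) r hcov hinj γ σ part hspec ψ

end COH

end Fermat.Agent.S41
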