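/-
S41 (level raising), block [COH], leaf (C4): parabolic classes are preserved by transfer-type
operators.  Owner: helper28.

* `sum_eq_zero_of_orbit_sums`: a sum over a finite type vanishes as soon as all the sums over the
  orbits of a permutation vanish;
* `trace_pow_sq_eq_four`: powers of an element of `SL(2, ℤ)` with `trace ^ 2 = 4` have
  `trace ^ 2 = 4`;
* `sum_eq_zero_of_parabolic`: the GENERIC CORE.  If `rep i * γ = P i * rep (σ i)` for a family of
  matrices `rep : ι → GL (Fin 2) ℝ`, a permutation `σ` and `P i ∈ H`, and `γ` has `trace ^ 2 = 4`,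
  then `∑ i, φ (P i) = 0` for every parabolic homomorphism `φ` on `H` (any coefficient group);
* `isParabolicHom_heckeTHom`, `isParabolicHom_heckeUHom`: the S16 operators `T_ℓ`, `U_ℓ` on
  `Hom(Γ₀(M), A)` preserve parabolic homomorphisms.
-/
import Mathlib
import Fermat.Prelude.Def_ModularCurve_PeriodMap
import Fermat.Agent.S16.HeckeHom

set_option autoImplicit false

noncomputable section

namespace Fermat.Agent.S41.ParMem

open CongruenceSubgroup Matrix.SpecialLinearGroup ModularCurve.Period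
open scoped MatrixGroups

/-! ### Orbit sums -/

/-- If all sums of `f` along the closed orbits of a permutation `σ` vanish, then the total sum
vanishes. -/
theorem sum_eq_zero_of_orbit_sums {ι A : Type*} [Fintype ι] [AddCommGroup A] (σ : Equiv.Perm ι)
    (f : ι → A)
    (h : ∀ (i : ι) (m : ℕ), (σ ^ m) i = i → ∑ j ∈ Finset.range m, f ((σ ^ j) i) = 0) :
    ∑ i, f i = 0 := by
  classical
  have key : ∀ (n : ℕ) (S : Finset ι), S.card = n → (∀ x, σ x ∈ S ↔ x ∈ S) →
      ∑ x ∈ S, f x = 0 := by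
    intro n
    induction n using Nat.strong_induction_on with
    | _ n ih =>
      intro S hS hstab
      rcases S.eq_empty_or_nonempty with rfl | ⟨i, hi⟩
      · simp
      · have hper : Function.IsPeriodicPt σ (orderOf σ) i := by
          show σ^[orderOf σ] i = i
          rw [Equiv.Perm.iterate_eq_pow, pow_orderOf_eq_one]
          rfl
        set m := Function.minimalPeriod σ i with hm
        have hm0 : 0 < m := hper.minimalPeriod_pos (orderOf_pos σ)
        have hmi : (σ ^ m) i = i := by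
          have := Function.isPeriodicPt_minimalPeriod σ i
          rw [← Equiv.Perm.iterate_eq_pow]
          exact this
        set O : Finset ι := (Finset.range m).image (fun j => (σ ^ j) i) with hO
        have hmem : ∀ x, x ∈ O ↔ ∃ k : ℕ, (σ ^ k) i = x := by
          intro x
          constructor
          · intro hx
            obtain ⟨j, -, rfl⟩ := Finset.mem_image.mp hx
            exact ⟨j, rfl⟩
          · rintro ⟨k, rfl⟩
            refine Finset.mem_image.mpr ⟨k % m, Finset.mem_range.mpr (Nat.mod_lt _ hm0), ?_⟩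
            have := Function.iterate_mod_minimalPeriod_eq (f := σ) (x := i) (n := k)
            rw [Equiv.Perm.iterate_eq_pow, Equiv.Perm.iterate_eq_pow] at this
            exact this
        have hOstab : ∀ x, σ x ∈ O ↔ x ∈ O := by
          intro x
          rw [hmem, hmem]
          constructor
          · rintro ⟨k, hk⟩
            refine ⟨k + m - 1, ?_⟩
            apply σ.injective
            rw [← hk]
            have e1 : σ ((σ ^ (k + m - 1)) i) = (σ ^ (k + m - 1 + 1)) i := by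
              rw [pow_succ']; rfl
            rw [e1, Nat.sub_add_cancel (by omega), pow_add, Equiv.Perm.mul_apply, hmi]
          · rintro ⟨k, rfl⟩
            exact ⟨k + 1, by rw [pow_succ']; rfl⟩
        have hOS : O ⊆ S := by
          intro x hx
          obtain ⟨k, rfl⟩ := (hmem x).mp hx
          induction k with
          | zero => simpa using hi
          | succ k ihk =>
            rw [pow_succ', Equiv.Perm.mul_apply]
            exact (hstab _).mpr (ihk ((hmem _).mpr ⟨k, rfl⟩))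
        have hiO : i ∈ O := (hmem i).mpr ⟨0, by simp⟩
        have hsumO : ∑ x ∈ O, f x = 0 := by
          rw [hO, Finset.sum_image]
          · exact h i m hmi
          · intro j hj j' hj' hjj'
            have hinj := Function.iterate_injOn_Iio_minimalPeriod (f := σ) (x := i)
            apply hinj (Set.mem_Iio.mpr (Finset.mem_range.mp hj))
              (Set.mem_Iio.mpr (Finset.mem_range.mp hj'))
            show σ^[j] i = σ^[j'] i
            rw [Equiv.Perm.iterate_eq_pow, Equiv.Perm.iterate_eq_pow]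
            exact hjj'
        have hstab' : ∀ x, σ x ∈ S \ O ↔ x ∈ S \ O := by
          intro x
          rw [Finset.mem_sdiff, Finset.mem_sdiff, hstab, hOstab]
        have hcard : (S \ O).card < n := by
          rw [← hS]
          apply Finset.card_lt_card
          refine ⟨Finset.sdiff_subset, fun hsub => ?_⟩
          have := hsub hi
          rw [Finset.mem_sdiff] at this
          exact this.2 hiO
        have h1 := ih (S \ O).card hcard (S \ O) rfl hstab'
        rw [← Finset.sum_sdiff hOS, h1, hsumO, add_zero]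
  simpa using key _ Finset.univ rfl (fun x => by simp)

/-! ### Powers of parabolic elements -/

/-- Powers of an element of `SL(2, ℤ)` with `trace ^ 2 = 4` again have `trace ^ 2 = 4`. -/
theorem trace_pow_sq_eq_four (g : SL(2, ℤ))
    (hg : (g : Matrix (Fin 2) (Fin 2) ℤ).trace ^ 2 = 4) (m : ℕ) :
    ((g ^ m : SL(2, ℤ)) : Matrix (Fin 2) (Fin 2) ℤ).trace ^ 2 = 4 := by
  set M : Matrix (Fin 2) (Fin 2) ℤ := (g : Matrix (Fin 2) (Fin 2) ℤ) with hM
  have hdet : M 0 0 * M 1 1 - M 0 1 * M 1 0 = 1 := by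
    have := g.det_coe
    rw [Matrix.det_fin_two] at this
    exact this
  have htr : M.trace = M 0 0 + M 1 1 := Matrix.trace_fin_two M
  set t : ℤ := M.trace with ht
  have hCH : M * M = t • M - 1 := by
    refine Matrix.ext fun i j => ?_
    rw [Matrix.sub_apply, Matrix.smul_apply, smul_eq_mul, Matrix.mul_apply, Fin.sum_univ_two,
      Matrix.one_apply, htr]
    fin_cases i <;> fin_cases j
    · show M 0 0 * M 0 0 + M 0 1 * M 1 0 =
        (M 0 0 + M 1 1) * M 0 0 - if (0 : Fin 2) = 0 then 1 else 0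
      rw [if_pos rfl]
      linear_combination (-1 : ℤ) * hdet
    · show M 0 0 * M 0 1 + M 0 1 * M 1 1 =
        (M 0 0 + M 1 1) * M 0 1 - if (0 : Fin 2) = 1 then 1 else 0
      rw [if_neg (by decide)]
      ring
    · show M 1 0 * M 0 0 + M 1 1 * M 1 0 =
        (M 0 0 + M 1 1) * M 1 0 - if (1 : Fin 2) = 0 then 1 else 0
      rw [if_neg (by decide)]
      ring
    · show M 1 0 * M 0 1 + M 1 1 * M 1 1 =
        (M 0 0 + M 1 1) * M 1 1 - if (1 : Fin 2) = 1 then 1 else 0
      rw [if_pos rfl]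
      linear_combination (-1 : ℤ) * hdet
  have hrec : ∀ k : ℕ, (M ^ (k + 2)).trace = t * (M ^ (k + 1)).trace - (M ^ k).trace := by
    intro k
    have e : M ^ (k + 2) = t • M ^ (k + 1) - M ^ k := by
      rw [pow_add, pow_two, hCH, mul_sub, mul_one, Matrix.mul_smul, ← pow_succ]
    rw [e, Matrix.trace_sub, Matrix.trace_smul, smul_eq_mul]
  have h0 : (M ^ 0).trace = 2 := by
    rw [pow_zero, Matrix.trace_one]
    rfl
  have h1 : (M ^ 1).trace = t := by rw [pow_one]
  rw [Matrix.SpecialLinearGroup.coe_pow]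
  have ht2 : t = 2 ∨ t = -2 := by
    have h4 : (t - 2) * (t + 2) = 0 := by linear_combination hg
    rcases mul_eq_zero.mp h4 with h | h
    · left; linarith
    · right; linarith
  rcases ht2 with h2 | h2
  · have hall : ∀ k : ℕ, (M ^ k).trace = 2 ∧ (M ^ (k + 1)).trace = 2 := by
      intro k
      induction k with
      | zero => exact ⟨h0, by rw [zero_add, h1, h2]⟩
      | succ k ih => exact ⟨ih.2, by rw [hrec k, ih.1, ih.2, h2]; norm_num⟩
    rw [(hall m).1]
    norm_num
  · have hall : ∀ k : ℕ, (M ^ k).trace = 2 * (-1) ^ k ∧ (M ^ (k + 1)).trace = 2 * (-1) ^ (k + 1) := by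
      intro k
      induction k with
      | zero => exact ⟨by rw [h0]; norm_num, by rw [zero_add, h1, h2]; norm_num⟩
      | succ k ih =>
        refine ⟨ih.2, ?_⟩
        rw [hrec k, ih.1, ih.2, h2]
        ring
    rw [(hall m).1, mul_pow, ← pow_mul, mul_comm m 2, pow_mul]
    norm_num

/-! ### The generic core -/

/-- Products of the parts along the orbit of `i`: `cycProd σ P k i = P i * P (σ i) * ⋯`
(`k` factors). -/
def cycProd {H ι : Type*} [Group H] (σ : ι → ι) (P : ι → H) : ℕ → ι → H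
  | 0, _ => 1
  | k + 1, i => P i * cycProd σ P k (σ i)

theorem cycProd_spec {G H ι : Type*} [Group G] [Group H] (f : H →* G) (rep : ι → G) (g : G)
    (σ : Equiv.Perm ι) (P : ι → H) (hP : ∀ i, rep i * g = f (P i) * rep (σ i)) (k : ℕ) (i : ι) :
    rep i * g ^ k = f (cycProd σ P k i) * rep ((σ ^ k) i) := by
  induction k generalizing i with
  | zero => simp [cycProd]
  | succ k ih =>
    have e : (σ ^ (k + 1)) i = (σ ^ k) (σ i) := by
      rw [pow_succ, Equiv.Perm.mul_apply]
    rw [pow_succ', ← mul_assoc, hP i, mul_assoc, ih (σ i), ← mul_assoc, cycProd, map_mul, e]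

theorem map_cycProd {H ι A : Type*} [Group H] [AddCommGroup A] (φ : Additive H →+ A)
    (σ : Equiv.Perm ι) (P : ι → H) (k : ℕ) (i : ι) :
    φ (Additive.ofMul (cycProd σ P k i)) =
      ∑ j ∈ Finset.range k, φ (Additive.ofMul (P ((σ ^ j) i))) := by
  induction k generalizing i with
  | zero => simp [cycProd]
  | succ k ih =>
    rw [cycProd, ofMul_mul, map_add, ih (σ i), Finset.sum_range_succ']
    simp only [pow_succ, Equiv.Perm.mul_apply, pow_zero, Equiv.Perm.one_apply]
    rw [add_comm]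

/-- **Generic core of (C4).**  Let `rep : ι → GL (Fin 2) ℝ` be a finite family of matrices,
`γ ∈ SL(2, ℤ)` with `trace ^ 2 = 4`, and suppose `rep i * γ = P i * rep (σ i)` with `P i ∈ H` and
`σ` a permutation.  Then `∑ i, φ (P i) = 0` for every parabolic homomorphism `φ` on `H`. -/
theorem sum_eq_zero_of_parabolic {H : Subgroup SL(2, ℤ)} {A : Type*} [AddCommGroup A]
    (φ : Additive H →+ A) (hφ : IsParabolicHom H φ) {ι : Type*} [Fintype ι]
    (rep : ι → GL (Fin 2) ℝ) (γ : SL(2, ℤ))
    (hγ : (γ : Matrix (Fin 2) (Fin 2) ℤ).trace ^ 2 = 4) (σ : Equiv.Perm ι) (P : ι → H)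
    (hP : ∀ i, rep i * mapGL ℝ γ = mapGL ℝ ((P i : H) : SL(2, ℤ)) * rep (σ i)) :
    ∑ i, φ (Additive.ofMul (P i)) = 0 := by
  apply sum_eq_zero_of_orbit_sums σ
  intro i m hm
  rw [← map_cycProd φ σ P m i]
  apply hφ
  -- the cycle product is conjugate to `γ ^ m`
  have h1 := cycProd_spec ((mapGL ℝ).comp H.subtype) rep (mapGL ℝ γ) σ P hP m i
  rw [hm, ← map_pow] at h1
  set c : SL(2, ℤ) := ((cycProd σ P m i : H) : SL(2, ℤ)) with hc
  have h2 : ((mapGL ℝ c : GL (Fin 2) ℝ) : Matrix (Fin 2) (Fin 2) ℝ) *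
      (rep i : Matrix (Fin 2) (Fin 2) ℝ) =
      (rep i : Matrix (Fin 2) (Fin 2) ℝ) *
        ((mapGL ℝ (γ ^ m) : GL (Fin 2) ℝ) : Matrix (Fin 2) (Fin 2) ℝ) := by
    have := congrArg (fun x : GL (Fin 2) ℝ => (x : Matrix (Fin 2) (Fin 2) ℝ)) h1
    simp only [Matrix.GeneralLinearGroup.coe_mul] at this
    exact this.symm
  have h3 : ((mapGL ℝ c : GL (Fin 2) ℝ) : Matrix (Fin 2) (Fin 2) ℝ).trace =
      ((mapGL ℝ (γ ^ m) : GL (Fin 2) ℝ) : Matrix (Fin 2) (Fin 2) ℝ).trace := by
    have hinv : (rep i : Matrix (Fin 2) (Fin 2) ℝ) *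
        ((rep i)⁻¹ : GL (Fin 2) ℝ) = 1 := by
      rw [← Matrix.GeneralLinearGroup.coe_mul, mul_inv_cancel]
      rfl
    have hinv' : (((rep i)⁻¹ : GL (Fin 2) ℝ) : Matrix (Fin 2) (Fin 2) ℝ) *
        (rep i : Matrix (Fin 2) (Fin 2) ℝ) = 1 := by
      rw [← Matrix.GeneralLinearGroup.coe_mul, inv_mul_cancel]
      rfl
    calc ((mapGL ℝ c : GL (Fin 2) ℝ) : Matrix (Fin 2) (Fin 2) ℝ).trace
        = (((mapGL ℝ c : GL (Fin 2) ℝ) : Matrix (Fin 2) (Fin 2) ℝ) *
            ((rep i : Matrix (Fin 2) (Fin 2) ℝ) * ((rep i)⁻¹ : GL (Fin 2) ℝ))).trace := by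
          rw [hinv, mul_one]
      _ = (((rep i : Matrix (Fin 2) (Fin 2) ℝ) *
            ((mapGL ℝ (γ ^ m) : GL (Fin 2) ℝ) : Matrix (Fin 2) (Fin 2) ℝ)) *
            ((rep i)⁻¹ : GL (Fin 2) ℝ)).trace := by
          rw [← mul_assoc, h2]
      _ = ((((rep i)⁻¹ : GL (Fin 2) ℝ) : Matrix (Fin 2) (Fin 2) ℝ) *
            ((rep i : Matrix (Fin 2) (Fin 2) ℝ) *
            ((mapGL ℝ (γ ^ m) : GL (Fin 2) ℝ) : Matrix (Fin 2) (Fin 2) ℝ))).trace := by
          rw [Matrix.trace_mul_comm]
      _ = ((mapGL ℝ (γ ^ m) : GL (Fin 2) ℝ) : Matrix (Fin 2) (Fin 2) ℝ).trace := by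
          rw [← mul_assoc, hinv', one_mul]
  have h4 : ∀ g : SL(2, ℤ), ((mapGL ℝ g : GL (Fin 2) ℝ) : Matrix (Fin 2) (Fin 2) ℝ).trace =
      (((g : Matrix (Fin 2) (Fin 2) ℤ).trace : ℤ) : ℝ) := by
    intro g
    rw [Matrix.trace_fin_two, Matrix.trace_fin_two]
    simp [Matrix.SpecialLinearGroup.mapGL_coe_matrix]
  rw [h4, h4] at h3
  have h5 : (c : Matrix (Fin 2) (Fin 2) ℤ).trace = ((γ ^ m : SL(2, ℤ)) : Matrix (Fin 2) (Fin 2) ℤ).trace := by
    exact_mod_cast h3
  show (c : Matrix (Fin 2) (Fin 2) ℤ).trace ^ 2 = 4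
  rw [h5]
  exact trace_pow_sq_eq_four γ hγ m

/-! ### The S16 operators -/

open Fermat.Agent.S16

/-- `T_ℓ` (`ℓ ∤ M`) preserves parabolic homomorphisms, for every coefficient group. -/
theorem isParabolicHom_heckeTHom {M ℓ : ℕ} [Fact ℓ.Prime] (hℓ : ¬ ℓ ∣ M) {A : Type*}
    [AddCommGroup A] {φ : Additive (Gamma0 M) →+ A} (h : IsParabolicHom (Gamma0 M) φ) :
    IsParabolicHom (Gamma0 M) (heckeTHom M ℓ hℓ φ) := by
  intro γ hγ
  rw [heckeTHom_apply]
  exact sum_eq_zero_of_parabolic φ h
    (P2MW.S_ModularForm_heckeT_slash_eq_self_of_mem_Gamma0.ModularForm.HeckeSlashInvariance.heckeRep ℓ)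
    (γ : SL(2, ℤ)) hγ ((tData M ℓ hℓ).perm γ) ((tData M ℓ hℓ).part γ)
    (fun x => tData_spec hℓ γ x)

/-- `U_ℓ` (`ℓ ∣ M`) preserves parabolic homomorphisms, for every coefficient group. -/
theorem isParabolicHom_heckeUHom {M ℓ : ℕ} [NeZero ℓ] (hℓ : ℓ ∣ M) {A : Type*}
    [AddCommGroup A] {φ : Additive (Gamma0 M) →+ A} (h : IsParabolicHom (Gamma0 M) φ) :
    IsParabolicHom (Gamma0 M) (heckeUHom M ℓ hℓ φ) := by
  intro γ hγ
  rw [heckeUHom_apply]
  exact sum_eq_zero_of_parabolic φ h (fun x : ZMod ℓ => ModularForm.heckeMatrix ℓ x.val)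
    (γ : SL(2, ℤ)) hγ ((uData M ℓ hℓ).perm γ) ((uData M ℓ hℓ).part γ)
    (fun x => uData_spec hℓ γ x)

end Fermat.Agent.S41.ParMem
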