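/-
S41, block [FS] (owner: helper97) — shared lemmas for both [FS] routes.

* `heckeTLin_eq_smul` : a normalized eigenform (in the prelude sense: multiplicative
  `q`-coefficients) is an eigenvector of `T_ℓ`, `ℓ ∤ N`, with eigenvalue its `ℓ`-th coefficient;
* `periodMap_ne_zero` : the period map of a nonzero cusp form is nonzero (Eichler–Shimura
  injectivity).
-/
import Mathlib
import Fermat.Prelude.Def_FLTPrelim_Modularity
import Fermat.Agent.S49.QCoeff
import Fermat.Agent.S21.Main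

set_option autoImplicit false

namespace Fermat.Agent.S41.FSEigen

open ModularFormClass CongruenceSubgroup ModularCurve ModularCurve.Period
open Fermat.Agent.S49

/-- A normalized eigenform is an eigenvector of `T_ℓ` (`ℓ ∤ N`) with eigenvalue `a_ℓ`. -/
theorem heckeTLin_eq_smul {N : ℕ} [NeZero N] (f : CuspForm (Gamma0 N) 2)
    (hf : f.IsNormalizedEigenform) {ℓ : ℕ} (hℓ : ℓ.Prime) (hℓN : ¬ ℓ ∣ N) :
    CuspForm.heckeTLin 2 hℓ hℓN f = ModularFormClass.qCoeff f ℓ • f := by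
  rw [← sub_eq_zero]
  apply eq_zero_of_forall_qCoeff_eq_zero
  intro n
  rw [qCoeff_sub, qCoeff_smul, qCoeff_heckeTLin hℓ hℓN f n, sub_eq_zero]
  have h21 : ((2 : ℤ) - 1) = 1 := by norm_num
  rw [h21, zpow_one]
  rcases Nat.eq_zero_or_pos n with rfl | hn
  · simp [qCoeff_zero_eq_zero]
  · obtain ⟨e, m, hm, rfl⟩ := Nat.exists_eq_pow_mul_and_not_dvd hn.ne' ℓ hℓ.ne_one
    have hcop1 : ℓ.Coprime m := (Nat.Prime.coprime_iff_not_dvd hℓ).mpr hm
    have hcop : ∀ j : ℕ, (ℓ ^ j).Coprime m := fun j => Nat.Coprime.pow_left j hcop1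
    cases e with
    | zero =>
      have hnd : ¬ ℓ ∣ ℓ ^ 0 * m := by simpa using hm
      rw [if_neg hnd, add_zero]
      have h1 : ℓ ^ 0 * m * ℓ = ℓ * m := by ring
      rw [h1, pow_zero, one_mul, hf.qCoeff_mul_of_coprime ℓ m hcop1]
    | succ s =>
      have hd : ℓ ∣ ℓ ^ (s + 1) * m := Dvd.dvd.mul_right (dvd_pow_self ℓ (Nat.succ_ne_zero s)) m
      rw [if_pos hd]
      have h1 : ℓ ^ (s + 1) * m * ℓ = ℓ ^ (s + 2) * m := by ring
      have h2 : ℓ ^ (s + 1) * m / ℓ = ℓ ^ s * m := by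
        have h3 : ℓ ^ (s + 1) * m = ℓ ^ s * m * ℓ := by ring
        rw [h3]
        exact Nat.mul_div_cancel _ hℓ.pos
      rw [h1, h2, hf.qCoeff_mul_of_coprime _ _ (hcop (s + 2)),
        hf.qCoeff_mul_of_coprime _ _ (hcop s), hf.qCoeff_mul_of_coprime _ _ (hcop (s + 1)),
        hf.qCoeff_prime_pow_of_not_dvd ℓ s hℓ hℓN]
      ring

/-- The period map of a nonzero cusp form is nonzero. -/
theorem periodMap_ne_zero {N : ℕ} [NeZero N] (f : CuspForm (Gamma0 N) 2) (hf : f ≠ 0) :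
    ModularCurve.periodMap N f ≠ 0 := by
  intro h0
  have h1 := Fermat.Agent.S21.periodHomPair_apply N (Fermat.Agent.S21.existsPeriodMapLinear N) f 0
  rw [add_zero, sub_zero, h0, map_zero, add_zero] at h1
  have h2 : periodHomPair N (f, 0) = periodHomPair N 0 := by
    rw [h1, map_zero]
  have h3 := Fermat.Agent.S21.periodHomPair_injective_Gamma0 N h2
  exact hf (congrArg Prod.fst h3)

end Fermat.Agent.S41.FSEigen
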