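/-
S41 block [NE], leaf [AA] (helper84): almost-all integrality.

For a finite set `T` of algebraic numbers there is a bound `B` such that every element of `T`
lies in every valuation subring of `ℚ̄` in which some prime `ℓ > B` is a nonunit.
-/
import Mathlib

set_option autoImplicit false

namespace Fermat.Agent.S41.AA

/-- Integral elements lie in every valuation subring. -/
theorem mem_of_isIntegral_int {K : Type*} [Field K] (A : ValuationSubring K) {b : K}
    (hb : IsIntegral ℤ b) : b ∈ A := by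
  have h1 : IsIntegral A b := hb.tower_top
  obtain ⟨y, hy⟩ := IsIntegrallyClosed.isIntegral_iff.mp h1
  rw [← hy]
  exact y.2

/-- an integer not divisible by `ℓ` has valuation one in every valuation subring in which `ℓ`
is a nonunit. -/
theorem valuation_intCast_eq_one {K : Type*} [Field K] (A : ValuationSubring K) {ℓ : ℕ}
    (hℓ : ℓ.Prime) (hA : (ℓ : K) ∈ A.nonunits) {d : ℤ} (hd : ¬ (ℓ : ℤ) ∣ d) :
    A.valuation (d : K) = 1 := by
  have hle : ∀ n : ℤ, A.valuation (n : K) ≤ 1 := fun n =>
    (A.valuation_le_one_iff _).mpr (intCast_mem A n)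
  refine le_antisymm (hle d) ?_
  by_contra hlt
  rw [not_le] at hlt
  have hcop : IsCoprime (ℓ : ℤ) d :=
    (Nat.prime_iff_prime_int.mp hℓ).coprime_iff_not_dvd.mpr hd
  obtain ⟨a, b, hab⟩ := hcop
  have h1 : A.valuation ((a : K) * (ℓ : K)) < 1 := by
    rw [map_mul]
    calc A.valuation (a : K) * A.valuation (ℓ : K) ≤ 1 * A.valuation (ℓ : K) := by
          gcongr
          exact hle a
      _ = A.valuation (ℓ : K) := one_mul _
      _ < 1 := A.mem_nonunits_iff.mp hA
  have h2 : A.valuation ((b : K) * (d : K)) < 1 := by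
    rw [map_mul]
    calc A.valuation (b : K) * A.valuation (d : K) ≤ 1 * A.valuation (d : K) := by
          gcongr
          exact hle b
      _ = A.valuation (d : K) := one_mul _
      _ < 1 := hlt
  have h3 : ((a : K) * (ℓ : K)) + ((b : K) * (d : K)) = 1 := by
    have := congrArg (Int.cast : ℤ → K) hab
    push_cast at this
    exact this
  have h4 : A.valuation (1 : K) < 1 := by
    rw [← h3]
    exact lt_of_le_of_lt (A.valuation.map_add _ _) (max_lt h1 h2)
  rw [map_one] at h4
  exact lt_irrefl _ h4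

/-- almost-all integrality: a finite set of algebraic numbers is contained in every valuation
subring of `ℚ̄` lying over a large prime. -/
theorem almostAll_mem (T : Finset (AlgebraicClosure ℚ)) :
    ∃ B : ℕ, ∀ ℓ : ℕ, ℓ.Prime → B < ℓ → ∀ A : ValuationSubring (AlgebraicClosure ℚ),
      (ℓ : AlgebraicClosure ℚ) ∈ A.nonunits → ∀ t ∈ T, t ∈ A := by
  have h1 : Algebra.IsAlgebraic ℤ ℚ := IsLocalization.isAlgebraic ℚ (nonZeroDivisors ℤ)
  have h0 : Algebra.IsAlgebraic ℚ (AlgebraicClosure ℚ) := AlgebraicClosure.isAlgebraic ℚ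
  have h2 : Algebra.IsAlgebraic ℤ (AlgebraicClosure ℚ) :=
    Algebra.IsAlgebraic.trans ℤ ℚ (AlgebraicClosure ℚ)
  obtain ⟨y, hy0, hy⟩ := Algebra.IsAlgebraic.exists_integral_multiples (R := ℤ) T
  refine ⟨y.natAbs, fun ℓ hℓ hB A hA t ht => ?_⟩
  have hnd : ¬ (ℓ : ℤ) ∣ y := by
    intro hdvd
    have h3 : ℓ ∣ y.natAbs := Int.natCast_dvd.mp hdvd
    have h4 : ℓ ≤ y.natAbs := Nat.le_of_dvd (Int.natAbs_pos.mpr hy0) h3
    omega
  have hv := valuation_intCast_eq_one A hℓ hA hnd
  have hmem : y • t ∈ A := mem_of_isIntegral_int A (hy t ht)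
  rw [← A.valuation_le_one_iff] at hmem ⊢
  have e : y • t = (y : AlgebraicClosure ℚ) * t := by
    rw [zsmul_eq_mul]
  rw [e, map_mul, hv, one_mul] at hmem
  exact hmem

end Fermat.Agent.S41.AA
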