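/-
S41 block [NE], leaf [FrobA] (helper84): a Frobenius element at a GIVEN prime `Q` of the ring of
algebraic integers (the body of `S54.exists_isFrobeniusAt`, for a prescribed `Q`).
-/
import Mathlib
import Fermat.Prelude.Def_EllipticCurve_FrobeniusTrace
import Fermat.Agent.S54.ValSub
import Fermat.Agent.S54.FrobIntB
import Fermat.Agent.S54.Frobenius

set_option autoImplicit false

namespace Fermat.Agent.S41.FrobA

open scoped Pointwise
open Fermat.Agent.S54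

attribute [local instance] isAlgebraic_int_algebraicClosure_rat

/-- an automorphism which is `b ↦ b ^ ℓ` modulo `Q` on algebraic integers is a Frobenius element
at the valuation subring `valSub Q`. -/
theorem isFrobeniusAt_valSub_of_frob (ℓ : ℕ) (hℓ : ℓ.Prime)
    (Q : Ideal (integralClosure ℤ (AlgebraicClosure ℚ))) [hQprime : Q.IsPrime]
    (σ : AlgebraicClosure ℚ ≃ₐ[ℚ] AlgebraicClosure ℚ)
    (hσ : ∀ (b c : integralClosure ℤ (AlgebraicClosure ℚ)), (c : AlgebraicClosure ℚ) = σ b →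
      c - b ^ ℓ ∈ Q) :
    (valSub Q).IsFrobeniusAt σ ℓ := by
  classical
  have hℓpos : 0 < ℓ := hℓ.pos
  have hint : ∀ (τ : AlgebraicClosure ℚ ≃ₐ[ℚ] AlgebraicClosure ℚ)
      (b : integralClosure ℤ (AlgebraicClosure ℚ)), IsIntegral ℤ (τ (b : AlgebraicClosure ℚ)) :=
    fun τ b => b.2.map τ
  have hQiff : ∀ (b c : integralClosure ℤ (AlgebraicClosure ℚ)),
      (c : AlgebraicClosure ℚ) = σ b → (c ∈ Q ↔ b ∈ Q) := by
    intro b c hbc
    have h := hσ b c hbc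
    constructor
    · intro hc
      have : b ^ ℓ ∈ Q := by
        have := Q.sub_mem hc h
        simpa using this
      exact hQprime.mem_of_pow_mem _ this
    · intro hb
      have : c - b ^ ℓ + b ^ ℓ ∈ Q := Q.add_mem h (Ideal.pow_mem_of_mem Q hb ℓ hℓpos)
      simpa using this
  have hstab : ∀ x : AlgebraicClosure ℚ, x ∈ valSub Q → σ x ∈ valSub Q := by
    rintro x ⟨a, s, hs, h⟩
    refine ⟨⟨σ a, hint σ a⟩, ⟨σ s, hint σ s⟩, ?_, ?_⟩
    · exact fun hmem => hs ((hQiff s ⟨σ s, hint σ s⟩ rfl).mp hmem)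
    · show σ (s : AlgebraicClosure ℚ) * σ x = σ (a : AlgebraicClosure ℚ)
      rw [← map_mul, h]
  have hstab' : ∀ x : AlgebraicClosure ℚ, x ∈ valSub Q → σ.symm x ∈ valSub Q := by
    rintro x ⟨a, s, hs, h⟩
    refine ⟨⟨σ.symm a, hint σ.symm a⟩, ⟨σ.symm s, hint σ.symm s⟩, ?_, ?_⟩
    · intro hmem
      exact hs ((hQiff ⟨σ.symm s, hint σ.symm s⟩ s (by simp)).mpr hmem)
    · show σ.symm (s : AlgebraicClosure ℚ) * σ.symm x = σ.symm (a : AlgebraicClosure ℚ)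
      rw [← map_mul, h]
  have hdec : σ ∈ (valSub Q).decompositionSubgroup ℚ := by
    rw [MulAction.mem_stabilizer_iff]
    ext x
    rw [ValuationSubring.mem_pointwise_smul_iff_inv_smul_mem]
    have hinv : σ⁻¹ • x = σ.symm x := rfl
    rw [hinv]
    constructor
    · intro hx
      have := hstab _ hx
      simpa using this
    · exact hstab' x
  refine ⟨hdec, ?_⟩
  intro x
  obtain ⟨y, rfl⟩ := IsLocalRing.residue_surjective x
  rw [← IsLocalRing.ResidueField.residue_smul, ← map_pow]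
  rw [← sub_eq_zero, ← map_sub, IsLocalRing.residue_eq_zero_iff,
    ← ValuationSubring.coe_mem_nonunits_iff]
  obtain ⟨y, a, s, hs, h⟩ := y
  set a' : integralClosure ℤ (AlgebraicClosure ℚ) := ⟨σ a, hint σ a⟩ with ha'
  set s' : integralClosure ℤ (AlgebraicClosure ℚ) := ⟨σ s, hint σ s⟩ with hs'
  have hs'Q : s' ∉ Q := fun hmem => hs ((hQiff s s' rfl).mp hmem)
  have hnum : a' * s ^ ℓ - a ^ ℓ * s' ∈ Q := by
    have h1 := hσ a a' rfl
    have h2 := hσ s s' rfl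
    have : a' * s ^ ℓ - a ^ ℓ * s' = (a' - a ^ ℓ) * s ^ ℓ - a ^ ℓ * (s' - s ^ ℓ) := by ring
    rw [this]
    exact Q.sub_mem (Ideal.mul_mem_right _ _ h1) (Ideal.mul_mem_left _ _ h2)
  have hden : s' * s ^ ℓ ∉ Q := by
    intro hmem
    rcases hQprime.mem_or_mem hmem with h1 | h1
    · exact hs'Q h1
    · exact hs (hQprime.mem_of_pow_mem _ h1)
  refine mem_nonunits_valSub Q (a' * s ^ ℓ - a ^ ℓ * s') (s' * s ^ ℓ) hnum hden ?_
  have hcoe : (((⟨σ, hdec⟩ : (valSub Q).decompositionSubgroup ℚ) •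
      (⟨y, a, s, hs, h⟩ : valSub Q) - (⟨y, a, s, hs, h⟩ : valSub Q) ^ ℓ : valSub Q) :
        AlgebraicClosure ℚ) = σ y - y ^ ℓ := rfl
  rw [hcoe]
  push_cast
  have e1 : σ (s : AlgebraicClosure ℚ) * σ y = σ (a : AlgebraicClosure ℚ) := by
    rw [← map_mul, h]
  show σ (s : AlgebraicClosure ℚ) * (s : AlgebraicClosure ℚ) ^ ℓ * (σ y - y ^ ℓ) =
    σ (a : AlgebraicClosure ℚ) * (s : AlgebraicClosure ℚ) ^ ℓ -
      (a : AlgebraicClosure ℚ) ^ ℓ * σ (s : AlgebraicClosure ℚ)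
  rw [← e1, ← h]
  ring

/-- a Frobenius element at a given prime `Q ∋ ℓ` of the ring of algebraic integers, together with
its defining congruence on algebraic integers. -/
theorem exists_frob_valSub (ℓ : ℕ) (hℓ : ℓ.Prime)
    (Q : Ideal (integralClosure ℤ (AlgebraicClosure ℚ))) [Q.IsPrime]
    (hQ : (ℓ : integralClosure ℤ (AlgebraicClosure ℚ)) ∈ Q) :
    ∃ σ : AlgebraicClosure ℚ ≃ₐ[ℚ] AlgebraicClosure ℚ,
      (∀ (b c : integralClosure ℤ (AlgebraicClosure ℚ)), (c : AlgebraicClosure ℚ) = σ b →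
        c - b ^ ℓ ∈ Q) ∧ (valSub Q).IsFrobeniusAt σ ℓ := by
  obtain ⟨σ, hσ⟩ := FrobIntB.exists_frob_on_integers ℓ hℓ Q hQ
  exact ⟨σ, hσ, isFrobeniusAt_valSub_of_frob ℓ hℓ Q σ hσ⟩

/-- [FrobA]: a Frobenius element at a given prime `Q ∋ ℓ`. -/
theorem exists_isFrobeniusAt_valSub (ℓ : ℕ) (hℓ : ℓ.Prime)
    (Q : Ideal (integralClosure ℤ (AlgebraicClosure ℚ))) [Q.IsPrime]
    (hQ : (ℓ : integralClosure ℤ (AlgebraicClosure ℚ)) ∈ Q) :
    ∃ σ : AlgebraicClosure ℚ ≃ₐ[ℚ] AlgebraicClosure ℚ, (valSub Q).IsFrobeniusAt σ ℓ := by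
  obtain ⟨σ, -, h⟩ := exists_frob_valSub ℓ hℓ Q hQ
  exact ⟨σ, h⟩

/-- `ℓ` is a nonunit of `valSub Q` when `ℓ ∈ Q`. -/
theorem natCast_mem_nonunits_valSub (ℓ : ℕ)
    (Q : Ideal (integralClosure ℤ (AlgebraicClosure ℚ))) [hQ' : Q.IsPrime]
    (hQ : (ℓ : integralClosure ℤ (AlgebraicClosure ℚ)) ∈ Q) :
    (ℓ : AlgebraicClosure ℚ) ∈ (valSub Q).nonunits :=
  mem_nonunits_valSub Q (ℓ : integralClosure ℤ (AlgebraicClosure ℚ)) 1 hQ
    ((Ideal.ne_top_iff_one Q).mp hQ'.ne_top) (by simp)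

end Fermat.Agent.S41.FrobA
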