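/-
S41 block [NE], leaf [FL] (helper84): Frobenius-lite.

For a finite Galois-stable set `S ⊆ ℚ̄` and `τ ∈ Gal(ℚ̄/ℚ)` acting on `S` with prime order `r`,
there are arbitrarily large primes `ℓ` with a Frobenius element `σ` (at a valuation subring over
`ℓ`) such that `τ = σ ^ j` on `S`.

Analytic input: `S14Z.exists_prime_not_split` (a degree-one prime of `F = K^⟨τ⟩`, `K = ℚ(S)`,
which does not split into `r` primes of the same norm in `K`).
-/
import Mathlib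
import Fermat.Prelude.Def_EllipticCurve_FrobeniusTrace
import Fermat.Agent.S54.ValSub
import Fermat.Agent.S54.Frobenius
import Fermat.Agent.S14Z.ZetaPole
import Fermat.Agent.S41.AA
import Fermat.Agent.S41.FrobA

set_option autoImplicit false

namespace Fermat.Agent.S41.FL

open NumberField IsDedekindDomain Polynomial
open scoped IntermediateField
open Fermat.Agent.S54

local notation "Qb" => AlgebraicClosure ℚ
local notation "GQ" => (AlgebraicClosure ℚ ≃ₐ[ℚ] AlgebraicClosure ℚ)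
local notation "Zb" => integralClosure ℤ (AlgebraicClosure ℚ)

attribute [local instance] isAlgebraic_int_algebraicClosure_rat

/-! ### 1. distinct elements of a finite set stay distinct modulo almost all primes -/

theorem exists_bound_eq_of_sub_mem_nonunits (S : Finset Qb) :
    ∃ B : ℕ, ∀ ℓ : ℕ, ℓ.Prime → B < ℓ → ∀ A : ValuationSubring Qb, (ℓ : Qb) ∈ A.nonunits →
      ∀ y ∈ S, ∀ y' ∈ S, y - y' ∈ A.nonunits → y = y' := by
  classical
  obtain ⟨B, hB⟩ := AA.almostAll_mem ((S ×ˢ S).image fun z => (z.1 - z.2)⁻¹)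
  refine ⟨B, fun ℓ hℓ hBℓ A hA y hy y' hy' hmem => ?_⟩
  by_contra hne
  have h1 : (y - y')⁻¹ ∈ A := hB ℓ hℓ hBℓ A hA _
    (Finset.mem_image.mpr ⟨(y, y'), Finset.mem_product.mpr ⟨hy, hy'⟩, rfl⟩)
  have h2 : A.valuation (y - y') < 1 := A.mem_nonunits_iff.mp hmem
  have h3 : A.valuation ((y - y')⁻¹) ≤ 1 := (A.valuation_le_one_iff _).mpr h1
  have h4 : (y - y') * (y - y')⁻¹ = 1 := mul_inv_cancel₀ (sub_ne_zero.mpr hne)
  have h5 : A.valuation (1 : Qb) < 1 := by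
    rw [← h4, map_mul]
    calc A.valuation (y - y') * A.valuation ((y - y')⁻¹)
        ≤ A.valuation (y - y') * 1 := by gcongr
      _ < 1 := by rwa [mul_one]
  rw [map_one] at h5
  exact lt_irrefl _ h5

/-! ### 2. the set of conjugates of a finite set -/

/-- the (finite, Galois-stable) set of all conjugates of the elements of `S`. -/
noncomputable def conjSet (S : Finset Qb) : Finset Qb :=
  open Classical in S.biUnion fun x => ((minpoly ℚ x).aroots Qb).toFinset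

theorem mem_conjSet {S : Finset Qb} {y : Qb} :
    y ∈ conjSet S ↔ ∃ x ∈ S, aeval y (minpoly ℚ x) = 0 := by
  classical
  have h0 : Algebra.IsAlgebraic ℚ Qb := AlgebraicClosure.isAlgebraic ℚ
  unfold conjSet
  rw [Finset.mem_biUnion]
  constructor
  · rintro ⟨x, hx, hy⟩
    rw [Multiset.mem_toFinset, mem_aroots] at hy
    exact ⟨x, hx, hy.2⟩
  · rintro ⟨x, hx, hy⟩
    refine ⟨x, hx, ?_⟩
    rw [Multiset.mem_toFinset, mem_aroots]
    exact ⟨minpoly.ne_zero (h0.isAlgebraic x).isIntegral, hy⟩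

theorem subset_conjSet (S : Finset Qb) : S ⊆ conjSet S := fun x hx =>
  mem_conjSet.mpr ⟨x, hx, minpoly.aeval ℚ x⟩

theorem conjSet_stable (S : Finset Qb) (g : GQ) {y : Qb} (hy : y ∈ conjSet S) :
    g y ∈ conjSet S := by
  obtain ⟨x, hx, h⟩ := mem_conjSet.mp hy
  refine mem_conjSet.mpr ⟨x, hx, ?_⟩
  rw [aeval_algHom_apply, h, map_zero]

/-! ### 3. agreement fields -/

/-- the subfield on which two automorphisms agree. -/
def eqField (g₁ g₂ : GQ) : IntermediateField ℚ Qb where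
  carrier := {x | g₁ x = g₂ x}
  mul_mem' := fun {a b} ha hb => by
    have ha' : g₁ a = g₂ a := ha
    have hb' : g₁ b = g₂ b := hb
    show g₁ (a * b) = g₂ (a * b)
    rw [map_mul, map_mul, ha', hb']
  one_mem' := by
    show g₁ 1 = g₂ 1
    rw [map_one, map_one]
  add_mem' := fun {a b} ha hb => by
    have ha' : g₁ a = g₂ a := ha
    have hb' : g₁ b = g₂ b := hb
    show g₁ (a + b) = g₂ (a + b)
    rw [map_add, map_add, ha', hb']
  zero_mem' := by
    show g₁ 0 = g₂ 0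
    rw [map_zero, map_zero]
  algebraMap_mem' := fun q => by
    show g₁ (algebraMap ℚ Qb q) = g₂ (algebraMap ℚ Qb q)
    rw [g₁.commutes, g₂.commutes]
  inv_mem' := fun x hx => by
    have hx' : g₁ x = g₂ x := hx
    show g₁ x⁻¹ = g₂ x⁻¹
    rw [map_inv₀, map_inv₀, hx']

theorem mem_eqField {g₁ g₂ : GQ} {x : Qb} : x ∈ eqField g₁ g₂ ↔ g₁ x = g₂ x := Iff.rfl

theorem eqOn_adjoin (g₁ g₂ : GQ) (S : Set Qb) (h : ∀ x ∈ S, g₁ x = g₂ x) :
    ∀ x ∈ IntermediateField.adjoin ℚ S, g₁ x = g₂ x := by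
  have hle : IntermediateField.adjoin ℚ S ≤ eqField g₁ g₂ :=
    IntermediateField.adjoin_le_iff.mpr fun x hx => h x hx
  exact fun x hx => hle hx

theorem map_mem_adjoin (S : Set Qb) (hS : ∀ g : GQ, ∀ x ∈ S, g x ∈ S) (g : GQ) :
    ∀ x ∈ IntermediateField.adjoin ℚ S, g x ∈ IntermediateField.adjoin ℚ S := by
  have hle : IntermediateField.adjoin ℚ S ≤
      (IntermediateField.adjoin ℚ S).comap (g : Qb →ₐ[ℚ] Qb) :=
    IntermediateField.adjoin_le_iff.mpr fun x hx =>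
      IntermediateField.subset_adjoin ℚ S (hS g x hx)
  exact fun x hx => hle hx

/-! ### 4. an integral primitive element -/

theorem exists_primitive_integral (S : Finset Qb) :
    ∃ x₁ : Qb, x₁ ∈ IntermediateField.adjoin ℚ (S : Set Qb) ∧ IsIntegral ℤ x₁ ∧
      ∀ g₁ g₂ : GQ, g₁ x₁ = g₂ x₁ →
        ∀ x ∈ IntermediateField.adjoin ℚ (S : Set Qb), g₁ x = g₂ x := by
  have h0 : Algebra.IsAlgebraic ℚ Qb := AlgebraicClosure.isAlgebraic ℚ
  have hfd : FiniteDimensional ℚ (IntermediateField.adjoin ℚ (S : Set Qb)) :=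
    IntermediateField.finiteDimensional_adjoin (fun x _ => (h0.isAlgebraic x).isIntegral)
  obtain ⟨α, hα⟩ := Field.exists_primitive_element ℚ (IntermediateField.adjoin ℚ (S : Set Qb))
  obtain ⟨d, hd0, hd⟩ := (Algebra.IsAlgebraic.isAlgebraic (R := ℤ) (α : Qb)).exists_integral_multiple
  refine ⟨d • (α : Qb), ?_, hd, fun g₁ g₂ h x hx => ?_⟩
  · exact (IntermediateField.adjoin ℚ (S : Set Qb)).zsmul_mem α.2 d
  · have hα' : g₁ (α : Qb) = g₂ (α : Qb) := by
      rw [map_zsmul, map_zsmul] at h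
      exact smul_right_injective Qb hd0 h
    have hle : ℚ⟮α⟯ ≤ (eqField g₁ g₂).comap
        (IntermediateField.adjoin ℚ (S : Set Qb)).val :=
      IntermediateField.adjoin_simple_le_iff.mpr hα'
    have hx' : (⟨x, hx⟩ : IntermediateField.adjoin ℚ (S : Set Qb)) ∈ ℚ⟮α⟯ := by
      rw [hα]; exact IntermediateField.mem_top
    exact hle hx'

/-! ### 5. coefficients of a product of linear factors -/

theorem coeff_prod_X_sub_C_mem (T : Subring Qb) {ι : Type*} (s : Finset ι) (a : ι → Qb)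
    (ha : ∀ i ∈ s, a i ∈ T) (k : ℕ) : (∏ i ∈ s, (X - C (a i))).coeff k ∈ T := by
  have hmem : ∏ i ∈ s, (X - C (a i)) ∈ Polynomial.lifts T.subtype := by
    refine Subsemiring.prod_mem _ fun i hi => ?_
    rw [Polynomial.mem_lifts]
    refine ⟨X - C ⟨a i, ha i hi⟩, ?_⟩
    rw [Polynomial.map_sub, map_X, map_C]
    rfl
  obtain ⟨c, hc⟩ := (Polynomial.lifts_iff_coeff_lifts _).mp hmem k
  rw [← hc]
  exact c.2

/-! ### 6. invariance of the cyclic product -/

theorem map_prod_pow (τ : GQ) (r : ℕ) (x₁ : Qb) (h : (τ ^ r) x₁ = x₁) :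
    (∏ i ∈ Finset.range r, (X - C ((τ ^ i) x₁))).map ((τ : Qb →ₐ[ℚ] Qb) : Qb →+* Qb) =
      ∏ i ∈ Finset.range r, (X - C ((τ ^ i) x₁)) := by
  rw [Polynomial.map_prod]
  have h1 : ∀ i ∈ Finset.range r,
      (X - C ((τ ^ i) x₁)).map ((τ : Qb →ₐ[ℚ] Qb) : Qb →+* Qb) = X - C ((τ ^ (i + 1)) x₁) := by
    intro i _
    rw [Polynomial.map_sub, map_X, map_C, pow_succ']
    rfl
  rw [Finset.prod_congr rfl h1]
  have h2 := Finset.prod_range_succ' (fun i => (X - C ((τ ^ i) x₁) : Qb[X])) r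
  have h3 := Finset.prod_range_succ (fun i => (X - C ((τ ^ i) x₁) : Qb[X])) r
  rw [h3] at h2
  simp only [pow_zero, AlgEquiv.one_apply] at h2
  rw [h] at h2
  exact (mul_right_cancel₀ (X_sub_C_ne_zero x₁) h2).symm

/-! ### 7. number fields inside `ℚ̄` -/

theorem numberField_of_fd (E : IntermediateField ℚ Qb) [FiniteDimensional ℚ E] : NumberField E :=
  { to_charZero := inferInstance, to_finiteDimensional := inferInstance }

/-- the inclusion of the ring of integers of a subfield of `ℚ̄` into the ring of all algebraic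
integers. -/
noncomputable def iota (E : IntermediateField ℚ Qb) [NumberField E] : 𝓞 E →+* Zb :=
  ((algebraMap E Qb).comp (algebraMap (𝓞 E) E)).codRestrict Zb
    (fun b => map_isIntegral_int (algebraMap E Qb) (RingOfIntegers.isIntegral_coe b))

theorem iota_coe (E : IntermediateField ℚ Qb) [NumberField E] (b : 𝓞 E) :
    ((iota E b : Zb) : Qb) = ((b : E) : Qb) := rfl

theorem iota_injective (E : IntermediateField ℚ Qb) [NumberField E] :
    Function.Injective (iota E) := by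
  intro a b h
  apply RingOfIntegers.ext
  apply Subtype.ext
  have h1 := congrArg (fun z : Zb => (z : Qb)) h
  exact h1

theorem exists_iota_eq (E : IntermediateField ℚ Qb) [NumberField E] (c : Zb)
    (hc : (c : Qb) ∈ E) : ∃ b : 𝓞 E, iota E b = c := by
  have hint : IsIntegral ℤ (⟨(c : Qb), hc⟩ : E) := by
    rw [← isIntegral_algebraMap_iff (algebraMap E Qb).injective]
    exact c.2
  exact ⟨⟨⟨(c : Qb), hc⟩, hint⟩, Subtype.ext rfl⟩

/-- the inclusion of rings of integers for `F ≤ K`. -/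
noncomputable def incl {F K : IntermediateField ℚ Qb} [NumberField F] [NumberField K]
    (h : F ≤ K) : 𝓞 F →+* 𝓞 K :=
  RingOfIntegers.mapRingHom ((IntermediateField.inclusion h : F →ₐ[ℚ] K) : F →+* K)

theorem iota_incl {F K : IntermediateField ℚ Qb} [NumberField F] [NumberField K] (h : F ≤ K)
    (b : 𝓞 F) : iota K (incl h b) = iota F b :=
  Subtype.ext rfl

/-- the action of Galois on algebraic integers, as a ring homomorphism. -/
noncomputable def galZb (g : GQ) : Zb →+* Zb :=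
  (((g : Qb →ₐ[ℚ] Qb) : Qb →+* Qb).comp (algebraMap Zb Qb)).codRestrict Zb
    (fun b => map_isIntegral_int g b.2)

theorem galZb_coe (g : GQ) (b : Zb) : ((galZb g b : Zb) : Qb) = g (b : Qb) := rfl

/-! ### 8. residue fields -/

theorem pow_absNorm_sub_mem {F : Type*} [Field F] [NumberField F]
    (v : HeightOneSpectrum (𝓞 F)) (b : 𝓞 F) :
    b ^ Ideal.absNorm v.asIdeal - b ∈ v.asIdeal := by
  classical
  have : v.asIdeal.IsMaximal := v.isMaximal
  let _ : Field (𝓞 F ⧸ v.asIdeal) := Ideal.Quotient.field v.asIdeal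
  have : Finite (𝓞 F ⧸ v.asIdeal) := Ideal.finiteQuotientOfFreeOfNeBot v.asIdeal v.ne_bot
  let _ : Fintype (𝓞 F ⧸ v.asIdeal) := Fintype.ofFinite _
  have h1 : Ideal.absNorm v.asIdeal = Fintype.card (𝓞 F ⧸ v.asIdeal) := by
    rw [Ideal.absNorm_apply, Submodule.cardQuot_apply, Nat.card_eq_fintype_card]
  rw [← Ideal.Quotient.eq_zero_iff_mem, map_sub, map_pow, h1, FiniteField.pow_card, sub_self]

theorem exists_nat_sub_mem (ℓ : ℕ) (hℓ : ℓ.Prime) (Q : Ideal Zb) [hQ' : Q.IsPrime]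
    (hQ : (ℓ : Zb) ∈ Q) (c : Zb) (hc : c ^ ℓ - c ∈ Q) : ∃ n : ℕ, n < ℓ ∧ c - (n : Zb) ∈ Q := by
  have : Fact ℓ.Prime := ⟨hℓ⟩
  have h0 : ((ℓ : ℕ) : Zb ⧸ Q) = 0 := by
    rw [← map_natCast (Ideal.Quotient.mk Q)]
    exact Ideal.Quotient.eq_zero_iff_mem.mpr hQ
  have : CharP (Zb ⧸ Q) ℓ := (CharP.charP_iff_prime_eq_zero hℓ).mpr h0
  have hpoly : ∏ a : ZMod ℓ, (X - C a) = (X ^ ℓ - X : (ZMod ℓ)[X]) := by
    have hroots : (X ^ ℓ - X : (ZMod ℓ)[X]).roots = Finset.univ.val := by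
      have h := FiniteField.roots_X_pow_card_sub_X (ZMod ℓ)
      rwa [ZMod.card] at h
    have hmonic : (X ^ ℓ - X : (ZMod ℓ)[X]).Monic := by
      apply monic_X_pow_sub
      rw [degree_X]
      exact_mod_cast hℓ.one_lt
    have hdeg : (X ^ ℓ - X : (ZMod ℓ)[X]).natDegree = ℓ :=
      FiniteField.X_pow_card_sub_X_natDegree_eq (ZMod ℓ) hℓ.one_lt
    have h := prod_multiset_X_sub_C_of_monic_of_roots_card_eq hmonic
      (by rw [hroots, hdeg]; simp [ZMod.card])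
    rw [hroots] at h
    exact h
  have h1 := congrArg (fun p : (ZMod ℓ)[X] =>
    (p.map (ZMod.castHom (dvd_refl ℓ) (Zb ⧸ Q))).eval (Ideal.Quotient.mk Q c)) hpoly
  simp only [Polynomial.map_prod, Polynomial.map_sub, Polynomial.map_pow, map_X, map_C,
    eval_prod, eval_sub, eval_pow, eval_X, eval_C] at h1
  have h2 : (Ideal.Quotient.mk Q c) ^ ℓ - Ideal.Quotient.mk Q c = 0 := by
    rw [← map_pow, ← map_sub]
    exact Ideal.Quotient.eq_zero_iff_mem.mpr hc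
  rw [h2, Finset.prod_eq_zero_iff] at h1
  obtain ⟨a, -, ha⟩ := h1
  refine ⟨a.val, ZMod.val_lt a, ?_⟩
  rw [← Ideal.Quotient.eq_zero_iff_mem, map_sub, map_natCast]
  rw [sub_eq_zero] at ha ⊢
  rw [ha, ZMod.castHom_apply, ZMod.natCast_val]

/-! ### 10. the Galois step -/

theorem galois_step (S : Finset Qb) (hS : ∀ g : GQ, ∀ x ∈ S, g x ∈ S) (τ : GQ) (r : ℕ)
    (hr : 0 < r) (hτr : ∀ x ∈ S, (τ ^ r) x = x) :
    ∃ (x₁ : Qb) (C : Finset Qb),
      (∀ c ∈ C, c ∈ IntermediateField.adjoin ℚ (S : Set Qb) ∧ τ c = c ∧ IsIntegral ℤ c) ∧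
      (∀ g₁ g₂ : GQ, g₁ x₁ = g₂ x₁ →
        ∀ x ∈ IntermediateField.adjoin ℚ (S : Set Qb), g₁ x = g₂ x) ∧
      ∀ σ : GQ, (∀ c ∈ C, σ c = c) → ∃ i < r, σ x₁ = (τ ^ i) x₁ := by
  classical
  obtain ⟨x₁, hx₁K, hx₁int, hx₁⟩ := exists_primitive_integral S
  have hK : ∀ g : GQ, ∀ x ∈ IntermediateField.adjoin ℚ (S : Set Qb),
      g x ∈ IntermediateField.adjoin ℚ (S : Set Qb) :=
    map_mem_adjoin (S : Set Qb) (fun g x hx => hS g x hx)
  have hτrK : ∀ x ∈ IntermediateField.adjoin ℚ (S : Set Qb), (τ ^ r) x = x := fun x hx =>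
    eqOn_adjoin (τ ^ r) 1 (S : Set Qb) (fun x hx => hτr x hx) x hx
  obtain ⟨P, hP⟩ : ∃ P : Qb[X], P = ∏ i ∈ Finset.range r, (X - C ((τ ^ i) x₁)) := ⟨_, rfl⟩
  refine ⟨x₁, P.coeffs, fun c hc => ?_, hx₁, fun σ hσ => ?_⟩
  · obtain ⟨k, -, rfl⟩ := Polynomial.mem_coeffs_iff.mp hc
    refine ⟨?_, ?_, ?_⟩
    · rw [hP]
      exact coeff_prod_X_sub_C_mem (IntermediateField.adjoin ℚ (S : Set Qb)).toSubring
        (Finset.range r) (fun i => (τ ^ i) x₁) (fun i _ => hK (τ ^ i) x₁ hx₁K) k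
    · have h := congrArg (fun p : Qb[X] => p.coeff k) (map_prod_pow τ r x₁ (hτrK x₁ hx₁K))
      simp only [Polynomial.coeff_map] at h
      rw [hP]
      exact h
    · rw [hP]
      exact coeff_prod_X_sub_C_mem (integralClosure ℤ Qb).toSubring
        (Finset.range r) (fun i => (τ ^ i) x₁)
        (fun i _ => map_isIntegral_int (τ ^ i) hx₁int) k
  · have hmap : P.map ((σ : Qb →ₐ[ℚ] Qb) : Qb →+* Qb) = P := by
      ext k
      rw [Polynomial.coeff_map]
      by_cases hk : P.coeff k = 0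
      · rw [hk, map_zero]
      · exact hσ _ (Polynomial.coeff_mem_coeffs hk)
    have hroot : P.eval x₁ = 0 := by
      rw [hP, eval_prod]
      apply Finset.prod_eq_zero (Finset.mem_range.mpr hr)
      simp
    have h2 : P.eval (σ x₁) = 0 := by
      have h3 : (P.map ((σ : Qb →ₐ[ℚ] Qb) : Qb →+* Qb)).eval (σ x₁) = σ (P.eval x₁) := by
        rw [Polynomial.eval_map]
        exact Polynomial.eval₂_at_apply ((σ : Qb →ₐ[ℚ] Qb) : Qb →+* Qb) x₁
      rw [hmap, hroot, map_zero] at h3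
      exact h3
    rw [hP, eval_prod, Finset.prod_eq_zero_iff] at h2
    obtain ⟨i, hi, h4⟩ := h2
    rw [eval_sub, eval_X, eval_C, sub_eq_zero] at h4
    exact ⟨i, Finset.mem_range.mp hi, h4⟩

theorem exists_pow_eq (K : IntermediateField ℚ Qb) (hK : ∀ g : GQ, ∀ x ∈ K, g x ∈ K)
    (τ σ : GQ) (r : ℕ) (hr : r.Prime) (hτr : ∀ x ∈ K, (τ ^ r) x = x) (i : ℕ) (hi0 : 0 < i)
    (hir : i < r) (hσ : ∀ x ∈ K, σ x = (τ ^ i) x) :
    ∃ j : ℕ, ∀ x ∈ K, τ x = (σ ^ j) x := by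
  have hcop : Nat.Coprime i r := by
    rw [Nat.coprime_comm, hr.coprime_iff_not_dvd]
    exact Nat.not_dvd_of_pos_of_lt hi0 hir
  obtain ⟨j, -, hj⟩ := Nat.exists_mul_mod_eq_one_of_coprime hcop hr.one_lt
  refine ⟨j, ?_⟩
  have h1 : ∀ n : ℕ, ∀ x ∈ K, (σ ^ n) x = ((τ ^ i) ^ n) x := by
    intro n
    induction n with
    | zero => intro x _; simp
    | succ n ih =>
      intro x hx
      rw [pow_succ, pow_succ, AlgEquiv.mul_apply, AlgEquiv.mul_apply, hσ x hx]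
      exact ih _ (hK _ x hx)
  have h2 : ∀ m : ℕ, ∀ x ∈ K, ((τ ^ r) ^ m) x = x := by
    intro m
    induction m with
    | zero => intro x _; simp
    | succ m ih =>
      intro x hx
      rw [pow_succ, AlgEquiv.mul_apply, hτr x hx]
      exact ih x hx
  intro x hx
  rw [h1 j x hx, ← pow_mul]
  have e : i * j = r * (i * j / r) + 1 := by
    have := Nat.div_add_mod (i * j) r
    omega
  rw [e, pow_succ, AlgEquiv.mul_apply, pow_mul]
  exact (h2 _ _ (hK τ x hx)).symm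

/-! ### 11. the prime and its Frobenius -/

theorem exists_prime_frob (F K : IntermediateField ℚ Qb) [NumberField F] [NumberField K]
    (hFK : F ≤ K) {r : ℕ} (hr : 2 ≤ r) (B : ℕ) :
    ∃ (ℓ : ℕ) (Q : Ideal Zb) (_ : Q.IsPrime) (σ : GQ), ℓ.Prime ∧ B < ℓ ∧ (ℓ : Zb) ∈ Q ∧
      (∀ b c : Zb, (c : Qb) = σ b → c - b ^ ℓ ∈ Q) ∧ (valSub Q).IsFrobeniusAt σ ℓ ∧
      Ideal.absNorm (Q.comap (iota F)) = ℓ ∧
      (∀ c : Zb, (c : Qb) ∈ F → c ^ ℓ - c ∈ Q) ∧
      ¬ ∃ t : Finset (Ideal (𝓞 K)), t.card = r ∧ ∀ P ∈ t, P.IsPrime ∧ P ≠ ⊥ ∧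
        Ideal.absNorm P = ℓ ∧ P.comap (incl hFK) = Q.comap (iota F) := by
  classical
  let _ : Algebra (𝓞 F) (𝓞 K) := (incl hFK).toAlgebra
  have hfin : {v : HeightOneSpectrum (𝓞 F) | Ideal.absNorm v.asIdeal ≤ B}.Finite := by
    have h1 := Ideal.finite_setOfPred_absNorm_le (S := 𝓞 F) B
    refine Set.Finite.of_finite_image (f := HeightOneSpectrum.asIdeal) (h1.subset ?_) ?_
    · rintro I ⟨v, hv, rfl⟩
      exact hv
    · intro v _ w _ h
      exact HeightOneSpectrum.ext h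
  obtain ⟨v, hvT, hvprime, hns⟩ :=
    Fermat.Agent.S14Z.exists_prime_not_split F K hr hfin.toFinset
  have hvB : B < Ideal.absNorm v.asIdeal := by
    by_contra h
    exact hvT (hfin.mem_toFinset.mpr (not_lt.mp h))
  let _ : Algebra (𝓞 F) Zb := (iota F).toAlgebra
  have hint : Algebra.IsIntegral (𝓞 F) Zb :=
    ⟨fun z => (Algebra.IsIntegral.isIntegral (R := ℤ) z).tower_top⟩
  have hvp : v.asIdeal.IsPrime := v.isPrime
  obtain ⟨Q, hQprime, hQv⟩ := Ideal.exists_ideal_over_prime_of_isIntegral_of_isDomain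
    (S := Zb) v.asIdeal (by
      show RingHom.ker (iota F) ≤ v.asIdeal
      rw [(RingHom.injective_iff_ker_eq_bot _).mp (iota_injective F)]
      exact bot_le)
  have hQv' : Q.comap (iota F) = v.asIdeal := hQv
  obtain ⟨ℓ, hℓ⟩ : ∃ ℓ : ℕ, ℓ = Ideal.absNorm v.asIdeal := ⟨_, rfl⟩
  rw [← hℓ] at hvprime hvB
  have hℓQ : (ℓ : Zb) ∈ Q := by
    have h1 : (ℓ : 𝓞 F) ∈ v.asIdeal := hℓ ▸ Ideal.absNorm_mem v.asIdeal
    rw [← hQv', Ideal.mem_comap, map_natCast] at h1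
    exact h1
  obtain ⟨σ, hσ, hfrob⟩ := FrobA.exists_frob_valSub ℓ hvprime Q hℓQ
  refine ⟨ℓ, Q, hQprime, σ, hvprime, hvB, hℓQ, hσ, hfrob, by rw [hQv', hℓ], ?_, ?_⟩
  · intro c hc
    obtain ⟨b, rfl⟩ := exists_iota_eq F c hc
    have h1 := pow_absNorm_sub_mem v b
    rw [← hℓ] at h1
    rw [← hQv', Ideal.mem_comap, map_sub, map_pow] at h1
    exact h1
  · rintro ⟨t, htcard, ht⟩
    apply hns
    refine ⟨t.attach.image (fun P =>
      (⟨P.1, (ht P.1 P.2).1, (ht P.1 P.2).2.1⟩ : HeightOneSpectrum (𝓞 K))), ?_, ?_⟩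
    · rw [Finset.card_image_of_injective, Finset.card_attach, htcard]
      intro P P' h
      exact Subtype.ext (congrArg HeightOneSpectrum.asIdeal h)
    · intro w hw
      obtain ⟨P, -, rfl⟩ := Finset.mem_image.mp hw
      obtain ⟨-, -, hN, hcomap⟩ := ht P.1 P.2
      refine ⟨?_, ?_⟩
      · rw [← hQv']
        exact hcomap
      · rw [← hℓ]
        exact hN

/-! ### 12. a trivial Frobenius is impossible -/

theorem sub_mem_of_frob_trivial (F K : IntermediateField ℚ Qb) [NumberField F] [NumberField K]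
    (hFK : F ≤ K) (hKstab : ∀ g : GQ, ∀ x ∈ K, g x ∈ K) (τ : GQ) (r : ℕ) (hr : r.Prime)
    (hτr : ∀ x ∈ K, (τ ^ r) x = x) (hτF : ∀ x ∈ F, τ x = x)
    (ℓ : ℕ) (hℓ : ℓ.Prime) (Q : Ideal Zb) [hQ : Q.IsPrime] (hℓQ : (ℓ : Zb) ∈ Q)
    (hnorm : Ideal.absNorm (Q.comap (iota F)) = ℓ)
    (hK : ∀ c : Zb, (c : Qb) ∈ K → c ^ ℓ - c ∈ Q)
    (hns : ¬ ∃ t : Finset (Ideal (𝓞 K)), t.card = r ∧ ∀ P ∈ t, P.IsPrime ∧ P ≠ ⊥ ∧
        Ideal.absNorm P = ℓ ∧ P.comap (incl hFK) = Q.comap (iota F))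
    (y : Zb) (hy : (y : Qb) ∈ K) : galZb τ y - y ∈ Q := by
  classical
  -- the conjugate primes
  obtain ⟨φ, hφ⟩ : ∃ φ : ℕ → (𝓞 K →+* Zb), φ = fun i => (galZb (τ ^ i)).comp (iota K) :=
    ⟨_, rfl⟩
  have hφcoe : ∀ i (b : 𝓞 K), ((φ i b : Zb) : Qb) = (τ ^ i) ((b : K) : Qb) := fun i b => by
    rw [hφ]; rfl
  obtain ⟨𝔓, h𝔓⟩ : ∃ 𝔓 : ℕ → Ideal (𝓞 K), 𝔓 = fun i => Q.comap (φ i) := ⟨_, rfl⟩
  have hmem : ∀ i (b : 𝓞 K), b ∈ 𝔓 i ↔ φ i b ∈ Q := fun i b => by rw [h𝔓]; rfl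
  have hprime : ∀ i, (𝔓 i).IsPrime := fun i => by rw [h𝔓]; exact Ideal.comap_isPrime (φ i) Q
  have hℓmem : ∀ i, (ℓ : 𝓞 K) ∈ 𝔓 i := fun i => by
    rw [hmem, map_natCast]; exact hℓQ
  have hbot : ∀ i, 𝔓 i ≠ ⊥ := fun i h => by
    have h1 := hℓmem i
    rw [h, Ideal.mem_bot] at h1
    exact hℓ.ne_zero (by exact_mod_cast h1)
  have hτiF : ∀ i : ℕ, ∀ x ∈ F, (τ ^ i) x = x := by
    intro i
    induction i with
    | zero => intro x _; simp
    | succ i ih =>
      intro x hx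
      rw [pow_succ, AlgEquiv.mul_apply, hτF x hx]
      exact ih x hx
  have hφincl : ∀ i (b : 𝓞 F), φ i (incl hFK b) = iota F b := by
    intro i b
    apply Subtype.ext
    rw [hφcoe]
    show (τ ^ i) (((b : F) : Qb)) = ((b : F) : Qb)
    exact hτiF i _ (b : F).2
  have hcomap : ∀ i, (𝔓 i).comap (incl hFK) = Q.comap (iota F) := by
    intro i
    ext b
    rw [Ideal.mem_comap, Ideal.mem_comap, hmem, hφincl]
  -- residues
  have hres : ∀ i (b : 𝓞 K), ∃ n : ℕ, n < ℓ ∧ b - (n : 𝓞 K) ∈ 𝔓 i := by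
    intro i b
    have hcK : ((φ i b : Zb) : Qb) ∈ K := by
      rw [hφcoe]; exact hKstab _ _ (b : K).2
    obtain ⟨n, hn, h⟩ := exists_nat_sub_mem ℓ hℓ Q hℓQ (φ i b) (hK _ hcK)
    refine ⟨n, hn, ?_⟩
    rw [hmem, map_sub, map_natCast]
    exact h
  -- norms
  have hN : ∀ i, Ideal.absNorm (𝔓 i) = ℓ := by
    intro i
    have hsurj : Function.Surjective
        (fun n : Fin ℓ => Ideal.Quotient.mk (𝔓 i) ((n : ℕ) : 𝓞 K)) := by
      intro x
      obtain ⟨b, rfl⟩ := Ideal.Quotient.mk_surjective x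
      obtain ⟨n, hn, h⟩ := hres i b
      exact ⟨⟨n, hn⟩, (Ideal.Quotient.eq.mpr h).symm⟩
    have hfin : Finite (𝓞 K ⧸ 𝔓 i) := Finite.of_surjective _ hsurj
    have hle : Nat.card (𝓞 K ⧸ 𝔓 i) ≤ ℓ := by
      have h1 := Nat.card_le_card_of_surjective _ hsurj
      simpa using h1
    have hge : ℓ ≤ Nat.card (𝓞 K ⧸ 𝔓 i) := by
      rw [← hnorm, Ideal.absNorm_apply, Submodule.cardQuot_apply]
      exact Nat.card_le_card_of_injective
        (Ideal.quotientMap (𝔓 i) (incl hFK) (le_of_eq (hcomap i).symm))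
        (Ideal.quotientMap_injective' (le_of_eq (hcomap i)))
    rw [Ideal.absNorm_apply, Submodule.cardQuot_apply]
    exact le_antisymm hle hge
  -- the conjugates are not pairwise distinct
  have hex : ∃ i j : ℕ, i < j ∧ j < r ∧ 𝔓 i = 𝔓 j := by
    by_contra hcon
    apply hns
    have hinj : Set.InjOn 𝔓 (Finset.range r : Set ℕ) := by
      intro a ha b hb hab
      rw [Finset.mem_coe, Finset.mem_range] at ha hb
      by_contra hne
      rcases lt_or_gt_of_ne hne with h | h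
      · exact hcon ⟨a, b, h, hb, hab⟩
      · exact hcon ⟨b, a, h, ha, hab.symm⟩
    refine ⟨(Finset.range r).image 𝔓, ?_, ?_⟩
    · rw [Finset.card_image_of_injOn hinj, Finset.card_range]
    · intro P hP
      obtain ⟨i, -, rfl⟩ := Finset.mem_image.mp hP
      exact ⟨hprime i, hbot i, hN i, hcomap i⟩
  obtain ⟨i, j, hij, hjr, hPij⟩ := hex
  have hτrm : ∀ m : ℕ, ∀ x ∈ K, ((τ ^ r) ^ m) x = x := by
    intro m
    induction m with
    | zero => intro x _; simp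
    | succ m ih =>
      intro x hx
      rw [pow_succ, AlgEquiv.mul_apply, hτr x hx]
      exact ih x hx
  -- (a) transfer
  have ha : ∀ c : Zb, (c : Qb) ∈ K → (galZb (τ ^ i) c ∈ Q ↔ galZb (τ ^ j) c ∈ Q) := by
    intro c hc
    obtain ⟨b, rfl⟩ := exists_iota_eq K c hc
    have h1 : b ∈ 𝔓 i ↔ b ∈ 𝔓 j := by rw [hPij]
    rw [hmem, hmem, hφ] at h1
    exact h1
  -- (b) closure under `τ ^ (j - i)`
  have hb : ∀ c : Zb, (c : Qb) ∈ K → c ∈ Q → galZb (τ ^ (j - i)) c ∈ Q := by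
    intro c hc hcQ
    have hr1 : 1 ≤ r := hr.one_lt.le
    have hc'K : ((galZb (τ ^ (i * (r - 1))) c : Zb) : Qb) ∈ K := hKstab _ _ hc
    have h1 : galZb (τ ^ i) (galZb (τ ^ (i * (r - 1))) c) = c := by
      apply Subtype.ext
      rw [galZb_coe, galZb_coe, ← AlgEquiv.mul_apply, ← pow_add]
      have e : i + i * (r - 1) = r * i := by
        obtain ⟨r', rfl⟩ : ∃ r', r = r' + 1 := ⟨r - 1, by omega⟩
        rw [Nat.add_sub_cancel]; ring
      rw [e, pow_mul]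
      exact hτrm i _ hc
    have h2 : galZb (τ ^ j) (galZb (τ ^ (i * (r - 1))) c) = galZb (τ ^ (j - i)) c := by
      apply Subtype.ext
      rw [galZb_coe, galZb_coe, galZb_coe, ← AlgEquiv.mul_apply, ← pow_add]
      have e : j + i * (r - 1) = (j - i) + r * i := by
        obtain ⟨r', rfl⟩ : ∃ r', r = r' + 1 := ⟨r - 1, by omega⟩
        obtain ⟨k, rfl⟩ : ∃ k, j = i + k := ⟨j - i, by omega⟩
        rw [Nat.add_sub_cancel, Nat.add_sub_cancel_left]; ring
      rw [e, pow_add, AlgEquiv.mul_apply, pow_mul, hτrm i _ hc]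
    rw [← h2]
    exact (ha _ hc'K).mp (by rw [h1]; exact hcQ)
  -- iterate
  have hiter : ∀ t : ℕ, ∀ c : Zb, (c : Qb) ∈ K → c ∈ Q → galZb (τ ^ ((j - i) * t)) c ∈ Q := by
    intro t
    induction t with
    | zero =>
      intro c _ hcQ
      have e : galZb (τ ^ ((j - i) * 0)) c = c := by
        apply Subtype.ext
        rw [galZb_coe, mul_zero, pow_zero]
        rfl
      rw [e]; exact hcQ
    | succ t ih =>
      intro c hc hcQ
      have h1 := ih c hc hcQ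
      have h2 := hb _ (hKstab _ _ hc) h1
      have e : galZb (τ ^ (j - i)) (galZb (τ ^ ((j - i) * t)) c) =
          galZb (τ ^ ((j - i) * (t + 1))) c := by
        apply Subtype.ext
        rw [galZb_coe, galZb_coe, galZb_coe, ← AlgEquiv.mul_apply, ← pow_add]
        congr 2
        ring
      rw [← e]; exact h2
  have hcop : Nat.Coprime (j - i) r := by
    rw [Nat.coprime_comm, hr.coprime_iff_not_dvd]
    exact Nat.not_dvd_of_pos_of_lt (by omega) (by omega)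
  obtain ⟨t, -, ht⟩ := Nat.exists_mul_mod_eq_one_of_coprime hcop hr.one_lt
  have hτQ : ∀ c : Zb, (c : Qb) ∈ K → c ∈ Q → galZb τ c ∈ Q := by
    intro c hc hcQ
    have h1 := hiter t c hc hcQ
    have e : galZb (τ ^ ((j - i) * t)) c = galZb τ c := by
      apply Subtype.ext
      rw [galZb_coe, galZb_coe]
      have e' : (j - i) * t = r * ((j - i) * t / r) + 1 := by
        have := Nat.div_add_mod ((j - i) * t) r
        omega
      rw [e', pow_succ, AlgEquiv.mul_apply, pow_mul]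
      exact hτrm _ _ (hKstab τ _ hc)
    rw [← e]; exact h1
  -- conclusion
  obtain ⟨n, -, hn⟩ := exists_nat_sub_mem ℓ hℓ Q hℓQ y (hK y hy)
  have hwK : ((y - (n : Zb) : Zb) : Qb) ∈ K := by
    push_cast
    exact K.sub_mem hy (natCast_mem K n)
  have h1 := hτQ _ hwK hn
  rw [map_sub, map_natCast] at h1
  have e : galZb τ y - y = (galZb τ y - (n : Zb)) - (y - (n : Zb)) := by ring
  rw [e]
  exact Q.sub_mem h1 hn

/-! ### 13. Frobenius-lite -/

/-- **[FL] Frobenius-lite**: an element `τ` of the absolute Galois group acting with prime order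
`r` on a finite Galois-stable set `S` agrees on `S` with a power of a Frobenius element at an
arbitrarily large prime. -/
theorem exists_frobenius_of_prime_order (S : Finset (AlgebraicClosure ℚ))
    (hS : ∀ σ : AlgebraicClosure ℚ ≃ₐ[ℚ] AlgebraicClosure ℚ, ∀ x ∈ S, σ x ∈ S)
    (τ : AlgebraicClosure ℚ ≃ₐ[ℚ] AlgebraicClosure ℚ) (r : ℕ) (hr : r.Prime)
    (hτr : ∀ x ∈ S, (τ ^ r) x = x) (hτ1 : ∃ x ∈ S, τ x ≠ x) (B : ℕ) :
    ∃ (ℓ : ℕ) (A : ValuationSubring (AlgebraicClosure ℚ))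
      (σ : AlgebraicClosure ℚ ≃ₐ[ℚ] AlgebraicClosure ℚ) (j : ℕ),
      ℓ.Prime ∧ B < ℓ ∧ (ℓ : AlgebraicClosure ℚ) ∈ A.nonunits ∧ A.IsFrobeniusAt σ ℓ ∧
        ∀ x ∈ S, τ x = (σ ^ j) x := by
  classical
  have h0 : Algebra.IsAlgebraic ℚ Qb := AlgebraicClosure.isAlgebraic ℚ
  obtain ⟨K, hKdef⟩ : ∃ K : IntermediateField ℚ Qb,
      K = IntermediateField.adjoin ℚ (S : Set Qb) := ⟨_, rfl⟩
  have hSK : ∀ x ∈ S, x ∈ K := fun x hx => by
    rw [hKdef]; exact IntermediateField.subset_adjoin ℚ _ hx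
  have hKstab : ∀ g : GQ, ∀ x ∈ K, g x ∈ K := by
    rw [hKdef]; exact map_mem_adjoin (S : Set Qb) (fun g x hx => hS g x hx)
  have hτrK : ∀ x ∈ K, (τ ^ r) x = x := by
    rw [hKdef]; exact eqOn_adjoin (τ ^ r) 1 (S : Set Qb) (fun x hx => hτr x hx)
  have hKfd : FiniteDimensional ℚ K := by
    rw [hKdef]
    exact IntermediateField.finiteDimensional_adjoin (fun x _ => (h0.isAlgebraic x).isIntegral)
  obtain ⟨F, hFdef⟩ : ∃ F : IntermediateField ℚ Qb, F = K ⊓ eqField τ 1 := ⟨_, rfl⟩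
  have hFK : F ≤ K := by rw [hFdef]; exact inf_le_left
  have hτF : ∀ x ∈ F, τ x = x := fun x hx => by
    rw [hFdef] at hx; exact (IntermediateField.mem_inf.mp hx).2
  have hFmem : ∀ x, x ∈ K → τ x = x → x ∈ F := fun x hx h => by
    rw [hFdef]; exact IntermediateField.mem_inf.mpr ⟨hx, h⟩
  have hFfd : FiniteDimensional ℚ F :=
    FiniteDimensional.of_injective (IntermediateField.inclusion hFK).toLinearMap
      (IntermediateField.inclusion hFK).injective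
  have hFnf : NumberField F := numberField_of_fd F
  have hKnf : NumberField K := numberField_of_fd K
  -- Galois step
  obtain ⟨x₁, C, hC, hx₁, hroot⟩ := galois_step S hS τ r hr.pos hτr
  rw [← hKdef] at hC hx₁
  -- the moved element
  obtain ⟨x₀, hx₀S, hx₀⟩ := hτ1
  obtain ⟨d, hd0, hd⟩ := (Algebra.IsAlgebraic.isAlgebraic (R := ℤ) x₀).exists_integral_multiple
  have hy₀K : d • x₀ ∈ K := K.zsmul_mem (hSK x₀ hx₀S) d
  have hy₀ne : τ (d • x₀) ≠ d • x₀ := by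
    rw [map_zsmul]
    exact fun h => hx₀ (smul_right_injective Qb hd0 h)
  -- the finite set and the bound
  obtain ⟨B₁, hB₁⟩ := exists_bound_eq_of_sub_mem_nonunits (conjSet (insert (d • x₀) C))
  obtain ⟨ℓ, Q, hQ, σ, hℓ, hBℓ, hℓQ, hσ, hfrob, hnorm, hFℓ, hns⟩ :=
    exists_prime_frob F K hFK hr.two_le (max B B₁)
  have hA : (ℓ : Qb) ∈ (valSub Q).nonunits := FrobA.natCast_mem_nonunits_valSub ℓ Q hℓQ
  have hdist : ∀ y ∈ conjSet (insert (d • x₀) C), ∀ y' ∈ conjSet (insert (d • x₀) C),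
      y - y' ∈ (valSub Q).nonunits → y = y' :=
    hB₁ ℓ hℓ (lt_of_le_of_lt (le_max_right _ _) hBℓ) (valSub Q) hA
  have hQnon : ∀ z : Zb, z ∈ Q → (z : Qb) ∈ (valSub Q).nonunits := fun z hz =>
    mem_nonunits_valSub Q z 1 hz ((Ideal.ne_top_iff_one Q).mp hQ.ne_top) (by simp)
  -- `σ` fixes the coefficients
  have hσC : ∀ c ∈ C, σ c = c := by
    intro c hc
    obtain ⟨hcK, hcτ, hcint⟩ := hC c hc
    have hcF : c ∈ F := hFmem c hcK hcτ
    have h1 := hFℓ ⟨c, hcint⟩ hcF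
    have h2 := hσ ⟨c, hcint⟩ (galZb σ ⟨c, hcint⟩) rfl
    have h3 : galZb σ ⟨c, hcint⟩ - (⟨c, hcint⟩ : Zb) ∈ Q := by
      have e : galZb σ ⟨c, hcint⟩ - (⟨c, hcint⟩ : Zb) =
          (galZb σ ⟨c, hcint⟩ - (⟨c, hcint⟩ : Zb) ^ ℓ) +
            ((⟨c, hcint⟩ : Zb) ^ ℓ - ⟨c, hcint⟩) := by ring
      rw [e]; exact Q.add_mem h2 h1
    have h4 := hQnon _ h3
    have hcS : c ∈ conjSet (insert (d • x₀) C) :=
      subset_conjSet _ (Finset.mem_insert_of_mem hc)
    exact hdist (σ c) (conjSet_stable _ σ hcS) c hcS h4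
  obtain ⟨i, hir, hi⟩ := hroot σ hσC
  rcases Nat.eq_zero_or_pos i with hi0 | hi0
  · -- a trivial Frobenius is impossible
    exfalso
    subst hi0
    have hσK : ∀ x ∈ K, σ x = x := fun x hx => hx₁ σ 1 hi x hx
    have hKℓ : ∀ c : Zb, (c : Qb) ∈ K → c ^ ℓ - c ∈ Q := by
      intro c hc
      have h2 := hσ c c (hσK _ hc).symm
      have e : c ^ ℓ - c = -(c - c ^ ℓ) := by ring
      rw [e]; exact Q.neg_mem h2
    have h5 := sub_mem_of_frob_trivial F K hFK hKstab τ r hr hτrK hτF ℓ hℓ Q hℓQ hnorm hKℓ hns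
      ⟨d • x₀, hd⟩ hy₀K
    have h6 := hQnon _ h5
    have hyS : d • x₀ ∈ conjSet (insert (d • x₀) C) :=
      subset_conjSet _ (Finset.mem_insert_self _ _)
    exact hy₀ne (hdist (τ (d • x₀)) (conjSet_stable _ τ hyS) (d • x₀) hyS h6)
  · obtain ⟨j, hj⟩ := exists_pow_eq K hKstab τ σ r hr hτrK i hi0 hir
      (fun x hx => hx₁ σ (τ ^ i) hi x hx)
    exact ⟨ℓ, valSub Q, σ, j, hℓ, lt_of_le_of_lt (le_max_left _ _) hBℓ, hA, hfrob,
      fun x hx => hj x (hSK x hx)⟩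

end Fermat.Agent.S41.FL
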