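/-
S41, block [COH], leaves (C4-Hecke), (C6), (C7) (A-owner: helper79).

Lattice facts about `Hom_par(Γ₀(M), ℤ) = parabolicHoms ℤ (Gamma0 M) ℤ`:

* (C7a) `free_parabolicHoms_int`, `finite_parabolicHoms_int` : it is a finite free `ℤ`-module;
* (C7b) `exists_eq_smul_of_dvd` : saturation (divisible values ⇒ divisible inside the lattice);
* (C4-Hecke) `heckeT_mem`, `heckeU_mem` : the explicit Hecke operators of `S16/HeckeHom` preserve
  the parabolic lattice;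
* (C6) `heckeT_heckeT_comm`, `heckeT_heckeU_comm`, `heckeU_heckeU_comm` : the Hecke operators
  commute on the parabolic lattice;
* packaged endomorphisms `heckeTEnd`, `heckeUEnd` of the lattice with their `Commute` lemmas.

The Hecke statements are transported from cusp forms: complexify, use Eichler–Shimura (S21) to
write the class as `periodHomPair M (f, g)`, use `S16.HeckePairB` and the Hecke-operator facts in
the Prelude, and come back along the injection `ℤ → ℂ`.  Complex versions are provided as well.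
-/
import Mathlib
import Fermat.Agent.S16.HeckePairB
import Fermat.Agent.S16.LiftLemma
import Fermat.Agent.S22.GammaFG
import Fermat.Agent.S21

set_option autoImplicit false

namespace Fermat.Agent.S41.CohLat

open CongruenceSubgroup ModularCurve ModularCurve.Period
open scoped MatrixGroups
open Fermat.Agent.S16

/-! ### (C7) the lattice -/

/-- The set of elements of `Γ₀(M)` with `tr² = 4`. -/
def parSet (M : ℕ) : Set (Gamma0 M) :=
  {γ | ((γ : SL(2, ℤ)) : Matrix (Fin 2) (Fin 2) ℤ).trace ^ 2 = 4}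

/-- The parabolic lattice is the lattice of homomorphisms killing `parSet M`. -/
theorem parabolicHoms_eq_killHoms (M : ℕ) :
    parabolicHoms ℤ (Gamma0 M) ℤ = LiftLemma.killHoms (parSet M) :=
  Submodule.ext fun _ => Iff.rfl

/-- (C7a) the parabolic lattice is finitely generated. -/
theorem finite_parabolicHoms_int (M : ℕ) [NeZero M] :
    Module.Finite ℤ (parabolicHoms ℤ (Gamma0 M) ℤ) := by
  have := Fermat.Agent.S22.gamma0_fg M
  rw [parabolicHoms_eq_killHoms]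
  exact LiftLemma.finite_killHoms (parSet M)

/-- The parabolic lattice is torsion-free. -/
theorem isTorsionFree_parabolicHoms_int (M : ℕ) :
    Module.IsTorsionFree ℤ (parabolicHoms ℤ (Gamma0 M) ℤ) := by
  rw [parabolicHoms_eq_killHoms]
  exact LiftLemma.isTorsionFree_killHoms (parSet M)

/-- (C7a) the parabolic lattice is free. -/
theorem free_parabolicHoms_int (M : ℕ) [NeZero M] :
    Module.Free ℤ (parabolicHoms ℤ (Gamma0 M) ℤ) := by
  have := finite_parabolicHoms_int M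
  have := isTorsionFree_parabolicHoms_int M
  exact Module.free_of_finite_type_torsion_free'

/-- (C7b) saturation: a parabolic class all of whose values are divisible by `p` is `p` times a
parabolic class. -/
theorem exists_eq_smul_of_dvd {M : ℕ} (p : ℤ) (φ : Additive (Gamma0 M) →+ ℤ)
    (hφ : φ ∈ parabolicHoms ℤ (Gamma0 M) ℤ) (h : ∀ x, p ∣ φ x) (_hp : p ≠ 0) :
    ∃ z ∈ parabolicHoms ℤ (Gamma0 M) ℤ, φ = p • z := by
  refine ⟨LiftLemma.divHom p φ h, ?_, ?_⟩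
  · exact LiftLemma.divHom_mem (K := parSet M) p φ h hφ
  · refine AddMonoidHom.ext fun x => ?_
    rw [AddMonoidHom.smul_apply, smul_eq_mul, LiftLemma.mul_divHom]

/-- Subtype form of (C7b). -/
theorem exists_eq_smul_of_dvd' {M : ℕ} (p : ℤ) (x : parabolicHoms ℤ (Gamma0 M) ℤ)
    (h : ∀ γ, p ∣ (x : Additive (Gamma0 M) →+ ℤ) γ) :
    ∃ z : parabolicHoms ℤ (Gamma0 M) ℤ, x = p • z := by
  refine ⟨⟨LiftLemma.divHom p x.1 h, LiftLemma.divHom_mem (K := parSet M) p x.1 h x.2⟩, ?_⟩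
  apply Subtype.ext
  refine AddMonoidHom.ext fun γ => ?_
  show (x : Additive (Gamma0 M) →+ ℤ) γ = p • LiftLemma.divHom p x.1 h γ
  rw [smul_eq_mul, LiftLemma.mul_divHom]

/-! ### Complexification -/

theorem toC_injective {M : ℕ} :
    Function.Injective (LiftLemma.toC (G := Gamma0 M)) := by
  intro φ ψ h
  refine AddMonoidHom.ext fun x => ?_
  have h1 := DFunLike.congr_fun h x
  rw [LiftLemma.toC_apply, LiftLemma.toC_apply] at h1
  exact_mod_cast h1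

theorem toC_mem_iff {M : ℕ} {φ : Additive (Gamma0 M) →+ ℤ} :
    LiftLemma.toC φ ∈ parabolicHoms ℂ (Gamma0 M) ℂ ↔ φ ∈ parabolicHoms ℤ (Gamma0 M) ℤ := by
  constructor
  · intro h γ hγ
    have h1 := h γ hγ
    rw [LiftLemma.toC_apply] at h1
    exact_mod_cast h1
  · intro h γ hγ
    rw [LiftLemma.toC_apply, h γ hγ, Int.cast_zero]

theorem toC_heckeTHom {M ℓ : ℕ} [Fact ℓ.Prime] (hℓ : ¬ ℓ ∣ M) (φ : Additive (Gamma0 M) →+ ℤ) :
    LiftLemma.toC (heckeTHom M ℓ hℓ φ) = heckeTHom M ℓ hℓ (LiftLemma.toC φ) :=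
  ((tData M ℓ hℓ).op_comp (Int.castAddHom ℂ) φ).symm

theorem toC_heckeUHom {M ℓ : ℕ} [NeZero ℓ] (hℓ : ℓ ∣ M) (φ : Additive (Gamma0 M) →+ ℤ) :
    LiftLemma.toC (heckeUHom M ℓ hℓ φ) = heckeUHom M ℓ hℓ (LiftLemma.toC φ) :=
  ((uData M ℓ hℓ).op_comp (Int.castAddHom ℂ) φ).symm

/-! ### Level zero: everything is parabolic -/

theorem trace_sq_eq_four_of_level_zero (γ : Gamma0 0) :
    ((γ : SL(2, ℤ)) : Matrix (Fin 2) (Fin 2) ℤ).trace ^ 2 = 4 := by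
  have h0 : ((γ : SL(2, ℤ)) 1 0 : ℤ) = 0 := by
    have h := Gamma0_mem.mp γ.2
    exact_mod_cast h
  have hdet : ((γ : SL(2, ℤ)) 0 0 : ℤ) * (γ : SL(2, ℤ)) 1 1 = 1 := by
    have h := Matrix.SpecialLinearGroup.det_coe (γ : SL(2, ℤ))
    rw [Matrix.det_fin_two, h0] at h
    linarith
  rw [Matrix.trace_fin_two]
  rcases Int.eq_one_or_neg_one_of_mul_eq_one' hdet with ⟨h1, h2⟩ | ⟨h1, h2⟩
  · rw [h1, h2]; norm_num
  · rw [h1, h2]; norm_num

theorem eq_zero_of_level_zero {A : Type*} [AddCommGroup A] {R : Type*} [Semiring R] [Module R A]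
    {φ : Additive (Gamma0 0) →+ A} (h : φ ∈ parabolicHoms R (Gamma0 0) A) : φ = 0 := by
  refine AddMonoidHom.ext fun γ => ?_
  exact h (Additive.toMul γ) (trace_sq_eq_four_of_level_zero _)

/-! ### Eichler–Shimura transport -/

/-- Eichler–Shimura (S21): every complex parabolic class is a period class. -/
theorem exists_periodHomPair_eq (M : ℕ) [NeZero M] {Φ : Additive (Gamma0 M) →+ ℂ}
    (hΦ : Φ ∈ parabolicHoms ℂ (Gamma0 M) ℂ) :
    ∃ f g : CuspForm (Gamma0 M) 2, periodHomPair M (f, g) = Φ := by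
  rw [← (Fermat.Agent.S21.result M).2] at hΦ
  obtain ⟨⟨f, g⟩, h⟩ := hΦ
  exact ⟨f, g, h⟩

theorem periodHomPair_mem (M : ℕ) [NeZero M] (f g : CuspForm (Gamma0 M) 2) :
    periodHomPair M (f, g) ∈ parabolicHoms ℂ (Gamma0 M) ℂ :=
  Fermat.Agent.S21.range_periodHomPair_le_Gamma0 M ⟨_, rfl⟩

/-! ### (C4-Hecke) the Hecke operators preserve parabolic classes -/

theorem heckeT_mem_complex {M ℓ : ℕ} [NeZero M] [Fact ℓ.Prime] (hℓ : ¬ ℓ ∣ M)
    {Φ : Additive (Gamma0 M) →+ ℂ} (hΦ : Φ ∈ parabolicHoms ℂ (Gamma0 M) ℂ) :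
    heckeTHom M ℓ hℓ Φ ∈ parabolicHoms ℂ (Gamma0 M) ℂ := by
  obtain ⟨f, g, rfl⟩ := exists_periodHomPair_eq M hΦ
  rw [← HeckePairB.periodHomPair_heckeTLin (Fact.out : ℓ.Prime) hℓ f g]
  exact periodHomPair_mem M _ _

theorem heckeU_mem_complex {M ℓ : ℕ} [NeZero M] [NeZero ℓ] (hℓ : ℓ ∣ M)
    {Φ : Additive (Gamma0 M) →+ ℂ} (hΦ : Φ ∈ parabolicHoms ℂ (Gamma0 M) ℂ) :
    heckeUHom M ℓ hℓ Φ ∈ parabolicHoms ℂ (Gamma0 M) ℂ := by
  obtain ⟨f, g, rfl⟩ := exists_periodHomPair_eq M hΦ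
  rw [← HeckePairB.periodHomPair_heckeULin hℓ f g]
  exact periodHomPair_mem M _ _

/-- (C4-Hecke) `T_ℓ` preserves the parabolic lattice. -/
theorem heckeT_mem {M ℓ : ℕ} [Fact ℓ.Prime] (hℓ : ¬ ℓ ∣ M) {φ : Additive (Gamma0 M) →+ ℤ}
    (h : φ ∈ parabolicHoms ℤ (Gamma0 M) ℤ) :
    heckeTHom M ℓ hℓ φ ∈ parabolicHoms ℤ (Gamma0 M) ℤ := by
  rcases eq_or_ne M 0 with rfl | hM
  · rw [eq_zero_of_level_zero h, heckeTHom, CosetData.op_zero]
    exact Submodule.zero_mem _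
  · have : NeZero M := ⟨hM⟩
    rw [← toC_mem_iff, toC_heckeTHom]
    exact heckeT_mem_complex hℓ (toC_mem_iff.mpr h)

/-- (C4-Hecke) `U_ℓ` preserves the parabolic lattice. -/
theorem heckeU_mem {M ℓ : ℕ} [NeZero ℓ] (hℓ : ℓ ∣ M) {φ : Additive (Gamma0 M) →+ ℤ}
    (h : φ ∈ parabolicHoms ℤ (Gamma0 M) ℤ) :
    heckeUHom M ℓ hℓ φ ∈ parabolicHoms ℤ (Gamma0 M) ℤ := by
  rcases eq_or_ne M 0 with rfl | hM
  · rw [eq_zero_of_level_zero h, heckeUHom, CosetData.op_zero]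
    exact Submodule.zero_mem _
  · have : NeZero M := ⟨hM⟩
    rw [← toC_mem_iff, toC_heckeUHom]
    exact heckeU_mem_complex hℓ (toC_mem_iff.mpr h)

/-! ### (C6) commutativity -/

theorem heckeT_heckeT_comm_complex {M ℓ ℓ' : ℕ} [NeZero M] [Fact ℓ.Prime] [Fact ℓ'.Prime]
    (hℓ : ¬ ℓ ∣ M) (hℓ' : ¬ ℓ' ∣ M) {Φ : Additive (Gamma0 M) →+ ℂ}
    (hΦ : Φ ∈ parabolicHoms ℂ (Gamma0 M) ℂ) :
    heckeTHom M ℓ hℓ (heckeTHom M ℓ' hℓ' Φ) = heckeTHom M ℓ' hℓ' (heckeTHom M ℓ hℓ Φ) := by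
  obtain ⟨f, g, rfl⟩ := exists_periodHomPair_eq M hΦ
  have hp : ℓ.Prime := Fact.out
  have hp' : ℓ'.Prime := Fact.out
  rw [← HeckePairB.periodHomPair_heckeTLin hp' hℓ' f g,
    ← HeckePairB.periodHomPair_heckeTLin hp hℓ,
    ← HeckePairB.periodHomPair_heckeTLin hp hℓ f g,
    ← HeckePairB.periodHomPair_heckeTLin hp' hℓ']
  have hc := (CuspForm.heckeTLin_comm (N := M) 2 hp hℓ hp' hℓ').eq
  have hf := LinearMap.congr_fun hc f
  have hg := LinearMap.congr_fun hc g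
  rw [Module.End.mul_apply, Module.End.mul_apply] at hf hg
  rw [hf, hg]

theorem heckeT_heckeU_comm_complex {M ℓ p : ℕ} [NeZero M] [Fact ℓ.Prime] [NeZero p]
    (hℓ : ¬ ℓ ∣ M) (hp : p ∣ M) {Φ : Additive (Gamma0 M) →+ ℂ}
    (hΦ : Φ ∈ parabolicHoms ℂ (Gamma0 M) ℂ) :
    heckeTHom M ℓ hℓ (heckeUHom M p hp Φ) = heckeUHom M p hp (heckeTHom M ℓ hℓ Φ) := by
  obtain ⟨f, g, rfl⟩ := exists_periodHomPair_eq M hΦ
  have hℓp : ℓ.Prime := Fact.out
  rw [← HeckePairB.periodHomPair_heckeULin hp f g,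
    ← HeckePairB.periodHomPair_heckeTLin hℓp hℓ,
    ← HeckePairB.periodHomPair_heckeTLin hℓp hℓ f g,
    ← HeckePairB.periodHomPair_heckeULin hp]
  have hc := (CuspForm.heckeTLin_heckeULin_comm (N := M) 2 hℓp hℓ hp).eq
  have hf := LinearMap.congr_fun hc f
  have hg := LinearMap.congr_fun hc g
  rw [Module.End.mul_apply, Module.End.mul_apply] at hf hg
  rw [hf, hg]

theorem heckeU_heckeU_comm_complex {M p p' : ℕ} [NeZero M] [NeZero p] [NeZero p']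
    (hp : p ∣ M) (hp' : p' ∣ M) {Φ : Additive (Gamma0 M) →+ ℂ}
    (hΦ : Φ ∈ parabolicHoms ℂ (Gamma0 M) ℂ) :
    heckeUHom M p hp (heckeUHom M p' hp' Φ) = heckeUHom M p' hp' (heckeUHom M p hp Φ) := by
  obtain ⟨f, g, rfl⟩ := exists_periodHomPair_eq M hΦ
  rw [← HeckePairB.periodHomPair_heckeULin hp' f g,
    ← HeckePairB.periodHomPair_heckeULin hp,
    ← HeckePairB.periodHomPair_heckeULin hp f g,
    ← HeckePairB.periodHomPair_heckeULin hp']
  have hc := (CuspForm.heckeULin_comm (N := M) 2 hp hp').eq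
  have hf := LinearMap.congr_fun hc f
  have hg := LinearMap.congr_fun hc g
  rw [Module.End.mul_apply, Module.End.mul_apply] at hf hg
  rw [hf, hg]

/-- (C6) `T_ℓ` and `T_ℓ'` commute on the parabolic lattice. -/
theorem heckeT_heckeT_comm {M ℓ ℓ' : ℕ} [Fact ℓ.Prime] [Fact ℓ'.Prime]
    (hℓ : ¬ ℓ ∣ M) (hℓ' : ¬ ℓ' ∣ M) {φ : Additive (Gamma0 M) →+ ℤ}
    (h : φ ∈ parabolicHoms ℤ (Gamma0 M) ℤ) :
    heckeTHom M ℓ hℓ (heckeTHom M ℓ' hℓ' φ) = heckeTHom M ℓ' hℓ' (heckeTHom M ℓ hℓ φ) := by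
  rcases eq_or_ne M 0 with rfl | hM
  · rw [eq_zero_of_level_zero h]
    simp only [heckeTHom, CosetData.op_zero]
  · have : NeZero M := ⟨hM⟩
    apply toC_injective
    rw [toC_heckeTHom, toC_heckeTHom, toC_heckeTHom, toC_heckeTHom]
    exact heckeT_heckeT_comm_complex hℓ hℓ' (toC_mem_iff.mpr h)

/-- (C6) `T_ℓ` and `U_p` commute on the parabolic lattice. -/
theorem heckeT_heckeU_comm {M ℓ p : ℕ} [Fact ℓ.Prime] [NeZero p]
    (hℓ : ¬ ℓ ∣ M) (hp : p ∣ M) {φ : Additive (Gamma0 M) →+ ℤ}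
    (h : φ ∈ parabolicHoms ℤ (Gamma0 M) ℤ) :
    heckeTHom M ℓ hℓ (heckeUHom M p hp φ) = heckeUHom M p hp (heckeTHom M ℓ hℓ φ) := by
  rcases eq_or_ne M 0 with rfl | hM
  · rw [eq_zero_of_level_zero h]
    simp only [heckeTHom, heckeUHom, CosetData.op_zero]
  · have : NeZero M := ⟨hM⟩
    apply toC_injective
    rw [toC_heckeTHom, toC_heckeUHom, toC_heckeUHom, toC_heckeTHom]
    exact heckeT_heckeU_comm_complex hℓ hp (toC_mem_iff.mpr h)

/-- (C6) `U_p` and `U_p'` commute on the parabolic lattice. -/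
theorem heckeU_heckeU_comm {M p p' : ℕ} [NeZero p] [NeZero p']
    (hp : p ∣ M) (hp' : p' ∣ M) {φ : Additive (Gamma0 M) →+ ℤ}
    (h : φ ∈ parabolicHoms ℤ (Gamma0 M) ℤ) :
    heckeUHom M p hp (heckeUHom M p' hp' φ) = heckeUHom M p' hp' (heckeUHom M p hp φ) := by
  rcases eq_or_ne M 0 with rfl | hM
  · rw [eq_zero_of_level_zero h]
    simp only [heckeUHom, CosetData.op_zero]
  · have : NeZero M := ⟨hM⟩
    apply toC_injective
    rw [toC_heckeUHom, toC_heckeUHom, toC_heckeUHom, toC_heckeUHom]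
    exact heckeU_heckeU_comm_complex hp hp' (toC_mem_iff.mpr h)

/-! ### Packaged endomorphisms of the lattice -/

/-- `T_ℓ` as an endomorphism of the parabolic lattice. -/
noncomputable def heckeTEnd (M ℓ : ℕ) [Fact ℓ.Prime] (hℓ : ¬ ℓ ∣ M) :
    Module.End ℤ (parabolicHoms ℤ (Gamma0 M) ℤ) where
  toFun φ := ⟨heckeTHom M ℓ hℓ φ.1, heckeT_mem hℓ φ.2⟩
  map_add' φ ψ := Subtype.ext ((tData M ℓ hℓ).op_add φ.1 ψ.1)
  map_smul' n φ := Subtype.ext ((tData M ℓ hℓ).op_zsmul n φ.1)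

/-- `U_ℓ` as an endomorphism of the parabolic lattice. -/
noncomputable def heckeUEnd (M ℓ : ℕ) [NeZero ℓ] (hℓ : ℓ ∣ M) :
    Module.End ℤ (parabolicHoms ℤ (Gamma0 M) ℤ) where
  toFun φ := ⟨heckeUHom M ℓ hℓ φ.1, heckeU_mem hℓ φ.2⟩
  map_add' φ ψ := Subtype.ext ((uData M ℓ hℓ).op_add φ.1 ψ.1)
  map_smul' n φ := Subtype.ext ((uData M ℓ hℓ).op_zsmul n φ.1)

@[simp] theorem heckeTEnd_coe (M ℓ : ℕ) [Fact ℓ.Prime] (hℓ : ¬ ℓ ∣ M)
    (φ : parabolicHoms ℤ (Gamma0 M) ℤ) :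
    ((heckeTEnd M ℓ hℓ φ : parabolicHoms ℤ (Gamma0 M) ℤ) : Additive (Gamma0 M) →+ ℤ)
      = heckeTHom M ℓ hℓ φ.1 := rfl

@[simp] theorem heckeUEnd_coe (M ℓ : ℕ) [NeZero ℓ] (hℓ : ℓ ∣ M)
    (φ : parabolicHoms ℤ (Gamma0 M) ℤ) :
    ((heckeUEnd M ℓ hℓ φ : parabolicHoms ℤ (Gamma0 M) ℤ) : Additive (Gamma0 M) →+ ℤ)
      = heckeUHom M ℓ hℓ φ.1 := rfl

theorem heckeTEnd_commute {M ℓ ℓ' : ℕ} [Fact ℓ.Prime] [Fact ℓ'.Prime]
    (hℓ : ¬ ℓ ∣ M) (hℓ' : ¬ ℓ' ∣ M) : Commute (heckeTEnd M ℓ hℓ) (heckeTEnd M ℓ' hℓ') := by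
  refine LinearMap.ext fun φ => Subtype.ext ?_
  exact heckeT_heckeT_comm hℓ hℓ' φ.2

theorem heckeTEnd_heckeUEnd_commute {M ℓ p : ℕ} [Fact ℓ.Prime] [NeZero p]
    (hℓ : ¬ ℓ ∣ M) (hp : p ∣ M) : Commute (heckeTEnd M ℓ hℓ) (heckeUEnd M p hp) := by
  refine LinearMap.ext fun φ => Subtype.ext ?_
  exact heckeT_heckeU_comm hℓ hp φ.2

theorem heckeUEnd_commute {M p p' : ℕ} [NeZero p] [NeZero p']
    (hp : p ∣ M) (hp' : p' ∣ M) : Commute (heckeUEnd M p hp) (heckeUEnd M p' hp') := by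
  refine LinearMap.ext fun φ => Subtype.ext ?_
  exact heckeU_heckeU_comm hp hp' φ.2

end Fermat.Agent.S41.CohLat
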