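/-
S41, block [FS] (owner: helper97) — the abstract algebra.

A system of eigenvalues occurring in `L ⊗ ℂ` for a finite free `ℤ`-module `L` with a family of
endomorphisms (no commutativity needed), whose eigenvalues are algebraic integers congruent to
integers `θ i` modulo a maximal ideal `𝔪 ∋ p`, occurs modulo `p`: there is `x₀ ∈ L ∖ pL` with
`T i x₀ ≡ θ i • x₀ (mod pL)` for all `i`.

Proof: in coordinates, all `r × r` minors of the stacked matrix `(M i - a i)` vanish (the kernel
contains the coordinate vector of the eigenvector), so all `r × r` minors of the stacked integer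
matrix `(M i - θ i)` lie in `𝔪 ∩ ℤ = pℤ`; hence modulo `p` the rows do not span, and some nonzero
vector of `𝔽_p ^ r` is killed by all of them.

Mathlib only.
-/
import Mathlib

set_option autoImplicit false

namespace Fermat.Agent.S41.FSAlg

open Module

/-- Over a field: if every `r × r` determinant formed from a family of row vectors of `k ^ r`
vanishes, then some nonzero vector is orthogonal to all the rows. -/
theorem exists_ne_zero_dotProduct_eq_zero {k : Type*} [Field k] {r : ℕ} {S : Type*}
    (R : S → (Fin r → k))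
    (hdet : ∀ g : Fin r → S, (Matrix.of fun m => R (g m)).det = 0) :
    ∃ x : Fin r → k, x ≠ 0 ∧ ∀ s, R s ⬝ᵥ x = 0 := by
  classical
  by_cases hU : Submodule.span k (Set.range R) = ⊤
  · exfalso
    let b := Basis.ofSpan (K := k) (s := Set.range R) hU.ge
    have hb : ∀ i, ∃ s, R s = b i := fun i => Basis.ofSpan_subset hU.ge ⟨i, rfl⟩
    have h0 : (Matrix.detRowAlternating (n := Fin r) (R := k)).toMultilinearMap = 0 := by
      refine Basis.ext_multilinear (fun _ => b) fun v => ?_
      choose g hg using fun i => hb (v i)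
      have h1 := hdet g
      have h2 : (fun i => b (v i)) = (Matrix.of fun m => R (g m)) := by
        funext i
        exact (hg i).symm
      rw [h2]
      exact h1
    have h1 : (Matrix.detRowAlternating (n := Fin r) (R := k)).toMultilinearMap
        (1 : Matrix (Fin r) (Fin r) k) = 1 := Matrix.det_one
    rw [h0] at h1
    exact zero_ne_one h1
  · have hlt : Submodule.span k (Set.range R) < ⊤ := lt_top_iff_ne_top.mpr hU
    obtain ⟨f, hf0, hf⟩ := Submodule.exists_le_ker_of_lt_top _ hlt
    refine ⟨fun i => f (fun j => if i = j then 1 else 0), ?_, ?_⟩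
    · intro h
      apply hf0
      refine LinearMap.ext fun x => ?_
      rw [LinearMap.pi_apply_eq_sum_univ f x]
      refine Finset.sum_eq_zero fun i _ => ?_
      have hi : f (fun j => if i = j then 1 else 0) = 0 := congrFun h i
      rw [hi, smul_zero]
    · intro s
      have h1 : f (R s) = 0 := hf (Submodule.subset_span ⟨s, rfl⟩)
      rw [LinearMap.pi_apply_eq_sum_univ] at h1
      simpa [dotProduct, smul_eq_mul] using h1

/-- An integer lying in a maximal ideal of the algebraic integers containing `p` is divisible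
by `p`. -/
theorem int_dvd_of_mem_maximal {p : ℕ} (hp : p.Prime) (𝔪 : Ideal (integralClosure ℤ ℂ))
    (hmax : 𝔪.IsMaximal) (hpm : (p : integralClosure ℤ ℂ) ∈ 𝔪) (n : ℤ)
    (hn : (n : integralClosure ℤ ℂ) ∈ 𝔪) : (p : ℤ) ∣ n := by
  by_contra hnd
  have hirr : Irreducible (p : ℤ) := (Nat.prime_iff_prime_int.mp hp).irreducible
  obtain ⟨u, w, huw⟩ := (hirr.coprime_iff_not_dvd).mpr hnd
  apply hmax.ne_top
  rw [Ideal.eq_top_iff_one]
  have h1 : (1 : integralClosure ℤ ℂ) = (u : integralClosure ℤ ℂ) * (p : integralClosure ℤ ℂ)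
      + (w : integralClosure ℤ ℂ) * (n : integralClosure ℤ ℂ) := by
    have h2 := congrArg (fun z : ℤ => (z : integralClosure ℤ ℂ)) huw
    simp only [Int.cast_add, Int.cast_mul, Int.cast_one, Int.cast_natCast] at h2
    exact h2.symm
  rw [h1]
  exact 𝔪.add_mem (𝔪.mul_mem_left _ hpm) (𝔪.mul_mem_left _ hn)

/-- A `ℤ`-linearly independent finite family of integer-valued homomorphisms stays linearly
independent over `ℂ` after complexification. -/
theorem linearIndependent_intCast_comp {A : Type*} [AddMonoid A] {r : ℕ}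
    (x : Fin r → (A →+ ℤ)) (hx : LinearIndependent ℤ x) :
    LinearIndependent ℂ (fun k => (Int.castAddHom ℂ).comp (x k)) := by
  classical
  let ι : (A →+ ℤ) →ₗ[ℤ] (A → ℚ) :=
    { toFun := fun φ t => ((φ t : ℤ) : ℚ)
      map_add' := fun φ ψ => by
        funext t
        simp
      map_smul' := fun n φ => by
        funext t
        simp }
  have hι : LinearMap.ker ι = ⊥ := by
    rw [LinearMap.ker_eq_bot']
    intro φ hφ
    refine AddMonoidHom.ext fun t => ?_
    have h1 : ((φ t : ℤ) : ℚ) = 0 := congrFun hφ t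
    exact_mod_cast h1
  have hQ : LinearIndependent ℚ (fun k => ι (x k)) :=
    (LinearIndependent.iff_fractionRing ℤ ℚ).mp (hx.map' ι hι)
  rw [Fintype.linearIndependent_iff]
  intro c hc k₀
  by_contra hk₀
  obtain ⟨π, hπ⟩ := LinearMap.exists_leftInverse_of_injective
    (LinearMap.toSpanSingleton ℚ ℂ (c k₀)) (LinearMap.ker_toSpanSingleton ℚ hk₀)
  have hπ1 : π (c k₀) = 1 := by
    have h1 := congrArg (fun f : ℚ →ₗ[ℚ] ℚ => f 1) hπ
    simpa using h1
  have hsum : ∑ k, π (c k) • ι (x k) = 0 := by
    funext t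
    have h1 : ∑ k, c k * ((x k t : ℤ) : ℂ) = 0 := by
      have h0 := congrArg (fun φ : A →+ ℂ => φ t) hc
      simpa using h0
    have h2 := congrArg π h1
    rw [map_sum, map_zero] at h2
    have h3 : ∀ k, π (c k * ((x k t : ℤ) : ℂ)) = ((x k t : ℤ) : ℚ) * π (c k) := by
      intro k
      have h4 : c k * ((x k t : ℤ) : ℂ) = ((x k t : ℤ) : ℚ) • c k := by
        rw [Rat.smul_def, Rat.cast_intCast, mul_comm]
      rw [h4, map_smul, smul_eq_mul]
    simp only [h3] at h2
    simp only [Finset.sum_apply, Pi.smul_apply, smul_eq_mul, Pi.zero_apply]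
    rw [← h2]
    refine Finset.sum_congr rfl fun k _ => ?_
    exact mul_comm _ _
  have h5 := Fintype.linearIndependent_iff.mp hQ _ hsum k₀
  rw [hπ1] at h5
  exact one_ne_zero h5

/-- **[FS], abstract form.** -/
theorem exists_eigen_mod_p {p : ℕ} (hp : p.Prime) {I : Type*}
    {L : Type*} [AddCommGroup L] [Module.Free ℤ L] [Module.Finite ℤ L]
    {V : Type*} [AddCommGroup V] [Module ℂ V]
    (j : L →+ V)
    (hjind : ∀ (r : ℕ) (x : Fin r → L), LinearIndependent ℤ x →
      LinearIndependent ℂ (fun k => j (x k)))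
    (T : I → L →+ L) (TV : I → V →ₗ[ℂ] V) (hj : ∀ i x, j (T i x) = TV i (j x))
    (v : V) (hv0 : v ≠ 0) (hvspan : v ∈ Submodule.span ℂ (Set.range j))
    (𝔪 : Ideal (integralClosure ℤ ℂ)) (hmax : 𝔪.IsMaximal)
    (hpm : (p : integralClosure ℤ ℂ) ∈ 𝔪) (θ : I → ℤ)
    (hθ : ∀ i, ∃ a : integralClosure ℤ ℂ, TV i v = (a : ℂ) • v ∧
      a - (θ i : integralClosure ℤ ℂ) ∈ 𝔪) :
    ∃ x₀ : L, (¬ ∃ z : L, x₀ = (p : ℤ) • z) ∧
      ∀ i, ∃ z : L, T i x₀ - θ i • x₀ = (p : ℤ) • z := by
  classical
  have : Fact p.Prime := ⟨hp⟩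
  let b : Basis (Fin (Module.finrank ℤ L)) ℤ L := Module.finBasis ℤ L
  set r := Module.finrank ℤ L with hr
  let e : Fin r → V := fun k => j (b k)
  have hind : LinearIndependent ℂ e := hjind r b b.linearIndependent
  choose a ha1 ha2 using hθ
  -- the matrices of the operators
  let M : I → Fin r → Fin r → ℤ := fun i m k => b.repr (T i (b k)) m
  have hTb : ∀ i k, T i (b k) = ∑ m, M i m k • b m := fun i k => (b.sum_repr (T i (b k))).symm
  -- `j x` in terms of `e`
  have hjx : ∀ x : L, j x = ∑ k, ((b.repr x k : ℤ) : ℂ) • e k := by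
    intro x
    conv_lhs => rw [← b.sum_repr x]
    rw [map_sum]
    refine Finset.sum_congr rfl fun k _ => ?_
    rw [map_zsmul, Int.cast_smul_eq_zsmul]
  have hspan_le : Submodule.span ℂ (Set.range j) ≤ Submodule.span ℂ (Set.range e) := by
    rw [Submodule.span_le]
    rintro _ ⟨x, rfl⟩
    rw [hjx x]
    exact Submodule.sum_mem _ fun k _ => Submodule.smul_mem _ _ (Submodule.subset_span ⟨k, rfl⟩)
  obtain ⟨c, hc⟩ := (Submodule.mem_span_range_iff_exists_fun ℂ).mp (hspan_le hvspan)
  have hc0 : c ≠ 0 := by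
    rintro rfl
    apply hv0
    rw [← hc]
    simp
  -- the eigen-equations in coordinates
  have heig : ∀ i m, ∑ k, ((M i m k : ℤ) : ℂ) * c k = (a i : ℂ) * c m := by
    intro i m
    have h1 : TV i v = ∑ m, (∑ k, ((M i m k : ℤ) : ℂ) * c k) • e m := by
      rw [← hc, map_sum]
      have h0 : ∀ k, TV i (c k • e k) = ∑ m, (((M i m k : ℤ) : ℂ) * c k) • e m := by
        intro k
        rw [map_smul, ← hj, hTb, map_sum, Finset.smul_sum]
        refine Finset.sum_congr rfl fun m _ => ?_
        rw [map_zsmul, ← Int.cast_smul_eq_zsmul ℂ, smul_smul, mul_comm]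
      simp_rw [h0]
      rw [Finset.sum_comm]
      refine Finset.sum_congr rfl fun m _ => ?_
      rw [Finset.sum_smul]
    have h2 : (a i : ℂ) • v = ∑ m, ((a i : ℂ) * c m) • e m := by
      rw [← hc, Finset.smul_sum]
      refine Finset.sum_congr rfl fun m _ => ?_
      rw [smul_smul]
    have h3 : ∑ m, (∑ k, ((M i m k : ℤ) : ℂ) * c k - (a i : ℂ) * c m) • e m = 0 := by
      simp_rw [sub_smul]
      rw [Finset.sum_sub_distrib, ← h1, ← h2, ha1 i, sub_self]
    have h4 := Fintype.linearIndependent_iff.mp hind _ h3 m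
    exact sub_eq_zero.mp h4
  -- the integer rows
  let Rz : I × Fin r → Fin r → ℤ := fun s k => M s.1 s.2 k - if s.2 = k then θ s.1 else 0
  -- every `r × r` minor of the stacked integer matrix is divisible by `p`
  have hminor : ∀ g : Fin r → I × Fin r, (p : ℤ) ∣ (Matrix.of fun n => Rz (g n)).det := by
    intro g
    apply int_dvd_of_mem_maximal hp 𝔪 hmax hpm
    let A : Matrix (Fin r) (Fin r) (integralClosure ℤ ℂ) :=
      Matrix.of fun n k => ((M (g n).1 (g n).2 k : ℤ) : integralClosure ℤ ℂ)
        - if (g n).2 = k then a (g n).1 else 0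
    have hA : A.det = 0 := by
      have hinj : Function.Injective (algebraMap (integralClosure ℤ ℂ) ℂ) :=
        Subtype.val_injective
      apply hinj
      rw [map_zero, RingHom.map_det]
      apply Matrix.exists_mulVec_eq_zero_iff.mp
      refine ⟨c, hc0, ?_⟩
      funext n
      have h1 : ∀ k, (algebraMap (integralClosure ℤ ℂ) ℂ) (A n k) * c k
          = ((M (g n).1 (g n).2 k : ℤ) : ℂ) * c k
            - (if (g n).2 = k then (a (g n).1 : ℂ) * c k else 0) := by
        intro k
        simp only [A, Matrix.of_apply, map_sub, map_intCast]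
        split_ifs with hk
        · rw [sub_mul]
          rfl
        · rw [map_zero, sub_zero, sub_zero]
      simp only [Matrix.mulVec, dotProduct, RingHom.mapMatrix_apply, Matrix.map_apply,
        Pi.zero_apply, h1]
      rw [Finset.sum_sub_distrib, Finset.sum_ite_eq, if_pos (Finset.mem_univ _),
        heig (g n).1 (g n).2, sub_self]
    -- reduce modulo `𝔪`
    have hcast : (((Matrix.of fun n => Rz (g n)).det : ℤ) : integralClosure ℤ ℂ)
        = (Int.castRingHom (integralClosure ℤ ℂ)) (Matrix.of fun n => Rz (g n)).det := rfl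
    rw [← Ideal.Quotient.eq_zero_iff_mem, hcast, RingHom.map_det, RingHom.map_det]
    have hmat : (Ideal.Quotient.mk 𝔪).mapMatrix
        ((Int.castRingHom (integralClosure ℤ ℂ)).mapMatrix (Matrix.of fun n => Rz (g n)))
        = (Ideal.Quotient.mk 𝔪).mapMatrix A := by
      ext n k
      simp only [RingHom.mapMatrix_apply, Matrix.map_apply, Matrix.of_apply, A, Rz]
      rw [Ideal.Quotient.eq]
      split_ifs with hk
      · have h2 : (Int.castRingHom (integralClosure ℤ ℂ)) (M (g n).1 (g n).2 k - θ (g n).1)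
            - (((M (g n).1 (g n).2 k : ℤ) : integralClosure ℤ ℂ) - a (g n).1)
            = a (g n).1 - (θ (g n).1 : integralClosure ℤ ℂ) := by
          simp only [map_sub, eq_intCast]
          ring
        rw [h2]
        exact ha2 (g n).1
      · simp
    rw [hmat, ← RingHom.map_det, hA, map_zero]
  -- modulo `p`
  let Rp : I × Fin r → Fin r → ZMod p := fun s k => ((Rz s k : ℤ) : ZMod p)
  have hdetp : ∀ g : Fin r → I × Fin r, (Matrix.of fun n => Rp (g n)).det = 0 := by
    intro g
    have h1 : (Matrix.of fun n => Rp (g n))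
        = (Int.castRingHom (ZMod p)).mapMatrix (Matrix.of fun n => Rz (g n)) := by
      ext n k
      rfl
    rw [h1, ← RingHom.map_det]
    exact (ZMod.intCast_zmod_eq_zero_iff_dvd _ _).mpr (hminor g)
  obtain ⟨xb, hxb0, hxb⟩ := exists_ne_zero_dotProduct_eq_zero Rp hdetp
  -- lift the solution
  let x : Fin r → ℤ := fun k => ((xb k).val : ℤ)
  have hxcast : ∀ k, ((x k : ℤ) : ZMod p) = xb k := fun k => by
    simp only [x, Int.cast_natCast, ZMod.natCast_zmod_val]
  refine ⟨∑ k, x k • b k, ?_, ?_⟩
  · rintro ⟨z, hz⟩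
    apply hxb0
    funext k
    have h1 := congrArg (fun y => b.repr y k) hz
    simp only [Basis.repr_sum_self, map_smul, Finsupp.smul_apply, smul_eq_mul] at h1
    rw [Pi.zero_apply, ← hxcast k, h1]
    push_cast
    rw [ZMod.natCast_self, zero_mul]
  · intro i
    have hw : ∀ m, (p : ℤ) ∣ ∑ k, Rz (i, m) k * x k := by
      intro m
      rw [← ZMod.intCast_zmod_eq_zero_iff_dvd]
      have h1 := hxb (i, m)
      simp only [dotProduct, Rp] at h1
      push_cast
      simp only [hxcast]
      exact h1
    choose y hy using hw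
    refine ⟨∑ m, y m • b m, ?_⟩
    have hT : T i (∑ k, x k • b k) = ∑ m, (∑ k, M i m k * x k) • b m := by
      rw [map_sum]
      have h0 : ∀ k, T i (x k • b k) = ∑ m, (M i m k * x k) • b m := by
        intro k
        rw [map_zsmul, hTb, Finset.smul_sum]
        refine Finset.sum_congr rfl fun m _ => ?_
        rw [smul_smul, mul_comm]
      simp_rw [h0]
      rw [Finset.sum_comm]
      refine Finset.sum_congr rfl fun m _ => ?_
      rw [Finset.sum_smul]
    have hθx : θ i • ∑ k, x k • b k = ∑ m, (θ i * x m) • b m := by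
      rw [Finset.smul_sum]
      refine Finset.sum_congr rfl fun m _ => ?_
      rw [smul_smul]
    rw [hT, hθx, ← Finset.sum_sub_distrib, Finset.smul_sum]
    refine Finset.sum_congr rfl fun m _ => ?_
    rw [← sub_smul, smul_smul, ← hy m]
    congr 1
    simp only [Rz, sub_mul, Finset.sum_sub_distrib, ite_mul, zero_mul, Finset.sum_ite_eq,
      Finset.mem_univ, if_true]

end Fermat.Agent.S41.FSAlg
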