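/-
S41, block [COH] (C7) (owner: helper90): the parabolic lattice
`Lpar M = parabolicHoms ℤ (Gamma0 M) ℤ = Hom_par(Γ₀(M), ℤ)` is a finite free `ℤ`-module, and it
is saturated in `Hom(Γ₀(M), ℤ)`.

Stated for `parabolicHoms ℤ (Gamma0 M) ℤ` directly (this is `Lpar M` by `abbrev`), so the file
does not depend on `S41/Defs.lean`.
-/
import Mathlib
import Fermat.Prelude.Def_ModularCurve_PeriodMap
import Fermat.Agent.S16.LiftLemma
import Fermat.Agent.S22.GammaFG

set_option autoImplicit false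

namespace Fermat.Agent.S41.LparFree

open CongruenceSubgroup ModularCurve.Period
open scoped MatrixGroups

/-- `Hom_par(Γ, ℤ)` is torsion free (any subgroup `Γ`). -/
theorem lpar_isTorsionFree (Γ : Subgroup SL(2, ℤ)) :
    Module.IsTorsionFree ℤ (parabolicHoms ℤ Γ ℤ) := by
  refine Module.IsTorsionFree.of_smul_eq_zero fun r m h => ?_
  by_cases hr : r = 0
  · exact Or.inl hr
  · right
    apply Subtype.ext
    refine AddMonoidHom.ext fun x => ?_
    have h1 : (r • (m : Additive Γ →+ ℤ)) x = 0 := by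
      have := congrArg (fun y : parabolicHoms ℤ Γ ℤ => (y : Additive Γ →+ ℤ) x) h
      simpa using this
    have h2 : r * (m : Additive Γ →+ ℤ) x = 0 := by
      simpa using h1
    rcases mul_eq_zero.mp h2 with h3 | h3
    · exact absurd h3 hr
    · exact h3

/-- `Hom_par(Γ₀(M), ℤ)` is a finitely generated `ℤ`-module. -/
theorem lpar_finite (M : ℕ) [NeZero M] : Module.Finite ℤ (parabolicHoms ℤ (Gamma0 M) ℤ) := by
  have : Group.FG (Gamma0 M) := Fermat.Agent.S22.gamma0_fg M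
  have := Fermat.Agent.S16.LiftLemma.isNoetherian_hom (G := Gamma0 M)
  infer_instance

/-- `Hom_par(Γ₀(M), ℤ)` is a free `ℤ`-module. -/
theorem lpar_free (M : ℕ) [NeZero M] : Module.Free ℤ (parabolicHoms ℤ (Gamma0 M) ℤ) := by
  have := lpar_finite M
  have := lpar_isTorsionFree (Gamma0 M)
  exact Module.free_of_finite_type_torsion_free'

/-- Saturation: if a nonzero multiple of `φ` is parabolic, so is `φ`. -/
theorem lpar_saturated (Γ : Subgroup SL(2, ℤ)) (n : ℤ) (hn : n ≠ 0) (φ : Additive Γ →+ ℤ)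
    (h : n • φ ∈ parabolicHoms ℤ Γ ℤ) : φ ∈ parabolicHoms ℤ Γ ℤ := by
  intro γ hγ
  have h1 : (n • φ) (Additive.ofMul γ) = 0 := h γ hγ
  have h2 : n * φ (Additive.ofMul γ) = 0 := by simpa using h1
  rcases mul_eq_zero.mp h2 with h3 | h3
  · exact absurd h3 hn
  · exact h3

/-- Divisibility of all values implies divisibility in `Hom(Γ, ℤ)`. -/
theorem exists_eq_smul_of_dvd_hom (Γ : Subgroup SL(2, ℤ)) (n : ℤ) (φ : Additive Γ →+ ℤ)
    (h : ∀ γ, n ∣ φ γ) : ∃ z : Additive Γ →+ ℤ, φ = n • z := by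
  refine ⟨Fermat.Agent.S16.LiftLemma.divHom n φ h, ?_⟩
  refine AddMonoidHom.ext fun x => ?_
  have := Fermat.Agent.S16.LiftLemma.mul_divHom n φ h x
  simpa using this.symm

/-- Divisibility of all values implies divisibility in `Hom_par(Γ, ℤ)`. -/
theorem exists_eq_smul_of_dvd (Γ : Subgroup SL(2, ℤ)) (n : ℤ) (φ : parabolicHoms ℤ Γ ℤ)
    (h : ∀ γ, n ∣ (φ : Additive Γ →+ ℤ) γ) : ∃ z : parabolicHoms ℤ Γ ℤ, φ = n • z := by
  obtain ⟨z, hz⟩ := exists_eq_smul_of_dvd_hom Γ n (φ : Additive Γ →+ ℤ) h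
  by_cases hn : n = 0
  · refine ⟨0, ?_⟩
    apply Subtype.ext
    rw [hz, hn]
    simp
  · have hzmem : z ∈ parabolicHoms ℤ Γ ℤ := by
      apply lpar_saturated Γ n hn
      rw [← hz]
      exact φ.2
    exact ⟨⟨z, hzmem⟩, Subtype.ext hz⟩

/-- Conversely, a multiple in `Hom_par` has all values divisible. -/
theorem dvd_of_eq_smul (Γ : Subgroup SL(2, ℤ)) (n : ℤ) (φ z : parabolicHoms ℤ Γ ℤ)
    (h : φ = n • z) (γ : Additive Γ) : n ∣ (φ : Additive Γ →+ ℤ) γ := by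
  subst h
  exact ⟨(z : Additive Γ →+ ℤ) γ, by simp⟩

/-- An element of `Hom_par(Γ, ℤ)` is divisible by `n` there iff all its values are. -/
theorem exists_eq_smul_iff (Γ : Subgroup SL(2, ℤ)) (n : ℤ) (φ : parabolicHoms ℤ Γ ℤ) :
    (∃ z : parabolicHoms ℤ Γ ℤ, φ = n • z) ↔ ∀ γ, n ∣ (φ : Additive Γ →+ ℤ) γ :=
  ⟨fun ⟨z, hz⟩ γ => dvd_of_eq_smul Γ n φ z hz γ, exists_eq_smul_of_dvd Γ n φ⟩

end Fermat.Agent.S41.LparFree
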