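/-
S41 block [NE], leaf [FL] "Frobenius-lite", B-version (helper97).  Blueprint: board #826.

`exists_frobenius_of_prime_order`: for a finite Galois-stable set `S` of algebraic numbers and
`τ ∈ Gal(ℚ̄/ℚ)` acting on `S` with prime order `r`, there are arbitrarily large primes `ℓ` with a
Frobenius element `σ` (at a valuation subring `A` of `ℚ̄` over `ℓ`) such that `τ = σ ^ j` on `S`.

Structure:
* `core`: the statement for an abstract number field `K` and `τ : K ≃ₐ[ℚ] K` of prime order `r`: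
  a prime `P` of `𝓞 K` over a large `ℓ` such that every `σ` with `σ b ≡ b ^ ℓ mod P` generates
  the group generated by `τ`.  Inputs: the zeta-pole corollary
  `S14Z.exists_prime_not_split` for `K / K^τ`, Artin's theorem
  (`IntermediateField.fixingSubgroup_fixedField`), and distinctness of conjugates modulo primes
  over large `ℓ` (`exists_bound_conj`, via norms).
* `exists_frob_valSub`: a Frobenius element at a given prime of the ring of algebraic integers
  (the body of `S54.exists_isFrobeniusAt`).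
* the wrapper: `K = ℚ(S)`, restriction `Gal(ℚ̄/ℚ) → Gal(K/ℚ)`, a prime of the ring of all
  algebraic integers above `P`.
-/
import Mathlib
import Fermat.Prelude.Def_EllipticCurve_FrobeniusTrace
import Fermat.Agent.S54.Frobenius
import Fermat.Agent.S14Z.ZetaPole

set_option autoImplicit false
open NumberField IsDedekindDomain

namespace Fermat.Agent.S41.FLB

/-- in a quotient ring with a prime number `ℓ` of elements, `x ^ ℓ ≡ x`. -/
theorem pow_sub_mem_of_card {R : Type*} [CommRing R] (q : Ideal R) {ℓ : ℕ} (hℓ : ℓ.Prime)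
    (hcard : Nat.card (R ⧸ q) = ℓ) (x : R) : x ^ ℓ - x ∈ q := by
  have : Fact ℓ.Prime := ⟨hℓ⟩
  have : Finite (R ⧸ q) := Nat.finite_of_card_ne_zero (by rw [hcard]; exact hℓ.ne_zero)
  let _ : Fintype (R ⧸ q) := Fintype.ofFinite _
  have hc : Fintype.card (R ⧸ q) = ℓ := by rw [← Nat.card_eq_fintype_card, hcard]
  let e := ZMod.ringEquivOfPrime (R ⧸ q) hℓ hc
  have h : ∀ y : R ⧸ q, y ^ ℓ = y := by
    intro y
    obtain ⟨z, rfl⟩ := e.surjective y
    rw [← map_pow, ZMod.pow_card]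
  rw [← Ideal.Quotient.eq_zero_iff_mem, map_sub, map_pow, h, sub_self]

/-- a prime ideal containing `ℓ` modulo which `b ^ ℓ ≡ b` for all `b` has residue ring `𝔽_ℓ`. -/
theorem card_quot_of_frob {R : Type*} [CommRing R] (P : Ideal R) [P.IsPrime] {ℓ : ℕ}
    (hℓ : ℓ.Prime) (hℓP : (ℓ : R) ∈ P) (h : ∀ b : R, b ^ ℓ - b ∈ P) :
    Nat.card (R ⧸ P) = ℓ ∧ ∀ b : R, ∃ n : ℕ, b - (n : R) ∈ P := by
  classical
  have : Fact ℓ.Prime := ⟨hℓ⟩
  have : CharP (R ⧸ P) ℓ := by
    rw [CharP.charP_iff_prime_eq_zero hℓ, ← map_natCast (Ideal.Quotient.mk P),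
      Ideal.Quotient.eq_zero_iff_mem]
    exact hℓP
  set f : Polynomial (R ⧸ P) := Polynomial.X ^ ℓ - Polynomial.X with hf
  have hdeg : f.natDegree = ℓ := by
    rw [hf, Polynomial.natDegree_sub_eq_left_of_natDegree_lt]
    · exact Polynomial.natDegree_X_pow ℓ
    · rw [Polynomial.natDegree_X_pow, Polynomial.natDegree_X]
      exact hℓ.one_lt
  have hf0 : f ≠ 0 := by
    intro h0
    rw [h0, Polynomial.natDegree_zero] at hdeg
    exact hℓ.ne_zero hdeg.symm
  have hroot : ∀ y : R ⧸ P, y ∈ f.roots.toFinset := by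
    intro y
    obtain ⟨b, rfl⟩ := Ideal.Quotient.mk_surjective y
    rw [Multiset.mem_toFinset, Polynomial.mem_roots hf0, Polynomial.IsRoot, hf]
    simp only [Polynomial.eval_sub, Polynomial.eval_pow, Polynomial.eval_X]
    rw [← map_pow, ← map_sub, Ideal.Quotient.eq_zero_iff_mem]
    exact h b
  have : Finite (R ⧸ P) :=
    Finite.of_injective (fun y => (⟨y, hroot y⟩ : f.roots.toFinset))
      (fun y y' hyy' => congrArg Subtype.val hyy')
  have hle : Nat.card (R ⧸ P) ≤ ℓ := by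
    have h1 : Nat.card (R ⧸ P) ≤ Nat.card f.roots.toFinset :=
      Nat.card_le_card_of_injective (fun y => (⟨y, hroot y⟩ : f.roots.toFinset))
        (fun y y' hyy' => congrArg Subtype.val hyy')
    rw [Nat.card_eq_fintype_card (α := f.roots.toFinset), Fintype.card_coe] at h1
    calc Nat.card (R ⧸ P) ≤ f.roots.toFinset.card := h1
      _ ≤ f.roots.card := Multiset.toFinset_card_le _
      _ ≤ f.natDegree := Polynomial.card_roots' f
      _ = ℓ := hdeg
  have hinj : Function.Injective (ZMod.castHom (dvd_refl ℓ) (R ⧸ P)) :=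
    ZMod.castHom_injective (R ⧸ P)
  have hbij : Function.Bijective (ZMod.castHom (dvd_refl ℓ) (R ⧸ P)) :=
    hinj.bijective_of_nat_card_le (by rw [Nat.card_zmod]; exact hle)
  refine ⟨le_antisymm hle ?_, fun b => ?_⟩
  · have := Nat.card_le_card_of_injective _ hinj
    rwa [Nat.card_zmod] at this
  · obtain ⟨z, hz⟩ := hbij.2 (Ideal.Quotient.mk P b)
    refine ⟨z.val, ?_⟩
    rw [← Ideal.Quotient.eq_zero_iff_mem, map_sub, map_natCast, ← hz, ZMod.castHom_apply,
      ZMod.natCast_val, sub_eq_zero]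

theorem exists_bound_conj {K : Type*} [Field K] [NumberField K] (Θ : Finset (𝓞 K)) :
    ∃ N : ℕ, ∀ ℓ : ℕ, ℓ.Prime → N < ℓ → ∀ P : Ideal (𝓞 K), P.IsPrime → (ℓ : 𝓞 K) ∈ P →
      ∀ a ∈ Θ, ∀ g : K ≃ₐ[ℚ] K,
        RingOfIntegers.mapRingHom (g : K →+* K) a - a ∈ P →
        RingOfIntegers.mapRingHom (g : K →+* K) a = a := by
  classical
  let φ : (K ≃ₐ[ℚ] K) × 𝓞 K → ℕ := fun x =>
    Ideal.absNorm (Ideal.span {RingOfIntegers.mapRingHom (x.1 : K →+* K) x.2 - x.2})
  refine ⟨∑ x ∈ (Finset.univ : Finset (K ≃ₐ[ℚ] K)) ×ˢ Θ, φ x, ?_⟩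
  intro ℓ hℓ hNℓ P hP hℓP a ha g hmem
  by_contra hne
  have hnN : φ (g, a) ≤ ∑ x ∈ (Finset.univ : Finset (K ≃ₐ[ℚ] K)) ×ˢ Θ, φ x :=
    Finset.single_le_sum (f := φ) (fun _ _ => Nat.zero_le _)
      (Finset.mem_product.mpr ⟨Finset.mem_univ g, ha⟩)
  set c := RingOfIntegers.mapRingHom (g : K →+* K) a with hc
  have hφ : φ (g, a) = Ideal.absNorm (Ideal.span {c - a}) := rfl
  set n := Ideal.absNorm (Ideal.span {c - a}) with hn
  have hn0 : n ≠ 0 := by
    rw [hn, Ne, Ideal.absNorm_eq_zero_iff, Ideal.span_singleton_eq_bot, sub_eq_zero]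
    exact hne
  have hnP : (n : 𝓞 K) ∈ P := by
    have h1 : (n : 𝓞 K) ∈ Ideal.span {c - a} := Ideal.absNorm_mem _
    have h2 : Ideal.span {c - a} ≤ P := (Ideal.span_singleton_le_iff_mem P).mpr hmem
    exact h2 h1
  have hcop : Nat.Coprime ℓ n := by
    rw [Nat.Prime.coprime_iff_not_dvd hℓ]
    intro hdvd
    have := Nat.le_of_dvd (Nat.pos_of_ne_zero hn0) hdvd
    omega
  obtain ⟨u, v, huv⟩ := (Nat.Coprime.cast (R := 𝓞 K) hcop)
  apply hP.ne_top
  rw [Ideal.eq_top_iff_one, ← huv]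
  exact P.add_mem (P.mul_mem_left _ hℓP) (P.mul_mem_left _ hnP)

/-- abstract core of the Frobenius-lite step. -/
theorem core (K : Type*) [Field K] [NumberField K] (τ : K ≃ₐ[ℚ] K) (r : ℕ) (hr : r.Prime)
    (hτ : orderOf τ = r) (B : ℕ) :
    ∃ (ℓ : ℕ) (P : Ideal (𝓞 K)), ℓ.Prime ∧ B < ℓ ∧ P.IsPrime ∧ (ℓ : 𝓞 K) ∈ P ∧
      ∀ σ : K ≃ₐ[ℚ] K, (∀ b : 𝓞 K, RingOfIntegers.mapRingHom (σ : K →+* K) b - b ^ ℓ ∈ P) →
        ∃ j : ℕ, τ = σ ^ j := by
  classical
  set H : Subgroup (K ≃ₐ[ℚ] K) := Subgroup.zpowers τ with hH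
  set F : IntermediateField ℚ K := IntermediateField.fixedField H with hF
  -- generators
  let pbF := Field.powerBasisOfFiniteOfSeparable ℚ F
  let pbK := Field.powerBasisOfFiniteOfSeparable ℚ K
  obtain ⟨aF, bF, hbF, habF⟩ := IsFractionRing.div_surjective (𝓞 F) pbF.gen
  obtain ⟨aK, bK, hbK, habK⟩ := IsFractionRing.div_surjective (𝓞 K) pbK.gen
  set Θ : Finset (𝓞 K) :=
    {algebraMap (𝓞 F) (𝓞 K) aF, algebraMap (𝓞 F) (𝓞 K) bF, aK, bK} with hΘ
  obtain ⟨N, hN⟩ := exists_bound_conj Θ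
  -- the finite set of primes of F of small norm
  have hfin : {v : HeightOneSpectrum (𝓞 F) | Ideal.absNorm v.asIdeal ≤ max B N}.Finite := by
    refine Set.Finite.of_finite_image (f := fun v => v.asIdeal) ?_ ?_
    · refine (Ideal.finite_setOfPred_absNorm_le (S := 𝓞 F) (max B N)).subset ?_
      rintro _ ⟨v, hv, rfl⟩
      exact hv
    · intro v _ w _ hvw
      exact HeightOneSpectrum.ext hvw
  obtain ⟨q, hqT, hqprime, hsplit⟩ :=
    Fermat.Agent.S14Z.exists_prime_not_split F K hr.two_le hfin.toFinset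
  set ℓ := Ideal.absNorm q.asIdeal with hℓ
  have hℓB : max B N < ℓ := by
    by_contra h
    push Not at h
    exact hqT (hfin.mem_toFinset.mpr h)
  -- a prime of `K` above `q`
  obtain ⟨P, hPprime, hPq⟩ :=
    Ideal.exists_ideal_over_prime_of_isIntegral_of_isDomain (S := 𝓞 K) q.asIdeal (by
      rw [(RingHom.injective_iff_ker_eq_bot _).mp
        (FaithfulSMul.algebraMap_injective (𝓞 F) (𝓞 K))]
      exact bot_le)
  have hℓq : (ℓ : 𝓞 F) ∈ q.asIdeal := Ideal.absNorm_mem _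
  have hℓP : (ℓ : 𝓞 K) ∈ P := by
    have h1 : (ℓ : 𝓞 F) ∈ P.comap (algebraMap (𝓞 F) (𝓞 K)) := by rw [hPq]; exact hℓq
    simpa using h1
  have hNℓ : N < ℓ := lt_of_le_of_lt (le_max_right _ _) hℓB
  refine ⟨ℓ, P, hqprime, lt_of_le_of_lt (le_max_left _ _) hℓB, hPprime, hℓP, ?_⟩
  intro σ hσ
  -- (i) `σ` fixes `F` pointwise
  have hq_frob : ∀ x : 𝓞 F, x ^ ℓ - x ∈ q.asIdeal := fun x =>
    pow_sub_mem_of_card q.asIdeal hqprime
      (by rw [← Submodule.cardQuot_apply, ← Ideal.absNorm_apply]) x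
  have hfixF : ∀ x : 𝓞 F, algebraMap (𝓞 F) (𝓞 K) x ∈ Θ → σ ((x : F) : K) = ((x : F) : K) := by
    intro x hx
    have h1 := hσ (algebraMap (𝓞 F) (𝓞 K) x)
    have h2 : (algebraMap (𝓞 F) (𝓞 K) x) ^ ℓ - algebraMap (𝓞 F) (𝓞 K) x ∈ P := by
      have h3 : x ^ ℓ - x ∈ P.comap (algebraMap (𝓞 F) (𝓞 K)) := by rw [hPq]; exact hq_frob x
      simpa using h3
    have h3 : RingOfIntegers.mapRingHom (σ : K →+* K) (algebraMap (𝓞 F) (𝓞 K) x) -
        algebraMap (𝓞 F) (𝓞 K) x ∈ P := by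
      have := P.add_mem h1 h2
      simpa using this
    have h4 := hN ℓ hqprime hNℓ P hPprime hℓP _ hx σ h3
    have h5 := congrArg (fun y : 𝓞 K => (y : K)) h4
    simp only [RingOfIntegers.mapRingHom_apply] at h5
    exact h5
  have hσgen : σ ((pbF.gen : F) : K) = ((pbF.gen : F) : K) := by
    have ha := hfixF aF (by simp [hΘ])
    have hb := hfixF bF (by simp [hΘ])
    rw [← habF]
    push_cast
    rw [map_div₀, ha, hb]
  have hσF : σ ∈ F.fixingSubgroup := by
    rw [IntermediateField.mem_fixingSubgroup_iff]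
    intro x hx
    have h1 : (σ : K →ₐ[ℚ] K).comp F.val = F.val := pbF.algHom_ext hσgen
    exact DFunLike.congr_fun h1 ⟨x, hx⟩
  have hσH : σ ∈ H := by
    rw [← IntermediateField.fixingSubgroup_fixedField H]
    exact hσF
  -- (ii) `σ ≠ 1`
  have hσ1 : σ ≠ 1 := by
    rintro rfl
    have hfrob : ∀ b : 𝓞 K, b ^ ℓ - b ∈ P := by
      intro b
      have h1 := P.neg_mem (hσ b)
      have h2 : RingOfIntegers.mapRingHom ((1 : K ≃ₐ[ℚ] K) : K →+* K) b = b :=
        RingOfIntegers.ext (by rw [RingOfIntegers.mapRingHom_apply]; rfl)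
      rw [h2] at h1
      simpa using h1
    -- the conjugate primes
    let Pg : (K ≃ₐ[ℚ] K) → Ideal (𝓞 K) := fun g =>
      P.comap (RingOfIntegers.mapRingHom (g : K →+* K))
    have hPg_prime : ∀ g, (Pg g).IsPrime := fun g => Ideal.comap_isPrime _ _
    have hPg_ℓ : ∀ g, (ℓ : 𝓞 K) ∈ Pg g := fun g => by
      show RingOfIntegers.mapRingHom (g : K →+* K) (ℓ : 𝓞 K) ∈ P
      rw [map_natCast]
      exact hℓP
    have hPg_frob : ∀ g, ∀ b : 𝓞 K, b ^ ℓ - b ∈ Pg g := fun g b => by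
      show RingOfIntegers.mapRingHom (g : K →+* K) (b ^ ℓ - b) ∈ P
      rw [map_sub, map_pow]
      exact hfrob _
    have hPg_ne : ∀ g, Pg g ≠ ⊥ := fun g h => by
      have h1 := hPg_ℓ g
      rw [h, Ideal.mem_bot] at h1
      exact hqprime.ne_zero (by exact_mod_cast h1)
    have hPg_norm : ∀ g, Ideal.absNorm (Pg g) = ℓ := fun g => by
      have := hPg_prime g
      rw [Ideal.absNorm_apply, Submodule.cardQuot_apply]
      exact (card_quot_of_frob (Pg g) hqprime (hPg_ℓ g) (hPg_frob g)).1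
    have hPg_q : ∀ g ∈ H, (Pg g).comap (algebraMap (𝓞 F) (𝓞 K)) = q.asIdeal := by
      intro g hg
      rw [← hPq]
      ext x
      have h1 : RingOfIntegers.mapRingHom (g : K →+* K) (algebraMap (𝓞 F) (𝓞 K) x) =
          algebraMap (𝓞 F) (𝓞 K) x := by
        apply RingOfIntegers.ext
        rw [RingOfIntegers.mapRingHom_apply]
        exact (IntermediateField.mem_fixedField_iff H _).mp (x : F).2 g hg
      show RingOfIntegers.mapRingHom (g : K →+* K) (algebraMap (𝓞 F) (𝓞 K) x) ∈ P ↔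
        algebraMap (𝓞 F) (𝓞 K) x ∈ P
      rw [h1]
    let w : ℕ → HeightOneSpectrum (𝓞 K) := fun i => ⟨Pg (τ ^ i), hPg_prime _, hPg_ne _⟩
    by_cases hinj : Set.InjOn w (Finset.range r)
    · apply hsplit
      refine ⟨(Finset.range r).image w, ?_, ?_⟩
      · rw [Finset.card_image_of_injOn hinj, Finset.card_range]
      · intro v hv
        obtain ⟨i, -, rfl⟩ := Finset.mem_image.mp hv
        exact ⟨hPg_q _ (Subgroup.pow_mem _ (Subgroup.mem_zpowers τ) i), hPg_norm _⟩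
    · -- two equal conjugates
      rw [Set.InjOn] at hinj
      push Not at hinj
      obtain ⟨i, hi, j, hj, hij, hne⟩ := hinj
      have hPeq : Pg (τ ^ i) = Pg (τ ^ j) := congrArg HeightOneSpectrum.asIdeal hij
      set g : K ≃ₐ[ℚ] K := τ ^ j * (τ ^ i)⁻¹ with hg
      -- `g` acts trivially modulo `P`
      have hgP : ∀ a : 𝓞 K, RingOfIntegers.mapRingHom (g : K →+* K) a - a ∈ P := by
        intro a
        set b : 𝓞 K := RingOfIntegers.mapRingHom (((τ ^ i)⁻¹ : K ≃ₐ[ℚ] K) : K →+* K) a with hb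
        have := hPg_prime (τ ^ i)
        obtain ⟨n, hn⟩ :=
          (card_quot_of_frob (Pg (τ ^ i)) hqprime (hPg_ℓ _) (hPg_frob _)).2 b
        have hn' : b - (n : 𝓞 K) ∈ Pg (τ ^ j) := hPeq ▸ hn
        have e1 : RingOfIntegers.mapRingHom ((τ ^ i : K ≃ₐ[ℚ] K) : K →+* K) b = a := by
          apply RingOfIntegers.ext
          rw [hb, RingOfIntegers.mapRingHom_apply, RingOfIntegers.mapRingHom_apply]
          exact AlgEquiv.apply_symm_apply (τ ^ i) _
        have e2 : RingOfIntegers.mapRingHom ((τ ^ j : K ≃ₐ[ℚ] K) : K →+* K) b =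
            RingOfIntegers.mapRingHom (g : K →+* K) a := by
          apply RingOfIntegers.ext
          rw [hb, RingOfIntegers.mapRingHom_apply, RingOfIntegers.mapRingHom_apply,
            RingOfIntegers.mapRingHom_apply]
          rfl
        have h1 : a - (n : 𝓞 K) ∈ P := by
          have h := hn
          change RingOfIntegers.mapRingHom ((τ ^ i : K ≃ₐ[ℚ] K) : K →+* K) (b - (n : 𝓞 K)) ∈ P
            at h
          rwa [map_sub, map_natCast, e1] at h
        have h2 : RingOfIntegers.mapRingHom (g : K →+* K) a - (n : 𝓞 K) ∈ P := by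
          have h := hn'
          change RingOfIntegers.mapRingHom ((τ ^ j : K ≃ₐ[ℚ] K) : K →+* K) (b - (n : 𝓞 K)) ∈ P
            at h
          rwa [map_sub, map_natCast, e2] at h
        have h3 := P.sub_mem h2 h1
        simpa using h3
      have hga : ∀ a ∈ Θ, g (a : K) = a := by
        intro a ha
        have h4 := hN ℓ hqprime hNℓ P hPprime hℓP a ha g (hgP a)
        have h5 := congrArg (fun y : 𝓞 K => (y : K)) h4
        simp only [RingOfIntegers.mapRingHom_apply] at h5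
        exact h5
      have hggen : g pbK.gen = pbK.gen := by
        have ha := hga aK (by simp [hΘ])
        have hb := hga bK (by simp [hΘ])
        rw [← habK, map_div₀]
        exact congrArg₂ (· / ·) ha hb
      have hg1 : g = 1 := by
        have h1 : (g : K →ₐ[ℚ] K) = AlgHom.id ℚ K := pbK.algHom_ext hggen
        ext x
        exact DFunLike.congr_fun h1 x
      have hpow : τ ^ j = τ ^ i := by
        rw [hg, mul_inv_eq_one] at hg1
        exact hg1
      have hi' : i ∈ Set.Iio (orderOf τ) := by rw [hτ]; exact Finset.mem_range.mp hi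
      have hj' : j ∈ Set.Iio (orderOf τ) := by rw [hτ]; exact Finset.mem_range.mp hj
      exact hne (pow_injOn_Iio_orderOf hj' hi' hpow).symm
  -- conclusion
  have : Fact r.Prime := ⟨hr⟩
  have hcard : Nat.card H = r := by rw [hH, Nat.card_zpowers, hτ]
  have hmem : (⟨τ, Subgroup.mem_zpowers τ⟩ : H) ∈ Subgroup.zpowers (⟨σ, hσH⟩ : H) :=
    mem_zpowers_of_prime_card hcard (fun h => hσ1 (congrArg Subtype.val h))
  rw [← mem_powers_iff_mem_zpowers] at hmem
  obtain ⟨j, hj⟩ := hmem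
  exact ⟨j, (congrArg Subtype.val hj).symm⟩

/-! ### The wrapper over `AlgebraicClosure ℚ` -/

open scoped Pointwise

local notation "Qbar" => AlgebraicClosure ℚ
local notation "GQ" => (AlgebraicClosure ℚ ≃ₐ[ℚ] AlgebraicClosure ℚ)
local notation "Zbar" => integralClosure ℤ (AlgebraicClosure ℚ)

attribute [local instance] Fermat.Agent.S54.FrobIntB.isAlgClosure_rat
attribute [local instance] Fermat.Agent.S54.isAlgebraic_int_algebraicClosure_rat

/-- A Frobenius element at a GIVEN prime `Q` of the ring of algebraic integers (the body of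
`S54.exists_isFrobeniusAt`, for a given prime), together with its congruence property. -/
theorem exists_frob_valSub (ℓ : ℕ) (hℓ : ℓ.Prime) (Q : Ideal Zbar) [hQprime : Q.IsPrime]
    (hℓQ : (ℓ : Zbar) ∈ Q) :
    ∃ σ : GQ, (Fermat.Agent.S54.valSub Q).IsFrobeniusAt σ ℓ ∧
      ∀ (b c : Zbar), (c : Qbar) = σ b → c - b ^ ℓ ∈ Q := by
  classical
  have hℓpos : 0 < ℓ := hℓ.pos
  obtain ⟨σ, hσ⟩ := Fermat.Agent.S54.FrobIntB.exists_frob_on_integers ℓ hℓ Q hℓQ
  refine ⟨σ, ?_, hσ⟩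
  -- `σ` and `σ⁻¹` preserve integrality
  have hint : ∀ (τ : GQ) (b : Zbar), IsIntegral ℤ (τ (b : Qbar)) := fun τ b => b.2.map τ
  -- `σ` preserves membership in `Q`
  have hQiff : ∀ (b c : Zbar), (c : Qbar) = σ b → (c ∈ Q ↔ b ∈ Q) := by
    intro b c hbc
    have h := hσ b c hbc
    constructor
    · intro hc
      have : b ^ ℓ ∈ Q := by
        have := Q.sub_mem hc h
        simpa using this
      exact hQprime.mem_of_pow_mem _ this
    · intro hb
      have : c - b ^ ℓ + b ^ ℓ ∈ Q := Q.add_mem h (Ideal.pow_mem_of_mem Q hb ℓ hℓpos)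
      simpa using this
  -- stability of the valuation subring under `σ` and `σ⁻¹`
  have hstab : ∀ x : Qbar, x ∈ Fermat.Agent.S54.valSub Q → σ x ∈ Fermat.Agent.S54.valSub Q := by
    rintro x ⟨a, s, hs, h⟩
    refine ⟨⟨σ a, hint σ a⟩, ⟨σ s, hint σ s⟩, ?_, ?_⟩
    · exact fun hmem => hs ((hQiff s ⟨σ s, hint σ s⟩ rfl).mp hmem)
    · show σ (s : Qbar) * σ x = σ (a : Qbar)
      rw [← map_mul, h]
  have hstab' : ∀ x : Qbar, x ∈ Fermat.Agent.S54.valSub Q →
      σ.symm x ∈ Fermat.Agent.S54.valSub Q := by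
    rintro x ⟨a, s, hs, h⟩
    refine ⟨⟨σ.symm a, hint σ.symm a⟩, ⟨σ.symm s, hint σ.symm s⟩, ?_, ?_⟩
    · intro hmem
      exact hs ((hQiff ⟨σ.symm s, hint σ.symm s⟩ s (by simp)).mpr hmem)
    · show σ.symm (s : Qbar) * σ.symm x = σ.symm (a : Qbar)
      rw [← map_mul, h]
  have hdec : σ ∈ (Fermat.Agent.S54.valSub Q).decompositionSubgroup ℚ := by
    rw [MulAction.mem_stabilizer_iff]
    ext x
    rw [ValuationSubring.mem_pointwise_smul_iff_inv_smul_mem]
    have hinv : σ⁻¹ • x = σ.symm x := rfl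
    rw [hinv]
    constructor
    · intro hx
      have := hstab _ hx
      simpa using this
    · exact hstab' x
  refine ⟨hdec, ?_⟩
  intro x
  obtain ⟨y, rfl⟩ := IsLocalRing.residue_surjective x
  rw [← IsLocalRing.ResidueField.residue_smul, ← map_pow]
  rw [← sub_eq_zero, ← map_sub, IsLocalRing.residue_eq_zero_iff,
    ← ValuationSubring.coe_mem_nonunits_iff]
  obtain ⟨y, a, s, hs, h⟩ := y
  -- the element `σ y - y ^ ℓ` equals `num / den` with `num ∈ Q`, `den ∉ Q`
  set a' : Zbar := ⟨σ a, hint σ a⟩ with ha'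
  set s' : Zbar := ⟨σ s, hint σ s⟩ with hs'
  have hs'Q : s' ∉ Q := fun hmem => hs ((hQiff s s' rfl).mp hmem)
  have hnum : a' * s ^ ℓ - a ^ ℓ * s' ∈ Q := by
    have h1 := hσ a a' rfl
    have h2 := hσ s s' rfl
    have : a' * s ^ ℓ - a ^ ℓ * s' = (a' - a ^ ℓ) * s ^ ℓ - a ^ ℓ * (s' - s ^ ℓ) := by ring
    rw [this]
    exact Q.sub_mem (Ideal.mul_mem_right _ _ h1) (Ideal.mul_mem_left _ _ h2)
  have hden : s' * s ^ ℓ ∉ Q := by
    intro hmem
    rcases hQprime.mem_or_mem hmem with h1 | h1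
    · exact hs'Q h1
    · exact hs (hQprime.mem_of_pow_mem _ h1)
  refine Fermat.Agent.S54.mem_nonunits_valSub Q (a' * s ^ ℓ - a ^ ℓ * s') (s' * s ^ ℓ) hnum hden ?_
  have hcoe : (((⟨σ, hdec⟩ : (Fermat.Agent.S54.valSub Q).decompositionSubgroup ℚ) •
      (⟨y, a, s, hs, h⟩ : Fermat.Agent.S54.valSub Q) -
        (⟨y, a, s, hs, h⟩ : Fermat.Agent.S54.valSub Q) ^ ℓ : Fermat.Agent.S54.valSub Q) :
        Qbar) = σ y - y ^ ℓ := rfl
  rw [hcoe]
  push_cast
  have e1 : σ (s : Qbar) * σ y = σ (a : Qbar) := by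
    rw [← map_mul, h]
  show σ (s : Qbar) * (s : Qbar) ^ ℓ * (σ y - y ^ ℓ) =
    σ (a : Qbar) * (s : Qbar) ^ ℓ - (a : Qbar) ^ ℓ * σ (s : Qbar)
  rw [← e1, ← h]
  ring

theorem normal_adjoin (S : Finset Qbar) (hS : ∀ σ : GQ, ∀ x ∈ S, σ x ∈ S) :
    Normal ℚ (IntermediateField.adjoin ℚ (S : Set Qbar)) := by
  have h : @Normal ℚ (IntermediateField.adjoin ℚ (S : Set Qbar)) _ _
      (IntermediateField.algebra' _) := by
    rw [IntermediateField.normal_iff_forall_map_le']
    intro σ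
    rw [IntermediateField.adjoin_map]
    apply IntermediateField.adjoin.mono
    rintro _ ⟨x, hx, rfl⟩
    exact hS σ x hx
  exact h

theorem fd_adjoin (S : Finset Qbar) :
    FiniteDimensional ℚ (IntermediateField.adjoin ℚ (S : Set Qbar)) := by
  have h : @FiniteDimensional ℚ (IntermediateField.adjoin ℚ (S : Set Qbar)) _ _
      (IntermediateField.module' _) := by
    apply IntermediateField.finiteDimensional_adjoin
    intro x hx
    exact Algebra.IsIntegral.isIntegral x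
  exact h

/-- **[FL] Frobenius-lite** (blueprint #826, B-version). -/
theorem exists_frobenius_of_prime_order (S : Finset (AlgebraicClosure ℚ))
    (hS : ∀ σ : AlgebraicClosure ℚ ≃ₐ[ℚ] AlgebraicClosure ℚ, ∀ x ∈ S, σ x ∈ S)
    (τ : AlgebraicClosure ℚ ≃ₐ[ℚ] AlgebraicClosure ℚ) (r : ℕ) (hr : r.Prime)
    (hτr : ∀ x ∈ S, (τ ^ r) x = x) (hτ1 : ∃ x ∈ S, τ x ≠ x) (B : ℕ) :
    ∃ (ℓ : ℕ) (A : ValuationSubring (AlgebraicClosure ℚ))
      (σ : AlgebraicClosure ℚ ≃ₐ[ℚ] AlgebraicClosure ℚ) (j : ℕ),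
      ℓ.Prime ∧ B < ℓ ∧ (ℓ : AlgebraicClosure ℚ) ∈ A.nonunits ∧ A.IsFrobeniusAt σ ℓ ∧
        ∀ x ∈ S, τ x = (σ ^ j) x := by
  classical
  set K : IntermediateField ℚ Qbar := IntermediateField.adjoin ℚ (S : Set Qbar) with hK
  have hKfd : FiniteDimensional ℚ K := fd_adjoin S
  have hKn : Normal ℚ K := normal_adjoin S hS
  have : NumberField K := { to_charZero := inferInstance, to_finiteDimensional := hKfd }
  let res : GQ →* (K ≃ₐ[ℚ] K) := AlgEquiv.restrictNormalHom K
  have hres : ∀ (g : GQ) (x : K), ((res g x : K) : Qbar) = g (x : Qbar) := fun g x =>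
    AlgEquiv.restrictNormal_commutes g K x
  have hSK : ∀ x ∈ S, x ∈ K := fun x hx => IntermediateField.subset_adjoin ℚ _ hx
  -- an automorphism fixing `S` pointwise restricts to the identity of `K`
  have hres1 : ∀ g : GQ, (∀ x ∈ S, g x = x) → res g = 1 := by
    intro g hg
    have hle : K ≤ IntermediateField.fixedField (Subgroup.zpowers g) := by
      rw [hK, IntermediateField.adjoin_le_iff]
      intro x hx
      rw [SetLike.mem_coe, IntermediateField.mem_fixedField_iff]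
      intro f hf
      have h1 : Subgroup.zpowers g ≤ MulAction.stabilizer GQ x := by
        rw [Subgroup.zpowers_le, MulAction.mem_stabilizer_iff]
        exact hg x hx
      exact MulAction.mem_stabilizer_iff.mp (h1 hf)
    ext x
    have h2 := (IntermediateField.mem_fixedField_iff _ _).mp (hle x.2) g
      (Subgroup.mem_zpowers g)
    rw [hres]
    exact h2
  set τK := res τ with hτK
  have hτKr : τK ^ r = 1 := by
    rw [hτK, ← map_pow]
    exact hres1 _ hτr
  have hτK1 : τK ≠ 1 := by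
    intro h
    obtain ⟨x, hx, hne⟩ := hτ1
    apply hne
    have h1 := hres τ ⟨x, hSK x hx⟩
    rw [← hτK, h] at h1
    exact h1.symm
  have : Fact r.Prime := ⟨hr⟩
  have hord : orderOf τK = r := orderOf_eq_prime hτKr hτK1
  obtain ⟨ℓ, P, hℓ, hBℓ, hPprime, hℓP, hcore⟩ := core K τK r hr hord B
  -- the embedding of `𝓞 K` into the ring of all algebraic integers
  let ιK : 𝓞 K →+* Zbar :=
    RingHom.codRestrict ((algebraMap K Qbar).comp (algebraMap (𝓞 K) K)) (integralClosure ℤ Qbar)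
      (fun x => (RingOfIntegers.isIntegral_coe x).algebraMap)
  have hιK : ∀ x : 𝓞 K, ((ιK x : Zbar) : Qbar) = ((x : K) : Qbar) := fun x => rfl
  have hιinj : Function.Injective ιK := by
    intro x y hxy
    have h1 : ((ιK x : Zbar) : Qbar) = ((ιK y : Zbar) : Qbar) := by rw [hxy]
    rw [hιK, hιK] at h1
    exact RingOfIntegers.ext (Subtype.ext h1)
  have hker : RingHom.ker ιK = ⊥ := (RingHom.injective_iff_ker_eq_bot _).mp hιinj
  -- a prime of `Zbar` above `P`
  obtain ⟨Q, hQprime, hQP⟩ : ∃ Q : Ideal Zbar, Q.IsPrime ∧ Q.comap ιK = P := by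
    let _ : Algebra (𝓞 K) Zbar := ιK.toAlgebra
    have hint : Algebra.IsIntegral (𝓞 K) Zbar :=
      ⟨fun b => (Algebra.IsIntegral.isIntegral (R := ℤ) b).tower_top⟩
    exact Ideal.exists_ideal_over_prime_of_isIntegral_of_isDomain (S := Zbar) P (by
      show RingHom.ker ιK ≤ P
      rw [hker]
      exact bot_le)
  have hℓQ : (ℓ : Zbar) ∈ Q := by
    have h1 : (ℓ : 𝓞 K) ∈ Q.comap ιK := by rw [hQP]; exact hℓP
    rw [Ideal.mem_comap, map_natCast] at h1
    exact h1
  have h1Q : (1 : Zbar) ∉ Q := (Ideal.ne_top_iff_one Q).mp hQprime.ne_top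
  obtain ⟨σ, hσfrob, hσ⟩ := exists_frob_valSub ℓ hℓ Q hℓQ
  obtain ⟨j, hj⟩ := hcore (res σ) (by
    intro b
    rw [← hQP, Ideal.mem_comap, map_sub, map_pow]
    refine hσ (ιK b) (ιK (RingOfIntegers.mapRingHom ((res σ : K ≃ₐ[ℚ] K) : K →+* K) b)) ?_
    rw [hιK, hιK, RingOfIntegers.mapRingHom_apply]
    exact hres σ _)
  refine ⟨ℓ, Fermat.Agent.S54.valSub Q, σ, j, hℓ, hBℓ, ?_, hσfrob, ?_⟩
  · exact Fermat.Agent.S54.mem_nonunits_valSub Q (ℓ : Zbar) 1 hℓQ h1Q (by simp)
  · intro x hx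
    have h1 := hres τ ⟨x, hSK x hx⟩
    have h2 := hres (σ ^ j) ⟨x, hSK x hx⟩
    rw [map_pow, ← hj] at h2
    exact h1.symm.trans h2

end Fermat.Agent.S41.FLB
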