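/-
S41, block [COH]: generic coset / transfer calculus (owner: helper99).

`TransferData H G ι` is the two-group version of `S16.CosetData`: a right action `perm` of `G` on a
finite index set `ι` and an `H`-valued cocycle `part`.  It induces the transfer-type operator
`tr : Hom(H, A) → Hom(G, A)`, `(tr ψ)(γ) = ∑ i, ψ (part γ i)`.

* formal properties of `tr` (additivity, naturality in the coefficients);
* `map` (push the cocycle along `H →* H'`), `comap` (pull back along `K →* G`), `comp`
  (composition of two transfers), `ofCosetData` (`S16.CosetData` as a special case);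
* `tr_eq_of_conj` : the operator does not depend on the coset representatives;
* `tr_comp_hom_eq_card_nsmul` : `tr ∘ res = index`;
* `Realizes` : the data come from representatives `rep : ι → 𝒢` in an ambient group, via
  `rep i * jG γ = jH (part γ i) * rep (perm γ i)`; `Realizes.tr_eq` : two realised data with
  matching cosets give the same operator (`tr_eq_of_injective` : the matching map only has to
  exist, bijectivity follows from disjointness of the cosets and a count).
-/
import Mathlib
import Fermat.Agent.S16.HeckeHom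

set_option autoImplicit false

namespace Fermat.Agent.S41.CosetLib

open Fermat.Agent.S16

/-- Two-group coset data: a right action `perm` of `G` on the index set and an `H`-valued
cocycle `part` (`rep i * γ = part γ i * rep (perm γ i)` for coset representatives `rep i`). -/
structure TransferData (H G : Type*) [Group H] [Group G] (ι : Type*) where
  /-- the permutation of the representatives induced by right multiplication by `γ` -/
  perm : G → Equiv.Perm ι
  /-- the `H`-part of `rep i * γ` -/
  part : G → ι → H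
  perm_mul : ∀ γ δ i, perm (γ * δ) i = perm δ (perm γ i)
  part_mul : ∀ γ δ i, part (γ * δ) i = part γ i * part δ (perm γ i)

namespace TransferData

variable {H H' G K : Type*} [Group H] [Group H'] [Group G] [Group K]
variable {ι κ : Type*}
variable {A B : Type*} [AddCommGroup A] [AddCommGroup B]

section Basic

variable [Fintype ι] (D : TransferData H G ι)

/-- The transfer-type operator attached to coset data: `(tr ψ)(γ) = ∑ i, ψ (part γ i)`. -/
def tr (ψ : Additive H →+ A) : Additive G →+ A :=
  AddMonoidHom.mk' (fun γ => ∑ i, ψ (Additive.ofMul (D.part (Additive.toMul γ) i))) (by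
    intro γ δ
    have h : ∀ i, ψ (Additive.ofMul (D.part (Additive.toMul (γ + δ)) i)) =
        ψ (Additive.ofMul (D.part (Additive.toMul γ) i)) +
          ψ (Additive.ofMul (D.part (Additive.toMul δ) (D.perm (Additive.toMul γ) i))) := by
      intro i
      rw [toMul_add, D.part_mul, ofMul_mul, map_add]
    simp only [h, Finset.sum_add_distrib]
    congr 1
    exact Equiv.sum_comp (D.perm (Additive.toMul γ))
      (fun i => ψ (Additive.ofMul (D.part (Additive.toMul δ) i))))

theorem tr_apply (ψ : Additive H →+ A) (γ : G) :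
    D.tr ψ (Additive.ofMul γ) = ∑ i, ψ (Additive.ofMul (D.part γ i)) := rfl

theorem tr_add (ψ ψ' : Additive H →+ A) : D.tr (ψ + ψ') = D.tr ψ + D.tr ψ' := by
  refine AddMonoidHom.ext fun γ => ?_
  obtain ⟨γ, rfl⟩ := Additive.ofMul.surjective γ
  simp only [tr_apply, AddMonoidHom.add_apply, Finset.sum_add_distrib]

theorem tr_zero : D.tr (0 : Additive H →+ A) = 0 := by
  refine AddMonoidHom.ext fun γ => ?_
  obtain ⟨γ, rfl⟩ := Additive.ofMul.surjective γ
  simp only [tr_apply, AddMonoidHom.zero_apply, Finset.sum_const_zero]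

theorem tr_neg (ψ : Additive H →+ A) : D.tr (-ψ) = -D.tr ψ := by
  refine AddMonoidHom.ext fun γ => ?_
  obtain ⟨γ, rfl⟩ := Additive.ofMul.surjective γ
  simp only [tr_apply, AddMonoidHom.neg_apply, Finset.sum_neg_distrib]

theorem tr_sub (ψ ψ' : Additive H →+ A) : D.tr (ψ - ψ') = D.tr ψ - D.tr ψ' := by
  rw [sub_eq_add_neg, tr_add, tr_neg, sub_eq_add_neg]

theorem tr_nsmul (n : ℕ) (ψ : Additive H →+ A) : D.tr (n • ψ) = n • D.tr ψ := by
  refine AddMonoidHom.ext fun γ => ?_
  obtain ⟨γ, rfl⟩ := Additive.ofMul.surjective γ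
  simp only [tr_apply, AddMonoidHom.smul_apply, Finset.smul_sum]

theorem tr_zsmul (n : ℤ) (ψ : Additive H →+ A) : D.tr (n • ψ) = n • D.tr ψ := by
  refine AddMonoidHom.ext fun γ => ?_
  obtain ⟨γ, rfl⟩ := Additive.ofMul.surjective γ
  simp only [tr_apply, AddMonoidHom.smul_apply, Finset.smul_sum]

/-- The operator as an additive map `Hom(H, A) →+ Hom(G, A)`. -/
def trHom : (Additive H →+ A) →+ (Additive G →+ A) where
  toFun := D.tr
  map_zero' := D.tr_zero
  map_add' := D.tr_add

@[simp] theorem trHom_apply (ψ : Additive H →+ A) : D.trHom ψ = D.tr ψ := rfl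

/-- Naturality in the coefficient group. -/
theorem tr_comp (h : A →+ B) (ψ : Additive H →+ A) : D.tr (h.comp ψ) = h.comp (D.tr ψ) := by
  refine AddMonoidHom.ext fun γ => ?_
  obtain ⟨γ, rfl⟩ := Additive.ofMul.surjective γ
  simp only [tr_apply, AddMonoidHom.comp_apply, map_sum]

end Basic

/-! ### Constructions -/

/-- Push the cocycle forward along a homomorphism `f : H →* H'`. -/
def map (D : TransferData H G ι) (f : H →* H') : TransferData H' G ι where
  perm := D.perm
  part γ i := f (D.part γ i)
  perm_mul := D.perm_mul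
  part_mul γ δ i := by rw [D.part_mul, map_mul]

@[simp] theorem map_perm (D : TransferData H G ι) (f : H →* H') (γ : G) (i : ι) :
    (D.map f).perm γ i = D.perm γ i := rfl

@[simp] theorem map_part (D : TransferData H G ι) (f : H →* H') (γ : G) (i : ι) :
    (D.map f).part γ i = f (D.part γ i) := rfl

/-- `tr` of the pushed-forward data is `tr ∘ (restriction along f)`. -/
theorem map_tr [Fintype ι] (D : TransferData H G ι) (f : H →* H') (φ : Additive H' →+ A) :
    (D.map f).tr φ = D.tr (φ.comp (MonoidHom.toAdditive f)) := by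
  refine AddMonoidHom.ext fun γ => ?_
  obtain ⟨γ, rfl⟩ := Additive.ofMul.surjective γ
  rfl

/-- Pull the data back along a homomorphism `f : K →* G`. -/
def comap (D : TransferData H G ι) (f : K →* G) : TransferData H K ι where
  perm k := D.perm (f k)
  part k i := D.part (f k) i
  perm_mul k k' i := by rw [map_mul, D.perm_mul]
  part_mul k k' i := by rw [map_mul, D.part_mul]

@[simp] theorem comap_perm (D : TransferData H G ι) (f : K →* G) (k : K) (i : ι) :
    (D.comap f).perm k i = D.perm (f k) i := rfl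

@[simp] theorem comap_part (D : TransferData H G ι) (f : K →* G) (k : K) (i : ι) :
    (D.comap f).part k i = D.part (f k) i := rfl

/-- `tr` of the pulled-back data is `(restriction along f) ∘ tr`. -/
theorem comap_tr [Fintype ι] (D : TransferData H G ι) (f : K →* G) (ψ : Additive H →+ A) :
    (D.comap f).tr ψ = (D.tr ψ).comp (MonoidHom.toAdditive f) := by
  refine AddMonoidHom.ext fun γ => ?_
  obtain ⟨γ, rfl⟩ := Additive.ofMul.surjective γ
  rfl

/-- Composition: `D₁` from `G` to `H`, then `D₂` from `K` to `G`; index set `κ × ι`,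
representatives `rep₁ i * rep₂ j`. -/
def comp (D₁ : TransferData H G ι) (D₂ : TransferData G K κ) : TransferData H K (κ × ι) where
  perm k := Equiv.prodShear (D₂.perm k) (fun j => D₁.perm (D₂.part k j))
  part k x := D₁.part (D₂.part k x.1) x.2
  perm_mul k k' x := by
    obtain ⟨j, i⟩ := x
    simp only [Equiv.prodShear_apply, D₂.perm_mul, D₂.part_mul, D₁.perm_mul]
  part_mul k k' x := by
    obtain ⟨j, i⟩ := x
    simp only [Equiv.prodShear_apply, D₂.part_mul, D₁.part_mul]

@[simp] theorem comp_perm (D₁ : TransferData H G ι) (D₂ : TransferData G K κ) (k : K) (j : κ)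
    (i : ι) : (D₁.comp D₂).perm k (j, i) = (D₂.perm k j, D₁.perm (D₂.part k j) i) := rfl

@[simp] theorem comp_part (D₁ : TransferData H G ι) (D₂ : TransferData G K κ) (k : K) (j : κ)
    (i : ι) : (D₁.comp D₂).part k (j, i) = D₁.part (D₂.part k j) i := rfl

/-- `tr` of a composite is the composite of the `tr`'s. -/
theorem comp_tr [Fintype ι] [Fintype κ] (D₁ : TransferData H G ι) (D₂ : TransferData G K κ)
    (ψ : Additive H →+ A) : (D₁.comp D₂).tr ψ = D₂.tr (D₁.tr ψ) := by
  refine AddMonoidHom.ext fun γ => ?_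
  obtain ⟨γ, rfl⟩ := Additive.ofMul.surjective γ
  simp only [tr_apply]
  rw [Fintype.sum_prod_type]
  rfl

/-- An `S16.CosetData` is a `TransferData` with `H = G`. -/
def ofCosetData (D : CosetData G ι) : TransferData G G ι where
  perm := D.perm
  part := D.part
  perm_mul := D.perm_mul
  part_mul := D.part_mul

@[simp] theorem ofCosetData_perm (D : CosetData G ι) (γ : G) (i : ι) :
    (ofCosetData D).perm γ i = D.perm γ i := rfl

@[simp] theorem ofCosetData_part (D : CosetData G ι) (γ : G) (i : ι) :
    (ofCosetData D).part γ i = D.part γ i := rfl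

theorem ofCosetData_tr [Fintype ι] (D : CosetData G ι) (φ : Additive G →+ A) :
    (ofCosetData D).tr φ = D.op φ := rfl

/-- A `TransferData` with `H = G` is an `S16.CosetData`. -/
def toCosetData (D : TransferData G G ι) : CosetData G ι where
  perm := D.perm
  part := D.part
  perm_mul := D.perm_mul
  part_mul := D.part_mul

theorem toCosetData_op [Fintype ι] (D : TransferData G G ι) (φ : Additive G →+ A) :
    D.toCosetData.op φ = D.tr φ := rfl

/-! ### Independence of the representatives, `tr ∘ res = index` -/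

/-- Change of representatives: if the cocycles differ by the coboundary of `g : ι' → H` along a
bijection `e` of the index sets compatible with the actions, the operators agree. -/
theorem tr_eq_of_conj {ι' : Type*} [Fintype ι] [Fintype ι'] (D : TransferData H G ι)
    (D' : TransferData H G ι') (e : ι' ≃ ι) (g : ι' → H)
    (hpart : ∀ γ i, D'.part γ i = g i * D.part γ (e i) * (g (D'.perm γ i))⁻¹)
    (ψ : Additive H →+ A) : D'.tr ψ = D.tr ψ := by
  refine AddMonoidHom.ext fun γ => ?_
  obtain ⟨γ, rfl⟩ := Additive.ofMul.surjective γ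
  simp only [tr_apply]
  have h : ∀ i, ψ (Additive.ofMul (D'.part γ i)) =
      ψ (Additive.ofMul (g i)) + ψ (Additive.ofMul (D.part γ (e i))) -
        ψ (Additive.ofMul (g (D'.perm γ i))) := by
    intro i
    rw [hpart, ofMul_mul, ofMul_mul, map_add, map_add, ofMul_inv, map_neg]
    abel
  simp only [h, Finset.sum_sub_distrib, Finset.sum_add_distrib]
  rw [Equiv.sum_comp (D'.perm γ) (fun i => ψ (Additive.ofMul (g i))),
    Equiv.sum_comp e (fun i => ψ (Additive.ofMul (D.part γ i)))]
  abel

/-- `tr ∘ res = index`: if `f (part γ i) = r i * γ * (r (perm γ i))⁻¹` for representatives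
`r : ι → G`, then `tr (φ ∘ f) = card ι • φ`. -/
theorem tr_comp_hom_eq_card_nsmul [Fintype ι] (D : TransferData H G ι) (f : H →* G) (r : ι → G)
    (h : ∀ γ i, f (D.part γ i) = r i * γ * (r (D.perm γ i))⁻¹) (φ : Additive G →+ A) :
    D.tr (φ.comp (MonoidHom.toAdditive f)) = Fintype.card ι • φ := by
  refine AddMonoidHom.ext fun γ => ?_
  obtain ⟨γ, rfl⟩ := Additive.ofMul.surjective γ
  simp only [tr_apply, AddMonoidHom.comp_apply, AddMonoidHom.smul_apply]
  have h' : ∀ i, φ ((MonoidHom.toAdditive f) (Additive.ofMul (D.part γ i))) =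
      φ (Additive.ofMul (r i)) + φ (Additive.ofMul γ) - φ (Additive.ofMul (r (D.perm γ i))) := by
    intro i
    have : (MonoidHom.toAdditive f) (Additive.ofMul (D.part γ i)) =
        Additive.ofMul (f (D.part γ i)) := rfl
    rw [this, h, ofMul_mul, ofMul_mul, map_add, map_add, ofMul_inv, map_neg]
    abel
  simp only [h', Finset.sum_sub_distrib, Finset.sum_add_distrib]
  rw [Equiv.sum_comp (D.perm γ) (fun i => φ (Additive.ofMul (r i)))]
  simp only [Finset.sum_const, Finset.card_univ]
  abel

/-! ### Data realised by representatives in an ambient group -/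

section Realizes

variable {𝒢 : Type*} [Group 𝒢]

/-- The data `D` are realised by representatives `rep : ι → 𝒢` in an ambient group, with respect
to `jH : H →* 𝒢`, `jG : G →* 𝒢`: `rep i * jG γ = jH (part γ i) * rep (perm γ i)`. -/
def Realizes (D : TransferData H G ι) (jH : H →* 𝒢) (jG : G →* 𝒢) (rep : ι → 𝒢) : Prop :=
  ∀ γ i, rep i * jG γ = jH (D.part γ i) * rep (D.perm γ i)

/-- The cosets `jH(H) * rep i` are pairwise distinct. -/
def DisjointCosets (jH : H →* 𝒢) (rep : ι → 𝒢) : Prop :=
  ∀ (h : H) (i j : ι), jH h * rep i = rep j → i = j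

theorem Realizes.map {D : TransferData H G ι} {jH : H →* 𝒢} {jG : G →* 𝒢} {rep : ι → 𝒢}
    (hD : D.Realizes jH jG rep) (f : H →* H') (jH' : H' →* 𝒢) (hf : ∀ h, jH' (f h) = jH h) :
    (D.map f).Realizes jH' jG rep := by
  intro γ i
  rw [map_part, map_perm, hf]
  exact hD γ i

theorem Realizes.comap {D : TransferData H G ι} {jH : H →* 𝒢} {jG : G →* 𝒢} {rep : ι → 𝒢}
    (hD : D.Realizes jH jG rep) (f : K →* G) (jK : K →* 𝒢) (hf : ∀ k, jG (f k) = jK k) :
    (D.comap f).Realizes jH jK rep := by
  intro k i
  rw [comap_part, comap_perm, ← hf]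
  exact hD (f k) i

theorem Realizes.comp {D₁ : TransferData H G ι} {D₂ : TransferData G K κ} {jH : H →* 𝒢}
    {jG : G →* 𝒢} {jK : K →* 𝒢} {rep₁ : ι → 𝒢} {rep₂ : κ → 𝒢}
    (h₁ : D₁.Realizes jH jG rep₁) (h₂ : D₂.Realizes jG jK rep₂) :
    (D₁.comp D₂).Realizes jH jK (fun x => rep₁ x.2 * rep₂ x.1) := by
  rintro k ⟨j, i⟩
  simp only [comp_part, comp_perm]
  rw [mul_assoc, h₂ k j, ← mul_assoc, h₁ (D₂.part k j) i, mul_assoc]

/-- Conjugating everything by an element of the ambient group. -/
theorem Realizes.conj {D : TransferData H G ι} {jH : H →* 𝒢} {jG : G →* 𝒢} {rep : ι → 𝒢}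
    (hD : D.Realizes jH jG rep) (c : 𝒢) (jH' : H →* 𝒢) (jG' : G →* 𝒢)
    (hH : ∀ h, jH' h = c * jH h * c⁻¹) (hG : ∀ γ, jG' γ = c * jG γ * c⁻¹) :
    D.Realizes jH' jG' (fun i => c * rep i * c⁻¹) := by
  intro γ i
  rw [hG, hH]
  have := hD γ i
  calc c * rep i * c⁻¹ * (c * jG γ * c⁻¹) = c * (rep i * jG γ) * c⁻¹ := by group
    _ = c * (jH (D.part γ i) * rep (D.perm γ i)) * c⁻¹ := by rw [this]
    _ = c * jH (D.part γ i) * c⁻¹ * (c * rep (D.perm γ i) * c⁻¹) := by group

/-- Two realised data whose representatives match up to `jH(H)` along a bijection of the index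
sets have cocycles differing by a coboundary. -/
theorem Realizes.part_eq {ι' : Type*} {D : TransferData H G ι} {D' : TransferData H G ι'}
    {jH : H →* 𝒢} {jG : G →* 𝒢} {rep : ι → 𝒢} {rep' : ι' → 𝒢} (hjH : Function.Injective jH)
    (hD : D.Realizes jH jG rep) (hdis : DisjointCosets jH rep) (hD' : D'.Realizes jH jG rep')
    (e : ι' → ι) (g : ι' → H) (hrep : ∀ i, rep' i = jH (g i) * rep (e i)) (γ : G) (i : ι') :
    e (D'.perm γ i) = D.perm γ (e i) ∧
      D'.part γ i = g i * D.part γ (e i) * (g (D'.perm γ i))⁻¹ := by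
  have h1 : rep' i * jG γ = jH (g i * D.part γ (e i)) * rep (D.perm γ (e i)) := by
    rw [hrep i, mul_assoc, hD γ (e i), ← mul_assoc, map_mul]
  have h2 : rep' i * jG γ = jH (D'.part γ i * g (D'.perm γ i)) * rep (e (D'.perm γ i)) := by
    rw [hD' γ i, hrep (D'.perm γ i), ← mul_assoc, map_mul]
  rw [h1] at h2
  have h3 : jH ((D'.part γ i * g (D'.perm γ i))⁻¹ * (g i * D.part γ (e i))) *
      rep (D.perm γ (e i)) = rep (e (D'.perm γ i)) := by
    rw [map_mul, map_inv, mul_assoc, h2, ← mul_assoc, inv_mul_cancel, one_mul]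
  have h4 : D.perm γ (e i) = e (D'.perm γ i) := hdis _ _ _ h3
  refine ⟨h4.symm, ?_⟩
  rw [h4] at h2
  have h5 := hjH (mul_right_cancel h2)
  rw [eq_mul_inv_iff_mul_eq]
  exact h5.symm

/-- Independence of the representatives, realised version. -/
theorem Realizes.tr_eq {ι' : Type*} [Fintype ι] [Fintype ι'] {D : TransferData H G ι}
    {D' : TransferData H G ι'} {jH : H →* 𝒢} {jG : G →* 𝒢} {rep : ι → 𝒢} {rep' : ι' → 𝒢}
    (hjH : Function.Injective jH) (hD : D.Realizes jH jG rep) (hdis : DisjointCosets jH rep)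
    (hD' : D'.Realizes jH jG rep') (e : ι' ≃ ι) (g : ι' → H)
    (hrep : ∀ i, rep' i = jH (g i) * rep (e i)) (ψ : Additive H →+ A) : D'.tr ψ = D.tr ψ :=
  tr_eq_of_conj D D' e g (fun γ i => (hD.part_eq hjH hdis hD' e g hrep γ i).2) ψ

/-- Independence of the representatives: it is enough that every `rep' i` lies in some coset
`jH(H) * rep j`, provided both families consist of pairwise distinct cosets and the index sets
have the same cardinality. -/
theorem Realizes.tr_eq_of_exists {ι' : Type*} [Fintype ι] [Fintype ι'] {D : TransferData H G ι}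
    {D' : TransferData H G ι'} {jH : H →* 𝒢} {jG : G →* 𝒢} {rep : ι → 𝒢} {rep' : ι' → 𝒢}
    (hjH : Function.Injective jH) (hD : D.Realizes jH jG rep) (hdis : DisjointCosets jH rep)
    (hD' : D'.Realizes jH jG rep') (hdis' : DisjointCosets jH rep')
    (hcard : Fintype.card ι' = Fintype.card ι)
    (hex : ∀ i, ∃ (j : ι) (h : H), rep' i = jH h * rep j) (ψ : Additive H →+ A) :
    D'.tr ψ = D.tr ψ := by
  classical
  choose e g hrep using hex
  have hinj : Function.Injective e := by
    intro i i' hii
    have h1 := hrep i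
    have h2 := hrep i'
    rw [hii] at h1
    refine hdis' ((g i') * (g i)⁻¹) i i' ?_
    rw [h1, h2, map_mul, map_inv, mul_assoc, ← mul_assoc (jH (g i))⁻¹, inv_mul_cancel, one_mul]
  have hbij : Function.Bijective e := (Fintype.bijective_iff_injective_and_card e).mpr ⟨hinj, hcard⟩
  exact hD.tr_eq hjH hdis hD' (Equiv.ofBijective e hbij) g hrep ψ

/-- Disjointness of the cosets of a composite when the inner representatives lie in `jG(G)`
(transfer followed by anything). -/
theorem DisjointCosets.comp_of_mem {jH : H →* 𝒢} {jG : G →* 𝒢} {rep₁ : ι → 𝒢} {rep₂ : κ → 𝒢}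
    (f : H →* G) (hf : ∀ h, jG (f h) = jH h)
    (r : ι → G) (hr : ∀ i, rep₁ i = jG (r i))
    (h₁ : DisjointCosets jH rep₁) (h₂ : DisjointCosets jG rep₂) :
    DisjointCosets jH (fun x : κ × ι => rep₁ x.2 * rep₂ x.1) := by
  rintro h ⟨j, i⟩ ⟨j', i'⟩ hh
  have hh' : jH h * rep₁ i * rep₂ j = rep₁ i' * rep₂ j' := by
    rw [mul_assoc]
    exact hh
  have h3 : jG ((r i')⁻¹ * f h * r i) * rep₂ j = rep₂ j' := by
    calc jG ((r i')⁻¹ * f h * r i) * rep₂ j
        = (rep₁ i')⁻¹ * (jH h * rep₁ i * rep₂ j) := by
          rw [map_mul, map_mul, map_inv, hf, ← hr, ← hr]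
          group
      _ = (rep₁ i')⁻¹ * (rep₁ i' * rep₂ j') := by rw [hh']
      _ = rep₂ j' := by group
  have hj : j = j' := h₂ _ _ _ h3
  subst hj
  have h4 : jH h * rep₁ i = rep₁ i' := mul_right_cancel hh'
  have hi : i = i' := h₁ _ _ _ h4
  subst hi
  rfl

end Realizes

end TransferData

end Fermat.Agent.S41.CosetLib
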