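/-
S41, block [COH]: abstract commutation of a Hecke-type operator with restriction / transfer
(owner: helper99).

Setting: `f : Γ' →* Γ` injective, `jΓ : Γ →* 𝒢` an embedding into an ambient group, Hecke-type
coset data `E` on `Γ` realised by representatives `α : X → 𝒢` with pairwise distinct `Γ`-cosets
(`hE`, `hdisE`), and `E'` on `Γ'` realised (through `jΓ ∘ f`) by representatives `α' : X → 𝒢`
(`hE'`) which lie in the same cosets up to a permutation `m`: `α' x = jΓ (c x) * α (m x)`.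

* `res_op_comm` : `(E.op φ) ∘ f = E'.op (φ ∘ f)`;
* `tr_op_comm`  : `D.tr (E'.op ψ) = E.op (D.tr ψ)` for a transfer `D` along `f` with
  representatives `r : ι → Γ` (`r i * γ = f (D.part γ i) * r (D.perm γ i)`).
-/
import Mathlib
import Fermat.Agent.S16.HeckeHom
import Fermat.Agent.S41.CosetLib

set_option autoImplicit false

namespace Fermat.Agent.S41.CosetComm

open Fermat.Agent.S16 Fermat.Agent.S41.CosetLib Fermat.Agent.S41.CosetLib.TransferData

variable {Γ' Γ 𝒢 : Type*} [Group Γ'] [Group Γ] [Group 𝒢] {X ι : Type*}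
variable {A : Type*} [AddCommGroup A]

/-- Uniqueness of the decomposition `jΓ P * α a` when the cosets are pairwise distinct. -/
theorem eq_of_mul_eq (jΓ : Γ →* 𝒢) (hj : Function.Injective jΓ) (α : X → 𝒢)
    (hdisE : ∀ (γ : Γ) (x y : X), jΓ γ * α x = α y → x = y) {P P' : Γ} {a b : X}
    (h : jΓ P * α a = jΓ P' * α b) : a = b ∧ P = P' := by
  have h1 : jΓ (P'⁻¹ * P) * α a = α b := by
    rw [map_mul, map_inv, mul_assoc, h, ← mul_assoc, inv_mul_cancel, one_mul]
  have hab : a = b := hdisE _ _ _ h1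
  subst hab
  exact ⟨rfl, hj (mul_right_cancel h)⟩

/-- Restriction along `f` commutes with the Hecke-type operators. -/
theorem res_op_comm [Fintype X] (jΓ : Γ →* 𝒢) (hj : Function.Injective jΓ) (f : Γ' →* Γ)
    (E : CosetData Γ X) (E' : CosetData Γ' X) (α : X → 𝒢)
    (hE : ∀ (γ : Γ) (x : X), α x * jΓ γ = jΓ (E.part γ x) * α (E.perm γ x))
    (hdisE : ∀ (γ : Γ) (x y : X), jΓ γ * α x = α y → x = y)
    (m : Equiv.Perm X) (c : X → Γ) (α' : X → 𝒢) (hα' : ∀ x, α' x = jΓ (c x) * α (m x))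
    (hE' : ∀ (h : Γ') (x : X), α' x * jΓ (f h) = jΓ (f (E'.part h x)) * α' (E'.perm h x))
    (φ : Additive Γ →+ A) :
    (E.op φ).comp (MonoidHom.toAdditive f) = E'.op (φ.comp (MonoidHom.toAdditive f)) := by
  refine AddMonoidHom.ext fun h => ?_
  obtain ⟨h, rfl⟩ := Additive.ofMul.surjective h
  have key : ∀ x, c x * E.part (f h) (m x) = f (E'.part h x) * c (E'.perm h x) := by
    intro x
    have h1 := hE (f h) (m x)
    have h2 := hE' h x
    rw [hα' x, hα' (E'.perm h x), mul_assoc, h1, ← mul_assoc, ← mul_assoc, ← map_mul,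
      ← map_mul] at h2
    exact (eq_of_mul_eq jΓ hj α hdisE h2).2
  have hL : ((E.op φ).comp (MonoidHom.toAdditive f)) (Additive.ofMul h) =
      ∑ x, φ (Additive.ofMul (E.part (f h) x)) := rfl
  have hR : (E'.op (φ.comp (MonoidHom.toAdditive f))) (Additive.ofMul h) =
      ∑ x, φ (Additive.ofMul (f (E'.part h x))) := rfl
  rw [hL, hR, ← Equiv.sum_comp m (fun x => φ (Additive.ofMul (E.part (f h) x)))]
  have h3 : ∀ x, φ (Additive.ofMul (E.part (f h) (m x))) =
      φ (Additive.ofMul (f (E'.part h x))) + φ (Additive.ofMul (c (E'.perm h x))) -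
        φ (Additive.ofMul (c x)) := by
    intro x
    have h4 := congrArg (fun g => φ (Additive.ofMul g)) (key x)
    simp only [ofMul_mul, map_add] at h4
    rw [← h4]
    abel
  simp only [h3, Finset.sum_sub_distrib, Finset.sum_add_distrib]
  rw [Equiv.sum_comp (E'.perm h) (fun x => φ (Additive.ofMul (c x)))]
  abel

/-- Transfer along `f` commutes with the Hecke-type operators. -/
theorem tr_op_comm [Fintype X] [Fintype ι] (jΓ : Γ →* 𝒢) (hj : Function.Injective jΓ)
    (f : Γ' →* Γ) (hf : Function.Injective f)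
    (E : CosetData Γ X) (E' : CosetData Γ' X) (α : X → 𝒢)
    (hE : ∀ (γ : Γ) (x : X), α x * jΓ γ = jΓ (E.part γ x) * α (E.perm γ x))
    (hdisE : ∀ (γ : Γ) (x y : X), jΓ γ * α x = α y → x = y)
    (m : Equiv.Perm X) (c : X → Γ) (α' : X → 𝒢) (hα' : ∀ x, α' x = jΓ (c x) * α (m x))
    (hE' : ∀ (h : Γ') (x : X), α' x * jΓ (f h) = jΓ (f (E'.part h x)) * α' (E'.perm h x))
    (D : TransferData Γ' Γ ι) (r : ι → Γ)
    (hD : ∀ (γ : Γ) (i : ι), r i * γ = f (D.part γ i) * r (D.perm γ i))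
    (hdisD : ∀ (h : Γ') (i j : ι), f h * r i = r j → i = j)
    (hR : ∀ (g : Γ) (x x' : X) (h : Γ'), α' x * jΓ g = jΓ (f h) * α' x' → g ∈ f.range)
    (ψ : Additive Γ' →+ A) :
    D.tr (E'.op ψ) = E.op (D.tr ψ) := by
  classical
  set jH : Γ' →* 𝒢 := jΓ.comp f with hjH
  have hjHinj : Function.Injective jH := hj.comp hf
  -- the two composite data
  set C₁ : TransferData Γ' Γ (ι × X) := (ofCosetData E').comp D with hC₁
  set C₂ : TransferData Γ' Γ (X × ι) := D.comp (ofCosetData E) with hC₂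
  have e₁ : C₁.tr ψ = D.tr (E'.op ψ) := by rw [hC₁, comp_tr]; rfl
  have e₂ : C₂.tr ψ = E.op (D.tr ψ) := by rw [hC₂, comp_tr]; rfl
  rw [← e₁, ← e₂]
  -- realisations
  have rE' : (ofCosetData E').Realizes jH jH α' := fun h x => hE' h x
  have rD : D.Realizes jH jΓ (fun i => jΓ (r i)) := by
    intro γ i
    show jΓ (r i) * jΓ γ = jΓ (f (D.part γ i)) * jΓ (r (D.perm γ i))
    rw [← map_mul, ← map_mul, hD γ i]
  have rE : (ofCosetData E).Realizes jΓ jΓ α := fun γ x => hE γ x
  have r₁ : C₁.Realizes jH jΓ (fun x : ι × X => α' x.2 * jΓ (r x.1)) := rE'.comp rD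
  have r₂ : C₂.Realizes jH jΓ (fun x : X × ι => jΓ (r x.2) * α x.1) := rD.comp rE
  -- disjointness
  have dD : DisjointCosets jH (fun i => jΓ (r i)) := by
    intro h i j hh
    have : jΓ (f h * r i) = jΓ (r j) := by rw [map_mul]; exact hh
    exact hdisD h i j (hj this)
  have d₂ : DisjointCosets jH (fun x : X × ι => jΓ (r x.2) * α x.1) :=
    DisjointCosets.comp_of_mem (jH := jH) (jG := jΓ) (rep₁ := fun i => jΓ (r i)) (rep₂ := α)
      f (fun _ => rfl) r (fun _ => rfl) dD hdisE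
  have d₁ : DisjointCosets jH (fun x : ι × X => α' x.2 * jΓ (r x.1)) := by
    rintro h ⟨i, x⟩ ⟨i', x'⟩ hh
    have hh' : jΓ (f h) * (α' x * jΓ (r i)) = α' x' * jΓ (r i') := hh
    have h1 : α' x' * jΓ (r i' * (r i)⁻¹) = jΓ (f h) * α' x := by
      rw [map_mul, map_inv, ← mul_assoc, ← hh']
      group
    obtain ⟨h₀, hh₀⟩ := hR _ _ _ _ h1
    have h2 : f h₀ * r i = r i' := by rw [hh₀]; group
    have hi : i = i' := hdisD h₀ i i' h2
    subst hi
    have h3 : jΓ (f h) * α' x = α' x' := by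
      have h4 : jΓ (f h) * α' x * jΓ (r i) = α' x' * jΓ (r i) := by
        rw [mul_assoc]; exact hh'
      exact mul_right_cancel h4
    rw [hα' x, hα' x', ← mul_assoc, ← map_mul] at h3
    have hx : m x = m x' := (eq_of_mul_eq jΓ hj α hdisE h3).1
    have hx' : x = x' := m.injective hx
    subst hx'
    rfl
  -- counting
  have hcard : Fintype.card (ι × X) = Fintype.card (X × ι) := by
    rw [Fintype.card_prod, Fintype.card_prod, mul_comm]
  -- every representative of `C₁` lies in a coset of `C₂`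
  have hex : ∀ y : ι × X, ∃ (z : X × ι) (h : Γ'),
      α' y.2 * jΓ (r y.1) = jH h * (jΓ (r z.2) * α z.1) := by
    rintro ⟨i, x⟩
    have h1 := hE (r i) (m x)
    set g' : Γ := c x * E.part (r i) (m x) with hg'
    have h2 := hD ((r i)⁻¹ * g') i
    rw [← mul_assoc, mul_inv_cancel, one_mul] at h2
    refine ⟨(E.perm (r i) (m x), D.perm ((r i)⁻¹ * g') i), D.part ((r i)⁻¹ * g') i, ?_⟩
    show α' x * jΓ (r i) = jΓ (f (D.part ((r i)⁻¹ * g') i)) *
      (jΓ (r (D.perm ((r i)⁻¹ * g') i)) * α (E.perm (r i) (m x)))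
    rw [hα' x, mul_assoc, h1, ← mul_assoc, ← mul_assoc, ← map_mul, ← map_mul, ← h2, hg']
  exact Realizes.tr_eq_of_exists hjHinj r₂ d₂ r₁ d₁ hcard hex ψ

end Fermat.Agent.S41.CosetComm
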