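/-
S41, block [COH]: the canonical transfer `transferAlong f` (S41/Transfer.lean) commutes with
Hecke-type operators (owner: helper99).

`transferAlong_op_comm` is `CosetComm.tr_op_comm` for the canonical coset data `rcData f`;
no finiteness hypothesis is needed (if `f(H)` has infinitely many cosets both sides are `0`).
-/
import Mathlib
import Fermat.Agent.S16.HeckeHom
import Fermat.Agent.S41.Transfer
import Fermat.Agent.S41.CosetLib
import Fermat.Agent.S41.CosetComm

set_option autoImplicit false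

namespace Fermat.Agent.S41.TransferComm

open Fermat.Agent.S16 Fermat.Agent.S41

variable {Γ' Γ 𝒢 : Type*} [Group Γ'] [Group Γ] [Group 𝒢] {X : Type*}
variable {A : Type*} [AddCommGroup A]

/-- The canonical coset data of `S41/Transfer.lean` in the `CosetLib` format. -/
noncomputable def rcLib (f : Γ' →* Γ) (hf : Function.Injective f) :
    CosetLib.TransferData Γ' Γ (RCosets f) where
  perm := (rcData f hf).perm
  part := (rcData f hf).part
  perm_mul := (rcData f hf).perm_mul
  part_mul := (rcData f hf).part_mul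

theorem rcLib_spec (f : Γ' →* Γ) (hf : Function.Injective f) (γ : Γ) (x : RCosets f) :
    rcRep f x * γ = f ((rcLib f hf).part γ x) * rcRep f ((rcLib f hf).perm γ x) := by
  have h : f (rcPart f γ x) = rcRep f x * γ * (rcRep f (rcMul f γ x))⁻¹ := rcPart_spec f γ x
  show rcRep f x * γ = f (rcPart f γ x) * rcRep f (rcMul f γ x)
  rw [h, inv_mul_cancel_right]

theorem rcLib_disjoint (f : Γ' →* Γ) (h : Γ') (x y : RCosets f)
    (hh : f h * rcRep f x = rcRep f y) : x = y := by
  have h1 : rcMk f (rcRep f y) = rcMk f (rcRep f x) := by rw [← hh, rcMk_mul_left]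
  rw [rcMk_rcRep, rcMk_rcRep] at h1
  exact h1.symm

theorem transferAlong_eq_tr (f : Γ' →* Γ) (hf : Function.Injective f)
    (hfin : Finite (RCosets f)) (ψ : Additive Γ' →+ A) :
    transferAlong f ψ =
      @CosetLib.TransferData.tr Γ' Γ _ _ (RCosets f) A _ (@Fintype.ofFinite _ hfin)
        (rcLib f hf) ψ := by
  rw [transferAlong_of_cond f hf hfin]
  rfl

/-- The canonical transfer along an injective `f : Γ' →* Γ` commutes with Hecke-type operators
`E` on `Γ`, `E'` on `Γ'` realised by representatives `α`, `α'` in an ambient group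
(hypotheses as in `CosetComm.tr_op_comm`). -/
theorem transferAlong_op_comm [Fintype X] (jΓ : Γ →* 𝒢) (hj : Function.Injective jΓ)
    (f : Γ' →* Γ) (hf : Function.Injective f)
    (E : CosetData Γ X) (E' : CosetData Γ' X) (α : X → 𝒢)
    (hE : ∀ (γ : Γ) (x : X), α x * jΓ γ = jΓ (E.part γ x) * α (E.perm γ x))
    (hdisE : ∀ (γ : Γ) (x y : X), jΓ γ * α x = α y → x = y)
    (m : Equiv.Perm X) (c : X → Γ) (α' : X → 𝒢) (hα' : ∀ x, α' x = jΓ (c x) * α (m x))
    (hE' : ∀ (h : Γ') (x : X), α' x * jΓ (f h) = jΓ (f (E'.part h x)) * α' (E'.perm h x))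
    (hR : ∀ (g : Γ) (x x' : X) (h : Γ'), α' x * jΓ g = jΓ (f h) * α' x' → g ∈ f.range)
    (ψ : Additive Γ' →+ A) :
    transferAlong f (E'.op ψ) = E.op (transferAlong f ψ) := by
  by_cases hfin : Finite (RCosets f)
  · rw [transferAlong_eq_tr f hf hfin, transferAlong_eq_tr f hf hfin]
    letI : Fintype (RCosets f) := Fintype.ofFinite _
    exact CosetComm.tr_op_comm jΓ hj f hf E E' α hE hdisE m c α' hα' hE' (rcLib f hf) (rcRep f)
      (rcLib_spec f hf) (rcLib_disjoint f) hR ψ
  · have h0 : ∀ χ : Additive Γ' →+ A, transferAlong f χ = 0 := by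
      intro χ
      unfold transferAlong
      rw [dif_neg (fun h => hfin h.2)]
    rw [h0, h0, CosetData.op_zero]

/-- Restriction along `f` commutes with Hecke-type operators (`CosetComm.res_op_comm`, restated
next to the transfer version). -/
theorem res_op_comm [Fintype X] (jΓ : Γ →* 𝒢) (hj : Function.Injective jΓ) (f : Γ' →* Γ)
    (E : CosetData Γ X) (E' : CosetData Γ' X) (α : X → 𝒢)
    (hE : ∀ (γ : Γ) (x : X), α x * jΓ γ = jΓ (E.part γ x) * α (E.perm γ x))
    (hdisE : ∀ (γ : Γ) (x y : X), jΓ γ * α x = α y → x = y)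
    (m : Equiv.Perm X) (c : X → Γ) (α' : X → 𝒢) (hα' : ∀ x, α' x = jΓ (c x) * α (m x))
    (hE' : ∀ (h : Γ') (x : X), α' x * jΓ (f h) = jΓ (f (E'.part h x)) * α' (E'.perm h x))
    (φ : Additive Γ →+ A) :
    (E.op φ).comp (MonoidHom.toAdditive f) = E'.op (φ.comp (MonoidHom.toAdditive f)) :=
  CosetComm.res_op_comm jΓ hj f E E' α hE hdisE m c α' hα' hE' φ

end Fermat.Agent.S41.TransferComm
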