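/-
S41 (level raising), block [COH], item (C3): the degeneracy maps `res₁`, `res₂` and the transfers
`tr₁`, `tr₂` commute with the Hecke operators `T_ℓ`, `ℓ ∤ N q` (owner: helper99).

Final statements (namespace `Fermat.Agent.S41`, skeleton names and signatures):
`res₁_heckeT`, `res₂_heckeT`, `tr₁_heckeT`, `tr₂_heckeT`.

Proof: `TransferComm.res_op_comm` / `TransferComm.transferAlong_op_comm` applied to the coset data
`tData N ℓ`, `tData (N q) ℓ` with representatives `α_x = heckeRep ℓ x` inside `GL₂(ℝ)`.  For `incl₁`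
the representatives at level `N q` are the same; for `incl₂ = δ (·) δ⁻¹`, `δ = diag(q, 1)`, they are
`δ α_x δ⁻¹ = c_x α_{q x}` with `c_x` an upper unipotent element of `Γ₀(N)`.  All matrix identities are
checked on integer models (`toR`, `gl_eq_iff`).
-/
import Mathlib
import Fermat.Agent.S16.HeckeHom
import Fermat.Agent.S41.Defs
import Fermat.Agent.S41.TransferComm

set_option autoImplicit false

noncomputable section

open CongruenceSubgroup Matrix.SpecialLinearGroup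
open scoped MatrixGroups
open P2MW.S_ModularForm_heckeT_slash_eq_self_of_mem_Gamma0.ModularForm.HeckeSlashInvariance
open Fermat.Agent.S16

namespace Fermat.Agent.S41.HeckeComm

/-! ### The ambient group and integer models -/

/-- `Γ₀(M) → GL₂(ℝ)`. -/
def jG (M : ℕ) : Gamma0 M →* GL (Fin 2) ℝ := (mapGL ℝ).comp (Gamma0 M).subtype

theorem jG_apply (M : ℕ) (g : Gamma0 M) : jG M g = mapGL ℝ (g : SL(2, ℤ)) := rfl

theorem jG_injective (M : ℕ) : Function.Injective (jG M) := fun _ _ h =>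
  Subtype.ext (mapGL_injective (S := ℝ) h)

/-- Entrywise cast `M₂(ℤ) → M₂(ℝ)`. -/
def toR : Matrix (Fin 2) (Fin 2) ℤ →+* Matrix (Fin 2) (Fin 2) ℝ := (Int.castRingHom ℝ).mapMatrix

theorem toR_apply (A : Matrix (Fin 2) (Fin 2) ℤ) (i j : Fin 2) : toR A i j = (A i j : ℝ) := rfl

theorem toR_injective : Function.Injective toR := by
  intro A B h
  ext i j
  have h1 := congrFun (congrFun h i) j
  rw [toR_apply, toR_apply] at h1
  exact_mod_cast h1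

theorem gl_eq_iff {a b c d : GL (Fin 2) ℝ} {A B C D : Matrix (Fin 2) (Fin 2) ℤ}
    (ha : (a : Matrix (Fin 2) (Fin 2) ℝ) = toR A) (hb : (b : Matrix (Fin 2) (Fin 2) ℝ) = toR B)
    (hc : (c : Matrix (Fin 2) (Fin 2) ℝ) = toR C) (hd : (d : Matrix (Fin 2) (Fin 2) ℝ) = toR D) :
    a * b = c * d ↔ A * B = C * D := by
  rw [← Units.val_inj, Units.val_mul, Units.val_mul, ha, hb, hc, hd, ← map_mul, ← map_mul,
    toR_injective.eq_iff]

theorem gl_eq_iff' {a b c : GL (Fin 2) ℝ} {A B C : Matrix (Fin 2) (Fin 2) ℤ}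
    (ha : (a : Matrix (Fin 2) (Fin 2) ℝ) = toR A) (hb : (b : Matrix (Fin 2) (Fin 2) ℝ) = toR B)
    (hc : (c : Matrix (Fin 2) (Fin 2) ℝ) = toR C) :
    a * b = c ↔ A * B = C := by
  rw [← Units.val_inj, Units.val_mul, ha, hb, hc, ← map_mul, toR_injective.eq_iff]

theorem coe_mapGL (g : SL(2, ℤ)) :
    ((mapGL ℝ g : GL (Fin 2) ℝ) : Matrix (Fin 2) (Fin 2) ℝ) =
      toR (g : Matrix (Fin 2) (Fin 2) ℤ) := by
  ext i j
  rw [toR_apply]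
  simp

/-- Upper left entry of `α_x`. -/
def tNum (ℓ : ℕ) (x : OnePoint (ZMod ℓ)) : ℕ := x.elim ℓ (fun _ => 1)

/-- Upper right entry of `α_x`. -/
def tOff (ℓ : ℕ) (x : OnePoint (ZMod ℓ)) : ℕ := x.elim 0 (fun j => j.val)

@[simp] theorem tNum_infty (ℓ : ℕ) : tNum ℓ (OnePoint.infty : OnePoint (ZMod ℓ)) = ℓ := rfl
@[simp] theorem tNum_coe (ℓ : ℕ) (j : ZMod ℓ) : tNum ℓ (j : OnePoint (ZMod ℓ)) = 1 := rfl
@[simp] theorem tOff_infty (ℓ : ℕ) : tOff ℓ (OnePoint.infty : OnePoint (ZMod ℓ)) = 0 := rfl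
@[simp] theorem tOff_coe (ℓ : ℕ) (j : ZMod ℓ) : tOff ℓ (j : OnePoint (ZMod ℓ)) = j.val := rfl

/-- The integer matrix of `α_x = heckeRep ℓ x`. -/
def repZ (ℓ : ℕ) (x : OnePoint (ZMod ℓ)) : Matrix (Fin 2) (Fin 2) ℤ :=
  !![(tNum ℓ x : ℤ), (tOff ℓ x : ℤ); 0, (tDen ℓ x : ℤ)]

theorem coe_heckeRep (ℓ : ℕ) [NeZero ℓ] (x : OnePoint (ZMod ℓ)) :
    ((heckeRep ℓ x : GL (Fin 2) ℝ) : Matrix (Fin 2) (Fin 2) ℝ) = toR (repZ ℓ x) := by
  induction x using OnePoint.rec with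
  | infty =>
    rw [heckeRep_infty, ModularForm.val_heckeDiagMatrix (NeZero.ne ℓ)]
    ext i j
    rw [toR_apply]
    fin_cases i <;> fin_cases j <;> simp [repZ]
  | coe j =>
    rw [heckeRep_coe, ModularForm.val_heckeMatrix (NeZero.ne ℓ)]
    ext i j
    rw [toR_apply]
    fin_cases i <;> fin_cases j <;> simp [repZ]

/-- The integer matrix of `δ = diag(q, 1)`. -/
def dZ (q : ℕ) : Matrix (Fin 2) (Fin 2) ℤ := !![(q : ℤ), 0; 0, 1]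

theorem coe_heckeDiagMatrix (q : ℕ) (hq : q ≠ 0) :
    ((ModularForm.heckeDiagMatrix q : GL (Fin 2) ℝ) : Matrix (Fin 2) (Fin 2) ℝ) = toR (dZ q) := by
  rw [ModularForm.val_heckeDiagMatrix hq]
  ext i j
  rw [toR_apply]
  fin_cases i <;> fin_cases j <;> simp [dZ]

theorem sl_det (g : SL(2, ℤ)) : g 0 0 * g 1 1 - g 0 1 * g 1 0 = 1 := by
  have h := g.det_coe
  rw [Matrix.det_fin_two] at h
  exact h

theorem tDen_pos (ℓ : ℕ) [NeZero ℓ] (x : OnePoint (ZMod ℓ)) : 0 < tDen ℓ x := by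
  induction x using OnePoint.rec with
  | infty => simp
  | coe j => simpa using Nat.pos_of_ne_zero (NeZero.ne ℓ)

/-! ### The cosets `Γ₀(N) α_x` are distinct -/

theorem rep_disjoint (ℓ : ℕ) [Fact ℓ.Prime] (g : SL(2, ℤ)) (x y : OnePoint (ZMod ℓ))
    (h : mapGL ℝ g * heckeRep ℓ x = heckeRep ℓ y) : x = y := by
  have hℓ2 : 2 ≤ ℓ := (Fact.out : ℓ.Prime).two_le
  have hZ := (gl_eq_iff' (coe_mapGL g) (coe_heckeRep ℓ x) (coe_heckeRep ℓ y)).mp h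
  have h00 := congrFun (congrFun hZ 0) 0
  have h01 := congrFun (congrFun hZ 0) 1
  have h10 := congrFun (congrFun hZ 1) 0
  have h11 := congrFun (congrFun hZ 1) 1
  simp only [Matrix.mul_apply, Fin.sum_univ_two, repZ, Matrix.of_apply, Matrix.cons_val_zero,
    Matrix.cons_val_one, Matrix.cons_val', Matrix.cons_val_fin_one] at h00 h01 h10 h11
  have hdet := sl_det g
  induction x using OnePoint.rec with
  | infty =>
    induction y using OnePoint.rec with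
    | infty => rfl
    | coe j' =>
      exfalso
      simp only [tNum_infty, tNum_coe, mul_zero, add_zero] at h00
      have hdvd : (ℓ : ℤ) ∣ 1 := Dvd.intro_left _ (by exact_mod_cast h00)
      have := Int.le_of_dvd one_pos hdvd
      omega
  | coe j =>
    have hg10 : g 1 0 = 0 := by simpa using h10
    induction y using OnePoint.rec with
    | infty =>
      exfalso
      simp only [tDen_infty, tDen_coe, hg10, zero_mul, zero_add] at h11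
      have hdvd : (ℓ : ℤ) ∣ 1 := Dvd.intro_left _ (by exact_mod_cast h11)
      have := Int.le_of_dvd one_pos hdvd
      omega
    | coe j' =>
      have hg00 : g 0 0 = 1 := by simpa using h00
      simp only [tOff_coe, tDen_coe, hg00, one_mul] at h01
      have hc := congrArg (Int.cast : ℤ → ZMod ℓ) h01
      push_cast at hc
      rw [ZMod.natCast_self, mul_zero, add_zero, ZMod.natCast_zmod_val, ZMod.natCast_zmod_val] at hc
      rw [hc]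

/-! ### Entrywise tools -/

theorem mul_apply2 (A B : Matrix (Fin 2) (Fin 2) ℤ) (i j : Fin 2) :
    (A * B) i j = A i 0 * B 0 j + A i 1 * B 1 j := by
  rw [Matrix.mul_apply, Fin.sum_univ_two]

theorem mat_ext {A B : Matrix (Fin 2) (Fin 2) ℤ} (h00 : A 0 0 = B 0 0) (h01 : A 0 1 = B 0 1)
    (h10 : A 1 0 = B 1 0) (h11 : A 1 1 = B 1 1) : A = B := by
  ext i j
  fin_cases i <;> fin_cases j <;> assumption

theorem repZ_00 (ℓ : ℕ) (x : OnePoint (ZMod ℓ)) : repZ ℓ x 0 0 = (tNum ℓ x : ℤ) := rfl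
theorem repZ_01 (ℓ : ℕ) (x : OnePoint (ZMod ℓ)) : repZ ℓ x 0 1 = (tOff ℓ x : ℤ) := rfl
theorem repZ_10 (ℓ : ℕ) (x : OnePoint (ZMod ℓ)) : repZ ℓ x 1 0 = 0 := rfl
theorem repZ_11 (ℓ : ℕ) (x : OnePoint (ZMod ℓ)) : repZ ℓ x 1 1 = (tDen ℓ x : ℤ) := rfl

theorem dZ_00 (q : ℕ) : dZ q 0 0 = (q : ℤ) := rfl
theorem dZ_01 (q : ℕ) : dZ q 0 1 = 0 := rfl
theorem dZ_10 (q : ℕ) : dZ q 1 0 = 0 := rfl
theorem dZ_11 (q : ℕ) : dZ q 1 1 = 1 := rfl

theorem isCoprime_tDen {ℓ M : ℕ} [Fact ℓ.Prime] (hℓ : ¬ ℓ ∣ M) (x : OnePoint (ZMod ℓ)) :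
    IsCoprime ((M : ℕ) : ℤ) (tDen ℓ x : ℤ) := by
  induction x using OnePoint.rec with
  | infty => simpa using isCoprime_one_right
  | coe j =>
    rw [tDen_coe]
    exact Nat.isCoprime_iff_coprime.mpr
      (((Fact.out : ℓ.Prime).coprime_iff_not_dvd).mpr hℓ).symm

theorem isCoprime_tNum {ℓ M : ℕ} [Fact ℓ.Prime] (hℓ : ¬ ℓ ∣ M) (x : OnePoint (ZMod ℓ)) :
    IsCoprime ((M : ℕ) : ℤ) (tNum ℓ x : ℤ) := by
  induction x using OnePoint.rec with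
  | infty =>
    rw [tNum_infty]
    exact Nat.isCoprime_iff_coprime.mpr
      (((Fact.out : ℓ.Prime).coprime_iff_not_dvd).mpr hℓ).symm
  | coe j => simpa using isCoprime_one_right

/-! ### The case of `incl₁` -/

theorem mem_range_incl₁ (N q : ℕ) (g : Gamma0 N)
    (h : ((N * q : ℕ) : ℤ) ∣ (g : SL(2, ℤ)) 1 0) : g ∈ (incl₁ N q).range :=
  ⟨⟨(g : SL(2, ℤ)), mem_Gamma0_iff_dvd.mpr h⟩, Subtype.ext rfl⟩

theorem range_of_spec₁ (N q : ℕ) {ℓ : ℕ} [Fact ℓ.Prime] (hℓ' : ¬ ℓ ∣ N * q) (g : Gamma0 N)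
    (x x' : OnePoint (ZMod ℓ)) (h : Gamma0 (N * q))
    (he : heckeRep ℓ x * jG N g = jG N (incl₁ N q h) * heckeRep ℓ x') :
    g ∈ (incl₁ N q).range := by
  rw [jG_apply, jG_apply, incl₁_coe] at he
  have hZ := (gl_eq_iff (coe_heckeRep ℓ x) (coe_mapGL _) (coe_mapGL _) (coe_heckeRep ℓ x')).mp he
  have h10 := congrFun (congrFun hZ 1) 0
  simp only [mul_apply2, repZ_00, repZ_10, repZ_11] at h10
  apply mem_range_incl₁
  have hdvd : ((N * q : ℕ) : ℤ) ∣ (tDen ℓ x : ℤ) * (g : SL(2, ℤ)) 1 0 := by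
    have h1 : (tDen ℓ x : ℤ) * (g : SL(2, ℤ)) 1 0 = (h : SL(2, ℤ)) 1 0 * (tNum ℓ x' : ℤ) := by
      linear_combination h10
    rw [h1]
    exact Dvd.dvd.mul_right (dvd_lower_left h) _
  exact (isCoprime_tDen hℓ' x).dvd_of_dvd_mul_left hdvd

/-! ### The case of `incl₂` -/

/-- Multiplication by `q` on `ℙ¹(𝔽_ℓ)` (affine coordinate), `ℓ ∤ q`. -/
def mulPerm (ℓ q : ℕ) [Fact ℓ.Prime] (hq : (q : ZMod ℓ) ≠ 0) : Equiv.Perm (OnePoint (ZMod ℓ)) where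
  toFun x := x.elim OnePoint.infty (fun j => (((q : ZMod ℓ) * j : ZMod ℓ) : OnePoint (ZMod ℓ)))
  invFun x := x.elim OnePoint.infty
    (fun j => ((((q : ZMod ℓ))⁻¹ * j : ZMod ℓ) : OnePoint (ZMod ℓ)))
  left_inv x := by
    induction x using OnePoint.rec with
    | infty => rfl
    | coe j =>
      show ((((q : ZMod ℓ))⁻¹ * ((q : ZMod ℓ) * j) : ZMod ℓ) : OnePoint (ZMod ℓ)) = j
      rw [inv_mul_cancel_left₀ hq]
  right_inv x := by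
    induction x using OnePoint.rec with
    | infty => rfl
    | coe j =>
      show (((q : ZMod ℓ) * (((q : ZMod ℓ))⁻¹ * j) : ZMod ℓ) : OnePoint (ZMod ℓ)) = j
      rw [mul_inv_cancel_left₀ hq]

theorem mulPerm_infty (ℓ q : ℕ) [Fact ℓ.Prime] (hq : (q : ZMod ℓ) ≠ 0) :
    mulPerm ℓ q hq OnePoint.infty = OnePoint.infty := rfl

theorem mulPerm_coe (ℓ q : ℕ) [Fact ℓ.Prime] (hq : (q : ZMod ℓ) ≠ 0) (j : ZMod ℓ) :
    mulPerm ℓ q hq (j : OnePoint (ZMod ℓ)) = (((q : ZMod ℓ) * j : ZMod ℓ) : OnePoint (ZMod ℓ)) :=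
  rfl

/-- `[[1, t],[0, 1]] ∈ Γ₀(N)`. -/
def unip (N : ℕ) (t : ℤ) : Gamma0 N :=
  ⟨⟨!![1, t; 0, 1], by simp [Matrix.det_fin_two_of]⟩, by
    rw [mem_Gamma0_iff_dvd]
    exact ⟨0, by simp⟩⟩

theorem unip_00 (N : ℕ) (t : ℤ) : ((unip N t : Gamma0 N) : SL(2, ℤ)) 0 0 = 1 := rfl
theorem unip_01 (N : ℕ) (t : ℤ) : ((unip N t : Gamma0 N) : SL(2, ℤ)) 0 1 = t := rfl
theorem unip_10 (N : ℕ) (t : ℤ) : ((unip N t : Gamma0 N) : SL(2, ℤ)) 1 0 = 0 := rfl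
theorem unip_11 (N : ℕ) (t : ℤ) : ((unip N t : Gamma0 N) : SL(2, ℤ)) 1 1 = 1 := rfl

/-- `t_x = (q j − (q j mod ℓ)) / ℓ` for `x = j`, and `0` for `x = ∞`. -/
def tShift (ℓ q : ℕ) (x : OnePoint (ZMod ℓ)) : ℤ :=
  x.elim 0 (fun j => ((q : ℤ) * (j.val : ℤ) - ((((q : ZMod ℓ) * j).val : ℕ) : ℤ)) / (ℓ : ℤ))

theorem tShift_infty (ℓ q : ℕ) : tShift ℓ q (OnePoint.infty : OnePoint (ZMod ℓ)) = 0 := rfl

theorem tShift_spec (ℓ q : ℕ) [NeZero ℓ] (j : ZMod ℓ) :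
    tShift ℓ q (j : OnePoint (ZMod ℓ)) * (ℓ : ℤ) =
      (q : ℤ) * (j.val : ℤ) - ((((q : ZMod ℓ) * j).val : ℕ) : ℤ) := by
  show ((q : ℤ) * (j.val : ℤ) - ((((q : ZMod ℓ) * j).val : ℕ) : ℤ)) / (ℓ : ℤ) * (ℓ : ℤ) = _
  apply Int.ediv_mul_cancel
  rw [← ZMod.intCast_zmod_eq_zero_iff_dvd]
  push_cast
  rw [ZMod.natCast_zmod_val, ZMod.natCast_zmod_val, sub_self]

/-- The elements `c_x ∈ Γ₀(N)` with `δ α_x δ⁻¹ = c_x α_{q x}`. -/
def cFun (N ℓ q : ℕ) (x : OnePoint (ZMod ℓ)) : Gamma0 N := unip N (tShift ℓ q x)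

/-- The representatives `δ α_x δ⁻¹`, written as `c_x α_{q x}`. -/
def alpha' (N ℓ q : ℕ) [Fact ℓ.Prime] (hq : (q : ZMod ℓ) ≠ 0) (x : OnePoint (ZMod ℓ)) :
    GL (Fin 2) ℝ :=
  jG N (cFun N ℓ q x) * heckeRep ℓ (mulPerm ℓ q hq x)

/-- The integer matrix of `δ α_x δ⁻¹`. -/
def aZ (ℓ q : ℕ) (x : OnePoint (ZMod ℓ)) : Matrix (Fin 2) (Fin 2) ℤ :=
  !![(tNum ℓ x : ℤ), (q : ℤ) * (tOff ℓ x : ℤ); 0, (tDen ℓ x : ℤ)]

theorem aZ_00 (ℓ q : ℕ) (x : OnePoint (ZMod ℓ)) : aZ ℓ q x 0 0 = (tNum ℓ x : ℤ) := rfl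
theorem aZ_01 (ℓ q : ℕ) (x : OnePoint (ZMod ℓ)) :
    aZ ℓ q x 0 1 = (q : ℤ) * (tOff ℓ x : ℤ) := rfl
theorem aZ_10 (ℓ q : ℕ) (x : OnePoint (ZMod ℓ)) : aZ ℓ q x 1 0 = 0 := rfl
theorem aZ_11 (ℓ q : ℕ) (x : OnePoint (ZMod ℓ)) : aZ ℓ q x 1 1 = (tDen ℓ x : ℤ) := rfl

theorem coe_alpha' (N ℓ q : ℕ) [Fact ℓ.Prime] (hq : (q : ZMod ℓ) ≠ 0) (x : OnePoint (ZMod ℓ)) :
    ((alpha' N ℓ q hq x : GL (Fin 2) ℝ) : Matrix (Fin 2) (Fin 2) ℝ) = toR (aZ ℓ q x) := by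
  rw [alpha', Units.val_mul, jG_apply, coe_mapGL, coe_heckeRep, ← map_mul]
  congr 1
  induction x using OnePoint.rec with
  | infty =>
    apply mat_ext <;>
      simp only [mul_apply2, repZ_00, repZ_01, repZ_10, repZ_11, aZ_00, aZ_01, aZ_10, aZ_11, cFun,
        unip_00, unip_01, unip_10, unip_11, mulPerm_infty, tShift_infty, tNum_infty, tOff_infty,
        tDen_infty] <;> ring
  | coe j =>
    have ht := tShift_spec ℓ q j
    apply mat_ext <;>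
      simp only [mul_apply2, repZ_00, repZ_01, repZ_10, repZ_11, aZ_00, aZ_01, aZ_10, aZ_11, cFun,
        unip_00, unip_01, unip_10, unip_11, mulPerm_coe, tNum_coe, tOff_coe, tDen_coe]
    · ring
    · linear_combination ht
    · ring
    · ring

/-- `(δ α_x δ⁻¹) δ = δ α_x`. -/
theorem alpha'_mul_diag (N ℓ q : ℕ) [Fact ℓ.Prime] (hq : (q : ZMod ℓ) ≠ 0) (hq0 : q ≠ 0)
    (x : OnePoint (ZMod ℓ)) :
    alpha' N ℓ q hq x * ModularForm.heckeDiagMatrix q =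
      ModularForm.heckeDiagMatrix q * heckeRep ℓ x := by
  rw [gl_eq_iff (coe_alpha' N ℓ q hq x) (coe_heckeDiagMatrix q hq0) (coe_heckeDiagMatrix q hq0)
    (coe_heckeRep ℓ x)]
  apply mat_ext <;>
    simp only [mul_apply2, repZ_00, repZ_01, repZ_10, repZ_11, aZ_00, aZ_01, aZ_10, aZ_11,
      dZ_00, dZ_01, dZ_10, dZ_11] <;> ring

/-- `(δ h δ⁻¹) δ = δ h`. -/
theorem incl₂_mul_diag (N q : ℕ) (hq0 : q ≠ 0) (h : Gamma0 (N * q)) :
    jG N (incl₂ N q h) * ModularForm.heckeDiagMatrix q =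
      ModularForm.heckeDiagMatrix q * mapGL ℝ (h : SL(2, ℤ)) := by
  rw [jG_apply, gl_eq_iff (coe_mapGL _) (coe_heckeDiagMatrix q hq0) (coe_heckeDiagMatrix q hq0)
    (coe_mapGL _)]
  obtain ⟨e00, e01, e10, e11⟩ := incl₂_entries N q h
  apply mat_ext <;> simp only [mul_apply2, dZ_00, dZ_01, dZ_10, dZ_11]
  · linear_combination (q : ℤ) * e00
  · linear_combination e01
  · linear_combination e10
  · linear_combination e11

theorem spec₂ (N q : ℕ) {ℓ : ℕ} [Fact ℓ.Prime] (hℓ' : ¬ ℓ ∣ N * q) (hq : (q : ZMod ℓ) ≠ 0)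
    (hq0 : q ≠ 0) (h : Gamma0 (N * q)) (x : OnePoint (ZMod ℓ)) :
    alpha' N ℓ q hq x * jG N (incl₂ N q h) =
      jG N (incl₂ N q ((tData (N * q) ℓ hℓ').part h x)) *
        alpha' N ℓ q hq ((tData (N * q) ℓ hℓ').perm h x) := by
  have hs := tData_spec hℓ' h x
  apply mul_right_cancel (b := ModularForm.heckeDiagMatrix q)
  calc alpha' N ℓ q hq x * jG N (incl₂ N q h) * ModularForm.heckeDiagMatrix q
      = alpha' N ℓ q hq x * ModularForm.heckeDiagMatrix q * mapGL ℝ (h : SL(2, ℤ)) := by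
        rw [mul_assoc, incl₂_mul_diag N q hq0, mul_assoc]
    _ = ModularForm.heckeDiagMatrix q * (heckeRep ℓ x * mapGL ℝ (h : SL(2, ℤ))) := by
        rw [alpha'_mul_diag N ℓ q hq hq0, mul_assoc]
    _ = ModularForm.heckeDiagMatrix q *
          mapGL ℝ (((tData (N * q) ℓ hℓ').part h x : Gamma0 (N * q)) : SL(2, ℤ)) *
          heckeRep ℓ ((tData (N * q) ℓ hℓ').perm h x) := by
        rw [hs, mul_assoc]
    _ = jG N (incl₂ N q ((tData (N * q) ℓ hℓ').part h x)) *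
          (ModularForm.heckeDiagMatrix q * heckeRep ℓ ((tData (N * q) ℓ hℓ').perm h x)) := by
        rw [← incl₂_mul_diag N q hq0, mul_assoc]
    _ = jG N (incl₂ N q ((tData (N * q) ℓ hℓ').part h x)) *
          alpha' N ℓ q hq ((tData (N * q) ℓ hℓ').perm h x) * ModularForm.heckeDiagMatrix q := by
        rw [← alpha'_mul_diag N ℓ q hq hq0, mul_assoc]

theorem mem_range_incl₂ (N q : ℕ) (hq0 : q ≠ 0) (g : Gamma0 N)
    (h : (q : ℤ) ∣ (g : SL(2, ℤ)) 0 1) : g ∈ (incl₂ N q).range := by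
  have hq0' : (q : ℤ) ≠ 0 := by exact_mod_cast hq0
  have hN : (N : ℤ) ∣ (g : SL(2, ℤ)) 1 0 := mem_Gamma0_iff_dvd.mp g.2
  have hdet := sl_det (g : SL(2, ℤ))
  have hmul : (q : ℤ) * ((g : SL(2, ℤ)) 0 1 / (q : ℤ)) = (g : SL(2, ℤ)) 0 1 :=
    Int.mul_ediv_cancel' h
  let g' : SL(2, ℤ) :=
    ⟨!![(g : SL(2, ℤ)) 0 0, (g : SL(2, ℤ)) 0 1 / (q : ℤ);
        (q : ℤ) * (g : SL(2, ℤ)) 1 0, (g : SL(2, ℤ)) 1 1], by
      rw [Matrix.det_fin_two_of]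
      linear_combination hdet - (g : SL(2, ℤ)) 1 0 * hmul⟩
  have hg' : g' ∈ Gamma0 (N * q) := by
    rw [mem_Gamma0_iff_dvd]
    show ((N * q : ℕ) : ℤ) ∣ (q : ℤ) * (g : SL(2, ℤ)) 1 0
    push_cast
    rw [mul_comm (N : ℤ) (q : ℤ)]
    exact mul_dvd_mul_left _ hN
  refine ⟨⟨g', hg'⟩, ?_⟩
  apply Subtype.ext
  rw [incl₂_coe]
  ext i j
  fin_cases i <;> fin_cases j
  · rfl
  · exact hmul
  · show (q : ℤ) * (g : SL(2, ℤ)) 1 0 / (q : ℤ) = (g : SL(2, ℤ)) 1 0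
    exact Int.mul_ediv_cancel_left _ hq0'
  · rfl

theorem range_of_spec₂ (N q : ℕ) {ℓ : ℕ} [Fact ℓ.Prime] (hℓq : ¬ ℓ ∣ q)
    (hq : (q : ZMod ℓ) ≠ 0) (hq0 : q ≠ 0) (g : Gamma0 N)
    (x x' : OnePoint (ZMod ℓ)) (h : Gamma0 (N * q))
    (he : alpha' N ℓ q hq x * jG N g = jG N (incl₂ N q h) * alpha' N ℓ q hq x') :
    g ∈ (incl₂ N q).range := by
  rw [jG_apply, jG_apply] at he
  have hZ := (gl_eq_iff (coe_alpha' N ℓ q hq x) (coe_mapGL _) (coe_mapGL _)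
    (coe_alpha' N ℓ q hq x')).mp he
  have h01 := congrFun (congrFun hZ 0) 1
  simp only [mul_apply2, aZ_00, aZ_01, aZ_11] at h01
  obtain ⟨e00, e01, e10, e11⟩ := incl₂_entries N q h
  apply mem_range_incl₂ N q hq0
  have hdvd : (q : ℤ) ∣ (tNum ℓ x : ℤ) * (g : SL(2, ℤ)) 0 1 := by
    refine ⟨((incl₂ N q h : Gamma0 N) : SL(2, ℤ)) 0 0 * (tOff ℓ x' : ℤ) +
      (h : SL(2, ℤ)) 0 1 * (tDen ℓ x' : ℤ) - (tOff ℓ x : ℤ) * (g : SL(2, ℤ)) 1 1, ?_⟩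
    linear_combination h01 + (tDen ℓ x' : ℤ) * e01
  exact (isCoprime_tNum hℓq x).dvd_of_dvd_mul_left hdvd

end Fermat.Agent.S41.HeckeComm

/-! ### The statements (C3) -/

namespace Fermat.Agent.S41

open HeckeComm

/-- (C3) `res₁` commutes with `T_ℓ`, `ℓ ∤ N q`. -/
theorem res₁_heckeT (N q : ℕ) {A : Type*} [AddCommGroup A] [Fact q.Prime] {ℓ : ℕ}
    [Fact ℓ.Prime] (hℓ : ¬ ℓ ∣ N) (hℓ' : ¬ ℓ ∣ N * q) (φ : Additive (Gamma0 N) →+ A) :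
    res₁ N q (heckeTHom N ℓ hℓ φ) = heckeTHom (N * q) ℓ hℓ' (res₁ N q φ) :=
  TransferComm.res_op_comm (jG N) (jG_injective N) (incl₁ N q) (tData N ℓ hℓ)
    (tData (N * q) ℓ hℓ') (heckeRep ℓ) (tData_spec hℓ) (fun _ x y h => rep_disjoint ℓ _ x y h)
    (Equiv.refl _) (fun _ => 1) (heckeRep ℓ) (fun x => by simp) (tData_spec hℓ') φ

/-- (C3) `tr₁` commutes with `T_ℓ`, `ℓ ∤ N q`. -/
theorem tr₁_heckeT (N q : ℕ) {A : Type*} [AddCommGroup A] [Fact q.Prime] {ℓ : ℕ}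
    [Fact ℓ.Prime] (hℓ : ¬ ℓ ∣ N) (hℓ' : ¬ ℓ ∣ N * q) (ψ : Additive (Gamma0 (N * q)) →+ A) :
    tr₁ N q (heckeTHom (N * q) ℓ hℓ' ψ) = heckeTHom N ℓ hℓ (tr₁ N q ψ) :=
  TransferComm.transferAlong_op_comm (jG N) (jG_injective N) (incl₁ N q) (incl₁_injective N q)
    (tData N ℓ hℓ) (tData (N * q) ℓ hℓ') (heckeRep ℓ) (tData_spec hℓ)
    (fun _ x y h => rep_disjoint ℓ _ x y h)
    (Equiv.refl _) (fun _ => 1) (heckeRep ℓ) (fun x => by simp) (tData_spec hℓ')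
    (range_of_spec₁ N q hℓ') ψ

/-- (C3) `res₂` commutes with `T_ℓ`, `ℓ ∤ N q`. -/
theorem res₂_heckeT (N q : ℕ) {A : Type*} [AddCommGroup A] [Fact q.Prime] {ℓ : ℕ}
    [Fact ℓ.Prime] (hℓ : ¬ ℓ ∣ N) (hℓ' : ¬ ℓ ∣ N * q) (φ : Additive (Gamma0 N) →+ A) :
    res₂ N q (heckeTHom N ℓ hℓ φ) = heckeTHom (N * q) ℓ hℓ' (res₂ N q φ) := by
  have hq0 : q ≠ 0 := (Fact.out : q.Prime).ne_zero
  have hℓq : ¬ ℓ ∣ q := fun h => hℓ' (Dvd.dvd.mul_left h N)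
  have hq : (q : ZMod ℓ) ≠ 0 := fun h => hℓq ((ZMod.natCast_eq_zero_iff q ℓ).mp h)
  exact TransferComm.res_op_comm (jG N) (jG_injective N) (incl₂ N q) (tData N ℓ hℓ)
    (tData (N * q) ℓ hℓ') (heckeRep ℓ) (tData_spec hℓ) (fun _ x y h => rep_disjoint ℓ _ x y h)
    (mulPerm ℓ q hq) (cFun N ℓ q) (alpha' N ℓ q hq) (fun _ => rfl) (spec₂ N q hℓ' hq hq0) φ

/-- (C3) `tr₂` commutes with `T_ℓ`, `ℓ ∤ N q`. -/
theorem tr₂_heckeT (N q : ℕ) {A : Type*} [AddCommGroup A] [Fact q.Prime] {ℓ : ℕ}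
    [Fact ℓ.Prime] (hℓ : ¬ ℓ ∣ N) (hℓ' : ¬ ℓ ∣ N * q) (ψ : Additive (Gamma0 (N * q)) →+ A) :
    tr₂ N q (heckeTHom (N * q) ℓ hℓ' ψ) = heckeTHom N ℓ hℓ (tr₂ N q ψ) := by
  have hq0 : q ≠ 0 := (Fact.out : q.Prime).ne_zero
  have hℓq : ¬ ℓ ∣ q := fun h => hℓ' (Dvd.dvd.mul_left h N)
  have hq : (q : ZMod ℓ) ≠ 0 := fun h => hℓq ((ZMod.natCast_eq_zero_iff q ℓ).mp h)
  exact TransferComm.transferAlong_op_comm (jG N) (jG_injective N) (incl₂ N q)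
    (incl₂_injective N q hq0) (tData N ℓ hℓ) (tData (N * q) ℓ hℓ') (heckeRep ℓ) (tData_spec hℓ)
    (fun _ x y h => rep_disjoint ℓ _ x y h)
    (mulPerm ℓ q hq) (cFun N ℓ q) (alpha' N ℓ q hq) (fun _ => rfl) (spec₂ N q hℓ' hq hq0)
    (range_of_spec₂ N q hℓq hq hq0) ψ

end Fermat.Agent.S41
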