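/-
S41, block [COH] (C3u): the transfers `tr₁`, `tr₂` commute with `U_ℓ`, `ℓ ∣ N`.
Owner: helper16.

* `tr₁_heckeU`, `tr₂_heckeU`:
  `tr_i N q (heckeUHom (N * q) ℓ _ ψ) = heckeUHom N ℓ _ (tr_i N q ψ)` for `ℓ ∣ N`, `q ∤ N` prime.

Proof: `TransferComm.transferAlong_op_comm` (helper99) for the representatives
`α_x = [[1, x],[0, ℓ]]`, `x : ZMod ℓ`; for `tr₂` the conjugated representatives
`δ α_x δ⁻¹ = u(t) α_{q x}`, `δ = diag(q, 1)`.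
-/
import Mathlib
import Fermat.Agent.S16.HeckeHom
import Fermat.Agent.S41.Defs
import Fermat.Agent.S41.TransferComm

set_option autoImplicit false

noncomputable section

namespace Fermat.Agent.S41

open CongruenceSubgroup Matrix.SpecialLinearGroup
open scoped MatrixGroups
open P2MW.S_ModularForm_heckeT_slash_eq_self_of_mem_Gamma0.ModularForm.HeckeSlashInvariance
open Fermat.Agent.S16

namespace HeckeCommU

/-- `Γ₀(M) → GL₂(ℝ)`. -/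
def toGL (M : ℕ) : Gamma0 M →* GL (Fin 2) ℝ := (mapGL ℝ).comp (Gamma0 M).subtype

theorem toGL_apply (M : ℕ) (γ : Gamma0 M) : toGL M γ = mapGL ℝ (γ : SL(2, ℤ)) := rfl

theorem toGL_injective (M : ℕ) : Function.Injective (toGL M) :=
  (mapGL_injective (S := ℝ)).comp Subtype.val_injective

theorem gl_mul_apply (X Y : GL (Fin 2) ℝ) (i j : Fin 2) :
    ((X * Y : GL (Fin 2) ℝ) : Matrix (Fin 2) (Fin 2) ℝ) i j =
      (X : Matrix (Fin 2) (Fin 2) ℝ) i 0 * (Y : Matrix (Fin 2) (Fin 2) ℝ) 0 j +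
        (X : Matrix (Fin 2) (Fin 2) ℝ) i 1 * (Y : Matrix (Fin 2) (Fin 2) ℝ) 1 j := by
  rw [Matrix.GeneralLinearGroup.coe_mul, Matrix.mul_apply, Fin.sum_univ_two]

theorem gl_ext {X Y : GL (Fin 2) ℝ}
    (h00 : (X : Matrix (Fin 2) (Fin 2) ℝ) 0 0 = (Y : Matrix (Fin 2) (Fin 2) ℝ) 0 0)
    (h01 : (X : Matrix (Fin 2) (Fin 2) ℝ) 0 1 = (Y : Matrix (Fin 2) (Fin 2) ℝ) 0 1)
    (h10 : (X : Matrix (Fin 2) (Fin 2) ℝ) 1 0 = (Y : Matrix (Fin 2) (Fin 2) ℝ) 1 0)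
    (h11 : (X : Matrix (Fin 2) (Fin 2) ℝ) 1 1 = (Y : Matrix (Fin 2) (Fin 2) ℝ) 1 1) : X = Y := by
  apply Matrix.GeneralLinearGroup.ext
  intro i j
  fin_cases i <;> fin_cases j
  · exact h00
  · exact h01
  · exact h10
  · exact h11

section Entries

variable {ℓ : ℕ} [NeZero ℓ]

theorem hm00 (j : ℕ) : ((ModularForm.heckeMatrix ℓ j : GL (Fin 2) ℝ) : Matrix (Fin 2) (Fin 2) ℝ) 0 0 = 1 := by
  rw [ModularForm.val_heckeMatrix (NeZero.ne ℓ)]; rfl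
theorem hm01 (j : ℕ) : ((ModularForm.heckeMatrix ℓ j : GL (Fin 2) ℝ) : Matrix (Fin 2) (Fin 2) ℝ) 0 1 = j := by
  rw [ModularForm.val_heckeMatrix (NeZero.ne ℓ)]; rfl
theorem hm10 (j : ℕ) : ((ModularForm.heckeMatrix ℓ j : GL (Fin 2) ℝ) : Matrix (Fin 2) (Fin 2) ℝ) 1 0 = 0 := by
  rw [ModularForm.val_heckeMatrix (NeZero.ne ℓ)]; rfl
theorem hm11 (j : ℕ) : ((ModularForm.heckeMatrix ℓ j : GL (Fin 2) ℝ) : Matrix (Fin 2) (Fin 2) ℝ) 1 1 = ℓ := by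
  rw [ModularForm.val_heckeMatrix (NeZero.ne ℓ)]; rfl

theorem hd00 : ((ModularForm.heckeDiagMatrix ℓ : GL (Fin 2) ℝ) : Matrix (Fin 2) (Fin 2) ℝ) 0 0 = ℓ := by
  rw [ModularForm.val_heckeDiagMatrix (NeZero.ne ℓ)]; rfl
theorem hd01 : ((ModularForm.heckeDiagMatrix ℓ : GL (Fin 2) ℝ) : Matrix (Fin 2) (Fin 2) ℝ) 0 1 = 0 := by
  rw [ModularForm.val_heckeDiagMatrix (NeZero.ne ℓ)]; rfl
theorem hd10 : ((ModularForm.heckeDiagMatrix ℓ : GL (Fin 2) ℝ) : Matrix (Fin 2) (Fin 2) ℝ) 1 0 = 0 := by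
  rw [ModularForm.val_heckeDiagMatrix (NeZero.ne ℓ)]; rfl
theorem hd11 : ((ModularForm.heckeDiagMatrix ℓ : GL (Fin 2) ℝ) : Matrix (Fin 2) (Fin 2) ℝ) 1 1 = 1 := by
  rw [ModularForm.val_heckeDiagMatrix (NeZero.ne ℓ)]; rfl

/-- The cosets `SL₂(ℤ) · [[1, x],[0, ℓ]]`, `x : ZMod ℓ`, are pairwise distinct. -/
theorem heckeMatrix_disjoint (g : SL(2, ℤ)) (x y : ZMod ℓ)
    (h : mapGL ℝ g * ModularForm.heckeMatrix ℓ x.val = ModularForm.heckeMatrix ℓ y.val) :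
    x = y := by
  have e00 := congrArg (fun M : GL (Fin 2) ℝ => (M : Matrix (Fin 2) (Fin 2) ℝ) 0 0) h
  have e01 := congrArg (fun M : GL (Fin 2) ℝ => (M : Matrix (Fin 2) (Fin 2) ℝ) 0 1) h
  simp only [gl_mul_apply, hm00, hm01, hm10, hm11, mapGL_apply] at e00 e01
  have h00 : g 0 0 = 1 := by
    have : ((g 0 0 : ℤ) : ℝ) = ((1 : ℤ) : ℝ) := by push_cast; linarith
    exact_mod_cast this
  have h01 : (x.val : ℤ) + g 0 1 * (ℓ : ℤ) = (y.val : ℤ) := by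
    have : (((x.val : ℤ) + g 0 1 * (ℓ : ℤ) : ℤ) : ℝ) = (((y.val : ℤ)) : ℝ) := by
      rw [h00] at e01
      push_cast at e01 ⊢
      linarith
    exact_mod_cast this
  have hc := congrArg (Int.cast : ℤ → ZMod ℓ) h01
  push_cast at hc
  rw [ZMod.natCast_self, mul_zero, add_zero, ZMod.natCast_zmod_val, ZMod.natCast_zmod_val] at hc
  exact hc

end Entries

/-- The upper unipotent matrix `u(t)`. -/
def uSL (t : ℤ) : SL(2, ℤ) := ⟨!![1, t; 0, 1], by rw [Matrix.det_fin_two_of]; ring⟩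

/-- The upper unipotent element `u(t)` of `Γ₀(N)`. -/
def uMat (N : ℕ) (t : ℤ) : Gamma0 N :=
  ⟨uSL t, by
    rw [mem_Gamma0_iff_dvd]
    show (N : ℤ) ∣ 0
    exact dvd_zero _⟩

theorem uMat_00 (N : ℕ) (t : ℤ) : ((uMat N t : Gamma0 N) : SL(2, ℤ)) 0 0 = 1 := rfl
theorem uMat_01 (N : ℕ) (t : ℤ) : ((uMat N t : Gamma0 N) : SL(2, ℤ)) 0 1 = t := rfl
theorem uMat_10 (N : ℕ) (t : ℤ) : ((uMat N t : Gamma0 N) : SL(2, ℤ)) 1 0 = 0 := rfl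
theorem uMat_11 (N : ℕ) (t : ℤ) : ((uMat N t : Gamma0 N) : SL(2, ℤ)) 1 1 = 1 := rfl

variable {N q : ℕ}

/-- `g ∈ Γ₀(N)` with `q ∣ c` lies in the range of `incl₁` (`gcd(N, q) = 1`). -/
theorem mem_range_incl₁ (hNq : Nat.Coprime N q) (g : Gamma0 N)
    (h : (q : ℤ) ∣ (g : SL(2, ℤ)) 1 0) : g ∈ (incl₁ N q).range := by
  have hN : (N : ℤ) ∣ (g : SL(2, ℤ)) 1 0 := mem_Gamma0_iff_dvd.mp g.2
  have hcop : IsCoprime (N : ℤ) (q : ℤ) := Nat.isCoprime_iff_coprime.mpr hNq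
  have hmem : (g : SL(2, ℤ)) ∈ Gamma0 (N * q) := by
    rw [mem_Gamma0_iff_dvd]
    push_cast
    exact hcop.mul_dvd hN h
  exact ⟨⟨(g : SL(2, ℤ)), hmem⟩, Subtype.ext rfl⟩

/-- `g ∈ Γ₀(N)` with `q ∣ b` lies in the range of `incl₂`. -/
theorem mem_range_incl₂ (hq : q ≠ 0) (g : Gamma0 N)
    (h : (q : ℤ) ∣ (g : SL(2, ℤ)) 0 1) : g ∈ (incl₂ N q).range := by
  have hq0 : (q : ℤ) ≠ 0 := by exact_mod_cast hq
  have hN : (N : ℤ) ∣ (g : SL(2, ℤ)) 1 0 := mem_Gamma0_iff_dvd.mp g.2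
  have hdiv : (q : ℤ) * ((g : SL(2, ℤ)) 0 1 / (q : ℤ)) = (g : SL(2, ℤ)) 0 1 :=
    Int.mul_ediv_cancel' h
  have hdet := det_eq (g : SL(2, ℤ))
  let h₀ : SL(2, ℤ) := ⟨!![(g : SL(2, ℤ)) 0 0, (g : SL(2, ℤ)) 0 1 / (q : ℤ);
      (q : ℤ) * (g : SL(2, ℤ)) 1 0, (g : SL(2, ℤ)) 1 1], by
    rw [Matrix.det_fin_two_of]
    linear_combination hdet - (g : SL(2, ℤ)) 1 0 * hdiv⟩
  have hmem : h₀ ∈ Gamma0 (N * q) := by
    rw [mem_Gamma0_iff_dvd]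
    show ((N * q : ℕ) : ℤ) ∣ (q : ℤ) * (g : SL(2, ℤ)) 1 0
    push_cast
    rw [mul_comm (N : ℤ) (q : ℤ)]
    exact mul_dvd_mul_left _ hN
  refine ⟨⟨h₀, hmem⟩, ?_⟩
  apply Subtype.ext
  ext i j
  fin_cases i <;> fin_cases j
  · rfl
  · exact hdiv
  · show (q : ℤ) * (g : SL(2, ℤ)) 1 0 / (q : ℤ) = (g : SL(2, ℤ)) 1 0
    exact Int.mul_ediv_cancel_left _ hq0
  · rfl

/-- `mapGL (incl₂ h) * δ = δ * mapGL h`, `δ = diag(q, 1)`. -/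
theorem mapGL_incl₂_mul [NeZero q] (h : Gamma0 (N * q)) :
    mapGL ℝ ((incl₂ N q h : Gamma0 N) : SL(2, ℤ)) * ModularForm.heckeDiagMatrix q =
      ModularForm.heckeDiagMatrix q * mapGL ℝ (h : SL(2, ℤ)) := by
  obtain ⟨e00, e01, e10, e11⟩ := incl₂_entries N q h
  have e10' : (q : ℝ) * ((((incl₂ N q h : Gamma0 N) : SL(2, ℤ)) 1 0 : ℤ) : ℝ) =
      (((h : SL(2, ℤ)) 1 0 : ℤ) : ℝ) := by exact_mod_cast e10
  apply gl_ext <;>
    simp only [gl_mul_apply, hd00, hd01, hd10, hd11, mapGL_apply, e00, e01, e11] <;>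
    push_cast <;> linarith

variable {A : Type*} [AddCommGroup A]

/-- `tr₁` commutes with `U_ℓ`, `ℓ ∣ N` (coprimality form). -/
theorem tr₁_heckeU_of_coprime (N q : ℕ) (hNq : Nat.Coprime N q) {ℓ : ℕ} [NeZero ℓ]
    (hℓq : Nat.Coprime ℓ q) (hℓ : ℓ ∣ N) (hℓ' : ℓ ∣ N * q)
    (ψ : Additive (Gamma0 (N * q)) →+ A) :
    tr₁ N q (heckeUHom (N * q) ℓ hℓ' ψ) = heckeUHom N ℓ hℓ (tr₁ N q ψ) := by
  refine TransferComm.transferAlong_op_comm (toGL N) (toGL_injective N) (incl₁ N q)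
    (incl₁_injective N q) (uData N ℓ hℓ) (uData (N * q) ℓ hℓ')
    (fun x => ModularForm.heckeMatrix ℓ x.val) (fun γ x => uData_spec hℓ γ x)
    (fun γ x y h => heckeMatrix_disjoint (γ : SL(2, ℤ)) x y h) 1 (fun _ => 1)
    (fun x => ModularForm.heckeMatrix ℓ x.val) ?_ (fun h x => uData_spec hℓ' h x) ?_ ψ
  · intro x
    rw [map_one, one_mul, Equiv.Perm.one_apply]
  · intro g x x' h hh
    rw [toGL_apply, toGL_apply, incl₁_coe] at hh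
    have e10 := congrArg (fun M : GL (Fin 2) ℝ => (M : Matrix (Fin 2) (Fin 2) ℝ) 1 0) hh
    simp only [gl_mul_apply, hm00, hm10, hm11, mapGL_apply] at e10
    have e10' : (ℓ : ℤ) * (g : SL(2, ℤ)) 1 0 = (h : SL(2, ℤ)) 1 0 := by
      have : (((ℓ : ℤ) * (g : SL(2, ℤ)) 1 0 : ℤ) : ℝ) = (((h : SL(2, ℤ)) 1 0 : ℤ) : ℝ) := by
        push_cast
        linarith
      exact_mod_cast this
    have hdvd : ((N * q : ℕ) : ℤ) ∣ (h : SL(2, ℤ)) 1 0 := mem_Gamma0_iff_dvd.mp h.2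
    have hq : (q : ℤ) ∣ (ℓ : ℤ) * (g : SL(2, ℤ)) 1 0 := by
      rw [e10']
      refine dvd_trans ?_ hdvd
      push_cast
      exact Dvd.intro_left _ rfl
    have hcop : IsCoprime (q : ℤ) (ℓ : ℤ) := Nat.isCoprime_iff_coprime.mpr hℓq.symm
    exact mem_range_incl₁ hNq g (hcop.dvd_of_dvd_mul_left hq)

section Twisted

variable {ℓ : ℕ} [NeZero ℓ]

theorem exists_t (q : ℕ) (x : ZMod ℓ) :
    ∃ t : ℤ, (q : ℤ) * (x.val : ℤ) = ((((q : ZMod ℓ) * x).val : ℕ) : ℤ) + t * (ℓ : ℤ) := by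
  have h : (ℓ : ℤ) ∣ (q : ℤ) * (x.val : ℤ) - ((((q : ZMod ℓ) * x).val : ℕ) : ℤ) := by
    rw [← ZMod.intCast_zmod_eq_zero_iff_dvd]
    push_cast
    rw [ZMod.natCast_zmod_val, ZMod.natCast_zmod_val, sub_self]
  obtain ⟨t, ht⟩ := h
  exact ⟨t, by linarith⟩

/-- The translation parameter of `δ α_x δ⁻¹ = u(t) α_{q x}`. -/
def tPar (q : ℕ) (x : ZMod ℓ) : ℤ := (exists_t q x).choose

theorem tPar_spec (q : ℕ) (x : ZMod ℓ) :
    (q : ℤ) * (x.val : ℤ) = ((((q : ZMod ℓ) * x).val : ℕ) : ℤ) + tPar q x * (ℓ : ℤ) :=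
  (exists_t q x).choose_spec

/-- `u(t) α_{q x} δ = δ α_x`, `δ = diag(q, 1)`. -/
theorem conj_heckeMatrix (N q : ℕ) [NeZero q] (x : ZMod ℓ) :
    toGL N (uMat N (tPar q x)) * ModularForm.heckeMatrix ℓ ((q : ZMod ℓ) * x).val *
        ModularForm.heckeDiagMatrix q =
      ModularForm.heckeDiagMatrix q * ModularForm.heckeMatrix ℓ x.val := by
  have ht : (q : ℝ) * (x.val : ℝ) = ((((q : ZMod ℓ) * x).val : ℕ) : ℝ) + (tPar q x : ℝ) * (ℓ : ℝ) := by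
    exact_mod_cast tPar_spec q x
  apply gl_ext <;>
    simp only [gl_mul_apply, toGL_apply, hd00, hd01, hd10, hd11, hm00, hm01, hm10, hm11,
      mapGL_apply, uMat_00, uMat_01, uMat_10, uMat_11] <;>
    push_cast <;> linarith

end Twisted

/-- `tr₂` commutes with `U_ℓ`, `ℓ ∣ N` (coprimality form). -/
theorem tr₂_heckeU_of_coprime (N q : ℕ) [NeZero q] {ℓ : ℕ} [NeZero ℓ]
    (hℓq : Nat.Coprime ℓ q) (hℓ : ℓ ∣ N) (hℓ' : ℓ ∣ N * q)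
    (ψ : Additive (Gamma0 (N * q)) →+ A) :
    tr₂ N q (heckeUHom (N * q) ℓ hℓ' ψ) = heckeUHom N ℓ hℓ (tr₂ N q ψ) := by
  obtain ⟨δ, hδ⟩ : ∃ δ : GL (Fin 2) ℝ, δ = ModularForm.heckeDiagMatrix q := ⟨_, rfl⟩
  obtain ⟨α, hα⟩ : ∃ α : ZMod ℓ → GL (Fin 2) ℝ, ∀ x, α x = ModularForm.heckeMatrix ℓ x.val :=
    ⟨_, fun _ => rfl⟩
  obtain ⟨m, hm⟩ : ∃ m : Equiv.Perm (ZMod ℓ), ∀ x, m x = (q : ZMod ℓ) * x :=
    ⟨Units.mulLeft (ZMod.unitOfCoprime q hℓq.symm), fun x => by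
      rw [Units.mulLeft_apply, ZMod.coe_unitOfCoprime]⟩
  obtain ⟨α', hα'⟩ : ∃ α' : ZMod ℓ → GL (Fin 2) ℝ,
      ∀ x, α' x = toGL N (uMat N (tPar q x)) * α (m x) := ⟨_, fun _ => rfl⟩
  have hincl : ∀ h : Gamma0 (N * q),
      mapGL ℝ ((incl₂ N q h : Gamma0 N) : SL(2, ℤ)) * δ = δ * mapGL ℝ (h : SL(2, ℤ)) := by
    intro h
    rw [hδ]
    exact mapGL_incl₂_mul h
  have key : ∀ x, α' x * δ = δ * α x := by
    intro x
    rw [hα', hα, hα, hm, hδ]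
    exact conj_heckeMatrix N q x
  have hE : ∀ (γ : Gamma0 N) (x : ZMod ℓ), α x * toGL N γ =
      toGL N ((uData N ℓ hℓ).part γ x) * α ((uData N ℓ hℓ).perm γ x) := by
    intro γ x
    rw [hα, hα]
    exact uData_spec hℓ γ x
  have hE2 : ∀ (h : Gamma0 (N * q)) (x : ZMod ℓ), α x * mapGL ℝ (h : SL(2, ℤ)) =
      mapGL ℝ (((uData (N * q) ℓ hℓ').part h x : Gamma0 (N * q)) : SL(2, ℤ)) *
        α ((uData (N * q) ℓ hℓ').perm h x) := by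
    intro h x
    rw [hα, hα]
    exact uData_spec hℓ' h x
  have hdis : ∀ (γ : Gamma0 N) (x y : ZMod ℓ), toGL N γ * α x = α y → x = y := by
    intro γ x y h
    rw [hα, hα] at h
    exact heckeMatrix_disjoint (γ : SL(2, ℤ)) x y h
  refine TransferComm.transferAlong_op_comm (toGL N) (toGL_injective N) (incl₂ N q)
    (incl₂_injective N q (NeZero.ne q)) (uData N ℓ hℓ) (uData (N * q) ℓ hℓ')
    α hE hdis m (fun x => uMat N (tPar q x)) α' hα' ?_ ?_ ψ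
  · intro h x
    apply mul_right_cancel (b := δ)
    calc α' x * toGL N (incl₂ N q h) * δ
        = α' x * (mapGL ℝ ((incl₂ N q h : Gamma0 N) : SL(2, ℤ)) * δ) := by
          rw [toGL_apply, mul_assoc]
      _ = α' x * δ * mapGL ℝ (h : SL(2, ℤ)) := by rw [hincl, mul_assoc]
      _ = δ * (α x * mapGL ℝ (h : SL(2, ℤ))) := by rw [key, mul_assoc]
      _ = δ * mapGL ℝ ((((uData (N * q) ℓ hℓ').part h x : Gamma0 (N * q))) : SL(2, ℤ)) *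
            α ((uData (N * q) ℓ hℓ').perm h x) := by rw [hE2, mul_assoc]
      _ = mapGL ℝ ((incl₂ N q ((uData (N * q) ℓ hℓ').part h x) : Gamma0 N) : SL(2, ℤ)) *
            (δ * α ((uData (N * q) ℓ hℓ').perm h x)) := by
          rw [← hincl, mul_assoc]
      _ = toGL N (incl₂ N q ((uData (N * q) ℓ hℓ').part h x)) *
            α' ((uData (N * q) ℓ hℓ').perm h x) * δ := by
          rw [← key, toGL_apply, mul_assoc]
  · intro g x x' h hh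
    -- `α x * Y = mapGL h * α x'` with `δ * Y = mapGL g * δ`
    obtain ⟨Y, hY⟩ : ∃ Y : GL (Fin 2) ℝ, Y = δ⁻¹ * mapGL ℝ (g : SL(2, ℤ)) * δ := ⟨_, rfl⟩
    have e2 : δ * Y = mapGL ℝ (g : SL(2, ℤ)) * δ := by
      rw [hY]
      group
    have e1 : α x * Y = mapGL ℝ (h : SL(2, ℤ)) * α x' := by
      apply mul_left_cancel (a := δ)
      calc δ * (α x * Y) = α' x * (δ * Y) := by rw [← mul_assoc, ← key, mul_assoc]
        _ = α' x * toGL N g * δ := by rw [e2, toGL_apply, mul_assoc]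
        _ = toGL N (incl₂ N q h) * (α' x' * δ) := by rw [hh, mul_assoc]
        _ = mapGL ℝ ((incl₂ N q h : Gamma0 N) : SL(2, ℤ)) * δ * α x' := by
            rw [key, toGL_apply, mul_assoc]
        _ = δ * (mapGL ℝ (h : SL(2, ℤ)) * α x') := by rw [hincl, mul_assoc]
    have eY01 := congrArg (fun M : GL (Fin 2) ℝ => (M : Matrix (Fin 2) (Fin 2) ℝ) 0 1) e2
    have eY11 := congrArg (fun M : GL (Fin 2) ℝ => (M : Matrix (Fin 2) (Fin 2) ℝ) 1 1) e2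
    have e01 := congrArg (fun M : GL (Fin 2) ℝ => (M : Matrix (Fin 2) (Fin 2) ℝ) 0 1) e1
    simp only [hα, hδ, gl_mul_apply, hd00, hd01, hd10, hd11, hm00, hm01, hm11,
      mapGL_apply] at eY01 eY11 e01
    have e01' : (g : SL(2, ℤ)) 0 1 = (q : ℤ) * ((h : SL(2, ℤ)) 0 0 * (x'.val : ℤ) +
        (h : SL(2, ℤ)) 0 1 * (ℓ : ℤ) - (x.val : ℤ) * (g : SL(2, ℤ)) 1 1) := by
      have : ((((g : SL(2, ℤ)) 0 1 : ℤ)) : ℝ) = (((q : ℤ) * ((h : SL(2, ℤ)) 0 0 * (x'.val : ℤ) +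
          (h : SL(2, ℤ)) 0 1 * (ℓ : ℤ) - (x.val : ℤ) * (g : SL(2, ℤ)) 1 1) : ℤ) : ℝ) := by
        push_cast
        linear_combination (q : ℝ) * e01 - eY01 - (q : ℝ) * (x.val : ℝ) * eY11
      exact_mod_cast this
    exact mem_range_incl₂ (NeZero.ne q) g (Dvd.intro _ e01'.symm)

end HeckeCommU

section Final

variable (N q : ℕ) [Fact q.Prime] (hqN : ¬ q ∣ N) {A : Type*} [AddCommGroup A]

include hqN in
/-- (C3u) `tr₁` commutes with `U_ℓ` for `ℓ ∣ N`. -/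
theorem tr₁_heckeU {ℓ : ℕ} [NeZero ℓ] (hℓ : ℓ ∣ N) (hℓ' : ℓ ∣ N * q)
    (ψ : Additive (Gamma0 (N * q)) →+ A) :
    tr₁ N q (heckeUHom (N * q) ℓ hℓ' ψ) = heckeUHom N ℓ hℓ (tr₁ N q ψ) := by
  have hq : q.Prime := Fact.out
  have hNq : Nat.Coprime N q := ((Nat.Prime.coprime_iff_not_dvd hq).mpr hqN).symm
  exact HeckeCommU.tr₁_heckeU_of_coprime N q hNq (Nat.Coprime.coprime_dvd_left hℓ hNq) hℓ hℓ' ψ

include hqN in
/-- (C3u) `tr₂` commutes with `U_ℓ` for `ℓ ∣ N`. -/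
theorem tr₂_heckeU {ℓ : ℕ} [NeZero ℓ] (hℓ : ℓ ∣ N) (hℓ' : ℓ ∣ N * q)
    (ψ : Additive (Gamma0 (N * q)) →+ A) :
    tr₂ N q (heckeUHom (N * q) ℓ hℓ' ψ) = heckeUHom N ℓ hℓ (tr₂ N q ψ) := by
  have hq : q.Prime := Fact.out
  have : NeZero q := ⟨hq.ne_zero⟩
  have hNq : Nat.Coprime N q := ((Nat.Prime.coprime_iff_not_dvd hq).mpr hqN).symm
  exact HeckeCommU.tr₂_heckeU_of_coprime N q (Nat.Coprime.coprime_dvd_left hℓ hNq) hℓ hℓ' ψ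

end Final

end Fermat.Agent.S41
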