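import Mathlib
import Fermat.Agent.S16.HeckeHom

/-!
# S41 team library, block [COH]: Atkin–Lehner conjugation on `Γ₀(N q)`

For integers `a b c d` with `q a d - N b c = 1` the matrix `w = [[q a, b], [N q c, q d]]`
normalises `Γ₀(N q)`.  We construct the automorphism `γ ↦ w γ w⁻¹` of `Γ₀(N q)` explicitly
(`ALData.conjHom`), with its defining equation in `GL₂(ℝ)` (`ALData.mat_mul`), and show that the
adjugate data give the inverse automorphism (`ALData.conj_inv_conj`).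
-/

set_option autoImplicit false
set_option linter.unusedSimpArgs false

noncomputable section

namespace Fermat.Agent.S41.ALConj

open CongruenceSubgroup Matrix.SpecialLinearGroup
open scoped MatrixGroups
open P2MW.S_ModularForm_heckeT_slash_eq_self_of_mem_Gamma0.ModularForm.HeckeSlashInvariance
open Fermat.Agent.S16 (mem_Gamma0_iff_dvd)

/-- Atkin–Lehner data at `q` for the level `N * q`: `w = [[q a, b], [N q c, q d]]` with
`q a d - N b c = 1`. -/
structure ALData (N q : ℕ) where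
  /-- upper left cofactor -/
  a : ℤ
  /-- upper right entry -/
  b : ℤ
  /-- lower left cofactor -/
  c : ℤ
  /-- lower right cofactor -/
  d : ℤ
  h : (q : ℤ) * a * d - N * b * c = 1

variable {N q : ℕ}

/-- The cofactor of the lower left entry: `γ 1 0 = (N q) * low γ`. -/
def low (γ : Gamma0 (N * q)) : ℤ := (mem_Gamma0_iff_dvd.mp γ.2).choose

theorem low_spec (γ : Gamma0 (N * q)) :
    (γ : SL(2, ℤ)) 1 0 = (N : ℤ) * q * low γ := by
  have h := (mem_Gamma0_iff_dvd.mp γ.2).choose_spec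
  rw [h]
  push_cast
  rfl

theorem exists_alData (hq : q.Prime) (hqN : ¬ q ∣ N) : Nonempty (ALData N q) := by
  have hcop : IsCoprime (q : ℤ) (N : ℤ) :=
    Nat.isCoprime_iff_coprime.mpr ((Nat.Prime.coprime_iff_not_dvd hq).mpr hqN)
  obtain ⟨u, v, huv⟩ := hcop
  exact ⟨⟨u, -v, 1, 1, by linear_combination huv⟩⟩

namespace ALData

variable (w : ALData N q)

/-- The inverse data (adjugate matrix). -/
def inv : ALData N q := ⟨w.d, -w.b, -w.c, w.a, by linear_combination w.h⟩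

@[simp] theorem inv_inv : w.inv.inv = w := by
  cases w
  simp [inv]

/-- The integral matrix `w γ w⁻¹`. -/
def conjMat (γ : Gamma0 (N * q)) : Matrix (Fin 2) (Fin 2) ℤ :=
  !![w.d * (q * w.a * (γ : SL(2, ℤ)) 0 0 + w.b * N * q * low γ)
        - N * w.c * (q * w.a * (γ : SL(2, ℤ)) 0 1 + w.b * (γ : SL(2, ℤ)) 1 1),
     -(w.a * w.b * (γ : SL(2, ℤ)) 0 0) - w.b ^ 2 * N * low γ
        + q * w.a ^ 2 * (γ : SL(2, ℤ)) 0 1 + w.a * w.b * (γ : SL(2, ℤ)) 1 1;
     N * q * (w.d * (w.c * (γ : SL(2, ℤ)) 0 0 + w.d * q * low γ)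
        - w.c * (N * w.c * (γ : SL(2, ℤ)) 0 1 + w.d * (γ : SL(2, ℤ)) 1 1)),
     -(w.b * (N * w.c * (γ : SL(2, ℤ)) 0 0 + w.d * N * q * low γ))
        + w.a * (N * q * w.c * (γ : SL(2, ℤ)) 0 1 + q * w.d * (γ : SL(2, ℤ)) 1 1)]

theorem det_conjMat (γ : Gamma0 (N * q)) : (w.conjMat γ).det = 1 := by
  have hdet := det_eq (γ : SL(2, ℤ))
  have hC := low_spec γ
  have hs := w.h
  rw [conjMat, Matrix.det_fin_two_of]
  linear_combination ((q : ℤ) * w.a * w.d - N * w.b * w.c) ^ 2 * hdet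
    + ((q : ℤ) * w.a * w.d - N * w.b * w.c) ^ 2 * (γ : SL(2, ℤ)) 0 1 * hC
    + ((q : ℤ) * w.a * w.d - N * w.b * w.c + 1) * hs

/-- The conjugate `w γ w⁻¹` as an element of `Γ₀(N q)`. -/
def conj (γ : Gamma0 (N * q)) : Gamma0 (N * q) :=
  ⟨⟨w.conjMat γ, w.det_conjMat γ⟩, by
    rw [mem_Gamma0_iff_dvd]
    refine ⟨w.d * (w.c * (γ : SL(2, ℤ)) 0 0 + w.d * q * low γ)
        - w.c * (N * w.c * (γ : SL(2, ℤ)) 0 1 + w.d * (γ : SL(2, ℤ)) 1 1), ?_⟩
    show w.conjMat γ 1 0 = _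
    simp [conjMat]⟩

theorem conj_apply (γ : Gamma0 (N * q)) (i j : Fin 2) :
    ((w.conj γ : Gamma0 (N * q)) : SL(2, ℤ)) i j = w.conjMat γ i j := rfl

/-- The matrix `w` in `GL₂(ℝ)`. -/
def mat (hq : q ≠ 0) : GL (Fin 2) ℝ :=
  Matrix.GeneralLinearGroup.mkOfDetNeZero
    !![(q : ℝ) * w.a, (w.b : ℝ); (N : ℝ) * q * w.c, (q : ℝ) * w.d] (by
      rw [Matrix.det_fin_two_of]
      have h := congrArg (Int.cast : ℤ → ℝ) w.h
      push_cast at h
      have hq' : (q : ℝ) ≠ 0 := Nat.cast_ne_zero.mpr hq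
      have e : (q : ℝ) * w.a * ((q : ℝ) * w.d) - (w.b : ℝ) * ((N : ℝ) * q * w.c) = q := by
        linear_combination (q : ℝ) * h
      rw [e]
      exact hq')

theorem val_mat (hq : q ≠ 0) :
    ((w.mat hq : GL (Fin 2) ℝ) : Matrix (Fin 2) (Fin 2) ℝ) =
      !![(q : ℝ) * w.a, (w.b : ℝ); (N : ℝ) * q * w.c, (q : ℝ) * w.d] := rfl

/-- The defining equation `w γ = (w γ w⁻¹) w` in `GL₂(ℝ)`. -/
theorem mat_mul (hq : q ≠ 0) (γ : Gamma0 (N * q)) :
    w.mat hq * mapGL ℝ (γ : SL(2, ℤ)) =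
      mapGL ℝ ((w.conj γ : Gamma0 (N * q)) : SL(2, ℤ)) * w.mat hq := by
  have hC := congrArg (Int.cast : ℤ → ℝ) (low_spec γ)
  have hs := congrArg (Int.cast : ℤ → ℝ) w.h
  push_cast at hC hs
  apply Matrix.GeneralLinearGroup.ext
  intro i j
  fin_cases i <;> fin_cases j
  · simp only [Matrix.GeneralLinearGroup.coe_mul, Matrix.mul_apply, Fin.sum_univ_two, val_mat,
      mapGL_apply, conj_apply, conjMat, Fin.zero_eta, Fin.mk_one, Matrix.of_apply,
      Matrix.cons_val_zero, Matrix.cons_val_one, Matrix.cons_val', Matrix.cons_val_fin_one]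
    push_cast
    linear_combination (w.b : ℝ) * hC
      - ((q : ℝ) * w.a * ((γ : SL(2, ℤ)) 0 0 : ℤ) + w.b * N * q * low γ) * hs
  · simp only [Matrix.GeneralLinearGroup.coe_mul, Matrix.mul_apply, Fin.sum_univ_two, val_mat,
      mapGL_apply, conj_apply, conjMat, Fin.zero_eta, Fin.mk_one, Matrix.of_apply,
      Matrix.cons_val_zero, Matrix.cons_val_one, Matrix.cons_val', Matrix.cons_val_fin_one]
    push_cast
    linear_combination
      - ((q : ℝ) * w.a * ((γ : SL(2, ℤ)) 0 1 : ℤ) + w.b * ((γ : SL(2, ℤ)) 1 1 : ℤ)) * hs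
  · simp only [Matrix.GeneralLinearGroup.coe_mul, Matrix.mul_apply, Fin.sum_univ_two, val_mat,
      mapGL_apply, conj_apply, conjMat, Fin.zero_eta, Fin.mk_one, Matrix.of_apply,
      Matrix.cons_val_zero, Matrix.cons_val_one, Matrix.cons_val', Matrix.cons_val_fin_one]
    push_cast
    linear_combination (q : ℝ) * w.d * hC
      - ((N : ℝ) * q * w.c * ((γ : SL(2, ℤ)) 0 0 : ℤ) + q * w.d * (N * q * low γ)) * hs
  · simp only [Matrix.GeneralLinearGroup.coe_mul, Matrix.mul_apply, Fin.sum_univ_two, val_mat,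
      mapGL_apply, conj_apply, conjMat, Fin.zero_eta, Fin.mk_one, Matrix.of_apply,
      Matrix.cons_val_zero, Matrix.cons_val_one, Matrix.cons_val', Matrix.cons_val_fin_one]
    push_cast
    linear_combination
      - ((N : ℝ) * q * w.c * ((γ : SL(2, ℤ)) 0 1 : ℤ) + q * w.d * ((γ : SL(2, ℤ)) 1 1 : ℤ)) * hs

theorem conj_mul (hq : q ≠ 0) (γ δ : Gamma0 (N * q)) :
    w.conj (γ * δ) = w.conj γ * w.conj δ := by
  apply Subtype.ext
  apply mapGL_injective (S := ℝ)
  have h1 := w.mat_mul hq (γ * δ)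
  have h2 := w.mat_mul hq γ
  have h3 := w.mat_mul hq δ
  have key : mapGL ℝ ((w.conj (γ * δ) : Gamma0 (N * q)) : SL(2, ℤ)) * w.mat hq =
      mapGL ℝ ((w.conj γ * w.conj δ : Gamma0 (N * q)) : SL(2, ℤ)) * w.mat hq := by
    rw [← h1, Subgroup.coe_mul, map_mul, ← mul_assoc, h2, mul_assoc, h3, ← mul_assoc,
      Subgroup.coe_mul, map_mul]
  exact mul_right_cancel key

/-- Conjugation by `w` as an endomorphism of `Γ₀(N q)`. -/
def conjHom (hq : q ≠ 0) : Gamma0 (N * q) →* Gamma0 (N * q) :=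
  MonoidHom.mk' w.conj (w.conj_mul hq)

@[simp] theorem conjHom_apply (hq : q ≠ 0) (γ : Gamma0 (N * q)) : w.conjHom hq γ = w.conj γ := rfl

theorem val_inv_mat_mul_mat (hq : q ≠ 0) :
    ((w.inv.mat hq * w.mat hq : GL (Fin 2) ℝ) : Matrix (Fin 2) (Fin 2) ℝ) =
      (q : ℝ) • (1 : Matrix (Fin 2) (Fin 2) ℝ) := by
  have hs := congrArg (Int.cast : ℤ → ℝ) w.h
  push_cast at hs
  rw [Matrix.GeneralLinearGroup.coe_mul, val_mat, val_mat]
  ext i j
  fin_cases i <;> fin_cases j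
  · simp only [inv, Matrix.mul_apply, Fin.sum_univ_two, Fin.zero_eta, Fin.mk_one, Matrix.of_apply,
      Matrix.cons_val_zero, Matrix.cons_val_one, Matrix.cons_val', Matrix.cons_val_fin_one,
      Matrix.smul_apply, Matrix.one_apply_eq, smul_eq_mul, mul_one]
    push_cast
    linear_combination (q : ℝ) * hs
  · simp only [inv, Matrix.mul_apply, Fin.sum_univ_two, Fin.zero_eta, Fin.mk_one, Matrix.of_apply,
      Matrix.cons_val_zero, Matrix.cons_val_one, Matrix.cons_val', Matrix.cons_val_fin_one,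
      Matrix.smul_apply, smul_eq_mul]
    rw [Matrix.one_apply_ne (by decide)]
    push_cast
    ring
  · simp only [inv, Matrix.mul_apply, Fin.sum_univ_two, Fin.zero_eta, Fin.mk_one, Matrix.of_apply,
      Matrix.cons_val_zero, Matrix.cons_val_one, Matrix.cons_val', Matrix.cons_val_fin_one,
      Matrix.smul_apply, smul_eq_mul]
    rw [Matrix.one_apply_ne (by decide)]
    push_cast
    ring
  · simp only [inv, Matrix.mul_apply, Fin.sum_univ_two, Fin.zero_eta, Fin.mk_one, Matrix.of_apply,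
      Matrix.cons_val_zero, Matrix.cons_val_one, Matrix.cons_val', Matrix.cons_val_fin_one,
      Matrix.smul_apply, Matrix.one_apply_eq, smul_eq_mul, mul_one]
    push_cast
    linear_combination (q : ℝ) * hs

/-- Conjugation by the adjugate data inverts conjugation by `w`. -/
theorem conj_inv_conj (hq : q ≠ 0) (γ : Gamma0 (N * q)) : w.inv.conj (w.conj γ) = γ := by
  apply Subtype.ext
  apply mapGL_injective (S := ℝ)
  have h1 := w.mat_mul hq γ
  have h2 := w.inv.mat_mul hq (w.conj γ)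
  have hcomm : ∀ M : GL (Fin 2) ℝ, w.inv.mat hq * w.mat hq * M = M * (w.inv.mat hq * w.mat hq) := by
    intro M
    apply Units.ext
    rw [Units.val_mul, Units.val_mul M, w.val_inv_mat_mul_mat hq, Matrix.smul_mul, Matrix.mul_smul,
      one_mul, mul_one]
  have key : mapGL ℝ ((w.inv.conj (w.conj γ) : Gamma0 (N * q)) : SL(2, ℤ)) *
      (w.inv.mat hq * w.mat hq) = w.inv.mat hq * w.mat hq * mapGL ℝ (γ : SL(2, ℤ)) := by
    rw [← mul_assoc, ← h2, mul_assoc, ← h1, mul_assoc]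
  rw [hcomm] at key
  exact mul_right_cancel key

theorem conj_conj_inv (hq : q ≠ 0) (γ : Gamma0 (N * q)) : w.conj (w.inv.conj γ) = γ := by
  have h := w.inv.conj_inv_conj hq γ
  rwa [inv_inv] at h

/-- `h_w = [[q a, b], [N c, d]] ∈ Γ₀(N)`; one has `w = diag(1, q) · h_w`. -/
def hmat : Gamma0 N :=
  ⟨⟨!![(q : ℤ) * w.a, w.b; (N : ℤ) * w.c, w.d], by
      rw [Matrix.det_fin_two_of]
      linear_combination w.h⟩, by
    rw [mem_Gamma0_iff_dvd]
    exact ⟨w.c, rfl⟩⟩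

/-- `g_w = [[a, b], [N c, q d]] ∈ Γ₀(N)`; one has `w · diag(1, q) = q · g_w`. -/
def gmat : Gamma0 N :=
  ⟨⟨!![w.a, w.b; (N : ℤ) * w.c, (q : ℤ) * w.d], by
      rw [Matrix.det_fin_two_of]
      linear_combination w.h⟩, by
    rw [mem_Gamma0_iff_dvd]
    exact ⟨w.c, rfl⟩⟩

theorem hmat_apply (i j : Fin 2) : ((w.hmat : Gamma0 N) : SL(2, ℤ)) i j =
    (!![(q : ℤ) * w.a, w.b; (N : ℤ) * w.c, w.d] : Matrix (Fin 2) (Fin 2) ℤ) i j := rfl

theorem gmat_apply (i j : Fin 2) : ((w.gmat : Gamma0 N) : SL(2, ℤ)) i j =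
    (!![w.a, w.b; (N : ℤ) * w.c, (q : ℤ) * w.d] : Matrix (Fin 2) (Fin 2) ℤ) i j := rfl

/-- `w = diag(1, q) · h_w` in `GL₂(ℝ)`. -/
theorem mat_eq (hq : q ≠ 0) :
    w.mat hq = ModularForm.heckeMatrix q 0 * mapGL ℝ ((w.hmat : Gamma0 N) : SL(2, ℤ)) := by
  apply Matrix.GeneralLinearGroup.ext
  intro i j
  fin_cases i <;> fin_cases j <;>
    simp [Matrix.mul_apply, Fin.sum_univ_two, val_mat, ModularForm.val_heckeMatrix hq, hmat_apply]
    <;> ring

end ALData

end Fermat.Agent.S41.ALConj
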