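/-
S41 (level raising), block [COH], leaf (C5): the Iwahori–Hecke relation for `U_q` at level `N q`,
`q ∤ N`, on the kernel of both transfers.  Owner: helper25.

For Atkin–Lehner data `w` (`S41/ALConj.lean`) write `W ψ = ψ ∘ (γ ↦ w γ w⁻¹)`.  With the explicit
systems of representatives `r₂ = {[[1,x],[0,1]]} ∪ {h_w}` of `incl₂(Γ₀(Nq)) \ Γ₀(N)` and
`r₁ = g_w · r₂` of `Γ₀(Nq) \ Γ₀(N)` we prove
* (W1) `res₁ (tr₂ ψ) = U_q ψ + W ψ`;
* (W2) `tr₂ (W ψ) = tr₁ ψ`.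
Hence, if `tr₁ ψ = tr₂ ψ = 0`: `U_q ψ = - W ψ`, `U_q (W ψ) = - ψ`, so `U_q² ψ = ψ`, and
`tr₁ (U_q ψ) = tr₂ (U_q ψ) = 0`.
-/
import Mathlib
import Fermat.Agent.S41.Defs
import Fermat.Agent.S41.ALConj

set_option autoImplicit false
set_option linter.unusedSimpArgs false

noncomputable section

namespace Fermat.Agent.S41.IwahoriU

open CongruenceSubgroup Matrix.SpecialLinearGroup
open scoped MatrixGroups
open P2MW.S_ModularForm_heckeT_slash_eq_self_of_mem_Gamma0.ModularForm.HeckeSlashInvariance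
open Fermat.Agent.S16 (mem_Gamma0_iff_dvd heckeUHom uData uData_spec heckeUHom_apply)
open Fermat.Agent.S41.ALConj

variable {N q : ℕ}

/-! ### Elementary matrices -/

/-- The unipotent matrix `[[1, n], [0, 1]]` as an element of `Γ₀(N)`. -/
def umat (N : ℕ) (n : ℤ) : Gamma0 N :=
  ⟨⟨!![1, n; 0, 1], by simp [Matrix.det_fin_two_of]⟩, by
    rw [mem_Gamma0_iff_dvd]
    exact ⟨0, by simp⟩⟩

theorem umat_apply (N : ℕ) (n : ℤ) (i j : Fin 2) : ((umat N n : Gamma0 N) : SL(2, ℤ)) i j =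
    (!![1, n; 0, 1] : Matrix (Fin 2) (Fin 2) ℤ) i j := rfl

/-- entries of a product in `Γ₀(N)` -/
theorem mul_apply' (g h : Gamma0 N) (i j : Fin 2) :
    ((g * h : Gamma0 N) : SL(2, ℤ)) i j =
      (g : SL(2, ℤ)) i 0 * (h : SL(2, ℤ)) 0 j + (g : SL(2, ℤ)) i 1 * (h : SL(2, ℤ)) 1 j := by
  rw [Subgroup.coe_mul, Matrix.SpecialLinearGroup.coe_mul, Matrix.mul_apply, Fin.sum_univ_two]

/-- the upper right entry of `g * r⁻¹` -/
theorem mul_inv_apply_zero_one (g r : Gamma0 N) :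
    ((g * r⁻¹ : Gamma0 N) : SL(2, ℤ)) 0 1 =
      -((g : SL(2, ℤ)) 0 0 * (r : SL(2, ℤ)) 0 1) + (g : SL(2, ℤ)) 0 1 * (r : SL(2, ℤ)) 0 0 := by
  rw [mul_apply', Subgroup.coe_inv, Matrix.SpecialLinearGroup.coe_inv, Matrix.adjugate_fin_two]
  simp

theorem incl₂_apply_one_zero (hq : q ≠ 0) (γ : Gamma0 (N * q)) :
    ((incl₂ N q γ : Gamma0 N) : SL(2, ℤ)) 1 0 = (N : ℤ) * low γ := by
  have hq0 : (q : ℤ) ≠ 0 := by exact_mod_cast hq
  have h := (incl₂_entries N q γ).2.2.1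
  rw [low_spec] at h
  apply mul_left_cancel₀ hq0
  rw [h]
  ring

/-- `heckeMatrix q n = diag(1, q) · [[1, n], [0, 1]]`. -/
theorem heckeMatrix_eq (hq : q ≠ 0) (n : ℕ) :
    ModularForm.heckeMatrix q n =
      ModularForm.heckeMatrix q 0 * mapGL ℝ ((umat N (n : ℤ) : Gamma0 N) : SL(2, ℤ)) := by
  apply Matrix.GeneralLinearGroup.ext
  intro i j
  fin_cases i <;> fin_cases j <;>
    simp [Matrix.mul_apply, Fin.sum_univ_two, ModularForm.val_heckeMatrix hq, umat_apply]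

/-- `diag(1, q) · ι₂(P) = P · diag(1, q)`. -/
theorem heckeMatrix_zero_mul_incl₂ (hq : q ≠ 0) (P : Gamma0 (N * q)) :
    ModularForm.heckeMatrix q 0 * mapGL ℝ ((incl₂ N q P : Gamma0 N) : SL(2, ℤ)) =
      mapGL ℝ (P : SL(2, ℤ)) * ModularForm.heckeMatrix q 0 := by
  obtain ⟨h00, h01, h10, h11⟩ := incl₂_entries N q P
  have h10' := congrArg (Int.cast : ℤ → ℝ) h10
  push_cast at h10'
  apply Matrix.GeneralLinearGroup.ext
  intro i j
  fin_cases i <;> fin_cases j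
  · simp [Matrix.mul_apply, Fin.sum_univ_two, ModularForm.val_heckeMatrix hq, h00]
  · simp [Matrix.mul_apply, Fin.sum_univ_two, ModularForm.val_heckeMatrix hq, h01, mul_comm]
  · simp only [Matrix.GeneralLinearGroup.coe_mul, Matrix.mul_apply, Fin.sum_univ_two,
      ModularForm.val_heckeMatrix hq, mapGL_apply, Fin.zero_eta, Fin.mk_one, Matrix.of_apply,
      Matrix.cons_val_zero, Matrix.cons_val_one, Matrix.cons_val', Matrix.cons_val_fin_one]
    linear_combination h10'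
  · simp [Matrix.mul_apply, Fin.sum_univ_two, ModularForm.val_heckeMatrix hq, h11, mul_comm]

/-- Descent of a coset identity from `GL₂(ℝ)` to `Γ₀(N)`. -/
theorem descend (hq : q ≠ 0) (r r' : Gamma0 N) (γ P : Gamma0 (N * q))
    (h : ModularForm.heckeMatrix q 0 * mapGL ℝ (r : SL(2, ℤ)) * mapGL ℝ (γ : SL(2, ℤ)) =
      mapGL ℝ (P : SL(2, ℤ)) * (ModularForm.heckeMatrix q 0 * mapGL ℝ (r' : SL(2, ℤ)))) :
    r * incl₁ N q γ = incl₂ N q P * r' := by
  apply Subtype.ext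
  apply mapGL_injective (S := ℝ)
  apply mul_left_cancel (a := ModularForm.heckeMatrix q 0)
  rw [Subgroup.coe_mul, Subgroup.coe_mul, map_mul, map_mul, incl₁_coe, ← mul_assoc, h, ← mul_assoc,
    ← mul_assoc, heckeMatrix_zero_mul_incl₂ hq]

/-! ### The representatives of `ι₂(Γ₀(N q)) \ Γ₀(N)` -/

theorem exists_incl₂_eq (hq : q ≠ 0) (g : Gamma0 N) (hg : (q : ℤ) ∣ (g : SL(2, ℤ)) 0 1) :
    ∃ k : Gamma0 (N * q), incl₂ N q k = g := by
  obtain ⟨t, ht⟩ := hg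
  obtain ⟨s, hs⟩ := mem_Gamma0_iff_dvd.mp g.2
  have hq0 : (q : ℤ) ≠ 0 := by exact_mod_cast hq
  refine ⟨⟨⟨!![(g : SL(2, ℤ)) 0 0, t; (q : ℤ) * (g : SL(2, ℤ)) 1 0, (g : SL(2, ℤ)) 1 1], ?_⟩,
    ?_⟩, ?_⟩
  · rw [Matrix.det_fin_two_of]
    have hdet := det_eq (g : SL(2, ℤ))
    rw [ht] at hdet
    linear_combination hdet
  · rw [mem_Gamma0_iff_dvd]
    refine ⟨s, ?_⟩
    show (q : ℤ) * (g : SL(2, ℤ)) 1 0 = _
    rw [hs]
    push_cast
    ring
  · apply Subtype.ext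
    ext i j
    fin_cases i <;> fin_cases j
    · rfl
    · show (q : ℤ) * t = _
      exact ht.symm
    · show (q : ℤ) * (g : SL(2, ℤ)) 1 0 / (q : ℤ) = _
      exact Int.mul_ediv_cancel_left _ hq0
    · rfl

variable (w : ALData N q)

/-- representatives of `ι₂(Γ₀(N q)) \ Γ₀(N)`: `[[1, x], [0, 1]]` (`x` mod `q`) and `h_w`. -/
def r₂ : Option (ZMod q) → Gamma0 N
  | none => w.hmat
  | some x => umat N (x.val : ℤ)

theorem r₂_none : r₂ w none = w.hmat := rfl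

theorem r₂_some (x : ZMod q) : r₂ w (some x) = umat N (x.val : ℤ) := rfl

theorem r₂_inj [NeZero q] (hqp : q.Prime) (i j : Option (ZMod q))
    (h : ∃ k : Gamma0 (N * q), r₂ w i = incl₂ N q k * r₂ w j) : i = j := by
  obtain ⟨k, hk⟩ := h
  obtain ⟨k00, k01, -, -⟩ := incl₂_entries N q k
  have hq1 : ¬ (q : ℤ) ∣ 1 := by
    intro h1
    have h2 : (q : ℤ) ∣ ((1 : ℕ) : ℤ) := by simpa using h1
    exact hqp.one_lt.ne' (Nat.dvd_one.mp (Int.natCast_dvd_natCast.mp h2))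
  have e00 := congrArg (fun g : Gamma0 N => (g : SL(2, ℤ)) 0 0) hk
  have e01 := congrArg (fun g : Gamma0 N => (g : SL(2, ℤ)) 0 1) hk
  simp only [mul_apply', k00, k01] at e00 e01
  cases i with
  | none =>
    cases j with
    | none => rfl
    | some y =>
      exfalso
      simp only [r₂_none, r₂_some, ALData.hmat_apply, umat_apply, Matrix.of_apply,
        Matrix.cons_val_zero, Matrix.cons_val_one, Matrix.cons_val', Matrix.cons_val_fin_one]
        at e00 e01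
      apply hq1
      refine ⟨w.a * w.d - N * (w.a * (y.val : ℤ) + (k : SL(2, ℤ)) 0 1) * w.c, ?_⟩
      linear_combination (-1 : ℤ) * w.h + (-(N : ℤ) * w.c) * e01
        + ((N : ℤ) * w.c * (y.val : ℤ)) * e00
  | some x =>
    cases j with
    | none =>
      exfalso
      simp only [r₂_none, r₂_some, ALData.hmat_apply, umat_apply, Matrix.of_apply,
        Matrix.cons_val_zero, Matrix.cons_val_one, Matrix.cons_val', Matrix.cons_val_fin_one]
        at e00 e01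
      apply hq1
      exact ⟨(k : SL(2, ℤ)) 0 0 * w.a + (k : SL(2, ℤ)) 0 1 * (N * w.c), by
        linear_combination e00⟩
    | some y =>
      simp only [r₂_none, r₂_some, ALData.hmat_apply, umat_apply, Matrix.of_apply,
        Matrix.cons_val_zero, Matrix.cons_val_one, Matrix.cons_val', Matrix.cons_val_fin_one]
        at e00 e01
      have hdvd : (q : ℤ) ∣ (x.val : ℤ) - (y.val : ℤ) :=
        ⟨(k : SL(2, ℤ)) 0 1, by linear_combination e01 - (y.val : ℤ) * e00⟩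
      have h0 := (ZMod.intCast_zmod_eq_zero_iff_dvd _ q).mpr hdvd
      push_cast at h0
      rw [ZMod.natCast_zmod_val, ZMod.natCast_zmod_val, sub_eq_zero] at h0
      rw [h0]

theorem r₂_cov [NeZero q] (hqp : q.Prime) (g : Gamma0 N) :
    ∃ i, ∃ k : Gamma0 (N * q), g = incl₂ N q k * r₂ w i := by
  have hq : q ≠ 0 := hqp.ne_zero
  by_cases hg : (q : ℤ) ∣ (g : SL(2, ℤ)) 0 0
  · obtain ⟨k, hk⟩ := exists_incl₂_eq hq (g * (w.hmat)⁻¹) (by
      rw [mul_inv_apply_zero_one, ALData.hmat_apply, ALData.hmat_apply]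
      obtain ⟨t, ht⟩ := hg
      refine ⟨-(t * w.b) + (g : SL(2, ℤ)) 0 1 * w.a, ?_⟩
      simp only [Matrix.of_apply, Matrix.cons_val_zero, Matrix.cons_val_one, Matrix.cons_val',
        Matrix.cons_val_fin_one]
      rw [ht]
      ring)
    exact ⟨none, k, by rw [hk, r₂_none, inv_mul_cancel_right]⟩
  · haveI : Fact q.Prime := ⟨hqp⟩
    have hne : (((g : SL(2, ℤ)) 0 0 : ℤ) : ZMod q) ≠ 0 := by
      rwa [Ne, ZMod.intCast_zmod_eq_zero_iff_dvd]
    obtain ⟨k, hk⟩ := exists_incl₂_eq hq (g * (umat N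
        (((((g : SL(2, ℤ)) 0 1 : ℤ) : ZMod q) * (((g : SL(2, ℤ)) 0 0 : ℤ) : ZMod q)⁻¹).val : ℤ))⁻¹)
      (by
        rw [mul_inv_apply_zero_one, umat_apply, umat_apply,
          ← ZMod.intCast_zmod_eq_zero_iff_dvd]
        simp only [Matrix.of_apply, Matrix.cons_val_zero, Matrix.cons_val_one, Matrix.cons_val',
          Matrix.cons_val_fin_one]
        push_cast
        rw [ZMod.natCast_zmod_val]
        field_simp
        ring)
    exact ⟨some _, k, by rw [hk, r₂_some, inv_mul_cancel_right]⟩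

/-! ### The intertwining relation `g_w · ι₂(γ) = ι₁(w γ w⁻¹) · g_w` -/

theorem gmat_mul_incl₂ (hq : q ≠ 0) (γ : Gamma0 (N * q)) :
    w.gmat * incl₂ N q γ = incl₁ N q (w.conj γ) * w.gmat := by
  obtain ⟨h00, h01, -, h11⟩ := incl₂_entries N q γ
  have h10 := incl₂_apply_one_zero hq γ
  have hs := w.h
  apply Subtype.ext
  ext i j
  fin_cases i <;> fin_cases j
  · show ((w.gmat * incl₂ N q γ : Gamma0 N) : SL(2, ℤ)) 0 0 =
      ((incl₁ N q (w.conj γ) * w.gmat : Gamma0 N) : SL(2, ℤ)) 0 0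
    rw [mul_apply', mul_apply', incl₁_coe]
    simp only [ALData.gmat_apply, ALData.conj_apply, ALData.conjMat, h00, h01, h10, h11,
      Matrix.of_apply, Matrix.cons_val_zero, Matrix.cons_val_one, Matrix.cons_val',
      Matrix.cons_val_fin_one]
    linear_combination (-(w.a * (γ : SL(2, ℤ)) 0 0 + w.b * (N * low γ))) * hs
  · show ((w.gmat * incl₂ N q γ : Gamma0 N) : SL(2, ℤ)) 0 1 =
      ((incl₁ N q (w.conj γ) * w.gmat : Gamma0 N) : SL(2, ℤ)) 0 1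
    rw [mul_apply', mul_apply', incl₁_coe]
    simp only [ALData.gmat_apply, ALData.conj_apply, ALData.conjMat, h00, h01, h10, h11,
      Matrix.of_apply, Matrix.cons_val_zero, Matrix.cons_val_one, Matrix.cons_val',
      Matrix.cons_val_fin_one]
    linear_combination (-(w.a * (q * (γ : SL(2, ℤ)) 0 1) + w.b * (γ : SL(2, ℤ)) 1 1)) * hs
  · show ((w.gmat * incl₂ N q γ : Gamma0 N) : SL(2, ℤ)) 1 0 =
      ((incl₁ N q (w.conj γ) * w.gmat : Gamma0 N) : SL(2, ℤ)) 1 0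
    rw [mul_apply', mul_apply', incl₁_coe]
    simp only [ALData.gmat_apply, ALData.conj_apply, ALData.conjMat, h00, h01, h10, h11,
      Matrix.of_apply, Matrix.cons_val_zero, Matrix.cons_val_one, Matrix.cons_val',
      Matrix.cons_val_fin_one]
    linear_combination (-(N * w.c * (γ : SL(2, ℤ)) 0 0 + q * w.d * (N * low γ))) * hs
  · show ((w.gmat * incl₂ N q γ : Gamma0 N) : SL(2, ℤ)) 1 1 =
      ((incl₁ N q (w.conj γ) * w.gmat : Gamma0 N) : SL(2, ℤ)) 1 1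
    rw [mul_apply', mul_apply', incl₁_coe]
    simp only [ALData.gmat_apply, ALData.conj_apply, ALData.conjMat, h00, h01, h10, h11,
      Matrix.of_apply, Matrix.cons_val_zero, Matrix.cons_val_one, Matrix.cons_val',
      Matrix.cons_val_fin_one]
    linear_combination
      (-(N * w.c * (q * (γ : SL(2, ℤ)) 0 1) + q * w.d * (γ : SL(2, ℤ)) 1 1)) * hs

/-! ### (W1): `(tr₂ ψ)(ι₁ γ) = (U_q ψ)(γ) + ψ (w γ w⁻¹)` -/

variable {A : Type*} [AddCommGroup A]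

theorem tr₂_incl₁ [NeZero q] (hqp : q.Prime) (hq : q ∣ N * q)
    (ψ : Additive (Gamma0 (N * q)) →+ A) (γ : Gamma0 (N * q)) :
    tr₂ N q ψ (Additive.ofMul (incl₁ N q γ)) =
      heckeUHom (N * q) q hq ψ (Additive.ofMul γ) + ψ (Additive.ofMul (w.conj γ)) := by
  have hq0 : q ≠ 0 := hqp.ne_zero
  have hspec : ∀ i : Option (ZMod q), r₂ w i * incl₁ N q γ =
      incl₂ N q (Option.elim i (w.conj γ) (fun x => (uData (N * q) q hq).part γ x)) *
        r₂ w (Option.map ((uData (N * q) q hq).perm γ) i) := by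
    intro i
    cases i with
    | none =>
      show w.hmat * incl₁ N q γ = incl₂ N q (w.conj γ) * w.hmat
      apply descend hq0
      rw [← w.mat_eq hq0]
      exact w.mat_mul hq0 γ
    | some x =>
      show umat N (x.val : ℤ) * incl₁ N q γ =
        incl₂ N q ((uData (N * q) q hq).part γ x) *
          umat N ((((uData (N * q) q hq).perm γ x).val : ℕ) : ℤ)
      apply descend hq0
      rw [← heckeMatrix_eq hq0, ← heckeMatrix_eq hq0]
      exact uData_spec hq γ x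
  rw [tr₂_apply_of_reps N q hq0 (r₂ w) (r₂_cov w hqp) (r₂_inj w hqp) (incl₁ N q γ) _ _ hspec ψ,
    Fintype.sum_option, heckeUHom_apply]
  exact add_comm _ _

/-! ### The representatives of `Γ₀(N q) \ Γ₀(N)` and (W2): `tr₂ (W ψ) = tr₁ ψ` -/

/-- representatives of `Γ₀(N q) \ Γ₀(N)`: `g_w · r₂`. -/
def r₁ (i : Option (ZMod q)) : Gamma0 N := w.gmat * r₂ w i

theorem r₁_cov [NeZero q] (hqp : q.Prime) (g : Gamma0 N) :
    ∃ i, ∃ k : Gamma0 (N * q), g = incl₁ N q k * r₁ w i := by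
  obtain ⟨i, k, hk⟩ := r₂_cov w hqp (w.gmat⁻¹ * g)
  refine ⟨i, w.conj k, ?_⟩
  rw [r₁, ← mul_assoc, ← gmat_mul_incl₂ w hqp.ne_zero, mul_assoc, ← hk, mul_inv_cancel_left]

theorem r₁_inj [NeZero q] (hqp : q.Prime) (i j : Option (ZMod q))
    (h : ∃ k : Gamma0 (N * q), r₁ w i = incl₁ N q k * r₁ w j) : i = j := by
  obtain ⟨k, hk⟩ := h
  apply r₂_inj w hqp
  refine ⟨w.inv.conj k, ?_⟩
  apply mul_left_cancel (a := w.gmat)
  rw [← mul_assoc, gmat_mul_incl₂ w hqp.ne_zero, w.conj_conj_inv hqp.ne_zero, mul_assoc]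
  exact hk

/-- `W ψ = ψ ∘ (γ ↦ w γ w⁻¹)`. -/
def wOp (hq : q ≠ 0) (ψ : Additive (Gamma0 (N * q)) →+ A) : Additive (Gamma0 (N * q)) →+ A :=
  ψ.comp (MonoidHom.toAdditive (w.conjHom hq))

theorem wOp_apply (hq : q ≠ 0) (ψ : Additive (Gamma0 (N * q)) →+ A) (γ : Gamma0 (N * q)) :
    wOp w hq ψ (Additive.ofMul γ) = ψ (Additive.ofMul (w.conj γ)) := rfl

theorem wOp_inv_wOp (hq : q ≠ 0) (ψ : Additive (Gamma0 (N * q)) →+ A) :
    wOp w.inv hq (wOp w hq ψ) = ψ := by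
  refine AddMonoidHom.ext fun γ => ?_
  obtain ⟨γ, rfl⟩ := Additive.ofMul.surjective γ
  rw [wOp_apply, wOp_apply, w.conj_conj_inv hq]

theorem tr₂_wOp [NeZero q] (hqp : q.Prime) (ψ : Additive (Gamma0 (N * q)) →+ A) :
    tr₂ N q (wOp w hqp.ne_zero ψ) = tr₁ N q ψ := by
  have hq0 := hqp.ne_zero
  refine AddMonoidHom.ext fun g => ?_
  obtain ⟨g, rfl⟩ := Additive.ofMul.surjective g
  have hex : ∀ i : Option (ZMod q), ∃ j, ∃ k : Gamma0 (N * q),
      r₂ w i * g = incl₂ N q k * r₂ w j := fun i => r₂_cov w hqp (r₂ w i * g)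
  choose σ part hspec using hex
  have hspec₁ : ∀ i, r₁ w i * g = incl₁ N q (w.conj (part i)) * r₁ w (σ i) := by
    intro i
    rw [r₁, mul_assoc, hspec i, ← mul_assoc, gmat_mul_incl₂ w hq0, mul_assoc]
    rfl
  rw [tr₂_apply_of_reps N q hq0 (r₂ w) (r₂_cov w hqp) (r₂_inj w hqp) g σ part hspec,
    tr₁_apply_of_reps N q (r₁ w) (r₁_cov w hqp) (r₁_inj w hqp) g σ _ hspec₁ ψ]
  rfl

/-! ### Assembly -/

theorem heckeU_eq_neg_wOp [NeZero q] (hqp : q.Prime) (hq : q ∣ N * q)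
    (ψ : Additive (Gamma0 (N * q)) →+ A) (h₂ : tr₂ N q ψ = 0) :
    heckeUHom (N * q) q hq ψ = -wOp w hqp.ne_zero ψ := by
  refine AddMonoidHom.ext fun γ => ?_
  obtain ⟨γ, rfl⟩ := Additive.ofMul.surjective γ
  have h := tr₂_incl₁ w hqp hq ψ γ
  rw [h₂, AddMonoidHom.zero_apply] at h
  rw [AddMonoidHom.neg_apply, wOp_apply]
  exact eq_neg_of_add_eq_zero_left h.symm

include w in
theorem heckeU_aux [NeZero q] (hqp : q.Prime) (hq : q ∣ N * q)
    (ψ : Additive (Gamma0 (N * q)) →+ A) (h₁ : tr₁ N q ψ = 0) (h₂ : tr₂ N q ψ = 0) :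
    heckeUHom (N * q) q hq (heckeUHom (N * q) q hq ψ) = ψ ∧
      tr₁ N q (heckeUHom (N * q) q hq ψ) = 0 ∧ tr₂ N q (heckeUHom (N * q) q hq ψ) = 0 := by
  have hq0 := hqp.ne_zero
  have hU : heckeUHom (N * q) q hq ψ = -wOp w hq0 ψ := heckeU_eq_neg_wOp w hqp hq ψ h₂
  have hW2 : tr₂ N q (wOp w hq0 ψ) = 0 := by rw [tr₂_wOp w hqp ψ, h₁]
  have hW1 : tr₁ N q (wOp w hq0 ψ) = 0 := by
    rw [← tr₂_wOp w.inv hqp (wOp w hq0 ψ), wOp_inv_wOp w hq0 ψ, h₂]
  have hUW : heckeUHom (N * q) q hq (wOp w hq0 ψ) = -wOp w.inv hq0 (wOp w hq0 ψ) :=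
    heckeU_eq_neg_wOp w.inv hqp hq _ hW2
  rw [wOp_inv_wOp] at hUW
  refine ⟨?_, ?_, ?_⟩
  · rw [hU]
    show (uData (N * q) q hq).op (-wOp w hq0 ψ) = ψ
    rw [Fermat.Agent.S16.CosetData.op_neg]
    show -heckeUHom (N * q) q hq (wOp w hq0 ψ) = ψ
    rw [hUW, neg_neg]
  · rw [hU, tr₁_neg, hW1, neg_zero]
  · rw [hU, tr₂_neg, hW2, neg_zero]

/-! ### The statements of leaf (C5) -/

/-- **(C5)** `U_q² = 1` on `ker tr₁ ∩ ker tr₂` at level `N q`, `q ∤ N` prime. -/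
theorem heckeU_sq_of_tr_eq_zero (N q : ℕ) [Fact q.Prime] (hqN : ¬ q ∣ N) [NeZero q]
    (hq : q ∣ N * q) (ψ : Additive (Gamma0 (N * q)) →+ A)
    (h₁ : tr₁ N q ψ = 0) (h₂ : tr₂ N q ψ = 0) :
    heckeUHom (N * q) q hq (heckeUHom (N * q) q hq ψ) = ψ := by
  obtain ⟨w⟩ := exists_alData (Fact.out : q.Prime) hqN
  exact (heckeU_aux w Fact.out hq ψ h₁ h₂).1

/-- **(C5)** `U_q` preserves `ker tr₁ ∩ ker tr₂` at level `N q`, `q ∤ N` prime. -/
theorem tr_heckeU_q_eq_zero (N q : ℕ) [Fact q.Prime] (hqN : ¬ q ∣ N) [NeZero q]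
    (hq : q ∣ N * q) (ψ : Additive (Gamma0 (N * q)) →+ A)
    (h₁ : tr₁ N q ψ = 0) (h₂ : tr₂ N q ψ = 0) :
    tr₁ N q (heckeUHom (N * q) q hq ψ) = 0 ∧ tr₂ N q (heckeUHom (N * q) q hq ψ) = 0 := by
  obtain ⟨w⟩ := exists_alData (Fact.out : q.Prime) hqN
  exact (heckeU_aux w Fact.out hq ψ h₁ h₂).2

end Fermat.Agent.S41.IwahoriU
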