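/-
S41, block [NEW], slice (N3a) — abstract assembly (owner: helper81).

`K := Hom_par(Γ₀(Nq), ℤ) ∩ ker t₁ ∩ ker t₂` is stable under the full Hecke algebra of level `Nq`
(`T_ℓ`, `ℓ ∤ Nq`; `U_ℓ`, `ℓ ∣ N`; `U_q`), and `U_q² = 1` on it.  Feeding this into the level-`M`
core (slice (N2), here the hypothesis `CoreStatement`) gives the `q`-new eigenform.

The file is independent of the definitions of the transfers: `t₁ t₂` are arbitrary maps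
satisfying the coset identities collected in `CohInputs` (blocks (C3), (C3u), (C4), (C5) of the
S41 table).
-/
import Mathlib
import Fermat.Prelude.Def_FLTPrelim_Modularity
import Fermat.Prelude.Def_ModularCurve_PeriodMap
import Fermat.Agent.S16.HeckeHom

set_option autoImplicit false

open CongruenceSubgroup ModularCurve.Period
open scoped MatrixGroups

namespace Fermat.Agent.S41.NewAsm

open Fermat.Agent.S16 (heckeTHom heckeUHom)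

/-- The statement of the level-`M` core (slice (N2)): a class in a Hecke-stable sublattice `K` of
the parabolic lattice which is primitive in `K` and an eigenvector mod `p • K` on `Pset` lifts to
a normalized eigenform; the eigenvalue of `U_ℓ₀` squares to `1` whenever `U_ℓ₀² = 1` on `K`. -/
def CoreStatement (M p : ℕ) : Prop :=
  ∀ (Pset : Set ℕ) (θ : ℕ → ℤ), (∀ ℓ ∈ Pset, ℓ.Prime ∧ ¬ ℓ ∣ M) →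
  ∀ (K : Submodule ℤ (Additive (Gamma0 M) →+ ℤ)), K ≤ parabolicHoms ℤ (Gamma0 M) ℤ →
  (∀ (ℓ : ℕ) [Fact ℓ.Prime] (hℓ : ¬ ℓ ∣ M), ∀ ψ ∈ K, heckeTHom M ℓ hℓ ψ ∈ K) →
  (∀ (ℓ : ℕ) [NeZero ℓ] (hℓ : ℓ ∣ M), ℓ.Prime → ∀ ψ ∈ K, heckeUHom M ℓ hℓ ψ ∈ K) →
  ∀ (y : Additive (Gamma0 M) →+ ℤ), y ∈ K → (∀ z ∈ K, y ≠ (p : ℤ) • z) →
  (∀ (ℓ : ℕ) [Fact ℓ.Prime] (hℓ : ¬ ℓ ∣ M), ℓ ∈ Pset →
      ∃ z ∈ K, heckeTHom M ℓ hℓ y - θ ℓ • y = (p : ℤ) • z) →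
  ∃ (g : CuspForm (Gamma0 M) 2) (𝔪' : Ideal (integralClosure ℤ ℂ)),
    g.IsNormalizedEigenform ∧ 𝔪'.IsMaximal ∧ (p : integralClosure ℤ ℂ) ∈ 𝔪' ∧
    (∀ ℓ ∈ Pset, ∃ a : integralClosure ℤ ℂ, (a : ℂ) = ModularFormClass.qCoeff g ℓ ∧
      a - (θ ℓ : integralClosure ℤ ℂ) ∈ 𝔪') ∧
    ∀ (ℓ₀ : ℕ) [NeZero ℓ₀] (h₀ : ℓ₀ ∣ M), ℓ₀.Prime →
      (∀ ψ ∈ K, heckeUHom M ℓ₀ h₀ (heckeUHom M ℓ₀ h₀ ψ) = ψ) →
      ModularFormClass.qCoeff g ℓ₀ ^ 2 = 1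

/-- The coset identities about the two transfers `Hom(Γ₀(Nq), ℤ) → Hom(Γ₀(N), ℤ)` used by
block [NEW]. -/
structure CohInputs (N q : ℕ)
    (t₁ t₂ : (Additive (Gamma0 (N * q)) →+ ℤ) → (Additive (Gamma0 N) →+ ℤ)) : Prop where
  t₁_add : ∀ ψ ψ', t₁ (ψ + ψ') = t₁ ψ + t₁ ψ'
  t₂_add : ∀ ψ ψ', t₂ (ψ + ψ') = t₂ ψ + t₂ ψ'
  t₁_heckeT : ∀ {ℓ : ℕ} [Fact ℓ.Prime] (hℓ : ¬ ℓ ∣ N) (hℓ' : ¬ ℓ ∣ N * q)
    (ψ : Additive (Gamma0 (N * q)) →+ ℤ),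
    t₁ (heckeTHom (N * q) ℓ hℓ' ψ) = heckeTHom N ℓ hℓ (t₁ ψ)
  t₂_heckeT : ∀ {ℓ : ℕ} [Fact ℓ.Prime] (hℓ : ¬ ℓ ∣ N) (hℓ' : ¬ ℓ ∣ N * q)
    (ψ : Additive (Gamma0 (N * q)) →+ ℤ),
    t₂ (heckeTHom (N * q) ℓ hℓ' ψ) = heckeTHom N ℓ hℓ (t₂ ψ)
  t₁_heckeU : ∀ {ℓ : ℕ} [NeZero ℓ] (_ : ℓ.Prime) (hℓ : ℓ ∣ N) (hℓ' : ℓ ∣ N * q)
    (ψ : Additive (Gamma0 (N * q)) →+ ℤ),
    t₁ (heckeUHom (N * q) ℓ hℓ' ψ) = heckeUHom N ℓ hℓ (t₁ ψ)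
  t₂_heckeU : ∀ {ℓ : ℕ} [NeZero ℓ] (_ : ℓ.Prime) (hℓ : ℓ ∣ N) (hℓ' : ℓ ∣ N * q)
    (ψ : Additive (Gamma0 (N * q)) →+ ℤ),
    t₂ (heckeUHom (N * q) ℓ hℓ' ψ) = heckeUHom N ℓ hℓ (t₂ ψ)
  heckeT_mem : ∀ {ℓ : ℕ} [Fact ℓ.Prime] (hℓ : ¬ ℓ ∣ N * q) {φ : Additive (Gamma0 (N * q)) →+ ℤ},
    φ ∈ parabolicHoms ℤ (Gamma0 (N * q)) ℤ →
    heckeTHom (N * q) ℓ hℓ φ ∈ parabolicHoms ℤ (Gamma0 (N * q)) ℤ
  heckeU_mem : ∀ {ℓ : ℕ} [NeZero ℓ] (hℓ : ℓ ∣ N * q) {φ : Additive (Gamma0 (N * q)) →+ ℤ},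
    φ ∈ parabolicHoms ℤ (Gamma0 (N * q)) ℤ →
    heckeUHom (N * q) ℓ hℓ φ ∈ parabolicHoms ℤ (Gamma0 (N * q)) ℤ
  heckeUq_stable : ∀ [NeZero q] (hq : q ∣ N * q) (ψ : Additive (Gamma0 (N * q)) →+ ℤ),
    t₁ ψ = 0 → t₂ ψ = 0 →
    t₁ (heckeUHom (N * q) q hq ψ) = 0 ∧ t₂ (heckeUHom (N * q) q hq ψ) = 0
  heckeUq_sq : ∀ [NeZero q] (hq : q ∣ N * q) (ψ : Additive (Gamma0 (N * q)) →+ ℤ),
    t₁ ψ = 0 → t₂ ψ = 0 →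
    heckeUHom (N * q) q hq (heckeUHom (N * q) q hq ψ) = ψ

section Additive

variable {G H : Type*} [AddCommGroup G] [AddCommGroup H]

/-- An additive map, bundled. -/
def addHomOf (t : G → H) (ht : ∀ a b, t (a + b) = t a + t b) : G →+ H :=
  AddMonoidHom.mk' t ht

theorem addHomOf_apply (t : G → H) (ht : ∀ a b, t (a + b) = t a + t b) (a : G) :
    addHomOf t ht a = t a := rfl

theorem map_zero_of_add (t : G → H) (ht : ∀ a b, t (a + b) = t a + t b) : t 0 = 0 :=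
  (addHomOf t ht).map_zero

theorem map_sub_of_add (t : G → H) (ht : ∀ a b, t (a + b) = t a + t b) (a b : G) :
    t (a - b) = t a - t b :=
  (addHomOf t ht).map_sub a b

theorem map_zsmul_of_add (t : G → H) (ht : ∀ a b, t (a + b) = t a + t b) (n : ℤ) (a : G) :
    t (n • a) = n • t a :=
  map_zsmul (addHomOf t ht) n a

end Additive

/-- The sublattice `K = Hom_par ∩ ker t₁ ∩ ker t₂`. -/
def kerLattice (N q : ℕ)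
    (t₁ t₂ : (Additive (Gamma0 (N * q)) →+ ℤ) → (Additive (Gamma0 N) →+ ℤ))
    (h₁ : ∀ ψ ψ', t₁ (ψ + ψ') = t₁ ψ + t₁ ψ') (h₂ : ∀ ψ ψ', t₂ (ψ + ψ') = t₂ ψ + t₂ ψ') :
    Submodule ℤ (Additive (Gamma0 (N * q)) →+ ℤ) where
  carrier := {ψ | ψ ∈ parabolicHoms ℤ (Gamma0 (N * q)) ℤ ∧ t₁ ψ = 0 ∧ t₂ ψ = 0}
  zero_mem' := ⟨Submodule.zero_mem _, map_zero_of_add t₁ h₁, map_zero_of_add t₂ h₂⟩
  add_mem' := by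
    rintro a b ⟨ha, ha₁, ha₂⟩ ⟨hb, hb₁, hb₂⟩
    exact ⟨Submodule.add_mem _ ha hb, by rw [h₁, ha₁, hb₁, add_zero], by rw [h₂, ha₂, hb₂, add_zero]⟩
  smul_mem' := by
    rintro c a ⟨ha, ha₁, ha₂⟩
    exact ⟨Submodule.smul_mem _ c ha, by rw [map_zsmul_of_add t₁ h₁, ha₁, smul_zero],
      by rw [map_zsmul_of_add t₂ h₂, ha₂, smul_zero]⟩

theorem mem_kerLattice {N q : ℕ}
    {t₁ t₂ : (Additive (Gamma0 (N * q)) →+ ℤ) → (Additive (Gamma0 N) →+ ℤ)}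
    {h₁ : ∀ ψ ψ', t₁ (ψ + ψ') = t₁ ψ + t₁ ψ'} {h₂ : ∀ ψ ψ', t₂ (ψ + ψ') = t₂ ψ + t₂ ψ'}
    {ψ : Additive (Gamma0 (N * q)) →+ ℤ} :
    ψ ∈ kerLattice N q t₁ t₂ h₁ h₂ ↔
      ψ ∈ parabolicHoms ℤ (Gamma0 (N * q)) ℤ ∧ t₁ ψ = 0 ∧ t₂ ψ = 0 := Iff.rfl

theorem heckeTHom_zero' (N ℓ : ℕ) [Fact ℓ.Prime] (hℓ : ¬ ℓ ∣ N) :
    heckeTHom N ℓ hℓ (0 : Additive (Gamma0 N) →+ ℤ) = 0 :=
  Fermat.Agent.S16.CosetData.op_zero _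

theorem heckeUHom_zero' (N ℓ : ℕ) [NeZero ℓ] (hℓ : ℓ ∣ N) :
    heckeUHom N ℓ hℓ (0 : Additive (Gamma0 N) →+ ℤ) = 0 :=
  Fermat.Agent.S16.CosetData.op_zero _

/-- Torsion-freeness of `Hom(Γ, ℤ)`. -/
theorem eq_zero_of_zsmul_eq_zero {Γ : Type*} [AddZeroClass Γ] {n : ℤ} (hn : n ≠ 0)
    {φ : Γ →+ ℤ} (h : n • φ = 0) : φ = 0 := by
  ext γ
  have h1 : n • φ γ = 0 := by
    have := DFunLike.congr_fun h γ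
    simpa using this
  rcases smul_eq_zero.mp h1 with h2 | h2
  · exact absurd h2 hn
  · simpa using h2

/-- **Abstract assembly of block [NEW].** -/
theorem assembly (N q : ℕ) [NeZero N] [Fact q.Prime] {p : ℕ} (hp : p.Prime)
    (t₁ t₂ : (Additive (Gamma0 (N * q)) →+ ℤ) → (Additive (Gamma0 N) →+ ℤ))
    (hcoh : CohInputs N q t₁ t₂) (hcore : CoreStatement (N * q) p)
    (Pset : Set ℕ) (θ : ℕ → ℤ) (hP : ∀ ℓ ∈ Pset, ℓ.Prime ∧ ¬ ℓ ∣ N * q)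
    (y : parabolicHoms ℤ (Gamma0 (N * q)) ℤ) (hy₁ : t₁ y.1 = 0) (hy₂ : t₂ y.1 = 0)
    (hy : ¬ ∃ z : parabolicHoms ℤ (Gamma0 (N * q)) ℤ, y = (p : ℤ) • z)
    (hyθ : ∀ (ℓ : ℕ) [Fact ℓ.Prime] (hℓ : ¬ ℓ ∣ N * q), ℓ ∈ Pset →
      ∃ z : parabolicHoms ℤ (Gamma0 (N * q)) ℤ,
        heckeTHom (N * q) ℓ hℓ y.1 - θ ℓ • y.1 = (p : ℤ) • z.1) :
    ∃ (g : CuspForm (Gamma0 (N * q)) 2) (𝔪' : Ideal (integralClosure ℤ ℂ)),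
      g.IsNormalizedEigenform ∧ 𝔪'.IsMaximal ∧ (p : integralClosure ℤ ℂ) ∈ 𝔪' ∧
      (∀ ℓ ∈ Pset, ∃ a : integralClosure ℤ ℂ, (a : ℂ) = ModularFormClass.qCoeff g ℓ ∧
        a - (θ ℓ : integralClosure ℤ ℂ) ∈ 𝔪') ∧
      ModularFormClass.qCoeff g q ^ 2 = 1 := by
  have hq : q.Prime := Fact.out
  have hp0 : (p : ℤ) ≠ 0 := by exact_mod_cast hp.ne_zero
  set K := kerLattice N q t₁ t₂ hcoh.t₁_add hcoh.t₂_add with hKdef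
  have hKle : K ≤ parabolicHoms ℤ (Gamma0 (N * q)) ℤ := fun ψ hψ => hψ.1
  -- stability under `T_ℓ`
  have hT : ∀ (ℓ : ℕ) [Fact ℓ.Prime] (hℓ : ¬ ℓ ∣ N * q), ∀ ψ ∈ K,
      heckeTHom (N * q) ℓ hℓ ψ ∈ K := by
    intro ℓ _ hℓ ψ hψ
    have hℓN : ¬ ℓ ∣ N := fun h => hℓ (Dvd.dvd.mul_right h q)
    refine ⟨hcoh.heckeT_mem hℓ hψ.1, ?_, ?_⟩
    · rw [hcoh.t₁_heckeT hℓN hℓ, hψ.2.1, heckeTHom_zero']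
    · rw [hcoh.t₂_heckeT hℓN hℓ, hψ.2.2, heckeTHom_zero']
  -- stability under `U_ℓ`
  have hU : ∀ (ℓ : ℕ) [NeZero ℓ] (hℓ : ℓ ∣ N * q), ℓ.Prime → ∀ ψ ∈ K,
      heckeUHom (N * q) ℓ hℓ ψ ∈ K := by
    intro ℓ _ hℓ hℓp ψ hψ
    refine ⟨hcoh.heckeU_mem hℓ hψ.1, ?_⟩
    rcases (Nat.Prime.dvd_mul hℓp).mp hℓ with hN | hqq
    · constructor
      · rw [hcoh.t₁_heckeU hℓp hN hℓ, hψ.2.1, heckeUHom_zero']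
      · rw [hcoh.t₂_heckeU hℓp hN hℓ, hψ.2.2, heckeUHom_zero']
    · have hℓq : ℓ = q := (Nat.prime_dvd_prime_iff_eq hℓp hq).mp hqq
      subst hℓq
      exact hcoh.heckeUq_stable hℓ ψ hψ.2.1 hψ.2.2
  -- the class `y`
  have hyK : y.1 ∈ K := ⟨y.2, hy₁, hy₂⟩
  have hyprim : ∀ z ∈ K, y.1 ≠ (p : ℤ) • z := by
    intro z hz hyz
    exact hy ⟨⟨z, hz.1⟩, Subtype.ext hyz⟩
  have hyθ' : ∀ (ℓ : ℕ) [Fact ℓ.Prime] (hℓ : ¬ ℓ ∣ N * q), ℓ ∈ Pset →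
      ∃ z ∈ K, heckeTHom (N * q) ℓ hℓ y.1 - θ ℓ • y.1 = (p : ℤ) • z := by
    intro ℓ _ hℓ hℓP
    obtain ⟨z, hz⟩ := hyθ ℓ hℓ hℓP
    have hmem : heckeTHom (N * q) ℓ hℓ y.1 - θ ℓ • y.1 ∈ K :=
      K.sub_mem (hT ℓ hℓ y.1 hyK) (K.smul_mem _ hyK)
    rw [hz] at hmem
    refine ⟨z.1, ⟨z.2, ?_, ?_⟩, hz⟩
    · apply eq_zero_of_zsmul_eq_zero hp0
      rw [← map_zsmul_of_add t₁ hcoh.t₁_add]
      exact hmem.2.1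
    · apply eq_zero_of_zsmul_eq_zero hp0
      rw [← map_zsmul_of_add t₂ hcoh.t₂_add]
      exact hmem.2.2
  obtain ⟨g, 𝔪', hg, hmax, hpm, hcong, hnew⟩ :=
    hcore Pset θ hP K hKle hT hU y.1 hyK hyprim hyθ'
  have : NeZero q := ⟨hq.ne_zero⟩
  refine ⟨g, 𝔪', hg, hmax, hpm, hcong, ?_⟩
  exact hnew q (Dvd.intro_left N rfl) hq
    (fun ψ hψ => hcoh.heckeUq_sq (Dvd.intro_left N rfl) ψ hψ.2.1 hψ.2.2)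

end Fermat.Agent.S41.NewAsm
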