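/-
S41, block [COH]: transfer data from a transitive right action.  Owner: helper4.

Given an injective `f : H →* G`, a right action `act` of `G` on a finite set `ι`, a base point
`i₀` whose stabiliser is the range of `f`, and elements `r i` with `i₀ · r i = i`, we build the
coset data `actData` (in the sense of `CosetLib.TransferData`) with `perm = act`, its defining
equation, covering / disjointness of the cosets `f(H) r i`, and the identification of its
operator with the canonical transfer `transferAlong f`.
-/
import Mathlib
import Fermat.Agent.S41.Transfer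
import Fermat.Agent.S41.CosetLib

set_option autoImplicit false

noncomputable section

namespace Fermat.Agent.S41

section ActData

variable {G H : Type*} [Group G] [Group H] (f : H →* G) {ι : Type*}
  (act : G → Equiv.Perm ι) (i₀ : ι) (r : ι → G)

/-- Hypotheses: `act` is a right action, the stabiliser of `i₀` is the range of `f`, and
`i₀ · r i = i`. -/
structure IsActReps : Prop where
  inj : Function.Injective f
  act_mul : ∀ γ δ i, act (γ * δ) i = act δ (act γ i)
  fix : ∀ h : H, act (f h) i₀ = i₀
  stab : ∀ g : G, act g i₀ = i₀ → ∃ h : H, g = f h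
  rep : ∀ i, act (r i) i₀ = i

variable {f act i₀ r}

namespace IsActReps

variable (hA : IsActReps f act i₀ r)
include hA

theorem act_one (i : ι) : act 1 i = i := by
  have h := hA.act_mul 1 1 i
  rw [mul_one] at h
  exact ((act 1).injective h).symm

theorem act_inv_act (γ : G) (i : ι) : act γ⁻¹ (act γ i) = i := by
  rw [← hA.act_mul, mul_inv_cancel, hA.act_one]

theorem exists_part (γ : G) (i : ι) : ∃ h : H, r i * γ * (r (act γ i))⁻¹ = f h := by
  obtain ⟨h, hh⟩ := hA.stab (r i * γ * (r (act γ i))⁻¹) (by
    rw [hA.act_mul, hA.act_mul, hA.rep]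
    have := hA.act_inv_act (r (act γ i)) i₀
    rw [hA.rep] at this
    exact this)
  exact ⟨h, hh⟩

/-- The `H`-part of `r i * γ`. -/
def part (γ : G) (i : ι) : H := (hA.exists_part γ i).choose

theorem part_spec' (γ : G) (i : ι) : r i * γ * (r (act γ i))⁻¹ = f (hA.part γ i) :=
  (hA.exists_part γ i).choose_spec

theorem part_spec (γ : G) (i : ι) : r i * γ = f (hA.part γ i) * r (act γ i) := by
  rw [← hA.part_spec' γ i, inv_mul_cancel_right]

/-- The coset data attached to the action and the representatives. -/
def data : CosetLib.TransferData H G ι where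
  perm := act
  part := hA.part
  perm_mul := hA.act_mul
  part_mul γ δ i := by
    apply hA.inj
    rw [map_mul, ← hA.part_spec', ← hA.part_spec', ← hA.part_spec', hA.act_mul]
    group

theorem data_perm (γ : G) : hA.data.perm γ = act γ := rfl

/-- The defining equation of the coset data. -/
theorem data_spec (γ : G) (i : ι) :
    r i * γ = f (hA.data.part γ i) * r (hA.data.perm γ i) := hA.part_spec γ i

/-- Every element lies in one of the cosets `f(H) r i`. -/
theorem cov (g : G) : ∃ i, ∃ h : H, g = f h * r i := by
  refine ⟨act g i₀, ?_⟩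
  obtain ⟨h, hh⟩ := hA.stab (g * (r (act g i₀))⁻¹) (by
    rw [hA.act_mul]
    have := hA.act_inv_act (r (act g i₀)) i₀
    rw [hA.rep] at this
    exact this)
  exact ⟨h, by rw [← hh, inv_mul_cancel_right]⟩

/-- The cosets `f(H) r i` are pairwise distinct. -/
theorem dis (i j : ι) (h : ∃ h : H, r i = f h * r j) : i = j := by
  obtain ⟨h, hh⟩ := h
  have h1 := hA.rep i
  rw [hh, hA.act_mul, hA.fix, hA.rep] at h1
  exact h1.symm

theorem dis' (h : H) (i j : ι) (hh : f h * r i = r j) : i = j :=
  (hA.dis j i ⟨h, hh.symm⟩).symm

variable {A : Type*} [AddCommGroup A] [Fintype ι]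

/-- The operator of the coset data is the canonical transfer. -/
theorem transferAlong_eq (ψ : Additive H →+ A) : transferAlong f ψ = hA.data.tr ψ := by
  refine AddMonoidHom.ext fun γ => ?_
  obtain ⟨γ, rfl⟩ := Additive.ofMul.surjective γ
  rw [CosetLib.TransferData.tr_apply]
  exact transferAlong_apply_of_reps f hA.inj r hA.cov hA.dis γ (act γ) (hA.part γ)
    (hA.part_spec γ) ψ

/-- `transfer ∘ restriction = index`. -/
theorem transferAlong_comp_self (φ : Additive G →+ A) :
    transferAlong f (φ.comp (MonoidHom.toAdditive f)) = Fintype.card ι • φ :=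
  Fermat.Agent.S41.transferAlong_comp_self f hA.inj r hA.cov hA.dis φ

end IsActReps

end ActData

end Fermat.Agent.S41
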