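/-
S41, block [COH]: concrete coset data for the two transfers `tr₁`, `tr₂`.  Owner: helper4.

For `q` prime, `q ∤ N`, the group `Γ₀(N)` acts on the right on `ℙ¹(𝔽_q) = OnePoint (ZMod q)` by
`x ↦ redMatrix q γ • x` (the permutation of `S16.tData`).  The stabiliser of `∞` is the range of
`incl₁`, the stabiliser of `0` is the range of `incl₂`.  Hence both transfers are computed by
coset data indexed by `OnePoint (ZMod q)` whose permutation is LITERALLY that of `S16.tData`: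

* `rep₁`, `rep₂ : OnePoint (ZMod q) → Γ₀(N)` with `∞ · rep₁ x = x`, `0 · rep₂ x = x`;
* `trData₁`, `trData₂ : CosetLib.TransferData (Gamma0 (N*q)) (Gamma0 N) (OnePoint (ZMod q))`,
  `trData_i_spec : rep_i x * γ = incl_i (part γ x) * rep_i (perm γ x)`;
* `rep_i_cov`, `rep_i_dis`; `tr_i_eq : tr_i N q ψ = (trData_i N q hqN).tr ψ`;
* (C1) `tr₁_res₁`, `tr₂_res₂ : tr_i (res_i φ) = (q + 1) • φ`;
* range characterisations `exists_incl₁_iff`, `exists_incl₂_iff`.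
-/
import Mathlib
import Fermat.Agent.S41.Defs
import Fermat.Agent.S41.TrGen

set_option autoImplicit false

noncomputable section

open CongruenceSubgroup Matrix.SpecialLinearGroup OnePoint
open scoped MatrixGroups
open P2MW.S_ModularForm_heckeT_slash_eq_self_of_mem_Gamma0.ModularForm.HeckeSlashInvariance

namespace Fermat.Agent.S41

section TrReps

variable (N q : ℕ) [Fact q.Prime]

/-- The right action of `Γ₀(N)` on `ℙ¹(𝔽_q)` (the permutation of `S16.tData`). -/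
def p1Act (γ : Gamma0 N) : Equiv.Perm (OnePoint (ZMod q)) :=
  MulAction.toPerm (redMatrix q (γ : SL(2, ℤ)))

theorem p1Act_apply (γ : Gamma0 N) (x : OnePoint (ZMod q)) :
    p1Act N q γ x = redMatrix q (γ : SL(2, ℤ)) • x := rfl

theorem p1Act_mul (γ δ : Gamma0 N) (x : OnePoint (ZMod q)) :
    p1Act N q (γ * δ) x = p1Act N q δ (p1Act N q γ x) := by
  show redMatrix q ((γ * δ : Gamma0 N) : SL(2, ℤ)) • x =
    redMatrix q (δ : SL(2, ℤ)) • redMatrix q (γ : SL(2, ℤ)) • x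
  rw [Subgroup.coe_mul, Fermat.Agent.S16.redMatrix_mul, mul_smul]

theorem p1Act_eq_tData_perm (hqN : ¬ q ∣ N) (γ : Gamma0 N) :
    p1Act N q γ = (Fermat.Agent.S16.tData N q hqN).perm γ := rfl

theorem p1Act_infty (γ : Gamma0 N) :
    p1Act N q γ ∞ = if ((((γ : SL(2, ℤ)) 1 0 : ℤ)) : ZMod q) = 0 then ∞ else
      (((((γ : SL(2, ℤ)) 1 1 : ℤ) : ZMod q) / (((γ : SL(2, ℤ)) 1 0 : ℤ) : ZMod q) : ZMod q) :
        OnePoint (ZMod q)) := by
  rw [p1Act_apply, OnePoint.smul_infty_eq_ite, redMatrix_apply_one_zero,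
    redMatrix_apply_zero_zero]

theorem p1Act_zero (γ : Gamma0 N) :
    p1Act N q γ ((0 : ZMod q) : OnePoint (ZMod q)) =
      if ((((γ : SL(2, ℤ)) 0 0 : ℤ)) : ZMod q) = 0 then ∞ else
      (((((γ : SL(2, ℤ)) 0 1 : ℤ) : ZMod q) / (((γ : SL(2, ℤ)) 0 0 : ℤ) : ZMod q) : ZMod q) :
        OnePoint (ZMod q)) := by
  rw [p1Act_apply, OnePoint.smul_some_eq_ite, redMatrix_apply_one_zero,
    redMatrix_apply_one_one, redMatrix_apply_zero_zero, redMatrix_apply_zero_one]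
  simp only [mul_zero, zero_add]

variable {N q}

theorem intCast_q_eq_zero_iff (z : ℤ) : ((z : ℤ) : ZMod q) = 0 ↔ (q : ℤ) ∣ z :=
  ZMod.intCast_zmod_eq_zero_iff_dvd z q

theorem natCast_N_ne_zero (hqN : ¬ q ∣ N) : ((N : ℕ) : ZMod q) ≠ 0 := by
  rw [Ne, ZMod.natCast_eq_zero_iff]
  exact hqN

theorem isCoprime_q_N (hqN : ¬ q ∣ N) : IsCoprime (q : ℤ) (N : ℤ) :=
  Nat.isCoprime_iff_coprime.mpr ((Nat.Prime.coprime_iff_not_dvd Fact.out).mpr hqN)

/-- The range of `incl₁` inside `Γ₀(N)`. -/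
theorem exists_incl₁_iff (hqN : ¬ q ∣ N) (γ : Gamma0 N) :
    (∃ h : Gamma0 (N * q), γ = incl₁ N q h) ↔ (q : ℤ) ∣ (γ : SL(2, ℤ)) 1 0 := by
  constructor
  · rintro ⟨h, rfl⟩
    rw [incl₁_coe]
    exact (Dvd.intro_left (N : ℤ) (by push_cast; rfl)).trans (dvd_lower_left h)
  · intro hq
    have hN : (N : ℤ) ∣ (γ : SL(2, ℤ)) 1 0 := Fermat.Agent.S16.mem_Gamma0_iff_dvd.mp γ.2
    have hNq : ((N * q : ℕ) : ℤ) ∣ (γ : SL(2, ℤ)) 1 0 := by
      push_cast
      exact (isCoprime_q_N hqN).symm.mul_dvd hN hq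
    exact ⟨⟨(γ : SL(2, ℤ)), Fermat.Agent.S16.mem_Gamma0_iff_dvd.mpr hNq⟩, Subtype.ext rfl⟩

/-- The range of `incl₂` inside `Γ₀(N)`. -/
theorem exists_incl₂_iff (γ : Gamma0 N) :
    (∃ h : Gamma0 (N * q), γ = incl₂ N q h) ↔ (q : ℤ) ∣ (γ : SL(2, ℤ)) 0 1 := by
  have hq0 : (q : ℤ) ≠ 0 := by exact_mod_cast (Fact.out : q.Prime).ne_zero
  constructor
  · rintro ⟨h, rfl⟩
    rw [incl₂_coe, conjMat_apply_zero_one]
    exact Dvd.intro _ rfl
  · rintro ⟨b', hb'⟩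
    have hN : (N : ℤ) ∣ (γ : SL(2, ℤ)) 1 0 := Fermat.Agent.S16.mem_Gamma0_iff_dvd.mp γ.2
    have hdet := Matrix.SpecialLinearGroup.det_coe (γ : SL(2, ℤ))
    rw [Matrix.det_fin_two] at hdet
    let g : SL(2, ℤ) := ⟨!![(γ : SL(2, ℤ)) 0 0, b'; (q : ℤ) * (γ : SL(2, ℤ)) 1 0,
      (γ : SL(2, ℤ)) 1 1], by
        rw [Matrix.det_fin_two_of]
        rw [hb'] at hdet
        linear_combination hdet⟩
    have hg : g ∈ Gamma0 (N * q) := by
      rw [Fermat.Agent.S16.mem_Gamma0_iff_dvd]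
      show ((N * q : ℕ) : ℤ) ∣ (q : ℤ) * (γ : SL(2, ℤ)) 1 0
      push_cast
      rw [mul_comm (N : ℤ) (q : ℤ)]
      exact mul_dvd_mul_left _ hN
    refine ⟨⟨g, hg⟩, ?_⟩
    apply Subtype.ext
    rw [incl₂_coe]
    ext i j
    fin_cases i <;> fin_cases j
    · rfl
    · show (γ : SL(2, ℤ)) 0 1 = (q : ℤ) * b'
      exact hb'
    · show (γ : SL(2, ℤ)) 1 0 = (q : ℤ) * (γ : SL(2, ℤ)) 1 0 / (q : ℤ)
      rw [Int.mul_ediv_cancel_left _ hq0]
    · rfl

/-! ### Representatives -/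

/-- The matrix `[[1, t],[N, N t + 1]]`. -/
def rep₁Mat (N : ℕ) (t : ℤ) : SL(2, ℤ) :=
  ⟨!![1, t; (N : ℤ), (N : ℤ) * t + 1], by rw [Matrix.det_fin_two_of]; ring⟩

theorem rep₁Mat_mem (N : ℕ) (t : ℤ) : rep₁Mat N t ∈ Gamma0 N := by
  rw [Fermat.Agent.S16.mem_Gamma0_iff_dvd]
  exact dvd_refl _

/-- The matrix `[[1, t],[0, 1]]`. -/
def rep₂Mat (t : ℤ) : SL(2, ℤ) :=
  ⟨!![1, t; 0, 1], by rw [Matrix.det_fin_two_of]; ring⟩

theorem rep₂Mat_mem (N : ℕ) (t : ℤ) : rep₂Mat t ∈ Gamma0 N := by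
  rw [Fermat.Agent.S16.mem_Gamma0_iff_dvd]
  exact dvd_zero _

/-- A matrix `[[q, -b],[N, a]]` of determinant one (`a q + b N = 1`). -/
def rep₂InftyMat (hqN : ¬ q ∣ N) : SL(2, ℤ) :=
  ⟨!![(q : ℤ), -(isCoprime_q_N hqN).choose_spec.choose; (N : ℤ), (isCoprime_q_N hqN).choose], by
    rw [Matrix.det_fin_two_of]
    have h := (isCoprime_q_N hqN).choose_spec.choose_spec
    linear_combination h⟩

theorem rep₂InftyMat_mem (hqN : ¬ q ∣ N) : rep₂InftyMat hqN ∈ Gamma0 N := by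
  rw [Fermat.Agent.S16.mem_Gamma0_iff_dvd]
  exact dvd_refl _

variable (N q)

/-- Representatives of `Γ₀(Nq) \ Γ₀(N)`: `∞ · rep₁ x = x`. -/
def rep₁ (x : OnePoint (ZMod q)) : Gamma0 N :=
  x.elim 1 (fun j => ⟨rep₁Mat N ((j - ((N : ℕ) : ZMod q)⁻¹).val : ℤ), rep₁Mat_mem N _⟩)

/-- Representatives of `incl₂(Γ₀(Nq)) \ Γ₀(N)`: `0 · rep₂ x = x`. -/
def rep₂ (hqN : ¬ q ∣ N) (x : OnePoint (ZMod q)) : Gamma0 N :=
  x.elim ⟨rep₂InftyMat hqN, rep₂InftyMat_mem hqN⟩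
    (fun j => ⟨rep₂Mat (j.val : ℤ), rep₂Mat_mem N _⟩)

theorem p1Act_rep₁ (hqN : ¬ q ∣ N) (x : OnePoint (ZMod q)) : p1Act N q (rep₁ N q x) ∞ = x := by
  induction x using OnePoint.rec with
  | infty =>
    rw [p1Act_infty]
    have : (((rep₁ N q (∞ : OnePoint (ZMod q)) : Gamma0 N) : SL(2, ℤ)) 1 0 : ℤ) = 0 := by
      show ((1 : Gamma0 N) : SL(2, ℤ)) 1 0 = 0
      simp
    rw [this, Int.cast_zero, if_pos rfl]
  | coe j =>
    rw [p1Act_infty]
    have h10 : ((rep₁ N q (j : OnePoint (ZMod q)) : Gamma0 N) : SL(2, ℤ)) 1 0 = (N : ℤ) := rfl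
    have h11 : ((rep₁ N q (j : OnePoint (ZMod q)) : Gamma0 N) : SL(2, ℤ)) 1 1 =
        (N : ℤ) * ((j - ((N : ℕ) : ZMod q)⁻¹).val : ℤ) + 1 := rfl
    have hN := natCast_N_ne_zero hqN
    rw [h10, h11]
    push_cast
    rw [if_neg hN, ZMod.natCast_zmod_val]
    congr 1
    field_simp
    ring

theorem p1Act_rep₂ (hqN : ¬ q ∣ N) (x : OnePoint (ZMod q)) :
    p1Act N q (rep₂ N q hqN x) ((0 : ZMod q) : OnePoint (ZMod q)) = x := by
  induction x using OnePoint.rec with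
  | infty =>
    rw [p1Act_zero]
    have h00 : ((rep₂ N q hqN (∞ : OnePoint (ZMod q)) : Gamma0 N) : SL(2, ℤ)) 0 0 = (q : ℤ) := rfl
    rw [h00]
    push_cast
    rw [ZMod.natCast_self, if_pos rfl]
  | coe j =>
    rw [p1Act_zero]
    have h00 : ((rep₂ N q hqN (j : OnePoint (ZMod q)) : Gamma0 N) : SL(2, ℤ)) 0 0 = 1 := rfl
    have h01 : ((rep₂ N q hqN (j : OnePoint (ZMod q)) : Gamma0 N) : SL(2, ℤ)) 0 1 =
        (j.val : ℤ) := rfl
    rw [h00, h01]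
    push_cast
    rw [if_neg one_ne_zero, ZMod.natCast_zmod_val, div_one]

/-! ### The two coset data -/

theorem isActReps₁ (hqN : ¬ q ∣ N) :
    IsActReps (incl₁ N q) (p1Act N q) (∞ : OnePoint (ZMod q)) (rep₁ N q) where
  inj := incl₁_injective N q
  act_mul := p1Act_mul N q
  fix h := by
    rw [p1Act_infty, if_pos]
    rw [intCast_q_eq_zero_iff, incl₁_coe]
    exact (Dvd.intro_left (N : ℤ) (by push_cast; rfl)).trans (dvd_lower_left h)
  stab g hg := by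
    rw [exists_incl₁_iff hqN, ← intCast_q_eq_zero_iff]
    by_contra hne
    rw [p1Act_infty, if_neg hne] at hg
    exact OnePoint.coe_ne_infty _ hg
  rep := p1Act_rep₁ N q hqN

theorem isActReps₂ (hqN : ¬ q ∣ N) :
    IsActReps (incl₂ N q) (p1Act N q) ((0 : ZMod q) : OnePoint (ZMod q)) (rep₂ N q hqN) where
  inj := incl₂_injective N q (Fact.out : q.Prime).ne_zero
  act_mul := p1Act_mul N q
  fix h := by
    have hdet := Matrix.SpecialLinearGroup.det_coe (h : SL(2, ℤ))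
    rw [Matrix.det_fin_two] at hdet
    have hq10 : ((((h : SL(2, ℤ)) 1 0 : ℤ)) : ZMod q) = 0 := by
      rw [intCast_q_eq_zero_iff]
      exact (Dvd.intro_left (N : ℤ) (by push_cast; rfl)).trans (dvd_lower_left h)
    have hc := congrArg (Int.cast : ℤ → ZMod q) hdet
    push_cast at hc
    rw [hq10, mul_zero, sub_zero] at hc
    have h00 : ((((h : SL(2, ℤ)) 0 0 : ℤ)) : ZMod q) ≠ 0 := by
      intro h0
      rw [h0, zero_mul] at hc
      exact zero_ne_one hc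
    rw [p1Act_zero, incl₂_coe, conjMat_apply_zero_zero, conjMat_apply_zero_one, if_neg h00]
    push_cast
    rw [ZMod.natCast_self, zero_mul, zero_div]
  stab g hg := by
    rw [exists_incl₂_iff, ← intCast_q_eq_zero_iff]
    rw [p1Act_zero] at hg
    by_cases h00 : ((((g : SL(2, ℤ)) 0 0 : ℤ)) : ZMod q) = 0
    · rw [if_pos h00] at hg
      exact absurd hg.symm (OnePoint.coe_ne_infty _)
    · rw [if_neg h00] at hg
      have h1 := OnePoint.coe_injective hg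
      rcases div_eq_zero_iff.mp h1 with h2 | h2
      · exact h2
      · exact absurd h2 h00
  rep := p1Act_rep₂ N q hqN

/-- Coset data of `tr₁` (permutation = that of `S16.tData`). -/
def trData₁ (hqN : ¬ q ∣ N) :
    CosetLib.TransferData (Gamma0 (N * q)) (Gamma0 N) (OnePoint (ZMod q)) :=
  (isActReps₁ N q hqN).data

/-- Coset data of `tr₂` (permutation = that of `S16.tData`). -/
def trData₂ (hqN : ¬ q ∣ N) :
    CosetLib.TransferData (Gamma0 (N * q)) (Gamma0 N) (OnePoint (ZMod q)) :=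
  (isActReps₂ N q hqN).data

variable {N q}

theorem trData₁_perm (hqN : ¬ q ∣ N) (γ : Gamma0 N) (x : OnePoint (ZMod q)) :
    (trData₁ N q hqN).perm γ x = redMatrix q (γ : SL(2, ℤ)) • x := rfl

theorem trData₂_perm (hqN : ¬ q ∣ N) (γ : Gamma0 N) (x : OnePoint (ZMod q)) :
    (trData₂ N q hqN).perm γ x = redMatrix q (γ : SL(2, ℤ)) • x := rfl

theorem trData₁_perm_eq_tData (hqN : ¬ q ∣ N) (γ : Gamma0 N) :
    (trData₁ N q hqN).perm γ = (Fermat.Agent.S16.tData N q hqN).perm γ := rfl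

theorem trData₂_perm_eq_tData (hqN : ¬ q ∣ N) (γ : Gamma0 N) :
    (trData₂ N q hqN).perm γ = (Fermat.Agent.S16.tData N q hqN).perm γ := rfl

/-- The defining equation of `trData₁`. -/
theorem trData₁_spec (hqN : ¬ q ∣ N) (γ : Gamma0 N) (x : OnePoint (ZMod q)) :
    rep₁ N q x * γ =
      incl₁ N q ((trData₁ N q hqN).part γ x) * rep₁ N q ((trData₁ N q hqN).perm γ x) :=
  (isActReps₁ N q hqN).data_spec γ x

/-- The defining equation of `trData₂`. -/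
theorem trData₂_spec (hqN : ¬ q ∣ N) (γ : Gamma0 N) (x : OnePoint (ZMod q)) :
    rep₂ N q hqN x * γ =
      incl₂ N q ((trData₂ N q hqN).part γ x) * rep₂ N q hqN ((trData₂ N q hqN).perm γ x) :=
  (isActReps₂ N q hqN).data_spec γ x

theorem rep₁_cov (hqN : ¬ q ∣ N) (g : Gamma0 N) :
    ∃ x, ∃ h : Gamma0 (N * q), g = incl₁ N q h * rep₁ N q x := (isActReps₁ N q hqN).cov g

theorem rep₂_cov (hqN : ¬ q ∣ N) (g : Gamma0 N) :
    ∃ x, ∃ h : Gamma0 (N * q), g = incl₂ N q h * rep₂ N q hqN x := (isActReps₂ N q hqN).cov g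

theorem rep₁_dis (hqN : ¬ q ∣ N) (x y : OnePoint (ZMod q))
    (h : ∃ h : Gamma0 (N * q), rep₁ N q x = incl₁ N q h * rep₁ N q y) : x = y :=
  (isActReps₁ N q hqN).dis x y h

theorem rep₂_dis (hqN : ¬ q ∣ N) (x y : OnePoint (ZMod q))
    (h : ∃ h : Gamma0 (N * q), rep₂ N q hqN x = incl₂ N q h * rep₂ N q hqN y) : x = y :=
  (isActReps₂ N q hqN).dis x y h

theorem card_onePoint_zmod : Fintype.card (OnePoint (ZMod q)) = q + 1 := by
  have h : Fintype.card (Option (ZMod q)) = q + 1 := by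
    rw [Fintype.card_option, ZMod.card]
  exact h

variable {A : Type*} [AddCommGroup A]

/-- `tr₁` is the operator of `trData₁`. -/
theorem tr₁_eq (hqN : ¬ q ∣ N) (ψ : Additive (Gamma0 (N * q)) →+ A) :
    tr₁ N q ψ = (trData₁ N q hqN).tr ψ :=
  (isActReps₁ N q hqN).transferAlong_eq ψ

/-- `tr₂` is the operator of `trData₂`. -/
theorem tr₂_eq (hqN : ¬ q ∣ N) (ψ : Additive (Gamma0 (N * q)) →+ A) :
    tr₂ N q ψ = (trData₂ N q hqN).tr ψ :=
  (isActReps₂ N q hqN).transferAlong_eq ψ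

theorem tr₁_apply (hqN : ¬ q ∣ N) (ψ : Additive (Gamma0 (N * q)) →+ A) (γ : Gamma0 N) :
    tr₁ N q ψ (Additive.ofMul γ) =
      ∑ x : OnePoint (ZMod q), ψ (Additive.ofMul ((trData₁ N q hqN).part γ x)) := by
  rw [tr₁_eq hqN]
  rfl

theorem tr₂_apply (hqN : ¬ q ∣ N) (ψ : Additive (Gamma0 (N * q)) →+ A) (γ : Gamma0 N) :
    tr₂ N q ψ (Additive.ofMul γ) =
      ∑ x : OnePoint (ZMod q), ψ (Additive.ofMul ((trData₂ N q hqN).part γ x)) := by
  rw [tr₂_eq hqN]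
  rfl

/-- (C1) transfer ∘ restriction = index, for `ι₁`. -/
theorem tr₁_res₁ (hqN : ¬ q ∣ N) (φ : Additive (Gamma0 N) →+ A) :
    tr₁ N q (res₁ N q φ) = (q + 1) • φ := by
  have h := (isActReps₁ N q hqN).transferAlong_comp_self φ
  rw [card_onePoint_zmod] at h
  exact h

/-- (C1) transfer ∘ restriction = index, for `ι₂`. -/
theorem tr₂_res₂ (hqN : ¬ q ∣ N) (φ : Additive (Gamma0 N) →+ A) :
    tr₂ N q (res₂ N q φ) = (q + 1) • φ := by
  have h := (isActReps₂ N q hqN).transferAlong_comp_self φ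
  rw [card_onePoint_zmod] at h
  exact h

end TrReps

end Fermat.Agent.S41
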