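/-
S41, block [COH], (C2): the mixed composites `tr₁ ∘ res₂` and `tr₂ ∘ res₁` are `T_q`.
Owner: helper4 (independent copy; built directly on `TrReps`).

With `α = heckeRep q`, base point `y₀` (`∞` for `tr₁`, `0` for `tr₂`) and representatives `r x`
(`y₀ · r x = x`), put `g_x := tPart (r x) y₀`, so `α y₀ * r x = g_x * α x`.  Since
`α y₀ * f h = f' h * α y₀` for `h ∈ Γ₀(Nq)` (`(f, f') = (incl₁, incl₂)` resp. `(incl₂, incl₁)`),
the parts satisfy `f' (part γ x) = g_x * tPart γ x * (g_{σ x})⁻¹` over the common permutation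
`σ`, and the sum telescopes.
-/
import Mathlib
import Fermat.Agent.S41.TrReps

set_option autoImplicit false

noncomputable section

open CongruenceSubgroup Matrix.SpecialLinearGroup OnePoint
open scoped MatrixGroups
open P2MW.S_ModularForm_heckeT_slash_eq_self_of_mem_Gamma0.ModularForm.HeckeSlashInvariance
open Fermat.Agent.S16 (heckeTHom tData tData_spec)

namespace Fermat.Agent.S41.TrResT

open Fermat.Agent.S41

variable {N q : ℕ} [Fact q.Prime] {A : Type*} [AddCommGroup A]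

/-- The generic comparison: a transfer along `f`, realised over the permutation of `tData` with
representatives `r x` (`y₀ · r x = x`), composed with restriction along `f'`, is `T_q`, provided
`heckeRep q y₀` intertwines `f` and `f'`. -/
theorem tr_comp_eq_heckeT (hqN : ¬ q ∣ N) (f f' : Gamma0 (N * q) →* Gamma0 N)
    (y₀ : OnePoint (ZMod q)) (r : OnePoint (ZMod q) → Gamma0 N)
    (hr : ∀ x, redMatrix q ((r x : Gamma0 N) : SL(2, ℤ)) • y₀ = x)
    (D : CosetLib.TransferData (Gamma0 (N * q)) (Gamma0 N) (OnePoint (ZMod q)))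
    (hperm : ∀ γ x, D.perm γ x = redMatrix q ((γ : Gamma0 N) : SL(2, ℤ)) • x)
    (hspec : ∀ γ x, r x * γ = f (D.part γ x) * r (D.perm γ x))
    (hconj : ∀ h : Gamma0 (N * q),
      heckeRep q y₀ * mapGL ℝ ((f h : Gamma0 N) : SL(2, ℤ)) =
        mapGL ℝ ((f' h : Gamma0 N) : SL(2, ℤ)) * heckeRep q y₀)
    (φ : Additive (Gamma0 N) →+ A) :
    D.tr (φ.comp (MonoidHom.toAdditive f')) = heckeTHom N q hqN φ := by
  classical
  refine AddMonoidHom.ext fun γ => ?_
  obtain ⟨γ, rfl⟩ := Additive.ofMul.surjective γ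
  rw [CosetLib.TransferData.tr_apply, Fermat.Agent.S16.heckeTHom_apply]
  -- the connecting elements
  set T := tData N q hqN with hT
  let g : OnePoint (ZMod q) → Gamma0 N := fun x => T.part (r x) y₀
  have hg : ∀ x, heckeRep q y₀ * mapGL ℝ ((r x : Gamma0 N) : SL(2, ℤ)) =
      mapGL ℝ ((g x : Gamma0 N) : SL(2, ℤ)) * heckeRep q x := by
    intro x
    have h := tData_spec hqN (r x) y₀
    rw [Fermat.Agent.S16.tData_perm, hr x] at h
    exact h
  have hσ : ∀ x, D.perm γ x = T.perm γ x := fun x => hperm γ x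
  -- the key identity between the parts
  have key : ∀ x, f' (D.part γ x) = g x * T.part γ x * (g (T.perm γ x))⁻¹ := by
    intro x
    have h1 : heckeRep q y₀ * mapGL ℝ (((r x * γ : Gamma0 N)) : SL(2, ℤ)) =
        mapGL ℝ (((g x * T.part γ x : Gamma0 N)) : SL(2, ℤ)) * heckeRep q (T.perm γ x) := by
      rw [Subgroup.coe_mul, map_mul, ← mul_assoc, hg x, mul_assoc, tData_spec hqN γ x,
        ← mul_assoc, Subgroup.coe_mul, map_mul]
    have h2 : heckeRep q y₀ * mapGL ℝ (((r x * γ : Gamma0 N)) : SL(2, ℤ)) =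
        mapGL ℝ (((f' (D.part γ x) * g (T.perm γ x) : Gamma0 N)) : SL(2, ℤ)) *
          heckeRep q (T.perm γ x) := by
      rw [hspec γ x, Subgroup.coe_mul, map_mul, ← mul_assoc, hconj, mul_assoc, hσ x,
        hg (T.perm γ x), ← mul_assoc, Subgroup.coe_mul, map_mul]
    rw [h1] at h2
    have h3 := mul_right_cancel h2
    have h4 : (g x * T.part γ x : Gamma0 N) = f' (D.part γ x) * g (T.perm γ x) :=
      Subtype.ext ((mapGL_injective (S := ℝ)) h3)
    rw [h4, mul_inv_cancel_right]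
  have hterm : ∀ x, (φ.comp (MonoidHom.toAdditive f')) (Additive.ofMul (D.part γ x)) =
      φ (Additive.ofMul (g x)) + φ (Additive.ofMul (T.part γ x)) -
        φ (Additive.ofMul (g (T.perm γ x))) := by
    intro x
    show φ (Additive.ofMul (f' (D.part γ x))) = _
    rw [key x, ofMul_mul, ofMul_mul, map_add, map_add, ofMul_inv, map_neg, ← sub_eq_add_neg]
  simp only [hterm, Finset.sum_sub_distrib, Finset.sum_add_distrib]
  rw [Equiv.sum_comp (T.perm γ) (fun x => φ (Additive.ofMul (g x)))]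
  abel

/-- `diag(q,1) · h = (δ h δ⁻¹) · diag(q,1)`. -/
theorem heckeRep_infty_mul (h : Gamma0 (N * q)) :
    heckeRep q (∞ : OnePoint (ZMod q)) * mapGL ℝ ((incl₁ N q h : Gamma0 N) : SL(2, ℤ)) =
      mapGL ℝ ((incl₂ N q h : Gamma0 N) : SL(2, ℤ)) * heckeRep q (∞ : OnePoint (ZMod q)) := by
  have hq : q ≠ 0 := (Fact.out : q.Prime).ne_zero
  have hc := q_mul_div h
  have hcR : (q : ℝ) * ((((h : SL(2, ℤ)) 1 0 / (q : ℤ) : ℤ)) : ℝ) = (((h : SL(2, ℤ)) 1 0 : ℤ) : ℝ) := by
    exact_mod_cast hc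
  apply Matrix.GeneralLinearGroup.ext
  intro i j
  rw [heckeRep_infty, incl₁_coe, incl₂_coe]
  simp only [Matrix.GeneralLinearGroup.coe_mul, Matrix.mul_apply, Fin.sum_univ_two,
    ModularForm.val_heckeDiagMatrix hq, mapGL_apply]
  fin_cases i <;> fin_cases j
  · simp [conjMat_apply_zero_zero]
    ring
  · simp [conjMat_apply_zero_one]
  · simp [conjMat_apply_one_zero]
    linarith
  · simp [conjMat_apply_one_one]

/-- `diag(1,q) · (δ h δ⁻¹) = h · diag(1,q)`. -/
theorem heckeRep_zero_mul (h : Gamma0 (N * q)) :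
    heckeRep q ((0 : ZMod q) : OnePoint (ZMod q)) *
        mapGL ℝ ((incl₂ N q h : Gamma0 N) : SL(2, ℤ)) =
      mapGL ℝ ((incl₁ N q h : Gamma0 N) : SL(2, ℤ)) *
        heckeRep q ((0 : ZMod q) : OnePoint (ZMod q)) := by
  have hq : q ≠ 0 := (Fact.out : q.Prime).ne_zero
  have hc := q_mul_div h
  have hcR : (q : ℝ) * ((((h : SL(2, ℤ)) 1 0 / (q : ℤ) : ℤ)) : ℝ) = (((h : SL(2, ℤ)) 1 0 : ℤ) : ℝ) := by
    exact_mod_cast hc
  apply Matrix.GeneralLinearGroup.ext
  intro i j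
  rw [heckeRep_coe, incl₁_coe, incl₂_coe, ZMod.val_zero]
  simp only [Matrix.GeneralLinearGroup.coe_mul, Matrix.mul_apply, Fin.sum_univ_two,
    ModularForm.val_heckeMatrix hq, mapGL_apply]
  fin_cases i <;> fin_cases j
  · simp [conjMat_apply_zero_zero]
  · simp [conjMat_apply_zero_one]
    ring
  · simp [conjMat_apply_one_zero]
    linarith
  · simp [conjMat_apply_one_one]
    ring

/-- (C2) `tr₁ ∘ res₂ = T_q`. -/
theorem tr₁_res₂ (hqN : ¬ q ∣ N) (φ : Additive (Gamma0 N) →+ A) :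
    tr₁ N q (res₂ N q φ) = heckeTHom N q hqN φ := by
  rw [tr₁_eq hqN]
  exact tr_comp_eq_heckeT hqN (incl₁ N q) (incl₂ N q) ∞ (rep₁ N q) (p1Act_rep₁ N q hqN)
    (trData₁ N q hqN) (trData₁_perm hqN) (trData₁_spec hqN) heckeRep_infty_mul φ

/-- (C2) `tr₂ ∘ res₁ = T_q`. -/
theorem tr₂_res₁ (hqN : ¬ q ∣ N) (φ : Additive (Gamma0 N) →+ A) :
    tr₂ N q (res₁ N q φ) = heckeTHom N q hqN φ := by
  rw [tr₂_eq hqN]
  exact tr_comp_eq_heckeT hqN (incl₂ N q) (incl₁ N q) ((0 : ZMod q) : OnePoint (ZMod q))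
    (rep₂ N q hqN) (p1Act_rep₂ N q hqN) (trData₂ N q hqN) (trData₂_perm hqN)
    (trData₂_spec hqN) heckeRep_zero_mul φ

end Fermat.Agent.S41.TrResT
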