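/-
S41, block [COH]: ASSEMBLY (owner: helper4, [COH] sub-captain).

Every [COH] hypothesis of `Plan.result_of_leaves` as a named theorem in the EXACT shape of the
plan (`hC0₁ … hC7`), plus the membership leaves (C4) for `res_i`, `tr_i` proved here, and the
record `NewAsm.CohInputs` consumed by block [NEW] (`cohInputs`).
-/
import Mathlib
import Fermat.Agent.S41.TrResT
import Fermat.Agent.S41.ParMem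
import Fermat.Agent.S41.CohLat
import Fermat.Agent.S41.HeckeComm
import Fermat.Agent.S41.HeckeCommU
import Fermat.Agent.S41.IwahoriU
import Fermat.Agent.S41.NewAsm

set_option autoImplicit false

noncomputable section

open CongruenceSubgroup ModularCurve ModularCurve.Period Matrix.SpecialLinearGroup OnePoint
open scoped MatrixGroups
open P2MW.S_ModularForm_heckeT_slash_eq_self_of_mem_Gamma0.ModularForm.HeckeSlashInvariance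
open Fermat.Agent.S16 (heckeTHom heckeUHom)

namespace Fermat.Agent.S41.Coh

open Fermat.Agent.S41

/-! ### (C4) for `res_i`, `tr_i` (any coefficient group) -/

section Mem

variable {A : Type*} [AddCommGroup A]

theorem isParabolicHom_res₁ (N q : ℕ) {φ : Additive (Gamma0 N) →+ A}
    (h : IsParabolicHom (Gamma0 N) φ) : IsParabolicHom (Gamma0 (N * q)) (res₁ N q φ) := by
  intro γ hγ
  rw [res₁_apply]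
  exact h (incl₁ N q γ) hγ

theorem isParabolicHom_res₂ (N q : ℕ) {φ : Additive (Gamma0 N) →+ A}
    (h : IsParabolicHom (Gamma0 N) φ) : IsParabolicHom (Gamma0 (N * q)) (res₂ N q φ) := by
  intro γ hγ
  rw [res₂_apply]
  apply h (incl₂ N q γ)
  rw [Matrix.trace_fin_two] at hγ ⊢
  exact hγ

theorem isParabolicHom_tr₁ {N q : ℕ} [Fact q.Prime] (hqN : ¬ q ∣ N)
    {ψ : Additive (Gamma0 (N * q)) →+ A} (h : IsParabolicHom (Gamma0 (N * q)) ψ) :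
    IsParabolicHom (Gamma0 N) (tr₁ N q ψ) := by
  intro γ hγ
  rw [tr₁_apply hqN]
  refine ParMem.sum_eq_zero_of_parabolic ψ h
    (fun x => mapGL ℝ ((rep₁ N q x : Gamma0 N) : SL(2, ℤ))) (γ : SL(2, ℤ)) hγ
    ((trData₁ N q hqN).perm γ) (fun x => (trData₁ N q hqN).part γ x) ?_
  intro x
  have hs := congrArg (fun g : Gamma0 N => mapGL ℝ (g : SL(2, ℤ))) (trData₁_spec hqN γ x)
  simp only [Subgroup.coe_mul, map_mul, incl₁_coe] at hs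
  exact hs

theorem isParabolicHom_tr₂ {N q : ℕ} [Fact q.Prime] (hqN : ¬ q ∣ N)
    {ψ : Additive (Gamma0 (N * q)) →+ A} (h : IsParabolicHom (Gamma0 (N * q)) ψ) :
    IsParabolicHom (Gamma0 N) (tr₂ N q ψ) := by
  intro γ hγ
  rw [tr₂_apply hqN]
  refine ParMem.sum_eq_zero_of_parabolic ψ h
    (fun x => (heckeRep q (∞ : OnePoint (ZMod q)))⁻¹ *
      mapGL ℝ ((rep₂ N q hqN x : Gamma0 N) : SL(2, ℤ))) (γ : SL(2, ℤ)) hγ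
    ((trData₂ N q hqN).perm γ) (fun x => (trData₂ N q hqN).part γ x) ?_
  intro x
  have hs := congrArg (fun g : Gamma0 N => mapGL ℝ (g : SL(2, ℤ))) (trData₂_spec hqN γ x)
  simp only [Subgroup.coe_mul, map_mul] at hs
  have hc := TrResT.heckeRep_infty_mul ((trData₂ N q hqN).part γ x)
  rw [incl₁_coe] at hc
  have hc' : mapGL ℝ ((incl₂ N q ((trData₂ N q hqN).part γ x) : Gamma0 N) : SL(2, ℤ)) =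
      heckeRep q (∞ : OnePoint (ZMod q)) *
        mapGL ℝ (((trData₂ N q hqN).part γ x : Gamma0 (N * q)) : SL(2, ℤ)) *
          (heckeRep q (∞ : OnePoint (ZMod q)))⁻¹ := by
    rw [hc, mul_inv_cancel_right]
  show (heckeRep q (∞ : OnePoint (ZMod q)))⁻¹ *
      mapGL ℝ ((rep₂ N q hqN x : Gamma0 N) : SL(2, ℤ)) * mapGL ℝ (γ : SL(2, ℤ)) =
    mapGL ℝ (((trData₂ N q hqN).part γ x : Gamma0 (N * q)) : SL(2, ℤ)) *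
      ((heckeRep q (∞ : OnePoint (ZMod q)))⁻¹ *
        mapGL ℝ ((rep₂ N q hqN ((trData₂ N q hqN).perm γ x) : Gamma0 N) : SL(2, ℤ)))
  rw [mul_assoc, hs, hc']
  group

/-- (C4), skeleton shapes. -/
theorem res₁_mem (N q : ℕ) {φ : Additive (Gamma0 N) →+ ℤ} (h : φ ∈ Lpar N) :
    res₁ N q φ ∈ Lpar (N * q) := isParabolicHom_res₁ N q h

theorem res₂_mem (N q : ℕ) {φ : Additive (Gamma0 N) →+ ℤ} (h : φ ∈ Lpar N) :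
    res₂ N q φ ∈ Lpar (N * q) := isParabolicHom_res₂ N q h

theorem tr₁_mem {N q : ℕ} [Fact q.Prime] (hqN : ¬ q ∣ N) {ψ : Additive (Gamma0 (N * q)) →+ ℤ}
    (h : ψ ∈ Lpar (N * q)) : tr₁ N q ψ ∈ Lpar N := isParabolicHom_tr₁ hqN h

theorem tr₂_mem {N q : ℕ} [Fact q.Prime] (hqN : ¬ q ∣ N) {ψ : Additive (Gamma0 (N * q)) →+ ℤ}
    (h : ψ ∈ Lpar (N * q)) : tr₂ N q ψ ∈ Lpar N := isParabolicHom_tr₂ hqN h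

end Mem

/-! ### The [COH] hypotheses of `Plan.result_of_leaves`, verbatim -/

theorem hC0₁ : ∀ (M ℓ : ℕ) (ψ ψ' : Additive (Gamma0 (M * ℓ)) →+ ℤ),
    tr₁ M ℓ (ψ + ψ') = tr₁ M ℓ ψ + tr₁ M ℓ ψ' := fun M ℓ ψ ψ' => tr₁_add M ℓ ψ ψ'

theorem hC0₂ : ∀ (M ℓ : ℕ) (ψ ψ' : Additive (Gamma0 (M * ℓ)) →+ ℤ),
    tr₂ M ℓ (ψ + ψ') = tr₂ M ℓ ψ + tr₂ M ℓ ψ' := fun M ℓ ψ ψ' => tr₂_add M ℓ ψ ψ'

theorem hC1₁ : ∀ (M ℓ : ℕ) [Fact ℓ.Prime] (_ : ¬ ℓ ∣ M) (φ : Additive (Gamma0 M) →+ ℤ),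
    tr₁ M ℓ (res₁ M ℓ φ) = (ℓ + 1) • φ := fun _ _ _ h φ => tr₁_res₁ h φ

theorem hC1₂ : ∀ (M ℓ : ℕ) [Fact ℓ.Prime] (_ : ¬ ℓ ∣ M) (φ : Additive (Gamma0 M) →+ ℤ),
    tr₂ M ℓ (res₂ M ℓ φ) = (ℓ + 1) • φ := fun _ _ _ h φ => tr₂_res₂ h φ

theorem hC2₁ : ∀ (M ℓ : ℕ) [Fact ℓ.Prime] (hℓ : ¬ ℓ ∣ M) (φ : Additive (Gamma0 M) →+ ℤ),
    tr₁ M ℓ (res₂ M ℓ φ) = heckeTHom M ℓ hℓ φ := fun _ _ _ h φ => TrResT.tr₁_res₂ h φ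

theorem hC2₂ : ∀ (M ℓ : ℕ) [Fact ℓ.Prime] (hℓ : ¬ ℓ ∣ M) (φ : Additive (Gamma0 M) →+ ℤ),
    tr₂ M ℓ (res₁ M ℓ φ) = heckeTHom M ℓ hℓ φ := fun _ _ _ h φ => TrResT.tr₂_res₁ h φ

theorem hC4r₁ : ∀ (M ℓ : ℕ) [Fact ℓ.Prime] (_ : ¬ ℓ ∣ M), ∀ φ ∈ Lpar M,
    res₁ M ℓ φ ∈ Lpar (M * ℓ) := fun M ℓ _ _ _ hφ => res₁_mem M ℓ hφ

theorem hC4r₂ : ∀ (M ℓ : ℕ) [Fact ℓ.Prime] (_ : ¬ ℓ ∣ M), ∀ φ ∈ Lpar M,
    res₂ M ℓ φ ∈ Lpar (M * ℓ) := fun M ℓ _ _ _ hφ => res₂_mem M ℓ hφ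

theorem hC4t₁ : ∀ (M ℓ : ℕ) [Fact ℓ.Prime] (_ : ¬ ℓ ∣ M), ∀ ψ ∈ Lpar (M * ℓ),
    tr₁ M ℓ ψ ∈ Lpar M := fun _ _ _ h _ hψ => tr₁_mem h hψ

theorem hC4t₂ : ∀ (M ℓ : ℕ) [Fact ℓ.Prime] (_ : ¬ ℓ ∣ M), ∀ ψ ∈ Lpar (M * ℓ),
    tr₂ M ℓ ψ ∈ Lpar M := fun _ _ _ h _ hψ => tr₂_mem h hψ

theorem hC4T : ∀ (M ℓ : ℕ) [Fact ℓ.Prime] (hℓ : ¬ ℓ ∣ M), ∀ φ ∈ Lpar M,
    heckeTHom M ℓ hℓ φ ∈ Lpar M := fun _ _ _ hℓ _ hφ => CohLat.heckeT_mem hℓ hφ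

theorem hC6 : ∀ (M ℓ ℓ' : ℕ) [NeZero M] [Fact ℓ.Prime] [Fact ℓ'.Prime] (hℓ : ¬ ℓ ∣ M)
    (hℓ' : ¬ ℓ' ∣ M), ∀ φ ∈ Lpar M,
    heckeTHom M ℓ hℓ (heckeTHom M ℓ' hℓ' φ) = heckeTHom M ℓ' hℓ' (heckeTHom M ℓ hℓ φ) :=
  fun _ _ _ _ _ _ hℓ hℓ' _ hφ => CohLat.heckeT_heckeT_comm hℓ hℓ' hφ

theorem hC7 {p : ℕ} (hp : p ≠ 0) : ∀ (M : ℕ), ∀ φ ∈ Lpar M, (∀ x, (p : ℤ) ∣ φ x) →
    ∃ z ∈ Lpar M, φ = (p : ℤ) • z :=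
  fun _ φ hφ h => CohLat.exists_eq_smul_of_dvd (p : ℤ) φ hφ h (by exact_mod_cast hp)

theorem hC3r₁ (N q : ℕ) [Fact q.Prime] : ∀ (ℓ : ℕ) [Fact ℓ.Prime] (hℓ : ¬ ℓ ∣ N)
    (hℓ' : ¬ ℓ ∣ N * q) (φ : Additive (Gamma0 N) →+ ℤ),
    res₁ N q (heckeTHom N ℓ hℓ φ) = heckeTHom (N * q) ℓ hℓ' (res₁ N q φ) :=
  fun _ _ hℓ hℓ' φ => res₁_heckeT N q hℓ hℓ' φ

theorem hC3r₂ (N q : ℕ) [Fact q.Prime] : ∀ (ℓ : ℕ) [Fact ℓ.Prime] (hℓ : ¬ ℓ ∣ N)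
    (hℓ' : ¬ ℓ ∣ N * q) (φ : Additive (Gamma0 N) →+ ℤ),
    res₂ N q (heckeTHom N ℓ hℓ φ) = heckeTHom (N * q) ℓ hℓ' (res₂ N q φ) :=
  fun _ _ hℓ hℓ' φ => res₂_heckeT N q hℓ hℓ' φ

theorem hC3t₁ (N q : ℕ) [Fact q.Prime] : ∀ (ℓ : ℕ) [Fact ℓ.Prime] (hℓ : ¬ ℓ ∣ N)
    (hℓ' : ¬ ℓ ∣ N * q) (ψ : Additive (Gamma0 (N * q)) →+ ℤ),
    tr₁ N q (heckeTHom (N * q) ℓ hℓ' ψ) = heckeTHom N ℓ hℓ (tr₁ N q ψ) :=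
  fun _ _ hℓ hℓ' ψ => tr₁_heckeT N q hℓ hℓ' ψ

theorem hC3t₂ (N q : ℕ) [Fact q.Prime] : ∀ (ℓ : ℕ) [Fact ℓ.Prime] (hℓ : ¬ ℓ ∣ N)
    (hℓ' : ¬ ℓ ∣ N * q) (ψ : Additive (Gamma0 (N * q)) →+ ℤ),
    tr₂ N q (heckeTHom (N * q) ℓ hℓ' ψ) = heckeTHom N ℓ hℓ (tr₂ N q ψ) :=
  fun _ _ hℓ hℓ' ψ => tr₂_heckeT N q hℓ hℓ' ψ

/-- The [COH] inputs of block [NEW] for the actual transfers. -/
theorem cohInputs (N q : ℕ) [Fact q.Prime] (hqN : ¬ q ∣ N) :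
    NewAsm.CohInputs N q (tr₁ N q) (tr₂ N q) where
  t₁_add := tr₁_add N q
  t₂_add := tr₂_add N q
  t₁_heckeT := fun hℓ hℓ' ψ => tr₁_heckeT N q hℓ hℓ' ψ
  t₂_heckeT := fun hℓ hℓ' ψ => tr₂_heckeT N q hℓ hℓ' ψ
  t₁_heckeU := fun _ hℓ hℓ' ψ => tr₁_heckeU N q hqN hℓ hℓ' ψ
  t₂_heckeU := fun _ hℓ hℓ' ψ => tr₂_heckeU N q hqN hℓ hℓ' ψ
  heckeT_mem := fun hℓ _ hφ => CohLat.heckeT_mem hℓ hφ
  heckeU_mem := fun hℓ _ hφ => CohLat.heckeU_mem hℓ hφ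
  heckeUq_stable := fun hq ψ h₁ h₂ => IwahoriU.tr_heckeU_q_eq_zero N q hqN hq ψ h₁ h₂
  heckeUq_sq := fun hq ψ h₁ h₂ => IwahoriU.heckeU_sq_of_tr_eq_zero N q hqN hq ψ h₁ h₂

end Fermat.Agent.S41.Coh
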