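import Fermat.Agent.S41.DSLiftC

/-!
# S41 [NEW]: Deligne–Serre lifting without the spanning hypothesis

`exists_eigenvector_lift_p_span` is `DSLiftC.exists_eigenvector_lift_p` applied to the
`ℂ`-span of the lattice `L`: the hypothesis `span ℂ L = ⊤` is dropped, and the eigenvector
produced lies in `span ℂ L`.
-/

namespace Fermat.Agent.S41.DSSpan

open Submodule

section

variable {V : Type*} [AddCommGroup V] [Module ℂ V]

/-- An endomorphism preserving a `ℤ`-lattice preserves its `ℂ`-span. -/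
theorem map_span_of_map_lattice (L : Submodule ℤ V) (t : Module.End ℂ V)
    (ht : ∀ x ∈ L, t x ∈ L) :
    ∀ x ∈ span ℂ (L : Set V), t x ∈ span ℂ (L : Set V) := by
  intro x hx
  induction hx using Submodule.span_induction with
  | mem x hx => exact subset_span (ht x hx)
  | zero => simp
  | add x y _ _ hx hy => rw [map_add]; exact add_mem hx hy
  | smul a x _ hx => rw [map_smul]; exact smul_mem _ a hx

/-- Restriction of an endomorphism to the span of the lattice (zero when not stable). -/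
noncomputable def restr (L : Submodule ℤ V) (t : Module.End ℂ V) :
    Module.End ℂ (span ℂ (L : Set V)) :=
  open Classical in
  if h : ∀ x ∈ span ℂ (L : Set V), t x ∈ span ℂ (L : Set V) then t.restrict h else 0

theorem restr_apply (L : Submodule ℤ V) (t : Module.End ℂ V) (ht : ∀ x ∈ L, t x ∈ L)
    (x : span ℂ (L : Set V)) : ((restr L t x : span ℂ (L : Set V)) : V) = t (x : V) := by
  unfold restr
  rw [dif_pos (map_span_of_map_lattice L t ht)]
  rfl

/-- The lattice `L` viewed inside its own span. -/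
def latt (L : Submodule ℤ V) : Submodule ℤ (span ℂ (L : Set V)) :=
  L.comap ((span ℂ (L : Set V)).subtype.restrictScalars ℤ)

theorem mem_latt (L : Submodule ℤ V) (x : span ℂ (L : Set V)) :
    x ∈ latt L ↔ (x : V) ∈ L := Iff.rfl

theorem latt_map (L : Submodule ℤ V) :
    (latt L).map ((span ℂ (L : Set V)).subtype.restrictScalars ℤ) = L := by
  ext x
  constructor
  · rintro ⟨y, hy, rfl⟩
    exact hy
  · intro hx
    exact ⟨⟨x, subset_span hx⟩, hx, rfl⟩

theorem latt_fg (L : Submodule ℤ V) (hL : L.FG) : (latt L).FG := by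
  refine Submodule.fg_of_fg_map_injective
    ((span ℂ (L : Set V)).subtype.restrictScalars ℤ) ?_ ?_
  · intro a b hab
    exact Subtype.ext hab
  · rw [latt_map]; exact hL

theorem latt_span (L : Submodule ℤ V) :
    span ℂ ((latt L : Submodule ℤ (span ℂ (L : Set V))) : Set (span ℂ (L : Set V))) = ⊤ := by
  apply Submodule.map_injective_of_injective (span ℂ (L : Set V)).injective_subtype
  rw [Submodule.map_span, Submodule.map_subtype_top]
  congr 1
  ext x
  constructor
  · rintro ⟨y, hy, rfl⟩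
    exact hy
  · intro hx
    exact ⟨⟨x, subset_span hx⟩, hx, rfl⟩

end

/-- **Deligne–Serre lifting, no spanning hypothesis.**  A commuting family `G` of
endomorphisms of a complex vector space preserving a finitely generated `ℤ`-lattice `L`,
and a vector `f₀ ∈ L ∖ pL`: there is a common eigenvector `g ≠ 0` of `G` in the `ℂ`-span
of `L`, with algebraic-integer eigenvalues `μ t`, and a maximal ideal `𝔪' ∋ p` such that
`μ t ≡ n (mod 𝔪')` for every `t ∈ G` and `n : ℤ` with `t f₀ ≡ n f₀ (mod p L)`. -/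
theorem exists_eigenvector_lift_p_span {V : Type*} [AddCommGroup V] [Module ℂ V] (p : ℕ)
    (G : Set (Module.End ℂ V)) (hG : ∀ s ∈ G, ∀ t ∈ G, s * t = t * s)
    (L : Submodule ℤ V) (hLfg : L.FG) (hGL : ∀ t ∈ G, ∀ x ∈ L, t x ∈ L)
    (f₀ : V) (hf₀ : f₀ ∈ L) (hf₀' : ∀ y ∈ L, f₀ ≠ (p : ℤ) • y) :
    ∃ (g : V) (μ : Module.End ℂ V → integralClosure ℤ ℂ) (𝔪' : Ideal (integralClosure ℤ ℂ)),
      g ≠ 0 ∧ g ∈ Submodule.span ℂ (L : Set V) ∧ 𝔪'.IsMaximal ∧
      ((p : ℕ) : integralClosure ℤ ℂ) ∈ 𝔪' ∧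
      ∀ t ∈ G, t g = ((μ t : integralClosure ℤ ℂ) : ℂ) • g ∧
        ∀ n : ℤ, (∃ y ∈ L, t f₀ - n • f₀ = (p : ℤ) • y) →
          μ t - (n : integralClosure ℤ ℂ) ∈ 𝔪' := by
  classical
  -- the restricted family
  have hcomm : ∀ s ∈ (restr L '' G), ∀ t ∈ (restr L '' G), s * t = t * s := by
    rintro _ ⟨s, hs, rfl⟩ _ ⟨t, ht, rfl⟩
    apply LinearMap.ext
    intro x
    apply Subtype.ext
    rw [Module.End.mul_apply, Module.End.mul_apply, restr_apply L s (hGL s hs),
      restr_apply L t (hGL t ht), restr_apply L t (hGL t ht), restr_apply L s (hGL s hs)]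
    have := congrArg (fun u : Module.End ℂ V => u (x : V)) (hG s hs t ht)
    simpa [Module.End.mul_apply] using this
  have hstab : ∀ t ∈ (restr L '' G), ∀ x ∈ latt L, t x ∈ latt L := by
    rintro _ ⟨t, ht, rfl⟩ x hx
    rw [mem_latt, restr_apply L t (hGL t ht)]
    exact hGL t ht _ hx
  have hf₀mem : (⟨f₀, subset_span hf₀⟩ : span ℂ (L : Set V)) ∈ latt L := hf₀
  have hf₀ne : ∀ y ∈ latt L, (⟨f₀, subset_span hf₀⟩ : span ℂ (L : Set V)) ≠ (p : ℤ) • y := by
    intro y hy h
    refine hf₀' (y : V) hy ?_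
    have := congrArg (fun u : span ℂ (L : Set V) => (u : V)) h
    simpa using this
  obtain ⟨g, μ, 𝔪', hg, hmax, hp, hall⟩ :=
    DSLiftC.exists_eigenvector_lift_p p (restr L '' G) hcomm (latt L) (latt_fg L hLfg)
      (latt_span L) hstab ⟨f₀, subset_span hf₀⟩ hf₀mem hf₀ne
  refine ⟨(g : V), fun t => μ (restr L t), 𝔪', ?_, g.2, hmax, hp, ?_⟩
  · intro h
    exact hg (Subtype.ext h)
  · intro t ht
    obtain ⟨h1, h2⟩ := hall (restr L t) ⟨t, ht, rfl⟩
    refine ⟨?_, ?_⟩
    · have := congrArg (fun u : span ℂ (L : Set V) => (u : V)) h1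
      simp only [restr_apply L t (hGL t ht)] at this
      rw [this]
      rfl
    · rintro n ⟨y, hy, hyn⟩
      refine h2 n ⟨⟨y, subset_span hy⟩, hy, ?_⟩
      apply Subtype.ext
      rw [Submodule.coe_sub, restr_apply L t (hGL t ht)]
      simpa using hyn

end Fermat.Agent.S41.DSSpan
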