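/-
S41 block [NEW], leaf (N2) (owner: helper91): the level-`M` abstract core.

A Hecke-stable sublattice `K` of the parabolic integral classes of `Γ₀(M)` containing a class `y`
which is primitive in `K` and a Hecke eigenclass modulo `p • K` (for the primes in `Pset`) gives a
normalised eigenform `g` of level `M` whose `ℓ`-th coefficients (`ℓ ∈ Pset`) are congruent to the
eigenvalues modulo a maximal ideal over `p`; moreover `a_{ℓ₀}(g)² = 1` for every prime `ℓ₀ ∣ M`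
with `U_{ℓ₀}² = 1` on `K`.

Method: Eichler–Shimura (`S21.result`) identifies `S₂(Γ₀(M))²` with the parabolic classes with
complex coefficients, compatibly with the Hecke operators (`S16.HeckePairB`); the lattice `K`
becomes a finitely generated Hecke-stable subgroup of `S₂(Γ₀(M))²`, to which the
Deligne–Serre lifting lemma (`S41.DSLiftC`, `S41.DSSpan`) applies on its complex span; the resulting
eigenvector is normalised by `S49.Normalize`.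
-/
import Mathlib
import Fermat.Prelude.Thm_CuspForm_heckeTLin_comm
import Fermat.Prelude.Thm_CuspForm_heckeTLin_heckeULin_comm
import Fermat.Prelude.Thm_CuspForm_heckeULin_comm
import Fermat.Agent.S41.NewAsm
import Fermat.Agent.S41.DSSpan
import Fermat.Agent.S49.Normalize
import Fermat.Agent.S16.HeckePairB
import Fermat.Agent.S16.LiftLemma
import Fermat.Agent.S22.GammaFG
import Fermat.Agent.S21

set_option autoImplicit false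

namespace Fermat.Agent.S41.NewCore

open CongruenceSubgroup ModularCurve ModularCurve.Period
open Fermat.Agent.S16

/-! ### Coefficient extension `ℤ → ℂ` -/

section Coeff

variable (M : ℕ)

/-- Extension of coefficients `Hom(Γ₀(M), ℤ) → Hom(Γ₀(M), ℂ)`. -/
noncomputable def coeffC : (Additive (Gamma0 M) →+ ℤ) →+ (Additive (Gamma0 M) →+ ℂ) where
  toFun φ := (Int.castAddHom ℂ).comp φ
  map_zero' := AddMonoidHom.ext fun _ => by simp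
  map_add' φ ψ := AddMonoidHom.ext fun _ => by simp

theorem coeffC_def (φ : Additive (Gamma0 M) →+ ℤ) :
    coeffC M φ = (Int.castAddHom ℂ).comp φ := rfl

theorem coeffC_apply (φ : Additive (Gamma0 M) →+ ℤ) (γ : Additive (Gamma0 M)) :
    coeffC M φ γ = ((φ γ : ℤ) : ℂ) := rfl

theorem coeffC_injective : Function.Injective (coeffC M) := by
  intro φ ψ h
  refine AddMonoidHom.ext fun γ => ?_
  have h1 := DFunLike.congr_fun h γ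
  rw [coeffC_apply, coeffC_apply] at h1
  exact_mod_cast h1

theorem coeffC_mem_parabolic {φ : Additive (Gamma0 M) →+ ℤ}
    (hφ : φ ∈ parabolicHoms ℤ (Gamma0 M) ℤ) :
    coeffC M φ ∈ parabolicHoms ℂ (Gamma0 M) ℂ := by
  intro γ hγ
  rw [coeffC_apply, hφ γ hγ, Int.cast_zero]

theorem coeffC_heckeT {ℓ : ℕ} [Fact ℓ.Prime] (hℓ : ¬ ℓ ∣ M) (φ : Additive (Gamma0 M) →+ ℤ) :
    coeffC M (heckeTHom M ℓ hℓ φ) = heckeTHom M ℓ hℓ (coeffC M φ) :=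
  ((tData M ℓ hℓ).op_comp (Int.castAddHom ℂ) φ).symm

theorem coeffC_heckeU {ℓ : ℕ} [NeZero ℓ] (hℓ : ℓ ∣ M) (φ : Additive (Gamma0 M) →+ ℤ) :
    coeffC M (heckeUHom M ℓ hℓ φ) = heckeUHom M ℓ hℓ (coeffC M φ) :=
  ((uData M ℓ hℓ).op_comp (Int.castAddHom ℂ) φ).symm

end Coeff

/-! ### Hecke operators on pairs of cusp forms and the lattice of `K` -/

section Operators

variable (M : ℕ) [NeZero M]

/-- `T_ℓ × T_ℓ` on `S₂(Γ₀(M))²`. -/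
noncomputable def pairT {ℓ : ℕ} (hℓ : ℓ.Prime) (hℓM : ¬ ℓ ∣ M) :
    Module.End ℂ (CuspForm (Gamma0 M) 2 × CuspForm (Gamma0 M) 2) :=
  LinearMap.prodMap (CuspForm.heckeTLin 2 hℓ hℓM) (CuspForm.heckeTLin 2 hℓ hℓM)

/-- `U_ℓ × U_ℓ` on `S₂(Γ₀(M))²`. -/
noncomputable def pairU {ℓ : ℕ} (hℓM : ℓ ∣ M) :
    Module.End ℂ (CuspForm (Gamma0 M) 2 × CuspForm (Gamma0 M) 2) :=
  LinearMap.prodMap (CuspForm.heckeULin 2 hℓM) (CuspForm.heckeULin 2 hℓM)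

omit [NeZero M] in
theorem pairT_apply {ℓ : ℕ} (hℓ : ℓ.Prime) (hℓM : ¬ ℓ ∣ M)
    (s : CuspForm (Gamma0 M) 2 × CuspForm (Gamma0 M) 2) :
    pairT M hℓ hℓM s = (CuspForm.heckeTLin 2 hℓ hℓM s.1, CuspForm.heckeTLin 2 hℓ hℓM s.2) := rfl

theorem pairU_apply {ℓ : ℕ} (hℓM : ℓ ∣ M)
    (s : CuspForm (Gamma0 M) 2 × CuspForm (Gamma0 M) 2) :
    pairU M hℓM s = (CuspForm.heckeULin 2 hℓM s.1, CuspForm.heckeULin 2 hℓM s.2) := rfl

theorem period_pairT {ℓ : ℕ} [Fact ℓ.Prime] (hℓ : ℓ.Prime) (hℓM : ¬ ℓ ∣ M)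
    (s : CuspForm (Gamma0 M) 2 × CuspForm (Gamma0 M) 2) :
    periodHomPair M (pairT M hℓ hℓM s) = heckeTHom M ℓ hℓM (periodHomPair M s) :=
  HeckePairB.periodHomPair_heckeTLin hℓ hℓM s.1 s.2

theorem period_pairU {ℓ : ℕ} [NeZero ℓ] (hℓM : ℓ ∣ M)
    (s : CuspForm (Gamma0 M) 2 × CuspForm (Gamma0 M) 2) :
    periodHomPair M (pairU M hℓM s) = heckeUHom M ℓ hℓM (periodHomPair M s) :=
  HeckePairB.periodHomPair_heckeULin hℓM s.1 s.2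

/-- The set of all Hecke operators (`T_ℓ`, `ℓ ∤ M`, and `U_ℓ`, `ℓ ∣ M`) on pairs. -/
def opSet : Set (Module.End ℂ (CuspForm (Gamma0 M) 2 × CuspForm (Gamma0 M) 2)) :=
  {t | (∃ (ℓ : ℕ) (hℓ : ℓ.Prime) (hℓM : ¬ ℓ ∣ M), t = pairT M hℓ hℓM) ∨
       (∃ (ℓ : ℕ) (_ : ℓ.Prime) (hℓM : ℓ ∣ M), t = pairU M hℓM)}

theorem pairT_mem_opSet {ℓ : ℕ} (hℓ : ℓ.Prime) (hℓM : ¬ ℓ ∣ M) : pairT M hℓ hℓM ∈ opSet M :=
  Or.inl ⟨ℓ, hℓ, hℓM, rfl⟩

theorem pairU_mem_opSet {ℓ : ℕ} (hℓ : ℓ.Prime) (hℓM : ℓ ∣ M) : pairU M hℓM ∈ opSet M :=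
  Or.inr ⟨ℓ, hℓ, hℓM, rfl⟩

theorem opSet_comm : ∀ s ∈ opSet M, ∀ t ∈ opSet M, s * t = t * s := by
  rintro s (⟨ℓ, hℓ, hℓM, rfl⟩ | ⟨ℓ, hℓ, hℓM, rfl⟩) t
    (⟨ℓ', hℓ', hℓ'M, rfl⟩ | ⟨ℓ', hℓ', hℓ'M, rfl⟩)
  · unfold pairT
    rw [LinearMap.prodMap_mul, LinearMap.prodMap_mul,
      (CuspForm.heckeTLin_comm 2 hℓ hℓM hℓ' hℓ'M).eq]
  · unfold pairT pairU
    rw [LinearMap.prodMap_mul, LinearMap.prodMap_mul,
      (CuspForm.heckeTLin_heckeULin_comm 2 hℓ hℓM hℓ'M).eq]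
  · unfold pairT pairU
    rw [LinearMap.prodMap_mul, LinearMap.prodMap_mul,
      (CuspForm.heckeTLin_heckeULin_comm 2 hℓ' hℓ'M hℓM).eq]
  · unfold pairU
    rw [LinearMap.prodMap_mul, LinearMap.prodMap_mul,
      (CuspForm.heckeULin_comm 2 hℓM hℓ'M).eq]

/-- The subgroup of `S₂(Γ₀(M))²` corresponding to `K` under Eichler–Shimura. -/
def lat (K : Submodule ℤ (Additive (Gamma0 M) →+ ℤ)) :
    Submodule ℤ (CuspForm (Gamma0 M) 2 × CuspForm (Gamma0 M) 2) where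
  carrier := {s | ∃ φ ∈ K, periodHomPair M s = coeffC M φ}
  zero_mem' := ⟨0, K.zero_mem, by rw [map_zero, map_zero]⟩
  add_mem' := by
    rintro a b ⟨φ, hφ, ha⟩ ⟨ψ, hψ, hb⟩
    exact ⟨φ + ψ, K.add_mem hφ hψ, by rw [map_add, ha, hb, map_add]⟩
  smul_mem' := by
    rintro n a ⟨φ, hφ, ha⟩
    exact ⟨n • φ, K.smul_mem n hφ, by rw [map_zsmul, ha, map_zsmul]⟩

omit [NeZero M] in
theorem mem_lat {K : Submodule ℤ (Additive (Gamma0 M) →+ ℤ)}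
    {s : CuspForm (Gamma0 M) 2 × CuspForm (Gamma0 M) 2} :
    s ∈ lat M K ↔ ∃ φ ∈ K, periodHomPair M s = coeffC M φ := Iff.rfl

/-- Every class of `K` has a preimage in the lattice. -/
theorem exists_mem_lat {K : Submodule ℤ (Additive (Gamma0 M) →+ ℤ)}
    (hK : K ≤ parabolicHoms ℤ (Gamma0 M) ℤ) {φ : Additive (Gamma0 M) →+ ℤ} (hφ : φ ∈ K) :
    ∃ s : CuspForm (Gamma0 M) 2 × CuspForm (Gamma0 M) 2, periodHomPair M s = coeffC M φ := by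
  have h1 : coeffC M φ ∈ LinearMap.range (periodHomPair M) := by
    rw [(Fermat.Agent.S21.result M).2]
    exact coeffC_mem_parabolic M (hK hφ)
  exact h1

theorem lat_fg (K : Submodule ℤ (Additive (Gamma0 M) →+ ℤ))
    (hK : K ≤ parabolicHoms ℤ (Gamma0 M) ℤ) : (lat M K).FG := by
  have : Group.FG (Gamma0 M) := Fermat.Agent.S22.gamma0_fg M
  have : IsNoetherian ℤ (Additive (Gamma0 M) →+ ℤ) := LiftLemma.isNoetherian_hom
  have hKfg : K.FG := IsNoetherian.noetherian K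
  have hinj := (Fermat.Agent.S21.result M).1
  refine Submodule.fg_of_fg_map_injective (periodHomPair M).toAddMonoidHom.toIntLinearMap hinj ?_
  have h1 : (lat M K).map (periodHomPair M).toAddMonoidHom.toIntLinearMap =
      K.map (coeffC M).toIntLinearMap := by
    ext ψ
    constructor
    · rintro ⟨s, ⟨φ, hφ, hs⟩, rfl⟩
      exact ⟨φ, hφ, hs.symm⟩
    · rintro ⟨φ, hφ, rfl⟩
      obtain ⟨s, hs⟩ := exists_mem_lat M hK hφ
      exact ⟨s, ⟨φ, hφ, hs⟩, hs⟩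
  rw [h1]
  exact hKfg.map _

end Operators

/-! ### The core -/

section Main

variable (M : ℕ) [NeZero M]

/-- Hecke stability of the lattice. -/
theorem opSet_lat (K : Submodule ℤ (Additive (Gamma0 M) →+ ℤ))
    (hT : ∀ (ℓ : ℕ) [Fact ℓ.Prime] (hℓ : ¬ ℓ ∣ M), ∀ ψ ∈ K, heckeTHom M ℓ hℓ ψ ∈ K)
    (hU : ∀ (ℓ : ℕ) [NeZero ℓ] (hℓ : ℓ ∣ M), ℓ.Prime → ∀ ψ ∈ K, heckeUHom M ℓ hℓ ψ ∈ K) :
    ∀ t ∈ opSet M, ∀ x ∈ lat M K, t x ∈ lat M K := by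
  rintro t (⟨ℓ, hℓ, hℓM, rfl⟩ | ⟨ℓ, hℓ, hℓM, rfl⟩) x ⟨φ, hφ, hx⟩
  · have : Fact ℓ.Prime := ⟨hℓ⟩
    exact ⟨heckeTHom M ℓ hℓM φ, hT ℓ hℓM φ hφ, by rw [period_pairT, hx, coeffC_heckeT]⟩
  · have : NeZero ℓ := ⟨hℓ.ne_zero⟩
    exact ⟨heckeUHom M ℓ hℓM φ, hU ℓ hℓM hℓ φ hφ, by rw [period_pairU, hx, coeffC_heckeU]⟩

/-- **The level-`M` core of block [NEW]** (slice (N2)). -/
theorem core {p : ℕ} (_hp : p.Prime) : Fermat.Agent.S41.NewAsm.CoreStatement M p := by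
  intro Pset θ hP K hK hT hU y hy hyp hyθ
  classical
  have hinj := (Fermat.Agent.S21.result M).1
  -- the base vector
  obtain ⟨f₀, hf₀P⟩ := exists_mem_lat M hK hy
  have hf₀ : f₀ ∈ lat M K := ⟨y, hy, hf₀P⟩
  have hf₀' : ∀ s ∈ lat M K, f₀ ≠ (p : ℤ) • s := by
    rintro s ⟨z, hz, hs⟩ h
    apply hyp z hz
    apply coeffC_injective M
    rw [← hf₀P, h, map_zsmul, hs, map_zsmul]
  have hstab := opSet_lat M K hT hU
  obtain ⟨g, μ, 𝔪', hg0, hgspan, hmax, hpmem, hμ⟩ :=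
    DSSpan.exists_eigenvector_lift_p_span p (opSet M) (opSet_comm M) (lat M K) (lat_fg M K hK)
      hstab f₀ hf₀ hf₀'
  -- eigenvalues
  set lam : ℕ → ℂ := fun ℓ =>
    if h : ℓ.Prime then
      (if hM : ℓ ∣ M then ((μ (pairU M hM) : integralClosure ℤ ℂ) : ℂ)
        else ((μ (pairT M h hM) : integralClosure ℤ ℂ) : ℂ))
    else 0 with hlam
  have hlamT : ∀ (ℓ : ℕ) (hℓ : ℓ.Prime) (hℓM : ¬ ℓ ∣ M),
      lam ℓ = ((μ (pairT M hℓ hℓM) : integralClosure ℤ ℂ) : ℂ) := by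
    intro ℓ hℓ hℓM
    simp only [hlam, dif_pos hℓ, dif_neg hℓM]
  have hlamU : ∀ (ℓ : ℕ) (_ : ℓ.Prime) (hℓM : ℓ ∣ M),
      lam ℓ = ((μ (pairU M hℓM) : integralClosure ℤ ℂ) : ℂ) := by
    intro ℓ hℓ hℓM
    simp only [hlam, dif_pos hℓ, dif_pos hℓM]
  have hTg : ∀ (ℓ : ℕ) (hℓ : ℓ.Prime) (hℓM : ¬ ℓ ∣ M), pairT M hℓ hℓM g = lam ℓ • g := by
    intro ℓ hℓ hℓM
    rw [(hμ _ (pairT_mem_opSet M hℓ hℓM)).1, hlamT ℓ hℓ hℓM]
  have hUg : ∀ (ℓ : ℕ) (_ : ℓ.Prime) (hℓM : ℓ ∣ M), pairU M hℓM g = lam ℓ • g := by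
    intro ℓ hℓ hℓM
    rw [(hμ _ (pairU_mem_opSet M hℓ hℓM)).1, hlamU ℓ hℓ hℓM]
  -- a nonzero component
  obtain ⟨g', hg'0, hTg', hUg'⟩ : ∃ g' : CuspForm (Gamma0 M) 2, g' ≠ 0 ∧
      (∀ (ℓ : ℕ) (hℓ : ℓ.Prime) (hℓM : ¬ ℓ ∣ M),
        CuspForm.heckeTLin 2 hℓ hℓM g' = lam ℓ • g') ∧
      (∀ (ℓ : ℕ) (_ : ℓ.Prime) (hℓM : ℓ ∣ M), CuspForm.heckeULin 2 hℓM g' = lam ℓ • g') := by
    by_cases h1 : g.1 = 0
    · have h2 : g.2 ≠ 0 := fun h2 => hg0 (Prod.ext h1 h2)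
      exact ⟨g.2, h2, fun ℓ hℓ hℓM => congrArg Prod.snd (hTg ℓ hℓ hℓM),
        fun ℓ hℓ hℓM => congrArg Prod.snd (hUg ℓ hℓ hℓM)⟩
    · exact ⟨g.1, h1, fun ℓ hℓ hℓM => congrArg Prod.fst (hTg ℓ hℓ hℓM),
        fun ℓ hℓ hℓM => congrArg Prod.fst (hUg ℓ hℓ hℓM)⟩
  obtain ⟨f, hf, hfq⟩ :=
    Fermat.Agent.S49.exists_normalizedEigenform_of_eigenvector g' hg'0 lam hTg' hUg'
  refine ⟨f, 𝔪', hf, hmax, hpmem, ?_, ?_⟩
  · intro ℓ hℓP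
    obtain ⟨hℓ, hℓM⟩ := hP ℓ hℓP
    have : Fact ℓ.Prime := ⟨hℓ⟩
    refine ⟨μ (pairT M hℓ hℓM), ?_, ?_⟩
    · rw [hfq ℓ hℓ, hlamT ℓ hℓ hℓM]
    · apply (hμ _ (pairT_mem_opSet M hℓ hℓM)).2 (θ ℓ)
      obtain ⟨z, hz, hzeq⟩ := hyθ ℓ hℓM hℓP
      obtain ⟨s, hs⟩ := exists_mem_lat M hK hz
      refine ⟨s, ⟨z, hz, hs⟩, ?_⟩
      apply hinj
      rw [map_sub, period_pairT, hf₀P, map_zsmul, hf₀P, map_zsmul, hs, ← coeffC_heckeT,
        ← map_zsmul, ← map_sub, hzeq, map_zsmul]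
  · intro ℓ₀ _ h₀ hℓ₀ hsq
    have hUU : ∀ x ∈ lat M K, pairU M h₀ (pairU M h₀ x) = x := by
      rintro x ⟨φ, hφ, hx⟩
      apply hinj
      rw [period_pairU, period_pairU, hx, ← coeffC_heckeU, ← coeffC_heckeU, hsq φ hφ]
    have hle : Submodule.span ℂ (lat M K : Set (CuspForm (Gamma0 M) 2 × CuspForm (Gamma0 M) 2)) ≤
        LinearMap.eqLocus (pairU M h₀ * pairU M h₀) LinearMap.id :=
      Submodule.span_le.mpr (fun x hx => hUU x hx)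
    have h1 : pairU M h₀ (pairU M h₀ g) = g := hle hgspan
    have h2 := hUg ℓ₀ hℓ₀ h₀
    rw [h2, map_smul, h2, smul_smul] at h1
    have h3 : (lam ℓ₀ * lam ℓ₀ - 1) • g = 0 := by rw [sub_smul, h1, one_smul, sub_self]
    rcases smul_eq_zero.mp h3 with h4 | h4
    · rw [hfq ℓ₀ hℓ₀, pow_two]
      exact sub_eq_zero.mp h4
    · exact absurd h4 hg0

end Main

end Fermat.Agent.S41.NewCore
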