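/-
S41 (level raising), block [COH], leaf (C4)-P3: the degeneracy maps `res₁`, `res₂` and the
transfers `tr₁`, `tr₂` preserve parabolic classes.  Owner: helper80.
-/
import Mathlib
import Fermat.Agent.S41.TrReps
import Fermat.Agent.S41.ParMem

set_option autoImplicit false

noncomputable section

open CongruenceSubgroup Matrix.SpecialLinearGroup ModularCurve.Period
open scoped MatrixGroups

namespace Fermat.Agent.S41

section CohMem

variable {A : Type*} [AddCommGroup A]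

/-- `res₁` preserves parabolic homomorphisms (any coefficients). -/
theorem isParabolicHom_res₁ (N q : ℕ) {φ : Additive (Gamma0 N) →+ A}
    (h : IsParabolicHom (Gamma0 N) φ) : IsParabolicHom (Gamma0 (N * q)) (res₁ N q φ) := by
  intro γ hγ
  rw [res₁_apply]
  exact h (incl₁ N q γ) hγ

/-- `res₂` preserves parabolic homomorphisms (any coefficients). -/
theorem isParabolicHom_res₂ (N q : ℕ) {φ : Additive (Gamma0 N) →+ A}
    (h : IsParabolicHom (Gamma0 N) φ) : IsParabolicHom (Gamma0 (N * q)) (res₂ N q φ) := by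
  intro γ hγ
  rw [res₂_apply]
  apply h (incl₂ N q γ)
  rw [Matrix.trace_fin_two] at hγ ⊢
  exact hγ

/-- `diag(q, 1)` in `GL(2, ℝ)`. -/
def deltaGL (q : ℕ) [Fact q.Prime] : GL (Fin 2) ℝ :=
  Matrix.GeneralLinearGroup.mkOfDetNeZero !![(q : ℝ), 0; 0, 1] (by
    rw [Matrix.det_fin_two_of]
    have : (q : ℝ) ≠ 0 := Nat.cast_ne_zero.mpr (Fact.out : q.Prime).ne_zero
    simpa using this)

theorem deltaGL_mul (N q : ℕ) [Fact q.Prime] (h : Gamma0 (N * q)) :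
    deltaGL q * mapGL ℝ (h : SL(2, ℤ)) = mapGL ℝ ((incl₂ N q h : Gamma0 N) : SL(2, ℤ)) * deltaGL q := by
  have he := incl₂_entries N q h
  have h10 : ((((incl₂ N q h : Gamma0 N) : SL(2, ℤ)) 1 0 : ℤ) : ℝ) * (q : ℝ) =
      (((h : SL(2, ℤ)) 1 0 : ℤ) : ℝ) := by
    rw [mul_comm]
    exact_mod_cast he.2.2.1
  apply Matrix.GeneralLinearGroup.ext
  intro i j
  rw [Matrix.GeneralLinearGroup.coe_mul, Matrix.GeneralLinearGroup.coe_mul,
    mapGL_coe_matrix, mapGL_coe_matrix, Matrix.mul_apply, Matrix.mul_apply, Fin.sum_univ_two,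
    Fin.sum_univ_two]
  fin_cases i <;> fin_cases j
  · simp [deltaGL, Matrix.GeneralLinearGroup.mkOfDetNeZero, he.1, mul_comm]
  · simp [deltaGL, Matrix.GeneralLinearGroup.mkOfDetNeZero, he.2.1]
  · simpa [deltaGL, Matrix.GeneralLinearGroup.mkOfDetNeZero] using h10.symm
  · simp [deltaGL, Matrix.GeneralLinearGroup.mkOfDetNeZero, he.2.2.2]

variable {N q : ℕ} [Fact q.Prime]

/-- `tr₁` preserves parabolic homomorphisms (any coefficients). -/
theorem isParabolicHom_tr₁ (hqN : ¬ q ∣ N) {ψ : Additive (Gamma0 (N * q)) →+ A}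
    (h : IsParabolicHom (Gamma0 (N * q)) ψ) : IsParabolicHom (Gamma0 N) (tr₁ N q ψ) := by
  intro γ hγ
  rw [tr₁_apply hqN]
  refine ParMem.sum_eq_zero_of_parabolic ψ h
    (fun x => mapGL ℝ ((rep₁ N q x : Gamma0 N) : SL(2, ℤ))) (γ : SL(2, ℤ)) hγ
    ((trData₁ N q hqN).perm γ) ((trData₁ N q hqN).part γ) (fun x => ?_)
  have hs := congrArg (fun g : Gamma0 N => mapGL ℝ (g : SL(2, ℤ))) (trData₁_spec hqN γ x)
  simp only [Subgroup.coe_mul, map_mul, incl₁_coe] at hs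
  exact hs

/-- `tr₂` preserves parabolic homomorphisms (any coefficients). -/
theorem isParabolicHom_tr₂ (hqN : ¬ q ∣ N) {ψ : Additive (Gamma0 (N * q)) →+ A}
    (h : IsParabolicHom (Gamma0 (N * q)) ψ) : IsParabolicHom (Gamma0 N) (tr₂ N q ψ) := by
  intro γ hγ
  rw [tr₂_apply hqN]
  refine ParMem.sum_eq_zero_of_parabolic ψ h
    (fun x => (deltaGL q)⁻¹ * mapGL ℝ ((rep₂ N q hqN x : Gamma0 N) : SL(2, ℤ))) (γ : SL(2, ℤ)) hγ
    ((trData₂ N q hqN).perm γ) ((trData₂ N q hqN).part γ) (fun x => ?_)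
  have hs := congrArg (fun g : Gamma0 N => mapGL ℝ (g : SL(2, ℤ))) (trData₂_spec hqN γ x)
  simp only [Subgroup.coe_mul, map_mul] at hs
  have hd := deltaGL_mul N q ((trData₂ N q hqN).part γ x)
  calc (deltaGL q)⁻¹ * mapGL ℝ ((rep₂ N q hqN x : Gamma0 N) : SL(2, ℤ)) * mapGL ℝ (γ : SL(2, ℤ))
      = (deltaGL q)⁻¹ * (mapGL ℝ ((rep₂ N q hqN x : Gamma0 N) : SL(2, ℤ)) *
          mapGL ℝ (γ : SL(2, ℤ))) := by rw [mul_assoc]
    _ = (deltaGL q)⁻¹ * (mapGL ℝ ((incl₂ N q ((trData₂ N q hqN).part γ x) : Gamma0 N) : SL(2, ℤ)) *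
          mapGL ℝ ((rep₂ N q hqN ((trData₂ N q hqN).perm γ x) : Gamma0 N) : SL(2, ℤ))) := by
        rw [hs]
    _ = (deltaGL q)⁻¹ * (mapGL ℝ ((incl₂ N q ((trData₂ N q hqN).part γ x) : Gamma0 N) : SL(2, ℤ)) *
          deltaGL q) * ((deltaGL q)⁻¹ *
          mapGL ℝ ((rep₂ N q hqN ((trData₂ N q hqN).perm γ x) : Gamma0 N) : SL(2, ℤ))) := by
        group
    _ = mapGL ℝ (((trData₂ N q hqN).part γ x : Gamma0 (N * q)) : SL(2, ℤ)) *
          ((deltaGL q)⁻¹ *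
          mapGL ℝ ((rep₂ N q hqN ((trData₂ N q hqN).perm γ x) : Gamma0 N) : SL(2, ℤ))) := by
        rw [← hd, inv_mul_cancel_left]

/-! ### The `Lpar` forms of the skeleton -/

theorem res₁_mem (N q : ℕ) {φ : Additive (Gamma0 N) →+ ℤ} (h : φ ∈ Lpar N) :
    res₁ N q φ ∈ Lpar (N * q) :=
  isParabolicHom_res₁ N q h

theorem res₂_mem (N q : ℕ) {φ : Additive (Gamma0 N) →+ ℤ} (h : φ ∈ Lpar N) :
    res₂ N q φ ∈ Lpar (N * q) :=
  isParabolicHom_res₂ N q h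

theorem tr₁_mem (hqN : ¬ q ∣ N) {ψ : Additive (Gamma0 (N * q)) →+ ℤ} (h : ψ ∈ Lpar (N * q)) :
    tr₁ N q ψ ∈ Lpar N :=
  isParabolicHom_tr₁ hqN h

theorem tr₂_mem (hqN : ¬ q ∣ N) {ψ : Additive (Gamma0 (N * q)) →+ ℤ} (h : ψ ∈ Lpar (N * q)) :
    tr₂ N q ψ ∈ Lpar N :=
  isParabolicHom_tr₂ hqN h

end CohMem

end Fermat.Agent.S41
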