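/-
S41, block [FS] (owner: helper97): from the eigenform `f` to an eigenvector modulo `p` in the
parabolic lattice `L_N = Hom_par(Γ₀(N), ℤ)`.

`v := periodHomPair N (f, 0)` is a nonzero parabolic complex class with `T_ℓ v = a_ℓ(f) • v`
(Eichler–Shimura injectivity, `S16/HeckePairB`, `FSEigen`); it lies in the `ℂ`-span of the
complexified lattice (`LiftLemma.mem_span_toC`), the lattice is finite free (`LparFree`) and stable
under `T_ℓ` (`ParMem`); the abstract lemma `FSAlg.exists_eigen_mod_p` does the rest.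
-/
import Mathlib
import Fermat.Prelude.Def_FLTPrelim_ModularRep
import Fermat.Agent.S21.Main
import Fermat.Agent.S16.HeckePairB
import Fermat.Agent.S16.LiftLemma
import Fermat.Agent.S22.GammaFG
import Fermat.Agent.S41.Defs
import Fermat.Agent.S41.ParMem
import Fermat.Agent.S41.LparFree
import Fermat.Agent.S41.FSEigen
import Fermat.Agent.S41.FSAlg

set_option autoImplicit false

open CongruenceSubgroup ModularCurve ModularCurve.Period
open scoped MatrixGroups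

namespace Fermat.Agent.S41.FS

open Fermat.Agent.S16 (heckeTHom heckeUHom tData)

/-- **Block [FS].** -/
theorem exists_eigen_mod_p_of_eigenform (N : ℕ) [NeZero N] {p : ℕ} (hp : p.Prime)
    (f : CuspForm (Gamma0 N) 2) (hf : f.IsNormalizedEigenform)
    (𝔪 : Ideal (integralClosure ℤ ℂ)) (hmax : 𝔪.IsMaximal) (hpm : (p : integralClosure ℤ ℂ) ∈ 𝔪)
    (Pset : Set ℕ) (θ : ℕ → ℤ)
    (hθ : ∀ ℓ ∈ Pset, ℓ.Prime ∧ ¬ ℓ ∣ N ∧ ∃ a : integralClosure ℤ ℂ,
      (a : ℂ) = ModularFormClass.qCoeff f ℓ ∧ a - (θ ℓ : integralClosure ℤ ℂ) ∈ 𝔪) :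
    ∃ x₀ : Lpar N, (¬ ∃ z : Lpar N, x₀ = (p : ℤ) • z) ∧
      ∀ (ℓ : ℕ) [Fact ℓ.Prime] (hℓ : ¬ ℓ ∣ N), ℓ ∈ Pset →
        ∃ z : Lpar N, heckeTHom N ℓ hℓ x₀.1 - θ ℓ • x₀.1 = (p : ℤ) • z.1 := by
  classical
  have hfg : Group.FG ↥(Gamma0 N) := Fermat.Agent.S22.gamma0_fg N
  have hfin : Module.Finite ℤ (Lpar N) := LparFree.lpar_finite N
  have hfree : Module.Free ℤ (Lpar N) := LparFree.lpar_free N
  -- the index type and its basic data
  have hprime : ∀ i : {ℓ : ℕ // ℓ ∈ Pset}, Fact (i.1.Prime) := fun i => ⟨(hθ i.1 i.2).1⟩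
  have hnd : ∀ i : {ℓ : ℕ // ℓ ∈ Pset}, ¬ i.1 ∣ N := fun i => (hθ i.1 i.2).2.1
  -- the operators on the lattice
  let T : {ℓ : ℕ // ℓ ∈ Pset} → (Lpar N →+ Lpar N) := fun i =>
    haveI := hprime i
    { toFun := fun x => ⟨heckeTHom N i.1 (hnd i) x.1,
        ParMem.isParabolicHom_heckeTHom (hnd i) x.2⟩
      map_zero' := Subtype.ext (tData N i.1 (hnd i)).op_zero
      map_add' := fun x y => Subtype.ext ((tData N i.1 (hnd i)).op_add x.1 y.1) }
  -- the operators on complex classes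
  let TV : {ℓ : ℕ // ℓ ∈ Pset} →
      ((Additive (Gamma0 N) →+ ℂ) →ₗ[ℂ] (Additive (Gamma0 N) →+ ℂ)) := fun i =>
    haveI := hprime i
    { toFun := fun φ => heckeTHom N i.1 (hnd i) φ
      map_add' := fun φ ψ => (tData N i.1 (hnd i)).op_add φ ψ
      map_smul' := fun c φ => (tData N i.1 (hnd i)).op_smul c φ }
  -- complexification
  let j : Lpar N →+ (Additive (Gamma0 N) →+ ℂ) :=
    { toFun := fun x => (Int.castAddHom ℂ).comp x.1
      map_zero' := AddMonoidHom.comp_zero _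
      map_add' := fun x y => AddMonoidHom.comp_add _ x.1 y.1 }
  have hj : ∀ i x, j (T i x) = TV i (j x) := fun i x =>
    haveI := hprime i
    ((tData N i.1 (hnd i)).op_comp (Int.castAddHom ℂ) x.1).symm
  have hjind : ∀ (r : ℕ) (x : Fin r → Lpar N), LinearIndependent ℤ x →
      LinearIndependent ℂ (fun k => j (x k)) := fun r x hx =>
    FSAlg.linearIndependent_intCast_comp (fun k => (x k).1)
      (hx.map' (Lpar N).subtype (Submodule.ker_subtype _))
  -- the eigenvector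
  set v : Additive (Gamma0 N) →+ ℂ := periodHomPair N (f, 0) with hv
  have hv0 : v ≠ 0 := by
    intro h0
    have h1 : periodHomPair N (f, 0) = periodHomPair N 0 := by
      rw [← hv, h0, map_zero]
    exact hf.ne_zero (congrArg Prod.fst (Fermat.Agent.S21.periodHomPair_injective_Gamma0 N h1))
  have hvpar : v ∈ parabolicHoms ℂ (Gamma0 N) ℂ :=
    Fermat.Agent.S21.range_periodHomPair_le_Gamma0 N ⟨(f, 0), rfl⟩
  have hvspan : v ∈ Submodule.span ℂ (Set.range j) := by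
    have h1 := Fermat.Agent.S16.LiftLemma.mem_span_toC
      {γ : Gamma0 N | ((γ : SL(2, ℤ)) : Matrix (Fin 2) (Fin 2) ℤ).trace ^ 2 = 4} v
      (fun γ hγ => hvpar γ hγ)
    refine Submodule.span_mono ?_ h1
    rintro _ ⟨ψ, hψ, rfl⟩
    exact ⟨⟨ψ, fun γ hγ => hψ γ hγ⟩, rfl⟩
  have hθ' : ∀ i : {ℓ : ℕ // ℓ ∈ Pset}, ∃ a : integralClosure ℤ ℂ,
      TV i v = (a : ℂ) • v ∧ a - ((θ i.1 : ℤ) : integralClosure ℤ ℂ) ∈ 𝔪 := by
    intro i
    obtain ⟨hℓ, hℓN, a, ha, ham⟩ := hθ i.1 i.2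
    refine ⟨a, ?_, ham⟩
    have := hprime i
    have h1 := Fermat.Agent.S16.HeckePairB.periodHomPair_heckeTLin hℓ hℓN f 0
    rw [map_zero, FSEigen.heckeTLin_eq_smul f hf hℓ hℓN] at h1
    have h2 : ((ModularFormClass.qCoeff f i.1 • f, (0 : CuspForm (Gamma0 N) 2)) :
        CuspForm (Gamma0 N) 2 × CuspForm (Gamma0 N) 2)
        = ModularFormClass.qCoeff f i.1 • (f, 0) := by
      rw [Prod.smul_mk, smul_zero]
    rw [h2, map_smul] at h1
    rw [ha]
    exact h1.symm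
  obtain ⟨x₀, hx₀, hT⟩ := FSAlg.exists_eigen_mod_p hp j hjind T TV hj v hv0 hvspan 𝔪 hmax hpm
    (fun i => θ i.1) hθ'
  refine ⟨x₀, hx₀, ?_⟩
  intro ℓ _ hℓ hmem
  obtain ⟨z, hz⟩ := hT ⟨ℓ, hmem⟩
  refine ⟨z, ?_⟩
  have h1 := congrArg Subtype.val hz
  exact h1

end Fermat.Agent.S41.FS
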