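import Mathlib

/-!
# S41 [AM] (AM-b): generation of `Γ0(N)[1/q]` by `Γ0(N)` and `δ⁻¹ Γ0(N) δ`

Definition-independent core: any subgroup `S` of `SL(2, ℚ)` which contains the integral
matrices with lower-left entry divisible by `N` ("type 1") and the matrices
`[[a, b/q], [q c, d]]` with `[[a, b], [c, d]] ∈ Γ0(N)` ("type 2") contains every matrix
with entries in `ℤ[1/q]` whose lower-left entry lies in `N ℤ[1/q]`.
-/

namespace Fermat.Agent.S41.AMGen

open Matrix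

/-- First column clearing, main case. -/
theorem col1_aux (N q : ℕ) (hq : q.Prime) (hqN : ¬ q ∣ N) (X Y Z W : ℤ)
    (hdet : (q : ℤ) ∣ X * W - Y * Z) (hX : ¬ (q : ℤ) ∣ X) :
    ∃ t : ℤ, (q : ℤ) ∣ X * (1 + N * t) + Y * N ∧ (q : ℤ) ∣ Z * (1 + N * t) + W * N := by
  have hqp : Prime (q : ℤ) := Nat.prime_iff_prime_int.mp hq
  have hN' : ¬ (q : ℤ) ∣ (N : ℤ) := by
    intro h
    exact hqN (Int.natCast_dvd_natCast.mp h)
  have hXN : ¬ (q : ℤ) ∣ X * N := by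
    intro h
    rcases hqp.dvd_or_dvd h with h | h
    · exact hX h
    · exact hN' h
  have hcop : IsCoprime (X * N) (q : ℤ) :=
    (hqp.coprime_iff_not_dvd.mpr hXN).symm
  obtain ⟨u, v, huv⟩ := hcop
  refine ⟨-u * (Y * N + X), ?_, ?_⟩
  · have h1 : (q : ℤ) ∣ X * (1 + N * (-u * (Y * N + X))) + Y * N := by
      refine ⟨(X + Y * N) * v, ?_⟩
      linear_combination (-(X + Y * N)) * huv
    exact h1
  · have h1 : (q : ℤ) ∣ X * (1 + N * (-u * (Y * N + X))) + Y * N := by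
      refine ⟨(X + Y * N) * v, ?_⟩
      linear_combination (-(X + Y * N)) * huv
    have h2 : (q : ℤ) ∣ X * (Z * (1 + N * (-u * (Y * N + X))) + W * N) := by
      have : X * (Z * (1 + N * (-u * (Y * N + X))) + W * N)
          = Z * (X * (1 + N * (-u * (Y * N + X))) + Y * N) + N * (X * W - Y * Z) := by ring
      rw [this]
      exact dvd_add (Dvd.dvd.mul_left h1 _) (Dvd.dvd.mul_left hdet _)
    rcases hqp.dvd_or_dvd h2 with h | h
    · exact absurd h hX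
    · exact h

/-- First column clearing by an element of `Γ0(N)`. -/
theorem col1 (N q : ℕ) (hq : q.Prime) (hqN : ¬ q ∣ N) (X Y Z W : ℤ)
    (hdet : (q : ℤ) ∣ X * W - Y * Z) :
    ∃ a b c d : ℤ, a * d - b * c = 1 ∧ (N : ℤ) ∣ c ∧ (q : ℤ) ∣ X * a + Y * c ∧
      (q : ℤ) ∣ Z * a + W * c := by
  by_cases hX : (q : ℤ) ∣ X
  · by_cases hZ : (q : ℤ) ∣ Z
    · exact ⟨1, 0, 0, 1, by ring, dvd_zero _, by simpa using hX, by simpa using hZ⟩
    · have hdet' : (q : ℤ) ∣ Z * Y - W * X := by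
        have : Z * Y - W * X = -(X * W - Y * Z) := by ring
        rw [this]
        exact (dvd_neg).mpr hdet
      obtain ⟨t, h1, h2⟩ := col1_aux N q hq hqN Z W X Y hdet' hZ
      exact ⟨1 + N * t, t, N, 1, by ring, dvd_refl _, h2, h1⟩
  · obtain ⟨t, h1, h2⟩ := col1_aux N q hq hqN X Y Z W hdet hX
    exact ⟨1 + N * t, t, N, 1, by ring, dvd_refl _, h1, h2⟩

/-- Second column clearing, main case. -/
theorem col2_aux (q : ℕ) (hq : q.Prime) (X Y Z W : ℤ)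
    (hdet : (q : ℤ) ∣ X * W - Y * Z) (hX : ¬ (q : ℤ) ∣ X) :
    ∃ t : ℤ, (q : ℤ) ∣ X * t + Y ∧ (q : ℤ) ∣ Z * t + W := by
  have hqp : Prime (q : ℤ) := Nat.prime_iff_prime_int.mp hq
  have hcop : IsCoprime X (q : ℤ) := (hqp.coprime_iff_not_dvd.mpr hX).symm
  obtain ⟨u, v, huv⟩ := hcop
  have h1 : (q : ℤ) ∣ X * (-u * Y) + Y := by
    refine ⟨Y * v, ?_⟩
    linear_combination (-Y) * huv
  refine ⟨-u * Y, h1, ?_⟩
  have h2 : (q : ℤ) ∣ X * (Z * (-u * Y) + W) := by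
    have : X * (Z * (-u * Y) + W) = Z * (X * (-u * Y) + Y) + (X * W - Y * Z) := by ring
    rw [this]
    exact dvd_add (Dvd.dvd.mul_left h1 _) hdet
  rcases hqp.dvd_or_dvd h2 with h | h
  · exact absurd h hX
  · exact h

/-- Second column clearing by an element of `Γ0(N)`. -/
theorem col2 (N q : ℕ) (hq : q.Prime) (hqN : ¬ q ∣ N) (X Y Z W : ℤ)
    (hdet : (q : ℤ) ∣ X * W - Y * Z) :
    ∃ a b c d : ℤ, a * d - b * c = 1 ∧ (N : ℤ) ∣ c ∧ (q : ℤ) ∣ X * b + Y * d ∧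
      (q : ℤ) ∣ Z * b + W * d := by
  have hqp : Prime (q : ℤ) := Nat.prime_iff_prime_int.mp hq
  by_cases hX : (q : ℤ) ∣ X
  · by_cases hZ : (q : ℤ) ∣ Z
    · have hN' : ¬ (q : ℤ) ∣ (N : ℤ) := by
        intro h
        exact hqN (Int.natCast_dvd_natCast.mp h)
      have hcop : IsCoprime (q : ℤ) (N : ℤ) := hqp.coprime_iff_not_dvd.mpr hN'
      obtain ⟨u, v, huv⟩ := hcop
      refine ⟨1, -v, N, q * u, by linear_combination huv, dvd_refl _, ?_, ?_⟩
      · exact dvd_add (Dvd.dvd.mul_right hX _) ⟨Y * u, by ring⟩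
      · exact dvd_add (Dvd.dvd.mul_right hZ _) ⟨W * u, by ring⟩
    · have hdet' : (q : ℤ) ∣ Z * Y - W * X := by
        have : Z * Y - W * X = -(X * W - Y * Z) := by ring
        rw [this]
        exact (dvd_neg).mpr hdet
      obtain ⟨t, h1, h2⟩ := col2_aux q hq Z W X Y hdet' hZ
      exact ⟨1, t, 0, 1, by ring, dvd_zero _, by simpa using h2, by simpa using h1⟩
  · obtain ⟨t, h1, h2⟩ := col2_aux q hq X Y Z W hdet hX
    exact ⟨1, t, 0, 1, by ring, dvd_zero _, by simpa using h1, by simpa using h2⟩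

/-- Explicit element of `SL(2, ℚ)`. -/
def mk (a b c d : ℚ) (h : a * d - b * c = 1) : Matrix.SpecialLinearGroup (Fin 2) ℚ :=
  ⟨!![a, b; c, d], by rw [Matrix.det_fin_two_of]; exact h⟩

theorem mk_00 (a b c d : ℚ) (h : a * d - b * c = 1) : (mk a b c d h) 0 0 = a := rfl
theorem mk_01 (a b c d : ℚ) (h : a * d - b * c = 1) : (mk a b c d h) 0 1 = b := rfl
theorem mk_10 (a b c d : ℚ) (h : a * d - b * c = 1) : (mk a b c d h) 1 0 = c := rfl
theorem mk_11 (a b c d : ℚ) (h : a * d - b * c = 1) : (mk a b c d h) 1 1 = d := rfl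

theorem mul_00 (g h : Matrix.SpecialLinearGroup (Fin 2) ℚ) :
    (g * h) 0 0 = g 0 0 * h 0 0 + g 0 1 * h 1 0 := by
  simp [Matrix.SpecialLinearGroup.coe_mul, Matrix.mul_apply, Fin.sum_univ_two]

theorem mul_01 (g h : Matrix.SpecialLinearGroup (Fin 2) ℚ) :
    (g * h) 0 1 = g 0 0 * h 0 1 + g 0 1 * h 1 1 := by
  simp [Matrix.SpecialLinearGroup.coe_mul, Matrix.mul_apply, Fin.sum_univ_two]

theorem mul_10 (g h : Matrix.SpecialLinearGroup (Fin 2) ℚ) :
    (g * h) 1 0 = g 1 0 * h 0 0 + g 1 1 * h 1 0 := by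
  simp [Matrix.SpecialLinearGroup.coe_mul, Matrix.mul_apply, Fin.sum_univ_two]

theorem mul_11 (g h : Matrix.SpecialLinearGroup (Fin 2) ℚ) :
    (g * h) 1 1 = g 1 0 * h 0 1 + g 1 1 * h 1 1 := by
  simp [Matrix.SpecialLinearGroup.coe_mul, Matrix.mul_apply, Fin.sum_univ_two]

theorem det_entries (g : Matrix.SpecialLinearGroup (Fin 2) ℚ) :
    g 0 0 * g 1 1 - g 0 1 * g 1 0 = 1 := by
  have := g.det_coe
  rwa [Matrix.det_fin_two] at this

/-- The induction: integrality of `q ^ n • g`. -/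
theorem mem_aux (N q : ℕ) (hq : q.Prime) (hqN : ¬ q ∣ N)
    (S : Subgroup (Matrix.SpecialLinearGroup (Fin 2) ℚ))
    (h1 : ∀ (g : Matrix.SpecialLinearGroup (Fin 2) ℚ) (a b c d : ℤ), g 0 0 = a → g 0 1 = b →
      g 1 0 = c → g 1 1 = d → (N : ℤ) ∣ c → g ∈ S)
    (h2 : ∀ (g : Matrix.SpecialLinearGroup (Fin 2) ℚ) (a b c d : ℤ), g 0 0 = a →
      g 0 1 * q = b → g 1 0 = q * c → g 1 1 = d → (N : ℤ) ∣ c → g ∈ S) :
    ∀ (n : ℕ) (g : Matrix.SpecialLinearGroup (Fin 2) ℚ) (A B C D : ℤ),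
      g 0 0 * (q : ℚ) ^ n = A → g 0 1 * (q : ℚ) ^ n = B → g 1 0 * (q : ℚ) ^ n = C →
      g 1 1 * (q : ℚ) ^ n = D → (N : ℤ) ∣ C → g ∈ S := by
  intro n
  induction n with
  | zero =>
    intro g A B C D hA hB hC hD hN
    simp only [pow_zero, mul_one] at hA hB hC hD
    exact h1 g A B C D hA hB hC hD hN
  | succ n ih =>
    intro g A B C D hA hB hC hD hN
    have hqp : Prime (q : ℤ) := Nat.prime_iff_prime_int.mp hq
    have hq0 : (q : ℚ) ≠ 0 := by exact_mod_cast hq.ne_zero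
    have hqZ0 : (q : ℤ) ≠ 0 := by exact_mod_cast hq.ne_zero
    have hdetg := det_entries g
    have hdetZ : A * D - B * C = (q : ℤ) ^ (2 * n + 1) * q := by
      have : ((A * D - B * C : ℤ) : ℚ) = (((q : ℤ) ^ (2 * n + 1) * q : ℤ) : ℚ) := by
        push_cast
        rw [← hA, ← hB, ← hC, ← hD]
        linear_combination ((q : ℚ) ^ (n + 1)) ^ 2 * hdetg
      exact_mod_cast this
    obtain ⟨a, b, c, d, hdet1, hNc, ⟨A', hA'⟩, ⟨C', hC'⟩⟩ :=
      col1 N q hq hqN A B C D (by rw [hdetZ]; exact Dvd.intro_left _ rfl)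
    have hdet' : A' * (C * b + D * d) - (A * b + B * d) * C' = (q : ℤ) ^ (2 * n) * q := by
      apply mul_left_cancel₀ hqZ0
      have e1 : (q : ℤ) * (A' * (C * b + D * d) - (A * b + B * d) * C')
          = (A * a + B * c) * (C * b + D * d) - (A * b + B * d) * (C * a + D * c) := by
        rw [hA', hC']; ring
      rw [e1]
      have e2 : (A * a + B * c) * (C * b + D * d) - (A * b + B * d) * (C * a + D * c)
          = (A * D - B * C) * (a * d - b * c) := by ring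
      rw [e2, hdetZ, hdet1]
      ring
    obtain ⟨a₂, b₂, c₂, d₂, hdet2, hNc₂, ⟨F, hF⟩, ⟨H, hH⟩⟩ :=
      col2 N q hq hqN A' (A * b + B * d) C' (C * b + D * d)
        (by rw [hdet']; exact Dvd.intro_left _ rfl)
    -- rational versions
    have hA'q : (A : ℚ) * a + B * c = q * A' := by exact_mod_cast hA'
    have hC'q : (C : ℚ) * a + D * c = q * C' := by exact_mod_cast hC'
    have hFq : (A' : ℚ) * b₂ + (A * b + B * d) * d₂ = q * F := by exact_mod_cast hF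
    have hHq : (C' : ℚ) * b₂ + (C * b + D * d) * d₂ = q * H := by exact_mod_cast hH
    have hd1q : (a : ℚ) * d - b * c = 1 := by exact_mod_cast hdet1
    have hd2q : (a₂ : ℚ) * d₂ - b₂ * c₂ = 1 := by exact_mod_cast hdet2
    obtain ⟨x, hx⟩ : ∃ x : ℚ, x * q = b₂ := ⟨b₂ / q, by field_simp⟩
    let s₁ := mk a b c d hd1q
    let s₂ := mk a₂ x (q * c₂) d₂ (by linear_combination hd2q - (c₂ : ℚ) * hx)
    have hs₁ : s₁ ∈ S := h1 s₁ a b c d rfl rfl rfl rfl hNc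
    have hs₂ : s₂ ∈ S := h2 s₂ a₂ b₂ c₂ d₂ rfl hx rfl rfl hNc₂
    have hNC' : (N : ℤ) ∣ C' := by
      have hN' : ¬ (q : ℤ) ∣ (N : ℤ) := by
        intro h
        exact hqN (Int.natCast_dvd_natCast.mp h)
      have hcop : IsCoprime (N : ℤ) (q : ℤ) := (hqp.coprime_iff_not_dvd.mpr hN').symm
      have : (N : ℤ) ∣ q * C' := by
        rw [← hC']
        exact dvd_add (hN.mul_right _) (hNc.mul_left _)
      exact hcop.dvd_of_dvd_mul_left this
    have key : g * s₁ * s₂ ∈ S := by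
      refine ih (g * s₁ * s₂) (A' * a₂ + (A * b + B * d) * c₂) F
        (C' * a₂ + (C * b + D * d) * c₂) H ?_ ?_ ?_ ?_
        (dvd_add (hNC'.mul_right _) (hNc₂.mul_left _))
      · rw [mul_00, mul_00, mul_01]
        simp only [s₁, s₂, mk_00, mk_01, mk_10, mk_11]
        push_cast
        apply mul_right_cancel₀ hq0
        linear_combination ((a : ℚ) * a₂ + b * q * c₂) * hA + ((c : ℚ) * a₂ + d * q * c₂) * hB
          + (a₂ : ℚ) * hA'q
      · rw [mul_01, mul_00, mul_01]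
        simp only [s₁, s₂, mk_00, mk_01, mk_10, mk_11]
        apply mul_right_cancel₀ hq0
        apply mul_right_cancel₀ hq0
        linear_combination ((a : ℚ) * x * q + b * d₂ * q) * hA + ((c : ℚ) * x * q + d * d₂ * q) * hB
          + ((A : ℚ) * a + B * c) * hx + (b₂ : ℚ) * hA'q + (q : ℚ) * hFq
      · rw [mul_10, mul_10, mul_11]
        simp only [s₁, s₂, mk_00, mk_01, mk_10, mk_11]
        push_cast
        apply mul_right_cancel₀ hq0
        linear_combination ((a : ℚ) * a₂ + b * q * c₂) * hC + ((c : ℚ) * a₂ + d * q * c₂) * hD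
          + (a₂ : ℚ) * hC'q
      · rw [mul_11, mul_10, mul_11]
        simp only [s₁, s₂, mk_00, mk_01, mk_10, mk_11]
        apply mul_right_cancel₀ hq0
        apply mul_right_cancel₀ hq0
        linear_combination ((a : ℚ) * x * q + b * d₂ * q) * hC + ((c : ℚ) * x * q + d * d₂ * q) * hD
          + ((C : ℚ) * a + D * c) * hx + (b₂ : ℚ) * hC'q + (q : ℚ) * hHq
    have hg : g = g * s₁ * s₂ * s₂⁻¹ * s₁⁻¹ := by group
    rw [hg]
    exact S.mul_mem (S.mul_mem key (S.inv_mem hs₂)) (S.inv_mem hs₁)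

/-- An element of `ℤ[1/q]` has a `q`-power denominator of every large exponent. -/
theorem exists_int_pow (q : ℕ) (x : ℚ) (h : ∃ (k : ℕ) (z : ℤ), x * (q : ℚ) ^ k = z) :
    ∃ k : ℕ, ∀ n : ℕ, k ≤ n → ∃ z : ℤ, x * (q : ℚ) ^ n = z := by
  obtain ⟨k, z, hz⟩ := h
  refine ⟨k, fun n hk => ⟨z * (q : ℤ) ^ (n - k), ?_⟩⟩
  push_cast
  rw [← hz, mul_assoc, ← pow_add, Nat.add_sub_cancel' hk]

/-- **Generation of `Γ0(N)[1/q]`** (definition-independent form). A subgroup of `SL(2, ℚ)`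
containing the image of `Γ0(N)` (type 1) and of `δ⁻¹ Γ0(N) δ`, `δ = diag(q, 1)` (type 2),
contains every matrix with entries in `ℤ[1/q]` and lower-left entry in `N ℤ[1/q]`. -/
theorem mem_of_gens (N q : ℕ) (hq : q.Prime) (hqN : ¬ q ∣ N)
    (S : Subgroup (Matrix.SpecialLinearGroup (Fin 2) ℚ))
    (h1 : ∀ (g : Matrix.SpecialLinearGroup (Fin 2) ℚ) (a b c d : ℤ), g 0 0 = a → g 0 1 = b →
      g 1 0 = c → g 1 1 = d → (N : ℤ) ∣ c → g ∈ S)
    (h2 : ∀ (g : Matrix.SpecialLinearGroup (Fin 2) ℚ) (a b c d : ℤ), g 0 0 = a →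
      g 0 1 * q = b → g 1 0 = q * c → g 1 1 = d → (N : ℤ) ∣ c → g ∈ S)
    (g : Matrix.SpecialLinearGroup (Fin 2) ℚ)
    (hg : (∀ i j, ∃ (k : ℕ) (z : ℤ), g i j * (q : ℚ) ^ k = z) ∧
      ∃ y : ℚ, (∃ (k : ℕ) (z : ℤ), y * (q : ℚ) ^ k = z) ∧ g 1 0 = N * y) : g ∈ S := by
  obtain ⟨hent, y, ⟨ky, zy, hzy⟩, hy⟩ := hg
  obtain ⟨k00, h00⟩ := exists_int_pow q _ (hent 0 0)
  obtain ⟨k01, h01⟩ := exists_int_pow q _ (hent 0 1)
  obtain ⟨k10, h10⟩ := exists_int_pow q _ (hent 1 0)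
  obtain ⟨k11, h11⟩ := exists_int_pow q _ (hent 1 1)
  set n := k00 + k01 + k10 + k11 with hn
  obtain ⟨A, hA⟩ := h00 n (by omega)
  obtain ⟨B, hB⟩ := h01 n (by omega)
  obtain ⟨C, hC⟩ := h10 n (by omega)
  obtain ⟨D, hD⟩ := h11 n (by omega)
  refine mem_aux N q hq hqN S h1 h2 n g A B C D hA hB hC hD ?_
  have hqp : Prime (q : ℤ) := Nat.prime_iff_prime_int.mp hq
  have hN' : ¬ (q : ℤ) ∣ (N : ℤ) := by
    intro h
    exact hqN (Int.natCast_dvd_natCast.mp h)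
  have hcop : IsCoprime (N : ℤ) ((q : ℤ) ^ ky) :=
    ((hqp.coprime_iff_not_dvd.mpr hN').symm).pow_right
  have hdvd : (N : ℤ) ∣ C * (q : ℤ) ^ ky := by
    refine ⟨zy * (q : ℤ) ^ n, ?_⟩
    have : ((C * (q : ℤ) ^ ky : ℤ) : ℚ) = ((N * (zy * (q : ℤ) ^ n) : ℤ) : ℚ) := by
      push_cast
      rw [← hC, ← hzy, hy]
      ring
    exact_mod_cast this
  exact hcop.dvd_of_dvd_mul_right hdvd

end Fermat.Agent.S41.AMGen
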