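/-
S41 [AM] (AM-c): injectivity of the canonical map from the amalgam
`Γ₀(N) *_{Γ₀(Nq)} Γ₀(N)` to `SL(2, ℚ)` (first factor embedded as is, second factor
embedded as `δ⁻¹ Γ₀(N) δ`, `δ = diag(q, 1)`).

The statement is abstract over the two maps `φ i : Γ₀(Nq) →* Γ₀(N)` and the two
embeddings `F i : Γ₀(N) →* SL(2, ℚ)`; only entrywise information is used.
-/
import Mathlib

set_option autoImplicit false

open CongruenceSubgroup Matrix
open scoped MatrixGroups

namespace Fermat.Agent.S41.AMInj

variable {N : ℕ}

/-- The integral matrix `q ^ i • (letter)`: for `i = 0` the letter is `γ` itself, for `i = 1`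
the letter is `δ⁻¹ γ δ = [[a, b / q], [q c, d]]`. -/
def sMat (q : ℕ) (i : Fin 2) (γ : Gamma0 N) : Matrix (Fin 2) (Fin 2) ℤ :=
  if i = 0 then ((γ : SL(2, ℤ)) : Matrix (Fin 2) (Fin 2) ℤ)
  else !![(q : ℤ) * (γ : SL(2, ℤ)) 0 0, (γ : SL(2, ℤ)) 0 1;
          (q : ℤ) ^ 2 * (γ : SL(2, ℤ)) 1 0, (q : ℤ) * (γ : SL(2, ℤ)) 1 1]

/-- The letters of a word: an index and an element of `Γ₀(N)`. -/
abbrev Letter (N : ℕ) : Type := Σ _ : Fin 2, Gamma0 N

/-- The reduction mod `q` of the scaled letter. -/
def lMat (q : ℕ) (a : Letter N) : Matrix (Fin 2) (Fin 2) (ZMod q) :=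
  (Int.castRingHom (ZMod q)).mapMatrix (sMat q a.1 a.2)

theorem lMat_zero (q : ℕ) (a : Letter N) (h : a.1 = 0) :
    lMat q a = !![(((a.2 : SL(2, ℤ)) 0 0 : ℤ) : ZMod q), (((a.2 : SL(2, ℤ)) 0 1 : ℤ) : ZMod q);
      (((a.2 : SL(2, ℤ)) 1 0 : ℤ) : ZMod q), (((a.2 : SL(2, ℤ)) 1 1 : ℤ) : ZMod q)] := by
  ext i j
  fin_cases i <;> fin_cases j <;> simp [lMat, sMat, h]

theorem lMat_one (q : ℕ) (a : Letter N) (h : a.1 = 1) :
    lMat q a = !![0, (((a.2 : SL(2, ℤ)) 0 1 : ℤ) : ZMod q); 0, 0] := by
  ext i j
  fin_cases i <;> fin_cases j <;> simp [lMat, sMat, h]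

/-- number of type-2 letters -/
def k2 (l : List (Letter N)) : ℕ := (l.map fun a => (a.1 : ℕ)).sum

/-- the product of the reductions mod `q` -/
def mBar (q : ℕ) (l : List (Letter N)) : Matrix (Fin 2) (Fin 2) (ZMod q) :=
  (l.map (lMat q)).prod

/-- the letters are reduced: not in the amalgamated subgroup -/
def IsRed (q : ℕ) (l : List (Letter N)) : Prop :=
  ∀ a ∈ l, (a.1 = 0 → ¬ (q : ℤ) ∣ (a.2 : SL(2, ℤ)) 1 0) ∧
    (a.1 = 1 → ¬ (q : ℤ) ∣ (a.2 : SL(2, ℤ)) 0 1)

/-- the invariant -/
def Inv (q : ℕ) (l : List (Letter N)) : Prop :=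
  match l.head? with
  | none => mBar q l = 1
  | some a =>
      (a.1 = 1 → mBar q l 1 = 0 ∧ mBar q l 0 ≠ 0) ∧
      (a.1 = 0 → mBar q l 1 ≠ 0 ∧ (k2 l = 0 → mBar q l 1 0 ≠ 0))

theorem fin2_cases (i : Fin 2) : i = 0 ∨ i = 1 := by
  fin_cases i <;> simp

theorem inv_of_chain {q : ℕ} [Fact q.Prime] :
    ∀ (l : List (Letter N)), l.IsChain (fun a b => a.1 ≠ b.1) → IsRed q l → Inv q l := by
  intro l
  induction l with
  | nil => intro _ _; simp [Inv, mBar]
  | cons a l ih =>
    intro hch hred
    have hch' : l.IsChain (fun a b => a.1 ≠ b.1) := hch.tail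
    have hred' : IsRed q l := fun b hb => hred b (List.mem_cons_of_mem _ hb)
    have hI := ih hch' hred'
    have hmul : mBar q (a :: l) = lMat q a * mBar q l := by simp [mBar]
    have ha := hred a List.mem_cons_self
    -- the first letter of `l`, if any, has a different index
    have hhead : ∀ b, l.head? = some b → a.1 ≠ b.1 := by
      intro b hb
      cases l with
      | nil => simp at hb
      | cons c l' =>
        simp only [List.head?_cons, Option.some.injEq] at hb
        subst hb
        exact (List.isChain_cons_cons.mp hch).1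
    simp only [Inv, List.head?_cons]
    refine ⟨fun h1 => ?_, fun h0 => ?_⟩
    · -- type 2 letter in front
      have hb : ((((a.2 : SL(2, ℤ)) 0 1 : ℤ)) : ZMod q) ≠ 0 := by
        rw [Ne, ZMod.intCast_zmod_eq_zero_iff_dvd]
        exact ha.2 h1
      have hrow1 : mBar q l 1 ≠ 0 := by
        unfold Inv at hI
        cases hl : l.head? with
        | none =>
          rw [hl] at hI
          simp only at hI
          rw [hI]
          intro h
          have := congrFun h 1
          simp at this
        | some b =>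
          rw [hl] at hI
          simp only at hI
          have hb0 : b.1 = 0 := by
            rcases fin2_cases b.1 with h | h
            · exact h
            · exact absurd (h1.trans h.symm) (hhead b hl)
          exact (hI.2 hb0).1
      rw [hmul, lMat_one q a h1]
      constructor
      · funext j
        simp [Matrix.mul_apply, Fin.sum_univ_two]
      · intro h
        apply hrow1
        funext j
        have := congrFun h j
        simp only [Matrix.mul_apply, Fin.sum_univ_two, Matrix.of_apply, Matrix.cons_val',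
          Matrix.cons_val_zero, Matrix.cons_val_one, Matrix.cons_val_fin_one, zero_mul, zero_add,
          Pi.zero_apply] at this
        rcases mul_eq_zero.mp this with h' | h'
        · exact absurd h' hb
        · simpa using h'
    · -- type 1 letter in front
      have hc : ((((a.2 : SL(2, ℤ)) 1 0 : ℤ)) : ZMod q) ≠ 0 := by
        rw [Ne, ZMod.intCast_zmod_eq_zero_iff_dvd]
        exact ha.1 h0
      unfold Inv at hI
      cases hl : l.head? with
      | none =>
        rw [hl] at hI
        simp only at hI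
        have hnil : l = [] := by
          cases l with
          | nil => rfl
          | cons c l' => simp at hl
        rw [hmul, hI, mul_one, lMat_zero q a h0]
        refine ⟨?_, fun _ => by simpa using hc⟩
        intro h
        have := congrFun h 0
        simp at this
        exact hc this
      | some b =>
        rw [hl] at hI
        simp only at hI
        have hb1 : b.1 = 1 := by
          rcases fin2_cases b.1 with h | h
          · exact absurd (h0.trans h.symm) (hhead b hl)
          · exact h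
        obtain ⟨hz, hnz⟩ := hI.1 hb1
        have hk : k2 (a :: l) ≠ 0 := by
          cases l with
          | nil => simp at hl
          | cons c l' =>
            simp only [List.head?_cons, Option.some.injEq] at hl
            subst hl
            simp [k2, hb1]
        refine ⟨?_, fun h => absurd h hk⟩
        rw [hmul, lMat_zero q a h0]
        intro h
        apply hnz
        funext j
        have h1 := congrFun h j
        have h2 := congrFun hz j
        simp only [Matrix.mul_apply, Fin.sum_univ_two, Matrix.of_apply, Matrix.cons_val',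
          Matrix.cons_val_zero, Matrix.cons_val_one, Matrix.cons_val_fin_one,
          Pi.zero_apply] at h1 h2
        rw [h2, mul_zero, add_zero] at h1
        rcases mul_eq_zero.mp h1 with h' | h'
        · exact absurd h' hc
        · simpa using h'

/-- product of the scaled integral matrices -/
def sProd (q : ℕ) (l : List (Letter N)) : Matrix (Fin 2) (Fin 2) ℤ :=
  (l.map fun a => sMat q a.1 a.2).prod

theorem mBar_eq (q : ℕ) (l : List (Letter N)) :
    mBar q l = (Int.castRingHom (ZMod q)).mapMatrix (sProd q l) := by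
  simp only [mBar, sProd, map_list_prod, List.map_map]
  rfl

theorem k2_cons (a : Letter N) (l : List (Letter N)) : k2 (a :: l) = (a.1 : ℕ) + k2 l := by
  simp [k2]

/-- The mod-`q` obstruction: a nonempty reduced alternating word is not `q ^ k₂` times an
integral matrix whose lower-left entry is divisible by `q`. -/
theorem core {q : ℕ} [Fact q.Prime] (l : List (Letter N))
    (hch : l.IsChain (fun a b => a.1 ≠ b.1)) (hred : IsRed q l) (hne : l ≠ [])
    (X : Matrix (Fin 2) (Fin 2) ℤ) (hX : (q : ℤ) ∣ X 1 0)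
    (h : sProd q l = (q : ℤ) ^ (k2 l) • X) : False := by
  have hI := inv_of_chain l hch hred
  have hm : mBar q l = ((q : ZMod q)) ^ (k2 l) • (Int.castRingHom (ZMod q)).mapMatrix X := by
    rw [mBar_eq, h]
    ext i j
    simp only [RingHom.mapMatrix_apply, Matrix.map_apply, Matrix.smul_apply, smul_eq_mul,
      Int.coe_castRingHom, Int.cast_mul, Int.cast_pow, Int.cast_natCast]
  have hq0 : (q : ZMod q) = 0 := ZMod.natCast_self q
  cases l with
  | nil => exact hne rfl
  | cons a l' =>
    simp only [Inv, List.head?_cons] at hI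
    by_cases hk : k2 (a :: l') = 0
    · have ha0 : a.1 = 0 := by
        rw [k2_cons] at hk
        have : (a.1 : ℕ) = 0 := by omega
        exact Fin.ext this
      have h10 := (hI.2 ha0).2 hk
      apply h10
      rw [hm, hk, pow_zero, one_smul]
      simp only [RingHom.mapMatrix_apply, Matrix.map_apply, Int.coe_castRingHom]
      rw [ZMod.intCast_zmod_eq_zero_iff_dvd]
      exact hX
    · have hz : mBar q (a :: l') = 0 := by
        rw [hm, hq0, zero_pow hk, zero_smul]
      rcases fin2_cases a.1 with h0 | h1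
      · exact (hI.2 h0).1 (by rw [hz]; rfl)
      · exact (hI.1 h1).2 (by rw [hz]; rfl)

/-- Scaling the rational product to the integral one. -/
theorem smul_prod_F {q : ℕ} (F : (i : Fin 2) → Gamma0 N →* SL(2, ℚ))
    (hF : ∀ (i : Fin 2) (γ : Gamma0 N), ((q : ℚ) ^ (i : ℕ)) • ((F i γ : SL(2, ℚ)) : Matrix (Fin 2) (Fin 2) ℚ) =
      (sMat q i γ).map (Int.cast : ℤ → ℚ)) (l : List (Letter N)) :
    ((q : ℚ) ^ (k2 l)) • (((l.map fun a => F a.1 a.2).prod : SL(2, ℚ)) :
      Matrix (Fin 2) (Fin 2) ℚ) = (sProd q l).map (Int.cast : ℤ → ℚ) := by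
  induction l with
  | nil =>
    simp [k2, sProd]
  | cons a l ih =>
    have h1 : sProd q (a :: l) = sMat q a.1 a.2 * sProd q l := by simp [sProd]
    rw [k2_cons, pow_add, List.map_cons, List.prod_cons, Matrix.SpecialLinearGroup.coe_mul,
      ← smul_mul_smul_comm, ih, hF, h1]
    have := Matrix.map_mul (L := sMat q a.1 a.2) (M := sProd q l) (f := Int.castRingHom ℚ)
    simpa using this.symm

open Monoid in
/-- The image of a word under the lift. -/
theorem lift_word {q : ℕ}
    (φ : (i : Fin 2) → Gamma0 (N * q) →* Gamma0 N)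
    (F : (i : Fin 2) → Gamma0 N →* SL(2, ℚ)) (k : Gamma0 (N * q) →* SL(2, ℚ))
    (hk : ∀ i, (F i).comp (φ i) = k) (W : CoprodI.Word (fun _ : Fin 2 => Gamma0 N)) :
    PushoutI.lift (φ := φ) F k hk (PushoutI.ofCoprodI W.prod) =
      (W.toList.map fun a => F a.1 a.2).prod := by
  simp only [CoprodI.Word.prod, map_list_prod, List.map_map]
  congr 1

open Monoid in
/-- **(AM-c)** The canonical map from the amalgam to `SL(2, ℚ)` is injective. -/
theorem lift_injective {q : ℕ} [Fact q.Prime]
    (φ : (i : Fin 2) → Gamma0 (N * q) →* Gamma0 N) (hφ : ∀ i, Function.Injective (φ i))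
    (F : (i : Fin 2) → Gamma0 N →* SL(2, ℚ)) (k : Gamma0 (N * q) →* SL(2, ℚ))
    (hk : ∀ i, (F i).comp (φ i) = k)
    (hF : ∀ (i : Fin 2) (γ : Gamma0 N), ((q : ℚ) ^ (i : ℕ)) • ((F i γ : SL(2, ℚ)) : Matrix (Fin 2) (Fin 2) ℚ) =
      (sMat q i γ).map (Int.cast : ℤ → ℚ))
    (hr0 : ∀ γ : Gamma0 N, (q : ℤ) ∣ (γ : SL(2, ℤ)) 1 0 → γ ∈ (φ 0).range)
    (hr1 : ∀ γ : Gamma0 N, (q : ℤ) ∣ (γ : SL(2, ℤ)) 0 1 → γ ∈ (φ 1).range)
    (hk10 : ∀ h, ∃ X : Matrix (Fin 2) (Fin 2) ℤ, (q : ℤ) ∣ X 1 0 ∧
      ((k h : SL(2, ℚ)) : Matrix (Fin 2) (Fin 2) ℚ) = X.map (Int.cast : ℤ → ℚ))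
    (hkinj : Function.Injective k) :
    Function.Injective (PushoutI.lift (φ := φ) F k hk) := by
  classical
  rw [injective_iff_map_eq_one]
  intro z hz
  obtain ⟨d⟩ := PushoutI.NormalWord.transversal_nonempty φ hφ
  obtain ⟨w, rfl⟩ : ∃ w : PushoutI.NormalWord d, z = w.prod :=
    ⟨PushoutI.NormalWord.equiv z, ((PushoutI.NormalWord.equiv (d := d)).symm_apply_apply z).symm⟩
  have hprod : PushoutI.lift (φ := φ) F k hk w.prod =
      k w.head * (w.toList.map fun a => F a.1 a.2).prod := by
    rw [PushoutI.NormalWord.prod, map_mul, PushoutI.lift_base, lift_word]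
  rw [hprod] at hz
  -- the letters are reduced
  have hred : IsRed q w.toList := by
    intro a ha
    have hmem : a.2 ∈ d.set a.1 := w.normalized a.1 a.2 ha
    have hne1 : a.2 ≠ 1 := w.toWord.ne_one a ha
    have hnr : a.2 ∉ (φ a.1).range := by
      intro hr
      apply hne1
      have h1 := (d.compl a.1).equiv_snd_eq_self_of_mem_of_one_mem (one_mem _) hmem
      have h2 := ((d.compl a.1).coe_equiv_snd_eq_one_iff_mem (d.one_mem a.1)).mpr hr
      rw [h1] at h2
      exact h2
    obtain ⟨i, g⟩ := a
    refine ⟨fun h0 hdvd => ?_, fun h1 hdvd => ?_⟩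
    · simp only at h0
      subst h0
      exact hnr (hr0 g hdvd)
    · simp only at h1
      subst h1
      exact hnr (hr1 g hdvd)
  by_cases hnil : w.toList = []
  · -- empty word: `z` is in the base
    simp only [hnil, List.map_nil, List.prod_nil, mul_one] at hz
    have hh : w.head = 1 := hkinj (hz.trans (map_one k).symm)
    have hw1 : w.toWord.prod = 1 := by
      simp [CoprodI.Word.prod, hnil]
    rw [PushoutI.NormalWord.prod, hh, hw1, map_one, map_one, mul_one]
  · exfalso
    obtain ⟨X, hX, hkX⟩ := hk10 (w.head)⁻¹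
    have hP : (w.toList.map fun a => F a.1 a.2).prod = k (w.head)⁻¹ := by
      rw [map_inv]
      exact eq_inv_of_mul_eq_one_right hz
    have hs := smul_prod_F F hF w.toList
    rw [hP, hkX] at hs
    have hs' : sProd q w.toList = (q : ℤ) ^ (k2 w.toList) • X := by
      apply Matrix.map_injective (Int.cast_injective (α := ℚ))
      show (sProd q w.toList).map (Int.cast : ℤ → ℚ) =
        ((q : ℤ) ^ (k2 w.toList) • X).map (Int.cast : ℤ → ℚ)
      rw [← hs]
      ext i j
      simp only [Matrix.smul_apply, Matrix.map_apply, smul_eq_mul, Int.cast_mul, Int.cast_pow,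
        Int.cast_natCast]
    exact core w.toList w.toWord.chain_ne hred hnil X hX hs'

end Fermat.Agent.S41.AMInj
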