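import Mathlib

/-!
# [CSP] matrix side (S41)

`Rq q = ℤ[1/q] ⊆ ℚ`; `Δ ≤ SL(2, ℚ)` is any subgroup whose elements are exactly the matrices with
entries in `Rq q` and lower-left entry in `N • Rq q`; `Φ : Δ → A` is a homomorphism into an abelian
group without `2`-torsion which kills the elementary matrices `u(x)` and `l(N y)`.

For integers `a L` we put `P a L :⇔ Φ g = 0` for every `g ∈ Δ` with first column `(a, N L)`.
We prove the four rules (B0), (B1), (B2), (B4) and the reduction of the statement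
"`Φ` kills every `g` with `g₁₁ ≡ 1 mod N`" to `P`.
-/

namespace Fermat.Agent.S41.CSPMat

open Matrix MatrixGroups

/-- The subring `ℤ[1/q]` of `ℚ`. -/
def Rq (q : ℕ) : Subring ℚ where
  carrier := {x | ∃ (k : ℕ) (z : ℤ), x * (q : ℚ) ^ k = z}
  mul_mem' := by
    rintro x y ⟨k, z, hx⟩ ⟨k', z', hy⟩
    exact ⟨k + k', z * z', by push_cast; rw [← hx, ← hy]; ring⟩
  one_mem' := ⟨0, 1, by simp⟩
  add_mem' := by
    rintro x y ⟨k, z, hx⟩ ⟨k', z', hy⟩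
    exact ⟨k + k', z * (q : ℤ) ^ k' + z' * (q : ℤ) ^ k, by push_cast; rw [← hx, ← hy]; ring⟩
  zero_mem' := ⟨0, 0, by simp⟩
  neg_mem' := by
    rintro x ⟨k, z, hx⟩
    exact ⟨k, -z, by push_cast; rw [← hx]; ring⟩

theorem mem_Rq {q : ℕ} {x : ℚ} : x ∈ Rq q ↔ ∃ (k : ℕ) (z : ℤ), x * (q : ℚ) ^ k = z := Iff.rfl

theorem int_mem (q : ℕ) (z : ℤ) : (z : ℚ) ∈ Rq q := ⟨0, z, by simp⟩

theorem nat_mem (q : ℕ) (n : ℕ) : (n : ℚ) ∈ Rq q := ⟨0, n, by simp⟩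

theorem inv_pow_mem {q : ℕ} (hq : q ≠ 0) (k : ℕ) : ((q : ℚ) ^ k)⁻¹ ∈ Rq q :=
  ⟨k, 1, by
    have : (q : ℚ) ^ k ≠ 0 := pow_ne_zero _ (Nat.cast_ne_zero.mpr hq)
    simp [this]⟩

theorem pow_mem_Rq (q : ℕ) (k : ℕ) : (q : ℚ) ^ k ∈ Rq q := ⟨0, (q : ℤ) ^ k, by simp⟩

/-- An integer which is `N` times an element of `ℤ[1/q]` is divisible by `N` (`gcd(N, q) = 1`). -/
theorem int_dvd_of_eq_mul {N q : ℕ} (hNq : Nat.Coprime N q) {n : ℤ} {r : ℚ} (hr : r ∈ Rq q)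
    (h : (n : ℚ) = N * r) : (N : ℤ) ∣ n := by
  obtain ⟨k, z, hz⟩ := hr
  have h1 : n * (q : ℤ) ^ k = N * z := by
    have : ((n * (q : ℤ) ^ k : ℤ) : ℚ) = ((N * z : ℤ) : ℚ) := by
      push_cast; rw [h, ← hz]; ring
    exact_mod_cast this
  have hcop : IsCoprime (N : ℤ) ((q : ℤ) ^ k) := by
    have : Nat.Coprime N (q ^ k) := Nat.Coprime.pow_right k hNq
    exact_mod_cast (Nat.isCoprime_iff_coprime.mpr this)
  exact hcop.dvd_of_dvd_mul_right ⟨z, h1⟩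

/-! ### Elementary matrices -/

/-- `u(x)`. -/
def U (x : ℚ) : SL(2, ℚ) := ⟨!![1, x; 0, 1], by simp [Matrix.det_fin_two_of]⟩

/-- `l(y)`. -/
def Lo (y : ℚ) : SL(2, ℚ) := ⟨!![1, 0; y, 1], by simp [Matrix.det_fin_two_of]⟩

/-- `h(w) = diag(w, w⁻¹)`. -/
def H (w : ℚ) (hw : w ≠ 0) : SL(2, ℚ) :=
  ⟨!![w, 0; 0, w⁻¹], by simp [Matrix.det_fin_two_of, hw]⟩

@[simp] theorem U00 (x : ℚ) : U x 0 0 = 1 := rfl
@[simp] theorem U01 (x : ℚ) : U x 0 1 = x := rfl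
@[simp] theorem U10 (x : ℚ) : U x 1 0 = 0 := rfl
@[simp] theorem U11 (x : ℚ) : U x 1 1 = 1 := rfl
@[simp] theorem Lo00 (x : ℚ) : Lo x 0 0 = 1 := rfl
@[simp] theorem Lo01 (x : ℚ) : Lo x 0 1 = 0 := rfl
@[simp] theorem Lo10 (x : ℚ) : Lo x 1 0 = x := rfl
@[simp] theorem Lo11 (x : ℚ) : Lo x 1 1 = 1 := rfl
@[simp] theorem H00 (w : ℚ) (hw : w ≠ 0) : H w hw 0 0 = w := rfl
@[simp] theorem H01 (w : ℚ) (hw : w ≠ 0) : H w hw 0 1 = 0 := rfl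
@[simp] theorem H10 (w : ℚ) (hw : w ≠ 0) : H w hw 1 0 = 0 := rfl
@[simp] theorem H11 (w : ℚ) (hw : w ≠ 0) : H w hw 1 1 = w⁻¹ := rfl

theorem mul00 (g h : SL(2, ℚ)) : (g * h) 0 0 = g 0 0 * h 0 0 + g 0 1 * h 1 0 := by
  simp [Matrix.SpecialLinearGroup.coe_mul, Matrix.mul_apply, Fin.sum_univ_two]
theorem mul01 (g h : SL(2, ℚ)) : (g * h) 0 1 = g 0 0 * h 0 1 + g 0 1 * h 1 1 := by
  simp [Matrix.SpecialLinearGroup.coe_mul, Matrix.mul_apply, Fin.sum_univ_two]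
theorem mul10 (g h : SL(2, ℚ)) : (g * h) 1 0 = g 1 0 * h 0 0 + g 1 1 * h 1 0 := by
  simp [Matrix.SpecialLinearGroup.coe_mul, Matrix.mul_apply, Fin.sum_univ_two]
theorem mul11 (g h : SL(2, ℚ)) : (g * h) 1 1 = g 1 0 * h 0 1 + g 1 1 * h 1 1 := by
  simp [Matrix.SpecialLinearGroup.coe_mul, Matrix.mul_apply, Fin.sum_univ_two]

theorem det_eq (g : SL(2, ℚ)) : g 0 0 * g 1 1 - g 0 1 * g 1 0 = 1 := by
  have := g.2
  rw [Matrix.det_fin_two] at this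
  exact this

theorem ext_entries {g h : SL(2, ℚ)} (h00 : g 0 0 = h 0 0) (h01 : g 0 1 = h 0 1)
    (h10 : g 1 0 = h 1 0) (h11 : g 1 1 = h 1 1) : g = h := by
  apply Subtype.ext
  ext i j
  fin_cases i <;> fin_cases j <;> assumption

theorem neg00 (g : SL(2, ℚ)) : (-g) 0 0 = - g 0 0 := by simp
theorem neg10 (g : SL(2, ℚ)) : (-g) 1 0 = - g 1 0 := by simp

theorem H_mul_H_inv (w : ℚ) (hw : w ≠ 0) : H w hw * H w⁻¹ (inv_ne_zero hw) = 1 := by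
  apply ext_entries <;> simp [mul00, mul01, mul10, mul11, hw]

theorem H_inv (w : ℚ) (hw : w ≠ 0) : (H w hw)⁻¹ = H w⁻¹ (inv_ne_zero hw) :=
  inv_eq_of_mul_eq_one_right (H_mul_H_inv w hw)

/-! ### The function `ψ` -/

section Psi

variable {Δ : Subgroup SL(2, ℚ)} {A : Type*} [AddCommGroup A] (Φ : Additive Δ →+ A)

/-- `Φ` extended by zero to all of `SL(2, ℚ)`. -/
noncomputable def psi (g : SL(2, ℚ)) : A :=
  open Classical in if h : g ∈ Δ then Φ (Additive.ofMul ⟨g, h⟩) else 0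

theorem psi_of_mem {g : SL(2, ℚ)} (h : g ∈ Δ) : psi Φ g = Φ (Additive.ofMul ⟨g, h⟩) := by
  simp [psi, h]

theorem psi_coe (g : Δ) : psi Φ (g : SL(2, ℚ)) = Φ (Additive.ofMul g) := by
  rw [psi_of_mem Φ g.2]

theorem psi_mul {g h : SL(2, ℚ)} (hg : g ∈ Δ) (hh : h ∈ Δ) :
    psi Φ (g * h) = psi Φ g + psi Φ h := by
  rw [psi_of_mem Φ hg, psi_of_mem Φ hh, psi_of_mem Φ (Δ.mul_mem hg hh), ← map_add]
  rfl

theorem psi_one : psi Φ (1 : SL(2, ℚ)) = 0 := by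
  rw [psi_of_mem Φ Δ.one_mem]
  exact map_zero Φ

theorem psi_inv {g : SL(2, ℚ)} (hg : g ∈ Δ) : psi Φ g⁻¹ = - psi Φ g := by
  have h := psi_mul Φ hg (Δ.inv_mem hg)
  rw [mul_inv_cancel, psi_one] at h
  exact (neg_eq_of_add_eq_zero_right h.symm).symm

theorem psi_conj {g h : SL(2, ℚ)} (hg : g ∈ Δ) (hh : h ∈ Δ) :
    psi Φ (h * g * h⁻¹) = psi Φ g := by
  rw [psi_mul Φ (Δ.mul_mem hh hg) (Δ.inv_mem hh), psi_mul Φ hh hg, psi_inv Φ hh]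
  abel

end Psi

/-! ### Membership in `Δ` -/

section Mem

variable {N q : ℕ} {Δ : Subgroup SL(2, ℚ)}
  (hΔ : ∀ g : SL(2, ℚ), g ∈ Δ ↔ (∀ i j, g i j ∈ Rq q) ∧ ∃ y ∈ Rq q, g 1 0 = N * y)

include hΔ

theorem mem_of_entries {g : SL(2, ℚ)} (h00 : g 0 0 ∈ Rq q) (h01 : g 0 1 ∈ Rq q)
    (h10 : ∃ y ∈ Rq q, g 1 0 = N * y) (h11 : g 1 1 ∈ Rq q) : g ∈ Δ := by
  rw [hΔ]
  refine ⟨fun i j => ?_, h10⟩
  fin_cases i <;> fin_cases j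
  · exact h00
  · exact h01
  · obtain ⟨y, hy, h⟩ := h10
    change g 1 0 ∈ Rq q
    rw [h]
    exact (Rq q).mul_mem (nat_mem q N) hy
  · exact h11

theorem entry_mem {g : SL(2, ℚ)} (hg : g ∈ Δ) (i j : Fin 2) : g i j ∈ Rq q := ((hΔ g).1 hg).1 i j

theorem entry10 {g : SL(2, ℚ)} (hg : g ∈ Δ) : ∃ y ∈ Rq q, g 1 0 = N * y := ((hΔ g).1 hg).2

theorem U_mem {x : ℚ} (hx : x ∈ Rq q) : U x ∈ Δ :=
  mem_of_entries hΔ (by simp) (by simpa using hx)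
    ⟨0, (Rq q).zero_mem, by simp⟩ (by simp)

theorem Lo_mem {y : ℚ} (hy : y ∈ Rq q) : Lo (N * y) ∈ Δ :=
  mem_of_entries hΔ (by simp) (by simp)
    ⟨y, hy, by simp⟩ (by simp)

theorem H_mem {w : ℚ} (hw0 : w ≠ 0) (hw : w ∈ Rq q) (hw' : w⁻¹ ∈ Rq q) : H w hw0 ∈ Δ :=
  mem_of_entries hΔ (by simpa using hw) (by simp)
    ⟨0, (Rq q).zero_mem, by simp⟩ (by simpa using hw')

theorem neg_one_mem : (-1 : SL(2, ℚ)) ∈ Δ :=
  mem_of_entries hΔ (by simp) (by simp) ⟨0, (Rq q).zero_mem, by simp⟩ (by simp)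

end Mem

/-! ### Vanishing of `ψ` on elementary matrices, `-1`, and the torus -/

section Core

variable {N q : ℕ} {Δ : Subgroup SL(2, ℚ)}
  (hΔ : ∀ g : SL(2, ℚ), g ∈ Δ ↔ (∀ i j, g i j ∈ Rq q) ∧ ∃ y ∈ Rq q, g 1 0 = N * y)
  {A : Type*} [AddCommGroup A] (h2 : ∀ x : A, x + x = 0 → x = 0) (Φ : Additive Δ →+ A)
  (hu : ∀ g : Δ, (g : SL(2, ℚ)) 1 0 = 0 → (g : SL(2, ℚ)) 0 0 = 1 → Φ (Additive.ofMul g) = 0)
  (hl : ∀ g : Δ, (g : SL(2, ℚ)) 0 1 = 0 → (g : SL(2, ℚ)) 0 0 = 1 → Φ (Additive.ofMul g) = 0)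

include hΔ hu in
theorem psi_U {x : ℚ} (hx : x ∈ Rq q) : psi Φ (U x) = 0 := by
  rw [psi_of_mem Φ (U_mem hΔ hx)]
  exact hu ⟨U x, U_mem hΔ hx⟩ rfl rfl

include hΔ hl in
theorem psi_Lo {y : ℚ} (hy : y ∈ Rq q) : psi Φ (Lo (N * y)) = 0 := by
  rw [psi_of_mem Φ (Lo_mem hΔ hy)]
  exact hl ⟨Lo (N * y), Lo_mem hΔ hy⟩ rfl rfl

include hΔ h2 in
theorem psi_neg_one : psi Φ (-1 : SL(2, ℚ)) = 0 := by
  apply h2
  rw [← psi_mul Φ (neg_one_mem hΔ) (neg_one_mem hΔ)]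
  have : (-1 : SL(2, ℚ)) * -1 = 1 := by simp
  rw [this, psi_one]

include hΔ h2 in
theorem psi_neg {g : SL(2, ℚ)} (hg : g ∈ Δ) : psi Φ (-g) = psi Φ g := by
  have : -g = (-1 : SL(2, ℚ)) * g := by simp
  rw [this, psi_mul Φ (neg_one_mem hΔ) hg, psi_neg_one hΔ h2 Φ, zero_add]

include hΔ in
theorem neg_mem' {g : SL(2, ℚ)} (hg : g ∈ Δ) : -g ∈ Δ := by
  have : -g = (-1 : SL(2, ℚ)) * g := by simp
  rw [this]
  exact Δ.mul_mem (neg_one_mem hΔ) hg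

include hΔ hu hl in
/-- An element of `Δ` with upper-left entry `1` is `l(c) u(b)`. -/
theorem psi_of_one {g : SL(2, ℚ)} (hg : g ∈ Δ) (h : g 0 0 = 1) : psi Φ g = 0 := by
  obtain ⟨y, hy, hy'⟩ := entry10 hΔ hg
  have hb : g 0 1 ∈ Rq q := entry_mem hΔ hg 0 1
  have hdet := det_eq g
  have hgeq : g = Lo (N * y) * U (g 0 1) := by
    apply ext_entries
    · simp [mul00, h]
    · simp [mul01]
    · simp [mul10, hy']
    · simp only [mul11, Lo10, U01, Lo11, U11]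
      rw [h, hy'] at hdet
      linarith
  rw [hgeq, psi_mul Φ (Lo_mem hΔ hy) (U_mem hΔ hb), psi_Lo hΔ Φ hl hy, psi_U hΔ Φ hu hb,
    add_zero]

include hΔ hu hl in
/-- (T): `Φ(h(v)) = 0` for every unit `v ≡ 1 mod N`. -/
theorem psi_H {v : ℚ} (hv0 : v ≠ 0) (hv : v ∈ Rq q) (hv' : v⁻¹ ∈ Rq q) {x : ℚ} (hx : x ∈ Rq q)
    (hvx : v - 1 = N * x) : psi Φ (H v hv0) = 0 := by
  have hH := H_mem hΔ hv0 hv hv'
  have hx' : -x * v⁻¹ ∈ Rq q := (Rq q).mul_mem ((Rq q).neg_mem hx) hv'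
  have hU := U_mem hΔ hx'
  have hL : Lo (N * 1) ∈ Δ := Lo_mem hΔ (Rq q).one_mem
  have hmem : U (-x * v⁻¹) * (Lo (N * 1) * H v hv0) ∈ Δ := Δ.mul_mem hU (Δ.mul_mem hL hH)
  have h00 : (U (-x * v⁻¹) * (Lo (N * 1) * H v hv0)) 0 0 = 1 := by
    simp only [mul00, mul10, U00, U01, Lo00, Lo01, Lo10, Lo11, H00, H10]
    field_simp
    linear_combination v * hvx
  have h0 := psi_of_one hΔ Φ hu hl hmem h00
  rw [psi_mul Φ hU (Δ.mul_mem hL hH), psi_mul Φ hL hH, psi_U hΔ Φ hu hx',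
    psi_Lo hΔ Φ hl (Rq q).one_mem, zero_add, zero_add] at h0
  exact h0

end Core

/-! ### The predicate `P` and the rules (B0), (B1), (B2), (B4) -/

/-- `P a L`: `Φ` kills every element of `Δ` with first column `(a, N L)`. -/
def P (N : ℕ) {Δ : Subgroup SL(2, ℚ)} {A : Type*} [AddCommGroup A] (Φ : Additive Δ →+ A)
    (a L : ℤ) : Prop :=
  ∀ g : Δ, (g : SL(2, ℚ)) 0 0 = a → (g : SL(2, ℚ)) 1 0 = N * L → Φ (Additive.ofMul g) = 0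

theorem P_iff {N : ℕ} {Δ : Subgroup SL(2, ℚ)} {A : Type*} [AddCommGroup A]
    (Φ : Additive Δ →+ A) {a L : ℤ} :
    P N Φ a L ↔ ∀ g : SL(2, ℚ), g ∈ Δ → g 0 0 = a → g 1 0 = N * L → psi Φ g = 0 := by
  constructor
  · intro h g hg h00 h10
    rw [psi_of_mem Φ hg]
    exact h ⟨g, hg⟩ h00 h10
  · intro h g h00 h10
    rw [← psi_coe Φ g]
    exact h g g.2 h00 h10

section Rules

variable {N q : ℕ} {Δ : Subgroup SL(2, ℚ)}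
  (hΔ : ∀ g : SL(2, ℚ), g ∈ Δ ↔ (∀ i j, g i j ∈ Rq q) ∧ ∃ y ∈ Rq q, g 1 0 = N * y)
  {A : Type*} [AddCommGroup A] (h2 : ∀ x : A, x + x = 0 → x = 0) (Φ : Additive Δ →+ A)
  (hu : ∀ g : Δ, (g : SL(2, ℚ)) 1 0 = 0 → (g : SL(2, ℚ)) 0 0 = 1 → Φ (Additive.ofMul g) = 0)
  (hl : ∀ g : Δ, (g : SL(2, ℚ)) 0 1 = 0 → (g : SL(2, ℚ)) 0 0 = 1 → Φ (Additive.ofMul g) = 0)

include hΔ hl in
/-- (B2) -/
theorem b2 {a L L' : ℤ} (h : L' ≡ L [ZMOD a]) (hP : P N Φ a L') : P N Φ a L := by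
  rw [P_iff] at hP ⊢
  intro g hg h00 h10
  obtain ⟨m, hm⟩ := Int.modEq_iff_dvd.mp h
  have hmq : (L' : ℚ) = L - a * m := by
    have := congrArg (Int.cast : ℤ → ℚ) hm
    push_cast at this
    linarith
  have hLo : Lo (N * ((-m : ℤ) : ℚ)) ∈ Δ := Lo_mem hΔ (int_mem q (-m))
  have h' := hP (Lo (N * ((-m : ℤ) : ℚ)) * g) (Δ.mul_mem hLo hg) (by simp [mul00, h00])
    (by
      simp only [mul10, Lo10, Lo11]
      rw [h00, h10, hmq]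
      push_cast
      ring)
  rwa [psi_mul Φ hLo hg, psi_Lo hΔ Φ hl (int_mem q (-m)), zero_add] at h'

include hΔ h2 in
/-- (B4) -/
theorem b4 {a L : ℤ} (hP : P N Φ (-a) (-L)) : P N Φ a L := by
  rw [P_iff] at hP ⊢
  intro g hg h00 h10
  have h' := hP (-g) (neg_mem' hΔ hg) (by rw [neg00, h00]; push_cast; ring)
    (by rw [neg10, h10]; push_cast; ring)
  rwa [psi_neg hΔ h2 Φ hg] at h'

include hΔ h2 hu hl in
/-- (B0) -/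
theorem b0 {a L : ℤ} (ha : a ≡ 1 [ZMOD N] ∨ a ≡ -1 [ZMOD N]) (hL : L ≡ 1 [ZMOD a]) :
    P N Φ a L := by
  rw [P_iff]
  intro g hg h00 h10
  obtain ⟨m, hm⟩ := Int.modEq_iff_dvd.mp hL
  have hmq : (L : ℚ) = 1 - a * m := by
    have := congrArg (Int.cast : ℤ → ℚ) hm
    push_cast at this
    linarith
  have hLo : Lo (N * (m : ℚ)) ∈ Δ := Lo_mem hΔ (int_mem q m)
  have hg1m : Lo (N * (m : ℚ)) * g ∈ Δ := Δ.mul_mem hLo hg
  have h1_00 : (Lo (N * (m : ℚ)) * g) 0 0 = a := by simp [mul00, h00]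
  have h1_10 : (Lo (N * (m : ℚ)) * g) 1 0 = N := by
    simp only [mul10, Lo10, Lo11]
    rw [h00, h10, hmq]
    ring
  have hpsi1 : psi Φ (Lo (N * (m : ℚ)) * g) = psi Φ g := by
    rw [psi_mul Φ hLo hg, psi_Lo hΔ Φ hl (int_mem q m), zero_add]
  rcases ha with ha | ha
  · obtain ⟨m', hm'⟩ := Int.modEq_iff_dvd.mp ha
    have hm'q : (a : ℚ) = 1 - N * m' := by
      have := congrArg (Int.cast : ℤ → ℚ) hm'
      push_cast at this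
      linarith
    have hU : U (m' : ℚ) ∈ Δ := U_mem hΔ (int_mem q m')
    have h2_00 : (U (m' : ℚ) * (Lo (N * (m : ℚ)) * g)) 0 0 = 1 := by
      rw [mul00, h1_00, h1_10, hm'q]
      simp
      ring
    have h0 := psi_of_one hΔ Φ hu hl (Δ.mul_mem hU hg1m) h2_00
    rwa [psi_mul Φ hU hg1m, psi_U hΔ Φ hu (int_mem q m'), zero_add, hpsi1] at h0
  · obtain ⟨m', hm'⟩ := Int.modEq_iff_dvd.mp ha
    have hm'q : (a : ℚ) = -1 - N * m' := by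
      have := congrArg (Int.cast : ℤ → ℚ) hm'
      push_cast at this
      linarith
    have hU : U (m' : ℚ) ∈ Δ := U_mem hΔ (int_mem q m')
    have h2_00 : (-(U (m' : ℚ) * (Lo (N * (m : ℚ)) * g))) 0 0 = 1 := by
      rw [neg00, mul00, h1_00, h1_10, hm'q]
      simp
      ring
    have h0 := psi_of_one hΔ Φ hu hl (neg_mem' hΔ (Δ.mul_mem hU hg1m)) h2_00
    rwa [psi_neg hΔ h2 Φ (Δ.mul_mem hU hg1m), psi_mul Φ hU hg1m,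
      psi_U hΔ Φ hu (int_mem q m'), zero_add, hpsi1] at h0

include hΔ hu hl in
/-- (B1) -/
theorem b1 (hq : q.Prime) {a a' L : ℤ} {i : ℕ} (hi : (q : ℤ) ^ (2 * i) ≡ 1 [ZMOD N])
    (ha : a' ≡ (q : ℤ) ^ (2 * i) * a [ZMOD N * L]) (hP : P N Φ a' L) : P N Φ a L := by
  rw [P_iff] at hP ⊢
  intro g hg h00 h10
  have hq0 : (q : ℚ) ≠ 0 := Nat.cast_ne_zero.mpr hq.ne_zero
  have hv0 : (q : ℚ) ^ (2 * i) ≠ 0 := pow_ne_zero _ hq0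
  have hw0 : ((q : ℚ) ^ i)⁻¹ ≠ 0 := inv_ne_zero (pow_ne_zero _ hq0)
  obtain ⟨x, hx⟩ := Int.modEq_iff_dvd.mp hi
  have hxq : (q : ℚ) ^ (2 * i) - 1 = N * ((-x : ℤ) : ℚ) := by
    have := congrArg (Int.cast : ℤ → ℚ) hx
    push_cast at this ⊢
    linarith
  obtain ⟨t, ht⟩ := Int.modEq_iff_dvd.mp ha
  have htq : (a' : ℚ) = (q : ℚ) ^ (2 * i) * a - N * L * t := by
    have := congrArg (Int.cast : ℤ → ℚ) ht
    push_cast at this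
    linarith
  have hHv : H ((q : ℚ) ^ (2 * i)) hv0 ∈ Δ :=
    H_mem hΔ hv0 (pow_mem_Rq q _) (inv_pow_mem hq.ne_zero _)
  have hpsiHv : psi Φ (H ((q : ℚ) ^ (2 * i)) hv0) = 0 :=
    psi_H hΔ Φ hu hl hv0 (pow_mem_Rq q _) (inv_pow_mem hq.ne_zero _) (int_mem q (-x)) hxq
  have hHw : H ((q : ℚ) ^ i)⁻¹ hw0 ∈ Δ :=
    H_mem hΔ hw0 (inv_pow_mem hq.ne_zero i) (by rw [inv_inv]; exact pow_mem_Rq q i)
  have hg1 : H ((q : ℚ) ^ (2 * i)) hv0 * g ∈ Δ := Δ.mul_mem hHv hg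
  have hg2 : H ((q : ℚ) ^ i)⁻¹ hw0 * (H ((q : ℚ) ^ (2 * i)) hv0 * g) *
      (H ((q : ℚ) ^ i)⁻¹ hw0)⁻¹ ∈ Δ := Δ.mul_mem (Δ.mul_mem hHw hg1) (Δ.inv_mem hHw)
  have hU : U ((-t : ℤ) : ℚ) ∈ Δ := U_mem hΔ (int_mem q (-t))
  have h2_00 : (H ((q : ℚ) ^ i)⁻¹ hw0 * (H ((q : ℚ) ^ (2 * i)) hv0 * g) *
      (H ((q : ℚ) ^ i)⁻¹ hw0)⁻¹) 0 0 = (q : ℚ) ^ (2 * i) * a := by
    rw [H_inv]
    simp only [mul00, mul01, mul10, H00, H01, H10, H11, h00, inv_inv]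
    field_simp
    ring
  have h2_10 : (H ((q : ℚ) ^ i)⁻¹ hw0 * (H ((q : ℚ) ^ (2 * i)) hv0 * g) *
      (H ((q : ℚ) ^ i)⁻¹ hw0)⁻¹) 1 0 = N * L := by
    rw [H_inv]
    simp only [mul00, mul01, mul10, mul11, H00, H01, H10, H11, h10, inv_inv]
    field_simp
    ring
  have h' := hP _ (Δ.mul_mem hU hg2)
    (by
      rw [mul00, h2_00, h2_10, htq]
      simp
      ring)
    (by
      rw [mul10, h2_10]
      simp)
  rwa [psi_mul Φ hU hg2, psi_U hΔ Φ hu (int_mem q (-t)), zero_add,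
    psi_conj Φ hg1 hHw, psi_mul Φ hHv hg, hpsiHv, zero_add] at h'

end Rules

/-! ### Reduction of the general statement to integer first columns -/

section Reduction

variable {N q : ℕ} {Δ : Subgroup SL(2, ℚ)}
  (hΔ : ∀ g : SL(2, ℚ), g ∈ Δ ↔ (∀ i j, g i j ∈ Rq q) ∧ ∃ y ∈ Rq q, g 1 0 = N * y)
  {A : Type*} [AddCommGroup A] (Φ : Additive Δ →+ A)
  (hu : ∀ g : Δ, (g : SL(2, ℚ)) 1 0 = 0 → (g : SL(2, ℚ)) 0 0 = 1 → Φ (Additive.ofMul g) = 0)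
  (hl : ∀ g : Δ, (g : SL(2, ℚ)) 0 1 = 0 → (g : SL(2, ℚ)) 0 0 = 1 → Φ (Additive.ofMul g) = 0)

theorem pow_two_mul_totient_modEq (hq : q.Prime) (hqN : ¬ q ∣ N) (s : ℕ) :
    (q : ℤ) ^ (2 * (s * Nat.totient N)) ≡ 1 [ZMOD N] := by
  have hcop : Nat.Coprime q N := (Nat.Prime.coprime_iff_not_dvd hq).mpr hqN
  have h1 : q ^ Nat.totient N ≡ 1 [MOD N] := Nat.ModEq.pow_totient hcop
  have h2 : (q ^ Nat.totient N) ^ (2 * s) ≡ 1 ^ (2 * s) [MOD N] := h1.pow _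
  rw [one_pow, ← pow_mul] at h2
  have h3 : ((q ^ (Nat.totient N * (2 * s)) : ℕ) : ℤ) ≡ ((1 : ℕ) : ℤ) [ZMOD N] :=
    Int.natCast_modEq_iff.mpr h2
  have he : Nat.totient N * (2 * s) = 2 * (s * Nat.totient N) := by ring
  rw [he] at h3
  exact_mod_cast h3

include hΔ hu hl in
/-- Step A + B: make the first column integral. -/
theorem exists_int_col (hq : q.Prime) (hN : 0 < N) (hqN : ¬ q ∣ N) {g : SL(2, ℚ)} (hg : g ∈ Δ)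
    (hg1 : ∃ y ∈ Rq q, g 0 0 - 1 = N * y) (hc : g 1 0 ≠ 0) :
    ∃ g' : SL(2, ℚ), g' ∈ Δ ∧ psi Φ g' = psi Φ g ∧ ∃ A₁ L₂ : ℤ, g' 0 0 = A₁ ∧ g' 1 0 = N * L₂ ∧
      L₂ ≠ 0 ∧ ∃ y' ∈ Rq q, g' 0 0 - 1 = N * y' := by
  obtain ⟨y, hy, hay⟩ := hg1
  have hq0 : (q : ℚ) ≠ 0 := Nat.cast_ne_zero.mpr hq.ne_zero
  have hN0 : (N : ℚ) ≠ 0 := Nat.cast_ne_zero.mpr hN.ne'
  obtain ⟨s, A₀, hA₀⟩ := entry_mem hΔ hg 0 0
  have hφ : 0 < Nat.totient N := Nat.totient_pos.mpr hN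
  have hs : s ≤ 2 * (s * Nat.totient N) := by nlinarith
  have hv1 := pow_two_mul_totient_modEq hq hqN s
  obtain ⟨x, hx⟩ := Int.modEq_iff_dvd.mp hv1
  have hv0 : (q : ℚ) ^ (2 * (s * Nat.totient N)) ≠ 0 := pow_ne_zero _ hq0
  have hxq : (q : ℚ) ^ (2 * (s * Nat.totient N)) - 1 = N * ((-x : ℤ) : ℚ) := by
    have := congrArg (Int.cast : ℤ → ℚ) hx
    push_cast at this ⊢
    linarith
  have hHv : H ((q : ℚ) ^ (2 * (s * Nat.totient N))) hv0 ∈ Δ :=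
    H_mem hΔ hv0 (pow_mem_Rq q _) (inv_pow_mem hq.ne_zero _)
  have hpsiHv : psi Φ (H ((q : ℚ) ^ (2 * (s * Nat.totient N))) hv0) = 0 :=
    psi_H hΔ Φ hu hl hv0 (pow_mem_Rq q _) (inv_pow_mem hq.ne_zero _) (int_mem q (-x)) hxq
  have hg1m : H ((q : ℚ) ^ (2 * (s * Nat.totient N))) hv0 * g ∈ Δ := Δ.mul_mem hHv hg
  -- the lower-left entry of `g₁ = h(v) g`
  obtain ⟨yc, hyc, hcy⟩ := entry10 hΔ hg
  have hy' : ((q : ℚ) ^ (2 * (s * Nat.totient N)))⁻¹ * yc ∈ Rq q :=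
    (Rq q).mul_mem (inv_pow_mem hq.ne_zero _) hyc
  obtain ⟨k, z', hz'⟩ := hy'
  have hw0 : ((q : ℚ) ^ k)⁻¹ ≠ 0 := inv_ne_zero (pow_ne_zero _ hq0)
  have hHw : H ((q : ℚ) ^ k)⁻¹ hw0 ∈ Δ :=
    H_mem hΔ hw0 (inv_pow_mem hq.ne_zero k) (by rw [inv_inv]; exact pow_mem_Rq q k)
  have hg2m : H ((q : ℚ) ^ k)⁻¹ hw0 * (H ((q : ℚ) ^ (2 * (s * Nat.totient N))) hv0 * g) *
      (H ((q : ℚ) ^ k)⁻¹ hw0)⁻¹ ∈ Δ := Δ.mul_mem (Δ.mul_mem hHw hg1m) (Δ.inv_mem hHw)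
  have hpow : (q : ℚ) ^ (2 * (s * Nat.totient N)) =
      (q : ℚ) ^ (2 * (s * Nat.totient N) - s) * (q : ℚ) ^ s := by
    rw [← pow_add, Nat.sub_add_cancel hs]
  have h2_00 : (H ((q : ℚ) ^ k)⁻¹ hw0 * (H ((q : ℚ) ^ (2 * (s * Nat.totient N))) hv0 * g) *
      (H ((q : ℚ) ^ k)⁻¹ hw0)⁻¹) 0 0 = (q : ℚ) ^ (2 * (s * Nat.totient N)) * g 0 0 := by
    rw [H_inv]
    simp only [mul00, mul01, mul10, H00, H01, H10, H11, inv_inv]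
    field_simp
    ring
  have h2_10 : (H ((q : ℚ) ^ k)⁻¹ hw0 * (H ((q : ℚ) ^ (2 * (s * Nat.totient N))) hv0 * g) *
      (H ((q : ℚ) ^ k)⁻¹ hw0)⁻¹) 1 0 = N * (((q : ℤ) ^ k * z' : ℤ) : ℚ) := by
    rw [H_inv]
    simp only [mul00, mul01, mul10, mul11, H00, H01, H10, H11, inv_inv]
    push_cast
    rw [← hz', hcy]
    field_simp
    ring
  refine ⟨_, hg2m, ?_, A₀ * (q : ℤ) ^ (2 * (s * Nat.totient N) - s), (q : ℤ) ^ k * z', ?_,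
    h2_10, ?_, (q : ℚ) ^ (2 * (s * Nat.totient N)) * y + ((-x : ℤ) : ℚ), ?_, ?_⟩
  · rw [psi_conj Φ hg1m hHw, psi_mul Φ hHv hg, hpsiHv, zero_add]
  · rw [h2_00, hpow]
    push_cast
    rw [← hA₀]
    ring
  · intro h0
    apply hc
    have h3 : ((q : ℚ) ^ (2 * (s * Nat.totient N)))⁻¹ * yc = 0 := by
      have h4 : ((z' : ℤ) : ℚ) = 0 := by
        have hqk : (q : ℤ) ^ k ≠ 0 := pow_ne_zero _ (by exact_mod_cast hq.ne_zero)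
        have : z' = 0 := by
          rcases mul_eq_zero.mp h0 with h | h
          · exact absurd h hqk
          · exact h
        rw [this]
        simp
      rw [h4] at hz'
      rcases mul_eq_zero.mp hz' with h | h
      · exact h
      · exact absurd h (pow_ne_zero _ hq0)
    have h5 : yc = 0 := by
      rcases mul_eq_zero.mp h3 with h | h
      · exact absurd h (inv_ne_zero hv0)
      · exact h
    rw [hcy, h5, mul_zero]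
  · exact (Rq q).add_mem ((Rq q).mul_mem (pow_mem_Rq q _) hy) (int_mem q (-x))
  · rw [h2_00]
    have : (q : ℚ) ^ (2 * (s * Nat.totient N)) * g 0 0 - 1 =
        (q : ℚ) ^ (2 * (s * Nat.totient N)) * (g 0 0 - 1) +
          ((q : ℚ) ^ (2 * (s * Nat.totient N)) - 1) := by ring
    rw [this, hay, hxq]
    ring

include hΔ hu in
/-- Step C: make the upper-left entry prime to `q`. -/
theorem exists_coprime_col (hq : q.Prime) (hqN : ¬ q ∣ N) {g : SL(2, ℚ)} (hg : g ∈ Δ)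
    {A₁ L₂ : ℤ} (h00 : g 0 0 = A₁) (h10 : g 1 0 = N * L₂) (hL : L₂ ≠ 0)
    (hg1 : ∃ y ∈ Rq q, g 0 0 - 1 = N * y) :
    ∃ g' : SL(2, ℚ), g' ∈ Δ ∧ psi Φ g' = psi Φ g ∧ ∃ a₀ : ℤ, g' 0 0 = a₀ ∧ g' 1 0 = N * L₂ ∧
      ¬ (q : ℤ) ∣ a₀ ∧ ∃ y' ∈ Rq q, g' 0 0 - 1 = N * y' := by
  obtain ⟨y, hy, hay⟩ := hg1
  have hq0 : (q : ℚ) ≠ 0 := Nat.cast_ne_zero.mpr hq.ne_zero
  have hqZ : Prime (q : ℤ) := Nat.prime_iff_prime_int.mp hq
  have hfin : FiniteMultiplicity (q : ℤ) L₂ :=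
    Int.finiteMultiplicity_iff.mpr ⟨by simpa using hq.ne_one, hL⟩
  obtain ⟨L', hL', hqL'⟩ := hfin.exists_eq_pow_mul_and_not_dvd
  set β := multiplicity (q : ℤ) L₂ with hβ
  by_cases hqA : (q : ℤ) ∣ A₁
  · -- add `N L'`
    have hx : ((q : ℚ) ^ β)⁻¹ ∈ Rq q := inv_pow_mem hq.ne_zero β
    have hU : U ((q : ℚ) ^ β)⁻¹ ∈ Δ := U_mem hΔ hx
    have hL'q : (L₂ : ℚ) = (q : ℚ) ^ β * L' := by
      have := congrArg (Int.cast : ℤ → ℚ) hL'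
      push_cast at this
      exact this
    have hpk : (q : ℚ) ^ β ≠ 0 := pow_ne_zero _ hq0
    refine ⟨U ((q : ℚ) ^ β)⁻¹ * g, Δ.mul_mem hU hg, ?_, A₁ + N * L', ?_, ?_, ?_,
      y + ((q : ℚ) ^ β)⁻¹ * L₂, (Rq q).add_mem hy ((Rq q).mul_mem hx (int_mem q L₂)), ?_⟩
    · rw [psi_mul Φ hU hg, psi_U hΔ Φ hu hx, zero_add]
    · rw [mul00, h00, h10, hL'q]
      simp only [U00, U01]
      push_cast
      field_simp
    · rw [mul10, h10]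
      simp
    · intro hdvd
      have h1 : (q : ℤ) ∣ (N : ℤ) * L' := (dvd_add_right hqA).mp hdvd
      rcases hqZ.dvd_or_dvd h1 with h | h
      · exact hqN (by exact_mod_cast h)
      · exact hqL' h
    · rw [mul00, h10]
      simp only [U00, U01]
      have : 1 * g 0 0 + ((q : ℚ) ^ β)⁻¹ * (N * L₂) - 1 =
          (g 0 0 - 1) + N * (((q : ℚ) ^ β)⁻¹ * L₂) := by ring
      rw [this, hay]
      ring
  · exact ⟨g, hg, rfl, A₁, h00, h10, hqA, y, hy, hay⟩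

include hΔ in
/-- Coprimality of an integral first column whose upper entry is prime to `q`. -/
theorem isCoprime_col (hq : q.Prime) {g : SL(2, ℚ)} (hg : g ∈ Δ) {a₀ L₂ : ℤ}
    (h00 : g 0 0 = a₀) (h10 : g 1 0 = N * L₂) (hqa : ¬ (q : ℤ) ∣ a₀) :
    IsCoprime a₀ ((q : ℤ) * N * L₂) := by
  have hqZ : Prime (q : ℤ) := Nat.prime_iff_prime_int.mp hq
  have hcq : IsCoprime a₀ (q : ℤ) := (hqZ.irreducible.coprime_iff_not_dvd.mpr hqa).symm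
  obtain ⟨k₁, D, hD⟩ := entry_mem hΔ hg 1 1
  obtain ⟨k₂, B, hB⟩ := entry_mem hΔ hg 0 1
  have hdet := det_eq g
  rw [h00, h10] at hdet
  have hZ : a₀ * (D * (q : ℤ) ^ k₂) - (B * (q : ℤ) ^ k₁) * (N * L₂) = (q : ℤ) ^ (k₁ + k₂) := by
    have : ((a₀ * (D * (q : ℤ) ^ k₂) - (B * (q : ℤ) ^ k₁) * (N * L₂) : ℤ) : ℚ) =
        (((q : ℤ) ^ (k₁ + k₂) : ℤ) : ℚ) := by
      push_cast
      rw [← hD, ← hB, pow_add]
      linear_combination ((q : ℚ) ^ k₁ * (q : ℚ) ^ k₂) * hdet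
    exact_mod_cast this
  obtain ⟨u₁, u₂, hu12⟩ := (hcq.pow_right (n := k₁ + k₂))
  have hcNL : IsCoprime a₀ ((N : ℤ) * L₂) :=
    ⟨u₁ + u₂ * (D * (q : ℤ) ^ k₂), -(u₂ * (B * (q : ℤ) ^ k₁)), by
      linear_combination hu12 + u₂ * hZ⟩
  rw [mul_assoc]
  exact hcq.mul_right hcNL

include hΔ hu hl in
/-- Reduction: if `P a L` holds for all integers `a ≡ 1 mod N` with `gcd(a, q N L) = 1`, then `Φ`
kills every `g ∈ Δ` with `g₁₁ ≡ 1 mod N`. -/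
theorem csp_strong_of_P (hq : q.Prime) (hN : 0 < N) (hqN : ¬ q ∣ N)
    (hP : ∀ a L : ℤ, a ≡ 1 [ZMOD N] → IsCoprime a ((q : ℤ) * N * L) → P N Φ a L)
    (g : Δ) (hg : ∃ y ∈ Rq q, (g : SL(2, ℚ)) 0 0 - 1 = N * y) :
    Φ (Additive.ofMul g) = 0 := by
  rw [← psi_coe Φ g]
  obtain ⟨g, hgΔ⟩ := g
  change ∃ y ∈ Rq q, g 0 0 - 1 = N * y at hg
  change psi Φ g = 0
  have hcopNq : Nat.Coprime N q := ((Nat.Prime.coprime_iff_not_dvd hq).mpr hqN).symm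
  by_cases hc : g 1 0 = 0
  · -- `g = h(a) u(x)` with `a` a unit
    obtain ⟨y, hy, hay⟩ := hg
    have hdet := det_eq g
    rw [hc, mul_zero, sub_zero] at hdet
    have ha0 : g 0 0 ≠ 0 := left_ne_zero_of_mul_eq_one hdet
    have hinv : (g 0 0)⁻¹ = g 1 1 := (eq_inv_of_mul_eq_one_right hdet).symm
    have hH : H (g 0 0) ha0 ∈ Δ :=
      H_mem hΔ ha0 (entry_mem hΔ hgΔ 0 0) (by rw [hinv]; exact entry_mem hΔ hgΔ 1 1)
    have hpsiH : psi Φ (H (g 0 0) ha0) = 0 :=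
      psi_H hΔ Φ hu hl ha0 (entry_mem hΔ hgΔ 0 0) (by rw [hinv]; exact entry_mem hΔ hgΔ 1 1)
        hy hay
    have hmem : (H (g 0 0) ha0)⁻¹ * g ∈ Δ := Δ.mul_mem (Δ.inv_mem hH) hgΔ
    have h00 : ((H (g 0 0) ha0)⁻¹ * g) 0 0 = 1 := by
      rw [H_inv, mul00]
      simp [ha0]
    have h0 := psi_of_one hΔ Φ hu hl hmem h00
    rwa [psi_mul Φ (Δ.inv_mem hH) hgΔ, psi_inv Φ hH, hpsiH, neg_zero, zero_add] at h0
  · obtain ⟨g₂, hg₂, hpsi₂, A₁, L₂, h00, h10, hL, hg₂1⟩ :=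
      exists_int_col hΔ Φ hu hl hq hN hqN hgΔ hg hc
    obtain ⟨g₃, hg₃, hpsi₃, a₀, h00', h10', hqa, y', hy', hay'⟩ :=
      exists_coprime_col hΔ Φ hu hq hqN hg₂ h00 h10 hL hg₂1
    have hcop := isCoprime_col hΔ hq hg₃ h00' h10' hqa
    have hmod : a₀ ≡ 1 [ZMOD N] := by
      rw [Int.modEq_iff_dvd]
      apply int_dvd_of_eq_mul hcopNq ((Rq q).neg_mem hy')
      push_cast
      rw [h00'] at hay'
      linarith
    have h := (P_iff Φ).mp (hP a₀ L₂ hmod hcop) g₃ hg₃ h00' h10'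
    rw [← hpsi₂, ← hpsi₃]
    exact h

include hΔ hu hl in
/-- `csp_strong`, modulo the arithmetic lemma (stated in the exact shape of
`Fermat.Agent.S41.CSPArith.csp_arith q N _ _ _`). -/
theorem csp_strong_of_arith (h2 : ∀ x : A, x + x = 0 → x = 0) (hq : q.Prime) (hN : 0 < N)
    (hqN : ¬ q ∣ N)
    (harith : ∀ (P : ℤ → ℤ → Prop),
      (∀ a L : ℤ, IsCoprime a ((q : ℤ) * N * L) →
        (a ≡ 1 [ZMOD (N : ℤ)] ∨ a ≡ -1 [ZMOD (N : ℤ)]) → L ≡ 1 [ZMOD a] → P a L) →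
      (∀ (a a' L : ℤ) (i : ℕ), IsCoprime a ((q : ℤ) * N * L) → IsCoprime a' ((q : ℤ) * N * L) →
        (q : ℤ) ^ (2 * i) ≡ 1 [ZMOD (N : ℤ)] → a' ≡ (q : ℤ) ^ (2 * i) * a [ZMOD ((N : ℤ) * L)] →
        P a' L → P a L) →
      (∀ a L L' : ℤ, IsCoprime a ((q : ℤ) * N * L) → IsCoprime a ((q : ℤ) * N * L') →
        L' ≡ L [ZMOD a] → P a L' → P a L) →
      (∀ a L : ℤ, IsCoprime a ((q : ℤ) * N * L) → P (-a) (-L) → P a L) →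
      ∀ a L : ℤ, IsCoprime a ((q : ℤ) * N * L) →
        (a ≡ 1 [ZMOD (N : ℤ)] ∨ a ≡ -1 [ZMOD (N : ℤ)]) → P a L)
    (g : Δ) (hg : ∃ y ∈ Rq q, (g : SL(2, ℚ)) 0 0 - 1 = N * y) :
    Φ (Additive.ofMul g) = 0 :=
  csp_strong_of_P hΔ Φ hu hl hq hN hqN
    (fun a L ha hcop =>
      harith (P N Φ)
        (fun _ _ _ ha' hL => b0 hΔ h2 Φ hu hl ha' hL)
        (fun _ _ _ _ _ _ hi ha' hP' => b1 hΔ Φ hu hl hq hi ha' hP')
        (fun _ _ _ _ _ h hP' => b2 hΔ Φ hl h hP')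
        (fun _ _ _ hP' => b4 hΔ h2 Φ hP')
        a L hcop (Or.inl ha))
    g hg

end Reduction

end Fermat.Agent.S41.CSPMat
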