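/-
S41 [AM] assembly: `Γ₀(N)[1/q] = Γ₀(N) *_{Γ₀(Nq)} δ⁻¹Γ₀(N)δ` and the gluing of homomorphisms.
Definition-independent: `Δ` is any subgroup of `SL(2, ℚ)` with the membership characterisation
`g ∈ Δ ↔ entries in ℤ[1/q] ∧ g 1 0 ∈ N ℤ[1/q]`.
-/
import Mathlib
import Fermat.Agent.S41.AMInj
import Fermat.Agent.S41.AMGen
import Fermat.Agent.S41.CSPMat

set_option autoImplicit false
set_option linter.unusedSimpArgs false
set_option linter.unusedSectionVars false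

open CongruenceSubgroup Matrix
open scoped MatrixGroups

namespace Fermat.Agent.S41.AMGlue

open Fermat.Agent.S41

/-! ### Elements of `Γ₀(N)` from entries -/

/-- The element `[[a, b], [c, d]]` of `Γ₀(N)`. -/
def mkS (a b c d : ℤ) (hdet : a * d - b * c = 1) : SL(2, ℤ) :=
  ⟨!![a, b; c, d], by rw [Matrix.det_fin_two_of]; exact hdet⟩

/-- The element `[[a, b], [c, d]]` of `Γ₀(N)`. -/
def mkG (N : ℕ) (a b c d : ℤ) (hdet : a * d - b * c = 1) (hc : (N : ℤ) ∣ c) : Gamma0 N :=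
  ⟨mkS a b c d hdet, by
    rw [Gamma0_mem]
    exact (ZMod.intCast_zmod_eq_zero_iff_dvd _ _).mpr hc⟩

section mkG
variable (N : ℕ) (a b c d : ℤ) (hdet : a * d - b * c = 1) (hc : (N : ℤ) ∣ c)

@[simp] theorem mkG_00 : ((mkG N a b c d hdet hc : Gamma0 N) : SL(2, ℤ)) 0 0 = a := rfl
@[simp] theorem mkG_01 : ((mkG N a b c d hdet hc : Gamma0 N) : SL(2, ℤ)) 0 1 = b := rfl
@[simp] theorem mkG_10 : ((mkG N a b c d hdet hc : Gamma0 N) : SL(2, ℤ)) 1 0 = c := rfl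
@[simp] theorem mkG_11 : ((mkG N a b c d hdet hc : Gamma0 N) : SL(2, ℤ)) 1 1 = d := rfl

end mkG

theorem gamma0_ext {N : ℕ} {γ γ' : Gamma0 N}
    (h00 : (γ : SL(2, ℤ)) 0 0 = (γ' : SL(2, ℤ)) 0 0) (h01 : (γ : SL(2, ℤ)) 0 1 = (γ' : SL(2, ℤ)) 0 1)
    (h10 : (γ : SL(2, ℤ)) 1 0 = (γ' : SL(2, ℤ)) 1 0) (h11 : (γ : SL(2, ℤ)) 1 1 = (γ' : SL(2, ℤ)) 1 1) :
    γ = γ' := by
  apply Subtype.ext
  ext i j
  fin_cases i <;> fin_cases j <;> assumption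

theorem gamma0_dvd {N : ℕ} (γ : Gamma0 N) : (N : ℤ) ∣ (γ : SL(2, ℤ)) 1 0 := by
  have := γ.2
  rw [Gamma0_mem] at this
  exact (ZMod.intCast_zmod_eq_zero_iff_dvd _ _).mp this

theorem gamma0_det {N : ℕ} (γ : Gamma0 N) :
    (γ : SL(2, ℤ)) 0 0 * (γ : SL(2, ℤ)) 1 1 - (γ : SL(2, ℤ)) 0 1 * (γ : SL(2, ℤ)) 1 0 = 1 := by
  have := (γ : SL(2, ℤ)).2
  rw [Matrix.det_fin_two] at this
  exact this

theorem gamma0_mul_00 {N : ℕ} (γ γ' : Gamma0 N) : ((γ * γ' : Gamma0 N) : SL(2, ℤ)) 0 0 =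
    (γ : SL(2, ℤ)) 0 0 * (γ' : SL(2, ℤ)) 0 0 + (γ : SL(2, ℤ)) 0 1 * (γ' : SL(2, ℤ)) 1 0 := by
  simp [Matrix.mul_apply, Fin.sum_univ_two]
theorem gamma0_mul_01 {N : ℕ} (γ γ' : Gamma0 N) : ((γ * γ' : Gamma0 N) : SL(2, ℤ)) 0 1 =
    (γ : SL(2, ℤ)) 0 0 * (γ' : SL(2, ℤ)) 0 1 + (γ : SL(2, ℤ)) 0 1 * (γ' : SL(2, ℤ)) 1 1 := by
  simp [Matrix.mul_apply, Fin.sum_univ_two]
theorem gamma0_mul_10 {N : ℕ} (γ γ' : Gamma0 N) : ((γ * γ' : Gamma0 N) : SL(2, ℤ)) 1 0 =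
    (γ : SL(2, ℤ)) 1 0 * (γ' : SL(2, ℤ)) 0 0 + (γ : SL(2, ℤ)) 1 1 * (γ' : SL(2, ℤ)) 1 0 := by
  simp [Matrix.mul_apply, Fin.sum_univ_two]
theorem gamma0_mul_11 {N : ℕ} (γ γ' : Gamma0 N) : ((γ * γ' : Gamma0 N) : SL(2, ℤ)) 1 1 =
    (γ : SL(2, ℤ)) 1 0 * (γ' : SL(2, ℤ)) 0 1 + (γ : SL(2, ℤ)) 1 1 * (γ' : SL(2, ℤ)) 1 1 := by
  simp [Matrix.mul_apply, Fin.sum_univ_two]

/-! ### The two maps `Γ₀(Nq) → Γ₀(N)` -/

section maps
variable (N q : ℕ)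

theorem gamma0_le : Gamma0 (N * q) ≤ Gamma0 N := by
  intro g hg
  rw [Gamma0_mem] at hg ⊢
  rw [ZMod.intCast_zmod_eq_zero_iff_dvd] at hg ⊢
  exact dvd_trans (by push_cast; exact dvd_mul_right _ _) hg

/-- the inclusion `Γ₀(Nq) → Γ₀(N)` -/
def incA : Gamma0 (N * q) →* Gamma0 N := Subgroup.inclusion (gamma0_le N q)

@[simp] theorem incA_coe (γ : Gamma0 (N * q)) : ((incA N q γ : Gamma0 N) : SL(2, ℤ)) = γ := rfl

theorem incA_injective : Function.Injective (incA N q) := Subgroup.inclusion_injective _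

theorem q_dvd (γ : Gamma0 (N * q)) : (q : ℤ) ∣ (γ : SL(2, ℤ)) 1 0 :=
  dvd_trans (by push_cast; exact dvd_mul_left _ _) (gamma0_dvd γ)

/-- `c / q` -/
def lowQ (γ : Gamma0 (N * q)) : ℤ := (γ : SL(2, ℤ)) 1 0 / (q : ℤ)

theorem q_mul_lowQ (γ : Gamma0 (N * q)) : (q : ℤ) * lowQ N q γ = (γ : SL(2, ℤ)) 1 0 :=
  Int.mul_ediv_cancel' (q_dvd N q γ)

variable [Fact q.Prime]

theorem q_ne_zero : (q : ℤ) ≠ 0 := by
  have := (Fact.out : q.Prime).pos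
  positivity

theorem N_dvd_lowQ (γ : Gamma0 (N * q)) : (N : ℤ) ∣ lowQ N q γ := by
  have h := gamma0_dvd γ
  rw [← q_mul_lowQ N q γ] at h
  push_cast at h
  rw [mul_comm (N : ℤ)] at h
  exact (mul_dvd_mul_iff_left (q_ne_zero q)).mp h

omit [Fact q.Prime] in
theorem incB_det (γ : Gamma0 (N * q)) :
    (γ : SL(2, ℤ)) 0 0 * (γ : SL(2, ℤ)) 1 1 - (q : ℤ) * (γ : SL(2, ℤ)) 0 1 * lowQ N q γ = 1 := by
  have h := gamma0_det γ
  rw [← q_mul_lowQ N q γ] at h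
  linear_combination h

/-- `γ ↦ δ γ δ⁻¹ = [[a, q b], [c / q, d]]`, `δ = diag(q, 1)`. -/
def incB : Gamma0 (N * q) →* Gamma0 N :=
  MonoidHom.mk' (fun γ => mkG N ((γ : SL(2, ℤ)) 0 0) ((q : ℤ) * (γ : SL(2, ℤ)) 0 1) (lowQ N q γ)
      ((γ : SL(2, ℤ)) 1 1) (incB_det N q γ) (N_dvd_lowQ N q γ)) (by
    intro γ γ'
    have h1 := q_mul_lowQ N q γ
    have h2 := q_mul_lowQ N q γ'
    have h3 := q_mul_lowQ N q (γ * γ')
    have h4 : lowQ N q (γ * γ') = lowQ N q γ * (γ' : SL(2, ℤ)) 0 0 +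
        (γ : SL(2, ℤ)) 1 1 * lowQ N q γ' := by
      apply mul_left_cancel₀ (q_ne_zero q)
      rw [h3, gamma0_mul_10, ← h1, ← h2]
      ring
    apply gamma0_ext
    · simp only [mkG_00, mkG_01, mkG_10, mkG_11, gamma0_mul_00]
      rw [← h2]
      ring
    · simp only [mkG_00, mkG_01, mkG_10, mkG_11, gamma0_mul_01]
      ring
    · simp only [mkG_00, mkG_01, mkG_10, mkG_11, gamma0_mul_10]
      exact h4
    · simp only [mkG_00, mkG_01, mkG_10, mkG_11, gamma0_mul_11]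
      rw [← h1]
      ring)

theorem incB_00 (γ : Gamma0 (N * q)) :
    ((incB N q γ : Gamma0 N) : SL(2, ℤ)) 0 0 = (γ : SL(2, ℤ)) 0 0 := rfl
theorem incB_01 (γ : Gamma0 (N * q)) :
    ((incB N q γ : Gamma0 N) : SL(2, ℤ)) 0 1 = (q : ℤ) * (γ : SL(2, ℤ)) 0 1 := rfl
theorem incB_10 (γ : Gamma0 (N * q)) :
    (q : ℤ) * ((incB N q γ : Gamma0 N) : SL(2, ℤ)) 1 0 = (γ : SL(2, ℤ)) 1 0 := q_mul_lowQ N q γ
theorem incB_11 (γ : Gamma0 (N * q)) :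
    ((incB N q γ : Gamma0 N) : SL(2, ℤ)) 1 1 = (γ : SL(2, ℤ)) 1 1 := rfl

theorem incB_injective : Function.Injective (incB N q) := by
  intro γ γ' h
  have e00 := congrArg (fun x : Gamma0 N => (x : SL(2, ℤ)) 0 0) h
  have e01 := congrArg (fun x : Gamma0 N => (x : SL(2, ℤ)) 0 1) h
  have e10 := congrArg (fun x : Gamma0 N => (q : ℤ) * (x : SL(2, ℤ)) 1 0) h
  have e11 := congrArg (fun x : Gamma0 N => (x : SL(2, ℤ)) 1 1) h
  simp only [incB_00, incB_01, incB_10, incB_11] at e00 e01 e10 e11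
  exact gamma0_ext e00 (mul_left_cancel₀ (q_ne_zero q) e01) e10 e11

end maps

/-! ### The two embeddings `Γ₀(N) → SL(2, ℚ)` -/

section embed
variable (N q : ℕ)

/-- `Γ₀(N) → SL(2, ℚ)`, entrywise cast. -/
def toQ : Gamma0 N →* SL(2, ℚ) :=
  (Matrix.SpecialLinearGroup.map (Int.castRingHom ℚ)).comp (Gamma0 N).subtype

theorem toQ_apply (γ : Gamma0 N) (i j : Fin 2) :
    (toQ N γ) i j = (((γ : SL(2, ℤ)) i j : ℤ) : ℚ) := rfl

theorem toQ_injective : Function.Injective (toQ N) := by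
  intro γ γ' h
  have e : ∀ i j, (((γ : SL(2, ℤ)) i j : ℤ) : ℚ) = (((γ' : SL(2, ℤ)) i j : ℤ) : ℚ) := by
    intro i j
    rw [← toQ_apply, ← toQ_apply, h]
  exact gamma0_ext (by exact_mod_cast e 0 0) (by exact_mod_cast e 0 1) (by exact_mod_cast e 1 0)
    (by exact_mod_cast e 1 1)

variable [Fact q.Prime]

theorem q_ne_zero' : (q : ℚ) ≠ 0 := by
  have := (Fact.out : q.Prime).pos
  positivity

theorem toQc_det (γ : Gamma0 N) :
    (((γ : SL(2, ℤ)) 0 0 : ℤ) : ℚ) * (((γ : SL(2, ℤ)) 1 1 : ℤ) : ℚ) -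
      (((γ : SL(2, ℤ)) 0 1 : ℤ) : ℚ) / (q : ℚ) * ((q : ℚ) * (((γ : SL(2, ℤ)) 1 0 : ℤ) : ℚ)) = 1 := by
  have h := gamma0_det γ
  have h' : (((γ : SL(2, ℤ)) 0 0 : ℤ) : ℚ) * (((γ : SL(2, ℤ)) 1 1 : ℤ) : ℚ) -
      (((γ : SL(2, ℤ)) 0 1 : ℤ) : ℚ) * (((γ : SL(2, ℤ)) 1 0 : ℤ) : ℚ) = 1 := by exact_mod_cast h
  have hq := q_ne_zero' q
  field_simp
  linarith

/-- `γ ↦ δ⁻¹ γ δ = [[a, b / q], [q c, d]]`, `δ = diag(q, 1)`. -/
def toQc : Gamma0 N →* SL(2, ℚ) :=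
  MonoidHom.mk' (fun γ => AMGen.mk (((γ : SL(2, ℤ)) 0 0 : ℤ) : ℚ)
      ((((γ : SL(2, ℤ)) 0 1 : ℤ) : ℚ) / (q : ℚ)) ((q : ℚ) * (((γ : SL(2, ℤ)) 1 0 : ℤ) : ℚ))
      (((γ : SL(2, ℤ)) 1 1 : ℤ) : ℚ) (toQc_det N q γ)) (by
    intro γ γ'
    have hq := q_ne_zero' q
    apply CSPMat.ext_entries
    · rw [CSPMat.mul00]
      simp only [AMGen.mk_00, AMGen.mk_01, AMGen.mk_10, AMGen.mk_11, gamma0_mul_00]
      push_cast
      field_simp
    · rw [CSPMat.mul01]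
      simp only [AMGen.mk_00, AMGen.mk_01, AMGen.mk_10, AMGen.mk_11, gamma0_mul_01]
      push_cast
      field_simp
    · rw [CSPMat.mul10]
      simp only [AMGen.mk_00, AMGen.mk_01, AMGen.mk_10, AMGen.mk_11, gamma0_mul_10]
      push_cast
      field_simp
    · rw [CSPMat.mul11]
      simp only [AMGen.mk_00, AMGen.mk_01, AMGen.mk_10, AMGen.mk_11, gamma0_mul_11]
      push_cast
      field_simp)

theorem toQc_00 (γ : Gamma0 N) : (toQc N q γ) 0 0 = (((γ : SL(2, ℤ)) 0 0 : ℤ) : ℚ) := rfl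
theorem toQc_01' (γ : Gamma0 N) :
    (toQc N q γ) 0 1 = (((γ : SL(2, ℤ)) 0 1 : ℤ) : ℚ) / (q : ℚ) := rfl
theorem toQc_01 (γ : Gamma0 N) :
    (toQc N q γ) 0 1 * (q : ℚ) = (((γ : SL(2, ℤ)) 0 1 : ℤ) : ℚ) := by
  rw [toQc_01', div_mul_cancel₀ _ (q_ne_zero' q)]
theorem toQc_10 (γ : Gamma0 N) :
    (toQc N q γ) 1 0 = (q : ℚ) * (((γ : SL(2, ℤ)) 1 0 : ℤ) : ℚ) := rfl
theorem toQc_11 (γ : Gamma0 N) : (toQc N q γ) 1 1 = (((γ : SL(2, ℤ)) 1 1 : ℤ) : ℚ) := rfl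

end embed

/-! ### The amalgam and its map to `SL(2, ℚ)` -/

section amalgam
open Monoid
variable (N q : ℕ) [Fact q.Prime]

/-- the two maps of the amalgamation diagram -/
def phi : Fin 2 → Gamma0 (N * q) →* Gamma0 N := ![incA N q, incB N q]

/-- the two embeddings -/
def Fm : Fin 2 → Gamma0 N →* SL(2, ℚ) := ![toQ N, toQc N q]

/-- the embedding of the base -/
def kk : Gamma0 (N * q) →* SL(2, ℚ) := (toQ N).comp (incA N q)

theorem hk : ∀ i, (Fm N q i).comp (phi N q i) = kk N q := by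
  intro i
  fin_cases i
  · rfl
  · ext γ : 1
    have hq := q_ne_zero' q
    apply CSPMat.ext_entries
    · rfl
    · show (toQc N q (incB N q γ)) 0 1 = _
      rw [toQc_01', incB_01]
      show _ = (((γ : SL(2, ℤ)) 0 1 : ℤ) : ℚ)
      push_cast
      field_simp
    · show (toQc N q (incB N q γ)) 1 0 = _
      rw [toQc_10]
      show _ = (((γ : SL(2, ℤ)) 1 0 : ℤ) : ℚ)
      rw [← incB_10 N q γ]
      push_cast
      rfl
    · rfl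

/-- the canonical map from the amalgam -/
def lam : PushoutI (phi N q) →* SL(2, ℚ) := PushoutI.lift (Fm N q) (kk N q) (hk N q)

theorem lam_of_zero (γ : Gamma0 N) : lam N q (PushoutI.of (φ := phi N q) 0 γ) = toQ N γ := by
  rw [lam, PushoutI.lift_of]
  rfl

theorem lam_of_one (γ : Gamma0 N) : lam N q (PushoutI.of (φ := phi N q) 1 γ) = toQc N q γ := by
  rw [lam, PushoutI.lift_of]
  rfl

theorem lam_injective (hqN : ¬ q ∣ N) : Function.Injective (lam N q) := by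
  have hq : q.Prime := Fact.out
  have hcop : IsCoprime (N : ℤ) (q : ℤ) :=
    Nat.isCoprime_iff_coprime.mpr ((Nat.Prime.coprime_iff_not_dvd hq).mpr hqN).symm
  refine AMInj.lift_injective (phi N q) ?_ (Fm N q) (kk N q) (hk N q) ?_ ?_ ?_ ?_ ?_
  · intro i
    fin_cases i
    · exact incA_injective N q
    · exact incB_injective N q
  · intro i γ
    fin_cases i
    · ext i j
      fin_cases i <;> fin_cases j <;> simp [Fm, AMInj.sMat, toQ_apply]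
    · have hq0 := q_ne_zero' q
      ext i j
      fin_cases i <;> fin_cases j
      · simp [Fm, AMInj.sMat, toQc_00]
      · simp [Fm, AMInj.sMat, toQc_01', mul_div_cancel₀ _ hq0]
      · simp [Fm, AMInj.sMat, toQc_10]
        ring
      · simp [Fm, AMInj.sMat, toQc_11]
  · intro γ hdvd
    have hmem : ((γ : Gamma0 N) : SL(2, ℤ)) ∈ Gamma0 (N * q) := by
      rw [Gamma0_mem, ZMod.intCast_zmod_eq_zero_iff_dvd]
      push_cast
      exact hcop.mul_dvd (gamma0_dvd γ) hdvd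
    exact ⟨⟨(γ : SL(2, ℤ)), hmem⟩, rfl⟩
  · intro γ hdvd
    obtain ⟨b', hb'⟩ := hdvd
    have hdet : (γ : SL(2, ℤ)) 0 0 * (γ : SL(2, ℤ)) 1 1 - b' * ((q : ℤ) * (γ : SL(2, ℤ)) 1 0) = 1 := by
      have h := gamma0_det γ
      rw [hb'] at h
      linear_combination h
    have hc : ((N * q : ℕ) : ℤ) ∣ (q : ℤ) * (γ : SL(2, ℤ)) 1 0 := by
      push_cast
      rw [mul_comm (N : ℤ)]
      exact mul_dvd_mul_left _ (gamma0_dvd γ)
    refine ⟨mkG (N * q) ((γ : SL(2, ℤ)) 0 0) b' ((q : ℤ) * (γ : SL(2, ℤ)) 1 0)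
      ((γ : SL(2, ℤ)) 1 1) hdet hc, ?_⟩
    show incB N q _ = γ
    apply gamma0_ext
    · rw [incB_00, mkG_00]
    · rw [incB_01, mkG_01, hb']
    · apply mul_left_cancel₀ (q_ne_zero q)
      rw [incB_10, mkG_10]
    · rw [incB_11, mkG_11]
  · intro h
    refine ⟨((h : SL(2, ℤ)) : Matrix (Fin 2) (Fin 2) ℤ), q_dvd N q h, ?_⟩
    ext i j
    rfl
  · exact (toQ_injective N).comp (incA_injective N q)

end amalgam

/-! ### Membership in `Δ` and the range of `lam` -/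

section range
open Monoid
variable {N q : ℕ} [Fact q.Prime] {Δ : Subgroup SL(2, ℚ)}

theorem toQ_mem (hΔ : ∀ g : SL(2, ℚ), g ∈ Δ ↔
      (∀ i j, g i j ∈ CSPMat.Rq q) ∧ ∃ y ∈ CSPMat.Rq q, g 1 0 = N * y) (γ : Gamma0 N) :
    toQ N γ ∈ Δ := by
  rw [hΔ]
  refine ⟨fun i j => ?_, ?_⟩
  · rw [toQ_apply]
    exact CSPMat.int_mem q _
  · obtain ⟨t, ht⟩ := gamma0_dvd γ
    refine ⟨(t : ℚ), CSPMat.int_mem q t, ?_⟩
    rw [toQ_apply, ht]
    push_cast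
    rfl

theorem toQc_mem (hΔ : ∀ g : SL(2, ℚ), g ∈ Δ ↔
      (∀ i j, g i j ∈ CSPMat.Rq q) ∧ ∃ y ∈ CSPMat.Rq q, g 1 0 = N * y) (γ : Gamma0 N) :
    toQc N q γ ∈ Δ := by
  have hq0 := q_ne_zero' q
  rw [hΔ]
  refine ⟨fun i j => ?_, ?_⟩
  · fin_cases i <;> fin_cases j
    · show (toQc N q γ) 0 0 ∈ _
      rw [toQc_00]
      exact CSPMat.int_mem q _
    · show (toQc N q γ) 0 1 ∈ _
      exact ⟨1, (γ : SL(2, ℤ)) 0 1, by rw [pow_one, toQc_01]⟩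
    · show (toQc N q γ) 1 0 ∈ _
      rw [toQc_10]
      exact (CSPMat.Rq q).mul_mem (CSPMat.nat_mem q q) (CSPMat.int_mem q _)
    · show (toQc N q γ) 1 1 ∈ _
      rw [toQc_11]
      exact CSPMat.int_mem q _
  · obtain ⟨t, ht⟩ := gamma0_dvd γ
    refine ⟨(q : ℚ) * (t : ℚ), (CSPMat.Rq q).mul_mem (CSPMat.nat_mem q q) (CSPMat.int_mem q t), ?_⟩
    rw [toQc_10, ht]
    push_cast
    ring

theorem lam_mem (hΔ : ∀ g : SL(2, ℚ), g ∈ Δ ↔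
      (∀ i j, g i j ∈ CSPMat.Rq q) ∧ ∃ y ∈ CSPMat.Rq q, g 1 0 = N * y)
    (x : PushoutI (phi N q)) : lam N q x ∈ Δ := by
  induction x using PushoutI.induction_on with
  | of i g =>
    fin_cases i
    · rw [show ((⟨0, by decide⟩ : Fin 2)) = 0 from rfl, lam_of_zero]
      exact toQ_mem hΔ g
    · rw [show ((⟨1, by decide⟩ : Fin 2)) = 1 from rfl, lam_of_one]
      exact toQc_mem hΔ g
  | base h =>
    rw [lam, PushoutI.lift_base]
    exact toQ_mem hΔ _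
  | mul x y hx hy =>
    rw [map_mul]
    exact Δ.mul_mem hx hy

theorem mem_range_lam (hqN : ¬ q ∣ N) (hΔ : ∀ g : SL(2, ℚ), g ∈ Δ ↔
      (∀ i j, g i j ∈ CSPMat.Rq q) ∧ ∃ y ∈ CSPMat.Rq q, g 1 0 = N * y)
    (g : SL(2, ℚ)) (hg : g ∈ Δ) : g ∈ (lam N q).range := by
  have hq : q.Prime := Fact.out
  have hq0 := q_ne_zero' q
  refine AMGen.mem_of_gens N q hq hqN (lam N q).range ?_ ?_ g ((hΔ g).mp hg)
  · intro g a b c d h00 h01 h10 h11 hc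
    have hdet : a * d - b * c = 1 := by
      have h := CSPMat.det_eq g
      rw [h00, h01, h10, h11] at h
      exact_mod_cast h
    refine ⟨PushoutI.of (φ := phi N q) 0 (mkG N a b c d hdet hc), ?_⟩
    rw [lam_of_zero]
    apply CSPMat.ext_entries
    · rw [toQ_apply, mkG_00, h00]
    · rw [toQ_apply, mkG_01, h01]
    · rw [toQ_apply, mkG_10, h10]
    · rw [toQ_apply, mkG_11, h11]
  · intro g a b c d h00 h01 h10 h11 hc
    have hdet : a * d - b * c = 1 := by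
      have h := CSPMat.det_eq g
      have h01' : g 0 1 = (b : ℚ) / (q : ℚ) := by
        rw [← h01]
        field_simp
      rw [h00, h01', h10, h11] at h
      have h' : (a : ℚ) * d - b * c = 1 := by
        rw [← h]
        field_simp
      exact_mod_cast h'
    refine ⟨PushoutI.of (φ := phi N q) 1 (mkG N a b c d hdet hc), ?_⟩
    rw [lam_of_one]
    apply CSPMat.ext_entries
    · rw [toQc_00, mkG_00, h00]
    · rw [toQc_01', mkG_01, ← h01]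
      field_simp
    · rw [toQc_10, mkG_10, h10]
    · rw [toQc_11, mkG_11, h11]

end range

/-! ### Gluing homomorphisms -/

section glue
open Monoid
variable (N q : ℕ) [Fact q.Prime]

/-- **[AM] `exists_glue`** (definition-independent form). Two homomorphisms `φ₁, φ₂` on `Γ₀(N)`
with `φ₁ γ = φ₂ (δ γ δ⁻¹)` on `Γ₀(Nq)` glue to a homomorphism on `Δ = Γ₀(N)[1/q]` restricting to
`φ₁` on `Γ₀(N)` and to `φ₂ (δ · δ⁻¹)` on `δ⁻¹ Γ₀(N) δ`. -/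
theorem exists_glue (hqN : ¬ q ∣ N) {Δ : Subgroup SL(2, ℚ)}
    (hΔ : ∀ g : SL(2, ℚ), g ∈ Δ ↔
      (∀ i j, g i j ∈ CSPMat.Rq q) ∧ ∃ y ∈ CSPMat.Rq q, g 1 0 = N * y)
    {A : Type*} [AddCommGroup A] (φ₁ φ₂ : Additive (Gamma0 N) →+ A)
    (h : ∀ γ γ' : Gamma0 N,
      ((γ' : SL(2, ℤ)) 0 0 = (γ : SL(2, ℤ)) 0 0 ∧ (γ' : SL(2, ℤ)) 0 1 = q * (γ : SL(2, ℤ)) 0 1 ∧
        q * (γ' : SL(2, ℤ)) 1 0 = (γ : SL(2, ℤ)) 1 0 ∧ (γ' : SL(2, ℤ)) 1 1 = (γ : SL(2, ℤ)) 1 1) →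
      φ₁ (Additive.ofMul γ) = φ₂ (Additive.ofMul γ')) :
    ∃ Φ : Additive Δ →+ A,
      (∀ (γ : Gamma0 N) (g : Δ),
        (∀ i j, (g : SL(2, ℚ)) i j = (((γ : SL(2, ℤ)) i j : ℤ) : ℚ)) →
          Φ (Additive.ofMul g) = φ₁ (Additive.ofMul γ)) ∧
      (∀ (γ : Gamma0 N) (g : Δ),
        ((g : SL(2, ℚ)) 0 0 = (((γ : SL(2, ℤ)) 0 0 : ℤ) : ℚ) ∧
          (g : SL(2, ℚ)) 0 1 * q = (((γ : SL(2, ℤ)) 0 1 : ℤ) : ℚ) ∧
          (g : SL(2, ℚ)) 1 0 = q * (((γ : SL(2, ℤ)) 1 0 : ℤ) : ℚ) ∧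
          (g : SL(2, ℚ)) 1 1 = (((γ : SL(2, ℤ)) 1 1 : ℤ) : ℚ)) →
          Φ (Additive.ofMul g) = φ₂ (Additive.ofMul γ)) := by
  classical
  have hq0 := q_ne_zero' q
  -- the two homomorphisms, multiplicatively
  let f : Fin 2 → Gamma0 N →* Multiplicative A :=
    ![AddMonoidHom.toMultiplicativeRight φ₁, AddMonoidHom.toMultiplicativeRight φ₂]
  let k' : Gamma0 (N * q) →* Multiplicative A := (f 0).comp (incA N q)
  have hcompat : ∀ i, (f i).comp (phi N q i) = k' := by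
    intro i
    fin_cases i
    · rfl
    · ext γ : 1
      show Multiplicative.ofAdd (φ₂ (Additive.ofMul (incB N q γ))) =
        Multiplicative.ofAdd (φ₁ (Additive.ofMul (incA N q γ)))
      rw [h (incA N q γ) (incB N q γ)
        ⟨incB_00 N q γ, incB_01 N q γ, incB_10 N q γ, incB_11 N q γ⟩]
  let Ψ : PushoutI (phi N q) →* Multiplicative A := PushoutI.lift f k' hcompat
  have hinj := lam_injective N q hqN
  have hle : Δ ≤ (lam N q).range := fun g hg => mem_range_lam hqN hΔ g hg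
  let e : PushoutI (phi N q) ≃* (lam N q).range := MonoidHom.ofInjective hinj
  let Φ' : Δ →* Multiplicative A := Ψ.comp (e.symm.toMonoidHom.comp (Subgroup.inclusion hle))
  have key : ∀ (g : Δ) (x : PushoutI (phi N q)), lam N q x = (g : SL(2, ℚ)) → Φ' g = Ψ x := by
    intro g x hx
    show Ψ (e.symm (Subgroup.inclusion hle g)) = Ψ x
    congr 1
    rw [MulEquiv.symm_apply_eq]
    apply Subtype.ext
    rw [MonoidHom.ofInjective_apply]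
    exact hx.symm
  refine ⟨MonoidHom.toAdditiveLeft Φ', ?_, ?_⟩
  · intro γ g hg
    have hx : lam N q (PushoutI.of (φ := phi N q) 0 γ) = (g : SL(2, ℚ)) := by
      rw [lam_of_zero]
      apply CSPMat.ext_entries <;> rw [toQ_apply, hg]
    have := key g _ hx
    show Φ' g = _
    rw [this]
    show PushoutI.lift f k' hcompat (PushoutI.of (φ := phi N q) 0 γ) = _
    rw [PushoutI.lift_of]
    rfl
  · intro γ g hg
    obtain ⟨h00, h01, h10, h11⟩ := hg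
    have hx : lam N q (PushoutI.of (φ := phi N q) 1 γ) = (g : SL(2, ℚ)) := by
      rw [lam_of_one]
      apply CSPMat.ext_entries
      · rw [toQc_00, h00]
      · rw [toQc_01', ← h01]
        field_simp
      · rw [toQc_10, h10]
      · rw [toQc_11, h11]
    have := key g _ hx
    show Φ' g = _
    rw [this]
    show PushoutI.lift f k' hcompat (PushoutI.of (φ := phi N q) 1 γ) = _
    rw [PushoutI.lift_of]
    rfl

end glue

/-! ### Convenience: the images of `Γ₀(N)` in `Δ` -/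

section images
variable {N q : ℕ} [Fact q.Prime] {Δ : Subgroup SL(2, ℚ)}

/-- every `γ ∈ Γ₀(N)` has its image in `Δ` (`IsIncl`) -/
theorem exists_incl (hΔ : ∀ g : SL(2, ℚ), g ∈ Δ ↔
      (∀ i j, g i j ∈ CSPMat.Rq q) ∧ ∃ y ∈ CSPMat.Rq q, g 1 0 = N * y) (γ : Gamma0 N) :
    ∃ g : Δ, ∀ i j, (g : SL(2, ℚ)) i j = (((γ : SL(2, ℤ)) i j : ℤ) : ℚ) :=
  ⟨⟨toQ N γ, toQ_mem hΔ γ⟩, fun _ _ => rfl⟩

/-- every `γ ∈ Γ₀(N)` has its conjugate `δ⁻¹ γ δ` in `Δ` (`IsInclConj`) -/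
theorem exists_inclConj (hΔ : ∀ g : SL(2, ℚ), g ∈ Δ ↔
      (∀ i j, g i j ∈ CSPMat.Rq q) ∧ ∃ y ∈ CSPMat.Rq q, g 1 0 = N * y) (γ : Gamma0 N) :
    ∃ g : Δ, (g : SL(2, ℚ)) 0 0 = (((γ : SL(2, ℤ)) 0 0 : ℤ) : ℚ) ∧
      (g : SL(2, ℚ)) 0 1 * q = (((γ : SL(2, ℤ)) 0 1 : ℤ) : ℚ) ∧
      (g : SL(2, ℚ)) 1 0 = q * (((γ : SL(2, ℤ)) 1 0 : ℤ) : ℚ) ∧
      (g : SL(2, ℚ)) 1 1 = (((γ : SL(2, ℤ)) 1 1 : ℤ) : ℚ) :=
  ⟨⟨toQc N q γ, toQc_mem hΔ γ⟩, toQc_00 N q γ, toQc_01 N q γ, toQc_10 N q γ, toQc_11 N q γ⟩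

end images

/-! ### A concrete `Δ = Γ₀(N)[1/q]` -/

section concrete

/-- `Γ₀(N)[1/q]`: matrices in `SL(2, ℤ[1/q])` with lower-left entry in `N ℤ[1/q]`. -/
def Delta (N q : ℕ) : Subgroup SL(2, ℚ) where
  carrier := {g | (∀ i j, g i j ∈ CSPMat.Rq q) ∧ ∃ y ∈ CSPMat.Rq q, g 1 0 = N * y}
  mul_mem' := by
    rintro g h ⟨hg, y, hy, hgy⟩ ⟨hh, y', hy', hhy⟩
    refine ⟨fun i j => ?_, y * h 0 0 + g 1 1 * y', ?_, ?_⟩
    · fin_cases i <;> fin_cases j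
      · show (g * h) 0 0 ∈ _
        rw [CSPMat.mul00]
        exact add_mem (mul_mem (hg 0 0) (hh 0 0)) (mul_mem (hg 0 1) (hh 1 0))
      · show (g * h) 0 1 ∈ _
        rw [CSPMat.mul01]
        exact add_mem (mul_mem (hg 0 0) (hh 0 1)) (mul_mem (hg 0 1) (hh 1 1))
      · show (g * h) 1 0 ∈ _
        rw [CSPMat.mul10]
        exact add_mem (mul_mem (hg 1 0) (hh 0 0)) (mul_mem (hg 1 1) (hh 1 0))
      · show (g * h) 1 1 ∈ _
        rw [CSPMat.mul11]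
        exact add_mem (mul_mem (hg 1 0) (hh 0 1)) (mul_mem (hg 1 1) (hh 1 1))
    · exact add_mem (mul_mem hy (hh 0 0)) (mul_mem (hg 1 1) hy')
    · rw [CSPMat.mul10, hgy, hhy]
      ring
  one_mem' := by
    refine ⟨fun i j => ?_, 0, zero_mem _, ?_⟩
    · fin_cases i <;> fin_cases j
      · show ((1 : SL(2, ℚ)) 0 0) ∈ _
        simp only [Matrix.SpecialLinearGroup.coe_one, Matrix.one_apply_eq]
        exact one_mem _
      · show ((1 : SL(2, ℚ)) 0 1) ∈ _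
        rw [Matrix.SpecialLinearGroup.coe_one, Matrix.one_apply_ne (by decide)]
        exact zero_mem _
      · show ((1 : SL(2, ℚ)) 1 0) ∈ _
        rw [Matrix.SpecialLinearGroup.coe_one, Matrix.one_apply_ne (by decide)]
        exact zero_mem _
      · show ((1 : SL(2, ℚ)) 1 1) ∈ _
        simp only [Matrix.SpecialLinearGroup.coe_one, Matrix.one_apply_eq]
        exact one_mem _
    · rw [Matrix.SpecialLinearGroup.coe_one, Matrix.one_apply_ne (by decide), mul_zero]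
  inv_mem' := by
    rintro g ⟨hg, y, hy, hgy⟩
    have h00 : (g⁻¹) 0 0 = g 1 1 := by
      simp [Matrix.SpecialLinearGroup.coe_inv, Matrix.adjugate_fin_two]
    have h01 : (g⁻¹) 0 1 = - g 0 1 := by
      simp [Matrix.SpecialLinearGroup.coe_inv, Matrix.adjugate_fin_two]
    have h10 : (g⁻¹) 1 0 = - g 1 0 := by
      simp [Matrix.SpecialLinearGroup.coe_inv, Matrix.adjugate_fin_two]
    have h11 : (g⁻¹) 1 1 = g 0 0 := by
      simp [Matrix.SpecialLinearGroup.coe_inv, Matrix.adjugate_fin_two]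
    refine ⟨fun i j => ?_, -y, neg_mem hy, ?_⟩
    · fin_cases i <;> fin_cases j
      · show (g⁻¹) 0 0 ∈ _
        rw [h00]
        exact hg 1 1
      · show (g⁻¹) 0 1 ∈ _
        rw [h01]
        exact neg_mem (hg 0 1)
      · show (g⁻¹) 1 0 ∈ _
        rw [h10]
        exact neg_mem (hg 1 0)
      · show (g⁻¹) 1 1 ∈ _
        rw [h11]
        exact hg 0 0
    · rw [h10, hgy]
      ring

theorem mem_Delta {N q : ℕ} (g : SL(2, ℚ)) :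
    g ∈ Delta N q ↔ (∀ i j, g i j ∈ CSPMat.Rq q) ∧ ∃ y ∈ CSPMat.Rq q, g 1 0 = N * y := Iff.rfl

/-- `exists_glue` for the concrete `Delta N q`. -/
theorem exists_glue_Delta (N q : ℕ) [Fact q.Prime] (hqN : ¬ q ∣ N)
    {A : Type*} [AddCommGroup A] (φ₁ φ₂ : Additive (Gamma0 N) →+ A)
    (h : ∀ γ γ' : Gamma0 N,
      ((γ' : SL(2, ℤ)) 0 0 = (γ : SL(2, ℤ)) 0 0 ∧ (γ' : SL(2, ℤ)) 0 1 = q * (γ : SL(2, ℤ)) 0 1 ∧
        q * (γ' : SL(2, ℤ)) 1 0 = (γ : SL(2, ℤ)) 1 0 ∧ (γ' : SL(2, ℤ)) 1 1 = (γ : SL(2, ℤ)) 1 1) →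
      φ₁ (Additive.ofMul γ) = φ₂ (Additive.ofMul γ')) :
    ∃ Φ : Additive (Delta N q) →+ A,
      (∀ (γ : Gamma0 N) (g : Delta N q),
        (∀ i j, (g : SL(2, ℚ)) i j = (((γ : SL(2, ℤ)) i j : ℤ) : ℚ)) →
          Φ (Additive.ofMul g) = φ₁ (Additive.ofMul γ)) ∧
      (∀ (γ : Gamma0 N) (g : Delta N q),
        ((g : SL(2, ℚ)) 0 0 = (((γ : SL(2, ℤ)) 0 0 : ℤ) : ℚ) ∧
          (g : SL(2, ℚ)) 0 1 * q = (((γ : SL(2, ℤ)) 0 1 : ℤ) : ℚ) ∧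
          (g : SL(2, ℚ)) 1 0 = q * (((γ : SL(2, ℤ)) 1 0 : ℤ) : ℚ) ∧
          (g : SL(2, ℚ)) 1 1 = (((γ : SL(2, ℤ)) 1 1 : ℤ) : ℚ)) →
          Φ (Additive.ofMul g) = φ₂ (Additive.ofMul γ)) :=
  exists_glue N q hqN (fun g => mem_Delta g) φ₁ φ₂ h

end concrete

end Fermat.Agent.S41.AMGlue
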