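import Mathlib

/-!
# S41 team library, block [CSP]: the density leaf (DENS)

For an odd prime `ℓ` and an integer `G` with `v_ℓ(G - 1) = e ≥ 1`, the powers of `G` fill the
whole residue class group `1 + ℓ^e` modulo every power `ℓ^k`.
(Lifting the exponent; Mathlib-only.)
-/

set_option autoImplicit false

namespace Fermat.Agent.S41.CSPDens

/-- Lifting the exponent, in the explicit shape `G ^ ℓ ^ a = 1 + c * ℓ ^ (e + a)` with `ℓ ∤ c`. -/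
theorem pow_prime_pow_eq (ℓ : ℕ) (hℓ : ℓ.Prime) (hodd : ℓ ≠ 2) (G : ℤ) (e : ℕ) (he : 1 ≤ e)
    (hdvd : (ℓ : ℤ) ^ e ∣ G - 1) (hndvd : ¬ (ℓ : ℤ) ^ (e + 1) ∣ G - 1) (a : ℕ) :
    ∃ c : ℤ, G ^ (ℓ ^ a) = 1 + c * (ℓ : ℤ) ^ (e + a) ∧ ¬ (ℓ : ℤ) ∣ c := by
  have hp : Prime (ℓ : ℤ) := Nat.prime_iff_prime_int.mp hℓ
  have hp1 : Odd ℓ := hℓ.odd_of_ne_two hodd
  have hxy : (ℓ : ℤ) ∣ G - 1 := dvd_trans (dvd_pow_self _ (by omega)) hdvd
  have hx : ¬ (ℓ : ℤ) ∣ G := by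
    intro h
    have h1 : (ℓ : ℤ) ∣ 1 := by
      have := dvd_sub h hxy
      simpa using this
    exact hp.not_dvd_one h1
  have hm : emultiplicity (ℓ : ℤ) (G - 1) = (e : ℕ∞) := by
    rw [emultiplicity_eq_coe]
    exact ⟨hdvd, hndvd⟩
  have h := emultiplicity_pow_prime_pow_sub_pow_prime_pow hp hp1 hxy hx a
  rw [one_pow, hm] at h
  have h' : emultiplicity (ℓ : ℤ) (G ^ ℓ ^ a - 1) = ((e + a : ℕ) : ℕ∞) := by
    rw [h]; push_cast; rfl
  obtain ⟨⟨c, hc⟩, h2⟩ := emultiplicity_eq_coe.mp h'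
  refine ⟨c, by linear_combination hc, ?_⟩
  rintro ⟨c', rfl⟩
  apply h2
  refine ⟨c', ?_⟩
  rw [hc]
  ring

/-- `(1 + x) ^ t ≡ 1 + t * x` modulo `x ^ 2`. -/
theorem one_add_pow_modEq (x : ℤ) (t : ℕ) : ∃ r : ℤ, (1 + x) ^ t = 1 + t * x + r * x ^ 2 := by
  induction t with
  | zero => exact ⟨0, by simp⟩
  | succ t ih =>
    obtain ⟨r, hr⟩ := ih
    refine ⟨r * (1 + x) + t, ?_⟩
    rw [pow_succ, hr]
    push_cast
    ring

/-- **(DENS)** For an odd prime `ℓ` and `G` with `v_ℓ(G - 1) = e ≥ 1`: every `y ≡ 1 (mod ℓ^e)`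
is congruent to a power of `G` modulo `ℓ^k`, for every `k`. -/
theorem exists_pow_modEq (ℓ : ℕ) (hℓ : ℓ.Prime) (hodd : ℓ ≠ 2) (G : ℤ) (e : ℕ) (he : 1 ≤ e)
    (hdvd : (ℓ : ℤ) ^ e ∣ G - 1) (hndvd : ¬ (ℓ : ℤ) ^ (e + 1) ∣ G - 1) (k : ℕ) (y : ℤ)
    (hy : y ≡ 1 [ZMOD (ℓ : ℤ) ^ e]) : ∃ j : ℕ, y ≡ G ^ j [ZMOD (ℓ : ℤ) ^ k] := by
  have hp : Prime (ℓ : ℤ) := Nat.prime_iff_prime_int.mp hℓ
  have hxy : (ℓ : ℤ) ∣ G - 1 := dvd_trans (dvd_pow_self _ (by omega)) hdvd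
  have hx : ¬ (ℓ : ℤ) ∣ G := by
    intro h
    have h1 : (ℓ : ℤ) ∣ 1 := by
      have := dvd_sub h hxy
      simpa using this
    exact hp.not_dvd_one h1
  induction k with
  | zero => exact ⟨0, by simp [Int.modEq_one]⟩
  | succ k ih =>
    by_cases hk : k + 1 ≤ e
    · refine ⟨0, ?_⟩
      rw [pow_zero]
      exact hy.of_dvd (pow_dvd_pow _ hk)
    · rw [not_le] at hk
      obtain ⟨j, hj⟩ := ih
      obtain ⟨c, hc, hcl⟩ := pow_prime_pow_eq ℓ hℓ hodd G e he hdvd hndvd (k - e)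
      have hek : e + (k - e) = k := by omega
      rw [hek] at hc
      obtain ⟨d, hd⟩ := hj.symm.dvd
      -- `G ^ j * c` is a unit modulo `ℓ`
      have hGc : ¬ (ℓ : ℤ) ∣ G ^ j * c := by
        intro h
        rcases hp.dvd_or_dvd h with h | h
        · exact hx (hp.dvd_of_dvd_pow h)
        · exact hcl h
      have hcop : IsCoprime (G ^ j * c) (ℓ : ℤ) :=
        ((Prime.coprime_iff_not_dvd hp).mpr hGc).symm
      obtain ⟨u, v, huv⟩ := hcop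
      have hℓpos : (0 : ℤ) < ℓ := by exact_mod_cast hℓ.pos
      set t : ℕ := (d * u % ℓ).toNat with ht
      have htc : (t : ℤ) = d * u % ℓ := by
        rw [ht]
        exact Int.toNat_of_nonneg (Int.emod_nonneg _ hℓpos.ne')
      obtain ⟨w, hw⟩ : (ℓ : ℤ) ∣ d * u - t := by
        rw [htc]
        exact ⟨d * u / ℓ, by have := Int.emod_add_mul_ediv (d * u) ℓ; linarith⟩
      obtain ⟨r, hr⟩ := one_add_pow_modEq (c * (ℓ : ℤ) ^ k) t
      refine ⟨j + t * ℓ ^ (k - e), ?_⟩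
      have hpow : G ^ (j + t * ℓ ^ (k - e)) = G ^ j * (1 + c * (ℓ : ℤ) ^ k) ^ t := by
        rw [pow_add, mul_comm t, pow_mul, hc]
      rw [hpow, hr]
      have hk1 : 1 ≤ k := by omega
      obtain ⟨k', rfl⟩ : ∃ k', k = k' + 1 := ⟨k - 1, by omega⟩
      apply Int.ModEq.symm
      rw [Int.modEq_iff_dvd]
      have hy' : y = G ^ j + (ℓ : ℤ) ^ (k' + 1) * d := by linear_combination hd
      refine ⟨d * v + w * (G ^ j * c) - G ^ j * r * c ^ 2 * (ℓ : ℤ) ^ k', ?_⟩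
      rw [hy']
      have hw' : d * u = t + ℓ * w := by linear_combination hw
      have e1 : (d : ℤ) = d * (u * (G ^ j * c) + v * ℓ) := by rw [huv, mul_one]
      have e2 : d * (u * (G ^ j * c) + v * ℓ) = (t + ℓ * w) * (G ^ j * c) + d * v * ℓ := by
        rw [← hw']; ring
      have e3 : (d : ℤ) = (t + ℓ * w) * (G ^ j * c) + d * v * ℓ := e1.trans e2
      linear_combination ((ℓ : ℤ) ^ (k' + 1)) * e3

end Fermat.Agent.S41.CSPDens
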