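import Mathlib
import Fermat.Agent.S41.CSPDens

/-!
# S41 team library, block [CSP]: the arithmetic chain

The purely arithmetic core of the elementary proof of the congruence subgroup property for
`Γ₀(N)[1/q]` (helper62's argument): existence of the chain of primes and exponents
(`chain_data`), and the abstract lemma `csp_arith` about a predicate `P : ℤ → ℤ → Prop`
satisfying the four symbol rules.
-/

set_option autoImplicit false

namespace Fermat.Agent.S41.CSPChain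

open Nat (totient)

/-! ### Small helpers -/

theorem isCoprime_of_modEq {a b m : ℤ} (h : a ≡ b [ZMOD m]) (hb : IsCoprime b m) :
    IsCoprime a m := by
  obtain ⟨t, ht⟩ := Int.modEq_iff_dvd.mp h
  have : a = b + m * (-t) := by linarith
  rw [this]
  exact hb.add_mul_left_left (-t)

theorem isCoprime_natAbs_right {a b : ℤ} (h : IsCoprime a b) : IsCoprime a (b.natAbs : ℤ) := by
  rcases Int.natAbs_eq b with hb | hb
  · rw [← hb]; exact h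
  · have : (b.natAbs : ℤ) = -b := by omega
    rw [this]; exact h.neg_right

theorem isCoprime_sign_mul {s x y : ℤ} (hs : s = 1 ∨ s = -1) (h : IsCoprime x y) :
    IsCoprime (s * x) y := by
  rcases hs with rfl | rfl
  · simpa using h
  · simpa using h.neg_left

theorem isCoprime_natCast_of_prime_ne {p r : ℕ} (hp : p.Prime) (hr : r.Prime) (h : p ≠ r) :
    IsCoprime (p : ℤ) (r : ℤ) :=
  Nat.isCoprime_iff_coprime.mpr ((Nat.coprime_primes hp hr).mpr h)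

/-! ### Dirichlet with two coprime moduli -/

theorem exists_prime_gt_modEq_modEq (B : ℕ) {m₁ m₂ : ℕ} (h₁ : m₁ ≠ 0) (h₂ : m₂ ≠ 0)
    (hm : Nat.Coprime m₁ m₂) {r₁ r₂ : ℤ} (hr₁ : IsCoprime r₁ (m₁ : ℤ))
    (hr₂ : IsCoprime r₂ (m₂ : ℤ)) :
    ∃ p : ℕ, B < p ∧ p.Prime ∧ (p : ℤ) ≡ r₁ [ZMOD (m₁ : ℤ)] ∧ (p : ℤ) ≡ r₂ [ZMOD (m₂ : ℤ)] := by
  have hcop : IsCoprime (m₁ : ℤ) (m₂ : ℤ) := Nat.isCoprime_iff_coprime.mpr hm
  obtain ⟨u, v, huv⟩ := hcop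
  obtain ⟨r, hr⟩ : ∃ r : ℤ, r = r₁ * (v * m₂) + r₂ * (u * m₁) := ⟨_, rfl⟩
  have e₁ : r ≡ r₁ [ZMOD (m₁ : ℤ)] := by
    rw [Int.modEq_iff_dvd]
    exact ⟨r₁ * u - r₂ * u, by rw [hr]; linear_combination (-r₁) * huv⟩
  have e₂ : r ≡ r₂ [ZMOD (m₂ : ℤ)] := by
    rw [Int.modEq_iff_dvd]
    exact ⟨r₂ * v - r₁ * v, by rw [hr]; linear_combination (-r₂) * huv⟩
  have hc : IsCoprime r ((m₁ * m₂ : ℕ) : ℤ) := by
    push_cast
    exact (isCoprime_of_modEq e₁ hr₁).mul_right (isCoprime_of_modEq e₂ hr₂)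
  obtain ⟨p, hpB, hp, hpr⟩ :=
    Nat.forall_exists_prime_gt_and_zmodEq B (Nat.mul_ne_zero h₁ h₂) hc
  refine ⟨p, hpB, hp, ?_, ?_⟩
  · exact (hpr.of_dvd ⟨(m₂ : ℤ), by push_cast; ring⟩).trans e₁
  · exact (hpr.of_dvd ⟨(m₁ : ℤ), by push_cast; ring⟩).trans e₂

/-! ### Step 2: a prime in a class, which is `3 mod 4` -/

theorem exists_prime_three_mod_four (B : ℕ) (M : ℕ) (hM : M ≠ 0) (a : ℤ)
    (ha : IsCoprime a (M : ℤ)) (h4 : 4 ∣ M → a ≡ 3 [ZMOD 4]) :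
    ∃ p : ℕ, B < p ∧ p.Prime ∧ (p : ℤ) ≡ a [ZMOD (M : ℤ)] ∧ p % 4 = 3 := by
  -- a residue `r` with `r ≡ a (M)`, `r ≡ 3 (4)`
  have key : ∃ r : ℤ, r ≡ a [ZMOD (M : ℤ)] ∧ r ≡ 3 [ZMOD 4] := by
    have hcases : M % 4 = 0 ∨ M % 4 = 1 ∨ M % 4 = 2 ∨ M % 4 = 3 := by omega
    rcases hcases with h0 | h1 | h2 | h3
    · exact ⟨a, Int.ModEq.refl _, h4 (Nat.dvd_of_mod_eq_zero h0)⟩
    · obtain ⟨u, hu⟩ : ∃ u : ℕ, M = 4 * u + 1 := ⟨M / 4, by omega⟩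
      refine ⟨a + (3 - a) * ((M : ℤ) * M), ?_, ?_⟩
      · rw [Int.modEq_iff_dvd]
        exact ⟨-((3 - a) * M), by ring⟩
      · rw [Int.modEq_iff_dvd]
        refine ⟨-((3 - a) * (4 * u ^ 2 + 2 * u)), ?_⟩
        rw [hu]; push_cast; ring
    · -- `a` is odd
      have hodd : ¬ (2 : ℤ) ∣ a := by
        intro h2a
        have h2M : (2 : ℤ) ∣ (M : ℤ) := by
          have : 2 ∣ M := by omega
          exact_mod_cast this
        have := ha.isUnit_of_dvd' h2a h2M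
        rw [Int.isUnit_iff] at this
        omega
      have hcase : a % 4 = 1 ∨ a % 4 = 3 := by omega
      rcases hcase with ha1 | ha3
      · refine ⟨a + M, ?_, ?_⟩
        · rw [Int.modEq_iff_dvd]
          exact ⟨-1, by ring⟩
        · have hM2 : (M : ℤ) % 4 = 2 := by omega
          show (a + M) % 4 = 3 % 4
          omega
      · refine ⟨a, Int.ModEq.refl _, ?_⟩
        show a % 4 = 3 % 4
        omega
    · obtain ⟨u, hu⟩ : ∃ u : ℕ, M = 4 * u + 3 := ⟨M / 4, by omega⟩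
      refine ⟨a + (3 - a) * ((M : ℤ) * M), ?_, ?_⟩
      · rw [Int.modEq_iff_dvd]
        exact ⟨-((3 - a) * M), by ring⟩
      · rw [Int.modEq_iff_dvd]
        refine ⟨-((3 - a) * (4 * u ^ 2 + 6 * u + 2)), ?_⟩
        rw [hu]; push_cast; ring
  obtain ⟨r, hrM, hr4⟩ := key
  have hc : IsCoprime r ((4 * M : ℕ) : ℤ) := by
    push_cast
    refine IsCoprime.mul_right ?_ (isCoprime_of_modEq hrM ha)
    exact isCoprime_of_modEq hr4 ⟨-1, 1, by norm_num⟩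
  obtain ⟨p, hpB, hp, hpr⟩ :=
    Nat.forall_exists_prime_gt_and_zmodEq B (Nat.mul_ne_zero (by norm_num) hM) hc
  refine ⟨p, hpB, hp, ?_, ?_⟩
  · exact (hpr.of_dvd ⟨4, by push_cast; ring⟩).trans hrM
  · have h := (hpr.of_dvd ⟨(M : ℤ), by push_cast; ring⟩).trans hr4
    have h' : (p : ℤ) % 4 = 3 % 4 := h
    omega

/-! ### Step 3: the sign making `± L` a square modulo `π ≡ 3 (4)` -/

theorem exists_sign_pow_modEq_one (π : ℕ) (hπ : π.Prime) (h4 : π % 4 = 3) (L : ℤ)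
    (hL : ¬ (π : ℤ) ∣ L) :
    ∃ s : ℤ, (s = 1 ∨ s = -1) ∧
      ∀ x : ℤ, x ≡ s * L [ZMOD (π : ℤ)] → x ^ (π / 2) ≡ 1 [ZMOD (π : ℤ)] := by
  have : Fact π.Prime := Fact.mk hπ
  have hπ2 : π ≠ 2 := by omega
  have hL0 : ((L : ℤ) : ZMod π) ≠ 0 := by
    rwa [Ne, ZMod.intCast_zmod_eq_zero_iff_dvd]
  -- it suffices to find a sign with Legendre symbol one
  have key : ∃ s : ℤ, (s = 1 ∨ s = -1) ∧ legendreSym π (s * L) = 1 := by
    rcases legendreSym.eq_one_or_neg_one π hL0 with h | h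
    · exact ⟨1, Or.inl rfl, by rwa [one_mul]⟩
    · refine ⟨-1, Or.inr rfl, ?_⟩
      rw [legendreSym.mul, legendreSym.at_neg_one hπ2, ZMod.χ₄_nat_three_mod_four h4, h]
      norm_num
  obtain ⟨s, hs, hleg⟩ := key
  refine ⟨s, hs, fun x hx => ?_⟩
  have hxs : ((x : ℤ) : ZMod π) = ((s * L : ℤ) : ZMod π) :=
    (ZMod.intCast_eq_intCast_iff x (s * L) π).mpr hx
  have h1 : ((x : ℤ) : ZMod π) ^ (π / 2) = 1 := by
    rw [hxs, ← legendreSym.eq_pow, hleg]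
    simp
  rw [← ZMod.intCast_eq_intCast_iff]
  push_cast
  exact h1

/-! ### Step 5: the exponent selector -/

theorem exists_exponent (O m e : ℕ) (hO : 0 < O) (hm : 0 < m) (h : Nat.Coprime O m) :
    ∃ k t : ℕ, e ≤ k ∧ k = 1 + O * t ∧ m ∣ k := by
  obtain ⟨k₀, hk₁, hk₂⟩ := Nat.chineseRemainder h 1 0
  obtain ⟨k, hk⟩ : ∃ k : ℕ, k = k₀ + (e + 1) * (O * m) := ⟨_, rfl⟩
  have hpos : 0 < O * m := Nat.mul_pos hO hm
  have hmk : m ∣ k := by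
    rw [hk]
    exact Dvd.dvd.add ((Nat.modEq_zero_iff_dvd).mp hk₂) ⟨(e + 1) * O, by ring⟩
  have hkO : k ≡ 1 [MOD O] := by
    have : k ≡ k₀ [MOD O] := by
      rw [hk]
      show (k₀ + (e + 1) * (O * m)) % O = k₀ % O
      have : (e + 1) * (O * m) = O * ((e + 1) * m) := by ring
      rw [this, Nat.add_mul_mod_self_left]
    exact this.trans hk₁
  have hk1 : 1 ≤ k := by
    rw [hk]
    have : 1 ≤ (e + 1) * (O * m) := Nat.mul_pos (Nat.succ_pos e) hpos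
    omega
  have hke : e ≤ k := by
    rw [hk]
    have : e + 1 ≤ (e + 1) * (O * m) := Nat.le_mul_of_pos_right _ hpos
    omega
  obtain ⟨t, ht⟩ := (Nat.modEq_iff_dvd' hk1).mp hkO.symm
  exact ⟨k, t, hke, by omega, hmk⟩

/-! ### The chain -/

/-- The arithmetic data of the chain (steps 2–5): for `L` odd and `a ≡ -1 (mod N)` with
`gcd(a, qNL) = 1` there are primes `π`, `ℓ`, `a''`, a sign `s` and exponents `k`, `i` linking
`(a, L)` to a pair `(a'', ℓ^k)` with `ℓ^k ≡ 1 (mod a'')`. -/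
theorem chain_data (q N : ℕ) (hq : 2 ≤ q) (hN : 0 < N) (hqN : Nat.Coprime q N) (a L : ℤ)
    (hL : Odd L) (ha : a ≡ -1 [ZMOD (N : ℤ)]) (hcop : IsCoprime a ((q : ℤ) * N * L)) :
    ∃ (π ℓ a'' : ℕ) (s : ℤ) (k i : ℕ),
      π.Prime ∧ q < π ∧ (π : ℤ) ≡ a [ZMOD (N : ℤ) * L] ∧ (s = 1 ∨ s = -1) ∧
      ℓ.Prime ∧ π < ℓ ∧ q < ℓ ∧ N < ℓ ∧ (ℓ : ℤ) ^ k ≡ s * L [ZMOD (π : ℤ)] ∧
      a''.Prime ∧ q < a'' ∧ a'' ≠ ℓ ∧ (q : ℤ) ^ (2 * i) ≡ 1 [ZMOD (N : ℤ)] ∧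
      (a'' : ℤ) ≡ (q : ℤ) ^ (2 * i) * (s * π) [ZMOD (N : ℤ) * (ℓ : ℤ) ^ k] ∧
      (ℓ : ℤ) ^ k ≡ 1 [ZMOD (a'' : ℤ)] ∧
      ((a'' : ℤ) ≡ 1 [ZMOD (N : ℤ)] ∨ (a'' : ℤ) ≡ -1 [ZMOD (N : ℤ)]) := by
  -- basic coprimalities
  have haN : IsCoprime a (N : ℤ) := (hcop.of_mul_right_left).of_mul_right_right
  have haL : IsCoprime a L := hcop.of_mul_right_right
  have hL0 : L ≠ 0 := by
    rintro rfl
    simp at hL
  have hLn : L.natAbs ≠ 0 := Int.natAbs_ne_zero.mpr hL0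
  have hLodd : Odd L.natAbs := Int.natAbs_odd.mpr hL
  -- Step 2: the prime `π`
  have hM : N * L.natAbs ≠ 0 := Nat.mul_ne_zero hN.ne' hLn
  have haM : IsCoprime a ((N * L.natAbs : ℕ) : ℤ) := by
    rw [Nat.cast_mul]
    exact haN.mul_right (isCoprime_natAbs_right haL)
  have h4 : 4 ∣ N * L.natAbs → a ≡ 3 [ZMOD 4] := by
    intro h
    have hc : Nat.Coprime 4 L.natAbs := by
      have h2 : Nat.Coprime 2 L.natAbs := Nat.coprime_two_left.mpr hLodd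
      exact Nat.Coprime.pow_left 2 h2
    have h4N : 4 ∣ N := hc.dvd_of_dvd_mul_right h
    have h4N' : (4 : ℤ) ∣ (N : ℤ) := by exact_mod_cast h4N
    have h1 : a ≡ -1 [ZMOD 4] := ha.of_dvd h4N'
    exact h1.trans (by decide)
  obtain ⟨π, hπq, hπ, hπa, hπ4⟩ :=
    exists_prime_three_mod_four (q + 2) (N * L.natAbs) hM a haM h4
  have hπaNL : (π : ℤ) ≡ a [ZMOD (N : ℤ) * L] := by
    refine hπa.of_dvd ?_
    rw [Nat.cast_mul]
    exact mul_dvd_mul_left _ (Int.dvd_natAbs.mpr dvd_rfl)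
  have hπN : (π : ℤ) ≡ -1 [ZMOD (N : ℤ)] := (hπaNL.of_dvd (dvd_mul_right _ _)).trans ha
  have hπL : (π : ℤ) ≡ a [ZMOD L] := hπaNL.of_dvd (dvd_mul_left _ _)
  have hπnL : ¬ (π : ℤ) ∣ L := by
    intro hd
    have h1 : (π : ℤ) ∣ a := by
      obtain ⟨t, ht⟩ := Int.modEq_iff_dvd.mp (hπL.of_dvd hd)
      exact ⟨t + 1, by linarith⟩
    have hu := haL.isUnit_of_dvd' h1 hd
    rw [Int.isUnit_iff] at hu
    have := hπ.two_le
    omega
  -- Step 3: the sign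
  obtain ⟨s, hs, hsq⟩ := exists_sign_pow_modEq_one π hπ hπ4 L hπnL
  -- Step 4: the prime `ℓ`
  have hsLπ : IsCoprime (s * L) (π : ℤ) := by
    have hp : Prime (π : ℤ) := Nat.prime_iff_prime_int.mp hπ
    have hnd : ¬ (π : ℤ) ∣ s * L := by
      rcases hs with rfl | rfl
      · simpa using hπnL
      · simpa using hπnL
    exact ((Prime.coprime_iff_not_dvd hp).mpr hnd).symm
  obtain ⟨ℓ, hℓB, hℓ, hℓs⟩ :=
    Nat.forall_exists_prime_gt_and_zmodEq (π + q + N + 2) hπ.ne_zero hsLπ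
  obtain ⟨O, hOdef⟩ : ∃ O : ℕ, O = π / 2 := ⟨_, rfl⟩
  have hπO : π = 2 * O + 1 := by omega
  have hOodd : O % 2 = 1 := by omega
  have hOpos : 0 < O := by omega
  have hℓO : (ℓ : ℤ) ^ O ≡ 1 [ZMOD (π : ℤ)] := by
    rw [hOdef]
    exact hsq _ hℓs
  have hℓodd : ℓ ≠ 2 := by omega
  have hπℓ : π ≠ ℓ := by omega
  -- Step 5: `G`, `e`
  have hφ : 0 < totient N := Nat.totient_pos.mpr hN
  obtain ⟨E, hE⟩ : ∃ E : ℕ, E = totient N * (ℓ - 1) := ⟨_, rfl⟩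
  have hEpos : 0 < E := by
    rw [hE]
    exact Nat.mul_pos hφ (by omega)
  obtain ⟨G, hG⟩ : ∃ G : ℤ, G = (q : ℤ) ^ (2 * E) := ⟨_, rfl⟩
  have hqℓ : Nat.Coprime q ℓ :=
    ((Nat.Prime.coprime_iff_not_dvd hℓ).mpr
      (Nat.not_dvd_of_pos_of_lt (by omega) (by omega))).symm
  have hGN : G ≡ 1 [ZMOD (N : ℤ)] := by
    have h1 : q ^ totient N ≡ 1 [MOD N] := Nat.ModEq.pow_totient hqN
    have h2 : ((q ^ totient N : ℕ) : ℤ) ≡ ((1 : ℕ) : ℤ) [ZMOD (N : ℤ)] :=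
      Int.natCast_modEq_iff.mpr h1
    have h3 : G = ((q ^ totient N : ℕ) : ℤ) ^ (2 * (ℓ - 1)) := by
      rw [hG, hE]
      push_cast
      rw [← pow_mul]
      congr 1
      ring
    rw [h3]
    simpa using h2.pow (2 * (ℓ - 1))
  have hGℓ : G ≡ 1 [ZMOD (ℓ : ℤ)] := by
    have h1 : q ^ (ℓ - 1) ≡ 1 [MOD ℓ] := by
      have := Nat.ModEq.pow_totient hqℓ
      rwa [Nat.totient_prime hℓ] at this
    have h2 : ((q ^ (ℓ - 1) : ℕ) : ℤ) ≡ ((1 : ℕ) : ℤ) [ZMOD (ℓ : ℤ)] :=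
      Int.natCast_modEq_iff.mpr h1
    have h3 : G = ((q ^ (ℓ - 1) : ℕ) : ℤ) ^ (2 * totient N) := by
      rw [hG, hE]
      push_cast
      rw [← pow_mul]
      congr 1
      ring
    rw [h3]
    simpa using h2.pow (2 * totient N)
  have hG1 : G ≠ 1 := by
    have h1 : (1 : ℤ) < G := by
      rw [hG]
      exact one_lt_pow₀ (by exact_mod_cast hq) (by omega)
    omega
  have hfin : FiniteMultiplicity (ℓ : ℤ) (G - 1) :=
    Int.finiteMultiplicity_iff.mpr ⟨by simpa using hℓ.ne_one, sub_ne_zero.mpr hG1⟩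
  obtain ⟨e, he⟩ : ∃ e : ℕ, e = multiplicity (ℓ : ℤ) (G - 1) := ⟨_, rfl⟩
  have hdvd : (ℓ : ℤ) ^ e ∣ G - 1 := by
    rw [he]
    exact pow_multiplicity_dvd _ _
  have hndvd : ¬ (ℓ : ℤ) ^ (e + 1) ∣ G - 1 := by
    rw [he]
    exact hfin.not_pow_dvd_of_multiplicity_lt (Nat.lt_succ_self _)
  have he1 : 1 ≤ e := by
    rw [he]
    apply hfin.le_multiplicity_of_pow_dvd
    rw [pow_one]
    exact Int.modEq_iff_dvd.mp hGℓ.symm
  -- the prime `a''`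
  have hcopNO : Nat.Coprime N O := by
    have hNd : N ∣ π + 1 := by
      have h1 : (N : ℤ) ∣ (π : ℤ) + 1 := by
        have := Int.modEq_iff_dvd.mp hπN.symm
        simpa using this
      exact_mod_cast h1
    have hd1 : Nat.gcd N O ∣ 2 * O + 2 := by
      have h := (Nat.gcd_dvd_left N O).trans hNd
      have h' : π + 1 = 2 * O + 2 := by omega
      rwa [h'] at h
    have hd2 : Nat.gcd N O ∣ 2 * O := Dvd.dvd.mul_left (Nat.gcd_dvd_right N O) 2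
    have hd3 : Nat.gcd N O ∣ 2 := (Nat.dvd_add_right hd2).mp hd1
    rcases (Nat.dvd_prime Nat.prime_two).mp hd3 with h | h
    · exact h
    · have h2 : 2 ∣ O := h ▸ Nat.gcd_dvd_right N O
      omega
  have hcopℓO : Nat.Coprime ℓ O :=
    (Nat.Prime.coprime_iff_not_dvd hℓ).mpr (Nat.not_dvd_of_pos_of_lt hOpos (by omega))
  have hm₁ : Nat.Coprime (N * ℓ ^ e) O :=
    Nat.Coprime.mul_left hcopNO (Nat.Coprime.pow_left e hcopℓO)
  have hπℓc : IsCoprime (π : ℤ) (ℓ : ℤ) := isCoprime_natCast_of_prime_ne hπ hℓ hπℓ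
  have hsπ₁ : IsCoprime (s * (π : ℤ)) ((N * ℓ ^ e : ℕ) : ℤ) := by
    push_cast
    apply isCoprime_sign_mul hs
    refine IsCoprime.mul_right ?_ hπℓc.pow_right
    exact isCoprime_of_modEq hπN isCoprime_one_left.neg_left
  have h2O : IsCoprime (2 : ℤ) (O : ℤ) := by
    have := Nat.isCoprime_iff_coprime.mpr (Nat.coprime_two_left.mpr (Nat.odd_iff.mpr hOodd))
    simpa using this
  obtain ⟨a'', ha''q, ha'', ha''1, ha''2⟩ :=
    exists_prime_gt_modEq_modEq q (Nat.mul_ne_zero hN.ne' (pow_ne_zero e hℓ.ne_zero))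
      hOpos.ne' hm₁ hsπ₁ h2O
  have ha''N : (a'' : ℤ) ≡ s * π [ZMOD (N : ℤ)] :=
    ha''1.of_dvd ⟨(ℓ : ℤ) ^ e, by push_cast; ring⟩
  have ha''e : (a'' : ℤ) ≡ s * π [ZMOD (ℓ : ℤ) ^ e] :=
    ha''1.of_dvd ⟨(N : ℤ), by push_cast; ring⟩
  have ha''ℓ : a'' ≠ ℓ := by
    intro hEq
    have h1 : (ℓ : ℤ) ≡ s * π [ZMOD (ℓ : ℤ)] := by
      have := ha''e.of_dvd (dvd_pow_self (ℓ : ℤ) (by omega : e ≠ 0))
      rwa [hEq] at this
    obtain ⟨t, ht⟩ := Int.modEq_iff_dvd.mp h1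
    have h2 : (ℓ : ℤ) ∣ s * π := ⟨t + 1, by linarith⟩
    have h3 : (ℓ : ℤ) ∣ (π : ℤ) := by
      rcases hs with rfl | rfl
      · simpa using h2
      · simpa using h2
    have h4 : ℓ ∣ π := by exact_mod_cast h3
    have := Nat.le_of_dvd hπ.pos h4
    omega
  have hcopO : Nat.Coprime O (a'' - 1) := by
    have h1 : ((a'' - 1 : ℕ) : ℤ) ≡ 1 [ZMOD (O : ℤ)] := by
      rw [Nat.cast_sub ha''.one_le]
      have := ha''2.sub_right 1
      simpa using this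
    have h2 : IsCoprime ((a'' - 1 : ℕ) : ℤ) (O : ℤ) := isCoprime_of_modEq h1 isCoprime_one_left
    exact (Nat.isCoprime_iff_coprime.mp h2).symm
  obtain ⟨k, t, hek, hkt, hmk⟩ :=
    exists_exponent O (a'' - 1) e hOpos (by have := ha''.two_le; omega) hcopO
  -- `ℓ^k ≡ s L (mod π)`
  have hℓk : (ℓ : ℤ) ^ k ≡ s * L [ZMOD (π : ℤ)] := by
    rw [hkt, pow_add, pow_one, pow_mul]
    have h1 : ((ℓ : ℤ) ^ O) ^ t ≡ 1 [ZMOD (π : ℤ)] := by simpa using hℓO.pow t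
    have h2 : (ℓ : ℤ) * ((ℓ : ℤ) ^ O) ^ t ≡ (ℓ : ℤ) * 1 [ZMOD (π : ℤ)] :=
      Int.ModEq.mul_left (ℓ : ℤ) h1
    rw [mul_one] at h2
    exact h2.trans hℓs
  -- `ℓ^k ≡ 1 (mod a'')`
  have hℓa'' : (ℓ : ℤ) ^ k ≡ 1 [ZMOD (a'' : ℤ)] := by
    obtain ⟨w, hw⟩ := hmk
    have hc : Nat.Coprime ℓ a'' := (Nat.coprime_primes hℓ ha'').mpr (Ne.symm ha''ℓ)
    have h1 : ℓ ^ (a'' - 1) ≡ 1 [MOD a''] := by
      have := Nat.ModEq.pow_totient hc
      rwa [Nat.totient_prime ha''] at this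
    have h2 : ((ℓ ^ (a'' - 1) : ℕ) : ℤ) ≡ ((1 : ℕ) : ℤ) [ZMOD (a'' : ℤ)] :=
      Int.natCast_modEq_iff.mpr h1
    have h3 : (ℓ : ℤ) ^ k = ((ℓ ^ (a'' - 1) : ℕ) : ℤ) ^ w := by
      rw [hw]
      push_cast
      rw [← pow_mul]
    rw [h3]
    simpa using h2.pow w
  -- density: `a'' ≡ G^j · sπ (mod ℓ^k)`
  have hsπk : IsCoprime (s * (π : ℤ)) ((ℓ : ℤ) ^ k) := isCoprime_sign_mul hs hπℓc.pow_right
  obtain ⟨u, v, huv⟩ := hsπk
  obtain ⟨y, hy⟩ : ∃ y : ℤ, y = a'' * u := ⟨_, rfl⟩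
  have hyk : y * (s * π) ≡ a'' [ZMOD (ℓ : ℤ) ^ k] := by
    rw [Int.modEq_iff_dvd]
    exact ⟨a'' * v, by rw [hy]; linear_combination (-(a'' : ℤ)) * huv⟩
  have hye : y ≡ 1 [ZMOD (ℓ : ℤ) ^ e] := by
    have h1 : y * (s * π) ≡ s * π [ZMOD (ℓ : ℤ) ^ e] :=
      (hyk.of_dvd (pow_dvd_pow _ hek)).trans ha''e
    have h2 : (ℓ : ℤ) ^ e ∣ (y - 1) * (s * π) := by
      have := Int.modEq_iff_dvd.mp h1.symm
      convert this using 1
      ring
    have hc : IsCoprime ((ℓ : ℤ) ^ e) (s * (π : ℤ)) :=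
      (isCoprime_sign_mul hs hπℓc.pow_right).symm
    have h3 : (ℓ : ℤ) ^ e ∣ y - 1 := hc.dvd_of_dvd_mul_right h2
    exact (Int.modEq_iff_dvd.mpr h3).symm
  obtain ⟨j, hj⟩ := CSPDens.exists_pow_modEq ℓ hℓ hℓodd G e he1 hdvd hndvd k y hye
  have hGj : G ^ j = (q : ℤ) ^ (2 * (E * j)) := by
    rw [hG, ← pow_mul]
    congr 1
    ring
  have hGjN : G ^ j ≡ 1 [ZMOD (N : ℤ)] := by simpa using hGN.pow j
  have hfin1 : (a'' : ℤ) ≡ G ^ j * (s * π) [ZMOD (ℓ : ℤ) ^ k] :=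
    hyk.symm.trans (hj.mul_right _)
  have hfin2 : (a'' : ℤ) ≡ G ^ j * (s * π) [ZMOD (N : ℤ)] := by
    have h1 : G ^ j * (s * π) ≡ 1 * (s * π) [ZMOD (N : ℤ)] := hGjN.mul_right _
    rw [one_mul] at h1
    exact ha''N.trans h1.symm
  have hNℓ : Nat.Coprime N ℓ :=
    ((Nat.Prime.coprime_iff_not_dvd hℓ).mpr (Nat.not_dvd_of_pos_of_lt hN (by omega))).symm
  have hfinal : (a'' : ℤ) ≡ G ^ j * (s * π) [ZMOD (N : ℤ) * (ℓ : ℤ) ^ k] := by
    refine (Int.modEq_and_modEq_iff_modEq_mul ?_).mp ⟨hfin2, hfin1⟩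
    rw [Int.natAbs_natCast, Int.natAbs_pow, Int.natAbs_natCast]
    exact Nat.Coprime.pow_right k hNℓ
  have ha''pm : (a'' : ℤ) ≡ 1 [ZMOD (N : ℤ)] ∨ (a'' : ℤ) ≡ -1 [ZMOD (N : ℤ)] := by
    have h1 : s * (π : ℤ) ≡ s * (-1) [ZMOD (N : ℤ)] := hπN.mul_left s
    rcases hs with rfl | rfl
    · right
      exact ha''N.trans (by simpa using h1)
    · left
      exact ha''N.trans (by simpa using h1)
  refine ⟨π, ℓ, a'', s, k, E * j, hπ, by omega, hπaNL, hs, hℓ, by omega, by omega, by omega,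
    hℓk, ha'', ha''q, ha''ℓ, ?_, ?_, hℓa'', ha''pm⟩
  · rw [← hGj]
    exact hGjN
  · rw [← hGj]
    exact hfinal

/-! ### The abstract lemma -/

/-- **The arithmetic lemma of [CSP]** (helper62's statement, verbatim). A predicate on integer
pairs satisfying the four symbol rules (B0), (B1), (B2), (B4) holds for every pair `(a, L)` with
`a ≡ ±1 (mod N)` and `gcd(a, qNL) = 1`. -/
theorem csp_arith (q N : ℕ) (hq : 2 ≤ q) (hN : 0 < N) (hqN : Nat.Coprime q N)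
    (P : ℤ → ℤ → Prop)
    (B0 : ∀ a L : ℤ, IsCoprime a ((q : ℤ) * N * L) →
      (a ≡ 1 [ZMOD (N : ℤ)] ∨ a ≡ -1 [ZMOD (N : ℤ)]) → L ≡ 1 [ZMOD a] → P a L)
    (B1 : ∀ (a a' L : ℤ) (i : ℕ), IsCoprime a ((q : ℤ) * N * L) →
      IsCoprime a' ((q : ℤ) * N * L) → (q : ℤ) ^ (2 * i) ≡ 1 [ZMOD (N : ℤ)] →
      a' ≡ (q : ℤ) ^ (2 * i) * a [ZMOD ((N : ℤ) * L)] → P a' L → P a L)
    (B2 : ∀ a L L' : ℤ, IsCoprime a ((q : ℤ) * N * L) → IsCoprime a ((q : ℤ) * N * L') →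
      L' ≡ L [ZMOD a] → P a L' → P a L)
    (B4 : ∀ a L : ℤ, IsCoprime a ((q : ℤ) * N * L) → P (-a) (-L) → P a L)
    (a L : ℤ) (hcop : IsCoprime a ((q : ℤ) * N * L))
    (ha : a ≡ 1 [ZMOD (N : ℤ)] ∨ a ≡ -1 [ZMOD (N : ℤ)]) : P a L := by
  -- the core case: `L` odd, `a ≡ -1`
  have core : ∀ a L : ℤ, Odd L → a ≡ -1 [ZMOD (N : ℤ)] → IsCoprime a ((q : ℤ) * N * L) →
      P a L := by
    intro a L hL ha hcop
    obtain ⟨π, ℓ, a'', s, k, i, hπ, hqπ, hπa, hs, hℓ, hπℓ, hqℓ, hNℓ, hℓk, ha'', hqa'', ha''ℓ,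
      hqi, ha''c, hℓa'', ha''pm⟩ := chain_data q N hq hN hqN a L hL ha hcop
    have haL : IsCoprime a L := hcop.of_mul_right_right
    have hcq : ∀ p : ℕ, p.Prime → q < p → IsCoprime (p : ℤ) (q : ℤ) := fun p hp hlt =>
      Nat.isCoprime_iff_coprime.mpr
        ((Nat.Prime.coprime_iff_not_dvd hp).mpr (Nat.not_dvd_of_pos_of_lt (by omega) hlt))
    have hπN : (π : ℤ) ≡ -1 [ZMOD (N : ℤ)] := (hπa.of_dvd (dvd_mul_right _ _)).trans ha
    have hπcN : IsCoprime (π : ℤ) (N : ℤ) := isCoprime_of_modEq hπN isCoprime_one_left.neg_left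
    have hπcL : IsCoprime (π : ℤ) L := isCoprime_of_modEq (hπa.of_dvd (dvd_mul_left _ _)) haL
    have hπcℓ : IsCoprime (π : ℤ) (ℓ : ℤ) := isCoprime_natCast_of_prime_ne hπ hℓ (by omega)
    have ha''cN : IsCoprime (a'' : ℤ) (N : ℤ) := by
      rcases ha''pm with h | h
      · exact isCoprime_of_modEq h isCoprime_one_left
      · exact isCoprime_of_modEq h isCoprime_one_left.neg_left
    have ha''cℓ : IsCoprime (a'' : ℤ) (ℓ : ℤ) := isCoprime_natCast_of_prime_ne ha'' hℓ ha''ℓ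
    have hπqN : IsCoprime (π : ℤ) ((q : ℤ) * N) := (hcq π hπ hqπ).mul_right hπcN
    have c1 : IsCoprime (a'' : ℤ) ((q : ℤ) * N * (ℓ : ℤ) ^ k) :=
      ((hcq a'' ha'' hqa'').mul_right ha''cN).mul_right ha''cℓ.pow_right
    have c2 : IsCoprime (s * (π : ℤ)) ((q : ℤ) * N * (ℓ : ℤ) ^ k) :=
      isCoprime_sign_mul hs (hπqN.mul_right hπcℓ.pow_right)
    have c3 : IsCoprime (s * (π : ℤ)) ((q : ℤ) * N * (s * L)) := by
      apply isCoprime_sign_mul hs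
      exact hπqN.mul_right (isCoprime_sign_mul hs hπcL.symm).symm
    have c4 : IsCoprime (π : ℤ) ((q : ℤ) * N * L) := hπqN.mul_right hπcL
    have p1 : P a'' ((ℓ : ℤ) ^ k) := B0 _ _ c1 ha''pm hℓa''
    have p2 : P (s * π) ((ℓ : ℤ) ^ k) := B1 _ _ _ i c2 c1 hqi ha''c p1
    have hmod : (ℓ : ℤ) ^ k ≡ s * L [ZMOD s * (π : ℤ)] := by
      rcases hs with rfl | rfl
      · simpa using hℓk
      · rw [neg_one_mul (π : ℤ), Int.modEq_neg]
        exact hℓk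
    have p3 : P (s * π) (s * L) := B2 _ _ _ c3 c2 hmod p2
    have p4 : P π L := by
      rcases hs with rfl | rfl
      · simpa using p3
      · apply B4 _ _ c4
        simpa using p3
    exact B1 a π L 0 hcop c4 (by simp) (by simpa using hπa) p4
  -- `L` odd, `a ≡ ±1`
  have key : ∀ a L : ℤ, Odd L → IsCoprime a ((q : ℤ) * N * L) →
      (a ≡ 1 [ZMOD (N : ℤ)] ∨ a ≡ -1 [ZMOD (N : ℤ)]) → P a L := by
    intro a L hL hcop ha
    rcases ha with ha | ha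
    · apply B4 a L hcop
      refine core (-a) (-L) hL.neg ha.neg ?_
      have h : (q : ℤ) * N * (-L) = -((q : ℤ) * N * L) := by ring
      rw [h]
      exact hcop.neg_left.neg_right
    · exact core a L hL ha hcop
  by_cases hL : Odd L
  · exact key a L hL hcop ha
  · have hLe : Even L := Int.not_odd_iff_even.mp hL
    have haL : IsCoprime a L := hcop.of_mul_right_right
    have hao : Odd a := by
      by_contra h
      have hae : Even a := Int.not_odd_iff_even.mp h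
      have hu := haL.isUnit_of_dvd' hae.two_dvd hLe.two_dvd
      rw [Int.isUnit_iff] at hu
      omega
    have hL' : Odd (L + a) := hLe.add_odd hao
    have hcop' : IsCoprime a ((q : ℤ) * N * (L + a)) := by
      refine IsCoprime.mul_right hcop.of_mul_right_left ?_
      have := haL.add_mul_left_right 1
      simpa using this
    refine B2 a L (L + a) hcop hcop' ?_ (key a (L + a) hL' hcop' ha)
    rw [Int.modEq_iff_dvd]
    exact ⟨-1, by ring⟩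

end Fermat.Agent.S41.CSPChain
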