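/-
S41, block [EIS] (helper96): homomorphisms `Γ₀(N) → A` which factor through the diagonal
character (i.e. vanish on `Γ₁(N)`) are Eisenstein: `T_ℓ φ = (ℓ + 1) φ` for every prime `ℓ ∤ N`.

Input: the coset data `tData` of `S16/HeckeHom` and its entry formula
`tData_part_apply_one_one` (`d(α_x) d(γ) ≡ d(γ'_x) d(α_{σ x})` mod `N`).

Main statements (namespace `Fermat.Agent.S41.Eis`):
* `heckeTHom_eq_of_lowerRight` : hypothesis `d(γ) ≡ 1 (mod N) → φ γ = 0`;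
* `heckeTHom_eq_of_upperLeft`  : hypothesis `a(γ) ≡ 1 (mod N) → φ γ = 0` (in `ZMod N`);
* `heckeTHom_eq_of_dvd`        : hypothesis `(N : ℤ) ∣ a(γ) - 1 → φ γ = 0`.
-/
import Mathlib
import Fermat.Agent.S16.HeckeHom

set_option autoImplicit false

namespace Fermat.Agent.S41.Eis

open CongruenceSubgroup Matrix.SpecialLinearGroup
open scoped MatrixGroups
open Fermat.Agent.S16

variable {N : ℕ}

/-- The lower left entry of an element of `Γ₀(N)` vanishes mod `N`. -/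
theorem lowerLeft_cast (γ : Gamma0 N) : ((((γ : SL(2, ℤ)) 1 0 : ℤ)) : ZMod N) = 0 :=
  Gamma0_mem.mp γ.2

/-- The lower right entry mod `N` is multiplicative on `Γ₀(N)`. -/
theorem lowerRight_mul (γ δ : Gamma0 N) :
    (((((γ * δ : Gamma0 N) : SL(2, ℤ)) 1 1 : ℤ)) : ZMod N) =
      ((((γ : SL(2, ℤ)) 1 1 : ℤ)) : ZMod N) * ((((δ : SL(2, ℤ)) 1 1 : ℤ)) : ZMod N) := by
  have h := lowerLeft_cast γ
  simp only [Subgroup.coe_mul, Matrix.SpecialLinearGroup.coe_mul, Matrix.mul_apply,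
    Fin.sum_univ_two]
  push_cast
  rw [h, zero_mul, zero_add]

/-- The upper left entry mod `N` is multiplicative on `Γ₀(N)`. -/
theorem upperLeft_mul (γ δ : Gamma0 N) :
    (((((γ * δ : Gamma0 N) : SL(2, ℤ)) 0 0 : ℤ)) : ZMod N) =
      ((((γ : SL(2, ℤ)) 0 0 : ℤ)) : ZMod N) * ((((δ : SL(2, ℤ)) 0 0 : ℤ)) : ZMod N) := by
  have h := lowerLeft_cast δ
  simp only [Subgroup.coe_mul, Matrix.SpecialLinearGroup.coe_mul, Matrix.mul_apply,
    Fin.sum_univ_two]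
  push_cast
  rw [h, mul_zero, add_zero]

/-- `a d ≡ 1` mod `N` on `Γ₀(N)`. -/
theorem upperLeft_mul_lowerRight (γ : Gamma0 N) :
    ((((γ : SL(2, ℤ)) 0 0 : ℤ)) : ZMod N) * ((((γ : SL(2, ℤ)) 1 1 : ℤ)) : ZMod N) = 1 := by
  have hdet := Matrix.SpecialLinearGroup.det_coe (γ : SL(2, ℤ))
  rw [Matrix.det_fin_two] at hdet
  have h := congrArg (Int.cast : ℤ → ZMod N) hdet
  push_cast at h
  rw [lowerLeft_cast γ, mul_zero, sub_zero] at h
  exact h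

theorem lowerRight_one : (((((1 : Gamma0 N) : SL(2, ℤ)) 1 1 : ℤ)) : ZMod N) = 1 := by
  simp

variable {A : Type*} [AddCommGroup A]

/-- A homomorphism vanishing on `{d ≡ 1}` only depends on `d` mod `N`. -/
theorem eq_of_lowerRight_eq (φ : Additive (Gamma0 N) →+ A)
    (hφ : ∀ γ : Gamma0 N, ((((γ : SL(2, ℤ)) 1 1 : ℤ)) : ZMod N) = 1 → φ (Additive.ofMul γ) = 0)
    (g₁ g₂ : Gamma0 N)
    (h : ((((g₁ : SL(2, ℤ)) 1 1 : ℤ)) : ZMod N) = ((((g₂ : SL(2, ℤ)) 1 1 : ℤ)) : ZMod N)) :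
    φ (Additive.ofMul g₁) = φ (Additive.ofMul g₂) := by
  have h1 : ((((((g₂⁻¹ * g₁ : Gamma0 N)) : SL(2, ℤ)) 1 1 : ℤ)) : ZMod N) = 1 := by
    rw [lowerRight_mul, h, ← lowerRight_mul, inv_mul_cancel]
    exact lowerRight_one
  have h2 := hφ _ h1
  rw [ofMul_mul, map_add, ofMul_inv, map_neg] at h2
  rw [← sub_eq_zero, sub_eq_neg_add]
  exact h2

/-- An element of `Γ₀(N)` with lower right entry `ℓ`, for `ℓ` prime to `N`. -/
theorem exists_lowerRight_eq (ℓ : ℕ) (h : Nat.Coprime ℓ N) :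
    ∃ g : Gamma0 N, (g : SL(2, ℤ)) 1 1 = (ℓ : ℤ) := by
  have hc : IsCoprime (ℓ : ℤ) (N : ℤ) := Nat.isCoprime_iff_coprime.mpr h
  obtain ⟨a, b, hab⟩ := hc
  have hdet : (!![a, -b; (N : ℤ), (ℓ : ℤ)] : Matrix (Fin 2) (Fin 2) ℤ).det = 1 := by
    rw [Matrix.det_fin_two_of]
    linear_combination hab
  let g₀ : SL(2, ℤ) := ⟨!![a, -b; (N : ℤ), (ℓ : ℤ)], hdet⟩
  have hmem : g₀ ∈ Gamma0 N := by
    rw [Gamma0_mem]
    show (((!![a, -b; (N : ℤ), (ℓ : ℤ)] : Matrix (Fin 2) (Fin 2) ℤ) 1 0 : ℤ) : ZMod N) = 0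
    simp
  refine ⟨⟨g₀, hmem⟩, ?_⟩
  show (!![a, -b; (N : ℤ), (ℓ : ℤ)] : Matrix (Fin 2) (Fin 2) ℤ) 1 1 = (ℓ : ℤ)
  simp

/-- **[EIS]**, lower right entry form: if `φ` vanishes on `{γ ∈ Γ₀(N) : d(γ) ≡ 1 (mod N)}` then
`T_ℓ φ = (ℓ + 1) φ` for every prime `ℓ ∤ N`. -/
theorem heckeTHom_eq_of_lowerRight (N ℓ : ℕ) [Fact ℓ.Prime] (hℓ : ¬ ℓ ∣ N)
    (φ : Additive (Gamma0 N) →+ A)
    (hφ : ∀ γ : Gamma0 N, ((((γ : SL(2, ℤ)) 1 1 : ℤ)) : ZMod N) = 1 → φ (Additive.ofMul γ) = 0) :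
    heckeTHom N ℓ hℓ φ = (ℓ + 1) • φ := by
  have hcop : Nat.Coprime ℓ N := (Nat.Prime.coprime_iff_not_dvd (Fact.out : ℓ.Prime)).mpr hℓ
  obtain ⟨g, hg⟩ := exists_lowerRight_eq (N := N) ℓ hcop
  -- representatives of the classes `tDen ℓ x` of the lower right entries
  let G : OnePoint (ZMod ℓ) → Gamma0 N := fun x => x.elim 1 (fun _ => g)
  have hG : ∀ x, (((((G x : Gamma0 N) : SL(2, ℤ)) 1 1 : ℤ)) : ZMod N) = ((tDen ℓ x : ℕ) : ZMod N) := by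
    intro x
    induction x using OnePoint.rec with
    | infty =>
      show (((((1 : Gamma0 N) : SL(2, ℤ)) 1 1 : ℤ)) : ZMod N) = ((tDen ℓ OnePoint.infty : ℕ) : ZMod N)
      rw [lowerRight_one, tDen_infty, Nat.cast_one]
    | coe j =>
      show ((((g : SL(2, ℤ)) 1 1 : ℤ)) : ZMod N) = ((tDen ℓ (j : OnePoint (ZMod ℓ)) : ℕ) : ZMod N)
      rw [hg, tDen_coe, Int.cast_natCast]
  refine AddMonoidHom.ext fun γ => ?_
  obtain ⟨γ, rfl⟩ := Additive.ofMul.surjective γ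
  rw [heckeTHom_apply, AddMonoidHom.nsmul_apply]
  set σ := (tData N ℓ hℓ).perm γ with hσ
  have key : ∀ x, φ (Additive.ofMul ((tData N ℓ hℓ).part γ x)) =
      φ (Additive.ofMul γ) + φ (Additive.ofMul (G x)) - φ (Additive.ofMul (G (σ x))) := by
    intro x
    have h := tData_part_apply_one_one hℓ γ x
    have h1 : φ (Additive.ofMul (G x * γ)) =
        φ (Additive.ofMul ((tData N ℓ hℓ).part γ x * G (σ x))) := by
      apply eq_of_lowerRight_eq φ hφ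
      rw [lowerRight_mul, lowerRight_mul, hG, hG]
      exact h
    rw [ofMul_mul, ofMul_mul, map_add, map_add] at h1
    rw [eq_sub_iff_add_eq, ← h1, add_comm]
  rw [Finset.sum_congr rfl (fun x _ => key x), Finset.sum_sub_distrib, Finset.sum_add_distrib,
    Equiv.sum_comp σ (fun x => φ (Additive.ofMul (G x))), add_sub_cancel_right, Finset.sum_const,
    Finset.card_univ]
  congr 1
  have hcard : Fintype.card (OnePoint (ZMod ℓ)) = Fintype.card (Option (ZMod ℓ)) :=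
    Fintype.card_congr (Equiv.refl _)
  rw [hcard, Fintype.card_option, ZMod.card]

/-- **[EIS]**, upper left entry form (in `ZMod N`). -/
theorem heckeTHom_eq_of_upperLeft (N ℓ : ℕ) [Fact ℓ.Prime] (hℓ : ¬ ℓ ∣ N)
    (φ : Additive (Gamma0 N) →+ A)
    (hφ : ∀ γ : Gamma0 N, ((((γ : SL(2, ℤ)) 0 0 : ℤ)) : ZMod N) = 1 → φ (Additive.ofMul γ) = 0) :
    heckeTHom N ℓ hℓ φ = (ℓ + 1) • φ := by
  refine heckeTHom_eq_of_lowerRight N ℓ hℓ φ fun γ hγ => hφ γ ?_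
  have h := upperLeft_mul_lowerRight γ
  rw [hγ, mul_one] at h
  exact h

/-- **[EIS]**, integer divisibility form: if `φ γ = 0` whenever `N ∣ a(γ) - 1`, then
`T_ℓ φ = (ℓ + 1) φ` for every prime `ℓ ∤ N`. -/
theorem heckeTHom_eq_of_dvd (N ℓ : ℕ) [Fact ℓ.Prime] (hℓ : ¬ ℓ ∣ N)
    (φ : Additive (Gamma0 N) →+ A)
    (hφ : ∀ γ : Gamma0 N, (N : ℤ) ∣ (γ : SL(2, ℤ)) 0 0 - 1 → φ (Additive.ofMul γ) = 0) :
    heckeTHom N ℓ hℓ φ = (ℓ + 1) • φ := by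
  refine heckeTHom_eq_of_upperLeft N ℓ hℓ φ fun γ hγ => hφ γ ?_
  rw [← ZMod.intCast_zmod_eq_zero_iff_dvd]
  push_cast
  rw [hγ, sub_self]

end Fermat.Agent.S41.Eis
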