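/-
S41, block [IH] (helper96): the definition-independent core of Ihara's lemma.

Setting: `Δ ≤ SL(2, ℚ)` is ANY subgroup with the membership characterisation of
`Γ₀(N)[1/q]` (entries in `ℤ[1/q]`, lower left entry in `N ℤ[1/q]`; the predicate
"`x ∈ ℤ[1/q]`" is written inline as `∃ (k : ℕ) (z : ℤ), x * q ^ k = z`), `Φ : Δ → A` is a
homomorphism restricting to `φ₁` on the image of `Γ₀(N)` (entrywise casts) and to `φ₂` on the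
image of `γ ↦ δ⁻¹ γ δ = [[a, b/q],[q c, d]]`.

* `kills_upper`, `kills_lower` : if `φ₁` is parabolic then `Φ` kills every `u(x)`, `x ∈ ℤ[1/q]`,
  and every `l(N y)`, `y ∈ ℤ[1/q]` (conjugation by `diag(q^k, q^{-k}) ∈ Δ` and trace-2 elements of
  `Γ₀(N)`) — these are the hypotheses `hu`, `hl` of `csp_strong`;
* `vanish_of_csp` : given the conclusion of `csp_strong` for `Φ`, both `φ₁` and `φ₂` vanish on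
  `{γ ∈ Γ₀(N) : N ∣ a(γ) - 1}`;
* `ihara_core` : hence `T_ℓ φ_i = (ℓ + 1) φ_i` for every prime `ℓ ∤ N` (block [EIS], `Eis.lean`);
* `glue_hyp_of_res` : the gluing hypothesis of `exists_glue` from `res₁ φ₁ + res₂ φ₂ = 0`,
  for abstract degeneracy maps `i₁ i₂ : Γ₀(Nq) →* Γ₀(N)` with the entry specifications of the
  skeleton (`incl₁_coe`, `incl₂_entries`).
-/
import Mathlib
import Fermat.Prelude.Def_ModularCurve_PeriodMap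
import Fermat.Agent.S41.Eis

set_option autoImplicit false

namespace Fermat.Agent.S41.IharaCore

open CongruenceSubgroup Matrix.SpecialLinearGroup ModularCurve.Period
open scoped MatrixGroups
open Fermat.Agent.S16

/-! ### `2 × 2` bookkeeping over `ℚ` -/

theorem sl2_ext {g h : SL(2, ℚ)} (h00 : g 0 0 = h 0 0) (h01 : g 0 1 = h 0 1)
    (h10 : g 1 0 = h 1 0) (h11 : g 1 1 = h 1 1) : g = h := by
  apply Matrix.SpecialLinearGroup.ext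
  intro i j
  fin_cases i <;> fin_cases j
  · exact h00
  · exact h01
  · exact h10
  · exact h11

theorem mul_00 (g h : SL(2, ℚ)) : (g * h) 0 0 = g 0 0 * h 0 0 + g 0 1 * h 1 0 := by
  simp [Matrix.SpecialLinearGroup.coe_mul, Matrix.mul_apply, Fin.sum_univ_two]

theorem mul_01 (g h : SL(2, ℚ)) : (g * h) 0 1 = g 0 0 * h 0 1 + g 0 1 * h 1 1 := by
  simp [Matrix.SpecialLinearGroup.coe_mul, Matrix.mul_apply, Fin.sum_univ_two]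

theorem mul_10 (g h : SL(2, ℚ)) : (g * h) 1 0 = g 1 0 * h 0 0 + g 1 1 * h 1 0 := by
  simp [Matrix.SpecialLinearGroup.coe_mul, Matrix.mul_apply, Fin.sum_univ_two]

theorem mul_11 (g h : SL(2, ℚ)) : (g * h) 1 1 = g 1 0 * h 0 1 + g 1 1 * h 1 1 := by
  simp [Matrix.SpecialLinearGroup.coe_mul, Matrix.mul_apply, Fin.sum_univ_two]

theorem det_eq (g : SL(2, ℚ)) : g 0 0 * g 1 1 - g 0 1 * g 1 0 = 1 := by
  have h := Matrix.SpecialLinearGroup.det_coe g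
  rw [Matrix.det_fin_two] at h
  exact h

/-- The element `[[a, b],[c, d]]` of `SL(2, ℚ)`. -/
def mk2 (a b c d : ℚ) (h : a * d - b * c = 1) : SL(2, ℚ) :=
  ⟨!![a, b; c, d], by rw [Matrix.det_fin_two_of]; exact h⟩

@[simp] theorem mk2_00 (a b c d : ℚ) (h : a * d - b * c = 1) : mk2 a b c d h 0 0 = a := rfl
@[simp] theorem mk2_01 (a b c d : ℚ) (h : a * d - b * c = 1) : mk2 a b c d h 0 1 = b := rfl
@[simp] theorem mk2_10 (a b c d : ℚ) (h : a * d - b * c = 1) : mk2 a b c d h 1 0 = c := rfl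
@[simp] theorem mk2_11 (a b c d : ℚ) (h : a * d - b * c = 1) : mk2 a b c d h 1 1 = d := rfl

/-- `diag(q^k, q^{-k})`. -/
def dg (q : ℕ) (hq : q ≠ 0) (k : ℕ) : SL(2, ℚ) :=
  mk2 ((q : ℚ) ^ k) 0 0 (((q : ℚ) ^ k)⁻¹) (by
    have : ((q : ℚ) ^ k) ≠ 0 := pow_ne_zero _ (Nat.cast_ne_zero.mpr hq)
    rw [mul_inv_cancel₀ this]
    ring)

/-- `u(m) = [[1, m],[0, 1]]` over `ℚ`. -/
def up (m : ℤ) : SL(2, ℚ) := mk2 1 (m : ℚ) 0 1 (by ring)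

/-- `l(N m) = [[1, 0],[N m, 1]]` over `ℚ`. -/
def lo (N : ℕ) (m : ℤ) : SL(2, ℚ) := mk2 1 0 ((N : ℚ) * (m : ℚ)) 1 (by ring)

theorem dg_apply (q : ℕ) (hq : q ≠ 0) (k : ℕ) :
    dg q hq k 0 0 = (q : ℚ) ^ k ∧ dg q hq k 0 1 = 0 ∧ dg q hq k 1 0 = 0 ∧
      dg q hq k 1 1 = ((q : ℚ) ^ k)⁻¹ := ⟨rfl, rfl, rfl, rfl⟩

theorem up_apply (m : ℤ) :
    up m 0 0 = 1 ∧ up m 0 1 = (m : ℚ) ∧ up m 1 0 = 0 ∧ up m 1 1 = 1 := ⟨rfl, rfl, rfl, rfl⟩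

theorem lo_apply (N : ℕ) (m : ℤ) :
    lo N m 0 0 = 1 ∧ lo N m 0 1 = 0 ∧ lo N m 1 0 = (N : ℚ) * (m : ℚ) ∧ lo N m 1 1 = 1 :=
  ⟨rfl, rfl, rfl, rfl⟩

/-! ### Integral unipotents of `Γ₀(N)` -/

/-- `u(m) = [[1, m],[0, 1]]` over `ℤ`. -/
def uSL (m : ℤ) : SL(2, ℤ) := ⟨!![1, m; 0, 1], by rw [Matrix.det_fin_two_of]; ring⟩

/-- `l(c) = [[1, 0],[c, 1]]` over `ℤ`. -/
def lSL (c : ℤ) : SL(2, ℤ) := ⟨!![1, 0; c, 1], by rw [Matrix.det_fin_two_of]; ring⟩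

theorem uSL_mem (N : ℕ) (m : ℤ) : uSL m ∈ Gamma0 N := by
  rw [Gamma0_mem]
  show (((!![1, m; 0, 1] : Matrix (Fin 2) (Fin 2) ℤ) 1 0 : ℤ) : ZMod N) = 0
  simp

theorem lSL_mem (N : ℕ) (m : ℤ) : lSL ((N : ℤ) * m) ∈ Gamma0 N := by
  rw [Gamma0_mem]
  show (((!![1, 0; (N : ℤ) * m, 1] : Matrix (Fin 2) (Fin 2) ℤ) 1 0 : ℤ) : ZMod N) = 0
  simp

/-- `u(m) = [[1, m],[0, 1]] ∈ Γ₀(N)`. -/
def uInt (N : ℕ) (m : ℤ) : Gamma0 N := ⟨uSL m, uSL_mem N m⟩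

/-- `l(N m) = [[1, 0],[N m, 1]] ∈ Γ₀(N)`. -/
def lInt (N : ℕ) (m : ℤ) : Gamma0 N := ⟨lSL ((N : ℤ) * m), lSL_mem N m⟩

theorem uInt_apply (N : ℕ) (m : ℤ) :
    ((uInt N m : Gamma0 N) : SL(2, ℤ)) 0 0 = 1 ∧ ((uInt N m : Gamma0 N) : SL(2, ℤ)) 0 1 = m ∧
      ((uInt N m : Gamma0 N) : SL(2, ℤ)) 1 0 = 0 ∧ ((uInt N m : Gamma0 N) : SL(2, ℤ)) 1 1 = 1 :=
  ⟨rfl, rfl, rfl, rfl⟩

theorem lInt_apply (N : ℕ) (m : ℤ) :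
    ((lInt N m : Gamma0 N) : SL(2, ℤ)) 0 0 = 1 ∧ ((lInt N m : Gamma0 N) : SL(2, ℤ)) 0 1 = 0 ∧
      ((lInt N m : Gamma0 N) : SL(2, ℤ)) 1 0 = (N : ℤ) * m ∧
      ((lInt N m : Gamma0 N) : SL(2, ℤ)) 1 1 = 1 :=
  ⟨rfl, rfl, rfl, rfl⟩

theorem trace_uInt (N : ℕ) (m : ℤ) :
    (((uInt N m : Gamma0 N) : SL(2, ℤ)) : Matrix (Fin 2) (Fin 2) ℤ).trace ^ 2 = 4 := by
  rw [Matrix.trace_fin_two]
  have h := uInt_apply N m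
  rw [h.1, h.2.2.2]
  norm_num

theorem trace_lInt (N : ℕ) (m : ℤ) :
    (((lInt N m : Gamma0 N) : SL(2, ℤ)) : Matrix (Fin 2) (Fin 2) ℤ).trace ^ 2 = 4 := by
  rw [Matrix.trace_fin_two]
  have h := lInt_apply N m
  rw [h.1, h.2.2.2]
  norm_num

/-! ### The core -/

section Core

variable {N q : ℕ} (Δ : Subgroup SL(2, ℚ))

/-- The membership characterisation of `Γ₀(N)[1/q]`. -/
def IsDelta (N q : ℕ) (Δ : Subgroup SL(2, ℚ)) : Prop :=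
  ∀ g : SL(2, ℚ), g ∈ Δ ↔
    (∀ i j, ∃ (k : ℕ) (z : ℤ), g i j * (q : ℚ) ^ k = z) ∧
      ∃ y : ℚ, (∃ (k : ℕ) (z : ℤ), y * (q : ℚ) ^ k = z) ∧ g 1 0 = N * y

variable {Δ}

/-- `diag(q^k, q^{-k}) ∈ Δ`. -/
theorem diag_mem (hq : q ≠ 0) (hΔ : IsDelta N q Δ) (k : ℕ) : dg q hq k ∈ Δ := by
  have hqk : ((q : ℚ) ^ k) ≠ 0 := pow_ne_zero _ (Nat.cast_ne_zero.mpr hq)
  have hd := dg_apply q hq k
  rw [hΔ]
  refine ⟨?_, 0, ⟨0, 0, by simp⟩, by rw [hd.2.2.1]; simp⟩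
  intro i j
  fin_cases i <;> fin_cases j
  · exact ⟨0, (q : ℤ) ^ k, by show dg q hq k 0 0 * _ = _; rw [hd.1]; simp⟩
  · exact ⟨0, 0, by show dg q hq k 0 1 * _ = _; rw [hd.2.1]; simp⟩
  · exact ⟨0, 0, by show dg q hq k 1 0 * _ = _; rw [hd.2.2.1]; simp⟩
  · exact ⟨k, 1, by show dg q hq k 1 1 * _ = _; rw [hd.2.2.2]; simp [inv_mul_cancel₀ hqk]⟩

/-- integral upper unipotents lie in `Δ`. -/
theorem upper_mem (hΔ : IsDelta N q Δ) (m : ℤ) : up m ∈ Δ := by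
  have hd := up_apply m
  rw [hΔ]
  refine ⟨?_, 0, ⟨0, 0, by simp⟩, by rw [hd.2.2.1]; simp⟩
  intro i j
  fin_cases i <;> fin_cases j
  · exact ⟨0, 1, by show up m 0 0 * _ = _; rw [hd.1]; simp⟩
  · exact ⟨0, m, by show up m 0 1 * _ = _; rw [hd.2.1]; simp⟩
  · exact ⟨0, 0, by show up m 1 0 * _ = _; rw [hd.2.2.1]; simp⟩
  · exact ⟨0, 1, by show up m 1 1 * _ = _; rw [hd.2.2.2]; simp⟩

/-- integral lower unipotents of level `N` lie in `Δ`. -/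
theorem lower_mem (hΔ : IsDelta N q Δ) (m : ℤ) : lo N m ∈ Δ := by
  have hd := lo_apply N m
  rw [hΔ]
  refine ⟨?_, (m : ℚ), ⟨0, m, by simp⟩, hd.2.2.1⟩
  intro i j
  fin_cases i <;> fin_cases j
  · exact ⟨0, 1, by show lo N m 0 0 * _ = _; rw [hd.1]; simp⟩
  · exact ⟨0, 0, by show lo N m 0 1 * _ = _; rw [hd.2.1]; simp⟩
  · exact ⟨0, (N : ℤ) * m, by show lo N m 1 0 * _ = _; rw [hd.2.2.1]; simp⟩
  · exact ⟨0, 1, by show lo N m 1 1 * _ = _; rw [hd.2.2.2]; simp⟩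

variable {A : Type*} [AddCommGroup A]

/-- `Φ` is invariant under "conjugation": `d * g = g' * d` implies `Φ g = Φ g'`. -/
theorem map_eq_of_mul_eq (Φ : Additive Δ →+ A) (d g g' : Δ) (h : d * g = g' * d) :
    Φ (Additive.ofMul g) = Φ (Additive.ofMul g') := by
  have h1 := congrArg (fun x => Φ (Additive.ofMul x)) h
  simp only [ofMul_mul, map_add] at h1
  rw [add_comm] at h1
  exact add_right_cancel h1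

/-- **(hu)**: a parabolic `φ₁` forces `Φ` to kill every upper unipotent of `Δ`. -/
theorem kills_upper (hq : q ≠ 0) (hΔ : IsDelta N q Δ)
    (φ₁ : Additive (Gamma0 N) →+ A) (h₁ : IsParabolicHom (Gamma0 N) φ₁)
    (Φ : Additive Δ →+ A)
    (hΦ₁ : ∀ (γ : Gamma0 N) (g : Δ),
      (∀ i j, (g : SL(2, ℚ)) i j = (((γ : SL(2, ℤ)) i j : ℤ) : ℚ)) →
        Φ (Additive.ofMul g) = φ₁ (Additive.ofMul γ))
    (g : Δ) (h10 : (g : SL(2, ℚ)) 1 0 = 0) (h00 : (g : SL(2, ℚ)) 0 0 = 1) :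
    Φ (Additive.ofMul g) = 0 := by
  have hqk : ∀ k : ℕ, ((q : ℚ) ^ k) ≠ 0 := fun k => pow_ne_zero _ (Nat.cast_ne_zero.mpr hq)
  have h11 : (g : SL(2, ℚ)) 1 1 = 1 := by
    have := det_eq (g : SL(2, ℚ))
    rw [h10, h00, mul_zero, sub_zero, one_mul] at this
    exact this
  obtain ⟨k, z, hz⟩ := ((hΔ (g : SL(2, ℚ))).mp g.2).1 0 1
  -- the conjugating element and the integral unipotent
  let d : Δ := ⟨dg q hq k, diag_mem hq hΔ k⟩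
  let g' : Δ := ⟨up ((q : ℤ) ^ k * z), upper_mem hΔ ((q : ℤ) ^ k * z)⟩
  have hd := dg_apply q hq k
  have hu' := up_apply ((q : ℤ) ^ k * z)
  have hmul : d * g = g' * d := by
    apply Subtype.ext
    show dg q hq k * (g : SL(2, ℚ)) = up ((q : ℤ) ^ k * z) * dg q hq k
    apply sl2_ext
    · rw [mul_00, mul_00, hd.1, hd.2.1, hd.2.2.1, hu'.1, hu'.2.1, h00, h10]; ring
    · rw [mul_01, mul_01, hd.1, hd.2.1, hd.2.2.2, hu'.1, hu'.2.1, h11]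
      push_cast
      rw [← hz]
      field_simp [hqk k]
      ring
    · rw [mul_10, mul_10, hd.1, hd.2.2.1, hd.2.2.2, hu'.2.2.1, hu'.2.2.2, h00, h10]; ring
    · rw [mul_11, mul_11, hd.2.1, hd.2.2.1, hd.2.2.2, hu'.2.2.1, hu'.2.2.2, h11]; ring
  rw [map_eq_of_mul_eq Φ d g g' hmul]
  have h2 := hΦ₁ (uInt N ((q : ℤ) ^ k * z)) g' (by
    intro i j
    have hu := uInt_apply N ((q : ℤ) ^ k * z)
    fin_cases i <;> fin_cases j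
    · show up ((q : ℤ) ^ k * z) 0 0 = ((((uInt N ((q : ℤ) ^ k * z) : Gamma0 N) : SL(2, ℤ)) 0 0 : ℤ) : ℚ)
      rw [hu'.1, hu.1]; simp
    · show up ((q : ℤ) ^ k * z) 0 1 = ((((uInt N ((q : ℤ) ^ k * z) : Gamma0 N) : SL(2, ℤ)) 0 1 : ℤ) : ℚ)
      rw [hu'.2.1, hu.2.1]
    · show up ((q : ℤ) ^ k * z) 1 0 = ((((uInt N ((q : ℤ) ^ k * z) : Gamma0 N) : SL(2, ℤ)) 1 0 : ℤ) : ℚ)
      rw [hu'.2.2.1, hu.2.2.1]; simp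
    · show up ((q : ℤ) ^ k * z) 1 1 = ((((uInt N ((q : ℤ) ^ k * z) : Gamma0 N) : SL(2, ℤ)) 1 1 : ℤ) : ℚ)
      rw [hu'.2.2.2, hu.2.2.2]; simp)
  rw [h2]
  exact h₁ _ (trace_uInt N _)

/-- **(hl)**: a parabolic `φ₁` forces `Φ` to kill every lower unipotent of `Δ`. -/
theorem kills_lower (hq : q ≠ 0) (hΔ : IsDelta N q Δ)
    (φ₁ : Additive (Gamma0 N) →+ A) (h₁ : IsParabolicHom (Gamma0 N) φ₁)
    (Φ : Additive Δ →+ A)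
    (hΦ₁ : ∀ (γ : Gamma0 N) (g : Δ),
      (∀ i j, (g : SL(2, ℚ)) i j = (((γ : SL(2, ℤ)) i j : ℤ) : ℚ)) →
        Φ (Additive.ofMul g) = φ₁ (Additive.ofMul γ))
    (g : Δ) (h01 : (g : SL(2, ℚ)) 0 1 = 0) (h00 : (g : SL(2, ℚ)) 0 0 = 1) :
    Φ (Additive.ofMul g) = 0 := by
  have hqk : ∀ k : ℕ, ((q : ℚ) ^ k) ≠ 0 := fun k => pow_ne_zero _ (Nat.cast_ne_zero.mpr hq)
  have h11 : (g : SL(2, ℚ)) 1 1 = 1 := by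
    have := det_eq (g : SL(2, ℚ))
    rw [h01, h00, zero_mul, sub_zero, one_mul] at this
    exact this
  obtain ⟨y, ⟨k, z, hz⟩, hy⟩ := ((hΔ (g : SL(2, ℚ))).mp g.2).2
  let d : Δ := ⟨dg q hq k, diag_mem hq hΔ k⟩
  let g' : Δ := ⟨lo N ((q : ℤ) ^ k * z), lower_mem hΔ ((q : ℤ) ^ k * z)⟩
  have hd := dg_apply q hq k
  have hl' := lo_apply N ((q : ℤ) ^ k * z)
  -- `g * d = d * g'`, i.e. `d⁻¹ * g = g' * d⁻¹`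
  have hmul : d⁻¹ * g = g' * d⁻¹ := by
    have h0 : g * d = d * g' := by
      apply Subtype.ext
      show (g : SL(2, ℚ)) * dg q hq k = dg q hq k * lo N ((q : ℤ) ^ k * z)
      apply sl2_ext
      · rw [mul_00, mul_00, hd.1, hd.2.1, hd.2.2.1, hl'.1, hl'.2.2.1, h00, h01]; ring
      · rw [mul_01, mul_01, hd.1, hd.2.1, hd.2.2.2, hl'.2.1, hl'.2.2.2, h00, h01]; ring
      · rw [mul_10, mul_10, hd.1, hd.2.2.1, hd.2.2.2, hl'.1, hl'.2.2.1, h11, hy]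
        push_cast
        rw [← hz]
        field_simp [hqk k]
        ring
      · rw [mul_11, mul_11, hd.2.1, hd.2.2.1, hd.2.2.2, hl'.2.1, hl'.2.2.2, h11]; ring
    calc d⁻¹ * g = d⁻¹ * (g * d) * d⁻¹ := by group
      _ = d⁻¹ * (d * g') * d⁻¹ := by rw [h0]
      _ = g' * d⁻¹ := by group
  rw [map_eq_of_mul_eq Φ d⁻¹ g g' hmul]
  have h2 := hΦ₁ (lInt N ((q : ℤ) ^ k * z)) g' (by
    intro i j
    have hu := lInt_apply N ((q : ℤ) ^ k * z)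
    fin_cases i <;> fin_cases j
    · show lo N ((q : ℤ) ^ k * z) 0 0 = ((((lInt N ((q : ℤ) ^ k * z) : Gamma0 N) : SL(2, ℤ)) 0 0 : ℤ) : ℚ)
      rw [hl'.1, hu.1]; simp
    · show lo N ((q : ℤ) ^ k * z) 0 1 = ((((lInt N ((q : ℤ) ^ k * z) : Gamma0 N) : SL(2, ℤ)) 0 1 : ℤ) : ℚ)
      rw [hl'.2.1, hu.2.1]; simp
    · show lo N ((q : ℤ) ^ k * z) 1 0 = ((((lInt N ((q : ℤ) ^ k * z) : Gamma0 N) : SL(2, ℤ)) 1 0 : ℤ) : ℚ)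
      rw [hl'.2.2.1, hu.2.2.1]; push_cast; ring
    · show lo N ((q : ℤ) ^ k * z) 1 1 = ((((lInt N ((q : ℤ) ^ k * z) : Gamma0 N) : SL(2, ℤ)) 1 1 : ℤ) : ℚ)
      rw [hl'.2.2.2, hu.2.2.2]; simp)
  rw [h2]
  exact h₁ _ (trace_lInt N _)

/-- The entrywise image of `γ ∈ Γ₀(N)` in `SL(2, ℚ)`. -/
def inclQ (γ : Gamma0 N) : SL(2, ℚ) :=
  mk2 (((γ : SL(2, ℤ)) 0 0 : ℤ) : ℚ) (((γ : SL(2, ℤ)) 0 1 : ℤ) : ℚ) (((γ : SL(2, ℤ)) 1 0 : ℤ) : ℚ)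
    (((γ : SL(2, ℤ)) 1 1 : ℤ) : ℚ) (by
      have h := Matrix.SpecialLinearGroup.det_coe (γ : SL(2, ℤ))
      rw [Matrix.det_fin_two] at h
      exact_mod_cast h)

/-- The image `δ⁻¹ γ δ = [[a, b/q],[q c, d]]` of `γ ∈ Γ₀(N)` in `SL(2, ℚ)`. -/
def inclConjQ (hq : q ≠ 0) (γ : Gamma0 N) : SL(2, ℚ) :=
  mk2 (((γ : SL(2, ℤ)) 0 0 : ℤ) : ℚ) ((((γ : SL(2, ℤ)) 0 1 : ℤ) : ℚ) / q)
    ((q : ℚ) * (((γ : SL(2, ℤ)) 1 0 : ℤ) : ℚ)) (((γ : SL(2, ℤ)) 1 1 : ℤ) : ℚ) (by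
      have h := Matrix.SpecialLinearGroup.det_coe (γ : SL(2, ℤ))
      rw [Matrix.det_fin_two] at h
      have h' : ((((γ : SL(2, ℤ)) 0 0 : ℤ) : ℚ)) * (((γ : SL(2, ℤ)) 1 1 : ℤ) : ℚ) -
          (((γ : SL(2, ℤ)) 0 1 : ℤ) : ℚ) * (((γ : SL(2, ℤ)) 1 0 : ℤ) : ℚ) = 1 := by exact_mod_cast h
      have hq' : (q : ℚ) ≠ 0 := Nat.cast_ne_zero.mpr hq
      field_simp
      linear_combination h')

theorem lowerLeft_dvd (γ : Gamma0 N) : (N : ℤ) ∣ (γ : SL(2, ℤ)) 1 0 :=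
  (ZMod.intCast_zmod_eq_zero_iff_dvd _ _).mp (Gamma0_mem.mp γ.2)

theorem inclQ_mem (hΔ : IsDelta N q Δ) (γ : Gamma0 N) : inclQ γ ∈ Δ := by
  rw [hΔ]
  obtain ⟨c, hc⟩ := lowerLeft_dvd γ
  refine ⟨?_, (c : ℚ), ⟨0, c, by simp⟩, ?_⟩
  · intro i j
    fin_cases i <;> fin_cases j
    · exact ⟨0, (γ : SL(2, ℤ)) 0 0, by simp [inclQ]⟩
    · exact ⟨0, (γ : SL(2, ℤ)) 0 1, by simp [inclQ]⟩
    · exact ⟨0, (γ : SL(2, ℤ)) 1 0, by simp [inclQ]⟩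
    · exact ⟨0, (γ : SL(2, ℤ)) 1 1, by simp [inclQ]⟩
  · show (((γ : SL(2, ℤ)) 1 0 : ℤ) : ℚ) = (N : ℚ) * (c : ℚ)
    rw [hc]; push_cast; ring

theorem inclConjQ_mem (hq : q ≠ 0) (hΔ : IsDelta N q Δ) (γ : Gamma0 N) :
    inclConjQ hq γ ∈ Δ := by
  have hq' : (q : ℚ) ≠ 0 := Nat.cast_ne_zero.mpr hq
  rw [hΔ]
  obtain ⟨c, hc⟩ := lowerLeft_dvd γ
  refine ⟨?_, (q : ℚ) * (c : ℚ), ⟨0, (q : ℤ) * c, by simp⟩, ?_⟩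
  · intro i j
    fin_cases i <;> fin_cases j
    · exact ⟨0, (γ : SL(2, ℤ)) 0 0, by simp [inclConjQ]⟩
    · refine ⟨1, (γ : SL(2, ℤ)) 0 1, ?_⟩
      show (((γ : SL(2, ℤ)) 0 1 : ℤ) : ℚ) / q * (q : ℚ) ^ 1 = _
      field_simp
    · exact ⟨0, (q : ℤ) * (γ : SL(2, ℤ)) 1 0, by simp [inclConjQ]⟩
    · exact ⟨0, (γ : SL(2, ℤ)) 1 1, by simp [inclConjQ]⟩
  · show (q : ℚ) * (((γ : SL(2, ℤ)) 1 0 : ℤ) : ℚ) = (N : ℚ) * ((q : ℚ) * (c : ℚ))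
    rw [hc]; push_cast; ring

/-- **(c)**: the conclusion of `csp_strong` for `Φ` makes `φ₁` and `φ₂` vanish on
`{γ ∈ Γ₀(N) : N ∣ a(γ) - 1}`. -/
theorem vanish_of_csp (hq : q ≠ 0) (hΔ : IsDelta N q Δ)
    (φ₁ φ₂ : Additive (Gamma0 N) →+ A) (Φ : Additive Δ →+ A)
    (hΦ₁ : ∀ (γ : Gamma0 N) (g : Δ),
      (∀ i j, (g : SL(2, ℚ)) i j = (((γ : SL(2, ℤ)) i j : ℤ) : ℚ)) →
        Φ (Additive.ofMul g) = φ₁ (Additive.ofMul γ))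
    (hΦ₂ : ∀ (γ : Gamma0 N) (g : Δ),
      ((g : SL(2, ℚ)) 0 0 = (((γ : SL(2, ℤ)) 0 0 : ℤ) : ℚ) ∧
        (g : SL(2, ℚ)) 0 1 * q = (((γ : SL(2, ℤ)) 0 1 : ℤ) : ℚ) ∧
        (g : SL(2, ℚ)) 1 0 = q * (((γ : SL(2, ℤ)) 1 0 : ℤ) : ℚ) ∧
        (g : SL(2, ℚ)) 1 1 = (((γ : SL(2, ℤ)) 1 1 : ℤ) : ℚ)) →
        Φ (Additive.ofMul g) = φ₂ (Additive.ofMul γ))
    (hcsp : ∀ g : Δ, (∃ y : ℚ, (∃ (k : ℕ) (z : ℤ), y * (q : ℚ) ^ k = z) ∧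
      (g : SL(2, ℚ)) 0 0 - 1 = N * y) → Φ (Additive.ofMul g) = 0)
    (γ : Gamma0 N) (hγ : (N : ℤ) ∣ (γ : SL(2, ℤ)) 0 0 - 1) :
    φ₁ (Additive.ofMul γ) = 0 ∧ φ₂ (Additive.ofMul γ) = 0 := by
  have hq' : (q : ℚ) ≠ 0 := Nat.cast_ne_zero.mpr hq
  obtain ⟨t, ht⟩ := hγ
  have ha : ((((γ : SL(2, ℤ)) 0 0 : ℤ)) : ℚ) - 1 = (N : ℚ) * (t : ℚ) := by
    have : ((((γ : SL(2, ℤ)) 0 0 - 1 : ℤ)) : ℚ) = (((N : ℤ) * t : ℤ) : ℚ) := by rw [ht]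
    push_cast at this
    exact this
  constructor
  · let g : Δ := ⟨inclQ γ, inclQ_mem hΔ γ⟩
    rw [← hΦ₁ γ g (by
      intro i j
      fin_cases i <;> fin_cases j <;> rfl)]
    exact hcsp g ⟨(t : ℚ), ⟨0, t, by simp⟩, ha⟩
  · let g : Δ := ⟨inclConjQ hq γ, inclConjQ_mem hq hΔ γ⟩
    rw [← hΦ₂ γ g ⟨rfl, by
      show (((γ : SL(2, ℤ)) 0 1 : ℤ) : ℚ) / q * q = _
      field_simp, rfl, rfl⟩]
    exact hcsp g ⟨(t : ℚ), ⟨0, t, by simp⟩, ha⟩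

/-- **Ihara's lemma, core form.** If `Φ : Δ → A` restricts to `φ₁` and `φ₂` on the two copies of
`Γ₀(N)`, `φ₁` is parabolic, and the congruence subgroup property (`csp_strong`) holds for `Φ`,
then `T_ℓ φ_i = (ℓ + 1) φ_i` for every prime `ℓ ∤ N`. -/
theorem ihara_core (hq : q ≠ 0) (hΔ : IsDelta N q Δ)
    (φ₁ φ₂ : Additive (Gamma0 N) →+ A) (h₁ : IsParabolicHom (Gamma0 N) φ₁)
    (Φ : Additive Δ →+ A)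
    (hΦ₁ : ∀ (γ : Gamma0 N) (g : Δ),
      (∀ i j, (g : SL(2, ℚ)) i j = (((γ : SL(2, ℤ)) i j : ℤ) : ℚ)) →
        Φ (Additive.ofMul g) = φ₁ (Additive.ofMul γ))
    (hΦ₂ : ∀ (γ : Gamma0 N) (g : Δ),
      ((g : SL(2, ℚ)) 0 0 = (((γ : SL(2, ℤ)) 0 0 : ℤ) : ℚ) ∧
        (g : SL(2, ℚ)) 0 1 * q = (((γ : SL(2, ℤ)) 0 1 : ℤ) : ℚ) ∧
        (g : SL(2, ℚ)) 1 0 = q * (((γ : SL(2, ℤ)) 1 0 : ℤ) : ℚ) ∧
        (g : SL(2, ℚ)) 1 1 = (((γ : SL(2, ℤ)) 1 1 : ℤ) : ℚ)) →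
        Φ (Additive.ofMul g) = φ₂ (Additive.ofMul γ))
    (hcsp : (∀ g : Δ, (g : SL(2, ℚ)) 1 0 = 0 → (g : SL(2, ℚ)) 0 0 = 1 → Φ (Additive.ofMul g) = 0) →
      (∀ g : Δ, (g : SL(2, ℚ)) 0 1 = 0 → (g : SL(2, ℚ)) 0 0 = 1 → Φ (Additive.ofMul g) = 0) →
      ∀ g : Δ, (∃ y : ℚ, (∃ (k : ℕ) (z : ℤ), y * (q : ℚ) ^ k = z) ∧
        (g : SL(2, ℚ)) 0 0 - 1 = N * y) → Φ (Additive.ofMul g) = 0)
    (ℓ : ℕ) [Fact ℓ.Prime] (hℓ : ¬ ℓ ∣ N) :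
    heckeTHom N ℓ hℓ φ₁ = (ℓ + 1) • φ₁ ∧ heckeTHom N ℓ hℓ φ₂ = (ℓ + 1) • φ₂ := by
  have hc := hcsp (kills_upper hq hΔ φ₁ h₁ Φ hΦ₁) (kills_lower hq hΔ φ₁ h₁ Φ hΦ₁)
  have hv := vanish_of_csp hq hΔ φ₁ φ₂ Φ hΦ₁ hΦ₂ hc
  exact ⟨Eis.heckeTHom_eq_of_dvd N ℓ hℓ φ₁ fun γ hγ => (hv γ hγ).1,
    Eis.heckeTHom_eq_of_dvd N ℓ hℓ φ₂ fun γ hγ => (hv γ hγ).2⟩

end Core

/-! ### The gluing hypothesis from `res₁ φ₁ + res₂ φ₂ = 0` -/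

/-- For degeneracy maps `i₁ i₂ : Γ₀(Nq) →* Γ₀(N)` with the entry specifications of the skeleton,
`res₁ φ₁ + res₂ φ₂ = 0` gives `φ₁ γ = (-φ₂) γ'` whenever `γ' = δ γ δ⁻¹`
(`γ' = [[a, q b],[c / q, d]]`). -/
theorem glue_hyp_of_res {N q : ℕ} (hq : q ≠ 0) {A : Type*} [AddCommGroup A]
    (i₁ i₂ : Gamma0 (N * q) →* Gamma0 N)
    (hi₁ : ∀ γ : Gamma0 (N * q), ((i₁ γ : Gamma0 N) : SL(2, ℤ)) = γ)
    (hi₂ : ∀ γ : Gamma0 (N * q),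
      ((i₂ γ : Gamma0 N) : SL(2, ℤ)) 0 0 = (γ : SL(2, ℤ)) 0 0 ∧
      ((i₂ γ : Gamma0 N) : SL(2, ℤ)) 0 1 = q * (γ : SL(2, ℤ)) 0 1 ∧
      (q : ℤ) * ((i₂ γ : Gamma0 N) : SL(2, ℤ)) 1 0 = (γ : SL(2, ℤ)) 1 0 ∧
      ((i₂ γ : Gamma0 N) : SL(2, ℤ)) 1 1 = (γ : SL(2, ℤ)) 1 1)
    (φ₁ φ₂ : Additive (Gamma0 N) →+ A)
    (h : φ₁.comp (MonoidHom.toAdditive i₁) + φ₂.comp (MonoidHom.toAdditive i₂) = 0)
    (γ γ' : Gamma0 N)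
    (hc : (γ' : SL(2, ℤ)) 0 0 = (γ : SL(2, ℤ)) 0 0 ∧ (γ' : SL(2, ℤ)) 0 1 = q * (γ : SL(2, ℤ)) 0 1 ∧
      (q : ℤ) * (γ' : SL(2, ℤ)) 1 0 = (γ : SL(2, ℤ)) 1 0 ∧
      (γ' : SL(2, ℤ)) 1 1 = (γ : SL(2, ℤ)) 1 1) :
    φ₁ (Additive.ofMul γ) = (-φ₂) (Additive.ofMul γ') := by
  have hq' : (q : ℤ) ≠ 0 := Nat.cast_ne_zero.mpr hq
  -- `γ ∈ Γ₀(N q)`
  have hmem : (γ : SL(2, ℤ)) ∈ Gamma0 (N * q) := by
    rw [Gamma0_mem, ZMod.intCast_zmod_eq_zero_iff_dvd]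
    obtain ⟨c, hc'⟩ := (ZMod.intCast_zmod_eq_zero_iff_dvd _ _).mp (Gamma0_mem.mp γ'.2)
    refine ⟨c, ?_⟩
    rw [← hc.2.2.1, hc']
    push_cast
    ring
  let γ₀ : Gamma0 (N * q) := ⟨(γ : SL(2, ℤ)), hmem⟩
  have e₁ : i₁ γ₀ = γ := Subtype.ext (hi₁ γ₀)
  have e₂ : i₂ γ₀ = γ' := by
    apply Subtype.ext
    apply Matrix.SpecialLinearGroup.ext
    have h2 := hi₂ γ₀
    intro i j
    fin_cases i <;> fin_cases j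
    · exact h2.1.trans hc.1.symm
    · exact h2.2.1.trans hc.2.1.symm
    · exact mul_left_cancel₀ hq' (h2.2.2.1.trans hc.2.2.1.symm)
    · exact h2.2.2.2.trans hc.2.2.2.symm
  have h3 := congrArg (fun ψ : Additive (Gamma0 (N * q)) →+ A => ψ (Additive.ofMul γ₀)) h
  simp only [AddMonoidHom.add_apply, AddMonoidHom.comp_apply, MonoidHom.toAdditive_apply_apply,
    toMul_ofMul, AddMonoidHom.zero_apply] at h3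
  rw [e₁, e₂] at h3
  rw [AddMonoidHom.neg_apply]
  exact eq_neg_of_add_eq_zero_left h3

end Fermat.Agent.S41.IharaCore
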