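/-
S41, block [IH] (helper96): Ihara's lemma from the amalgam statement.

`IharaCore` (conjugation/parabolic bookkeeping + [EIS]) is combined with the landed congruence
subgroup property (`CSPMat.csp_strong_of_arith` + `CSPChain.csp_arith`).  Everything is still
independent of the concrete definitions of `Delta N q`, `incl₁`, `incl₂`: the amalgam statement
(`exists_glue` of block [AM]) and the two degeneracy maps enter as hypotheses in the exact shapes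
of the blueprint, so that the final `ihara` is a one-line instantiation.

* `csp_strong` : `Φ : Δ → A` (no `2`-torsion in `A`) killing `u(x)`, `l(N y)` kills every
  `g ∈ Δ` with `g₀₀ ≡ 1 (mod N ℤ[1/q])`, for any `Δ` with `IharaCore.IsDelta N q Δ`;
* `ihara_of_glue` : from a glued `Φ` (restricting to `φ₁` and `-φ₂`);
* `ihara_of_amalgam` : from the amalgam statement and `res₁ φ₁ + res₂ φ₂ = 0`;
* `ihara_of_amalgam_zmod` : the same for `A = ZMod p`, `p` an odd prime.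
-/
import Mathlib
import Fermat.Agent.S41.IharaCore
import Fermat.Agent.S41.CSPMat
import Fermat.Agent.S41.CSPChain

set_option autoImplicit false

namespace Fermat.Agent.S41.IharaGlue

open CongruenceSubgroup Matrix.SpecialLinearGroup ModularCurve.Period
open scoped MatrixGroups
open Fermat.Agent.S16 Fermat.Agent.S41.IharaCore

variable {N q : ℕ} {Δ : Subgroup SL(2, ℚ)} {A : Type*} [AddCommGroup A]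

/-- **[CSP]** for any `Δ` with the membership characterisation of `Γ₀(N)[1/q]`. -/
theorem csp_strong (hq : q.Prime) (hN : 0 < N) (hqN : ¬ q ∣ N) (hΔ : IsDelta N q Δ)
    (h2 : ∀ x : A, x + x = 0 → x = 0) (Φ : Additive Δ →+ A)
    (hu : ∀ g : Δ, (g : SL(2, ℚ)) 1 0 = 0 → (g : SL(2, ℚ)) 0 0 = 1 → Φ (Additive.ofMul g) = 0)
    (hl : ∀ g : Δ, (g : SL(2, ℚ)) 0 1 = 0 → (g : SL(2, ℚ)) 0 0 = 1 → Φ (Additive.ofMul g) = 0)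
    (g : Δ) (hg : ∃ y : ℚ, (∃ (k : ℕ) (z : ℤ), y * (q : ℚ) ^ k = z) ∧
      (g : SL(2, ℚ)) 0 0 - 1 = N * y) :
    Φ (Additive.ofMul g) = 0 :=
  CSPMat.csp_strong_of_arith (fun g => hΔ g) Φ hu hl h2 hq hN hqN
    (CSPChain.csp_arith q N hq.two_le hN ((Nat.Prime.coprime_iff_not_dvd hq).mpr hqN)) g hg

/-- **Ihara's lemma from a glued homomorphism**: `Φ : Δ → A` restricts to `φ₁` on `Γ₀(N)` and to
`-φ₂` on `δ⁻¹ Γ₀(N) δ`, `φ₁` parabolic, `A` without `2`-torsion. -/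
theorem ihara_of_glue (hq : q.Prime) (hN : 0 < N) (hqN : ¬ q ∣ N) (hΔ : IsDelta N q Δ)
    (h2 : ∀ x : A, x + x = 0 → x = 0)
    (φ₁ φ₂ : Additive (Gamma0 N) →+ A) (h₁ : IsParabolicHom (Gamma0 N) φ₁)
    (Φ : Additive Δ →+ A)
    (hΦ₁ : ∀ (γ : Gamma0 N) (g : Δ),
      (∀ i j, (g : SL(2, ℚ)) i j = (((γ : SL(2, ℤ)) i j : ℤ) : ℚ)) →
        Φ (Additive.ofMul g) = φ₁ (Additive.ofMul γ))
    (hΦ₂ : ∀ (γ : Gamma0 N) (g : Δ),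
      ((g : SL(2, ℚ)) 0 0 = (((γ : SL(2, ℤ)) 0 0 : ℤ) : ℚ) ∧
        (g : SL(2, ℚ)) 0 1 * q = (((γ : SL(2, ℤ)) 0 1 : ℤ) : ℚ) ∧
        (g : SL(2, ℚ)) 1 0 = q * (((γ : SL(2, ℤ)) 1 0 : ℤ) : ℚ) ∧
        (g : SL(2, ℚ)) 1 1 = (((γ : SL(2, ℤ)) 1 1 : ℤ) : ℚ)) →
        Φ (Additive.ofMul g) = (-φ₂) (Additive.ofMul γ))
    (ℓ : ℕ) [Fact ℓ.Prime] (hℓ : ¬ ℓ ∣ N) :
    heckeTHom N ℓ hℓ φ₁ = (ℓ + 1) • φ₁ ∧ heckeTHom N ℓ hℓ φ₂ = (ℓ + 1) • φ₂ := by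
  have hq0 : q ≠ 0 := hq.ne_zero
  have hc := csp_strong hq hN hqN hΔ h2 Φ (kills_upper hq0 hΔ φ₁ h₁ Φ hΦ₁)
    (kills_lower hq0 hΔ φ₁ h₁ Φ hΦ₁)
  have hv := vanish_of_csp hq0 hΔ φ₁ (-φ₂) Φ hΦ₁ hΦ₂ hc
  refine ⟨Eis.heckeTHom_eq_of_dvd N ℓ hℓ φ₁ fun γ hγ => (hv γ hγ).1,
    Eis.heckeTHom_eq_of_dvd N ℓ hℓ φ₂ fun γ hγ => ?_⟩
  have h := (hv γ hγ).2
  rw [AddMonoidHom.neg_apply, neg_eq_zero] at h
  exact h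

/-- **Ihara's lemma from the amalgam statement** (`hAM` = `exists_glue` of block [AM], in the
shapes `IsConj` / `IsIncl` / `IsInclConj` of the blueprint; `i₁`, `i₂` = the two degeneracy maps
with the entry specifications `incl₁_coe`, `incl₂_entries`). -/
theorem ihara_of_amalgam (hq : q.Prime) (hN : 0 < N) (hqN : ¬ q ∣ N) (hΔ : IsDelta N q Δ)
    (h2 : ∀ x : A, x + x = 0 → x = 0)
    (hAM : ∀ ψ₁ ψ₂ : Additive (Gamma0 N) →+ A,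
      (∀ γ γ' : Gamma0 N,
        ((γ' : SL(2, ℤ)) 0 0 = (γ : SL(2, ℤ)) 0 0 ∧ (γ' : SL(2, ℤ)) 0 1 = q * (γ : SL(2, ℤ)) 0 1 ∧
          (q : ℤ) * (γ' : SL(2, ℤ)) 1 0 = (γ : SL(2, ℤ)) 1 0 ∧
          (γ' : SL(2, ℤ)) 1 1 = (γ : SL(2, ℤ)) 1 1) →
        ψ₁ (Additive.ofMul γ) = ψ₂ (Additive.ofMul γ')) →
      ∃ Φ : Additive Δ →+ A,
        (∀ (γ : Gamma0 N) (g : Δ),
          (∀ i j, (g : SL(2, ℚ)) i j = (((γ : SL(2, ℤ)) i j : ℤ) : ℚ)) →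
            Φ (Additive.ofMul g) = ψ₁ (Additive.ofMul γ)) ∧
        (∀ (γ : Gamma0 N) (g : Δ),
          ((g : SL(2, ℚ)) 0 0 = (((γ : SL(2, ℤ)) 0 0 : ℤ) : ℚ) ∧
            (g : SL(2, ℚ)) 0 1 * q = (((γ : SL(2, ℤ)) 0 1 : ℤ) : ℚ) ∧
            (g : SL(2, ℚ)) 1 0 = q * (((γ : SL(2, ℤ)) 1 0 : ℤ) : ℚ) ∧
            (g : SL(2, ℚ)) 1 1 = (((γ : SL(2, ℤ)) 1 1 : ℤ) : ℚ)) →
            Φ (Additive.ofMul g) = ψ₂ (Additive.ofMul γ)))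
    (i₁ i₂ : Gamma0 (N * q) →* Gamma0 N)
    (hi₁ : ∀ γ : Gamma0 (N * q), ((i₁ γ : Gamma0 N) : SL(2, ℤ)) = γ)
    (hi₂ : ∀ γ : Gamma0 (N * q),
      ((i₂ γ : Gamma0 N) : SL(2, ℤ)) 0 0 = (γ : SL(2, ℤ)) 0 0 ∧
      ((i₂ γ : Gamma0 N) : SL(2, ℤ)) 0 1 = q * (γ : SL(2, ℤ)) 0 1 ∧
      (q : ℤ) * ((i₂ γ : Gamma0 N) : SL(2, ℤ)) 1 0 = (γ : SL(2, ℤ)) 1 0 ∧
      ((i₂ γ : Gamma0 N) : SL(2, ℤ)) 1 1 = (γ : SL(2, ℤ)) 1 1)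
    (ℓ : ℕ) [Fact ℓ.Prime] (hℓ : ¬ ℓ ∣ N)
    (φ₁ φ₂ : Additive (Gamma0 N) →+ A) (h₁ : IsParabolicHom (Gamma0 N) φ₁)
    (h : φ₁.comp (MonoidHom.toAdditive i₁) + φ₂.comp (MonoidHom.toAdditive i₂) = 0) :
    heckeTHom N ℓ hℓ φ₁ = (ℓ + 1) • φ₁ ∧ heckeTHom N ℓ hℓ φ₂ = (ℓ + 1) • φ₂ := by
  obtain ⟨Φ, hΦ₁, hΦ₂⟩ := hAM φ₁ (-φ₂)
    (fun γ γ' hc => glue_hyp_of_res hq.ne_zero i₁ i₂ hi₁ hi₂ φ₁ φ₂ h γ γ' hc)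
  exact ihara_of_glue hq hN hqN hΔ h2 φ₁ φ₂ h₁ Φ hΦ₁ hΦ₂ ℓ hℓ

/-- `ZMod p` has no `2`-torsion for an odd prime `p`. -/
theorem zmod_add_self_eq_zero {p : ℕ} [Fact p.Prime] (hp2 : p ≠ 2) (x : ZMod p)
    (h : x + x = 0) : x = 0 := by
  have h2 : (2 : ZMod p) ≠ 0 := by
    intro h0
    have hdvd : p ∣ 2 := (ZMod.natCast_eq_zero_iff 2 p).mp (by exact_mod_cast h0)
    exact hp2 ((Nat.prime_dvd_prime_iff_eq (Fact.out : p.Prime) Nat.prime_two).mp hdvd)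
  have h' : (2 : ZMod p) * x = 0 := by rw [two_mul]; exact h
  rcases mul_eq_zero.mp h' with h0 | h0
  · exact absurd h0 h2
  · exact h0

/-- **Ihara's lemma from the amalgam statement**, coefficients `ZMod p`, `p` an odd prime. -/
theorem ihara_of_amalgam_zmod (hq : q.Prime) (hN : 0 < N) (hqN : ¬ q ∣ N) (hΔ : IsDelta N q Δ)
    {p : ℕ} [Fact p.Prime] (hp2 : p ≠ 2)
    (hAM : ∀ ψ₁ ψ₂ : Additive (Gamma0 N) →+ ZMod p,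
      (∀ γ γ' : Gamma0 N,
        ((γ' : SL(2, ℤ)) 0 0 = (γ : SL(2, ℤ)) 0 0 ∧ (γ' : SL(2, ℤ)) 0 1 = q * (γ : SL(2, ℤ)) 0 1 ∧
          (q : ℤ) * (γ' : SL(2, ℤ)) 1 0 = (γ : SL(2, ℤ)) 1 0 ∧
          (γ' : SL(2, ℤ)) 1 1 = (γ : SL(2, ℤ)) 1 1) →
        ψ₁ (Additive.ofMul γ) = ψ₂ (Additive.ofMul γ')) →
      ∃ Φ : Additive Δ →+ ZMod p,
        (∀ (γ : Gamma0 N) (g : Δ),
          (∀ i j, (g : SL(2, ℚ)) i j = (((γ : SL(2, ℤ)) i j : ℤ) : ℚ)) →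
            Φ (Additive.ofMul g) = ψ₁ (Additive.ofMul γ)) ∧
        (∀ (γ : Gamma0 N) (g : Δ),
          ((g : SL(2, ℚ)) 0 0 = (((γ : SL(2, ℤ)) 0 0 : ℤ) : ℚ) ∧
            (g : SL(2, ℚ)) 0 1 * q = (((γ : SL(2, ℤ)) 0 1 : ℤ) : ℚ) ∧
            (g : SL(2, ℚ)) 1 0 = q * (((γ : SL(2, ℤ)) 1 0 : ℤ) : ℚ) ∧
            (g : SL(2, ℚ)) 1 1 = (((γ : SL(2, ℤ)) 1 1 : ℤ) : ℚ)) →
            Φ (Additive.ofMul g) = ψ₂ (Additive.ofMul γ)))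
    (i₁ i₂ : Gamma0 (N * q) →* Gamma0 N)
    (hi₁ : ∀ γ : Gamma0 (N * q), ((i₁ γ : Gamma0 N) : SL(2, ℤ)) = γ)
    (hi₂ : ∀ γ : Gamma0 (N * q),
      ((i₂ γ : Gamma0 N) : SL(2, ℤ)) 0 0 = (γ : SL(2, ℤ)) 0 0 ∧
      ((i₂ γ : Gamma0 N) : SL(2, ℤ)) 0 1 = q * (γ : SL(2, ℤ)) 0 1 ∧
      (q : ℤ) * ((i₂ γ : Gamma0 N) : SL(2, ℤ)) 1 0 = (γ : SL(2, ℤ)) 1 0 ∧
      ((i₂ γ : Gamma0 N) : SL(2, ℤ)) 1 1 = (γ : SL(2, ℤ)) 1 1)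
    (ℓ : ℕ) [Fact ℓ.Prime] (hℓ : ¬ ℓ ∣ N)
    (φ₁ φ₂ : Additive (Gamma0 N) →+ ZMod p) (h₁ : IsParabolicHom (Gamma0 N) φ₁)
    (h : φ₁.comp (MonoidHom.toAdditive i₁) + φ₂.comp (MonoidHom.toAdditive i₂) = 0) :
    heckeTHom N ℓ hℓ φ₁ = (ℓ + 1) • φ₁ ∧ heckeTHom N ℓ hℓ φ₂ = (ℓ + 1) • φ₂ :=
  ihara_of_amalgam hq hN hqN hΔ (zmod_add_self_eq_zero hp2) hAM i₁ i₂ hi₁ hi₂ ℓ hℓ φ₁ φ₂ h₁ h

end Fermat.Agent.S41.IharaGlue
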