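/-
S41, block [IH] (helper96): **Ihara's lemma**, final form.

For `q` prime, `q ∤ N`, `p` an odd prime and `φ₁ φ₂ : Γ₀(N) → 𝔽_p` with `φ₁` parabolic and
`res₁ φ₁ + res₂ φ₂ = 0` on `Γ₀(N q)`, both `φ_i` are Eisenstein: `T_ℓ φ_i = (ℓ + 1) φ_i` for
EVERY prime `ℓ ∤ N` (no exceptional set).

Assembly of the landed blocks:
* [AM]  `AMGlue.exists_glue_Delta` (amalgam `Γ₀(N)[1/q] = Γ₀(N) *_{Γ₀(Nq)} δ⁻¹Γ₀(N)δ`),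
* [CSP] `IharaGlue.csp_strong` (congruence subgroup property of `Γ₀(N)[1/q]`),
* [EIS] `Eis.heckeTHom_eq_of_dvd`,
* [IH]  `IharaCore.ihara_core`, `IharaGlue.ihara_of_amalgam_zmod`,
* [DEFS] `incl₁`, `incl₂`, `res₁`, `res₂` of `S41/Defs.lean`.

* `ihara`       : the strong form (hypotheses `hp2` and `IsParabolicHom φ₁` only);
* `ihara_plan`  : the shape of the hypothesis `hIH` of the S41 glue (`∃ S : Finset ℕ, …`,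
                  with `S = ∅`), and `ihara_skeleton_shape` for the lattice `parabolicHoms`.
-/
import Mathlib
import Fermat.Agent.S41.Defs
import Fermat.Agent.S41.IharaGlue
import Fermat.Agent.S41.AMGlue

set_option autoImplicit false

namespace Fermat.Agent.S41.Ihara

open CongruenceSubgroup ModularCurve.Period
open scoped MatrixGroups
open Fermat.Agent.S16 (heckeTHom)
open Fermat.Agent.S41 (incl₁ incl₂ res₁ res₂)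

/-- **Ihara's lemma.** `q ∤ N` prime, `p` odd: if `φ₁ φ₂ : Γ₀(N) → 𝔽_p`, `φ₁` parabolic, satisfy
`res₁ φ₁ + res₂ φ₂ = 0` on `Γ₀(N q)`, then `T_ℓ φ_i = (ℓ + 1) φ_i` for every prime `ℓ ∤ N`. -/
theorem ihara (N q : ℕ) [NeZero N] [Fact q.Prime] (hqN : ¬ q ∣ N) (p : ℕ) [Fact p.Prime]
    (hp2 : p ≠ 2) (ℓ : ℕ) [Fact ℓ.Prime] (hℓ : ¬ ℓ ∣ N)
    (φ₁ φ₂ : Additive (Gamma0 N) →+ ZMod p) (h₁ : IsParabolicHom (Gamma0 N) φ₁)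
    (h : res₁ N q φ₁ + res₂ N q φ₂ = 0) :
    heckeTHom N ℓ hℓ φ₁ = (ℓ + 1) • φ₁ ∧ heckeTHom N ℓ hℓ φ₂ = (ℓ + 1) • φ₂ :=
  IharaGlue.ihara_of_amalgam_zmod (Δ := AMGlue.Delta N q) (Fact.out : q.Prime)
    (Nat.pos_of_ne_zero (NeZero.ne N)) hqN (fun _ => Iff.rfl) hp2
    (fun ψ₁ ψ₂ hc => AMGlue.exists_glue_Delta N q hqN ψ₁ ψ₂ hc)
    (incl₁ N q) (incl₂ N q) (incl₁_coe N q) (incl₂_entries N q) ℓ hℓ φ₁ φ₂ h₁ h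

/-- Ihara's lemma in the shape of the hypothesis `hIH` of the S41 glue (`Plan.result_of_leaves`):
the exceptional set is empty. -/
theorem ihara_plan (N q : ℕ) [NeZero N] [Fact q.Prime] (hqN : ¬ q ∣ N) (p : ℕ) [Fact p.Prime]
    (hp2 : p ≠ 2) :
    ∃ S : Finset ℕ, ∀ (ℓ : ℕ) [Fact ℓ.Prime] (hℓ : ¬ ℓ ∣ N), ℓ ∉ S →
      ∀ φ₁ φ₂ : Additive (Gamma0 N) →+ ZMod p,
        IsParabolicHom (Gamma0 N) φ₁ → IsParabolicHom (Gamma0 N) φ₂ →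
        res₁ N q φ₁ + res₂ N q φ₂ = 0 →
        heckeTHom N ℓ hℓ φ₁ = (ℓ + 1) • φ₁ ∧ heckeTHom N ℓ hℓ φ₂ = (ℓ + 1) • φ₂ :=
  ⟨∅, fun ℓ _ hℓ _ φ₁ φ₂ h₁ _ h => ihara N q hqN p hp2 ℓ hℓ φ₁ φ₂ h₁ h⟩

/-- Ihara's lemma with the parabolicity hypothesis in the form `φ₁ ∈ parabolicHoms ℤ Γ₀(N) 𝔽_p`. -/
theorem ihara_of_mem (N q : ℕ) [NeZero N] [Fact q.Prime] (hqN : ¬ q ∣ N) (p : ℕ) [Fact p.Prime]
    (hp2 : p ≠ 2) (ℓ : ℕ) [Fact ℓ.Prime] (hℓ : ¬ ℓ ∣ N)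
    (φ₁ φ₂ : Additive (Gamma0 N) →+ ZMod p) (h₁ : φ₁ ∈ parabolicHoms ℤ (Gamma0 N) (ZMod p))
    (h : res₁ N q φ₁ + res₂ N q φ₂ = 0) :
    heckeTHom N ℓ hℓ φ₁ = (ℓ + 1) • φ₁ ∧ heckeTHom N ℓ hℓ φ₂ = (ℓ + 1) • φ₂ :=
  ihara N q hqN p hp2 ℓ hℓ φ₁ φ₂ h₁ h

end Fermat.Agent.S41.Ihara
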