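/-
S41 — GT.lean (helper39): block [GT] of the non-Eisenstein argument [NE] (blueprint: helper96).

A subgroup `G` of `GL(V)`, `V` a plane over `𝔽_p`, in which every element of prime order `r ≠ p`
has a nonzero fixed vector, stabilises a line.
-/
import Mathlib

set_option autoImplicit false

namespace Fermat.Agent.S41.GT

open Polynomial

variable {p : ℕ} [hp : Fact p.Prime] {V : Type*} [AddCommGroup V] [Module (ZMod p) V]

/-- An endomorphism `f` with `(f - 1)^2 = 0` in characteristic `p` satisfies `f^p = 1`. -/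
theorem pow_char_eq_one_of_sq_zero (f : Module.End (ZMod p) V) (h : (f - 1) * (f - 1) = 0) :
    f ^ p = 1 := by
  set n := f - 1 with hn
  have hf : f = 1 + n := by rw [hn]; abel
  have key : ∀ k : ℕ, f ^ k = 1 + k • n := by
    intro k
    induction k with
    | zero => simp
    | succ k ih =>
      rw [pow_succ, ih, hf]
      have : (1 + k • n) * (1 + n) = 1 + (k + 1) • n + k • (n * n) := by
        rw [add_smul, one_smul]
        simp only [mul_add, add_mul, mul_one, one_mul, smul_mul_assoc]
        abel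
      rw [this, h, smul_zero, add_zero]
  rw [key p]
  have : (p : ℕ) • n = 0 := by
    rw [← Nat.cast_smul_eq_nsmul (ZMod p), ZMod.natCast_self, zero_smul]
  rw [this, add_zero]

/-- In dimension two, an automorphism of determinant one with a nonzero fixed vector satisfies
`g^p = 1`. -/
theorem pow_char_eq_one_of_det_of_fixed (hV : Module.finrank (ZMod p) V = 2)
    (g : V ≃ₗ[ZMod p] V) (hdet : LinearEquiv.det g = 1) (v : V) (hv : v ≠ 0) (hgv : g v = v) :
    g ^ p = 1 := by
  have : Module.Finite (ZMod p) V := Module.finite_of_finrank_pos (by omega)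
  set f : Module.End (ZMod p) V := (g : V →ₗ[ZMod p] V) with hf
  have hmonic := LinearMap.charpoly_monic f
  have hdeg : f.charpoly.natDegree = 2 := by rw [LinearMap.charpoly_natDegree, hV]
  -- the coefficients
  have hc0 : f.charpoly.coeff 0 = 1 := by
    have h1 := LinearMap.det_eq_sign_charpoly_coeff f
    rw [hV] at h1
    have h2 : LinearMap.det f = 1 := by
      rw [hf, ← LinearEquiv.coe_det, hdet, Units.val_one]
    rw [h2] at h1
    simpa using h1.symm
  have hroot : f.charpoly.IsRoot 1 := by
    rw [← Module.End.hasEigenvalue_iff_isRoot_charpoly]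
    refine Module.End.hasEigenvalue_of_hasEigenvector (x := v) ⟨?_, hv⟩
    rw [Module.End.mem_eigenspace_iff, one_smul]
    exact hgv
  have hpoly : f.charpoly = X ^ 2 + C (f.charpoly.coeff 1) * X + C (f.charpoly.coeff 0) := by
    have := hmonic.as_sum
    rw [hdeg] at this
    rw [this]
    simp [Finset.sum_range_succ]
    ring
  have hc1 : f.charpoly.coeff 1 = -2 := by
    have h := hroot
    rw [IsRoot.def, hpoly, hc0] at h
    simp at h
    linear_combination h
  have hcp : f.charpoly = (X - 1) ^ 2 := by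
    rw [hpoly, hc0, hc1]
    simp only [map_neg, map_one]
    rw [show (C (2 : ZMod p) : (ZMod p)[X]) = 2 from rfl]
    ring
  have hCH := LinearMap.aeval_self_charpoly f
  rw [hcp] at hCH
  simp only [map_pow, map_sub, aeval_X, map_one] at hCH
  have hsq : (f - 1) * (f - 1) = 0 := by rw [← sq]; exact hCH
  have hfp := pow_char_eq_one_of_sq_zero f hsq
  apply LinearEquiv.toLinearMap_injective
  have : ((g ^ p : V ≃ₗ[ZMod p] V) : V →ₗ[ZMod p] V) = f ^ p :=
    map_pow (LinearEquiv.automorphismGroup.toLinearMapMonoidHom (R := ZMod p) (M := V)) g p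
  rw [this, hfp]
  rfl

/-- `X^p - X` splits over `ZMod p`. -/
theorem splits_X_pow_sub_X : (X ^ p - X : (ZMod p)[X]).Splits := by
  have h1 : (X ^ p - X : (ZMod p)[X]) = ∏ a : ZMod p, (X - C a) := by
    have hne : (X ^ p - X : (ZMod p)[X]) ≠ 0 :=
      FiniteField.X_pow_card_sub_X_ne_zero (ZMod p) hp.out.one_lt
    have hroots : (X ^ p - X : (ZMod p)[X]).roots = Finset.univ.val := by
      have := FiniteField.roots_X_pow_card_sub_X (ZMod p)
      rwa [ZMod.card] at this
    have hmonic : (X ^ p - X : (ZMod p)[X]).Monic :=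
      monic_X_pow_sub (by rw [degree_X]; exact_mod_cast hp.out.one_lt)
    have hcard : Multiset.card (X ^ p - X : (ZMod p)[X]).roots = (X ^ p - X : (ZMod p)[X]).natDegree := by
      rw [hroots, FiniteField.X_pow_card_sub_X_natDegree_eq (ZMod p) hp.out.one_lt]
      simp [ZMod.card]
    have := Polynomial.prod_multiset_X_sub_C_of_monic_of_roots_card_eq hmonic hcard
    rw [hroots] at this
    rw [← this]
    rfl
  rw [h1]
  exact Splits.prod fun a _ => Splits.X_sub_C a

/-- [GT] A subgroup `G` of `GL(V)`, `dim V = 2` over `𝔽_p`, in which every element of prime order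
`r ≠ p` has a nonzero fixed vector, stabilises a line. -/
theorem exists_stable_line (hV : Module.finrank (ZMod p) V = 2) (G : Subgroup (V ≃ₗ[ZMod p] V))
    (hG : ∀ g ∈ G, ∀ r : ℕ, r.Prime → r ≠ p → orderOf g = r → ∃ v : V, v ≠ 0 ∧ g v = v) :
    ∃ N : Submodule (ZMod p) V, N ≠ ⊥ ∧ N ≠ ⊤ ∧ ∀ g ∈ G, ∀ v ∈ N, g v ∈ N := by
  have hfinM : Module.Finite (ZMod p) V := Module.finite_of_finrank_pos (by omega)
  have hfinV : Finite V := Module.finite_of_finite (ZMod p)
  have hfinE : Finite (V ≃ₗ[ZMod p] V) :=
    Finite.of_injective (fun g : V ≃ₗ[ZMod p] V => (g : V → V)) DFunLike.coe_injective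
  have hcardV : Nat.card V = p ^ 2 := by
    rw [Module.natCard_eq_pow_finrank (K := ZMod p), hV, Nat.card_zmod]
  set D : (V ≃ₗ[ZMod p] V) →* (ZMod p)ˣ := LinearEquiv.det with hD
  set N₁ : Subgroup (V ≃ₗ[ZMod p] V) := G ⊓ D.ker with hN₁def
  -- every element of `N₁` has `p`-power order
  have hpow : ∀ g ∈ N₁, ∃ k : ℕ, orderOf g = p ^ k := by
    intro g hg
    have hpos : orderOf g ≠ 0 := (orderOf_pos g).ne'
    refine ⟨_, Nat.eq_prime_pow_of_unique_prime_dvd hpos ?_⟩
    intro r hr hrd
    by_contra hrp
    set h := g ^ (orderOf g / r) with hh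
    have hord : orderOf h = r := orderOf_pow_orderOf_div hpos hrd
    have hhN : h ∈ N₁ := Subgroup.pow_mem _ hg _
    obtain ⟨v, hv, hhv⟩ := hG h hhN.1 r hr hrp hord
    have hdet : LinearEquiv.det h = 1 := hhN.2
    have h1 := pow_char_eq_one_of_det_of_fixed hV h hdet v hv hhv
    have h2 : r ∣ p := hord ▸ orderOf_dvd_of_pow_eq_one h1
    rcases (Nat.dvd_prime hp.out).mp h2 with h3 | h3
    · exact hr.one_lt.ne' h3
    · exact hrp h3
  by_cases hN₁ : N₁ = ⊥
  · -- `G` is commutative and of exponent dividing `p - 1`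
    have hcomm : ∀ g ∈ G, ∀ h ∈ G, g * h = h * g := by
      intro g hg h hh
      have hmem : g * h * g⁻¹ * h⁻¹ ∈ N₁ := by
        refine Subgroup.mem_inf.mpr
          ⟨G.mul_mem (G.mul_mem (G.mul_mem hg hh) (G.inv_mem hg)) (G.inv_mem hh),
            MonoidHom.mem_ker.mpr ?_⟩
        simp only [map_mul, map_inv]
        rw [mul_comm (D g) (D h), mul_inv_cancel_right, mul_inv_cancel]
      rw [hN₁, Subgroup.mem_bot] at hmem
      calc g * h = g * h * g⁻¹ * h⁻¹ * (h * g) := by group
        _ = h * g := by rw [hmem, one_mul]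
    have hexp : ∀ g ∈ G, g ^ p = g := by
      intro g hg
      have hmem : g ^ (p - 1) ∈ N₁ := by
        refine Subgroup.mem_inf.mpr ⟨G.pow_mem hg _, MonoidHom.mem_ker.mpr ?_⟩
        rw [map_pow, ZMod.units_pow_card_sub_one_eq_one]
      rw [hN₁, Subgroup.mem_bot] at hmem
      calc g ^ p = g ^ (p - 1 + 1) := by rw [Nat.sub_add_cancel hp.out.one_le]
        _ = g := by rw [pow_succ, hmem, one_mul]
    by_cases hsc : ∀ g ∈ G, ∃ a : ZMod p, ∀ v : V, g v = a • v
    · -- all scalars: any line works
      obtain ⟨v, hv⟩ : ∃ v : V, v ≠ 0 :=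
        (Module.finrank_pos_iff_exists_ne_zero (R := ZMod p)).mp (by rw [hV]; norm_num)
      refine ⟨Submodule.span (ZMod p) {v}, ?_, ?_, ?_⟩
      · intro h
        have : v ∈ Submodule.span (ZMod p) {v} := Submodule.mem_span_singleton_self v
        rw [h, Submodule.mem_bot] at this
        exact hv this
      · intro h
        have h1 : Module.finrank (ZMod p) (Submodule.span (ZMod p) {v}) = 1 :=
          finrank_span_singleton hv
        rw [h, finrank_top, hV] at h1
        omega
      · intro g hg w hw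
        obtain ⟨a, ha⟩ := hsc g hg
        rw [ha]
        exact Submodule.smul_mem _ _ hw
    · -- a non-scalar element `g₀`; take an eigenspace
      push Not at hsc
      obtain ⟨g₀, hg₀, hns⟩ := hsc
      set f : Module.End (ZMod p) V := (g₀ : V →ₗ[ZMod p] V) with hf
      have hfp : f ^ p = f := by
        have h1 : ((g₀ ^ p : V ≃ₗ[ZMod p] V) : V →ₗ[ZMod p] V) = f ^ p :=
          map_pow (LinearEquiv.automorphismGroup.toLinearMapMonoidHom (R := ZMod p) (M := V)) g₀ p
        rw [← h1, hexp g₀ hg₀]
      have hdvd : minpoly (ZMod p) f ∣ (X ^ p - X : (ZMod p)[X]) := by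
        refine minpoly.dvd (ZMod p) f ?_
        simp only [map_sub, map_pow, aeval_X]
        rw [hfp, sub_self]
      have hne : (X ^ p - X : (ZMod p)[X]) ≠ 0 :=
        FiniteField.X_pow_card_sub_X_ne_zero (ZMod p) hp.out.one_lt
      have hsplit : (minpoly (ZMod p) f).Splits := Splits.of_dvd splits_X_pow_sub_X hne hdvd
      have hint : IsIntegral (ZMod p) f := Algebra.IsIntegral.isIntegral f
      have : Nontrivial V := Module.nontrivial_of_finrank_pos (R := ZMod p) (by omega)
      obtain ⟨μ, hμ⟩ := hsplit.exists_eval_eq_zero (minpoly.degree_pos hint).ne'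
      have heig : f.HasEigenvalue μ := Module.End.hasEigenvalue_of_isRoot hμ
      refine ⟨Module.End.eigenspace f μ, heig, ?_, ?_⟩
      · intro htop
        obtain ⟨v, hv⟩ := hns μ
        apply hv
        have : v ∈ Module.End.eigenspace f μ := by rw [htop]; trivial
        rwa [Module.End.mem_eigenspace_iff] at this
      · intro g hg v hv
        rw [Module.End.mem_eigenspace_iff] at hv ⊢
        have h1 : g₀ (g v) = g (g₀ v) := by
          have := hcomm g₀ hg₀ g hg
          exact congrArg (fun e : V ≃ₗ[ZMod p] V => e v) this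
        have h2 : g₀ v = μ • v := hv
        show g₀ (g v) = μ • g v
        rw [h1, h2, map_smul]
  · -- `N₁` is a nontrivial normal `p`-subgroup: take its fixed vectors
    have hPG : IsPGroup p N₁ := by
      rw [IsPGroup.iff_orderOf]
      intro g
      obtain ⟨k, hk⟩ := hpow g g.2
      exact ⟨k, by rw [← hk, Subgroup.orderOf_coe]⟩
    have hzero : (0 : V) ∈ MulAction.fixedPoints N₁ V := by
      intro g
      show (g : V ≃ₗ[ZMod p] V) (0 : V) = 0
      exact map_zero _
    have hdvd : p ∣ Nat.card V := by rw [hcardV]; exact dvd_pow_self p two_ne_zero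
    obtain ⟨b, hb, hb0⟩ := hPG.exists_fixed_point_of_prime_dvd_card_of_fixed_point V hdvd hzero
    let N : Submodule (ZMod p) V :=
      { carrier := {v | ∀ h ∈ N₁, h v = v}
        add_mem' := fun {a c} ha hc h hh => by rw [map_add, ha h hh, hc h hh]
        zero_mem' := fun h _ => map_zero h
        smul_mem' := fun c v hv h hh => by rw [map_smul, hv h hh] }
    have hmemN : ∀ v : V, v ∈ N ↔ ∀ h ∈ N₁, h v = v := fun v => Iff.rfl
    refine ⟨N, ?_, ?_, ?_⟩
    · intro hbot
      have hbN : b ∈ N := by
        rw [hmemN]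
        intro h hh
        exact hb ⟨h, hh⟩
      rw [hbot, Submodule.mem_bot] at hbN
      exact hb0 hbN.symm
    · intro htop
      apply hN₁
      rw [Subgroup.eq_bot_iff_forall]
      intro h hh
      ext v
      have : v ∈ N := by rw [htop]; trivial
      exact (hmemN v).mp this h hh
    · intro g hg v hv
      rw [hmemN] at hv ⊢
      intro h hh
      have hconj : g⁻¹ * h * g ∈ N₁ := by
        have hh2 : D h = 1 := hh.2
        refine Subgroup.mem_inf.mpr
          ⟨G.mul_mem (G.mul_mem (G.inv_mem hg) hh.1) hg, MonoidHom.mem_ker.mpr ?_⟩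
        simp only [map_mul, map_inv]
        rw [hh2, mul_one, inv_mul_cancel]
      have h1 := hv _ hconj
      have h2 : (g⁻¹ * h * g) v = g⁻¹ (h (g v)) := rfl
      rw [h2] at h1
      have h3 : g (g⁻¹ (h (g v))) = h (g v) := by
        show (g * g⁻¹) (h (g v)) = h (g v)
        rw [mul_inv_cancel]
        rfl
      rw [← h3, h1]

end Fermat.Agent.S41.GT
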