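/-
S41 / [T1] — T1Short.lean (helper97).
`card_torsion_short`: over an algebraically closed field of characteristic zero the short curve
`y² = x³ + αx² + βx` (`β ≠ 0`, `α² - 4β ≠ 0`) has exactly `p²` points killed by a prime `p`.

Upper bound: `S13.MPoly.card_torsion_lt` + `S13.MDeg.finite_ncard_le_sq`.
Lower bound (generic fibre): for `c` outside a finite set the polynomial `num_p - c·den_p` is
separable of degree `p²`; each root `ξ` is the `x`-coordinate of a point `T` with `p • T = R`
(`x_R = c`), so the coset `[p]⁻¹(R)` of the `p`-torsion has at least `p²` elements.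
-/
import Fermat.Agent.S13.MPolySpec
import Fermat.Agent.S13.MDeg

set_option autoImplicit false

namespace Fermat.Agent.S41.T1Short

open Polynomial WeierstrassCurve
open Fermat.Agent.S05 Fermat.Agent.S13.MPoly

variable {L : Type*} [Field L] [CharZero L] [IsAlgClosed L]

/-- The Wronskian `num' · den - num · den'` of the multiplication-by-`k` map is nonzero. -/
theorem wronskian_ne_zero {α β : L} (hβ : β ≠ 0) (hd : α ^ 2 - 4 * β ≠ 0) {k : ℕ} (hk : k ≠ 0) :
    derivative (num α β k) * den α β k - num α β k * derivative (den α β k) ≠ 0 := by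
  intro h0
  have hmonic := num_monic hβ hd k
  have hdeg : (num α β k).natDegree = k ^ 2 := natDegree_num hβ hd k
  have hcop := isCoprime_num_den hβ hd k
  have hdvd : num α β k ∣ derivative (num α β k) * den α β k :=
    ⟨derivative (den α β k), by linear_combination h0⟩
  have hdvd' : num α β k ∣ derivative (num α β k) := hcop.dvd_of_dvd_mul_right hdvd
  have hk2 : k ^ 2 ≠ 0 := pow_ne_zero 2 hk
  have hder0 : derivative (num α β k) = 0 := by
    by_contra hne
    have h1 := natDegree_le_of_dvd hdvd' hne
    have h2 : (derivative (num α β k)).natDegree < (num α β k).natDegree :=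
      natDegree_derivative_lt (by rw [hdeg]; exact hk2)
    omega
  have := Polynomial.derivative_eq_zero.mp hder0
  rw [hdeg] at this
  exact hk2 this

variable [DecidableEq L]

/-- Every root `ξ` of `num_p - c·den_p` is the `x`-coordinate of a point `T` with `p • T = R`,
where `R` is a fixed point with `x_R = c`. -/
theorem exists_point_nsmul_eq {α β : L} (hβ : β ≠ 0) (hd : α ^ 2 - 4 * β ≠ 0) (p : ℕ)
    (R : (shortCurve α β).toAffine.Point) (hR : R ≠ 0) (ξ : L)
    (hξ : (num α β p - C (PB.xco R) * den α β p).eval ξ = 0) :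
    ∃ T : (shortCurve α β).toAffine.Point, PB.xco T = ξ ∧ p • T = R := by
  obtain ⟨T, hT, hx⟩ := exists_point hβ hd two_ne_zero ξ
  have hξ' : (num α β p).eval ξ = PB.xco R * (den α β p).eval ξ := by
    simpa [sub_eq_zero] using hξ
  have hden : (den α β p).eval ξ ≠ 0 := by
    intro h0
    rcases eval_ne_zero_or hβ hd p ξ with h | h
    · rw [hξ', h0, mul_zero] at h
      exact h rfl
    · exact h h0
  obtain ⟨hs1, hs2⟩ := spec hβ hd T hT p
  rw [hx] at hs1 hs2
  have hpT : p • T ≠ 0 := fun h => hden (hs1.mp h)
  have hxco : PB.xco (p • T) = PB.xco R := by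
    have := hs2 hpT
    rw [hξ'] at this
    exact mul_right_cancel₀ hden this
  rcases PB.eq_or_eq_neg_of_xco_eq hpT hR hxco with h | h
  · exact ⟨T, hx, h⟩
  · refine ⟨-T, by rw [PB.xco_neg, hx], ?_⟩
    rw [smul_neg, h, neg_neg]

/-- **[T1], short model**: exactly `p²` points of the short curve are killed by a prime `p`. -/
theorem card_torsion_short (α β : L) (hβ : β ≠ 0) (hd : α ^ 2 - 4 * β ≠ 0) (p : ℕ)
    (hp : p.Prime) :
    Nat.card (Submodule.torsionBy ℤ (shortCurve α β).toAffine.Point p) = p ^ 2 := by
  classical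
  -- the torsion as a set
  have hset : ((Submodule.torsionBy ℤ (shortCurve α β).toAffine.Point (p : ℤ) :
      Submodule ℤ (shortCurve α β).toAffine.Point) : Set (shortCurve α β).toAffine.Point) =
      {T | p • T = 0} := by
    ext T
    simp
  obtain ⟨hfin, hle⟩ := Fermat.Agent.S13.MDeg.finite_ncard_le_sq
    (G := (shortCurve α β).toAffine.Point) p hp
    (fun S hS => card_torsion_lt α β hβ hd p hp.two_le S hS)
  have hcard : Nat.card (Submodule.torsionBy ℤ (shortCurve α β).toAffine.Point (p : ℤ)) =
      {T : (shortCurve α β).toAffine.Point | p • T = 0}.ncard := by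
    rw [← hset]
    rfl
  rw [hcard]
  refine le_antisymm hle ?_
  -- lower bound
  set n := num α β p with hn
  set d := den α β p with hdn
  set w := derivative n * d - n * derivative d with hw
  have hw0 : w ≠ 0 := wronskian_ne_zero hβ hd hp.ne_zero
  -- choose a good constant
  let B : Finset L := w.roots.toFinset.image fun ξ => n.eval ξ / d.eval ξ
  obtain ⟨c, hc⟩ := Infinite.exists_notMem_finset B
  obtain ⟨R, hR, hxR⟩ := exists_point hβ hd two_ne_zero c
  set f := n - C c * d with hf
  have hnmonic : n.Monic := num_monic hβ hd p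
  have hndeg : n.natDegree = p ^ 2 := natDegree_num hβ hd p
  have hddeg : d.natDegree + 1 = p ^ 2 := natDegree_den hβ hd hp.ne_zero
  have hp2 : 0 < p ^ 2 := pos_of_ne_zero (pow_ne_zero 2 hp.ne_zero)
  have hdeglt : (C c * d).degree < n.degree := by
    have h1 : (C c * d).natDegree ≤ d.natDegree := natDegree_C_mul_le c d
    have hn0 : n ≠ 0 := hnmonic.ne_zero
    rw [degree_eq_natDegree hn0]
    refine lt_of_le_of_lt degree_le_natDegree ?_
    rw [Nat.cast_lt]
    omega
  have hfmonic : f.Monic := hnmonic.sub_of_left hdeglt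
  have hfdeg : f.natDegree = p ^ 2 := by
    rw [hf, natDegree_sub_eq_left_of_natDegree_lt (by
      have h1 : (C c * d).natDegree ≤ d.natDegree := natDegree_C_mul_le c d
      omega), hndeg]
  -- separability
  have hsep : f.Separable := by
    rw [separable_def, isCoprime_iff_aeval_ne_zero_of_isAlgClosed L L]
    intro ξ
    by_contra hcon
    push Not at hcon
    obtain ⟨h1, h2⟩ := hcon
    simp only [coe_aeval_eq_eval] at h1 h2
    have e1 : n.eval ξ = c * d.eval ξ := by
      have := h1
      rw [hf] at this
      simpa [sub_eq_zero] using this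
    have e2 : (derivative n).eval ξ = c * (derivative d).eval ξ := by
      have := h2
      rw [hf] at this
      simpa [sub_eq_zero] using this
    have hdξ : d.eval ξ ≠ 0 := by
      intro h0
      rcases eval_ne_zero_or hβ hd p ξ with h | h
      · rw [← hn, e1, h0, mul_zero] at h
        exact h rfl
      · exact h h0
    have hwξ : w.eval ξ = 0 := by
      rw [hw]
      simp only [eval_sub, eval_mul]
      rw [e1, e2]
      ring
    apply hc
    refine Finset.mem_image.mpr ⟨ξ, ?_, ?_⟩
    · rw [Multiset.mem_toFinset, mem_roots hw0]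
      exact hwξ
    · rw [e1]
      field_simp
  -- the roots
  have hroots_card : f.roots.toFinset.card = p ^ 2 := by
    rw [Multiset.toFinset_card_of_nodup (nodup_roots hsep),
      ← hfdeg]
    exact IsAlgClosed.card_roots_eq_natDegree
  -- points of the fibre
  have hex : ∀ ξ ∈ f.roots.toFinset, ∃ T : (shortCurve α β).toAffine.Point,
      PB.xco T = ξ ∧ p • T = R := by
    intro ξ hξ
    rw [Multiset.mem_toFinset, mem_roots hfmonic.ne_zero] at hξ
    exact exists_point_nsmul_eq hβ hd p R hR ξ (by rw [hxR]; exact hξ)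
  choose! g hg using hex
  have hginj : Set.InjOn g (f.roots.toFinset : Set L) := by
    intro ξ hξ ξ' hξ' h
    rw [← (hg ξ hξ).1, ← (hg ξ' hξ').1, h]
  have hne : f.roots.toFinset.Nonempty := by
    rw [← Finset.card_pos, hroots_card]
    exact hp2
  obtain ⟨ξ₀, hξ₀⟩ := hne
  let S : Finset (shortCurve α β).toAffine.Point :=
    f.roots.toFinset.image fun ξ => g ξ - g ξ₀
  have hScard : S.card = p ^ 2 := by
    rw [Finset.card_image_of_injOn, hroots_card]
    intro ξ hξ ξ' hξ' h
    exact hginj hξ hξ' (sub_left_injective h)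
  have hSsub : (S : Set (shortCurve α β).toAffine.Point) ⊆ {T | p • T = 0} := by
    intro T hT
    obtain ⟨ξ, hξ, rfl⟩ := Finset.mem_image.mp (Finset.mem_coe.mp hT)
    simp only [Set.mem_ofPred_eq]
    rw [smul_sub, (hg ξ hξ).2, (hg ξ₀ hξ₀).2, sub_self]
  calc p ^ 2 = S.card := hScard.symm
    _ = (S : Set (shortCurve α β).toAffine.Point).ncard := (Set.ncard_coe_finset S).symm
    _ ≤ _ := Set.ncard_le_ncard hSsub hfin

end Fermat.Agent.S41.T1Short
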