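/-
S41 / [DIV] — Div.lean (helper97).
`inE1_divisible_short`: on the short curve over an algebraically closed field `L` of
characteristic zero, the kernel of reduction `E₁` (w.r.t. a valuation subring `A`) is
`p`-divisible as soon as `p` is a unit of `A` and `num_p` has `A`-integral coefficients.

Proof: for `R ∈ E₁`, `R ≠ 0`, `c = x_R ∉ A`; the monic polynomial `num_p - c·den_p` of degree `p²`
has next coefficient `n₁ - c·p² ∉ A`, so (Vieta) one of its roots `ξ` is not in `A`; the point `T`
with `x_T = ξ` and `p • T = R` lies in `E₁`.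
-/
import Fermat.Agent.S41.T1Short

set_option autoImplicit false

namespace Fermat.Agent.S41.Div

open Polynomial WeierstrassCurve
open Fermat.Agent.S05 Fermat.Agent.S13.MPoly

variable {L : Type*} [Field L] [CharZero L] [IsAlgClosed L] [DecidableEq L]

/-- **[DIV]**: `E₁` of the short model is `p`-divisible. -/
theorem inE1_divisible_short (A : ValuationSubring L) (α β : L) (hβ : β ≠ 0)
    (hd : α ^ 2 - 4 * β ≠ 0) (p : ℕ) (hp : 0 < p) (hpA : A.valuation (p : L) = 1)
    (hnum : ∀ i, (num α β p).coeff i ∈ A) (R : (shortCurve α β).toAffine.Point)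
    (hR : InE1 A R) :
    ∃ Q : (shortCurve α β).toAffine.Point, InE1 A Q ∧ p • Q = R := by
  classical
  rcases R with _ | ⟨c, y, h⟩
  · exact ⟨0, trivial, smul_zero p⟩
  have hcA : c ∉ A := hR
  set R : (shortCurve α β).toAffine.Point := Affine.Point.some c y h with hRdef
  have hRne : R ≠ 0 := Affine.Point.some_ne_zero _
  have hxR : PB.xco R = c := rfl
  set n := num α β p with hn
  set d := den α β p with hdn
  set f := n - C c * d with hf
  have hp0 : p ≠ 0 := hp.ne'
  have hnmonic : n.Monic := num_monic hβ hd p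
  have hndeg : n.natDegree = p ^ 2 := natDegree_num hβ hd p
  have hddeg : d.natDegree + 1 = p ^ 2 := natDegree_den hβ hd hp0
  have hdlc : d.leadingCoeff = (p : L) ^ 2 := leadingCoeff_den hβ hd p
  have hp2 : 0 < p ^ 2 := pos_of_ne_zero (pow_ne_zero 2 hp0)
  have hCd : (C c * d).natDegree ≤ d.natDegree := natDegree_C_mul_le c d
  have hdeglt : (C c * d).degree < n.degree := by
    rw [degree_eq_natDegree hnmonic.ne_zero]
    refine lt_of_le_of_lt degree_le_natDegree ?_
    rw [Nat.cast_lt]
    omega
  have hfmonic : f.Monic := hnmonic.sub_of_left hdeglt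
  have hfdeg : f.natDegree = p ^ 2 := by
    rw [hf, natDegree_sub_eq_left_of_natDegree_lt (by omega), hndeg]
  -- the next coefficient
  have hnext : f.nextCoeff = n.coeff (p ^ 2 - 1) - c * (p : L) ^ 2 := by
    rw [nextCoeff_of_natDegree_pos (by rw [hfdeg]; exact hp2), hfdeg, hf, coeff_sub, coeff_C_mul]
    congr 2
    have : p ^ 2 - 1 = d.natDegree := by omega
    rw [this, coeff_natDegree, hdlc]
  -- Vieta
  have hsum : f.nextCoeff = -f.roots.sum :=
    (IsAlgClosed.splits f).nextCoeff_eq_neg_sum_roots_of_monic hfmonic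
  -- some root is not integral
  have hpinv : ((p : L) ^ 2)⁻¹ ∈ A := by
    rw [← A.valuation_le_one_iff, map_inv₀, map_pow, hpA, one_pow, inv_one]
  have hpne : ((p : L) ^ 2) ≠ 0 := pow_ne_zero 2 (Nat.cast_ne_zero.mpr hp0)
  obtain ⟨ξ, hξroot, hξA⟩ : ∃ ξ ∈ f.roots, ξ ∉ A := by
    by_contra hall
    push Not at hall
    have hsumA : f.roots.sum ∈ A := by
      have : ∀ (m : Multiset L), (∀ x ∈ m, x ∈ A) → m.sum ∈ A := by
        intro m
        induction m using Multiset.induction_on with
        | empty => intro _; simp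
        | cons a m ih =>
          intro hm
          rw [Multiset.sum_cons]
          exact A.add_mem _ _ (hm a (Multiset.mem_cons_self a m))
            (ih fun x hx => hm x (Multiset.mem_cons_of_mem hx))
      exact this _ hall
    have h1 : c * (p : L) ^ 2 ∈ A := by
      have e : c * (p : L) ^ 2 = n.coeff (p ^ 2 - 1) + f.roots.sum := by
        have := hnext
        rw [hsum] at this
        linear_combination this
      rw [e]
      exact A.add_mem _ _ (hnum _) hsumA
    apply hcA
    have e2 : c = c * (p : L) ^ 2 * ((p : L) ^ 2)⁻¹ := by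
      field_simp
    rw [e2]
    exact A.mul_mem _ _ h1 hpinv
  have hξ0 : f.eval ξ = 0 := (mem_roots hfmonic.ne_zero).mp hξroot
  obtain ⟨T, hxT, hpT⟩ := T1Short.exists_point_nsmul_eq hβ hd p R hRne ξ (by rw [hxR]; exact hξ0)
  refine ⟨T, ?_, hpT⟩
  rcases T with _ | ⟨x', y', h'⟩
  · exfalso
    apply hRne
    rw [← hpT]
    exact smul_zero p
  · change x' ∉ A
    have : x' = ξ := hxT
    rw [this]
    exact hξA

end Fermat.Agent.S41.Div
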