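/-
S41 team, block [NE]/[RED] (owner: helper96).

Reduction of points of a Weierstrass curve with good reduction at a valuation subring `A` of a
field `K`: the map `W(K) → W̃(k)` (`k` the residue field) is a group homomorphism whose kernel is
the kernel of reduction `InE1` of the S05 library, and it is surjective when `K` is algebraically
closed.
-/
import Mathlib
import Fermat.Agent.S05.FormalGroup
import Fermat.Agent.S05.Reduction

set_option autoImplicit false

namespace Fermat.Agent.S41.Red

open WeierstrassCurve WeierstrassCurve.Affine IsLocalRing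
open Fermat.Agent.S05

section Basic

variable {K : Type*} [Field K] (A : ValuationSubring K)

theorem res_eq_zero_iff (a : A) : residue A a = 0 ↔ (a : K) ∈ A.nonunits := by
  rw [IsLocalRing.residue_eq_zero_iff, ValuationSubring.mem_nonunits_iff_exists_mem_maximalIdeal]
  constructor
  · intro h
    exact ⟨a.2, h⟩
  · rintro ⟨_, h⟩
    exact h

theorem res_eq_iff (a b : A) : residue A a = residue A b ↔ (a : K) - b ∈ A.nonunits := by
  rw [← sub_eq_zero, ← map_sub, res_eq_zero_iff]
  rfl

theorem res_ne_zero_iff (a : A) : residue A a ≠ 0 ↔ IsUnit a := by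
  rw [Ne, IsLocalRing.residue_eq_zero_iff, IsLocalRing.mem_maximalIdeal, mem_nonunits_iff,
    not_not]

theorem not_mem_of_div {n d : K} (hn' : n ∉ A.nonunits) (hd : d ∈ A.nonunits)
    (hd0 : d ≠ 0) : n / d ∉ A := by
  intro h
  apply hn'
  have : n = n / d * d := by field_simp
  rw [this]
  exact Reduction.mul_mem_nonunits A h hd

end Basic

section Curve

variable {K : Type*} [Field K] (A : ValuationSubring K) (WA : WeierstrassCurve A)

theorem coe_a₁ : (WA.map (algebraMap A K)).a₁ = (WA.a₁ : K) := rfl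
theorem coe_a₂ : (WA.map (algebraMap A K)).a₂ = (WA.a₂ : K) := rfl
theorem coe_a₃ : (WA.map (algebraMap A K)).a₃ = (WA.a₃ : K) := rfl
theorem coe_a₄ : (WA.map (algebraMap A K)).a₄ = (WA.a₄ : K) := rfl
theorem coe_a₆ : (WA.map (algebraMap A K)).a₆ = (WA.a₆ : K) := rfl

theorem coe_two : ((2 : A) : K) = 2 := rfl
theorem coe_three : ((3 : A) : K) = 3 := rfl

/-- The `y`-coordinate of a point with integral `x`-coordinate is integral. -/
theorem y_mem {x y : K} (h : (WA.map (algebraMap A K)).toAffine.Equation x y) (hx : x ∈ A) :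
    y ∈ A := by
  rw [Affine.equation_iff, coe_a₁, coe_a₂, coe_a₃, coe_a₄, coe_a₆] at h
  by_contra hy
  have hy0 : y ≠ 0 := fun h0 => hy (h0 ▸ A.zero_mem)
  have hinv : y⁻¹ ∈ A := (A.mem_or_inv_mem y).resolve_left hy
  apply hy
  have : y = ((x ^ 3 + (WA.a₂ : K) * x ^ 2 + (WA.a₄ : K) * x + (WA.a₆ : K)) * y⁻¹
      - (WA.a₁ : K) * x - (WA.a₃ : K)) := by
    field_simp
    linear_combination h
  rw [this]
  exact sub_mem (sub_mem (mul_mem (add_mem (add_mem (add_mem (pow_mem hx 3)
    (mul_mem WA.a₂.2 (pow_mem hx 2))) (mul_mem WA.a₄.2 hx)) WA.a₆.2) hinv)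
    (mul_mem WA.a₁.2 hx)) WA.a₃.2

theorem equation_of_coe {a b : A}
    (h : (WA.map (algebraMap A K)).toAffine.Equation (a : K) (b : K)) :
    WA.toAffine.Equation a b :=
  (Affine.map_equation WA (f := algebraMap A K) (FaithfulSMul.algebraMap_injective A K) a b).mp h

theorem resΔ_ne_zero (hΔ : IsUnit WA.Δ) : (WA.map (residue A)).Δ ≠ 0 := by
  rw [WeierstrassCurve.map_Δ]
  exact (res_ne_zero_iff A _).mpr hΔ

theorem coeΔ_ne_zero (hΔ : IsUnit WA.Δ) : (WA.map (algebraMap A K)).Δ ≠ 0 := by
  rw [WeierstrassCurve.map_Δ]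
  intro h0
  have : WA.Δ = 0 := FaithfulSMul.algebraMap_injective A K (by rw [h0, map_zero])
  rw [this] at hΔ
  exact not_isUnit_zero hΔ

theorem nonsingular_res (hΔ : IsUnit WA.Δ) {a b : A}
    (h : (WA.map (algebraMap A K)).toAffine.Equation (a : K) (b : K)) :
    (WA.map (residue A)).toAffine.Nonsingular (residue A a) (residue A b) :=
  (Affine.equation_iff_nonsingular_of_Δ_ne_zero (resΔ_ne_zero A WA hΔ)).mp
    ((equation_of_coe A WA h).map (residue A))

/-- The reduction map on points. -/
noncomputable def redFun (hΔ : IsUnit WA.Δ) :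
    (WA.map (algebraMap A K)).toAffine.Point → (WA.map (residue A)).toAffine.Point
  | .zero => .zero
  | .some x y h => open Classical in
      if hx : x ∈ A then
        .some (residue A ⟨x, hx⟩) (residue A ⟨y, y_mem A WA h.1 hx⟩)
          (nonsingular_res A WA hΔ (a := ⟨x, hx⟩) (b := ⟨y, y_mem A WA h.1 hx⟩) h.1)
      else .zero

theorem redFun_zero (hΔ : IsUnit WA.Δ) : redFun A WA hΔ 0 = 0 := rfl

theorem redFun_some (hΔ : IsUnit WA.Δ) {x y : K}
    (h : (WA.map (algebraMap A K)).toAffine.Nonsingular x y) (a b : A) (hx : x = a) (hy : y = b) :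
    ∃ h' : (WA.map (residue A)).toAffine.Nonsingular (residue A a) (residue A b),
      redFun A WA hΔ (Point.some x y h) = Point.some _ _ h' := by
  subst hx hy
  refine ⟨nonsingular_res A WA hΔ h.1, ?_⟩
  simp only [redFun, dif_pos a.2]

theorem redFun_some_of_not_mem (hΔ : IsUnit WA.Δ) {x y : K}
    (h : (WA.map (algebraMap A K)).toAffine.Nonsingular x y) (hx : x ∉ A) :
    redFun A WA hΔ (Point.some x y h) = 0 := by
  simp only [redFun, dif_neg hx]
  rfl

theorem redFun_eq_zero_iff (hΔ : IsUnit WA.Δ) (P : (WA.map (algebraMap A K)).toAffine.Point) :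
    redFun A WA hΔ P = 0 ↔ InE1 A P := by
  rcases P with _ | ⟨x, y, h⟩
  · exact ⟨fun _ => trivial, fun _ => rfl⟩
  · by_cases hx : x ∈ A
    · obtain ⟨h', e⟩ := redFun_some A WA hΔ h ⟨x, hx⟩ ⟨y, y_mem A WA h.1 hx⟩ rfl rfl
      rw [e]
      exact ⟨fun h0 => absurd h0 (Point.some_ne_zero _), fun h0 => absurd hx h0⟩
    · rw [redFun_some_of_not_mem A WA hΔ h hx]
      exact ⟨fun _ => hx, fun _ => rfl⟩

/-- A point outside the kernel of reduction has integral coordinates. -/
theorem exists_lift {P : (WA.map (algebraMap A K)).toAffine.Point} (hP : ¬ InE1 A P) :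
    ∃ (a b : A) (h : (WA.map (algebraMap A K)).toAffine.Nonsingular (a : K) (b : K)),
      P = Point.some _ _ h := by
  rcases P with _ | ⟨x, y, h⟩
  · exact absurd trivial hP
  · have hx : x ∈ A := not_not.mp hP
    exact ⟨⟨x, hx⟩, ⟨y, y_mem A WA h.1 hx⟩, h, rfl⟩

theorem some_eq_some {F : Type*} [Field F] {W : WeierstrassCurve F} {x y x' y' : F}
    (h : W.toAffine.Nonsingular x y) (h' : W.toAffine.Nonsingular x' y') (hx : x = x')
    (hy : y = y') : Point.some x y h = Point.some x' y' h' := by
  subst hx hy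
  rfl

variable [DecidableEq K] [DecidableEq (ResidueField A)]

omit [DecidableEq K] [DecidableEq (ResidueField A)] in
theorem redFun_neg (hΔ : IsUnit WA.Δ) (P : (WA.map (algebraMap A K)).toAffine.Point) :
    redFun A WA hΔ (-P) = -redFun A WA hΔ P := by
  rcases P with _ | ⟨x, y, h⟩
  · rfl
  · by_cases hx : x ∈ A
    · have hy := y_mem A WA h.1 hx
      obtain ⟨h1, e1⟩ := redFun_some A WA hΔ h ⟨x, hx⟩ ⟨y, hy⟩ rfl rfl
      rw [e1, Point.neg_some, Point.neg_some]
      obtain ⟨h2, e2⟩ := redFun_some A WA hΔ ((Affine.nonsingular_neg ..).mpr h) ⟨x, hx⟩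
        (WA.toAffine.negY ⟨x, hx⟩ ⟨y, hy⟩) rfl
        (Affine.map_negY (algebraMap A K) ⟨x, hx⟩ ⟨y, hy⟩).symm
      rw [e2]
      exact some_eq_some _ _ rfl (Affine.map_negY ..).symm
    · rw [redFun_some_of_not_mem A WA hΔ h hx, Point.neg_some,
        redFun_some_of_not_mem A WA hΔ _ hx]
      rfl

/-- Sum of two integral points with distinct `x`-coordinates modulo the maximal ideal. -/
theorem redFun_add_of_res_ne (hΔ : IsUnit WA.Δ) {a₁ b₁ a₂ b₂ : A}
    (h₁ : (WA.map (algebraMap A K)).toAffine.Nonsingular (a₁ : K) (b₁ : K))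
    (h₂ : (WA.map (algebraMap A K)).toAffine.Nonsingular (a₂ : K) (b₂ : K))
    (hne : residue A a₁ ≠ residue A a₂) :
    redFun A WA hΔ (Point.some _ _ h₁ + Point.some _ _ h₂) =
      redFun A WA hΔ (Point.some _ _ h₁) + redFun A WA hΔ (Point.some _ _ h₂) := by
  have hu : IsUnit (a₁ - a₂) := by
    rw [← res_ne_zero_iff, map_sub]
    exact sub_ne_zero.mpr hne
  obtain ⟨u, hu⟩ := hu
  set L : A := (b₁ - b₂) * ↑u⁻¹ with hL
  have hxK : (a₁ : K) ≠ a₂ := by
    intro h
    exact hne (by rw [Subtype.ext h])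
  have hLu : L * (a₁ - a₂) = b₁ - b₂ := by
    rw [hL, ← hu, mul_assoc, Units.inv_mul, mul_one]
  have hslopeK : (WA.map (algebraMap A K)).toAffine.slope (a₁ : K) a₂ b₁ b₂ = (L : K) := by
    rw [Affine.slope_of_X_ne hxK, div_eq_iff (sub_ne_zero.mpr hxK)]
    have := congrArg (fun t : A => (t : K)) hLu
    simpa using this.symm
  have hslopek : (WA.map (residue A)).toAffine.slope (residue A a₁) (residue A a₂) (residue A b₁)
      (residue A b₂) = residue A L := by
    rw [Affine.slope_of_X_ne hne, div_eq_iff (sub_ne_zero.mpr hne), ← map_sub, ← map_sub,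
      ← map_mul, hLu]
  obtain ⟨h1, e1⟩ := redFun_some A WA hΔ h₁ a₁ b₁ rfl rfl
  obtain ⟨h2, e2⟩ := redFun_some A WA hΔ h₂ a₂ b₂ rfl rfl
  rw [e1, e2, Point.add_of_X_ne hxK, Point.add_of_X_ne hne]
  obtain ⟨h3, e3⟩ := redFun_some A WA hΔ
    (Affine.nonsingular_add h₁ h₂ fun hxy => hxK hxy.left)
    (WA.toAffine.addX a₁ a₂ L) (WA.toAffine.addY a₁ a₂ b₁ L)
    (by rw [hslopeK]; exact Affine.map_addX (algebraMap A K) a₁ a₂ L)
    (by rw [hslopeK]; exact Affine.map_addY (algebraMap A K) a₁ b₁ a₂ L)
  rw [e3]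
  refine some_eq_some _ _ ?_ ?_
  · rw [hslopek, Affine.map_addX]
  · rw [hslopek, Affine.map_addY]

omit [DecidableEq K] [DecidableEq (ResidueField A)] in
theorem coe_negY (a b : A) :
    (WA.map (algebraMap A K)).toAffine.negY (a : K) b = ((WA.toAffine.negY a b : A) : K) :=
  Affine.map_negY (algebraMap A K) a b

omit [DecidableEq K] [DecidableEq (ResidueField A)] in
theorem coe_sub_negY (a b : A) :
    (b : K) - (WA.map (algebraMap A K)).toAffine.negY (a : K) b =
      ((2 * b + WA.a₁ * a + WA.a₃ : A) : K) := by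
  simp only [Affine.negY, coe_a₁, coe_a₃]
  push_cast
  rw [coe_two]
  ring

omit [DecidableEq K] [DecidableEq (ResidueField A)] in
theorem res_sub_negY (a b : A) :
    residue A b - (WA.map (residue A)).toAffine.negY (residue A a) (residue A b) =
      residue A (2 * b + WA.a₁ * a + WA.a₃) := by
  simp only [Affine.negY, WeierstrassCurve.map_a₁, WeierstrassCurve.map_a₃, map_add, map_mul,
    map_ofNat]
  ring

/-- Doubling of an integral point whose reduction is not `2`-torsion. -/
theorem redFun_dbl_of_unit (hΔ : IsUnit WA.Δ) {a b : A}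
    (h : (WA.map (algebraMap A K)).toAffine.Nonsingular (a : K) (b : K))
    (hD : residue A (2 * b + WA.a₁ * a + WA.a₃) ≠ 0) :
    redFun A WA hΔ (Point.some _ _ h + Point.some _ _ h) =
      redFun A WA hΔ (Point.some _ _ h) + redFun A WA hΔ (Point.some _ _ h) := by
  obtain ⟨u, hu⟩ := (res_ne_zero_iff A _).mp hD
  set L : A := (3 * a ^ 2 + 2 * WA.a₂ * a + WA.a₄ - WA.a₁ * b) * ↑u⁻¹ with hL
  have hLu : L * (2 * b + WA.a₁ * a + WA.a₃) =
      3 * a ^ 2 + 2 * WA.a₂ * a + WA.a₄ - WA.a₁ * b := by
    rw [hL, ← hu, mul_assoc, Units.inv_mul, mul_one]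
  have hDK0 : ((2 * b + WA.a₁ * a + WA.a₃ : A) : K) ≠ 0 := by
    intro h0
    apply hD
    have : (2 * b + WA.a₁ * a + WA.a₃ : A) = 0 := Subtype.ext h0
    rw [this, map_zero]
  have hyK : (b : K) ≠ (WA.map (algebraMap A K)).toAffine.negY (a : K) b := by
    intro h0
    apply hDK0
    rw [← coe_sub_negY, ← h0, sub_self]
  have hyk : residue A b ≠ (WA.map (residue A)).toAffine.negY (residue A a) (residue A b) := by
    intro h0
    apply hD
    rw [← res_sub_negY, ← h0, sub_self]
  have hslopeK : (WA.map (algebraMap A K)).toAffine.slope (a : K) a b b = (L : K) := by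
    rw [Affine.slope_of_Y_ne rfl hyK, coe_sub_negY, div_eq_iff hDK0, coe_a₁, coe_a₂, coe_a₄]
    have e : (L : K) * ((2 * b + WA.a₁ * a + WA.a₃ : A) : K) =
        ((3 * a ^ 2 + 2 * WA.a₂ * a + WA.a₄ - WA.a₁ * b : A) : K) := by
      rw [← hLu]
      rfl
    rw [e]
    push_cast
    rw [coe_two, coe_three]
  have hslopek : (WA.map (residue A)).toAffine.slope (residue A a) (residue A a) (residue A b)
      (residue A b) = residue A L := by
    rw [Affine.slope_of_Y_ne rfl hyk, res_sub_negY, div_eq_iff hD, ← map_mul, hLu]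
    simp only [WeierstrassCurve.map_a₁, WeierstrassCurve.map_a₂, WeierstrassCurve.map_a₄, map_sub,
      map_add, map_mul, map_pow, map_ofNat]
  obtain ⟨h1, e1⟩ := redFun_some A WA hΔ h a b rfl rfl
  rw [e1, Point.add_self_of_Y_ne hyK, Point.add_self_of_Y_ne hyk]
  obtain ⟨h3, e3⟩ := redFun_some A WA hΔ
    (Affine.nonsingular_add h h fun hxy => hyK hxy.right)
    (WA.toAffine.addX a a L) (WA.toAffine.addY a a b L)
    (by rw [hslopeK]; exact Affine.map_addX (algebraMap A K) a a L)
    (by rw [hslopeK]; exact Affine.map_addY (algebraMap A K) a b a L)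
  rw [e3]
  refine some_eq_some _ _ ?_ ?_
  · rw [hslopek, Affine.map_addX]
  · rw [hslopek, Affine.map_addY]

omit [DecidableEq K] [DecidableEq (ResidueField A)] in
/-- The two partial derivatives do not vanish simultaneously modulo the maximal ideal. -/
theorem res_ne_zero_or (hΔ : IsUnit WA.Δ) {a b : A}
    (h : (WA.map (algebraMap A K)).toAffine.Equation (a : K) (b : K)) :
    residue A (2 * b + WA.a₁ * a + WA.a₃) ≠ 0 ∨
      residue A (3 * a ^ 2 + 2 * WA.a₂ * a + WA.a₄ - WA.a₁ * b) ≠ 0 := by
  have hns := nonsingular_res A WA hΔ h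
  rw [Affine.nonsingular_iff'] at hns
  rcases hns.2 with h1 | h1
  · right
    intro h0
    apply h1
    have : residue A (3 * a ^ 2 + 2 * WA.a₂ * a + WA.a₄ - WA.a₁ * b) =
        -((WA.map (residue A)).a₁ * residue A b - (3 * residue A a ^ 2 +
          2 * (WA.map (residue A)).a₂ * residue A a + (WA.map (residue A)).a₄)) := by
      simp only [WeierstrassCurve.map_a₁, WeierstrassCurve.map_a₂, WeierstrassCurve.map_a₄,
        map_sub, map_add, map_mul, map_pow, map_ofNat]
      ring
    rw [this, neg_eq_zero] at h0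
    exact h0
  · left
    intro h0
    apply h1
    rw [← h0]
    simp only [WeierstrassCurve.map_a₁, WeierstrassCurve.map_a₃, map_add, map_mul, map_ofNat]

omit [DecidableEq (ResidueField A)] in
/-- Doubling of an integral point whose reduction is `2`-torsion lands in the kernel of
reduction. -/
theorem inE1_dbl_of_not_unit (hΔ : IsUnit WA.Δ) {a b : A}
    (h : (WA.map (algebraMap A K)).toAffine.Nonsingular (a : K) (b : K))
    (hD : residue A (2 * b + WA.a₁ * a + WA.a₃) = 0) :
    InE1 A (Point.some _ _ h + Point.some _ _ h) := by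
  by_cases hyK : (b : K) = (WA.map (algebraMap A K)).toAffine.negY (a : K) b
  · rw [Point.add_self_of_Y_eq hyK]
    trivial
  · rw [Point.add_self_of_Y_ne hyK]
    show (WA.map (algebraMap A K)).toAffine.addX (a : K) a
      ((WA.map (algebraMap A K)).toAffine.slope (a : K) a b b) ∉ A
    have hnum : residue A (3 * a ^ 2 + 2 * WA.a₂ * a + WA.a₄ - WA.a₁ * b) ≠ 0 :=
      (res_ne_zero_or A WA hΔ h.1).resolve_left (not_not.mpr hD)
    have hden : ((2 * b + WA.a₁ * a + WA.a₃ : A) : K) ∈ A.nonunits :=
      (res_eq_zero_iff A _).mp hD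
    have hden0 : ((2 * b + WA.a₁ * a + WA.a₃ : A) : K) ≠ 0 := by
      rw [← coe_sub_negY]
      exact sub_ne_zero.mpr hyK
    have hslope : (WA.map (algebraMap A K)).toAffine.slope (a : K) a b b ∉ A := by
      rw [Affine.slope_of_Y_ne rfl hyK, coe_sub_negY]
      have hn : (3 * (a : K) ^ 2 + 2 * (WA.map (algebraMap A K)).a₂ * a +
          (WA.map (algebraMap A K)).a₄ - (WA.map (algebraMap A K)).a₁ * b) =
          ((3 * a ^ 2 + 2 * WA.a₂ * a + WA.a₄ - WA.a₁ * b : A) : K) := by
        rw [coe_a₁, coe_a₂, coe_a₄]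
        push_cast
        rw [coe_two, coe_three]
      rw [hn]
      refine not_mem_of_div A ?_ hden hden0
      intro hmem
      exact hnum ((res_eq_zero_iff A _).mpr hmem)
    have key := Reduction.sq_add_mul_sub_not_mem A (a := (WA.a₁ : K))
      (c := (WA.a₂ : K) + a + a) WA.a₁.2 (add_mem (add_mem WA.a₂.2 a.2) a.2) hslope
    simp only [Affine.addX, coe_a₁, coe_a₂]
    convert key using 2
    ring

omit [DecidableEq (ResidueField A)] in
/-- Two integral points with the same reduction differ by an element of the kernel of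
reduction. -/
theorem inE1_sub_of_res_eq (hΔ : IsUnit WA.Δ) {a₁ b₁ a₂ b₂ : A}
    (h₁ : (WA.map (algebraMap A K)).toAffine.Nonsingular (a₁ : K) (b₁ : K))
    (h₂ : (WA.map (algebraMap A K)).toAffine.Nonsingular (a₂ : K) (b₂ : K))
    (hx : residue A a₁ = residue A a₂) (hy : residue A b₁ = residue A b₂) :
    InE1 A (Point.some _ _ h₁ - Point.some _ _ h₂) := by
  refine F2_inE1 A (WA.map (algebraMap A K)) WA.a₁.2 WA.a₂.2 h₁ h₂ a₁.2
    ((res_eq_iff A _ _).mp hx) ((res_eq_iff A _ _).mp hy) ?_
  rw [coe_a₁, coe_a₂, coe_a₃, coe_a₄]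
  rcases res_ne_zero_or A WA hΔ h₁.1 with h | h
  · left
    intro hmem
    apply h
    rw [res_eq_zero_iff]
    exact hmem
  · right
    intro hmem
    apply h
    rw [res_eq_zero_iff]
    exact hmem

omit [DecidableEq (ResidueField A)] in
theorem inE1_add' {P Q : (WA.map (algebraMap A K)).toAffine.Point} (hP : InE1 A P)
    (hQ : InE1 A Q) : InE1 A (P + Q) :=
  inE1_add A _ WA.a₁.2 WA.a₂.2 WA.a₃.2 WA.a₄.2 WA.a₆.2 hP hQ

omit [DecidableEq (ResidueField A)] in
theorem inE1_sub' {P Q : (WA.map (algebraMap A K)).toAffine.Point} (hP : InE1 A P)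
    (hQ : InE1 A Q) : InE1 A (P - Q) :=
  inE1_sub A _ WA.a₁.2 WA.a₂.2 WA.a₃.2 WA.a₄.2 WA.a₆.2 hP hQ

omit [DecidableEq K] [DecidableEq (ResidueField A)] in
theorem neg_some_coe {a b : A}
    (h : (WA.map (algebraMap A K)).toAffine.Nonsingular (a : K) (b : K)) :
    ∃ h' : (WA.map (algebraMap A K)).toAffine.Nonsingular (a : K)
        ((WA.toAffine.negY a b : A) : K),
      -Point.some _ _ h = Point.some _ _ h' := by
  have h' : (WA.map (algebraMap A K)).toAffine.Nonsingular (a : K)
      ((WA.toAffine.negY a b : A) : K) := by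
    rw [← coe_negY]
    exact (Affine.nonsingular_neg ..).mpr h
  exact ⟨h', by rw [Point.neg_some]; exact some_eq_some _ _ rfl (coe_negY A WA a b)⟩

/-- Adding an element of the kernel of reduction does not change the reduction. -/
theorem redFun_add_inE1 (hΔ : IsUnit WA.Δ) (P T : (WA.map (algebraMap A K)).toAffine.Point)
    (hP : ¬ InE1 A P) (hT : InE1 A T) : redFun A WA hΔ (P + T) = redFun A WA hΔ P := by
  have hR : ¬ InE1 A (P + T) := by
    intro hR
    apply hP
    have := inE1_sub' A WA hR hT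
    rwa [add_sub_cancel_right] at this
  obtain ⟨a, b, h, rfl⟩ := exists_lift A WA hP
  obtain ⟨a₃, b₃, h₃, e₃⟩ := exists_lift A WA hR
  obtain ⟨hn, en⟩ := neg_some_coe A WA h
  have hT' : Point.some _ _ h₃ + Point.some _ _ hn = T := by
    rw [← e₃, ← en, ← sub_eq_add_neg, add_sub_cancel_left]
  rw [e₃]
  obtain ⟨r1, er1⟩ := redFun_some A WA hΔ h a b rfl rfl
  obtain ⟨r3, er3⟩ := redFun_some A WA hΔ h₃ a₃ b₃ rfl rfl
  obtain ⟨rn, ern⟩ := redFun_some A WA hΔ hn a (WA.toAffine.negY a b) rfl rfl
  by_cases hx : residue A a₃ = residue A a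
  · rcases Affine.Y_eq_of_X_eq r3.1 r1.1 hx with hy | hy
    · rw [er1, er3]
      exact some_eq_some _ _ hx hy
    · by_cases hD : residue A (2 * b + WA.a₁ * a + WA.a₃) = 0
      · have hb : residue A b = (WA.map (residue A)).toAffine.negY (residue A a) (residue A b) := by
          have := res_sub_negY A WA a b
          rwa [hD, sub_eq_zero] at this
        rw [er1, er3]
        exact some_eq_some _ _ hx (hy.trans hb.symm)
      · exfalso
        have hy' : residue A b₃ = residue A (WA.toAffine.negY a b) := by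
          rw [hy]
          exact Affine.map_negY (residue A) a b
        have h1 : InE1 A (Point.some _ _ h₃ - Point.some _ _ hn) :=
          inE1_sub_of_res_eq A WA hΔ h₃ hn hx hy'
        have h2 : InE1 A (Point.some _ _ h₃ + Point.some _ _ hn) := hT' ▸ hT
        have h3 : InE1 A (Point.some _ _ h + Point.some _ _ h) := by
          have e : Point.some _ _ h + Point.some _ _ h =
              (Point.some _ _ h₃ - Point.some _ _ hn) -
                (Point.some _ _ h₃ + Point.some _ _ hn) := by
            rw [← en]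
            abel
          rw [e]
          exact inE1_sub' A WA h1 h2
        have h4 := redFun_dbl_of_unit A WA hΔ h hD
        rw [(redFun_eq_zero_iff A WA hΔ _).mpr h3, er1] at h4
        have hyk : residue A b ≠
            (WA.map (residue A)).toAffine.negY (residue A a) (residue A b) := by
          intro h0
          apply hD
          rw [← res_sub_negY, ← h0, sub_self]
        rw [Point.add_self_of_Y_ne hyk] at h4
        exact Point.some_ne_zero _ h4.symm
  · exfalso
    have key := redFun_add_of_res_ne A WA hΔ h₃ hn hx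
    rw [hT', (redFun_eq_zero_iff A WA hΔ T).mpr hT, er3, ern, Point.add_of_X_ne hx] at key
    exact Point.some_ne_zero _ key.symm

/-- **Reduction is additive.** -/
theorem redFun_add (hΔ : IsUnit WA.Δ) (P Q : (WA.map (algebraMap A K)).toAffine.Point) :
    redFun A WA hΔ (P + Q) = redFun A WA hΔ P + redFun A WA hΔ Q := by
  by_cases hP : InE1 A P
  · by_cases hQ : InE1 A Q
    · rw [(redFun_eq_zero_iff A WA hΔ _).mpr hP, (redFun_eq_zero_iff A WA hΔ _).mpr hQ,
        (redFun_eq_zero_iff A WA hΔ _).mpr (inE1_add' A WA hP hQ), add_zero]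
    · rw [add_comm P Q, redFun_add_inE1 A WA hΔ Q P hQ hP,
        (redFun_eq_zero_iff A WA hΔ _).mpr hP, zero_add]
  · by_cases hQ : InE1 A Q
    · rw [redFun_add_inE1 A WA hΔ P Q hP hQ, (redFun_eq_zero_iff A WA hΔ _).mpr hQ, add_zero]
    · obtain ⟨a₁, b₁, h₁, rfl⟩ := exists_lift A WA hP
      obtain ⟨a₂, b₂, h₂, rfl⟩ := exists_lift A WA hQ
      by_cases hx : residue A a₁ = residue A a₂
      · obtain ⟨r1, er1⟩ := redFun_some A WA hΔ h₁ a₁ b₁ rfl rfl
        obtain ⟨r2, er2⟩ := redFun_some A WA hΔ h₂ a₂ b₂ rfl rfl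
        rcases Affine.Y_eq_of_X_eq r1.1 r2.1 hx with hy | hy
        · have hT : InE1 A (Point.some _ _ h₂ - Point.some _ _ h₁) :=
            inE1_sub_of_res_eq A WA hΔ h₂ h₁ hx.symm hy.symm
          have e : Point.some _ _ h₁ + Point.some _ _ h₂ =
              (Point.some _ _ h₁ + Point.some _ _ h₁) +
                (Point.some _ _ h₂ - Point.some _ _ h₁) := by
            abel
          have e2 : redFun A WA hΔ (Point.some _ _ h₂) = redFun A WA hΔ (Point.some _ _ h₁) := by
            rw [er1, er2]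
            exact some_eq_some _ _ hx.symm hy.symm
          rw [e, e2]
          by_cases hD : residue A (2 * b₁ + WA.a₁ * a₁ + WA.a₃) = 0
          · have h2P := inE1_dbl_of_not_unit A WA hΔ h₁ hD
            rw [(redFun_eq_zero_iff A WA hΔ _).mpr (inE1_add' A WA h2P hT), er1]
            symm
            apply Point.add_self_of_Y_eq
            have := res_sub_negY A WA a₁ b₁
            rwa [hD, sub_eq_zero] at this
          · have h2 := redFun_dbl_of_unit A WA hΔ h₁ hD
            have h2P : ¬ InE1 A (Point.some _ _ h₁ + Point.some _ _ h₁) := by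
              rw [← redFun_eq_zero_iff A WA hΔ, h2, er1]
              have hyk : residue A b₁ ≠
                  (WA.map (residue A)).toAffine.negY (residue A a₁) (residue A b₁) := by
                intro h0
                apply hD
                rw [← res_sub_negY, ← h0, sub_self]
              rw [Point.add_self_of_Y_ne hyk]
              exact Point.some_ne_zero _
            rw [redFun_add_inE1 A WA hΔ _ _ h2P hT, h2]
        · obtain ⟨hn, en⟩ := neg_some_coe A WA h₂
          have hy' : residue A b₁ = residue A (WA.toAffine.negY a₂ b₂) := by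
            rw [hy]
            exact Affine.map_negY (residue A) a₂ b₂
          have hT : InE1 A (Point.some _ _ h₁ - Point.some _ _ hn) :=
            inE1_sub_of_res_eq A WA hΔ h₁ hn hx hy'
          rw [← en, sub_neg_eq_add] at hT
          rw [(redFun_eq_zero_iff A WA hΔ _).mpr hT, er1, er2, Point.add_of_Y_eq hx hy]
      · exact redFun_add_of_res_ne A WA hΔ h₁ h₂ hx

/-- The reduction homomorphism. -/
noncomputable def redHom (hΔ : IsUnit WA.Δ) :
    (WA.map (algebraMap A K)).toAffine.Point →+ (WA.map (residue A)).toAffine.Point where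
  toFun := redFun A WA hΔ
  map_zero' := rfl
  map_add' := redFun_add A WA hΔ

theorem redHom_some (hΔ : IsUnit WA.Δ) {x y : K}
    (h : (WA.map (algebraMap A K)).toAffine.Nonsingular x y) (a b : A) (hx : x = a) (hy : y = b) :
    ∃ h' : (WA.map (residue A)).toAffine.Nonsingular (residue A a) (residue A b),
      redHom A WA hΔ (Point.some x y h) = Point.some _ _ h' :=
  redFun_some A WA hΔ h a b hx hy

theorem redHom_eq_zero_iff (hΔ : IsUnit WA.Δ) (P : (WA.map (algebraMap A K)).toAffine.Point) :
    redHom A WA hΔ P = 0 ↔ InE1 A P :=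
  redFun_eq_zero_iff A WA hΔ P

/-- Over an algebraically closed field every point of the reduced curve lifts. -/
theorem redHom_surjective [IsAlgClosed K] (hΔ : IsUnit WA.Δ) :
    Function.Surjective (redHom A WA hΔ) := by
  rintro (_ | ⟨x', y', h'⟩)
  · exact ⟨0, rfl⟩
  · obtain ⟨a, rfl⟩ := IsLocalRing.residue_surjective x'
    set c1 : K := (WA.a₁ : K) * a + WA.a₃ with hc1
    set c0 : K := -((a : K) ^ 3 + (WA.a₂ : K) * (a : K) ^ 2 + (WA.a₄ : K) * a + WA.a₆) with hc0
    have hdeg : (Polynomial.C (1 : K) * Polynomial.X ^ 2 + Polynomial.C c1 * Polynomial.X +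
        Polynomial.C c0 : Polynomial K).degree ≠ 0 := by
      rw [Polynomial.degree_quadratic one_ne_zero]
      norm_num
    obtain ⟨y, hy⟩ := IsAlgClosed.exists_root _ hdeg
    simp only [Polynomial.IsRoot, Polynomial.eval_add, Polynomial.eval_pow, Polynomial.eval_X,
      Polynomial.eval_mul, Polynomial.eval_C, one_mul] at hy
    have heq : (WA.map (algebraMap A K)).toAffine.Equation (a : K) y := by
      rw [Affine.equation_iff, coe_a₁, coe_a₂, coe_a₃, coe_a₄, coe_a₆]
      rw [hc1, hc0] at hy
      linear_combination hy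
    have hyA : y ∈ A := y_mem A WA heq a.2
    have hns : (WA.map (algebraMap A K)).toAffine.Nonsingular (a : K) y :=
      (Affine.equation_iff_nonsingular_of_Δ_ne_zero (coeΔ_ne_zero A WA hΔ)).mp heq
    obtain ⟨r, er⟩ := redHom_some A WA hΔ hns a ⟨y, hyA⟩ rfl rfl
    rcases Affine.Y_eq_of_X_eq h'.1 r.1 rfl with hy' | hy'
    · exact ⟨Point.some _ _ hns, by rw [er]; exact some_eq_some _ _ rfl hy'.symm⟩
    · refine ⟨-Point.some _ _ hns, ?_⟩
      rw [map_neg, er, Point.neg_some]
      exact some_eq_some _ _ rfl hy'.symm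

end Curve

/-! ### Versions with the two curves given up to propositional equality -/

section Flex

variable {K : Type*} [Field K] [DecidableEq K] (A : ValuationSubring K)
  [DecidableEq (ResidueField A)] (WA : WeierstrassCurve A) {W : WeierstrassCurve K}
  {Wk : WeierstrassCurve (ResidueField A)}

/-- The reduction homomorphism `W(K) → Wk(k)` for a curve `W` over `K` with an integral model
`WA` over `A` of good reduction, `Wk` being the reduction of `WA`. -/
noncomputable def redHomOf (hW : WA.map (algebraMap A K) = W) (hWk : WA.map (residue A) = Wk)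
    (hΔ : IsUnit WA.Δ) : W.toAffine.Point →+ Wk.toAffine.Point := by
  subst hW hWk
  exact redHom A WA hΔ

theorem redHomOf_some (hW : WA.map (algebraMap A K) = W) (hWk : WA.map (residue A) = Wk)
    (hΔ : IsUnit WA.Δ) {x y : K} (h : W.toAffine.Nonsingular x y) (a b : A) (hx : x = a)
    (hy : y = b) :
    ∃ h' : Wk.toAffine.Nonsingular (residue A a) (residue A b),
      redHomOf A WA hW hWk hΔ (Point.some x y h) = Point.some _ _ h' := by
  subst hW hWk
  exact redHom_some A WA hΔ h a b hx hy

theorem redHomOf_eq_zero_iff (hW : WA.map (algebraMap A K) = W)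
    (hWk : WA.map (residue A) = Wk) (hΔ : IsUnit WA.Δ) (P : W.toAffine.Point) :
    redHomOf A WA hW hWk hΔ P = 0 ↔ InE1 A P := by
  subst hW hWk
  exact redHom_eq_zero_iff A WA hΔ P

theorem redHomOf_surjective [IsAlgClosed K] (hW : WA.map (algebraMap A K) = W)
    (hWk : WA.map (residue A) = Wk) (hΔ : IsUnit WA.Δ) :
    Function.Surjective (redHomOf A WA hW hWk hΔ) := by
  subst hW hWk
  exact redHom_surjective A WA hΔ

omit [DecidableEq K] [DecidableEq (ResidueField A)] in
/-- Integrality of the `y`-coordinate, in the flexible setting. -/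
theorem y_mem_of (hW : WA.map (algebraMap A K) = W) {x y : K} (h : W.toAffine.Equation x y)
    (hx : x ∈ A) : y ∈ A := by
  subst hW
  exact y_mem A WA h hx

end Flex

end Fermat.Agent.S41.Red
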