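/-
S41 team, block [NE]/[L], core part (owner: helper96).

Let `W` be a Weierstrass curve over `ℤ` with nonzero discriminant, `p` a prime.  For every large
prime `ℓ`, every valuation subring `A` of `ℚ̄` over `ℓ` and every Frobenius element `σ` at `A`:
if `p` divides the number of points of `W` modulo `ℓ`, then `σ` fixes a nonzero point of order `p`
of `W(ℚ̄)`.  The `p`-divisibility of the kernel of reduction is a hypothesis here (`hdiv`); it is
supplied in `Local.lean`.
-/
import Mathlib
import Fermat.Prelude.Def_FLTPrelim_ModularRep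
import Fermat.Prelude.Def_EllipticCurve_FrobeniusTrace
import Fermat.Agent.S05.FormalGroup
import Fermat.Agent.S13.MGen
import Fermat.Agent.S41.Red
import Fermat.Agent.S41.AA

set_option autoImplicit false

namespace Fermat.Agent.S41.Local

open WeierstrassCurve WeierstrassCurve.Affine IsLocalRing
open Fermat.Agent Fermat.Agent.S05

local notation "Qbar" => AlgebraicClosure ℚ
local notation "GQ" => (AlgebraicClosure ℚ ≃ₐ[ℚ] AlgebraicClosure ℚ)

/-- Base change of an integral curve in two steps. -/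
theorem map_int_comp {R S : Type*} [CommRing R] [CommRing S] (W : WeierstrassCurve ℤ)
    (f : R →+* S) : (W.map (Int.castRingHom R)).map f = W.map (Int.castRingHom S) := by
  rw [WeierstrassCurve.map_map]
  congr 1
  exact RingHom.ext_int _ _

section Conj

variable {F : Type*} [Field F] [DecidableEq F]

/-- The endomorphism of the group of points of (the base change of) an integral curve induced by
a field endomorphism. -/
noncomputable def conjHom (W : WeierstrassCurve ℤ) (σ : F →+* F) :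
    (W.map (Int.castRingHom F)).toAffine.Point →+ (W.map (Int.castRingHom F)).toAffine.Point :=
  (S13.pointCongr (map_int_comp W σ)).toAddMonoidHom.comp
    (S13.mapHom σ (W.map (Int.castRingHom F)))

theorem conjHom_some (W : WeierstrassCurve ℤ) (σ : F →+* F) {x y : F}
    (h : (W.map (Int.castRingHom F)).toAffine.Nonsingular x y) :
    ∃ h' : (W.map (Int.castRingHom F)).toAffine.Nonsingular (σ x) (σ y),
      conjHom W σ (Point.some x y h) = Point.some (σ x) (σ y) h' := by
  have h' : (W.map (Int.castRingHom F)).toAffine.Nonsingular (σ x) (σ y) :=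
    (map_int_comp W σ) ▸
      ((Affine.map_nonsingular (W := (W.map (Int.castRingHom F)).toAffine) σ.injective x y).mpr h)
  refine ⟨h', ?_⟩
  show S13.pointCongr (map_int_comp W σ) (S13.mapFun σ _ (Point.some x y h)) = _
  rw [S13.mapFun_some, S13.pointCongr_some]

end Conj

/-- Integers lie in every valuation subring. -/
theorem intCast_mem' {K : Type*} [Field K] (A : ValuationSubring K) (n : ℤ) : (n : K) ∈ A :=
  intCast_mem A n

/-- **Local step, core.**  If the kernel of reduction is `p`-divisible for all large `ℓ`, then for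
all large `ℓ` a Frobenius element at a place over `ℓ` fixes a nonzero `p`-torsion point as soon as
`p` divides the number of points modulo `ℓ`. -/
theorem local_fixed_core (W : WeierstrassCurve ℤ) (hΔ : W.Δ ≠ 0) {p : ℕ} (hp : p.Prime) (B₁ : ℕ)
    (hdiv : ∀ ℓ : ℕ, ℓ.Prime → B₁ < ℓ → ∀ A : ValuationSubring Qbar, (ℓ : Qbar) ∈ A.nonunits →
      ∀ R : (W.map (Int.castRingHom Qbar)).toAffine.Point, InE1 A R →
        ∃ Q : (W.map (Int.castRingHom Qbar)).toAffine.Point, InE1 A Q ∧ p • Q = R) :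
    ∃ B : ℕ, ∀ ℓ : ℕ, ℓ.Prime → B < ℓ → ∀ (A : ValuationSubring Qbar) (σ : GQ),
      (ℓ : Qbar) ∈ A.nonunits → A.IsFrobeniusAt σ ℓ → p ∣ (W.reductionMod ℓ).card →
      ∃ (x y : Qbar) (h : (W.map (Int.castRingHom Qbar)).toAffine.Nonsingular x y),
        p • Point.some x y h = 0 ∧ σ x = x ∧ σ y = y := by
  classical
  refine ⟨max B₁ (max p W.Δ.natAbs), ?_⟩
  intro ℓ hℓ hB A σ hA hfrob hdvd
  have hB₁ : B₁ < ℓ := lt_of_le_of_lt (le_max_left _ _) hB
  have hpℓ : p < ℓ := lt_of_le_of_lt ((le_max_left _ _).trans (le_max_right _ _)) hB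
  have hΔℓ : W.Δ.natAbs < ℓ := lt_of_le_of_lt ((le_max_right _ _).trans (le_max_right _ _)) hB
  have : Fact ℓ.Prime := ⟨hℓ⟩
  have : Fact p.Prime := ⟨hp⟩
  -- good reduction
  have hndvd : ¬ (ℓ : ℤ) ∣ W.Δ := by
    intro h
    have h1 : ℓ ∣ W.Δ.natAbs := by
      have := Int.natAbs_dvd_natAbs.mpr h
      simpa using this
    exact absurd (Nat.le_of_dvd (Int.natAbs_pos.mpr hΔ) h1) (not_le.mpr hΔℓ)
  set WA : WeierstrassCurve A := W.map (Int.castRingHom A) with hWA
  have hΔA : IsUnit WA.Δ := by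
    rw [ValuationSubring.valuation_eq_one_iff, hWA, WeierstrassCurve.map_Δ]
    have := AA.valuation_intCast_eq_one A hℓ hA hndvd
    simpa using this
  have hpA : A.valuation ((p : ℕ) : Qbar) = 1 := by
    have hnd : ¬ (ℓ : ℤ) ∣ (p : ℤ) := by
      intro h
      exact absurd (Nat.le_of_dvd hp.pos (Int.natCast_dvd_natCast.mp h)) (not_le.mpr hpℓ)
    have := AA.valuation_intCast_eq_one A hℓ hA hnd
    simpa using this
  have hWK : WA.map (algebraMap A Qbar) = W.map (Int.castRingHom Qbar) := map_int_comp W _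
  have hWk : WA.map (residue A) = W.map (Int.castRingHom (ResidueField A)) := map_int_comp W _
  -- residue characteristic
  have hℓk : ((ℓ : ℕ) : ResidueField A) = 0 := by
    have h0 : residue A (ℓ : A) = 0 := by
      rw [Red.res_eq_zero_iff]
      simpa using hA
    simpa using h0
  have : CharP (ResidueField A) ℓ := (CharP.charP_iff_prime_eq_zero hℓ).mpr hℓk
  set ι : ZMod ℓ →+* ResidueField A := ZMod.castHom (dvd_refl ℓ) (ResidueField A) with hι
  have hWι : (W.reductionMod ℓ).map ι = W.map (Int.castRingHom (ResidueField A)) :=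
    map_int_comp W ι
  -- Cauchy
  have hdvd' : p ∣ Nat.card (W.reductionMod ℓ).toAffine.Point := hdvd
  obtain ⟨Pt, hPt⟩ := exists_prime_addOrderOf_dvd_card' p hdvd'
  have hPt0 : Pt ≠ 0 := by
    intro h0
    rw [h0, addOrderOf_zero] at hPt
    exact hp.one_lt.ne hPt
  have hPtp : p • Pt = 0 := by
    rw [← hPt]
    exact addOrderOf_nsmul_eq_zero Pt
  rcases Pt with _ | ⟨xt, yt, ht⟩
  · exact absurd rfl hPt0
  -- its image over the residue field of `A`
  set Qt : (W.map (Int.castRingHom (ResidueField A))).toAffine.Point :=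
    S13.pointCongr hWι (S13.mapHom ι (W.reductionMod ℓ) (Point.some xt yt ht)) with hQt
  have hQtp : p • Qt = 0 := by
    rw [hQt, ← map_nsmul, ← map_nsmul, hPtp, map_zero, map_zero]
  obtain ⟨hQt', eQt⟩ : ∃ h' : (W.map (Int.castRingHom (ResidueField A))).toAffine.Nonsingular
      (ι xt) (ι yt), Qt = Point.some _ _ h' := by
    have h' : (W.map (Int.castRingHom (ResidueField A))).toAffine.Nonsingular (ι xt) (ι yt) :=
      hWι ▸ ((Affine.map_nonsingular (W := (W.reductionMod ℓ).toAffine) ι.injective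
        xt yt).mpr ht)
    refine ⟨h', ?_⟩
    rw [hQt]
    show S13.pointCongr hWι (S13.mapFun ι _ (Point.some xt yt ht)) = _
    rw [S13.mapFun_some, S13.pointCongr_some]
  -- lift to characteristic zero and correct by the kernel of reduction
  obtain ⟨Q₀, hQ₀⟩ := Red.redHomOf_surjective A WA hWK hWk hΔA Qt
  have h1 : InE1 A (p • Q₀) := by
    rw [← Red.redHomOf_eq_zero_iff A WA hWK hWk hΔA, map_nsmul, hQ₀, hQtp]
  obtain ⟨Q₁, hQ₁, hQ₁p⟩ := hdiv ℓ hℓ hB₁ A hA (p • Q₀) h1
  have hPp : p • (Q₀ - Q₁) = 0 := by rw [smul_sub, hQ₁p, sub_self]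
  have hPred : Red.redHomOf A WA hWK hWk hΔA (Q₀ - Q₁) = Qt := by
    rw [map_sub, hQ₀, (Red.redHomOf_eq_zero_iff A WA hWK hWk hΔA Q₁).mpr hQ₁, sub_zero]
  generalize Q₀ - Q₁ = P at hPp hPred
  rcases P with _ | ⟨x, y, h⟩
  · exfalso
    rw [eQt] at hPred
    exact Point.some_ne_zero _ hPred.symm
  have hx : x ∈ A := by
    by_contra hx
    have h0 : InE1 A (Point.some x y h) := hx
    rw [← Red.redHomOf_eq_zero_iff A WA hWK hWk hΔA, hPred, eQt] at h0
    exact Point.some_ne_zero _ h0
  have hy : y ∈ A := Red.y_mem_of A WA hWK h.1 hx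
  obtain ⟨r, er⟩ := Red.redHomOf_some A WA hWK hWk hΔA h ⟨x, hx⟩ ⟨y, hy⟩ rfl rfl
  have hxy : residue A ⟨x, hx⟩ = ι xt ∧ residue A ⟨y, hy⟩ = ι yt := by
    rw [er, eQt] at hPred
    simpa only [Point.some.injEq] using hPred
  -- the conjugate point
  obtain ⟨hσmem, hσ⟩ := hfrob
  set g : A.decompositionSubgroup ℚ := ⟨σ, hσmem⟩ with hg
  have hιpow : ∀ t : ZMod ℓ, (ι t) ^ ℓ = ι t := by
    intro t
    rw [← map_pow, ZMod.pow_card]
  have hgx : residue A (g • (⟨x, hx⟩ : A)) = ι xt := by
    rw [IsLocalRing.ResidueField.residue_smul, hσ, hxy.1, hιpow]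
  have hgy : residue A (g • (⟨y, hy⟩ : A)) = ι yt := by
    rw [IsLocalRing.ResidueField.residue_smul, hσ, hxy.2, hιpow]
  obtain ⟨hc, ec⟩ := conjHom_some W (σ : Qbar →+* Qbar) h
  have hcp : p • Point.some ((σ : Qbar →+* Qbar) x) ((σ : Qbar →+* Qbar) y) hc = 0 := by
    rw [← ec, ← map_nsmul, hPp, map_zero]
  obtain ⟨rc, erc⟩ := Red.redHomOf_some A WA hWK hWk hΔA hc (g • (⟨x, hx⟩ : A))
    (g • (⟨y, hy⟩ : A)) rfl rfl
  have hD : InE1 A (Point.some ((σ : Qbar →+* Qbar) x) ((σ : Qbar →+* Qbar) y) hc -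
      Point.some x y h) := by
    rw [← Red.redHomOf_eq_zero_iff A WA hWK hWk hΔA, map_sub, erc, er, sub_eq_zero]
    exact Red.some_eq_some _ _ (hgx.trans hxy.1.symm) (hgy.trans hxy.2.symm)
  have hDp : p • (Point.some ((σ : Qbar →+* Qbar) x) ((σ : Qbar →+* Qbar) y) hc -
      Point.some x y h) = 0 := by
    rw [smul_sub, hcp, hPp, sub_self]
  have hD0 := F1_inE1 A (W.map (Int.castRingHom Qbar)) (intCast_mem' A _) (intCast_mem' A _)
    (intCast_mem' A _) (intCast_mem' A _) (intCast_mem' A _) hpA hD hDp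
  have hfix := sub_eq_zero.mp hD0
  simp only [Point.some.injEq] at hfix
  exact ⟨x, y, h, hPp, hfix.1, hfix.2⟩

end Fermat.Agent.S41.Local
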