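/-
S41 team, block [VC] of the [NE] table (owner: helper12).

A change of variables `C : VariableChange F` between Weierstrass curves over a field induces an
additive isomorphism on affine points: if `C • W = W'`, then
`(x, y) ↦ (u² x + r, u³ y + u² s x + t)` is a group isomorphism `W'.Point ≃+ W.Point`.
(Mathlib only.)
-/
import Mathlib

set_option autoImplicit false

namespace Fermat.Agent.S41.VC

open WeierstrassCurve WeierstrassCurve.Affine

variable {F : Type*} [Field F]

/-- The `x`-coordinate map of the variable change. -/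
def vx (C : VariableChange F) (x : F) : F := (C.u : F) ^ 2 * x + C.r

/-- The `y`-coordinate map of the variable change. -/
def vy (C : VariableChange F) (x y : F) : F := (C.u : F) ^ 3 * y + (C.u : F) ^ 2 * C.s * x + C.t

theorem u_ne_zero (C : VariableChange F) : (C.u : F) ≠ 0 := C.u.ne_zero

theorem coe_inv_u (C : VariableChange F) : ((C.u⁻¹ : Fˣ) : F) = (C.u : F)⁻¹ :=
  Units.val_inv_eq_inv_val C.u

/-- The Weierstrass polynomial transforms by the factor `u⁶`. -/
theorem equation_key (W : WeierstrassCurve F) (C : VariableChange F) (x y : F) :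
    (vy C x y) ^ 2 + W.a₁ * vx C x * vy C x y + W.a₃ * vy C x y
        - ((vx C x) ^ 3 + W.a₂ * (vx C x) ^ 2 + W.a₄ * vx C x + W.a₆) =
      (C.u : F) ^ 6 * (y ^ 2 + (C • W).a₁ * x * y + (C • W).a₃ * y
        - (x ^ 3 + (C • W).a₂ * x ^ 2 + (C • W).a₄ * x + (C • W).a₆)) := by
  have hu := u_ne_zero C
  simp only [variableChange_a₁, variableChange_a₂, variableChange_a₃, variableChange_a₄,
    variableChange_a₆, coe_inv_u, vx, vy]
  field_simp
  ring

theorem equation_iff (W : WeierstrassCurve F) (C : VariableChange F) (x y : F) :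
    W.toAffine.Equation (vx C x) (vy C x y) ↔ (C • W).toAffine.Equation x y := by
  rw [Affine.equation_iff', Affine.equation_iff']
  have hu6 : (C.u : F) ^ 6 ≠ 0 := pow_ne_zero _ (u_ne_zero C)
  have key := equation_key W C x y
  constructor
  · intro H
    have h0 : (C.u : F) ^ 6 * (y ^ 2 + (C • W).a₁ * x * y + (C • W).a₃ * y
        - (x ^ 3 + (C • W).a₂ * x ^ 2 + (C • W).a₄ * x + (C • W).a₆)) = 0 := by
      rw [← key]; exact H
    exact (mul_eq_zero.mp h0).resolve_left hu6
  · intro H
    have : (vy C x y) ^ 2 + W.a₁ * vx C x * vy C x y + W.a₃ * vy C x y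
        - ((vx C x) ^ 3 + W.a₂ * (vx C x) ^ 2 + W.a₄ * vx C x + W.a₆) = 0 := by
      rw [key]
      have H' : y ^ 2 + (C • W).a₁ * x * y + (C • W).a₃ * y
        - (x ^ 3 + (C • W).a₂ * x ^ 2 + (C • W).a₄ * x + (C • W).a₆) = 0 := H
      rw [H', mul_zero]
    exact this

/-- The `Y`-partial derivative transforms by `u³`. -/
theorem polyY_key (W : WeierstrassCurve F) (C : VariableChange F) (x y : F) :
    2 * vy C x y + W.a₁ * vx C x + W.a₃ =
      (C.u : F) ^ 3 * (2 * y + (C • W).a₁ * x + (C • W).a₃) := by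
  have hu := u_ne_zero C
  simp only [variableChange_a₁, variableChange_a₃, coe_inv_u, vx, vy]
  field_simp
  ring

/-- The `X`-partial derivative transforms by `u⁴`, up to a multiple of the `Y`-partial. -/
theorem polyX_key (W : WeierstrassCurve F) (C : VariableChange F) (x y : F) :
    (C.u : F) ^ 2 * (W.a₁ * vy C x y - (3 * (vx C x) ^ 2 + 2 * W.a₂ * vx C x + W.a₄)) =
      (C.u : F) ^ 6 * ((C • W).a₁ * y - (3 * x ^ 2 + 2 * (C • W).a₂ * x + (C • W).a₄))
        - (C.u : F) ^ 5 * C.s * (2 * y + (C • W).a₁ * x + (C • W).a₃) := by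
  have hu := u_ne_zero C
  simp only [variableChange_a₁, variableChange_a₂, variableChange_a₃, variableChange_a₄,
    coe_inv_u, vx, vy]
  field_simp
  ring

theorem nonsingular_iff (W : WeierstrassCurve F) (C : VariableChange F) (x y : F) :
    W.toAffine.Nonsingular (vx C x) (vy C x y) ↔ (C • W).toAffine.Nonsingular x y := by
  rw [Affine.nonsingular_iff', Affine.nonsingular_iff', equation_iff]
  have hu := u_ne_zero C
  have kY := polyY_key W C x y
  have kX := polyX_key W C x y
  refine and_congr_right fun _ => ?_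
  constructor
  · rintro (H | H)
    · by_cases hY : 2 * y + (C • W).a₁ * x + (C • W).a₃ = 0
      · left
        intro h0
        apply H
        have : (C.u : F) ^ 2 *
            (W.a₁ * vy C x y - (3 * (vx C x) ^ 2 + 2 * W.a₂ * vx C x + W.a₄)) = 0 := by
          rw [kX, h0, hY]; ring
        exact (mul_eq_zero.mp this).resolve_left (pow_ne_zero _ hu)
      · right; exact hY
    · right
      intro h0
      apply H
      have : 2 * vy C x y + W.a₁ * vx C x + W.a₃ = 0 := by rw [kY, h0, mul_zero]
      exact this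
  · rintro (H | H)
    · by_cases hY : 2 * vy C x y + W.a₁ * vx C x + W.a₃ = 0
      · left
        intro h0
        apply H
        have hY' : 2 * y + (C • W).a₁ * x + (C • W).a₃ = 0 := by
          rw [kY] at hY
          exact (mul_eq_zero.mp hY).resolve_left (pow_ne_zero _ hu)
        have : (C.u : F) ^ 6 *
            ((C • W).a₁ * y - (3 * x ^ 2 + 2 * (C • W).a₂ * x + (C • W).a₄)) = 0 := by
          have e := kX
          rw [h0, hY'] at e
          linear_combination -e
        exact (mul_eq_zero.mp this).resolve_left (pow_ne_zero _ hu)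
      · right; exact hY
    · right
      intro h0
      apply H
      rw [kY] at h0
      exact (mul_eq_zero.mp h0).resolve_left (pow_ne_zero _ hu)

theorem negY_key (W : WeierstrassCurve F) (C : VariableChange F) (x y : F) :
    W.toAffine.negY (vx C x) (vy C x y) = vy C x ((C • W).toAffine.negY x y) := by
  have hu := u_ne_zero C
  simp only [Affine.negY, variableChange_a₁, variableChange_a₃, coe_inv_u, vx, vy]
  field_simp
  ring

theorem vx_injective (C : VariableChange F) : Function.Injective (vx C) := by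
  intro x x' h
  have hu2 : (C.u : F) ^ 2 ≠ 0 := pow_ne_zero _ (u_ne_zero C)
  have : (C.u : F) ^ 2 * (x - x') = 0 := by
    simp only [vx] at h
    linear_combination h
  exact sub_eq_zero.mp ((mul_eq_zero.mp this).resolve_left hu2)

theorem vy_injective (C : VariableChange F) (x : F) : Function.Injective (vy C x) := by
  intro y y' h
  have hu3 : (C.u : F) ^ 3 ≠ 0 := pow_ne_zero _ (u_ne_zero C)
  have : (C.u : F) ^ 3 * (y - y') = 0 := by
    simp only [vy] at h
    linear_combination h
  exact sub_eq_zero.mp ((mul_eq_zero.mp this).resolve_left hu3)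

variable [DecidableEq F]

/-- Slopes transform by `ℓ ↦ u ℓ + s`. -/
theorem slope_key (W : WeierstrassCurve F) (C : VariableChange F) {x₁ x₂ y₁ y₂ : F}
    (h₁ : (C • W).toAffine.Equation x₁ y₁) (h₂ : (C • W).toAffine.Equation x₂ y₂)
    (hxy : ¬(x₁ = x₂ ∧ y₁ = (C • W).toAffine.negY x₂ y₂)) :
    W.toAffine.slope (vx C x₁) (vx C x₂) (vy C x₁ y₁) (vy C x₂ y₂) =
      (C.u : F) * (C • W).toAffine.slope x₁ x₂ y₁ y₂ + C.s := by
  have hu := u_ne_zero C
  by_cases hx : x₁ = x₂
  · have hy : y₁ ≠ (C • W).toAffine.negY x₂ y₂ := fun hy => hxy ⟨hx, hy⟩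
    have hyy : y₁ = y₂ := Affine.Y_eq_of_Y_ne h₁ h₂ hx hy
    subst hx hyy
    have hy' : vy C x₁ y₁ ≠ W.toAffine.negY (vx C x₁) (vy C x₁ y₁) := by
      rw [negY_key]
      exact fun h => hy (vy_injective C x₁ h)
    rw [Affine.slope_of_Y_ne rfl hy, Affine.slope_of_Y_ne rfl hy']
    have hd : y₁ - (C • W).toAffine.negY x₁ y₁ ≠ 0 := sub_ne_zero.mpr hy
    have hd' : vy C x₁ y₁ - W.toAffine.negY (vx C x₁) (vy C x₁ y₁) ≠ 0 := sub_ne_zero.mpr hy'
    have kY := polyY_key W C x₁ y₁
    have kX := polyX_key W C x₁ y₁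
    have e1 : vy C x₁ y₁ - W.toAffine.negY (vx C x₁) (vy C x₁ y₁) =
        2 * vy C x₁ y₁ + W.a₁ * vx C x₁ + W.a₃ := by
      simp only [Affine.negY]; ring
    have e2 : y₁ - (C • W).toAffine.negY x₁ y₁ = 2 * y₁ + (C • W).a₁ * x₁ + (C • W).a₃ := by
      simp only [Affine.negY]; ring
    rw [e1] at hd' ⊢
    rw [e2] at hd ⊢
    have hu2 : (C.u : F) ^ 2 ≠ 0 := pow_ne_zero _ hu
    have e3 : (C.u : F) ^ 2 * (3 * vx C x₁ ^ 2 + 2 * W.a₂ * vx C x₁ + W.a₄ - W.a₁ * vy C x₁ y₁) =
        (C.u : F) ^ 6 * (3 * x₁ ^ 2 + 2 * (C • W).a₂ * x₁ + (C • W).a₄ - (C • W).a₁ * y₁)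
          + (C.u : F) ^ 5 * C.s * (2 * y₁ + (C • W).a₁ * x₁ + (C • W).a₃) := by
      linear_combination -kX
    rw [div_eq_iff hd', kY]
    apply mul_left_cancel₀ hu2
    rw [e3]
    generalize 2 * y₁ + (C • W).a₁ * x₁ + (C • W).a₃ = d at hd
    generalize 3 * x₁ ^ 2 + 2 * (C • W).a₂ * x₁ + (C • W).a₄ - (C • W).a₁ * y₁ = N
    field_simp
  · have hx' : vx C x₁ ≠ vx C x₂ := fun h => hx (vx_injective C h)
    rw [Affine.slope_of_X_ne hx, Affine.slope_of_X_ne hx']
    have hd : x₁ - x₂ ≠ 0 := sub_ne_zero.mpr hx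
    have hd' : vx C x₁ - vx C x₂ ≠ 0 := sub_ne_zero.mpr hx'
    rw [div_eq_iff hd']
    simp only [vx, vy]
    field_simp
    ring

omit [DecidableEq F] in
theorem addX_key (W : WeierstrassCurve F) (C : VariableChange F) (x₁ x₂ ℓ : F) :
    W.toAffine.addX (vx C x₁) (vx C x₂) ((C.u : F) * ℓ + C.s) =
      vx C ((C • W).toAffine.addX x₁ x₂ ℓ) := by
  have hu := u_ne_zero C
  simp only [Affine.addX, variableChange_a₁, variableChange_a₂, coe_inv_u, vx]
  field_simp
  ring

omit [DecidableEq F] in
theorem addY_key (W : WeierstrassCurve F) (C : VariableChange F) (x₁ x₂ y₁ ℓ : F) :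
    W.toAffine.addY (vx C x₁) (vx C x₂) (vy C x₁ y₁) ((C.u : F) * ℓ + C.s) =
      vy C ((C • W).toAffine.addX x₁ x₂ ℓ) ((C • W).toAffine.addY x₁ x₂ y₁ ℓ) := by
  have hu := u_ne_zero C
  rw [Affine.addY, Affine.addY, addX_key, ← negY_key]
  congr 1
  simp only [Affine.negAddY, addX_key]
  simp only [Affine.addX, variableChange_a₁, variableChange_a₂, coe_inv_u, vx, vy]
  field_simp
  ring

/-- The underlying function of the variable-change map on points (for `W' = C • W`). -/
noncomputable def toFun (W : WeierstrassCurve F) (C : VariableChange F) :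
    (C • W).toAffine.Point → W.toAffine.Point
  | .zero => .zero
  | .some x y hxy => .some (vx C x) (vy C x y) ((nonsingular_iff W C x y).mpr hxy)

omit [DecidableEq F] in
theorem toFun_zero (W : WeierstrassCurve F) (C : VariableChange F) :
    toFun W C (0 : (C • W).toAffine.Point) = 0 := rfl

omit [DecidableEq F] in
theorem toFun_some (W : WeierstrassCurve F) (C : VariableChange F) {x y : F}
    (hxy : (C • W).toAffine.Nonsingular x y) :
    toFun W C (.some x y hxy) = .some (vx C x) (vy C x y) ((nonsingular_iff W C x y).mpr hxy) :=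
  rfl

theorem toFun_add (W : WeierstrassCurve F) (C : VariableChange F)
    (P Q : (C • W).toAffine.Point) : toFun W C (P + Q) = toFun W C P + toFun W C Q := by
  rcases P with _ | ⟨x₁, y₁, h₁⟩
  · change toFun W C (0 + Q) = 0 + toFun W C Q
    rw [zero_add, zero_add]
  rcases Q with _ | ⟨x₂, y₂, h₂⟩
  · change toFun W C (Point.some x₁ y₁ h₁ + 0) = toFun W C (Point.some x₁ y₁ h₁) + 0
    rw [add_zero, add_zero]
  by_cases hxy : x₁ = x₂ ∧ y₁ = (C • W).toAffine.negY x₂ y₂
  · rw [Point.add_of_Y_eq hxy.1 hxy.2, toFun_zero, toFun_some, toFun_some]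
    symm
    obtain ⟨hx, hy⟩ := hxy
    subst hx
    apply Point.add_of_Y_eq rfl
    rw [negY_key, hy]
  · have hxy' : ¬ (vx C x₁ = vx C x₂ ∧
        vy C x₁ y₁ = W.toAffine.negY (vx C x₂) (vy C x₂ y₂)) := by
      rintro ⟨hx, hy⟩
      have hx' : x₁ = x₂ := vx_injective C hx
      subst hx'
      refine hxy ⟨rfl, ?_⟩
      rw [negY_key] at hy
      exact vy_injective C x₁ hy
    rw [Point.add_some hxy, toFun_some, toFun_some, toFun_some, Point.add_some hxy']
    have hs := slope_key W C h₁.1 h₂.1 hxy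
    simp only [hs, addX_key, addY_key]

omit [DecidableEq F] in
theorem toFun_injective (W : WeierstrassCurve F) (C : VariableChange F) :
    Function.Injective (toFun W C) := by
  rintro (_ | ⟨x₁, y₁, h₁⟩) (_ | ⟨x₂, y₂, h₂⟩) hPQ
  · rfl
  · exact absurd hPQ (by simp [toFun])
  · exact absurd hPQ (by simp [toFun])
  · rw [toFun_some, toFun_some] at hPQ
    have h := Point.some.inj hPQ
    have hx : x₁ = x₂ := vx_injective C h.1
    subst hx
    have hy : y₁ = y₂ := vy_injective C x₁ h.2
    subst hy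
    rfl

omit [DecidableEq F] in
theorem toFun_surjective (W : WeierstrassCurve F) (C : VariableChange F) :
    Function.Surjective (toFun W C) := by
  have hu := u_ne_zero C
  rintro (_ | ⟨X, Y, h⟩)
  · exact ⟨0, rfl⟩
  · have hx : vx C ((X - C.r) / (C.u : F) ^ 2) = X := by
      simp only [vx]; field_simp; ring
    have hy : vy C ((X - C.r) / (C.u : F) ^ 2)
        ((Y - (C.u : F) ^ 2 * C.s * ((X - C.r) / (C.u : F) ^ 2) - C.t) / (C.u : F) ^ 3) = Y := by
      simp only [vy]; field_simp; ring
    have h' : (C • W).toAffine.Nonsingular ((X - C.r) / (C.u : F) ^ 2)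
        ((Y - (C.u : F) ^ 2 * C.s * ((X - C.r) / (C.u : F) ^ 2) - C.t) / (C.u : F) ^ 3) := by
      rw [← nonsingular_iff, hx, hy]; exact h
    refine ⟨.some _ _ h', ?_⟩
    rw [toFun_some]
    congr 1

/-- The additive hom `(C • W).Point →+ W.Point`. -/
noncomputable def homSMul (W : WeierstrassCurve F) (C : VariableChange F) :
    (C • W).toAffine.Point →+ W.toAffine.Point where
  toFun := toFun W C
  map_zero' := toFun_zero W C
  map_add' := toFun_add W C

/-- The additive isomorphism `(C • W).Point ≃+ W.Point`. -/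
noncomputable def equivSMul (W : WeierstrassCurve F) (C : VariableChange F) :
    (C • W).toAffine.Point ≃+ W.toAffine.Point :=
  AddEquiv.ofBijective (homSMul W C) ⟨toFun_injective W C, toFun_surjective W C⟩

theorem equivSMul_some (W : WeierstrassCurve F) (C : VariableChange F) {x y : F}
    (hxy : (C • W).toAffine.Nonsingular x y) :
    equivSMul W C (.some x y hxy) =
      .some (vx C x) (vy C x y) ((nonsingular_iff W C x y).mpr hxy) := rfl

/-- **[VC]** The additive isomorphism on points induced by a variable change, in hypothesis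
form (`h : C • W = W'`), so that consumers never cast. -/
noncomputable def vcEquiv (W W' : WeierstrassCurve F) (C : VariableChange F) (h : C • W = W') :
    W'.toAffine.Point ≃+ W.toAffine.Point :=
  h ▸ equivSMul W C

theorem vcEquiv_some (W W' : WeierstrassCurve F) (C : VariableChange F) (h : C • W = W')
    {x y : F} (hxy : W'.toAffine.Nonsingular x y) :
    ∃ hxy' : W.toAffine.Nonsingular ((C.u : F) ^ 2 * x + C.r)
        ((C.u : F) ^ 3 * y + (C.u : F) ^ 2 * C.s * x + C.t),
      vcEquiv W W' C h (Point.some x y hxy) = Point.some _ _ hxy' := by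
  subst h
  exact ⟨(nonsingular_iff W C x y).mpr hxy, rfl⟩

theorem vcEquiv_zero (W W' : WeierstrassCurve F) (C : VariableChange F) (h : C • W = W') :
    vcEquiv W W' C h 0 = 0 := map_zero _

end Fermat.Agent.S41.VC
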