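/-
S41 team, block [T1] of the [NE] table, transport half (owner: helper12).

* `exists_short_model`: over an algebraically closed field of characteristic zero every elliptic
  curve in Weierstrass form is taken by a variable change with `u = 1`, `s = -a₁/2` to a short
  model `y² = x³ + αx² + βx` with `β ≠ 0`, `α² − 4β ≠ 0`.
* `card_torsion_congr`: a variable change preserves the number of `n`-torsion points.
* `card_torsion_of_short`: `#E[p] = p²` for all elliptic `W`, given the statement for short models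
  (which is helper97's `T1Short.card_torsion_short`).
-/
import Fermat.Agent.S41.VC
import Fermat.Agent.S05.Defs

set_option autoImplicit false

namespace Fermat.Agent.S41.T1

open WeierstrassCurve WeierstrassCurve.Affine Polynomial

/-- The discriminant of the short model. -/
theorem shortCurve_Δ {L : Type*} [Field L] (α β : L) :
    (S05.shortCurve α β).Δ = 16 * β ^ 2 * (α ^ 2 - 4 * β) := by
  simp only [WeierstrassCurve.Δ, WeierstrassCurve.b₂, WeierstrassCurve.b₄, WeierstrassCurve.b₆,
    WeierstrassCurve.b₈, S05.shortCurve]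
  ring

theorem exists_short_model {L : Type*} [Field L] [CharZero L] [IsAlgClosed L]
    (W : WeierstrassCurve L) [W.IsElliptic] :
    ∃ (C : VariableChange L) (α β : L), β ≠ 0 ∧ α ^ 2 - 4 * β ≠ 0 ∧ (C.u : L) = 1 ∧
      C.s = -W.a₁ / 2 ∧ C • W = S05.shortCurve α β := by
  -- a root of the 2-division cubic
  have h4 : (4 : L) ≠ 0 := by norm_num
  have h2 : (2 : L) ≠ 0 := by norm_num
  let P : L[X] := C 4 * X ^ 3 + C W.b₂ * X ^ 2 + C (2 * W.b₄) * X + C W.b₆
  have hdeg : P.degree = 3 := by
    have : P = C 4 * X ^ 3 + C W.b₂ * X ^ 2 + C (2 * W.b₄) * X + C W.b₆ := rfl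
    rw [this]
    exact degree_cubic h4
  obtain ⟨r, hr⟩ := IsAlgClosed.exists_root P (by rw [hdeg]; norm_num)
  have hr' : 4 * r ^ 3 + W.b₂ * r ^ 2 + 2 * W.b₄ * r + W.b₆ = 0 := by
    have : P.eval r = 4 * r ^ 3 + W.b₂ * r ^ 2 + 2 * W.b₄ * r + W.b₆ := by
      simp [P]
    rw [← this]; exact hr
  let C₀ : VariableChange L := ⟨1, r, -W.a₁ / 2, -(W.a₃ + r * W.a₁) / 2⟩
  have hu : ((C₀.u⁻¹ : Lˣ) : L) = 1 := by simp [C₀]
  have ha₁ : (C₀ • W).a₁ = 0 := by
    rw [variableChange_a₁, hu]
    simp only [C₀]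
    field_simp
    ring
  have ha₃ : (C₀ • W).a₃ = 0 := by
    rw [variableChange_a₃, hu]
    simp only [C₀]
    field_simp
    ring
  have ha₆ : (C₀ • W).a₆ = 0 := by
    rw [variableChange_a₆, hu]
    simp only [C₀]
    have e : 4 * (1 ^ 6 * (W.a₆ + r * W.a₄ + r ^ 2 * W.a₂ + r ^ 3 - -(W.a₃ + r * W.a₁) / 2 * W.a₃
        - (-(W.a₃ + r * W.a₁) / 2) ^ 2 - r * (-(W.a₃ + r * W.a₁) / 2) * W.a₁)) = 0 := by
      simp only [WeierstrassCurve.b₂, WeierstrassCurve.b₄, WeierstrassCurve.b₆] at hr'
      linear_combination hr'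
    exact (mul_eq_zero.mp e).resolve_left h4
  have hshort : C₀ • W = S05.shortCurve (C₀ • W).a₂ (C₀ • W).a₄ := by
    ext
    · rw [ha₁]; rfl
    · rfl
    · rw [ha₃]; rfl
    · rfl
    · rw [ha₆]; rfl
  have hΔ : (C₀ • W).Δ ≠ 0 := by
    rw [variableChange_Δ, hu, one_pow, one_mul]
    exact (W.isUnit_Δ).ne_zero
  rw [hshort, shortCurve_Δ] at hΔ
  refine ⟨C₀, (C₀ • W).a₂, (C₀ • W).a₄, ?_, ?_, rfl, rfl, hshort⟩
  · intro h0
    apply hΔ
    rw [h0]; ring
  · intro h0
    apply hΔ
    rw [h0]; ring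

/-- A variable change preserves the number of `n`-torsion points. -/
theorem card_torsion_congr {F : Type*} [Field F] [DecidableEq F] (W W' : WeierstrassCurve F)
    (C : VariableChange F) (h : C • W = W') (n : ℕ) :
    Nat.card (Submodule.torsionBy ℤ W'.toAffine.Point n) =
      Nat.card (Submodule.torsionBy ℤ W.toAffine.Point n) := by
  refine Nat.card_congr ((VC.vcEquiv W W' C h).toEquiv.subtypeEquiv fun P => ?_)
  simp only [Submodule.mem_torsionBy_iff, AddEquiv.toEquiv_eq_coe, EquivLike.coe_coe]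
  rw [← map_zsmul, map_eq_zero_iff _ (VC.vcEquiv W W' C h).injective]

/-- `#E[p] = p²` for every elliptic curve over an algebraically closed field of characteristic
zero, given the statement for the short models. -/
theorem card_torsion_of_short {L : Type*} [Field L] [CharZero L] [IsAlgClosed L] [DecidableEq L]
    (p : ℕ)
    (hshort : ∀ α β : L, β ≠ 0 → α ^ 2 - 4 * β ≠ 0 →
      Nat.card (Submodule.torsionBy ℤ (S05.shortCurve α β).toAffine.Point p) = p ^ 2)
    (W : WeierstrassCurve L) [W.IsElliptic] :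
    Nat.card (Submodule.torsionBy ℤ W.toAffine.Point p) = p ^ 2 := by
  obtain ⟨C, α, β, hβ, hd, -, -, h⟩ := exists_short_model W
  rw [← card_torsion_congr W (S05.shortCurve α β) C h p]
  exact hshort α β hβ hd

end Fermat.Agent.S41.T1
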