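/-
S41 team, block [NE]/[L] (owner: helper96).

`exists_fixed_of_dvd_card`: for an elliptic curve `E/ℚ` with integral model `W` and a prime `p`,
for every large prime `ℓ`, every valuation subring `A` of `ℚ̄` over `ℓ` and every Frobenius element
`σ` at `A`: if `p` divides `#W̃(𝔽_ℓ)` then `σ` fixes a nonzero element of `E[p](ℚ̄)`.
-/
import Mathlib
import Fermat.Agent.S41.LocalCore
import Fermat.Agent.S41.Div
import Fermat.Agent.S41.VC
import Fermat.Agent.S41.T1Transport

set_option autoImplicit false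

namespace Fermat.Agent.S41.Local

open WeierstrassCurve WeierstrassCurve.Affine IsLocalRing
open Fermat.Agent Fermat.Agent.S05

local notation "Qbar" => AlgebraicClosure ℚ
local notation "GQ" => (AlgebraicClosure ℚ ≃ₐ[ℚ] AlgebraicClosure ℚ)

/-- The kernel of reduction of an integral model is `p`-divisible at all large primes. -/
theorem inE1_divisible (W : WeierstrassCurve ℤ) (hΔ : W.Δ ≠ 0) (p : ℕ) (hp : 0 < p) :
    ∃ B₁ : ℕ, ∀ ℓ : ℕ, ℓ.Prime → B₁ < ℓ → ∀ A : ValuationSubring Qbar, (ℓ : Qbar) ∈ A.nonunits →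
      ∀ R : (W.map (Int.castRingHom Qbar)).toAffine.Point, InE1 A R →
        ∃ Q : (W.map (Int.castRingHom Qbar)).toAffine.Point, InE1 A Q ∧ p • Q = R := by
  classical
  have hΔK : (W.map (Int.castRingHom Qbar)).Δ ≠ 0 := by
    rw [WeierstrassCurve.map_Δ]
    simpa using hΔ
  have : (W.map (Int.castRingHom Qbar)).IsElliptic := ⟨isUnit_iff_ne_zero.mpr hΔK⟩
  obtain ⟨C, α, β, hβ, hd, hu, -, hC⟩ := T1.exists_short_model (W.map (Int.castRingHom Qbar))
  set e := VC.vcEquiv (W.map (Int.castRingHom Qbar)) (shortCurve α β) C hC with he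
  obtain ⟨B₀, hB₀⟩ := AA.almostAll_mem (insert C.r (S13.MPoly.num α β p).coeffs)
  refine ⟨max B₀ p, ?_⟩
  intro ℓ hℓ hB A hA R hR
  have hB₀ℓ : B₀ < ℓ := lt_of_le_of_lt (le_max_left _ _) hB
  have hpℓ : p < ℓ := lt_of_le_of_lt (le_max_right _ _) hB
  have hmem := hB₀ ℓ hℓ hB₀ℓ A hA
  have hr : C.r ∈ A := hmem _ (Finset.mem_insert_self _ _)
  have hnum : ∀ i, (S13.MPoly.num α β p).coeff i ∈ A := by
    intro i
    by_cases h0 : (S13.MPoly.num α β p).coeff i = 0
    · rw [h0]; exact A.zero_mem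
    · exact hmem _ (Finset.mem_insert_of_mem (Polynomial.coeff_mem_coeffs h0))
  have hpA : A.valuation ((p : ℕ) : Qbar) = 1 := by
    have hnd : ¬ (ℓ : ℤ) ∣ (p : ℤ) := by
      intro h
      exact absurd (Nat.le_of_dvd hp (Int.natCast_dvd_natCast.mp h)) (not_le.mpr hpℓ)
    have := AA.valuation_intCast_eq_one A hℓ hA hnd
    simpa using this
  -- `e` preserves the kernel of reduction
  have hcorr : ∀ Q' : (shortCurve α β).toAffine.Point, InE1 A (e Q') ↔ InE1 A Q' := by
    intro Q'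
    rcases Q' with _ | ⟨x, y, h⟩
    · have : e (0 : (shortCurve α β).toAffine.Point) = 0 := map_zero e
      exact ⟨fun _ => trivial, fun _ => by
        show InE1 A (e 0)
        rw [this]; trivial⟩
    · obtain ⟨h', eh'⟩ := VC.vcEquiv_some (W.map (Int.castRingHom Qbar)) (shortCurve α β) C hC h
      rw [← he] at eh'
      rw [eh']
      show ¬ ((C.u : Qbar) ^ 2 * x + C.r ∈ A) ↔ ¬ (x ∈ A)
      rw [hu, one_pow, one_mul]
      constructor
      · intro h1 h2
        exact h1 (add_mem h2 hr)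
      · intro h1 h2
        apply h1
        have := sub_mem h2 hr
        rwa [add_sub_cancel_right] at this
  have hR' : InE1 A (e.symm R) := by
    rw [← hcorr, AddEquiv.apply_symm_apply]
    exact hR
  obtain ⟨Q', hQ', hQ'p⟩ := Div.inE1_divisible_short A α β hβ hd p hp hpA hnum (e.symm R) hR'
  refine ⟨e Q', (hcorr Q').mpr hQ', ?_⟩
  rw [← map_nsmul, hQ'p, AddEquiv.apply_symm_apply]

/-- An integral model of an elliptic curve has nonzero discriminant. -/
theorem Δ_ne_zero_of_isIntegralModelOf (E : WeierstrassCurve ℚ) [E.IsElliptic]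
    {W : WeierstrassCurve ℤ} (hW : W.IsIntegralModelOf E) : W.Δ ≠ 0 := by
  obtain ⟨C, hC⟩ := hW
  intro h0
  have h1 : (W.map (Int.castRingHom ℚ)).Δ = 0 := by
    rw [WeierstrassCurve.map_Δ, h0, map_zero]
  rw [← hC] at h1
  have : (C • E).IsElliptic := inferInstance
  exact this.isUnit.ne_zero h1

/-- **[L]**: the local step of the non-Eisenstein argument. -/
theorem exists_fixed_of_dvd_card (E : WeierstrassCurve ℚ) [E.IsElliptic] {W : WeierstrassCurve ℤ}
    (hW : W.IsIntegralModelOf E) {p : ℕ} (hp : p.Prime) :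
    ∃ B : ℕ, ∀ ℓ : ℕ, ℓ.Prime → B < ℓ → ∀ (A : ValuationSubring Qbar) (σ : GQ),
      (ℓ : Qbar) ∈ A.nonunits → A.IsFrobeniusAt σ ℓ → p ∣ (W.reductionMod ℓ).card →
      ∃ P : Submodule.torsionBy ℤ (E⁄Qbar).Point p, P ≠ 0 ∧ σ • P = P := by
  classical
  have hΔ := Δ_ne_zero_of_isIntegralModelOf E hW
  obtain ⟨B₁, hB₁⟩ := inE1_divisible W hΔ p hp.pos
  obtain ⟨B, hB⟩ := local_fixed_core W hΔ hp B₁ hB₁
  obtain ⟨C, hC⟩ := hW
  -- the variable change over `ℚ̄`
  have hCK : C.map (algebraMap ℚ Qbar) • (E⁄Qbar) = W.map (Int.castRingHom Qbar) := by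
    show C.map (algebraMap ℚ Qbar) • E.map (algebraMap ℚ Qbar) = W.map (Int.castRingHom Qbar)
    rw [WeierstrassCurve.map_variableChange, hC]
    exact map_int_comp W _
  set e : (W.map (Int.castRingHom Qbar)).toAffine.Point ≃+ (E⁄Qbar).Point :=
    VC.vcEquiv (E⁄Qbar) (W.map (Int.castRingHom Qbar)) (C.map (algebraMap ℚ Qbar)) hCK with he
  refine ⟨B, ?_⟩
  intro ℓ hℓ hBℓ A σ hA hfrob hdvd
  obtain ⟨x, y, h, hp0, hσx, hσy⟩ := hB ℓ hℓ hBℓ A σ hA hfrob hdvd
  obtain ⟨h', eh'⟩ := VC.vcEquiv_some (E⁄Qbar) (W.map (Int.castRingHom Qbar))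
    (C.map (algebraMap ℚ Qbar)) hCK h
  have eh'' : e (Point.some x y h) = Point.some _ _ h' := eh'
  have hPp : p • e (Point.some x y h) = 0 := by rw [← map_nsmul, hp0, map_zero]
  have hmem : e (Point.some x y h) ∈ Submodule.torsionBy ℤ (E⁄Qbar).Point p := by
    rw [Submodule.mem_torsionBy_iff]
    have : ((p : ℕ) : ℤ) • e (Point.some x y h) = p • e (Point.some x y h) := natCast_zsmul _ _
    rw [this]
    exact hPp
  refine ⟨⟨e (Point.some x y h), hmem⟩, ?_, ?_⟩
  · intro h0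
    have h1 : e (Point.some x y h) = 0 := congrArg Subtype.val h0
    rw [eh''] at h1
    exact Point.some_ne_zero _ h1
  · apply Subtype.ext
    show σ • e (Point.some x y h) = e (Point.some x y h)
    rw [eh'', Point.algEquiv_smul_def, Point.map_some]
    apply Red.some_eq_some
    · show σ (((C.map (algebraMap ℚ Qbar)).u : Qbar) ^ 2 * x + (C.map (algebraMap ℚ Qbar)).r) = _
      rw [map_add, map_mul, map_pow, hσx]
      congr 1
      · congr 2
        exact σ.commutes _
      · exact σ.commutes _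
    · show σ (((C.map (algebraMap ℚ Qbar)).u : Qbar) ^ 3 * y +
        ((C.map (algebraMap ℚ Qbar)).u : Qbar) ^ 2 * (C.map (algebraMap ℚ Qbar)).s * x +
        (C.map (algebraMap ℚ Qbar)).t) = _
      rw [map_add, map_add, map_mul, map_mul, map_mul, map_pow, map_pow, hσx, hσy]
      have hu : σ ((C.map (algebraMap ℚ Qbar)).u : Qbar) = ((C.map (algebraMap ℚ Qbar)).u : Qbar) :=
        σ.commutes _
      have hs : σ ((C.map (algebraMap ℚ Qbar)).s) = (C.map (algebraMap ℚ Qbar)).s := σ.commutes _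
      have ht : σ ((C.map (algebraMap ℚ Qbar)).t) = (C.map (algebraMap ℚ Qbar)).t := σ.commutes _
      rw [hu, hs, ht]

end Fermat.Agent.S41.Local
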