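/-
S41 team, block [NE] (owner: helper96): the non-Eisenstein input of level raising.

`main`: if `E[p]` is an irreducible Galois module, then there are arbitrarily large primes `ℓ` of
good reduction with `p ∤ #W̃(𝔽_ℓ)`, i.e. `a_ℓ(W) ≢ ℓ + 1 (mod p)`.
-/
import Mathlib
import Fermat.Agent.S41.Local
import Fermat.Agent.S41.GT
import Fermat.Agent.S41.T1Short
import Fermat.Agent.S41.T1Transport
import Fermat.Agent.S41.FL

set_option autoImplicit false

namespace Fermat.Agent.S41.NE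

open WeierstrassCurve WeierstrassCurve.Affine
open Fermat.Agent

local notation "Qbar" => AlgebraicClosure ℚ
local notation "GQ" => (AlgebraicClosure ℚ ≃ₐ[ℚ] AlgebraicClosure ℚ)

/-- The coordinates of a point. -/
noncomputable def coords {W : WeierstrassCurve Qbar} : W.toAffine.Point → Finset Qbar
  | .zero => ∅
  | .some x y _ => {x, y}

/-- A Galois element fixes a point iff it fixes its coordinates. -/
theorem smul_eq_self_iff (E : WeierstrassCurve ℚ) (σ : GQ) (P : (E⁄Qbar).Point) :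
    σ • P = P ↔ ∀ x ∈ coords P, σ x = x := by
  rcases P with _ | ⟨a, b, h⟩
  · exact ⟨fun _ x hx => absurd hx (Finset.notMem_empty x), fun _ => rfl⟩
  · rw [Point.algEquiv_smul_def, Point.map_some]
    simp only [coords, Point.some.injEq, Finset.mem_insert, Finset.mem_singleton, forall_eq_or_imp,
      forall_eq]
    rfl

theorem coords_smul (E : WeierstrassCurve ℚ) (σ : GQ) (P : (E⁄Qbar).Point) {x : Qbar}
    (hx : x ∈ coords P) : σ x ∈ coords (σ • P) := by
  rcases P with _ | ⟨a, b, h⟩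
  · exact absurd hx (Finset.notMem_empty x)
  · rw [Point.algEquiv_smul_def, Point.map_some]
    simp only [coords, Finset.mem_insert, Finset.mem_singleton] at hx ⊢
    rcases hx with rfl | rfl
    · exact Or.inl rfl
    · exact Or.inr rfl

theorem pow_apply_eq_self (σ : GQ) {x : Qbar} (hx : σ x = x) (j : ℕ) : (σ ^ j) x = x := by
  induction j with
  | zero => rfl
  | succ j ih => rw [pow_succ, AlgEquiv.mul_apply, hx, ih]

theorem main (E : WeierstrassCurve ℚ) [E.IsElliptic] {W : WeierstrassCurve ℤ}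
    (hW : W.IsIntegralModelOf E) {p : ℕ} (hp : p.Prime) (_hp2 : p ≠ 2)
    (hirr : Point.GaloisRepIsIrreducible (K := AlgebraicClosure ℚ) ℚ E p) (B : ℕ) :
    ∃ ℓ : ℕ, ℓ.Prime ∧ B < ℓ ∧ W.IsGoodPrimeFor ℓ ∧ ¬ p ∣ (W.reductionMod ℓ).card := by
  classical
  by_contra hcon
  push Not at hcon
  have : Fact p.Prime := ⟨hp⟩
  have hΔ := Local.Δ_ne_zero_of_isIntegralModelOf E hW
  obtain ⟨BL, hBL⟩ := Local.exists_fixed_of_dvd_card E hW hp
  -- the torsion module
  have hell : (E⁄Qbar).IsElliptic := inferInstanceAs ((E.map (algebraMap ℚ Qbar)).IsElliptic)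
  have hcard : Nat.card (Submodule.torsionBy ℤ (E⁄Qbar).Point p) = p ^ 2 :=
    T1.card_torsion_of_short p
      (fun α β hβ hd => T1Short.card_torsion_short α β hβ hd p hp) (E⁄Qbar)
  have hfin : Finite (Submodule.torsionBy ℤ (E⁄Qbar).Point p) :=
    Nat.finite_of_card_ne_zero (by rw [hcard]; exact pow_ne_zero 2 hp.ne_zero)
  have hfr : Module.finrank (ZMod p) (Submodule.torsionBy ℤ (E⁄Qbar).Point p) = 2 := by
    have h1 := Module.natCard_eq_pow_finrank (K := ZMod p)
      (V := Submodule.torsionBy ℤ (E⁄Qbar).Point p)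
    rw [hcard, Nat.card_zmod] at h1
    exact (Nat.pow_right_injective hp.two_le h1).symm
  have : Fintype (Submodule.torsionBy ℤ (E⁄Qbar).Point p) := Fintype.ofFinite _
  set ρ : GQ →* (Submodule.torsionBy ℤ (E⁄Qbar).Point p ≃ₗ[ZMod p]
      Submodule.torsionBy ℤ (E⁄Qbar).Point p) :=
    DistribMulAction.toModuleAut (ZMod p) (Submodule.torsionBy ℤ (E⁄Qbar).Point p) with hρ
  have hρ_apply : ∀ (σ : GQ) (v : Submodule.torsionBy ℤ (E⁄Qbar).Point p), ρ σ v = σ • v :=
    fun _ _ => rfl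
  have hcoe : ∀ (σ : GQ) (v : Submodule.torsionBy ℤ (E⁄Qbar).Point p),
      ((σ • v : Submodule.torsionBy ℤ (E⁄Qbar).Point p) : (E⁄Qbar).Point) =
        σ • (v : (E⁄Qbar).Point) := fun _ _ => rfl
  -- the finite set of all coordinates of `p`-torsion points
  set S : Finset Qbar := Finset.univ.biUnion
    (fun v : Submodule.torsionBy ℤ (E⁄Qbar).Point p => coords (v : (E⁄Qbar).Point)) with hSdef
  have hSmem : ∀ x, x ∈ S ↔ ∃ v : Submodule.torsionBy ℤ (E⁄Qbar).Point p,
      x ∈ coords (v : (E⁄Qbar).Point) := by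
    intro x
    rw [hSdef, Finset.mem_biUnion]
    exact ⟨fun ⟨v, _, hv⟩ => ⟨v, hv⟩, fun ⟨v, hv⟩ => ⟨v, Finset.mem_univ _, hv⟩⟩
  have hS : ∀ σ : GQ, ∀ x ∈ S, σ x ∈ S := by
    intro σ x hx
    obtain ⟨v, hv⟩ := (hSmem x).mp hx
    exact (hSmem _).mpr ⟨σ • v, by rw [hcoe]; exact coords_smul E σ _ hv⟩
  have hfix_iff : ∀ (σ : GQ) (v : Submodule.torsionBy ℤ (E⁄Qbar).Point p),
      σ • v = v ↔ ∀ x ∈ coords (v : (E⁄Qbar).Point), σ x = x := by
    intro σ v
    rw [← smul_eq_self_iff, ← hcoe]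
    exact Subtype.ext_iff
  -- every element of prime order of the image has a nonzero fixed vector
  have hG : ∀ g ∈ ρ.range, ∀ r : ℕ, r.Prime → r ≠ p → orderOf g = r →
      ∃ v : Submodule.torsionBy ℤ (E⁄Qbar).Point p, v ≠ 0 ∧ g v = v := by
    rintro g ⟨τ, rfl⟩ r hr - hord
    have hτr : ∀ x ∈ S, (τ ^ r) x = x := by
      intro x hx
      obtain ⟨v, hv⟩ := (hSmem x).mp hx
      have h1 : ρ (τ ^ r) = 1 := by rw [map_pow, ← hord, pow_orderOf_eq_one]
      have h2 : (τ ^ r) • v = v := by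
        rw [← hρ_apply, h1]
        rfl
      exact (hfix_iff _ v).mp h2 x hv
    have hτ1 : ∃ x ∈ S, τ x ≠ x := by
      by_contra hall
      push Not at hall
      have h1 : ρ τ = 1 := by
        apply LinearEquiv.ext
        intro v
        rw [hρ_apply]
        exact (hfix_iff τ v).mpr fun x hx => hall x ((hSmem x).mpr ⟨v, hx⟩)
      rw [h1, orderOf_one] at hord
      exact hr.one_lt.ne hord
    obtain ⟨ℓ, A, σ, j, hℓ, hBℓ, hA, hfrob, hj⟩ :=
      FL.exists_frobenius_of_prime_order S hS τ r hr hτr hτ1 (max B (max BL W.Δ.natAbs))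
    have hB1 : B < ℓ := lt_of_le_of_lt (le_max_left _ _) hBℓ
    have hB2 : BL < ℓ := lt_of_le_of_lt ((le_max_left _ _).trans (le_max_right _ _)) hBℓ
    have hB3 : W.Δ.natAbs < ℓ := lt_of_le_of_lt ((le_max_right _ _).trans (le_max_right _ _)) hBℓ
    have hgood : W.IsGoodPrimeFor ℓ := by
      intro h
      have h1 : ℓ ∣ W.Δ.natAbs := by
        have := Int.natAbs_dvd_natAbs.mpr h
        simpa using this
      exact absurd (Nat.le_of_dvd (Int.natAbs_pos.mpr hΔ) h1) (not_le.mpr hB3)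
    obtain ⟨P, hP0, hσP⟩ := hBL ℓ hℓ hB2 A σ hA hfrob (hcon ℓ hℓ hB1 hgood)
    refine ⟨P, hP0, ?_⟩
    rw [hρ_apply, hfix_iff]
    intro x hx
    rw [hj x ((hSmem x).mpr ⟨P, hx⟩)]
    exact pow_apply_eq_self σ ((hfix_iff σ P).mp hσP x hx) j
  obtain ⟨N, hN0, hN1, hNstab⟩ := GT.exists_stable_line hfr ρ.range hG
  have hstable : Point.IsGaloisStable ℚ N := by
    intro σ x hx
    exact hNstab (ρ σ) ⟨σ, rfl⟩ x hx
  rcases hirr.2 N hstable with h | h
  · exact hN0 h
  · exact hN1 h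

end Fermat.Agent.S41.NE
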