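/-
S41, block [NEW], final slice (N3b) (owner: helper81): the skeleton statement
`exists_newform_of_eigen_mod_p`, and the hypothesis `hNEW` of `Plan.result_of_leaves` verbatim.

A class `y ∈ Hom_par(Γ₀(Nq), ℤ)` killed by both transfers to level `N`, primitive, and an
eigenvector modulo `p` for the `T_ℓ`, `ℓ ∈ Pset`, gives a normalized eigenform `g` of level `Nq`
with `a_ℓ(g) ≡ θ ℓ` modulo a maximal ideal above `p` and `a_q(g)² = 1`.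

Assembly of: `NewAsm.assembly` (the lattice `K = Hom_par ∩ ker tr₁ ∩ ker tr₂` is Hecke stable and
`U_q² = 1` on it), `Coh.cohInputs` (block [COH]), and the level-`M` core (Eichler–Shimura +
Deligne–Serre lifting + normalization).
-/
import Mathlib
import Fermat.Agent.S41.Coh
import Fermat.Agent.S41.NewCore

set_option autoImplicit false

open CongruenceSubgroup ModularCurve ModularCurve.Period
open scoped MatrixGroups

namespace Fermat.Agent.S41.New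

open Fermat.Agent.S16 (heckeTHom heckeUHom)
open Fermat.Agent.S41 (Lpar tr₁ tr₂)

/-- **Block [NEW]** (skeleton statement, verbatim). -/
theorem exists_newform_of_eigen_mod_p (N q : ℕ) [NeZero N] [Fact q.Prime] (hqN : ¬ q ∣ N)
    {p : ℕ} (hp : p.Prime) (Pset : Set ℕ) (θ : ℕ → ℤ)
    (hP : ∀ ℓ ∈ Pset, ℓ.Prime ∧ ¬ ℓ ∣ N * q)
    (y : Lpar (N * q)) (hy₁ : tr₁ N q y.1 = 0) (hy₂ : tr₂ N q y.1 = 0)
    (hy : ¬ ∃ z : Lpar (N * q), y = (p : ℤ) • z)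
    (hyθ : ∀ (ℓ : ℕ) [Fact ℓ.Prime] (hℓ : ¬ ℓ ∣ N * q), ℓ ∈ Pset →
      ∃ z : Lpar (N * q), heckeTHom (N * q) ℓ hℓ y.1 - θ ℓ • y.1 = (p : ℤ) • z.1) :
    ∃ (g : CuspForm (Gamma0 (N * q)) 2) (𝔪' : Ideal (integralClosure ℤ ℂ)),
      g.IsNormalizedEigenform ∧ 𝔪'.IsMaximal ∧ (p : integralClosure ℤ ℂ) ∈ 𝔪' ∧
      (∀ ℓ ∈ Pset, ∃ a : integralClosure ℤ ℂ, (a : ℂ) = ModularFormClass.qCoeff g ℓ ∧
        a - (θ ℓ : integralClosure ℤ ℂ) ∈ 𝔪') ∧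
      ModularFormClass.qCoeff g q ^ 2 = 1 := by
  have hq : q.Prime := Fact.out
  have : NeZero (N * q) := ⟨Nat.mul_ne_zero (NeZero.ne N) hq.ne_zero⟩
  exact NewAsm.assembly N q hp (tr₁ N q) (tr₂ N q) (Coh.cohInputs N q hqN)
    (NewCore.core (N * q) hp) Pset θ hP y hy₁ hy₂ hy hyθ

/-- The hypothesis `hNEW` of `Plan.result_of_leaves`, verbatim. -/
theorem hNEW (N q p : ℕ) [Fact p.Prime] [NeZero N] [Fact q.Prime] (hqN : ¬ q ∣ N) :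
    ∀ (Ps : Set ℕ) (θ : ℕ → ℤ), (∀ ℓ ∈ Ps, ℓ.Prime ∧ ¬ ℓ ∣ N * q) →
      ∀ (y : Lpar (N * q)), tr₁ N q y.1 = 0 → tr₂ N q y.1 = 0 →
      (¬ ∃ z : Lpar (N * q), y = (p : ℤ) • z) →
      (∀ (ℓ : ℕ) [Fact ℓ.Prime] (hℓ : ¬ ℓ ∣ N * q), ℓ ∈ Ps →
        ∃ z : Lpar (N * q), heckeTHom (N * q) ℓ hℓ y.1 - θ ℓ • y.1 = (p : ℤ) • z.1) →
      ∃ (g : CuspForm (Gamma0 (N * q)) 2) (𝔪' : Ideal (integralClosure ℤ ℂ)),
        g.IsNormalizedEigenform ∧ 𝔪'.IsMaximal ∧ (p : integralClosure ℤ ℂ) ∈ 𝔪' ∧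
        (∀ ℓ ∈ Ps, ∃ a : integralClosure ℤ ℂ, (a : ℂ) = ModularFormClass.qCoeff g ℓ ∧
          a - (θ ℓ : integralClosure ℤ ℂ) ∈ 𝔪') ∧
        ModularFormClass.qCoeff g q ^ 2 = 1 :=
  fun Ps θ hP y hy₁ hy₂ hy hyθ =>
    exists_newform_of_eigen_mod_p N q hqN Fact.out Ps θ hP y hy₁ hy₂ hy hyθ

end Fermat.Agent.S41.New
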