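import Mathlib

/-!
# S41 / [PD] : symbol combinatorics (Mathlib only)

`X` is a finite set with two self-maps `s` (an involution) and `u` (of order three); in the
application `X = SL(2, ℤ) ⧸ Γ`, `s = S • ·`, `u = (T * S) • ·`, and `t = u ∘ s = T • ·`.

A *symbol* is a function `ξ : X → ℤ` with `ξ (s x) = - ξ x` and `ξ x + ξ (u x) + ξ (u (u x)) = 0`.
The pairing is `B3 u ξ ξ' = ∑ x, (ξ x * ξ' (u x) - ξ (u x) * ξ' x)`; it is divisible by `3`.

Main results:
* `B3_skew`, `three_dvd_B3`, bilinearity;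
* `B3_boundary_right` : `B3 u ξ (w ∘ s - w) = 0` for `t`-invariant `w`;
* `isSym_dual`, `B3_dual` : the Poincare dual symbol `η = E - E ∘ s` of a cycle `ζ` with primitive
  `E` (`E (t y) - E y = ζ (t y) + ζ y`) satisfies `B3 u ξ η = - 6 * ∑ x, ξ x * ζ x`;
* `B3_comp_left` : pull-back / push-forward adjunction along an equivariant map.
-/

set_option autoImplicit false
set_option linter.unusedSectionVars false

open Finset

namespace Fermat.Agent.S41.PDSym

variable {X : Type*} [Fintype X]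

/-- The symbol conditions. -/
structure IsSym (s u : X → X) (ξ : X → ℤ) : Prop where
  anti : ∀ x, ξ (s x) = - ξ x
  tri : ∀ x, ξ x + ξ (u x) + ξ (u (u x)) = 0

/-- The local term of the pairing. -/
def D (u : X → X) (ξ ξ' : X → ℤ) (x : X) : ℤ := ξ x * ξ' (u x) - ξ (u x) * ξ' x

/-- Three times the pairing. -/
def B3 (u : X → X) (ξ ξ' : X → ℤ) : ℤ := ∑ x, D u ξ ξ' x

theorem bijective_of_cube {u : X → X} (hu : ∀ x, u (u (u x)) = x) : Function.Bijective u :=
  Function.bijective_iff_has_inverse.mpr ⟨fun x => u (u x), fun x => hu x, fun x => hu x⟩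

theorem bijective_of_sq {s : X → X} (hs : ∀ x, s (s x) = x) : Function.Bijective s :=
  Function.bijective_iff_has_inverse.mpr ⟨s, fun x => hs x, fun x => hs x⟩

theorem sum_comp_of_cube {u : X → X} (hu : ∀ x, u (u (u x)) = x) (f : X → ℤ) :
    ∑ x, f (u x) = ∑ x, f x :=
  Function.Bijective.sum_comp (bijective_of_cube hu) f

theorem sum_comp_of_sq {s : X → X} (hs : ∀ x, s (s x) = x) (f : X → ℤ) :
    ∑ x, f (s x) = ∑ x, f x :=
  Function.Bijective.sum_comp (bijective_of_sq hs) f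

theorem B3_skew (u : X → X) (ξ ξ' : X → ℤ) : B3 u ξ ξ' = - B3 u ξ' ξ := by
  unfold B3 D
  rw [← Finset.sum_neg_distrib]
  refine Finset.sum_congr rfl fun x _ => ?_
  ring

theorem B3_add_left (u : X → X) (ξ₁ ξ₂ ξ' : X → ℤ) :
    B3 u (ξ₁ + ξ₂) ξ' = B3 u ξ₁ ξ' + B3 u ξ₂ ξ' := by
  unfold B3 D
  rw [← Finset.sum_add_distrib]
  refine Finset.sum_congr rfl fun x _ => ?_
  simp only [Pi.add_apply]; ring

theorem B3_add_right (u : X → X) (ξ ξ₁' ξ₂' : X → ℤ) :
    B3 u ξ (ξ₁' + ξ₂') = B3 u ξ ξ₁' + B3 u ξ ξ₂' := by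
  unfold B3 D
  rw [← Finset.sum_add_distrib]
  refine Finset.sum_congr rfl fun x _ => ?_
  simp only [Pi.add_apply]; ring

theorem B3_smul_left (u : X → X) (c : ℤ) (ξ ξ' : X → ℤ) :
    B3 u (c • ξ) ξ' = c * B3 u ξ ξ' := by
  unfold B3 D
  rw [Finset.mul_sum]
  refine Finset.sum_congr rfl fun x _ => ?_
  simp only [Pi.smul_apply, smul_eq_mul]; ring

theorem B3_smul_right (u : X → X) (c : ℤ) (ξ ξ' : X → ℤ) :
    B3 u ξ (c • ξ') = c * B3 u ξ ξ' := by
  unfold B3 D
  rw [Finset.mul_sum]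
  refine Finset.sum_congr rfl fun x _ => ?_
  simp only [Pi.smul_apply, smul_eq_mul]; ring

theorem B3_sub_right (u : X → X) (ξ ξ₁' ξ₂' : X → ℤ) :
    B3 u ξ (ξ₁' - ξ₂') = B3 u ξ ξ₁' - B3 u ξ ξ₂' := by
  unfold B3 D
  rw [← Finset.sum_sub_distrib]
  refine Finset.sum_congr rfl fun x _ => ?_
  simp only [Pi.sub_apply]; ring

theorem B3_sub_left (u : X → X) (ξ₁ ξ₂ ξ' : X → ℤ) :
    B3 u (ξ₁ - ξ₂) ξ' = B3 u ξ₁ ξ' - B3 u ξ₂ ξ' := by
  unfold B3 D
  rw [← Finset.sum_sub_distrib]
  refine Finset.sum_congr rfl fun x _ => ?_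
  simp only [Pi.sub_apply]; ring

/-! ### symbols form a subgroup -/

theorem IsSym.add {s u : X → X} {ξ₁ ξ₂ : X → ℤ} (h₁ : IsSym s u ξ₁) (h₂ : IsSym s u ξ₂) :
    IsSym s u (ξ₁ + ξ₂) :=
  ⟨fun x => by simp only [Pi.add_apply, h₁.anti, h₂.anti]; ring,
   fun x => by
    have a := h₁.tri x
    have b := h₂.tri x
    simp only [Pi.add_apply]; linarith⟩

theorem IsSym.smul {s u : X → X} {ξ : X → ℤ} (h : IsSym s u ξ) (c : ℤ) : IsSym s u (c • ξ) :=
  ⟨fun x => by simp only [Pi.smul_apply, smul_eq_mul, h.anti]; ring,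
   fun x => by
    have a := h.tri x
    simp only [Pi.smul_apply, smul_eq_mul]
    linear_combination c * a⟩

theorem IsSym.sub {s u : X → X} {ξ₁ ξ₂ : X → ℤ} (h₁ : IsSym s u ξ₁) (h₂ : IsSym s u ξ₂) :
    IsSym s u (ξ₁ - ξ₂) :=
  ⟨fun x => by simp only [Pi.sub_apply, h₁.anti, h₂.anti]; ring,
   fun x => by
    have a := h₁.tri x
    have b := h₂.tri x
    simp only [Pi.sub_apply]; linarith⟩

/-! ### divisibility by three -/

theorem D_comp {u : X → X} {ξ ξ' : X → ℤ}
    (hξ : ∀ x, ξ x + ξ (u x) + ξ (u (u x)) = 0) (hξ' : ∀ x, ξ' x + ξ' (u x) + ξ' (u (u x)) = 0)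
    (x : X) : D u ξ ξ' (u x) = D u ξ ξ' x := by
  unfold D
  have a := hξ x
  have b := hξ' x
  have a' : ξ (u (u x)) = - ξ x - ξ (u x) := by linarith
  have b' : ξ' (u (u x)) = - ξ' x - ξ' (u x) := by linarith
  rw [a', b']; ring

theorem D_fixed (u : X → X) (ξ ξ' : X → ℤ) {x : X} (hx : u x = x) : D u ξ ξ' x = 0 := by
  unfold D; rw [hx]; ring

/-- A `u`-invariant function vanishing at the fixed points of an order three map has total sum
divisible by three. -/
theorem three_dvd_sum {u : X → X} (hu : ∀ x, u (u (u x)) = x) (f : X → ℤ)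
    (hf : ∀ x, f (u x) = f x) (hfix : ∀ x, u x = x → f x = 0) : (3 : ℤ) ∣ ∑ x, f x := by
  classical
  let e : X ≃ Fin (Fintype.card X) := Fintype.equivFin X
  let n : X → ℕ := fun x => (e x : ℕ)
  have hn : ∀ x y, n x = n y → x = y := fun x y h => e.injective (Fin.ext h)
  let σ : X → ℤ := fun y => if n y < n (u y) ∧ n y < n (u (u y)) then 1 else 0
  have key : ∀ x, f x = f x * (σ x + σ (u x) + σ (u (u x))) := by
    intro x
    by_cases hx : u x = x
    · rw [hfix x hx]; ring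
    · have h1 : n (u x) ≠ n x := fun h => hx (hn _ _ h)
      have h2 : n (u (u x)) ≠ n (u x) := by
        intro h
        have h' : u (u x) = u x := hn _ _ h
        apply hx
        have h'' := congrArg u h'
        rw [hu] at h''
        exact (h''.trans h').symm
      have h3 : n (u (u x)) ≠ n x := by
        intro h
        have h' := hn _ _ h
        apply hx
        have := congrArg u h'
        rw [hu] at this
        exact this.symm
      have hs : σ x + σ (u x) + σ (u (u x)) = 1 := by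
        simp only [σ, hu]
        rcases lt_trichotomy (n x) (n (u x)) with a | a | a
        · rcases lt_trichotomy (n x) (n (u (u x))) with b | b | b
          · have c1 : ¬ (n (u x) < n (u (u x)) ∧ n (u x) < n x) := fun h => by omega
            have c2 : ¬ (n (u (u x)) < n x ∧ n (u (u x)) < n (u x)) := fun h => by omega
            rw [if_pos ⟨a, b⟩, if_neg c1, if_neg c2]; norm_num
          · exact absurd b.symm h3
          · have c0 : ¬ (n x < n (u x) ∧ n x < n (u (u x))) := fun h => by omega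
            have c1 : ¬ (n (u x) < n (u (u x)) ∧ n (u x) < n x) := fun h => by omega
            have c2 : n (u (u x)) < n x ∧ n (u (u x)) < n (u x) := ⟨b, by omega⟩
            rw [if_neg c0, if_neg c1, if_pos c2]; norm_num
        · exact absurd a.symm h1
        · rcases lt_trichotomy (n (u x)) (n (u (u x))) with b | b | b
          · have c0 : ¬ (n x < n (u x) ∧ n x < n (u (u x))) := fun h => by omega
            have c1 : n (u x) < n (u (u x)) ∧ n (u x) < n x := ⟨b, a⟩
            have c2 : ¬ (n (u (u x)) < n x ∧ n (u (u x)) < n (u x)) := fun h => by omega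
            rw [if_neg c0, if_pos c1, if_neg c2]; norm_num
          · exact absurd b.symm h2
          · have c0 : ¬ (n x < n (u x) ∧ n x < n (u (u x))) := fun h => by omega
            have c1 : ¬ (n (u x) < n (u (u x)) ∧ n (u x) < n x) := fun h => by omega
            have c2 : n (u (u x)) < n x ∧ n (u (u x)) < n (u x) := ⟨by omega, b⟩
            rw [if_neg c0, if_neg c1, if_pos c2]; norm_num
      rw [hs, mul_one]
  have e1 : ∑ x, f x = ∑ x, (f x * σ x + f (u x) * σ (u x) + f (u (u x)) * σ (u (u x))) := by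
    refine Finset.sum_congr rfl fun x _ => ?_
    rw [hf (u x), hf x]
    have := key x
    linear_combination this
  have e2 : ∑ x, f (u x) * σ (u x) = ∑ x, f x * σ x :=
    sum_comp_of_cube hu (fun x => f x * σ x)
  have e3 : ∑ x, f (u (u x)) * σ (u (u x)) = ∑ x, f x * σ x := by
    rw [sum_comp_of_cube hu (fun x => f (u x) * σ (u x)), e2]
  rw [e1, Finset.sum_add_distrib, Finset.sum_add_distrib, e2, e3]
  exact ⟨∑ x, f x * σ x, by ring⟩

theorem three_dvd_B3 {u : X → X} (hu : ∀ x, u (u (u x)) = x) {ξ ξ' : X → ℤ}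
    (hξ : ∀ x, ξ x + ξ (u x) + ξ (u (u x)) = 0) (hξ' : ∀ x, ξ' x + ξ' (u x) + ξ' (u (u x)) = 0) :
    (3 : ℤ) ∣ B3 u ξ ξ' :=
  three_dvd_sum hu _ (D_comp hξ hξ') (fun _ hx => D_fixed u ξ ξ' hx)

/-! ### pairing against `u`-coboundaries -/

/-- `B3 u ξ (G - G ∘ u) = - 3 * ∑ y, G y * ξ (u y)`. -/
theorem B3_coboundary {u : X → X} (hu : ∀ x, u (u (u x)) = x) {ξ : X → ℤ}
    (hξ : ∀ x, ξ x + ξ (u x) + ξ (u (u x)) = 0) (G : X → ℤ) :
    B3 u ξ (fun x => G x - G (u x)) = - 3 * ∑ y, G y * ξ (u y) := by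
  unfold B3 D
  have e1 : ∑ x, ξ x * G (u x) = ∑ y, ξ (u (u y)) * G y := by
    have := sum_comp_of_cube hu (fun y => ξ (u (u y)) * G y)
    simp only [hu] at this
    exact this
  have e2 : ∑ x, ξ x * G (u (u x)) = ∑ y, ξ (u y) * G y := by
    have := sum_comp_of_cube hu (fun y => ξ (u (u y)) * G (u y))
    simp only [hu] at this
    exact this.trans (sum_comp_of_cube hu (fun y => ξ (u y) * G y))
  have e3 : ∑ x, ξ (u x) * G (u x) = ∑ y, ξ y * G y :=
    sum_comp_of_cube hu (fun y => ξ y * G y)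
  have e4 : ∑ x, (ξ x * (G (u x) - G (u (u x))) - ξ (u x) * (G x - G (u x)))
      = ∑ x, ξ x * G (u x) - ∑ x, ξ x * G (u (u x)) - ∑ x, ξ (u x) * G x
        + ∑ x, ξ (u x) * G (u x) := by
    rw [← Finset.sum_sub_distrib, ← Finset.sum_sub_distrib, ← Finset.sum_add_distrib]
    refine Finset.sum_congr rfl fun x _ => ?_
    ring
  rw [e4, e1, e2, e3, Finset.mul_sum, ← Finset.sum_sub_distrib, ← Finset.sum_sub_distrib,
    ← Finset.sum_add_distrib]
  refine Finset.sum_congr rfl fun y _ => ?_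
  have := hξ y
  linear_combination G y * this

/-- Reindexing along `t = u ∘ s`. -/
theorem sum_mul_comp {s u : X → X} (hs : ∀ x, s (s x) = x) (hu : ∀ x, u (u (u x)) = x)
    {ξ : X → ℤ} (hξ : IsSym s u ξ) (G : X → ℤ) :
    ∑ y, G y * ξ (u y) = ∑ z, G (u (s z)) * ξ z - ∑ z, G z * ξ z := by
  have hbij : Function.Bijective (fun z => u (s z)) :=
    (bijective_of_cube hu).comp (bijective_of_sq hs)
  have e1 : ∑ y, G y * ξ (u y) = ∑ z, G (u (s z)) * ξ (u (u (s z))) :=
    (Function.Bijective.sum_comp hbij (fun y => G y * ξ (u y))).symm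
  have e2 : ∑ z, G z * ξ z = ∑ z, G (u (s z)) * ξ (u (s z)) :=
    (Function.Bijective.sum_comp hbij (fun y => G y * ξ y)).symm
  rw [e1, e2, ← Finset.sum_sub_distrib]
  refine Finset.sum_congr rfl fun z _ => ?_
  have h1 := hξ.tri (s z)
  have h2 := hξ.anti z
  have h3 : ξ (u (u (s z))) = ξ z - ξ (u (s z)) := by linarith
  rw [h3]; ring

/-! ### boundaries -/

/-- The boundary `w ∘ s - w` of a `t`-invariant function is a symbol. -/
theorem isSym_boundary {s u : X → X} (hs : ∀ x, s (s x) = x) (hu : ∀ x, u (u (u x)) = x)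
    (w : X → ℤ) (hw : ∀ x, w (u (s x)) = w x) : IsSym s u (fun x => w (s x) - w x) := by
  have hws : ∀ x, w (s x) = w (u x) := fun x => by
    have := hw (s x); rw [hs] at this; exact this.symm
  refine ⟨fun x => by rw [hs]; ring, fun x => ?_⟩
  rw [hws x, hws (u x), hws (u (u x)), hu]; ring

/-- Symbols are orthogonal to boundaries. -/
theorem B3_boundary_right {s u : X → X} (hs : ∀ x, s (s x) = x) (hu : ∀ x, u (u (u x)) = x)
    {ξ : X → ℤ} (hξ : IsSym s u ξ) (w : X → ℤ) (hw : ∀ x, w (u (s x)) = w x) :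
    B3 u ξ (fun x => w (s x) - w x) = 0 := by
  have hws : ∀ x, w (s x) = w (u x) := fun x => by
    have := hw (s x); rw [hs] at this; exact this.symm
  have e : (fun x => w (s x) - w x) = fun x => (fun y => - w y) x - (fun y => - w y) (u x) := by
    funext x; rw [hws x]; ring
  rw [e, B3_coboundary hu hξ.tri, sum_mul_comp hs hu hξ]
  simp only [hw]
  ring

theorem B3_boundary_left {s u : X → X} (hs : ∀ x, s (s x) = x) (hu : ∀ x, u (u (u x)) = x)
    {ξ : X → ℤ} (hξ : IsSym s u ξ) (w : X → ℤ) (hw : ∀ x, w (u (s x)) = w x) :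
    B3 u (fun x => w (s x) - w x) ξ = 0 := by
  rw [B3_skew, B3_boundary_right hs hu hξ w hw, neg_zero]

/-! ### the Poincare dual symbol of a cycle -/

/-- If `ζ` is antisymmetric and `E` is a primitive of `ζ ∘ t + ζ` along `t = u ∘ s`, then
`η = E - E ∘ s` is a symbol; in fact `η x = (E - ζ) x - (E - ζ) (u x)`. -/
theorem dual_eq {s u : X → X} (hs : ∀ x, s (s x) = x)
    {ζ E : X → ℤ} (hζ : ∀ x, ζ (s x) = - ζ x)
    (hE : ∀ y, E (u (s y)) - E y = ζ (u (s y)) + ζ y) (x : X) :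
    E x - E (s x) = (E x - ζ x) - (E (u x) - ζ (u x)) := by
  have h := hE (s x)
  rw [hs, hζ] at h
  linarith

theorem isSym_dual {s u : X → X} (hs : ∀ x, s (s x) = x) (hu : ∀ x, u (u (u x)) = x)
    {ζ E : X → ℤ} (hζ : ∀ x, ζ (s x) = - ζ x)
    (hE : ∀ y, E (u (s y)) - E y = ζ (u (s y)) + ζ y) :
    IsSym s u (fun x => E x - E (s x)) := by
  refine ⟨fun x => by rw [hs]; ring, fun x => ?_⟩
  rw [dual_eq hs hζ hE x, dual_eq hs hζ hE (u x), dual_eq hs hζ hE (u (u x)), hu]
  ring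

/-- **Poincare duality on symbols**: `B3 u ξ η = - 6 * ⟨ξ, ζ⟩`. -/
theorem B3_dual {s u : X → X} (hs : ∀ x, s (s x) = x) (hu : ∀ x, u (u (u x)) = x)
    {ξ : X → ℤ} (hξ : IsSym s u ξ) {ζ E : X → ℤ} (hζ : ∀ x, ζ (s x) = - ζ x)
    (hE : ∀ y, E (u (s y)) - E y = ζ (u (s y)) + ζ y) :
    B3 u ξ (fun x => E x - E (s x)) = - 6 * ∑ x, ξ x * ζ x := by
  have e : (fun x => E x - E (s x)) = fun x => (fun y => E y - ζ y) x - (fun y => E y - ζ y) (u x) := by
    funext x; exact dual_eq hs hζ hE x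
  rw [e, B3_coboundary hu hξ.tri, sum_mul_comp hs hu hξ]
  have e2 : ∑ z, (E (u (s z)) - ζ (u (s z))) * ξ z - ∑ z, (E z - ζ z) * ξ z
      = 2 * ∑ x, ξ x * ζ x := by
    rw [← Finset.sum_sub_distrib, Finset.mul_sum]
    refine Finset.sum_congr rfl fun z _ => ?_
    have := hE z
    linear_combination ξ z * this
  rw [e2]; ring

/-! ### pull-back and push-forward -/

section Push

variable {Y : Type*} [Fintype Y] [DecidableEq X]

/-- push-forward (sum over the fibres) -/
def push (π : Y → X) (ξ' : Y → ℤ) (x : X) : ℤ := ∑ y ∈ Finset.univ.filter (fun y => π y = x), ξ' y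

theorem sum_push (π : Y → X) (ξ' : Y → ℤ) (f : X → ℤ) :
    ∑ x, f x * push π ξ' x = ∑ y, f (π y) * ξ' y := by
  unfold push
  have : ∀ x, f x * ∑ y ∈ Finset.univ.filter (fun y => π y = x), ξ' y
      = ∑ y ∈ Finset.univ.filter (fun y => π y = x), f (π y) * ξ' y := by
    intro x
    rw [Finset.mul_sum]
    refine Finset.sum_congr rfl fun y hy => ?_
    rw [(Finset.mem_filter.mp hy).2]
  simp only [this]
  exact Finset.sum_fiberwise Finset.univ π (fun y => f (π y) * ξ' y)

/-- The adjunction between pull-back and push-forward. -/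
theorem B3_comp_left {u : X → X} {u' : Y → Y} (hu : ∀ x, u (u (u x)) = x)
    (hu' : ∀ y, u' (u' (u' y)) = y) (π : Y → X) (hπ : ∀ y, π (u' y) = u (π y))
    (ξ : X → ℤ) (ξ' : Y → ℤ) :
    B3 u' (fun y => ξ (π y)) ξ' = B3 u ξ (push π ξ') := by
  unfold B3 D
  rw [Finset.sum_sub_distrib, Finset.sum_sub_distrib]
  congr 1
  · -- first terms
    have e1 : ∑ y, ξ (π y) * ξ' (u' y) = ∑ y, ξ (u (u (π y))) * ξ' y := by
      have := sum_comp_of_cube hu' (fun y => ξ (u (u (π y))) * ξ' y)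
      rw [← this]
      refine Finset.sum_congr rfl fun y _ => ?_
      rw [hπ, hu]
    have e2 : ∑ x, ξ x * push π ξ' (u x) = ∑ x, ξ (u (u x)) * push π ξ' x := by
      have := sum_comp_of_cube hu (fun x => ξ (u (u x)) * push π ξ' x)
      rw [← this]
      refine Finset.sum_congr rfl fun x _ => ?_
      rw [hu]
    rw [e1, e2, sum_push π ξ' (fun x => ξ (u (u x)))]
  · rw [sum_push π ξ' (fun x => ξ (u x))]
    refine Finset.sum_congr rfl fun y _ => ?_
    show ξ (π (u' y)) * ξ' y = ξ (u (π y)) * ξ' y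
    rw [hπ]

theorem isSym_comp {s u : X → X} {s' u' : Y → Y} (π : Y → X) (hπs : ∀ y, π (s' y) = s (π y))
    (hπu : ∀ y, π (u' y) = u (π y)) {ξ : X → ℤ} (hξ : IsSym s u ξ) :
    IsSym s' u' (fun y => ξ (π y)) :=
  ⟨fun y => by rw [hπs, hξ.anti], fun y => by rw [hπu, hπu, hπu]; exact hξ.tri (π y)⟩

theorem push_comp_of_bijective {a : X → X} {a' : Y → Y} (ha' : Function.Bijective a')
    (ha : Function.Injective a)
    (π : Y → X) (hπ : ∀ y, π (a' y) = a (π y)) (ξ' : Y → ℤ) (x : X) :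
    push π ξ' (a x) = push π (fun y => ξ' (a' y)) x := by
  unfold push
  symm
  refine Finset.sum_bij (fun y _ => a' y) ?_ ?_ ?_ ?_
  · intro y hy
    rw [Finset.mem_filter] at hy ⊢
    exact ⟨Finset.mem_univ _, by rw [hπ, hy.2]⟩
  · intro y₁ _ y₂ _ h
    exact ha'.1 h
  · intro y hy
    obtain ⟨z, rfl⟩ := ha'.2 y
    rw [Finset.mem_filter] at hy
    refine ⟨z, ?_, rfl⟩
    rw [Finset.mem_filter]
    exact ⟨Finset.mem_univ _, ha (by rw [← hπ]; exact hy.2)⟩
  · intro y _; rfl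

theorem isSym_push {s u : X → X} {s' u' : Y → Y} (hs : ∀ x, s (s x) = x)
    (hu : ∀ x, u (u (u x)) = x) (hs' : ∀ y, s' (s' y) = y) (hu' : ∀ y, u' (u' (u' y)) = y)
    (π : Y → X) (hπs : ∀ y, π (s' y) = s (π y))
    (hπu : ∀ y, π (u' y) = u (π y)) {ξ' : Y → ℤ} (hξ' : IsSym s' u' ξ') :
    IsSym s u (push π ξ') := by
  refine ⟨fun x => ?_, fun x => ?_⟩
  · rw [push_comp_of_bijective (bijective_of_sq hs') (bijective_of_sq hs).1 π hπs]
    unfold push
    rw [← Finset.sum_neg_distrib]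
    exact Finset.sum_congr rfl fun y _ => hξ'.anti y
  · rw [push_comp_of_bijective (bijective_of_cube hu') (bijective_of_cube hu).1 π hπu ξ' (u x),
      push_comp_of_bijective (bijective_of_cube hu') (bijective_of_cube hu).1 π hπu ξ' x,
      push_comp_of_bijective (bijective_of_cube hu') (bijective_of_cube hu).1 π hπu
        (fun y => ξ' (u' y)) x]
    unfold push
    rw [← Finset.sum_add_distrib, ← Finset.sum_add_distrib]
    exact Finset.sum_eq_zero fun y _ => hξ'.tri y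

end Push

end Fermat.Agent.S41.PDSym
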