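import Mathlib
import Fermat.Prelude.Def_ModularCurve_PeriodMap
import Fermat.Agent.S41.PDSym

/-!
# S41 / [PD] : the shared objects (binding interface of the block)

`Γ ≤ SL(2, ℤ)` of finite index with `-1 ∈ Γ`; `X = SL(2, ℤ) ⧸ Γ` (left cosets `g Γ`, with the
left multiplication action of `SL(2, ℤ)`).

* `sX Γ x = S • x`, `uX Γ x = (T * S) • x`  (so `uX (sX x) = T • x`);
* `IsLift Γ φ F` : `F : SL(2, ℤ) → A` with `F (g * γ) = F g + φ γ` and `F (T * g) = F g`;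
* `sym Γ F : X → A`, `sym Γ F (g Γ) = F (S * g) - F g`  (`sym_mk`);
* `isSym_sym` : the symbol of a lift of a parabolic hom is a symbol (`PDSym.IsSym`);
* `pair Γ F F' = B3 (uX Γ) (sym Γ F) (sym Γ F') / 3`, with `three_mul_pair`.
-/

set_option autoImplicit false

open scoped MatrixGroups
open ModularGroup ModularCurve.Period

namespace Fermat.Agent.S41.PD

variable (Γ : Subgroup SL(2, ℤ))

/-- The finite-type structure on the coset space used throughout the block. -/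
noncomputable instance fintypeX [Γ.FiniteIndex] : Fintype (SL(2, ℤ) ⧸ Γ) := Fintype.ofFinite _

/-- `x ↦ S • x`. -/
def sX (x : SL(2, ℤ) ⧸ Γ) : SL(2, ℤ) ⧸ Γ := S • x

/-- `x ↦ (T * S) • x`. -/
def uX (x : SL(2, ℤ) ⧸ Γ) : SL(2, ℤ) ⧸ Γ := (T * S) • x

theorem sX_mk (g : SL(2, ℤ)) : sX Γ (g : SL(2, ℤ) ⧸ Γ) = ((S * g : SL(2, ℤ)) : SL(2, ℤ) ⧸ Γ) := rfl

theorem uX_mk (g : SL(2, ℤ)) :
    uX Γ (g : SL(2, ℤ) ⧸ Γ) = ((T * S * g : SL(2, ℤ)) : SL(2, ℤ) ⧸ Γ) := rfl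

theorem S_mul_S : (S * S : SL(2, ℤ)) = -1 := by decide

theorem TS_cube : ((T * S) * ((T * S) * (T * S)) : SL(2, ℤ)) = -1 := by decide

theorem TSS : (T * S * S : SL(2, ℤ)) = -T := by decide

variable {Γ}

theorem mk_neg (hneg : (-1 : SL(2, ℤ)) ∈ Γ) (g : SL(2, ℤ)) :
    ((-g : SL(2, ℤ)) : SL(2, ℤ) ⧸ Γ) = (g : SL(2, ℤ) ⧸ Γ) := by
  rw [← mul_neg_one g]
  exact (QuotientGroup.mk_mul_of_mem g hneg)

theorem sX_sX (hneg : (-1 : SL(2, ℤ)) ∈ Γ) (x : SL(2, ℤ) ⧸ Γ) : sX Γ (sX Γ x) = x := by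
  induction x using QuotientGroup.induction_on with
  | H g =>
    rw [sX_mk, sX_mk, ← mul_assoc, S_mul_S, neg_one_mul, mk_neg hneg]

theorem uX_uX_uX (hneg : (-1 : SL(2, ℤ)) ∈ Γ) (x : SL(2, ℤ) ⧸ Γ) : uX Γ (uX Γ (uX Γ x)) = x := by
  induction x using QuotientGroup.induction_on with
  | H g =>
    rw [uX_mk, uX_mk, uX_mk]
    have : T * S * (T * S * (T * S * g)) = -g := by
      calc T * S * (T * S * (T * S * g)) = (T * S * (T * S * (T * S))) * g := by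
            simp only [mul_assoc]
        _ = -g := by rw [TS_cube, neg_one_mul]
    rw [this, mk_neg hneg]

/-- `uX ∘ sX` is the action of `T`. -/
theorem uX_sX (hneg : (-1 : SL(2, ℤ)) ∈ Γ) (x : SL(2, ℤ) ⧸ Γ) : uX Γ (sX Γ x) = T • x := by
  induction x using QuotientGroup.induction_on with
  | H g =>
    rw [sX_mk, uX_mk]
    have : T * S * (S * g) = -(T * g) := by
      calc T * S * (S * g) = (T * S * S) * g := by simp only [mul_assoc]
        _ = -(T * g) := by rw [TSS, neg_mul]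
    rw [this, mk_neg hneg]
    rfl

variable (Γ)

/-- `F` is a lift of the homomorphism `φ` of `Γ`: right `Γ`-equivariant and left `T`-invariant. -/
structure IsLift {A : Type*} [AddCommGroup A] (φ : Additive Γ →+ A) (F : SL(2, ℤ) → A) : Prop where
  mul_right : ∀ (g : SL(2, ℤ)) (γ : Γ), F (g * γ) = F g + φ (Additive.ofMul γ)
  T_left : ∀ g : SL(2, ℤ), F (T * g) = F g

/-- The symbol of a function on `SL(2, ℤ)`: `sym F (g Γ) = F (S * g) - F g` (for lifts). -/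
noncomputable def sym {A : Type*} [AddCommGroup A] (F : SL(2, ℤ) → A) (x : SL(2, ℤ) ⧸ Γ) : A :=
  F (S * x.out) - F x.out

variable {Γ}

section

variable {A : Type*} [AddCommGroup A] {φ : Additive Γ →+ A} {F : SL(2, ℤ) → A}

theorem sym_mk (hF : IsLift Γ φ F) (g : SL(2, ℤ)) :
    sym Γ F (g : SL(2, ℤ) ⧸ Γ) = F (S * g) - F g := by
  obtain ⟨γ, hγ⟩ := QuotientGroup.mk_out_eq_mul Γ g
  unfold sym
  rw [hγ, ← mul_assoc, hF.mul_right, hF.mul_right]
  abel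

theorem IsLift.T_inv_left (hF : IsLift Γ φ F) (g : SL(2, ℤ)) : F (T⁻¹ * g) = F g := by
  have := hF.T_left (T⁻¹ * g)
  rw [mul_inv_cancel_left] at this
  exact this.symm

theorem IsLift.neg_left (hneg : (-1 : SL(2, ℤ)) ∈ Γ) (hφ : IsParabolicHom Γ φ)
    (hF : IsLift Γ φ F) (g : SL(2, ℤ)) : F (-g) = F g := by
  have h1 : φ (Additive.ofMul (⟨-1, hneg⟩ : Γ)) = 0 := by
    apply hφ
    show ((-1 : SL(2, ℤ)) : Matrix (Fin 2) (Fin 2) ℤ).trace ^ 2 = 4
    rw [Matrix.trace_fin_two]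
    simp
  have h2 := hF.mul_right g ⟨-1, hneg⟩
  rw [h1, add_zero] at h2
  rw [← h2]
  congr 1
  exact (mul_neg_one g).symm

theorem sym_sX (hneg : (-1 : SL(2, ℤ)) ∈ Γ) (hφ : IsParabolicHom Γ φ)
    (hF : IsLift Γ φ F) (x : SL(2, ℤ) ⧸ Γ) : sym Γ F (sX Γ x) = - sym Γ F x := by
  induction x using QuotientGroup.induction_on with
  | H g =>
    rw [sX_mk, sym_mk hF, sym_mk hF, ← mul_assoc, S_mul_S, neg_one_mul, hF.neg_left hneg hφ]
    abel

theorem STSTS : (S * (T * S * (T * S)) : SL(2, ℤ)) = -T⁻¹ := by decide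

theorem sym_tri (hneg : (-1 : SL(2, ℤ)) ∈ Γ) (hφ : IsParabolicHom Γ φ)
    (hF : IsLift Γ φ F) (x : SL(2, ℤ) ⧸ Γ) :
    sym Γ F x + sym Γ F (uX Γ x) + sym Γ F (uX Γ (uX Γ x)) = 0 := by
  induction x using QuotientGroup.induction_on with
  | H g =>
    rw [uX_mk, uX_mk, sym_mk hF, sym_mk hF, sym_mk hF]
    have e1 : F (T * S * g) = F (S * g) := by rw [mul_assoc]; exact hF.T_left _
    have e2 : F (T * S * (T * S * g)) = F (S * (T * S * g)) := by
      rw [mul_assoc]; exact hF.T_left _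
    have e3 : F (S * (T * S * (T * S * g))) = F g := by
      have : S * (T * S * (T * S * g)) = -(T⁻¹ * g) := by
        calc S * (T * S * (T * S * g)) = (S * (T * S * (T * S))) * g := by simp only [mul_assoc]
          _ = -(T⁻¹ * g) := by rw [STSTS, neg_mul]
      rw [this, hF.neg_left hneg hφ, hF.T_inv_left]
    rw [e1, e2, e3]
    abel

end

/-- The symbol of a lift of an integral parabolic homomorphism is a symbol. -/
theorem isSym_sym (hneg : (-1 : SL(2, ℤ)) ∈ Γ) {φ : Additive Γ →+ ℤ} {F : SL(2, ℤ) → ℤ}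
    (hφ : IsParabolicHom Γ φ) (hF : IsLift Γ φ F) :
    PDSym.IsSym (sX Γ) (uX Γ) (sym Γ F) :=
  ⟨sym_sX hneg hφ hF, sym_tri hneg hφ hF⟩

variable (Γ)

/-- The integral pairing of two functions on `SL(2, ℤ)` (used for lifts of parabolic homs). -/
noncomputable def pair [Γ.FiniteIndex] (F F' : SL(2, ℤ) → ℤ) : ℤ :=
  PDSym.B3 (uX Γ) (sym Γ F) (sym Γ F') / 3

variable {Γ}

theorem three_mul_pair [Γ.FiniteIndex] (hneg : (-1 : SL(2, ℤ)) ∈ Γ) {φ ψ : Additive Γ →+ ℤ}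
    {F F' : SL(2, ℤ) → ℤ} (hφ : IsParabolicHom Γ φ) (hF : IsLift Γ φ F)
    (hψ : IsParabolicHom Γ ψ) (hF' : IsLift Γ ψ F') :
    3 * pair Γ F F' = PDSym.B3 (uX Γ) (sym Γ F) (sym Γ F') :=
  Int.mul_ediv_cancel' (PDSym.three_dvd_B3 (uX_uX_uX hneg) (sym_tri hneg hφ hF)
    (sym_tri hneg hψ hF'))

end Fermat.Agent.S41.PD
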