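/-
S41 / [PD] leaf (7a): the integral pairing `pd3 Γ φ ψ = B3 (ξ_φ, ξ_ψ)` on parabolic homomorphisms
of a general `Γ ≤ SL(2, ℤ)`.  Owner: helper14.

Contents (all against the shared objects of `S41/PDDefs.lean`, namespace `PD`):
* `liftFun Γ φ`, `isLift_liftFun`, `exists_isLift` : a parabolic `φ : Γ → A` has a lift
  (no averaging: orbit representatives of `⟨T⟩ × Γ` acting on `SL(2, ℤ)`);
* `isLift_add`, `isLift_sub`, `isLift_neg`, `isLift_zsmul`, `isLift_zero`, `sym_add`, ...;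
* `sym_change` : the symbols of two lifts of the same `φ` differ by the boundary `w ∘ s - w` of a
  `T`-invariant `w : X → ℤ`;
* `B3_sym_indep`, `pd3`, `pd3_eq` (any lifts), `pd3_skew`, `three_dvd_pd3`, `pd3_add_left/right`,
  `pd3_zsmul_left/right`, `pd3_inst_irrel`, `pd3_eq_three_mul_pair`;
* `pdZ Γ hneg : parabolicHoms ℤ Γ ℤ →ₗ[ℤ] parabolicHoms ℤ Γ ℤ →ₗ[ℤ] ℤ`, the bundled pairing
  `B = B3 / 3`, with `three_mul_pdZ`, `pdZ_eq_pair`, `pdZ_skew`.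
-/
import Mathlib
import Fermat.Prelude.Def_ModularCurve_PeriodMap
import Fermat.Agent.S41.PDSym
import Fermat.Agent.S41.PDDefs

set_option autoImplicit false

open ModularCurve.Period ModularGroup
open scoped MatrixGroups

namespace Fermat.Agent.S41.PDPair

open Fermat.Agent.S41 Fermat.Agent.S41.PD

variable {Γ : Subgroup SL(2, ℤ)}

/-! ### algebra of lifts -/

section Algebra

variable {A : Type*} [AddCommGroup A]

theorem isLift_zero : IsLift Γ (0 : Additive Γ →+ A) (fun _ => 0) :=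
  ⟨fun _ _ => by simp, fun _ => rfl⟩

theorem isLift_add {φ ψ : Additive Γ →+ A} {F F' : SL(2, ℤ) → A} (h : IsLift Γ φ F)
    (h' : IsLift Γ ψ F') : IsLift Γ (φ + ψ) (F + F') :=
  ⟨fun g γ => by
    simp only [Pi.add_apply, AddMonoidHom.add_apply, h.mul_right, h'.mul_right]; abel,
   fun g => by simp only [Pi.add_apply, h.T_left, h'.T_left]⟩

theorem isLift_sub {φ ψ : Additive Γ →+ A} {F F' : SL(2, ℤ) → A} (h : IsLift Γ φ F)
    (h' : IsLift Γ ψ F') : IsLift Γ (φ - ψ) (F - F') :=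
  ⟨fun g γ => by
    simp only [Pi.sub_apply, AddMonoidHom.sub_apply, h.mul_right, h'.mul_right]; abel,
   fun g => by simp only [Pi.sub_apply, h.T_left, h'.T_left]⟩

theorem isLift_neg {φ : Additive Γ →+ A} {F : SL(2, ℤ) → A} (h : IsLift Γ φ F) :
    IsLift Γ (-φ) (-F) :=
  ⟨fun g γ => by
    simp only [Pi.neg_apply, AddMonoidHom.neg_apply, h.mul_right]; abel,
   fun g => by simp only [Pi.neg_apply, h.T_left]⟩

theorem isLift_zsmul {φ : Additive Γ →+ A} {F : SL(2, ℤ) → A} (h : IsLift Γ φ F) (n : ℤ) :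
    IsLift Γ (n • φ) (n • F) :=
  ⟨fun g γ => by
    simp only [Pi.smul_apply, AddMonoidHom.smul_apply, h.mul_right, smul_add],
   fun g => by simp only [Pi.smul_apply, h.T_left]⟩

theorem isLift_T_zpow_left {φ : Additive Γ →+ A} {F : SL(2, ℤ) → A} (h : IsLift Γ φ F) (j : ℤ)
    (g : SL(2, ℤ)) : F (T ^ j * g) = F g := by
  induction j using Int.induction_on generalizing g with
  | zero => simp
  | succ n ih => rw [zpow_add_one, mul_assoc, ih, h.T_left]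
  | pred n ih => rw [zpow_sub_one, mul_assoc, ih, h.T_inv_left]

theorem sym_add (F F' : SL(2, ℤ) → A) : sym Γ (F + F') = sym Γ F + sym Γ F' := by
  funext x; simp only [sym, Pi.add_apply]; abel

theorem sym_sub (F F' : SL(2, ℤ) → A) : sym Γ (F - F') = sym Γ F - sym Γ F' := by
  funext x; simp only [sym, Pi.sub_apply]; abel

theorem sym_neg (F : SL(2, ℤ) → A) : sym Γ (-F) = - sym Γ F := by
  funext x; simp only [sym, Pi.neg_apply]; abel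

theorem sym_zsmul (n : ℤ) (F : SL(2, ℤ) → A) : sym Γ (n • F) = n • sym Γ F := by
  funext x; simp only [sym, Pi.smul_apply, smul_sub]

end Algebra

/-! ### existence of a lift -/

section Existence

variable {A : Type*} [AddCommGroup A]

theorem trace_conj_T_zpow (r : SL(2, ℤ)) (m : ℤ) :
    ((r⁻¹ * T ^ m * r : SL(2, ℤ)) : Matrix (Fin 2) (Fin 2) ℤ).trace = 2 := by
  rw [Matrix.SpecialLinearGroup.coe_mul, Matrix.trace_mul_comm, ← Matrix.SpecialLinearGroup.coe_mul,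
    ← mul_assoc, mul_inv_cancel, one_mul, coe_T_zpow, Matrix.trace_fin_two]
  simp

theorem phi_eq_of_eq {φ : Additive Γ →+ A} (hφ : IsParabolicHom Γ φ) (r : SL(2, ℤ)) (j j' : ℤ)
    (γ γ' : Γ) (h : T ^ j * r * γ = T ^ j' * r * γ') :
    φ (Additive.ofMul γ) = φ (Additive.ofMul γ') := by
  have e : ((γ * γ'⁻¹ : Γ) : SL(2, ℤ)) = r⁻¹ * T ^ (j' - j) * r := by
    have h1 : (γ : SL(2, ℤ)) = r⁻¹ * T ^ (-j) * (T ^ j' * r * γ') := by
      rw [← h]; simp [mul_assoc]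
    rw [Subgroup.coe_mul, Subgroup.coe_inv, h1, sub_eq_add_neg, add_comm, zpow_add]
    simp [mul_assoc]
  have h0 : φ (Additive.ofMul (γ * γ'⁻¹)) = 0 := by
    apply hφ
    rw [e, trace_conj_T_zpow]
    norm_num
  rw [ofMul_mul, map_add, ofMul_inv, map_neg, ← sub_eq_add_neg] at h0
  exact sub_eq_zero.mp h0

variable (Γ)

/-- The relation `g' ∈ ⟨T⟩ g Γ`. -/
def dblRel : Setoid SL(2, ℤ) where
  r g g' := ∃ (j : ℤ) (γ : Γ), g' = T ^ j * g * γ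
  iseqv :=
    ⟨fun g => ⟨0, 1, by simp⟩,
     fun {g g'} ⟨j, γ, h⟩ => ⟨-j, γ⁻¹, by rw [h]; simp [mul_assoc]⟩,
     fun {g g' g''} ⟨j, γ, h⟩ ⟨j', γ', h'⟩ =>
      ⟨j' + j, γ * γ', by rw [h', h, zpow_add]; simp [mul_assoc]⟩⟩

/-- a representative of the double coset `⟨T⟩ g Γ` -/
noncomputable def rep (g : SL(2, ℤ)) : SL(2, ℤ) := (Quotient.mk (dblRel Γ) g).out

theorem rep_spec (g : SL(2, ℤ)) : ∃ (j : ℤ) (γ : Γ), g = T ^ j * rep Γ g * γ :=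
  Quotient.mk_out (s := dblRel Γ) g

theorem rep_eq {g g' : SL(2, ℤ)} (h : ∃ (j : ℤ) (γ : Γ), g' = T ^ j * g * γ) :
    rep Γ g' = rep Γ g := by
  unfold rep
  congr 1
  exact (Quotient.sound (s := dblRel Γ) h).symm

/-- The canonical lift of `φ` (a lift as soon as `φ` is parabolic, `isLift_liftFun`). -/
noncomputable def liftFun (φ : Additive Γ →+ A) (g : SL(2, ℤ)) : A :=
  φ (Additive.ofMul (rep_spec Γ g).choose_spec.choose)

variable {Γ}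

theorem liftFun_eq {φ : Additive Γ →+ A} (hφ : IsParabolicHom Γ φ) (g : SL(2, ℤ)) (j : ℤ) (γ : Γ)
    (h : g = T ^ j * rep Γ g * γ) : liftFun Γ φ g = φ (Additive.ofMul γ) :=
  phi_eq_of_eq hφ (rep Γ g) _ j _ γ ((rep_spec Γ g).choose_spec.choose_spec.symm.trans h)

theorem isLift_liftFun {φ : Additive Γ →+ A} (hφ : IsParabolicHom Γ φ) :
    IsLift Γ φ (liftFun Γ φ) := by
  refine ⟨fun g δ => ?_, fun g => ?_⟩
  · obtain ⟨j, γ, h⟩ := rep_spec Γ g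
    have hr : rep Γ (g * δ) = rep Γ g := rep_eq Γ ⟨0, δ, by simp⟩
    have h2 : g * (δ : SL(2, ℤ)) = T ^ j * rep Γ (g * δ) * ((γ * δ : Γ) : SL(2, ℤ)) := by
      rw [hr, Subgroup.coe_mul, ← mul_assoc, ← h]
    rw [liftFun_eq hφ (g * δ) j (γ * δ) h2, liftFun_eq hφ g j γ h, ofMul_mul, map_add]
  · obtain ⟨j, γ, h⟩ := rep_spec Γ g
    have hr : rep Γ (T * g) = rep Γ g := rep_eq Γ ⟨1, 1, by simp⟩
    have h2 : T * g = T ^ (j + 1) * rep Γ (T * g) * (γ : SL(2, ℤ)) := by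
      rw [hr, zpow_add_one, (Commute.zpow_self T j).eq, mul_assoc, mul_assoc,
        ← mul_assoc (T ^ j), ← h]
    rw [liftFun_eq hφ (T * g) (j + 1) γ h2, liftFun_eq hφ g j γ h]

variable (Γ) in
/-- **Existence of lifts** of parabolic homomorphisms (over any coefficient group, no averaging). -/
theorem exists_isLift (φ : Additive Γ →+ A) (hφ : IsParabolicHom Γ φ) :
    ∃ F : SL(2, ℤ) → A, IsLift Γ φ F :=
  ⟨liftFun Γ φ, isLift_liftFun hφ⟩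

end Existence

/-! ### change of lift -/

/-- A lift of `0` descends to a `T`-invariant function `w` on `X`, and its symbol is the
boundary `w ∘ s - w`. -/
theorem exists_boundary_of_isLift_zero {F : SL(2, ℤ) → ℤ} (h : IsLift Γ (0 : Additive Γ →+ ℤ) F) :
    ∃ w : SL(2, ℤ) ⧸ Γ → ℤ, (∀ g : SL(2, ℤ), w (g : SL(2, ℤ) ⧸ Γ) = F g) ∧
      (∀ x, w (T • x) = w x) ∧ ∀ x, sym Γ F x = w (sX Γ x) - w x := by
  have hw : ∀ g : SL(2, ℤ), F ((g : SL(2, ℤ) ⧸ Γ)).out = F g := by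
    intro g
    obtain ⟨γ, hγ⟩ := QuotientGroup.mk_out_eq_mul Γ g
    rw [hγ, h.mul_right]; simp
  refine ⟨fun x => F x.out, hw, fun x => ?_, fun x => ?_⟩
  · obtain ⟨g, rfl⟩ := QuotientGroup.mk_surjective x
    show F ((((T * g : SL(2, ℤ)) : SL(2, ℤ) ⧸ Γ)).out) = F ((g : SL(2, ℤ) ⧸ Γ)).out
    rw [hw, hw, h.T_left]
  · obtain ⟨g, rfl⟩ := QuotientGroup.mk_surjective x
    rw [sX_mk, sym_mk h]
    show _ = F _ - F _
    rw [hw, hw]

/-- **Change of lift**: two lifts of the same homomorphism have symbols differing by the boundary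
of a `T`-invariant function on `X`. -/
theorem sym_change {φ : Additive Γ →+ ℤ} {F F' : SL(2, ℤ) → ℤ} (h : IsLift Γ φ F)
    (h' : IsLift Γ φ F') :
    ∃ w : SL(2, ℤ) ⧸ Γ → ℤ, (∀ g : SL(2, ℤ), w (g : SL(2, ℤ) ⧸ Γ) = F' g - F g) ∧
      (∀ x, w (T • x) = w x) ∧ ∀ x, sym Γ F' x - sym Γ F x = w (sX Γ x) - w x := by
  have h0 : IsLift Γ (0 : Additive Γ →+ ℤ) (F' - F) := by
    have := isLift_sub h' h
    rwa [sub_self] at this
  obtain ⟨w, hw1, hw2, hw3⟩ := exists_boundary_of_isLift_zero h0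
  refine ⟨w, fun g => by rw [hw1]; rfl, hw2, fun x => ?_⟩
  rw [← hw3, sym_sub]; rfl

/-! ### the pairing `3 B` on parabolic homomorphisms -/

theorem isParabolicHom_add {φ ψ : Additive Γ →+ ℤ} (hφ : IsParabolicHom Γ φ)
    (hψ : IsParabolicHom Γ ψ) : IsParabolicHom Γ (φ + ψ) :=
  (parabolicHoms ℤ Γ ℤ).add_mem hφ hψ

theorem isParabolicHom_zsmul {φ : Additive Γ →+ ℤ} (hφ : IsParabolicHom Γ φ) (n : ℤ) :
    IsParabolicHom Γ (n • φ) :=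
  (parabolicHoms ℤ Γ ℤ).smul_mem n hφ

section Pairing

variable [Fintype (SL(2, ℤ) ⧸ Γ)]

/-- `B3` of the symbols of two lifts does not depend on the lifts. -/
theorem B3_sym_indep (hneg : -1 ∈ Γ) {φ ψ : Additive Γ →+ ℤ} (hφ : IsParabolicHom Γ φ)
    (hψ : IsParabolicHom Γ ψ) {F₁ F₂ F₁' F₂' : SL(2, ℤ) → ℤ} (h₁ : IsLift Γ φ F₁)
    (h₂ : IsLift Γ φ F₂) (h₁' : IsLift Γ ψ F₁') (h₂' : IsLift Γ ψ F₂') :
    PDSym.B3 (uX Γ) (sym Γ F₂) (sym Γ F₂') = PDSym.B3 (uX Γ) (sym Γ F₁) (sym Γ F₁') := by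
  have hs : ∀ x, sX Γ (sX Γ x) = x := sX_sX hneg
  have hu : ∀ x, uX Γ (uX Γ (uX Γ x)) = x := uX_uX_uX hneg
  obtain ⟨w, -, hw2, hw3⟩ := sym_change h₁ h₂
  obtain ⟨w', -, hw2', hw3'⟩ := sym_change h₁' h₂'
  have hwt : ∀ x, w (uX Γ (sX Γ x)) = w x := fun x => by rw [uX_sX hneg, hw2]
  have hwt' : ∀ x, w' (uX Γ (sX Γ x)) = w' x := fun x => by rw [uX_sX hneg, hw2']
  have e : sym Γ F₂ = sym Γ F₁ + fun x => w (sX Γ x) - w x := by
    funext x; have := hw3 x; simp only [Pi.add_apply]; linarith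
  have e' : sym Γ F₂' = sym Γ F₁' + fun x => w' (sX Γ x) - w' x := by
    funext x; have := hw3' x; simp only [Pi.add_apply]; linarith
  rw [e, e', PDSym.B3_add_left, PDSym.B3_add_right, PDSym.B3_add_right,
    PDSym.B3_boundary_right hs hu (isSym_sym hneg hφ h₁) w' hwt',
    PDSym.B3_boundary_left hs hu (isSym_sym hneg hψ h₁') w hwt,
    PDSym.B3_boundary_right hs hu (PDSym.isSym_boundary hs hu w hwt) w' hwt']
  ring

variable (Γ) in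
/-- The integral pairing `3 B(φ, ψ) = B3 (ξ_φ, ξ_ψ)`, computed with the canonical lifts (junk
unless `φ`, `ψ` are parabolic and `-1 ∈ Γ`).  The `Fintype` instance on `X` is an argument. -/
noncomputable def pd3 (φ ψ : Additive Γ →+ ℤ) : ℤ :=
  PDSym.B3 (uX Γ) (sym Γ (liftFun Γ φ)) (sym Γ (liftFun Γ ψ))

/-- `pd3` may be computed with any lifts. -/
theorem pd3_eq (hneg : -1 ∈ Γ) {φ ψ : Additive Γ →+ ℤ} (hφ : IsParabolicHom Γ φ)
    (hψ : IsParabolicHom Γ ψ) {F F' : SL(2, ℤ) → ℤ} (h : IsLift Γ φ F) (h' : IsLift Γ ψ F') :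
    pd3 Γ φ ψ = PDSym.B3 (uX Γ) (sym Γ F) (sym Γ F') :=
  B3_sym_indep hneg hφ hψ h (isLift_liftFun hφ) h' (isLift_liftFun hψ)

theorem pd3_skew (φ ψ : Additive Γ →+ ℤ) : pd3 Γ φ ψ = - pd3 Γ ψ φ :=
  PDSym.B3_skew _ _ _

theorem pd3_self (φ : Additive Γ →+ ℤ) : pd3 Γ φ φ = 0 := by
  have := pd3_skew φ φ
  linarith

theorem three_dvd_pd3 (hneg : -1 ∈ Γ) {φ ψ : Additive Γ →+ ℤ} (hφ : IsParabolicHom Γ φ)
    (hψ : IsParabolicHom Γ ψ) : (3 : ℤ) ∣ pd3 Γ φ ψ :=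
  PDSym.three_dvd_B3 (uX_uX_uX hneg) (isSym_sym hneg hφ (isLift_liftFun hφ)).tri
    (isSym_sym hneg hψ (isLift_liftFun hψ)).tri

theorem pd3_add_left (hneg : -1 ∈ Γ) {φ₁ φ₂ ψ : Additive Γ →+ ℤ} (hφ₁ : IsParabolicHom Γ φ₁)
    (hφ₂ : IsParabolicHom Γ φ₂) (hψ : IsParabolicHom Γ ψ) :
    pd3 Γ (φ₁ + φ₂) ψ = pd3 Γ φ₁ ψ + pd3 Γ φ₂ ψ := by
  rw [pd3_eq hneg (isParabolicHom_add hφ₁ hφ₂) hψ
    (isLift_add (isLift_liftFun hφ₁) (isLift_liftFun hφ₂)) (isLift_liftFun hψ), sym_add,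
    PDSym.B3_add_left]
  rfl

theorem pd3_add_right (hneg : -1 ∈ Γ) {φ ψ₁ ψ₂ : Additive Γ →+ ℤ} (hφ : IsParabolicHom Γ φ)
    (hψ₁ : IsParabolicHom Γ ψ₁) (hψ₂ : IsParabolicHom Γ ψ₂) :
    pd3 Γ φ (ψ₁ + ψ₂) = pd3 Γ φ ψ₁ + pd3 Γ φ ψ₂ := by
  rw [pd3_skew, pd3_add_left hneg hψ₁ hψ₂ hφ, pd3_skew ψ₁, pd3_skew ψ₂]
  ring

theorem pd3_zsmul_left (hneg : -1 ∈ Γ) {φ ψ : Additive Γ →+ ℤ} (hφ : IsParabolicHom Γ φ)
    (hψ : IsParabolicHom Γ ψ) (n : ℤ) : pd3 Γ (n • φ) ψ = n * pd3 Γ φ ψ := by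
  rw [pd3_eq hneg (isParabolicHom_zsmul hφ n) hψ (isLift_zsmul (isLift_liftFun hφ) n)
    (isLift_liftFun hψ), sym_zsmul, PDSym.B3_smul_left]
  rfl

theorem pd3_zsmul_right (hneg : -1 ∈ Γ) {φ ψ : Additive Γ →+ ℤ} (hφ : IsParabolicHom Γ φ)
    (hψ : IsParabolicHom Γ ψ) (n : ℤ) : pd3 Γ φ (n • ψ) = n * pd3 Γ φ ψ := by
  rw [pd3_skew, pd3_zsmul_left hneg hψ hφ, pd3_skew ψ]
  ring

end Pairing

/-- `pd3` does not depend on the `Fintype` instance. -/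
theorem pd3_inst_irrel (i₁ i₂ : Fintype (SL(2, ℤ) ⧸ Γ)) (φ ψ : Additive Γ →+ ℤ) :
    @pd3 Γ i₁ φ ψ = @pd3 Γ i₂ φ ψ := by
  have : i₁ = i₂ := Subsingleton.elim _ _
  rw [this]

/-- Comparison with `PD.pair` (the instance `PD.fintypeX`). -/
theorem pd3_eq_three_mul_pair [Γ.FiniteIndex] (hneg : -1 ∈ Γ) {φ ψ : Additive Γ →+ ℤ}
    (hφ : IsParabolicHom Γ φ) (hψ : IsParabolicHom Γ ψ) {F F' : SL(2, ℤ) → ℤ}
    (h : IsLift Γ φ F) (h' : IsLift Γ ψ F') : pd3 Γ φ ψ = 3 * pair Γ F F' := by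
  rw [three_mul_pair hneg hφ h hψ h', pd3_eq hneg hφ hψ h h']

/-! ### the bundled pairing `B = B3 / 3` on the parabolic lattice -/

section Bundled

variable [Fintype (SL(2, ℤ) ⧸ Γ)]

variable (Γ) in
/-- The integral bilinear pairing `B(φ, ψ) = B3 (ξ_φ, ξ_ψ) / 3` on `Hom_par(Γ, ℤ)`. -/
noncomputable def pdZ (hneg : -1 ∈ Γ) :
    parabolicHoms ℤ Γ ℤ →ₗ[ℤ] parabolicHoms ℤ Γ ℤ →ₗ[ℤ] ℤ :=
  LinearMap.mk₂ ℤ (fun x y => pd3 Γ x.1 y.1 / 3)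
    (fun x₁ x₂ y => by
      obtain ⟨a, ha⟩ := three_dvd_pd3 hneg x₁.2 y.2
      obtain ⟨b, hb⟩ := three_dvd_pd3 hneg x₂.2 y.2
      show pd3 Γ (x₁.1 + x₂.1) y.1 / 3 = _
      rw [pd3_add_left hneg x₁.2 x₂.2 y.2, ha, hb, ← mul_add]
      simp)
    (fun c x y => by
      obtain ⟨a, ha⟩ := three_dvd_pd3 hneg x.2 y.2
      show pd3 Γ (c • x.1) y.1 / 3 = _
      rw [pd3_zsmul_left hneg x.2 y.2, ha, mul_left_comm]
      simp)
    (fun x y₁ y₂ => by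
      obtain ⟨a, ha⟩ := three_dvd_pd3 hneg x.2 y₁.2
      obtain ⟨b, hb⟩ := three_dvd_pd3 hneg x.2 y₂.2
      show pd3 Γ x.1 (y₁.1 + y₂.1) / 3 = _
      rw [pd3_add_right hneg x.2 y₁.2 y₂.2, ha, hb, ← mul_add]
      simp)
    (fun c x y => by
      obtain ⟨a, ha⟩ := three_dvd_pd3 hneg x.2 y.2
      show pd3 Γ x.1 (c • y.1) / 3 = _
      rw [pd3_zsmul_right hneg x.2 y.2, ha, mul_left_comm]
      simp)

theorem pdZ_apply (hneg : -1 ∈ Γ) (x y : parabolicHoms ℤ Γ ℤ) :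
    pdZ Γ hneg x y = pd3 Γ x.1 y.1 / 3 := rfl

theorem three_mul_pdZ (hneg : -1 ∈ Γ) (x y : parabolicHoms ℤ Γ ℤ) :
    3 * pdZ Γ hneg x y = pd3 Γ x.1 y.1 :=
  Int.mul_ediv_cancel' (three_dvd_pd3 hneg x.2 y.2)

theorem pdZ_skew (hneg : -1 ∈ Γ) (x y : parabolicHoms ℤ Γ ℤ) :
    pdZ Γ hneg x y = - pdZ Γ hneg y x := by
  have h1 := three_mul_pdZ hneg x y
  have h2 := three_mul_pdZ hneg y x
  have h3 := pd3_skew x.1 y.1
  linarith

/-- `pdZ` computed with arbitrary lifts. -/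
theorem three_mul_pdZ_eq (hneg : -1 ∈ Γ) (x y : parabolicHoms ℤ Γ ℤ) {F F' : SL(2, ℤ) → ℤ}
    (h : IsLift Γ x.1 F) (h' : IsLift Γ y.1 F') :
    3 * pdZ Γ hneg x y = PDSym.B3 (uX Γ) (sym Γ F) (sym Γ F') := by
  rw [three_mul_pdZ, pd3_eq hneg x.2 y.2 h h']

end Bundled

/-- `pdZ` is `PD.pair` of any lifts (instance `PD.fintypeX`). -/
theorem pdZ_eq_pair [Γ.FiniteIndex] (hneg : -1 ∈ Γ) (x y : parabolicHoms ℤ Γ ℤ)
    {F F' : SL(2, ℤ) → ℤ} (h : IsLift Γ x.1 F) (h' : IsLift Γ y.1 F') :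
    pdZ Γ hneg x y = pair Γ F F' := by
  have h1 := three_mul_pdZ hneg x y
  rw [pd3_eq_three_mul_pair hneg x.2 y.2 h h'] at h1
  linarith

end Fermat.Agent.S41.PDPair
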