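/-
S41 / [PD] leaf (4a): the adjunction `restriction ⊣ transfer` for the pairing `pd3`, for
`Γ₂ ≤ Γ₁ ≤ SL(2, ℤ)`.  Owner: helper72.

* `isLift_comp` : a lift of `φ` on `Γ₁` is a lift of the restriction of `φ` to `Γ₂`;
* `isParabolicHom_of_isLift` : an integral homomorphism that has a lift is parabolic;
* `pushLift Γ₁ Γ₂ F'`, `isLift_pushLift` : the push-forward `g ↦ ∑ i, F' (g * t i)` (left coset
  representatives `t i` of `Γ₁ / Γ₂`) of a lift of `ψ` is a lift of `transferAlong j ψ`;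
* `sym_comp`, `sym_pushLift` : symbols of the restricted / pushed lift;
* `isParabolicHom_transferAlong`, `pd3_comp` : the adjunction
  `pd3 Γ₂ (φ ∘ j) ψ = pd3 Γ₁ φ (transferAlong j ψ)`.
-/
import Mathlib
import Fermat.Prelude.Def_ModularCurve_PeriodMap
import Fermat.Agent.S21.Parabolic
import Fermat.Agent.S41.PDSym
import Fermat.Agent.S41.PDDefs
import Fermat.Agent.S41.PDPair
import Fermat.Agent.S41.Transfer

set_option autoImplicit false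

open ModularCurve.Period ModularGroup
open scoped MatrixGroups

namespace Fermat.Agent.S41.PDAdj

open Fermat.Agent.S41 Fermat.Agent.S41.PD

variable {Γ₁ Γ₂ : Subgroup SL(2, ℤ)}

/-! ### restriction -/

theorem le_of_coe (j : Γ₂ →* Γ₁) (hj : ∀ γ : Γ₂, ((j γ : Γ₁) : SL(2, ℤ)) = γ) : Γ₂ ≤ Γ₁ := by
  intro x hx
  have h : ((j ⟨x, hx⟩ : Γ₁) : SL(2, ℤ)) = x := hj ⟨x, hx⟩
  rw [← h]
  exact (j ⟨x, hx⟩).2

theorem injective_of_coe (j : Γ₂ →* Γ₁) (hj : ∀ γ : Γ₂, ((j γ : Γ₁) : SL(2, ℤ)) = γ) :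
    Function.Injective j := by
  intro a b hab
  apply Subtype.ext
  rw [← hj a, ← hj b, hab]

/-- A lift of `φ` on `Γ₁` is a lift of the restriction of `φ` to `Γ₂`. -/
theorem isLift_comp (j : Γ₂ →* Γ₁) (hj : ∀ γ : Γ₂, ((j γ : Γ₁) : SL(2, ℤ)) = γ)
    {A : Type*} [AddCommGroup A] {φ : Additive Γ₁ →+ A} {F : SL(2, ℤ) → A}
    (hF : IsLift Γ₁ φ F) : IsLift Γ₂ (φ.comp (MonoidHom.toAdditive j)) F := by
  refine ⟨fun g γ => ?_, hF.T_left⟩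
  have := hF.mul_right g (j γ)
  rw [hj] at this
  exact this

theorem isParabolicHom_comp (j : Γ₂ →* Γ₁) (hj : ∀ γ : Γ₂, ((j γ : Γ₁) : SL(2, ℤ)) = γ)
    {A : Type*} [AddCommGroup A] {φ : Additive Γ₁ →+ A} (hφ : IsParabolicHom Γ₁ φ) :
    IsParabolicHom Γ₂ (φ.comp (MonoidHom.toAdditive j)) := by
  intro γ hγ
  show φ (Additive.ofMul (j γ)) = 0
  apply hφ
  rw [hj]
  exact hγ

/-! ### a homomorphism with a lift is parabolic -/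

/-- An integral homomorphism of `Γ` that has a lift is parabolic. -/
theorem isParabolicHom_of_isLift {Γ : Subgroup SL(2, ℤ)} {χ : Additive Γ →+ ℤ}
    {F : SL(2, ℤ) → ℤ} (hF : IsLift Γ χ F) : IsParabolicHom Γ χ := by
  intro γ hγ
  obtain ⟨δ, m, h⟩ := S21.exists_conj_T_zpow_of_trace_sq (γ : SL(2, ℤ)) hγ
  have hsq : ((γ * γ : Γ) : SL(2, ℤ)) = δ * T ^ (m + m) * δ⁻¹ := by
    have e : (δ * T ^ m * δ⁻¹) * (δ * T ^ m * δ⁻¹) = δ * T ^ (m + m) * δ⁻¹ := by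
      rw [zpow_add]; group
    rcases h with h | h
    · rw [Subgroup.coe_mul, h, e]
    · rw [Subgroup.coe_mul, h, neg_mul_neg, e]
  have h1 := hF.mul_right δ⁻¹ (γ * γ)
  rw [hsq] at h1
  have h2 : δ⁻¹ * (δ * T ^ (m + m) * δ⁻¹) = T ^ (m + m) * δ⁻¹ := by group
  rw [h2, PDPair.isLift_T_zpow_left hF] at h1
  have h3 : χ (Additive.ofMul (γ * γ)) = χ (Additive.ofMul γ) + χ (Additive.ofMul γ) := by
    rw [ofMul_mul, map_add]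
  rw [h3] at h1
  linarith

/-! ### push-forward of lifts -/

section Push

variable (Γ₁ Γ₂)

/-- The index set: left cosets of `Γ₂` in `Γ₁`. -/
abbrev Idx : Type := Γ₁ ⧸ Γ₂.subgroupOf Γ₁

/-- The chosen left coset representatives of `Γ₁ / Γ₂`. -/
noncomputable def trep (i : Idx Γ₁ Γ₂) : Γ₁ := Quotient.out i

theorem mk_trep (i : Idx Γ₁ Γ₂) : (QuotientGroup.mk (trep Γ₁ Γ₂ i) : Idx Γ₁ Γ₂) = i :=
  Quotient.out_eq i

/-- The push-forward of a function on `SL(2, ℤ)` along the representatives of `Γ₁ / Γ₂`. -/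
noncomputable def pushLift [Fintype (Idx Γ₁ Γ₂)] {A : Type*} [AddCommGroup A]
    (F' : SL(2, ℤ) → A) (g : SL(2, ℤ)) : A :=
  ∑ i : Idx Γ₁ Γ₂, F' (g * ((trep Γ₁ Γ₂ i : Γ₁) : SL(2, ℤ)))

variable {Γ₁ Γ₂}

theorem mem_of_mk_eq {a b : Γ₁} (h : (QuotientGroup.mk a : Idx Γ₁ Γ₂) = QuotientGroup.mk b) :
    ((a : SL(2, ℤ)))⁻¹ * (b : SL(2, ℤ)) ∈ Γ₂ := by
  have h2 := QuotientGroup.eq.mp h
  rw [Subgroup.mem_subgroupOf] at h2
  simpa using h2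

theorem mk_eq_of_mem {a b : Γ₁} (h : ((a : SL(2, ℤ)))⁻¹ * (b : SL(2, ℤ)) ∈ Γ₂) :
    (QuotientGroup.mk a : Idx Γ₁ Γ₂) = QuotientGroup.mk b := by
  refine QuotientGroup.eq.mpr ?_
  rw [Subgroup.mem_subgroupOf]
  simpa using h

theorem exists_part (j : Γ₂ →* Γ₁) (hj : ∀ γ : Γ₂, ((j γ : Γ₁) : SL(2, ℤ)) = γ) (γ : Γ₁)
    (i : Idx Γ₁ Γ₂) : ∃ h : Γ₂, γ * trep Γ₁ Γ₂ i = trep Γ₁ Γ₂ (γ • i) * j h := by
  have h1 : (QuotientGroup.mk (trep Γ₁ Γ₂ (γ • i)) : Idx Γ₁ Γ₂)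
      = QuotientGroup.mk (γ * trep Γ₁ Γ₂ i) := by
    rw [mk_trep]
    conv_lhs => rw [← mk_trep Γ₁ Γ₂ i]
    rfl
  have h2 := mem_of_mk_eq h1
  obtain ⟨h, hh⟩ : ∃ h : Γ₂, (h : SL(2, ℤ))
      = ((trep Γ₁ Γ₂ (γ • i) : Γ₁) : SL(2, ℤ))⁻¹ * ((γ * trep Γ₁ Γ₂ i : Γ₁) : SL(2, ℤ)) :=
    ⟨⟨_, h2⟩, rfl⟩
  refine ⟨h, ?_⟩
  apply Subtype.ext
  show ((γ * trep Γ₁ Γ₂ i : Γ₁) : SL(2, ℤ))
    = ((trep Γ₁ Γ₂ (γ • i) : Γ₁) : SL(2, ℤ)) * ((j h : Γ₁) : SL(2, ℤ))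
  rw [hj, hh, mul_inv_cancel_left]

theorem exists_mem_eq (j : Γ₂ →* Γ₁) (hj : ∀ γ : Γ₂, ((j γ : Γ₁) : SL(2, ℤ)) = γ) {x : Γ₁}
    (hx : (x : SL(2, ℤ)) ∈ Γ₂) : ∃ h : Γ₂, j h = x :=
  ⟨⟨x, hx⟩, Subtype.ext (hj _)⟩

/-- The transfer computed with the left coset representatives `trep`. -/
theorem transferAlong_eq_sum [Fintype (Idx Γ₁ Γ₂)] (j : Γ₂ →* Γ₁)
    (hj : ∀ γ : Γ₂, ((j γ : Γ₁) : SL(2, ℤ)) = γ) {A : Type*} [AddCommGroup A]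
    (ψ : Additive Γ₂ →+ A) (γ : Γ₁) (h : Idx Γ₁ Γ₂ → Γ₂)
    (hh : ∀ i, γ * trep Γ₁ Γ₂ i = trep Γ₁ Γ₂ (γ • i) * j (h i)) :
    transferAlong j ψ (Additive.ofMul γ) = ∑ i, ψ (Additive.ofMul (h i)) := by
  have key := transferAlong_apply_of_reps j (injective_of_coe j hj)
    (fun i : Idx Γ₁ Γ₂ => (trep Γ₁ Γ₂ i)⁻¹)
    (by
      intro g
      have h1 : (QuotientGroup.mk g⁻¹ : Idx Γ₁ Γ₂)
          = QuotientGroup.mk (trep Γ₁ Γ₂ (QuotientGroup.mk g⁻¹)) := (mk_trep Γ₁ Γ₂ _).symm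
      have h2 := mem_of_mk_eq h1
      obtain ⟨k, hk⟩ := exists_mem_eq j hj (x := g * trep Γ₁ Γ₂ (QuotientGroup.mk g⁻¹))
        (by simpa using h2)
      exact ⟨_, k, by rw [hk, mul_inv_cancel_right]⟩)
    (by
      rintro i i' ⟨k, hk⟩
      rw [← mk_trep Γ₁ Γ₂ i, ← mk_trep Γ₁ Γ₂ i']
      refine mk_eq_of_mem ?_
      have h1 : (trep Γ₁ Γ₂ i)⁻¹ * trep Γ₁ Γ₂ i' = j k := by
        rw [hk, mul_assoc, inv_mul_cancel, mul_one]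
      have h2 := congrArg (fun x : Γ₁ => (x : SL(2, ℤ))) h1
      simp only [Subgroup.coe_mul, Subgroup.coe_inv, hj] at h2
      rw [h2]
      exact k.2)
    γ (fun i => γ⁻¹ • i) (fun i => h (γ⁻¹ • i))
    (by
      intro i
      have h1 := hh (γ⁻¹ • i)
      rw [smul_inv_smul] at h1
      rw [eq_mul_inv_iff_mul_eq, mul_assoc, h1, inv_mul_cancel_left])
    ψ
  rw [key]
  exact Equiv.sum_comp (MulAction.toPerm γ⁻¹) (fun i => ψ (Additive.ofMul (h i)))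

/-- The push-forward of a lift of `ψ` is a lift of the transfer of `ψ`. -/
theorem isLift_pushLift [Fintype (Idx Γ₁ Γ₂)] (j : Γ₂ →* Γ₁)
    (hj : ∀ γ : Γ₂, ((j γ : Γ₁) : SL(2, ℤ)) = γ) {A : Type*} [AddCommGroup A]
    {ψ : Additive Γ₂ →+ A} {F' : SL(2, ℤ) → A} (hF' : IsLift Γ₂ ψ F') :
    IsLift Γ₁ (transferAlong j ψ) (pushLift Γ₁ Γ₂ F') := by
  refine ⟨fun g γ => ?_, fun g => ?_⟩
  · choose h hh using exists_part j hj γ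
    rw [transferAlong_eq_sum j hj ψ γ h hh]
    unfold pushLift
    have e : ∀ i, F' (g * (γ : SL(2, ℤ)) * ((trep Γ₁ Γ₂ i : Γ₁) : SL(2, ℤ)))
        = F' (g * ((trep Γ₁ Γ₂ (γ • i) : Γ₁) : SL(2, ℤ))) + ψ (Additive.ofMul (h i)) := by
      intro i
      have h1 := congrArg (fun x : Γ₁ => (x : SL(2, ℤ))) (hh i)
      simp only [Subgroup.coe_mul, hj] at h1
      rw [mul_assoc, h1, ← mul_assoc, hF'.mul_right]
    simp only [e, Finset.sum_add_distrib]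
    congr 1
    exact Equiv.sum_comp (MulAction.toPerm γ)
      (fun i => F' (g * ((trep Γ₁ Γ₂ i : Γ₁) : SL(2, ℤ))))
  · unfold pushLift
    refine Finset.sum_congr rfl fun i _ => ?_
    rw [mul_assoc, hF'.T_left]

/-! ### symbols -/

/-- The symbol of a lift on `Γ₁`, viewed on `Γ₂`, is the pull-back of its symbol. -/
theorem sym_comp (j : Γ₂ →* Γ₁) (hj : ∀ γ : Γ₂, ((j γ : Γ₁) : SL(2, ℤ)) = γ)
    {A : Type*} [AddCommGroup A] {φ : Additive Γ₁ →+ A} {F : SL(2, ℤ) → A}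
    (hF : IsLift Γ₁ φ F) (y : SL(2, ℤ) ⧸ Γ₂) :
    sym Γ₂ F y = sym Γ₁ F (Subgroup.quotientMapOfLE (le_of_coe j hj) y) := by
  induction y using QuotientGroup.induction_on with
  | H g =>
    rw [Subgroup.quotientMapOfLE_apply_mk, sym_mk (isLift_comp j hj hF), sym_mk hF]

/-- The symbol of the pushed lift is the push-forward of the symbol. -/
theorem sym_pushLift [Fintype (Idx Γ₁ Γ₂)] [Fintype (SL(2, ℤ) ⧸ Γ₂)]
    [DecidableEq (SL(2, ℤ) ⧸ Γ₁)] (j : Γ₂ →* Γ₁)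
    (hj : ∀ γ : Γ₂, ((j γ : Γ₁) : SL(2, ℤ)) = γ)
    {ψ : Additive Γ₂ →+ ℤ} {F' : SL(2, ℤ) → ℤ} (hF' : IsLift Γ₂ ψ F') :
    sym Γ₁ (pushLift Γ₁ Γ₂ F')
      = PDSym.push (Subgroup.quotientMapOfLE (le_of_coe j hj)) (sym Γ₂ F') := by
  funext x
  induction x using QuotientGroup.induction_on with
  | H g =>
    rw [sym_mk (isLift_pushLift j hj hF')]
    unfold pushLift PDSym.push
    rw [← Finset.sum_sub_distrib]
    refine Finset.sum_nbij (fun i => (QuotientGroup.mk (g * ((trep Γ₁ Γ₂ i : Γ₁) : SL(2, ℤ)))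
      : SL(2, ℤ) ⧸ Γ₂)) ?_ ?_ ?_ ?_
    · intro i _
      rw [Finset.mem_filter]
      refine ⟨Finset.mem_univ _, ?_⟩
      rw [Subgroup.quotientMapOfLE_apply_mk]
      exact (QuotientGroup.mk_mul_of_mem g (trep Γ₁ Γ₂ i).2)
    · intro i _ i' _ hii
      have h1 : (g * ((trep Γ₁ Γ₂ i : Γ₁) : SL(2, ℤ)))⁻¹ * (g * ((trep Γ₁ Γ₂ i' : Γ₁) : SL(2, ℤ)))
          ∈ Γ₂ := QuotientGroup.eq.mp hii
      rw [mul_inv_rev, mul_assoc, inv_mul_cancel_left] at h1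
      rw [← mk_trep Γ₁ Γ₂ i, ← mk_trep Γ₁ Γ₂ i']
      exact mk_eq_of_mem h1
    · intro y hy
      rw [Finset.coe_filter, Set.mem_ofPred_eq] at hy
      obtain ⟨g', rfl⟩ := QuotientGroup.mk_surjective y
      have h1 : g⁻¹ * g' ∈ Γ₁ := by
        have := hy.2
        rw [Subgroup.quotientMapOfLE_apply_mk] at this
        exact QuotientGroup.eq.mp this.symm
      refine ⟨QuotientGroup.mk (⟨g⁻¹ * g', h1⟩ : Γ₁), Finset.mem_coe.mpr (Finset.mem_univ _), ?_⟩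
      show (QuotientGroup.mk (g * ((trep Γ₁ Γ₂ (QuotientGroup.mk (⟨g⁻¹ * g', h1⟩ : Γ₁)) : Γ₁)
        : SL(2, ℤ))) : SL(2, ℤ) ⧸ Γ₂) = QuotientGroup.mk g'
      have h2 := mem_of_mk_eq (mk_trep Γ₁ Γ₂ (QuotientGroup.mk (⟨g⁻¹ * g', h1⟩ : Γ₁)))
      refine QuotientGroup.eq.mpr ?_
      have h3 : (g * ((trep Γ₁ Γ₂ (QuotientGroup.mk (⟨g⁻¹ * g', h1⟩ : Γ₁)) : Γ₁) : SL(2, ℤ)))⁻¹ * g'
          = (((trep Γ₁ Γ₂ (QuotientGroup.mk (⟨g⁻¹ * g', h1⟩ : Γ₁)) : Γ₁) : SL(2, ℤ)))⁻¹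
            * (g⁻¹ * g') := by group
      rw [h3]
      exact h2
    · intro i _
      rw [sym_mk hF', mul_assoc]

/-! ### the adjunction -/

theorem finite_idx [Finite (SL(2, ℤ) ⧸ Γ₂)] : Finite (Idx Γ₁ Γ₂) := by
  refine Finite.of_injective (fun i : Idx Γ₁ Γ₂ =>
    (QuotientGroup.mk ((trep Γ₁ Γ₂ i : Γ₁) : SL(2, ℤ)) : SL(2, ℤ) ⧸ Γ₂)) ?_
  intro i i' hii
  have h1 := QuotientGroup.eq.mp hii
  rw [← mk_trep Γ₁ Γ₂ i, ← mk_trep Γ₁ Γ₂ i']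
  exact mk_eq_of_mem h1

/-- The transfer of a parabolic homomorphism is parabolic. -/
theorem isParabolicHom_transferAlong [Finite (SL(2, ℤ) ⧸ Γ₂)] (j : Γ₂ →* Γ₁)
    (hj : ∀ γ : Γ₂, ((j γ : Γ₁) : SL(2, ℤ)) = γ) {ψ : Additive Γ₂ →+ ℤ}
    (hψ : IsParabolicHom Γ₂ ψ) : IsParabolicHom Γ₁ (transferAlong j ψ) := by
  have := finite_idx (Γ₁ := Γ₁) (Γ₂ := Γ₂)
  have := Fintype.ofFinite (Idx Γ₁ Γ₂)
  obtain ⟨F', hF'⟩ := PDPair.exists_isLift Γ₂ ψ hψ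
  exact isParabolicHom_of_isLift (isLift_pushLift j hj hF')

/-- **Adjunction** `restriction ⊣ transfer` for the pairing `pd3`. -/
theorem pd3_comp (Γ₁ Γ₂ : Subgroup SL(2, ℤ)) [Fintype (SL(2, ℤ) ⧸ Γ₁)]
    [Fintype (SL(2, ℤ) ⧸ Γ₂)] (hneg : (-1 : SL(2, ℤ)) ∈ Γ₂) (j : Γ₂ →* Γ₁)
    (hj : ∀ γ : Γ₂, ((j γ : Γ₁) : SL(2, ℤ)) = γ) {φ : Additive Γ₁ →+ ℤ}
    (hφ : IsParabolicHom Γ₁ φ) {ψ : Additive Γ₂ →+ ℤ} (hψ : IsParabolicHom Γ₂ ψ) :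
    PDPair.pd3 Γ₂ (φ.comp (MonoidHom.toAdditive j)) ψ
      = PDPair.pd3 Γ₁ φ (transferAlong j ψ) := by
  classical
  have hle : Γ₂ ≤ Γ₁ := le_of_coe j hj
  have hneg₁ : (-1 : SL(2, ℤ)) ∈ Γ₁ := hle hneg
  have := finite_idx (Γ₁ := Γ₁) (Γ₂ := Γ₂)
  have := Fintype.ofFinite (Idx Γ₁ Γ₂)
  obtain ⟨F, hF⟩ := PDPair.exists_isLift Γ₁ φ hφ
  obtain ⟨F', hF'⟩ := PDPair.exists_isLift Γ₂ ψ hψ
  have hpush := isLift_pushLift j hj hF'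
  have hχ : IsParabolicHom Γ₁ (transferAlong j ψ) := isParabolicHom_of_isLift hpush
  rw [PDPair.pd3_eq hneg (isParabolicHom_comp j hj hφ) hψ (isLift_comp j hj hF) hF',
    PDPair.pd3_eq hneg₁ hφ hχ hF hpush, sym_pushLift j hj hF']
  have e : sym Γ₂ F = fun y => sym Γ₁ F (Subgroup.quotientMapOfLE hle y) :=
    funext fun y => sym_comp j hj hF y
  rw [e]
  refine PDSym.B3_comp_left (uX_uX_uX hneg₁) (uX_uX_uX hneg) _ (fun y => ?_) _ _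
  induction y using QuotientGroup.induction_on with
  | H g => rfl

end Push

end Fermat.Agent.S41.PDAdj
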