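import Mathlib
import Fermat.Prelude.Def_ModularCurve_PeriodMap
import Fermat.Agent.S41.PDSym
import Fermat.Agent.S41.PDDefs

/-!
# S41 / [PD] leaf (3i) : cycles (B-copy)

`Γ ≤ SL(2, ℤ)` with `-1 ∈ Γ`, `X = SL(2, ℤ) ⧸ Γ` finite.  For every `γ ∈ Γ` there are
`ζ E : X → ℤ` with

* `ζ (S • x) = - ζ x`,
* `E (T • y) - E y = ζ (T • y) + ζ y`  (the primitive consumed by `PDSym.isSym_dual` /
  `PDSym.B3_dual`),
* `∑ x, sym Γ F x * ζ x = 2 * φ γ` for every lift `F` of every homomorphism `φ`.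

Proof: induction over words in `S`, `T` (`SpecialLinearGroup.SL2Z_generators`), carrying the
chain `c` with `F g - F 1 = ∑ x, ξ x * c x` together with the primitive `E`.
-/

set_option autoImplicit false

open scoped MatrixGroups
open ModularGroup ModularCurve.Period

namespace Fermat.Agent.S41.PDCycleB

open Fermat.Agent.S41.PD

variable (Γ : Subgroup SL(2, ℤ))

open Classical in
/-- The indicator function of the point `a` of the coset space. -/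
noncomputable def ind (a y : SL(2, ℤ) ⧸ Γ) : ℤ := if y = a then 1 else 0

variable {Γ}

theorem ind_smul (k g : SL(2, ℤ)) (y : SL(2, ℤ) ⧸ Γ) :
    ind Γ ((k * g : SL(2, ℤ)) : SL(2, ℤ) ⧸ Γ) (k • y) = ind Γ (g : SL(2, ℤ) ⧸ Γ) y := by
  unfold ind
  have h : (k • y = ((k * g : SL(2, ℤ)) : SL(2, ℤ) ⧸ Γ)) ↔ y = (g : SL(2, ℤ) ⧸ Γ) := by
    have e : ((k * g : SL(2, ℤ)) : SL(2, ℤ) ⧸ Γ) = k • (g : SL(2, ℤ) ⧸ Γ) := rfl
    rw [e]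
    exact (MulAction.injective k).eq_iff
  by_cases hy : y = (g : SL(2, ℤ) ⧸ Γ)
  · rw [if_pos hy, if_pos (h.mpr hy)]
  · rw [if_neg hy, if_neg (fun h' => hy (h.mp h'))]

theorem S_smul_S_smul (hneg : (-1 : SL(2, ℤ)) ∈ Γ) (x : SL(2, ℤ) ⧸ Γ) : S • S • x = x :=
  sX_sX hneg x

theorem ind_S (hneg : (-1 : SL(2, ℤ)) ∈ Γ) (g : SL(2, ℤ)) (z : SL(2, ℤ) ⧸ Γ) :
    ind Γ (g : SL(2, ℤ) ⧸ Γ) (S • z) = ind Γ ((S * g : SL(2, ℤ)) : SL(2, ℤ) ⧸ Γ) z := by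
  unfold ind
  have h : (S • z = (g : SL(2, ℤ) ⧸ Γ)) ↔ z = ((S * g : SL(2, ℤ)) : SL(2, ℤ) ⧸ Γ) := by
    have e : ((S * g : SL(2, ℤ)) : SL(2, ℤ) ⧸ Γ) = S • (g : SL(2, ℤ) ⧸ Γ) := rfl
    rw [e]
    constructor
    · intro h
      rw [← h, S_smul_S_smul hneg]
    · intro h
      rw [h, S_smul_S_smul hneg]
  by_cases hz : z = ((S * g : SL(2, ℤ)) : SL(2, ℤ) ⧸ Γ)
  · rw [if_pos hz, if_pos (h.mpr hz)]
  · rw [if_neg hz, if_neg (fun h' => hz (h.mp h'))]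

theorem sum_mul_ind [Fintype (SL(2, ℤ) ⧸ Γ)] (f : SL(2, ℤ) ⧸ Γ → ℤ) (a : SL(2, ℤ) ⧸ Γ) :
    ∑ x, f x * ind Γ a x = f a := by
  classical
  unfold ind
  simp [mul_ite, Finset.sum_ite_eq']

variable (Γ)

/-- The induction predicate: a chain `c` computing `F g - F 1` from the symbol, together with a
primitive `E` of the (corrected) `T`-coboundary of `c - c ∘ S`. -/
def Q [Fintype (SL(2, ℤ) ⧸ Γ)] (g : SL(2, ℤ)) : Prop :=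
  ∃ c E : SL(2, ℤ) ⧸ Γ → ℤ,
    (∀ (F : SL(2, ℤ) → ℤ) (ξ : SL(2, ℤ) ⧸ Γ → ℤ), (∀ h, F (T * h) = F h) →
        (∀ h : SL(2, ℤ), ξ (h : SL(2, ℤ) ⧸ Γ) = F (S * h) - F h) →
        F g - F 1 = ∑ x, ξ x * c x) ∧
    ∀ y : SL(2, ℤ) ⧸ Γ, E (T • y) - E y =
      (c (T • y) - c (S • T • y) - ind Γ ((1 : SL(2, ℤ)) : SL(2, ℤ) ⧸ Γ) (T • y)
          + ind Γ (g : SL(2, ℤ) ⧸ Γ) (T • y)) +
      (c y - c (S • y) - ind Γ ((1 : SL(2, ℤ)) : SL(2, ℤ) ⧸ Γ) y + ind Γ (g : SL(2, ℤ) ⧸ Γ) y)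

variable {Γ}

theorem Q_one [Fintype (SL(2, ℤ) ⧸ Γ)] : Q Γ 1 := by
  refine ⟨fun _ => 0, fun _ => 0, ?_, ?_⟩
  · intro F ξ _ _
    simp
  · intro y
    ring

theorem Q_S_mul [Fintype (SL(2, ℤ) ⧸ Γ)] (hneg : (-1 : SL(2, ℤ)) ∈ Γ) {g : SL(2, ℤ)}
    (h : Q Γ g) : Q Γ (S * g) := by
  obtain ⟨c, E, hA, hB⟩ := h
  refine ⟨fun x => c x + ind Γ (g : SL(2, ℤ) ⧸ Γ) x, E, ?_, ?_⟩
  · intro F ξ hT hξ
    simp only [mul_add, Finset.sum_add_distrib, sum_mul_ind]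
    rw [← hA F ξ hT hξ, hξ g]
    ring
  · intro y
    beta_reduce
    rw [hB y, ind_S hneg g (T • y), ind_S hneg g y]
    ring

theorem Q_S_inv_mul [Fintype (SL(2, ℤ) ⧸ Γ)] (hneg : (-1 : SL(2, ℤ)) ∈ Γ) {g : SL(2, ℤ)}
    (h : Q Γ g) : Q Γ (S⁻¹ * g) := by
  obtain ⟨c, E, hA, hB⟩ := h
  refine ⟨fun x => c x - ind Γ ((S⁻¹ * g : SL(2, ℤ)) : SL(2, ℤ) ⧸ Γ) x, E, ?_, ?_⟩
  · intro F ξ hT hξ
    simp only [mul_sub, Finset.sum_sub_distrib, sum_mul_ind]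
    rw [← hA F ξ hT hξ, hξ (S⁻¹ * g), mul_inv_cancel_left]
    ring
  · intro y
    have e1 := ind_S hneg (S⁻¹ * g) (T • y)
    have e2 := ind_S hneg (S⁻¹ * g) y
    rw [mul_inv_cancel_left] at e1 e2
    beta_reduce
    rw [hB y, e1, e2]
    ring

theorem Q_T_mul [Fintype (SL(2, ℤ) ⧸ Γ)] {g : SL(2, ℤ)} (h : Q Γ g) : Q Γ (T * g) := by
  obtain ⟨c, E, hA, hB⟩ := h
  refine ⟨c, fun y => E y - ind Γ (g : SL(2, ℤ) ⧸ Γ) y
      - ind Γ ((T * g : SL(2, ℤ)) : SL(2, ℤ) ⧸ Γ) y, ?_, ?_⟩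
  · intro F ξ hT hξ
    rw [hT g]
    exact hA F ξ hT hξ
  · intro y
    have e := ind_smul (Γ := Γ) T g y
    have hB' := hB y
    simp only
    rw [e]
    linarith

theorem Q_T_inv_mul [Fintype (SL(2, ℤ) ⧸ Γ)] {g : SL(2, ℤ)} (h : Q Γ g) : Q Γ (T⁻¹ * g) := by
  obtain ⟨c, E, hA, hB⟩ := h
  refine ⟨c, fun y => E y + ind Γ ((T⁻¹ * g : SL(2, ℤ)) : SL(2, ℤ) ⧸ Γ) y
      + ind Γ (g : SL(2, ℤ) ⧸ Γ) y, ?_, ?_⟩
  · intro F ξ hT hξ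
    have h1 := hT (T⁻¹ * g)
    rw [mul_inv_cancel_left] at h1
    rw [← h1]
    exact hA F ξ hT hξ
  · intro y
    have e := ind_smul (Γ := Γ) T (T⁻¹ * g) y
    rw [mul_inv_cancel_left] at e
    have hB' := hB y
    simp only
    rw [e] at hB' ⊢
    linarith

theorem Q_all [Fintype (SL(2, ℤ) ⧸ Γ)] (hneg : (-1 : SL(2, ℤ)) ∈ Γ) (g : SL(2, ℤ)) : Q Γ g := by
  have hg : g ∈ Subgroup.closure ({S, T} : Set SL(2, ℤ)) := by
    rw [SpecialLinearGroup.SL2Z_generators]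
    exact Subgroup.mem_top g
  induction hg using Subgroup.closure_induction_left with
  | one => exact Q_one
  | mul_left x hx y _ ih =>
    rcases hx with rfl | hx
    · exact Q_S_mul hneg ih
    · rw [Set.mem_singleton_iff] at hx
      subst hx
      exact Q_T_mul ih
  | inv_mul_cancel x hx y _ ih =>
    rcases hx with rfl | hx
    · exact Q_S_inv_mul hneg ih
    · rw [Set.mem_singleton_iff] at hx
      subst hx
      exact Q_T_inv_mul ih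

/-- **Cycles, raw form.** -/
theorem exists_cycle_raw [Fintype (SL(2, ℤ) ⧸ Γ)] (hneg : (-1 : SL(2, ℤ)) ∈ Γ) (γ : Γ) :
    ∃ ζ E : SL(2, ℤ) ⧸ Γ → ℤ, (∀ x, ζ (S • x) = - ζ x) ∧
      (∀ y, E (T • y) - E y = ζ (T • y) + ζ y) ∧
      ∀ (F : SL(2, ℤ) → ℤ) (ξ : SL(2, ℤ) ⧸ Γ → ℤ), (∀ h, F (T * h) = F h) →
        (∀ h : SL(2, ℤ), ξ (h : SL(2, ℤ) ⧸ Γ) = F (S * h) - F h) →
        (∀ x, ξ (S • x) = - ξ x) →
        ∑ x, ξ x * ζ x = 2 * (F γ - F 1) := by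
  obtain ⟨c, E, hA, hB⟩ := Q_all hneg (γ : SL(2, ℤ))
  have hγ : ((γ : SL(2, ℤ)) : SL(2, ℤ) ⧸ Γ) = ((1 : SL(2, ℤ)) : SL(2, ℤ) ⧸ Γ) := by
    rw [← one_mul (γ : SL(2, ℤ))]
    exact QuotientGroup.mk_mul_of_mem 1 γ.2
  refine ⟨fun x => c x - c (S • x), E, ?_, ?_, ?_⟩
  · intro x
    simp only
    rw [S_smul_S_smul hneg]
    ring
  · intro y
    have := hB y
    rw [hγ] at this
    simp only
    linarith
  · intro F ξ hT hξ hS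
    rw [hA F ξ hT hξ]
    have h1 : ∑ x, ξ x * c (S • x) = - ∑ x, ξ x * c x := by
      rw [← Finset.sum_neg_distrib]
      symm
      refine Fintype.sum_bijective (fun x => S • x) (MulAction.bijective S) _ _ ?_
      intro x
      rw [hS x, S_smul_S_smul hneg]
      ring
    simp only [mul_sub, Finset.sum_sub_distrib]
    rw [h1]
    ring

/-- A homomorphism to `ℤ` kills `-1`. -/
theorem hom_neg_one (hneg : (-1 : SL(2, ℤ)) ∈ Γ) (φ : Additive Γ →+ ℤ) :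
    φ (Additive.ofMul (⟨-1, hneg⟩ : Γ)) = 0 := by
  have h1 : (⟨-1, hneg⟩ : Γ) * ⟨-1, hneg⟩ = 1 := by
    apply Subtype.ext
    show (-1 : SL(2, ℤ)) * (-1) = 1
    simp
  have h2 : φ (Additive.ofMul ((⟨-1, hneg⟩ : Γ) * ⟨-1, hneg⟩)) = 0 := by
    rw [h1]
    exact map_zero φ
  rw [ofMul_mul, map_add] at h2
  omega

/-- The symbol of a lift is `S`-odd (no parabolicity needed over `ℤ`). -/
theorem sym_S_smul (hneg : (-1 : SL(2, ℤ)) ∈ Γ) {φ : Additive Γ →+ ℤ} {F : SL(2, ℤ) → ℤ}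
    (hF : IsLift Γ φ F) (x : SL(2, ℤ) ⧸ Γ) : sym Γ F (S • x) = - sym Γ F x := by
  induction x using QuotientGroup.induction_on with
  | H g =>
    have e : S • (g : SL(2, ℤ) ⧸ Γ) = ((S * g : SL(2, ℤ)) : SL(2, ℤ) ⧸ Γ) := rfl
    rw [e, sym_mk hF, sym_mk hF, ← mul_assoc, S_mul_S, neg_one_mul]
    have h2 := hF.mul_right g ⟨-1, hneg⟩
    rw [hom_neg_one hneg φ, add_zero] at h2
    have h3 : g * ((⟨-1, hneg⟩ : Γ) : SL(2, ℤ)) = -g := mul_neg_one g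
    rw [h3] at h2
    rw [h2]
    ring

/-- **Leaf (3i), cycles** (in the names of `PDDefs`, `s = sX Γ`, `u = uX Γ`): for every `γ ∈ Γ`
there are a cycle `ζ` and a primitive `E`, in exactly the shape consumed by `PDSym.isSym_dual` /
`PDSym.B3_dual`, such that `⟨sym F, ζ⟩ = 2 φ γ` for every lift `F` of every homomorphism `φ`. -/
theorem exists_cycle (Γ : Subgroup SL(2, ℤ)) [Fintype (SL(2, ℤ) ⧸ Γ)]
    (hneg : (-1 : SL(2, ℤ)) ∈ Γ) (γ : Γ) :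
    ∃ ζ E : SL(2, ℤ) ⧸ Γ → ℤ, (∀ x, ζ (sX Γ x) = - ζ x) ∧
      (∀ y, E (uX Γ (sX Γ y)) - E y = ζ (uX Γ (sX Γ y)) + ζ y) ∧
      ∀ (φ : Additive Γ →+ ℤ) (F : SL(2, ℤ) → ℤ), IsLift Γ φ F →
        ∑ x, sym Γ F x * ζ x = 2 * φ (Additive.ofMul γ) := by
  obtain ⟨ζ, E, h1, h2, h3⟩ := exists_cycle_raw hneg γ
  refine ⟨ζ, E, h1, ?_, ?_⟩
  · intro y
    rw [uX_sX hneg]
    exact h2 y
  · intro φ F hF
    rw [h3 F (sym Γ F) hF.T_left (fun h => sym_mk hF h) (sym_S_smul hneg hF)]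
    have := hF.mul_right 1 γ
    rw [one_mul] at this
    rw [this]
    ring

/-- The same with the (superfluous) parabolicity hypothesis, the shape of the (3iii) consumer. -/
theorem exists_cycle_par (Γ : Subgroup SL(2, ℤ)) [Fintype (SL(2, ℤ) ⧸ Γ)]
    (hneg : (-1 : SL(2, ℤ)) ∈ Γ) (γ : Γ) :
    ∃ ζ E : SL(2, ℤ) ⧸ Γ → ℤ, (∀ x, ζ (sX Γ x) = - ζ x) ∧
      (∀ y, E (uX Γ (sX Γ y)) - E y = ζ (uX Γ (sX Γ y)) + ζ y) ∧
      ∀ (φ : Additive Γ →+ ℤ) (F : SL(2, ℤ) → ℤ), IsParabolicHom Γ φ → IsLift Γ φ F →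
        ∑ x, sym Γ F x * ζ x = 2 * φ (Additive.ofMul γ) := by
  obtain ⟨ζ, E, h1, h2, h3⟩ := exists_cycle Γ hneg γ
  exact ⟨ζ, E, h1, h2, fun φ F _ hF => h3 φ F hF⟩

end Fermat.Agent.S41.PDCycleB
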