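import Mathlib

/-!
# The potential lemma on `SL(2, ℤ)` (Euclid recursion)

If `ξ : SL(2, ℤ) → A` satisfies `ξ (S * g) = - ξ g` and
`ξ g + ξ (T * S * g) + ξ (T * S * (T * S * g)) = 0`, then there is
`F : SL(2, ℤ) → A` with `F (T * g) = F g` and `F (S * g) = F g + ξ g`.
-/

namespace Fermat.Agent.S41.PDPotential

open Matrix ModularGroup MatrixGroups

section entries

theorem S_mul_apply_zero (g : SL(2, ℤ)) (j : Fin 2) : (S * g) 0 j = - g 1 j := by
  simp [Matrix.SpecialLinearGroup.coe_mul, coe_S, Matrix.mul_apply, Fin.sum_univ_two]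

theorem S_mul_apply_one (g : SL(2, ℤ)) (j : Fin 2) : (S * g) 1 j = g 0 j := by
  simp [Matrix.SpecialLinearGroup.coe_mul, coe_S, Matrix.mul_apply, Fin.sum_univ_two]

theorem T_zpow_mul_apply_zero (n : ℤ) (g : SL(2, ℤ)) (j : Fin 2) :
    (T ^ n * g) 0 j = g 0 j + n * g 1 j := by
  simp [Matrix.SpecialLinearGroup.coe_mul, coe_T_zpow, Matrix.mul_apply, Fin.sum_univ_two]

theorem T_zpow_mul_apply_one (n : ℤ) (g : SL(2, ℤ)) (j : Fin 2) :
    (T ^ n * g) 1 j = g 1 j := by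
  simp [Matrix.SpecialLinearGroup.coe_mul, coe_T_zpow, Matrix.mul_apply, Fin.sum_univ_two]

theorem T_mul_apply_zero (g : SL(2, ℤ)) (j : Fin 2) : (T * g) 0 j = g 0 j + g 1 j := by
  have := T_zpow_mul_apply_zero 1 g j
  rw [_root_.zpow_one] at this
  rw [this]; ring

theorem T_mul_apply_one (g : SL(2, ℤ)) (j : Fin 2) : (T * g) 1 j = g 1 j := by
  have := T_zpow_mul_apply_one 1 g j
  rwa [_root_.zpow_one] at this

theorem T_inv_mul_apply_zero (g : SL(2, ℤ)) (j : Fin 2) : (T⁻¹ * g) 0 j = g 0 j - g 1 j := by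
  have := T_zpow_mul_apply_zero (-1) g j
  rw [_root_.zpow_neg_one] at this
  rw [this]; ring

theorem T_inv_mul_apply_one (g : SL(2, ℤ)) (j : Fin 2) : (T⁻¹ * g) 1 j = g 1 j := by
  have := T_zpow_mul_apply_one (-1) g j
  rwa [_root_.zpow_neg_one] at this

theorem neg_apply (g : SL(2, ℤ)) (i j : Fin 2) : (-g) i j = - g i j := by
  simp [Matrix.SpecialLinearGroup.coe_neg]

theorem det_eq (g : SL(2, ℤ)) : g 0 0 * g 1 1 - g 0 1 * g 1 0 = 1 := by
  have := g.det_coe
  rwa [Matrix.det_fin_two] at this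

theorem S_mul_S : S * S = -1 := by
  ext i j; fin_cases i <;> fin_cases j <;>
    simp [Matrix.SpecialLinearGroup.coe_mul, coe_S, Matrix.mul_apply, Fin.sum_univ_two,
      Matrix.SpecialLinearGroup.coe_neg]

theorem S_mul_S_mul (g : SL(2, ℤ)) : S * (S * g) = -g := by
  rw [← mul_assoc, S_mul_S, neg_one_mul]

/-- `(S T)^2 = T⁻¹ S`. -/
theorem STST : S * T * S * T = T⁻¹ * S := by
  ext i j; fin_cases i <;> fin_cases j <;>
    simp [Matrix.SpecialLinearGroup.coe_mul, coe_S, coe_T, coe_T_inv, Matrix.mul_apply,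
      Fin.sum_univ_two]

/-- `(T S)^2 = S T⁻¹`. -/
theorem TSTS : T * S * T * S = S * T⁻¹ := by
  ext i j; fin_cases i <;> fin_cases j <;>
    simp [Matrix.SpecialLinearGroup.coe_mul, coe_S, coe_T, coe_T_inv, Matrix.mul_apply,
      Fin.sum_univ_two]

end entries

section pot

variable {A : Type*} [AddCommGroup A]

/-- The Euclid potential of `ξ`. -/
noncomputable def pot (ξ : SL(2, ℤ) → A) (g : SL(2, ℤ)) : A :=
  if h : g 1 0 = 0 then 0
  else pot ξ (S * (T ^ (-(g 0 0 / g 1 0)) * g)) - ξ (T ^ (-(g 0 0 / g 1 0)) * g)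
termination_by (g 1 0).natAbs
decreasing_by
  rw [S_mul_apply_one, T_zpow_mul_apply_zero]
  have h1 : g 0 0 + -(g 0 0 / g 1 0) * g 1 0 = g 0 0 % g 1 0 := by
    rw [Int.emod_def]; ring
  rw [h1]
  have h2 := Int.emod_nonneg (g 0 0) h
  have h3 := Int.emod_lt_abs (g 0 0) h
  rw [Int.abs_eq_natAbs] at h3
  omega

theorem pot_eq (ξ : SL(2, ℤ) → A) (g : SL(2, ℤ)) :
    pot ξ g = if g 1 0 = 0 then 0
      else pot ξ (S * (T ^ (-(g 0 0 / g 1 0)) * g)) - ξ (T ^ (-(g 0 0 / g 1 0)) * g) := by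
  rw [pot]
  split_ifs <;> rfl

theorem pot_of_zero (ξ : SL(2, ℤ) → A) {g : SL(2, ℤ)} (h : g 1 0 = 0) : pot ξ g = 0 := by
  rw [pot_eq, if_pos h]

theorem pot_T_zpow (ξ : SL(2, ℤ) → A) (n : ℤ) (g : SL(2, ℤ)) : pot ξ (T ^ n * g) = pot ξ g := by
  rw [pot_eq ξ (T ^ n * g), pot_eq ξ g]
  rw [T_zpow_mul_apply_one, T_zpow_mul_apply_zero]
  by_cases hc : g 1 0 = 0
  · rw [if_pos hc, if_pos hc]
  · rw [if_neg hc, if_neg hc]
    have h1 : (g 0 0 + n * g 1 0) / g 1 0 = g 0 0 / g 1 0 + n := Int.add_mul_ediv_right _ _ hc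
    have h2 : T ^ (-((g 0 0 + n * g 1 0) / g 1 0)) * (T ^ n * g) = T ^ (-(g 0 0 / g 1 0)) * g := by
      rw [h1, ← mul_assoc, ← _root_.zpow_add]
      congr 2; ring
    rw [h2]

theorem pot_T (ξ : SL(2, ℤ) → A) (g : SL(2, ℤ)) : pot ξ (T * g) = pot ξ g := by
  have := pot_T_zpow ξ 1 g
  rwa [_root_.zpow_one] at this

theorem pot_T_inv (ξ : SL(2, ℤ) → A) (g : SL(2, ℤ)) : pot ξ (T⁻¹ * g) = pot ξ g := by
  have := pot_T_zpow ξ (-1) g
  rwa [_root_.zpow_neg_one] at this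

theorem xi_neg (ξ : SL(2, ℤ) → A) (hS : ∀ g, ξ (S * g) = - ξ g) (g : SL(2, ℤ)) :
    ξ (-g) = ξ g := by
  rw [← S_mul_S_mul, hS, hS, neg_neg]

/-- The edge relation when the lower left entry vanishes. -/
theorem edge_of_zero (ξ : SL(2, ℤ) → A) (hS : ∀ g, ξ (S * g) = - ξ g) {g : SL(2, ℤ)}
    (hc : g 1 0 = 0) : pot ξ (S * g) = pot ξ g + ξ g := by
  have ha : g 0 0 ≠ 0 := by
    intro ha
    have := det_eq g
    rw [ha, hc] at this
    simp at this
  rw [pot_of_zero ξ hc, zero_add, pot_eq ξ (S * g), S_mul_apply_one, S_mul_apply_zero, hc,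
    if_neg ha]
  simp only [neg_zero, Int.zero_ediv, _root_.zpow_zero, one_mul]
  rw [hS g, pot_of_zero ξ (g := S * (S * g)), zero_sub, neg_neg]
  rw [S_mul_apply_one, S_mul_apply_zero, hc, neg_zero]

/-- The edge relation for a reduced matrix holds by definition. -/
theorem edge_of_reduced (ξ : SL(2, ℤ) → A) {g : SL(2, ℤ)} (h0 : 0 ≤ g 0 0)
    (h1 : g 0 0 < g 1 0 ∨ g 0 0 < - g 1 0) : pot ξ (S * g) = pot ξ g + ξ g := by
  have hc : g 1 0 ≠ 0 := by omega
  have hk : g 0 0 / g 1 0 = 0 := by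
    rcases h1 with h1 | h1
    · exact Int.ediv_eq_zero_of_lt h0 h1
    · have h2 : g 0 0 / (-(g 1 0)) = 0 := Int.ediv_eq_zero_of_lt h0 h1
      rw [Int.ediv_neg] at h2
      omega
  rw [pot_eq ξ g, if_neg hc, hk]
  simp only [neg_zero, _root_.zpow_zero, one_mul]
  abel

/-- The edge relation at a "parent edge" of level `n + 1`, given the edge relation at all
levels `≤ n`. -/
theorem edge_of_parent (ξ : SL(2, ℤ) → A) (hS : ∀ g, ξ (S * g) = - ξ g)
    (hU : ∀ g, ξ g + ξ (T * S * g) + ξ (T * S * (T * S * g)) = 0) (n : ℤ)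
    (hE : ∀ h : SL(2, ℤ), -n ≤ h 0 0 → h 0 0 ≤ n → -n ≤ h 1 0 → h 1 0 ≤ n →
      pot ξ (S * h) = pot ξ h + ξ h)
    {g : SL(2, ℤ)} (hc : g 1 0 = n + 1 ∨ g 1 0 = -(n + 1)) (hn : 0 ≤ n)
    (ha1 : -(n + 1) ≤ g 0 0) (ha2 : g 0 0 < n + 1) : pot ξ (S * g) = pot ξ g + ξ g := by
  by_cases ha : 0 ≤ g 0 0
  · exact edge_of_reduced ξ ha (by omega)
  · rw [not_le] at ha
    rcases hc with hc | hc
    · -- `c = n + 1 > 0`, third vertex via `h = T * S * T * g`
      have h00 : (T * (S * (T * g))) 0 0 = g 0 0 := by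
        rw [T_mul_apply_zero, S_mul_apply_zero, S_mul_apply_one, T_mul_apply_zero,
          T_mul_apply_one]; ring
      have h10 : (T * (S * (T * g))) 1 0 = g 0 0 + g 1 0 := by
        rw [T_mul_apply_one, S_mul_apply_one, T_mul_apply_zero]
      have hEh : pot ξ (S * (T * (S * (T * g)))) = pot ξ (T * (S * (T * g))) +
          ξ (T * (S * (T * g))) := by
        by_cases hz : g 0 0 + g 1 0 = 0
        · exact edge_of_zero ξ hS (by rw [h10]; exact hz)
        · exact hE _ (by rw [h00]; omega) (by rw [h00]; omega) (by rw [h10]; omega)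
            (by rw [h10]; omega)
      have i2 : S * (T * (S * (T * g))) = T⁻¹ * (S * g) := by
        have := congrArg (· * g) STST
        simpa [mul_assoc] using this
      have i1 : S * (T * g) = T⁻¹ * (T * (S * (T * g))) := by
        rw [inv_mul_cancel_left]
      have hD : pot ξ (S * (T * g)) = pot ξ (T * g) + ξ (T * g) :=
        edge_of_reduced ξ (by rw [T_mul_apply_zero]; omega)
          (by rw [T_mul_apply_zero, T_mul_apply_one]; left; omega)
      have i3 : T * S * (T * S * (T * g)) = S * g := by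
        have := congrArg (· * (T * g)) TSTS
        simpa [mul_assoc] using this
      have hT := hU (T * g)
      rw [i3, hS g, mul_assoc T S (T * g), add_neg_eq_zero] at hT
      have e1 : pot ξ (S * g) = pot ξ (S * (T * (S * (T * g)))) := by rw [i2, pot_T_inv]
      have e2 : pot ξ (S * (T * g)) = pot ξ (T * (S * (T * g))) :=
        (congrArg (pot ξ) i1).trans (pot_T_inv ξ _)
      rw [e1, hEh, ← e2, hD, pot_T, add_assoc, hT]
    · -- `c = -(n + 1) < 0`, third vertex via `h = T * S * g`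
      have h00 : (T * (S * g)) 0 0 = g 0 0 - g 1 0 := by
        rw [T_mul_apply_zero, S_mul_apply_zero, S_mul_apply_one]; ring
      have h10 : (T * (S * g)) 1 0 = g 0 0 := by
        rw [T_mul_apply_one, S_mul_apply_one]
      have hEh : pot ξ (S * (T * (S * g))) = pot ξ (T * (S * g)) + ξ (T * (S * g)) := by
        by_cases hz : g 0 0 = -(n + 1)
        · exact edge_of_reduced ξ (by rw [h00]; omega) (by rw [h00, h10]; right; omega)
        · exact hE _ (by rw [h00]; omega) (by rw [h00]; omega) (by rw [h10]; omega)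
            (by rw [h10]; omega)
      have j1 : S * g = T⁻¹ * (T * (S * g)) := by rw [inv_mul_cancel_left]
      have j2 : S * (T⁻¹ * g) = T * (S * (T * (S * g))) := by
        have := congrArg (· * g) TSTS
        simp only [mul_assoc] at this
        exact this.symm
      have hD : pot ξ (S * (T⁻¹ * g)) = pot ξ (T⁻¹ * g) + ξ (T⁻¹ * g) :=
        edge_of_reduced ξ (by rw [T_inv_mul_apply_zero]; omega)
          (by rw [T_inv_mul_apply_zero, T_inv_mul_apply_one]; right; omega)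
      have hT := hU g
      have j3 : T * S * (T * S * g) = S * (T⁻¹ * g) := by
        rw [j2]; simp only [mul_assoc]
      rw [j3, hS (T⁻¹ * g), mul_assoc T S g, add_neg_eq_zero] at hT
      have e1 : pot ξ (S * g) = pot ξ (T * (S * g)) :=
        (congrArg (pot ξ) j1).trans (pot_T_inv ξ _)
      have e2 : pot ξ (S * (T * (S * g))) = pot ξ (S * (T⁻¹ * g)) := by rw [j2, pot_T]
      rw [e2, hD, pot_T_inv, ← hT, ← add_assoc] at hEh
      rw [e1]
      exact (add_right_cancel hEh).symm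

/-- Invariance under `g ↦ -g` at level `n + 1`. -/
theorem pot_neg_step (ξ : SL(2, ℤ) → A) (hS : ∀ g, ξ (S * g) = - ξ g)
    (hU : ∀ g, ξ g + ξ (T * S * g) + ξ (T * S * (T * S * g)) = 0) (n : ℤ) (hn : 0 ≤ n)
    (hE : ∀ h : SL(2, ℤ), -n ≤ h 0 0 → h 0 0 ≤ n → -n ≤ h 1 0 → h 1 0 ≤ n →
      pot ξ (S * h) = pot ξ h + ξ h)
    (hN : ∀ h : SL(2, ℤ), -n ≤ h 1 0 → h 1 0 ≤ n → pot ξ (-h) = pot ξ h)
    {g : SL(2, ℤ)} (hc : g 1 0 = n + 1 ∨ g 1 0 = -(n + 1)) : pot ξ (-g) = pot ξ g := by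
  have hc0 : g 1 0 ≠ 0 := by omega
  -- reduce to `0 ≤ a < n + 1`
  set k : ℤ := g 0 0 / g 1 0 with hk
  set g₀ : SL(2, ℤ) := T ^ (-k) * g with hg₀
  have h10 : g₀ 1 0 = g 1 0 := by rw [hg₀, T_zpow_mul_apply_one]
  have h00 : g₀ 0 0 = g 0 0 % g 1 0 := by
    rw [hg₀, T_zpow_mul_apply_zero, Int.emod_def, hk]; ring
  have hr1 : 0 ≤ g₀ 0 0 := by rw [h00]; exact Int.emod_nonneg _ hc0
  have hr2 : g₀ 0 0 < n + 1 := by
    have h3 := Int.emod_lt_abs (g 0 0) hc0
    rw [h00]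
    rcases hc with hc | hc
    · rw [hc, abs_of_nonneg (by omega)] at h3; rw [hc]; exact h3
    · rw [hc, abs_of_nonpos (by omega), neg_neg] at h3; rw [hc]; exact h3
  have e1 : pot ξ g₀ = pot ξ g := pot_T_zpow ξ (-k) g
  have e2 : pot ξ (-g₀) = pot ξ (-g) := by
    have : -g₀ = T ^ (-k) * (-g) := by rw [hg₀, mul_neg]
    rw [this, pot_T_zpow]
  rw [← e1, ← e2]
  have hD : pot ξ (S * g₀) = pot ξ g₀ + ξ g₀ := edge_of_reduced ξ hr1 (by omega)
  have hP : pot ξ (S * (-g₀)) = pot ξ (-g₀) + ξ (-g₀) := by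
    refine edge_of_parent ξ hS hU n hE ?_ hn ?_ ?_
    · rw [neg_apply, h10]; omega
    · rw [neg_apply]; omega
    · rw [neg_apply]; omega
  have hNS : pot ξ (S * (-g₀)) = pot ξ (S * g₀) := by
    rw [mul_neg]
    exact hN _ (by rw [S_mul_apply_one]; omega) (by rw [S_mul_apply_one]; omega)
  rw [hNS, hD, xi_neg ξ hS] at hP
  exact (add_right_cancel hP).symm

/-- The two statements proved by simultaneous induction on the level. -/
theorem level_induction (ξ : SL(2, ℤ) → A) (hS : ∀ g, ξ (S * g) = - ξ g)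
    (hU : ∀ g, ξ g + ξ (T * S * g) + ξ (T * S * (T * S * g)) = 0) (n : ℕ) :
    (∀ h : SL(2, ℤ), -(n : ℤ) ≤ h 1 0 → h 1 0 ≤ n → pot ξ (-h) = pot ξ h) ∧
    (∀ h : SL(2, ℤ), -(n : ℤ) ≤ h 0 0 → h 0 0 ≤ n → -(n : ℤ) ≤ h 1 0 → h 1 0 ≤ n →
      pot ξ (S * h) = pot ξ h + ξ h) := by
  induction n with
  | zero =>
    refine ⟨fun h h1 h2 => ?_, fun h a1 a2 c1 c2 => ?_⟩
    · have hc : h 1 0 = 0 := by simp at h1 h2; omega
      rw [pot_of_zero ξ hc, pot_of_zero ξ (g := -h) (by rw [neg_apply, hc, neg_zero])]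
    · exfalso
      have hc : h 1 0 = 0 := by simp at c1 c2; omega
      have ha : h 0 0 = 0 := by simp at a1 a2; omega
      have := det_eq h
      rw [ha, hc] at this
      simp at this
  | succ n ih =>
    obtain ⟨hN, hE⟩ := ih
    have hn : (0 : ℤ) ≤ n := Int.natCast_nonneg n
    have hN' : ∀ h : SL(2, ℤ), -((n + 1 : ℕ) : ℤ) ≤ h 1 0 → h 1 0 ≤ ((n + 1 : ℕ) : ℤ) →
        pot ξ (-h) = pot ξ h := by
      intro h h1 h2
      push_cast at h1 h2
      by_cases hc : h 1 0 = n + 1 ∨ h 1 0 = -(n + 1)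
      · exact pot_neg_step ξ hS hU n hn hE hN hc
      · exact hN h (by omega) (by omega)
    refine ⟨hN', ?_⟩
    intro g a1 a2 c1 c2
    push_cast at a1 a2 c1 c2
    by_cases hc0 : g 1 0 = 0
    · exact edge_of_zero ξ hS hc0
    by_cases hc : g 1 0 = n + 1 ∨ g 1 0 = -(n + 1)
    · by_cases ha : g 0 0 < n + 1
      · exact edge_of_parent ξ hS hU n hE hc hn a1 ha
      · -- `a = n + 1`: pass to `-g`
        have hP : pot ξ (S * (-g)) = pot ξ (-g) + ξ (-g) := by
          refine edge_of_parent ξ hS hU n hE ?_ hn ?_ ?_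
          · rw [neg_apply]; omega
          · rw [neg_apply]; omega
          · rw [neg_apply]; omega
        have h1 : pot ξ (-g) = pot ξ g := hN' g (by push_cast; omega) (by push_cast; omega)
        have h2 : pot ξ (S * (-g)) = pot ξ (S * g) := by
          rw [mul_neg]
          exact hN' _ (by rw [S_mul_apply_one]; push_cast; omega)
            (by rw [S_mul_apply_one]; push_cast; omega)
        rw [h1, h2, xi_neg ξ hS] at hP
        exact hP
    · by_cases ha : -(n : ℤ) ≤ g 0 0 ∧ g 0 0 ≤ n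
      · exact hE g ha.1 ha.2 (by omega) (by omega)
      · -- `|a| = n + 1`: use the parent edge `S * g`
        have hP : pot ξ (S * (S * g)) = pot ξ (S * g) + ξ (S * g) := by
          refine edge_of_parent ξ hS hU n hE ?_ hn ?_ ?_
          · rw [S_mul_apply_one]; omega
          · rw [S_mul_apply_zero]; omega
          · rw [S_mul_apply_zero]; omega
        rw [S_mul_S_mul, hN g (by omega) (by omega), hS g] at hP
        rw [hP]; abel

/-- **Potential lemma.** A function `ξ` on `SL(2, ℤ)` satisfying the two loop conditions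
(coming from `S ^ 2 = -1` and `(T S) ^ 3 = -1`) is the `S`-increment of a left-`T`-invariant
function. -/
theorem exists_potential (ξ : SL(2, ℤ) → A) (hS : ∀ g, ξ (S * g) = - ξ g)
    (hU : ∀ g, ξ g + ξ (T * S * g) + ξ (T * S * (T * S * g)) = 0) :
    ∃ F : SL(2, ℤ) → A, (∀ g, F (T * g) = F g) ∧ (∀ g, F (S * g) = F g + ξ g) := by
  refine ⟨pot ξ, pot_T ξ, fun g => ?_⟩
  refine (level_induction ξ hS hU ((g 0 0).natAbs + (g 1 0).natAbs)).2 g ?_ ?_ ?_ ?_ <;>
    omega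

/-- Strengthened form: the potential can be chosen normalised at `1`, invariant under all
powers of `T` and under `g ↦ -g`. -/
theorem exists_potential' (ξ : SL(2, ℤ) → A) (hS : ∀ g, ξ (S * g) = - ξ g)
    (hU : ∀ g, ξ g + ξ (T * S * g) + ξ (T * S * (T * S * g)) = 0) :
    ∃ F : SL(2, ℤ) → A, (∀ g, F (T * g) = F g) ∧ (∀ g, F (S * g) = F g + ξ g) ∧
      (∀ g, F (-g) = F g) ∧ (∀ (n : ℤ) (g : SL(2, ℤ)), F (T ^ n * g) = F g) ∧ F 1 = 0 := by
  refine ⟨pot ξ, pot_T ξ, fun g => ?_, fun g => ?_, pot_T_zpow ξ, pot_of_zero ξ (by simp)⟩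
  · refine (level_induction ξ hS hU ((g 0 0).natAbs + (g 1 0).natAbs)).2 g ?_ ?_ ?_ ?_ <;>
      omega
  · refine (level_induction ξ hS hU ((g 1 0).natAbs)).1 g ?_ ?_ <;> omega

end pot

end Fermat.Agent.S41.PDPotential
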