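/-
S41 / [PD] leaf (2c) (B-copy): SURJECTIVITY — every symbol `η ∈ Msym` on `X = SL(2, ℤ) ⧸ Γ` is the
symbol of a lift of a parabolic homomorphism (`exists_isLift_sym_eq`), from the potential lemma
`PDPotential.exists_potential`.  The file also contains a spare, self-contained copy of leaf (0)
(existence of lifts, symbol identities) in raw-hypothesis form.

`Γ ≤ SL(2, ℤ)` arbitrary, `A` an abelian group, `S T = ModularGroup.S / T`.
A *lift* of `φ : Additive Γ →+ A` is `F : SL(2, ℤ) → A` with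
`F (g * γ) = F g + φ γ` (`γ ∈ Γ`) and `F (T * g) = F g`; its *symbol* is
`ξ g = F (S * g) - F g`.

* `exists_lift`  : every parabolic `φ` has a lift (with `F 1 = 0`), no averaging.
* `lift_neg`, `lift_T_zpow`, `symbol_mul_right`, `symbol_S`, `symbol_tri` : symbol identities.
* `lift_sub_mul_right`, `lift_sub_T` : change of lift.
* `exists_hom_of_potential`, `exists_lift_of_symbol` : conversely a `T`-invariant potential
  of a right-`Γ`-invariant symbol is a lift of a parabolic homomorphism.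

Owner: helper47.
-/
import Mathlib
import Fermat.Prelude.Def_ModularCurve_PeriodMap
import Fermat.Agent.S21.Parabolic
import Fermat.Agent.S41.PDDefs
import Fermat.Agent.S41.PDPotential

set_option autoImplicit false
set_option linter.unusedSectionVars false

namespace Fermat.Agent.S41.PDSurjB

open ModularGroup ModularCurve.Period
open scoped MatrixGroups

variable (Γ : Subgroup SL(2, ℤ)) {A : Type*} [AddCommGroup A]

/-! ### Matrix facts -/

theorem S_mul_S' : (S * S : SL(2, ℤ)) = -1 := by decide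

theorem T_S_TS_TS : (T * (S * (T * S * (T * S))) : SL(2, ℤ)) = -1 := by decide

theorem trace_conj (r M : SL(2, ℤ)) :
    ((r⁻¹ * M * r : SL(2, ℤ)) : Matrix (Fin 2) (Fin 2) ℤ).trace
      = (M : Matrix (Fin 2) (Fin 2) ℤ).trace := by
  rw [Matrix.SpecialLinearGroup.coe_mul, Matrix.SpecialLinearGroup.coe_mul,
    Matrix.trace_mul_cycle, ← Matrix.SpecialLinearGroup.coe_mul, mul_inv_cancel,
    Matrix.SpecialLinearGroup.coe_one, Matrix.one_mul]

theorem trace_T_zpow (m : ℤ) : ((T ^ m : SL(2, ℤ)) : Matrix (Fin 2) (Fin 2) ℤ).trace = 2 := by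
  rw [coe_T_zpow, Matrix.trace_fin_two]
  simp

theorem trace_sq_conj_T_zpow (r : SL(2, ℤ)) (m : ℤ) :
    ((r⁻¹ * T ^ m * r : SL(2, ℤ)) : Matrix (Fin 2) (Fin 2) ℤ).trace ^ 2 = 4 := by
  rw [trace_conj, trace_T_zpow]; norm_num

theorem trace_sq_neg_one : (((-1 : SL(2, ℤ))) : Matrix (Fin 2) (Fin 2) ℤ).trace ^ 2 = 4 := by
  decide

/-! ### The orbit relation of `⟨T⟩ × Γ` on `SL(2, ℤ)` -/

/-- `g ∼ g'` iff `g' = T ^ j * g * γ` for some `j : ℤ`, `γ ∈ Γ`. -/
def orbRel : Setoid SL(2, ℤ) where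
  r g g' := ∃ (j : ℤ) (γ : Γ), g' = T ^ j * g * (γ : SL(2, ℤ))
  iseqv :=
    { refl := fun g => ⟨0, 1, by simp⟩
      symm := by
        rintro g g' ⟨j, γ, rfl⟩
        exact ⟨-j, γ⁻¹, by simp [mul_assoc]⟩
      trans := by
        rintro g g' g'' ⟨j, γ, rfl⟩ ⟨k, γ', rfl⟩
        exact ⟨k + j, γ * γ', by simp [zpow_add, mul_assoc]⟩ }

/-- The chosen orbit representative. -/
noncomputable def rep (g : SL(2, ℤ)) : SL(2, ℤ) :=
  Quotient.out (Quotient.mk (orbRel Γ) g)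

theorem rep_spec (g : SL(2, ℤ)) : ∃ (j : ℤ) (γ : Γ), g = T ^ j * rep Γ g * (γ : SL(2, ℤ)) :=
  Quotient.exact (Quotient.out_eq (Quotient.mk (orbRel Γ) g))

theorem rep_eq_of_rel {g g' : SL(2, ℤ)} (h : (orbRel Γ).r g g') : rep Γ g = rep Γ g' := by
  unfold rep
  rw [Quotient.sound (s := orbRel Γ) h]

variable {Γ}

/-- Well-definedness: two decompositions of the same element over the same representative
give the same value of a parabolic homomorphism. -/
theorem phi_eq_of_decomp {φ : Additive Γ →+ A} (hφ : IsParabolicHom Γ φ) (r : SL(2, ℤ))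
    {j k : ℤ} {γ γ' : Γ} (h : T ^ j * r * (γ : SL(2, ℤ)) = T ^ k * r * (γ' : SL(2, ℤ))) :
    φ (Additive.ofMul γ) = φ (Additive.ofMul γ') := by
  have hconj : ((γ' * γ⁻¹ : Γ) : SL(2, ℤ)) = r⁻¹ * T ^ (j - k) * r := by
    have h1 : r * (γ : SL(2, ℤ)) = T ^ (-j) * (T ^ k * r * (γ' : SL(2, ℤ))) := by
      rw [← h]; simp [mul_assoc]
    have h2 : (γ' : SL(2, ℤ)) = r⁻¹ * T ^ (j - k) * r * (γ : SL(2, ℤ)) := by
      rw [mul_assoc (r⁻¹ * T ^ (j - k)), h1]
      group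
    rw [Subgroup.coe_mul, Subgroup.coe_inv, h2]
    simp [mul_assoc]
  have hzero : φ (Additive.ofMul (γ' * γ⁻¹)) = 0 := by
    apply hφ
    rw [hconj]
    exact trace_sq_conj_T_zpow r (j - k)
  have hadd : φ (Additive.ofMul (γ' * γ⁻¹)) = φ (Additive.ofMul γ') - φ (Additive.ofMul γ) := by
    rw [ofMul_mul, ofMul_inv, map_add, map_neg, sub_eq_add_neg]
  rw [hadd, sub_eq_zero] at hzero
  exact hzero.symm

variable (Γ)

/-- The raw lift attached to the choice of orbit representatives. -/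
noncomputable def rawLift (φ : Additive Γ →+ A) (g : SL(2, ℤ)) : A :=
  φ (Additive.ofMul (Classical.choose (Classical.choose_spec (rep_spec Γ g))))

variable {Γ}

theorem rawLift_eq {φ : Additive Γ →+ A} (hφ : IsParabolicHom Γ φ) (g : SL(2, ℤ)) (j : ℤ)
    (γ : Γ) (h : g = T ^ j * rep Γ g * (γ : SL(2, ℤ))) :
    rawLift Γ φ g = φ (Additive.ofMul γ) := by
  have hs := Classical.choose_spec (Classical.choose_spec (rep_spec Γ g))
  unfold rawLift
  exact phi_eq_of_decomp hφ (rep Γ g) (hs.symm.trans h)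

theorem rawLift_mul_right {φ : Additive Γ →+ A} (hφ : IsParabolicHom Γ φ) (g : SL(2, ℤ))
    (γ : Γ) : rawLift Γ φ (g * (γ : SL(2, ℤ))) = rawLift Γ φ g + φ (Additive.ofMul γ) := by
  obtain ⟨j, γ₀, h⟩ := rep_spec Γ g
  have hrep : rep Γ g = rep Γ (g * (γ : SL(2, ℤ))) :=
    rep_eq_of_rel Γ ⟨0, γ, by simp⟩
  have h' : g * (γ : SL(2, ℤ)) = T ^ j * rep Γ (g * (γ : SL(2, ℤ))) * ((γ₀ * γ : Γ) : SL(2, ℤ)) := by
    rw [← hrep, Subgroup.coe_mul, ← mul_assoc, ← h]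
  rw [rawLift_eq hφ _ j (γ₀ * γ) h', rawLift_eq hφ g j γ₀ h, ofMul_mul, map_add]

theorem rawLift_T {φ : Additive Γ →+ A} (hφ : IsParabolicHom Γ φ) (g : SL(2, ℤ)) :
    rawLift Γ φ (T * g) = rawLift Γ φ g := by
  obtain ⟨j, γ₀, h⟩ := rep_spec Γ g
  have hrep : rep Γ g = rep Γ (T * g) :=
    rep_eq_of_rel Γ ⟨1, 1, by simp⟩
  have h' : T * g = T ^ (1 + j) * rep Γ (T * g) * (γ₀ : SL(2, ℤ)) := by
    rw [← hrep, zpow_add, zpow_one, mul_assoc, mul_assoc, ← mul_assoc (T ^ j), ← h]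
  rw [rawLift_eq hφ _ (1 + j) γ₀ h', rawLift_eq hφ g j γ₀ h]

/-- **(0a) Existence of integral lifts.** Every parabolic homomorphism `φ : Γ → A` has a
lift `F : SL(2, ℤ) → A`: `F (g * γ) = F g + φ γ`, `F (T * g) = F g`, normalised by `F 1 = 0`. -/
theorem exists_lift (Γ : Subgroup SL(2, ℤ)) {A : Type*} [AddCommGroup A]
    (φ : Additive Γ →+ A) (hφ : IsParabolicHom Γ φ) :
    ∃ F : SL(2, ℤ) → A, (∀ (g : SL(2, ℤ)) (γ : Γ),
        F (g * (γ : SL(2, ℤ))) = F g + φ (Additive.ofMul γ)) ∧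
      (∀ g, F (T * g) = F g) ∧ F 1 = 0 := by
  refine ⟨fun g => rawLift Γ φ g - rawLift Γ φ 1, fun g γ => ?_, fun g => ?_, sub_self _⟩
  · simp only [rawLift_mul_right hφ]; abel
  · simp only [rawLift_T hφ]

/-! ### (0b) Symbol identities -/

section Symbol

variable {φ : Additive Γ →+ A} {F : SL(2, ℤ) → A}

/-- A lift restricted to `Γ` is `φ` up to the constant `F 1`. -/
theorem lift_apply_coe (hF : ∀ (g : SL(2, ℤ)) (γ : Γ),
    F (g * (γ : SL(2, ℤ))) = F g + φ (Additive.ofMul γ)) (γ : Γ) :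
    F (γ : SL(2, ℤ)) = F 1 + φ (Additive.ofMul γ) := by
  have := hF 1 γ
  rwa [one_mul] at this

theorem phi_neg_one (hφ : IsParabolicHom Γ φ) (hneg : (-1 : SL(2, ℤ)) ∈ Γ) :
    φ (Additive.ofMul (⟨-1, hneg⟩ : Γ)) = 0 :=
  hφ ⟨-1, hneg⟩ trace_sq_neg_one

theorem lift_neg (hφ : IsParabolicHom Γ φ) (hneg : (-1 : SL(2, ℤ)) ∈ Γ)
    (hF : ∀ (g : SL(2, ℤ)) (γ : Γ), F (g * (γ : SL(2, ℤ))) = F g + φ (Additive.ofMul γ))
    (g : SL(2, ℤ)) : F (-g) = F g := by
  have h := hF g ⟨-1, hneg⟩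
  rw [phi_neg_one hφ hneg, add_zero] at h
  rw [← h]
  congr 1
  simp

theorem lift_T_zpow (hT : ∀ g, F (T * g) = F g) (n : ℤ) (g : SL(2, ℤ)) :
    F (T ^ n * g) = F g := by
  induction n using Int.induction_on with
  | zero => simp
  | succ n ih =>
    rw [zpow_add, zpow_one, mul_assoc] at *
    have h2 : T ^ (n : ℤ) * (T * g) = T * (T ^ (n : ℤ) * g) := by
      rw [← mul_assoc, ← mul_assoc]
      congr 1
      exact (Commute.zpow_self T n).eq
    rw [h2, hT, ih]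
  | pred n ih =>
    have h2 : T ^ (-(n : ℤ)) * g = T * (T ^ (-(n : ℤ) - 1) * g) := by
      rw [← mul_assoc]
      congr 1
      rw [← zpow_one_add]
      congr 1
      ring
    rw [h2, hT] at ih
    exact ih

theorem symbol_mul_right
    (hF : ∀ (g : SL(2, ℤ)) (γ : Γ), F (g * (γ : SL(2, ℤ))) = F g + φ (Additive.ofMul γ))
    (g : SL(2, ℤ)) (γ : Γ) :
    F (S * (g * (γ : SL(2, ℤ)))) - F (g * (γ : SL(2, ℤ))) = F (S * g) - F g := by
  rw [← mul_assoc, hF, hF]; abel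

theorem symbol_S (hφ : IsParabolicHom Γ φ) (hneg : (-1 : SL(2, ℤ)) ∈ Γ)
    (hF : ∀ (g : SL(2, ℤ)) (γ : Γ), F (g * (γ : SL(2, ℤ))) = F g + φ (Additive.ofMul γ))
    (g : SL(2, ℤ)) : F (S * (S * g)) - F (S * g) = -(F (S * g) - F g) := by
  have h : S * (S * g) = -g := by rw [← mul_assoc, S_mul_S']; simp
  rw [h, lift_neg hφ hneg hF]; abel

theorem symbol_tri (hφ : IsParabolicHom Γ φ) (hneg : (-1 : SL(2, ℤ)) ∈ Γ)
    (hF : ∀ (g : SL(2, ℤ)) (γ : Γ), F (g * (γ : SL(2, ℤ))) = F g + φ (Additive.ofMul γ))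
    (hT : ∀ g, F (T * g) = F g) (g : SL(2, ℤ)) :
    (F (S * g) - F g) + (F (S * (T * S * g)) - F (T * S * g))
      + (F (S * (T * S * (T * S * g))) - F (T * S * (T * S * g))) = 0 := by
  have e1 : F (T * S * g) = F (S * g) := by rw [mul_assoc, hT]
  have e2 : F (T * S * (T * S * g)) = F (S * (T * S * g)) := by rw [mul_assoc, hT]
  have e3 : F (S * (T * S * (T * S * g))) = F g := by
    have h : T * (S * (T * S * (T * S * g))) = -g := by
      have := congrArg (· * g) T_S_TS_TS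
      simp only [mul_assoc, neg_mul, one_mul] at this ⊢
      exact this
    rw [← hT, h, lift_neg hφ hneg hF]
  rw [e1, e2, e3]; abel

end Symbol

/-! ### (0c) Change of lift -/

theorem lift_sub_mul_right {φ : Additive Γ →+ A} {F₁ F₂ : SL(2, ℤ) → A}
    (h₁ : ∀ (g : SL(2, ℤ)) (γ : Γ), F₁ (g * (γ : SL(2, ℤ))) = F₁ g + φ (Additive.ofMul γ))
    (h₂ : ∀ (g : SL(2, ℤ)) (γ : Γ), F₂ (g * (γ : SL(2, ℤ))) = F₂ g + φ (Additive.ofMul γ))
    (g : SL(2, ℤ)) (γ : Γ) :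
    F₁ (g * (γ : SL(2, ℤ))) - F₂ (g * (γ : SL(2, ℤ))) = F₁ g - F₂ g := by
  rw [h₁, h₂]; abel

theorem lift_sub_T {F₁ F₂ : SL(2, ℤ) → A} (h₁ : ∀ g, F₁ (T * g) = F₁ g)
    (h₂ : ∀ g, F₂ (T * g) = F₂ g) (g : SL(2, ℤ)) : F₁ (T * g) - F₂ (T * g) = F₁ g - F₂ g := by
  rw [h₁, h₂]

/-! ### (0d) Converse: potentials of `Γ`-invariant symbols are lifts of parabolic homs -/

/-- A function on `SL(2, ℤ)` that is left-invariant under `S` and `T` is constant. -/
theorem const_of_left_invariant {B : Type*} (c : SL(2, ℤ) → B) (hS : ∀ g, c (S * g) = c g)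
    (hT : ∀ g, c (T * g) = c g) (g : SL(2, ℤ)) : c g = c 1 := by
  have key : ∀ h ∈ Subgroup.closure ({S, T} : Set SL(2, ℤ)), ∀ g, c (h * g) = c g := by
    intro h hh
    induction hh using Subgroup.closure_induction with
    | mem x hx =>
      rcases hx with rfl | rfl
      · exact hS
      · exact hT
    | one => intro g; rw [one_mul]
    | mul x y _ _ hx hy => intro g; rw [mul_assoc, hx, hy]
    | inv x _ hx => intro g; rw [← hx (x⁻¹ * g), mul_inv_cancel_left]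
  have hg : g ∈ Subgroup.closure ({S, T} : Set SL(2, ℤ)) := by
    rw [SpecialLinearGroup.SL2Z_generators]; trivial
  simpa using key g hg 1

/-- **(0d)** If `F` is `T`-invariant, even (`F (-g) = F g` in the form `F (S * (S * g)) = F g`)
and its symbol `F (S * g) - F g` is right-`Γ`-invariant, then `F` is a lift of a parabolic
homomorphism `φ : Γ → A` (namely `φ γ = F γ - F 1`). -/
theorem exists_hom_of_potential (Γ : Subgroup SL(2, ℤ)) {A : Type*} [AddCommGroup A]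
    (F : SL(2, ℤ) → A) (hT : ∀ g, F (T * g) = F g) (hSS : ∀ g, F (S * (S * g)) = F g)
    (hξ : ∀ (g : SL(2, ℤ)) (γ : Γ),
      F (S * (g * (γ : SL(2, ℤ)))) - F (g * (γ : SL(2, ℤ))) = F (S * g) - F g) :
    ∃ φ : Additive Γ →+ A, IsParabolicHom Γ φ ∧
      ∀ (g : SL(2, ℤ)) (γ : Γ), F (g * (γ : SL(2, ℤ))) = F g + φ (Additive.ofMul γ) := by
  -- the increment along `γ` is constant
  have hconst : ∀ (γ : Γ) (g : SL(2, ℤ)),
      F (g * (γ : SL(2, ℤ))) - F g = F (γ : SL(2, ℤ)) - F 1 := by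
    intro γ g
    have h := const_of_left_invariant (fun g => F (g * (γ : SL(2, ℤ))) - F g)
      (fun g => by
        show F (S * g * (γ : SL(2, ℤ))) - F (S * g) = F (g * (γ : SL(2, ℤ))) - F g
        have := hξ g γ
        rw [mul_assoc]
        rw [sub_eq_sub_iff_add_eq_add] at this ⊢
        rw [this]; abel)
      (fun g => by
        show F (T * g * (γ : SL(2, ℤ))) - F (T * g) = F (g * (γ : SL(2, ℤ))) - F g
        rw [mul_assoc, hT, hT]) g
    simpa using h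
  have hneg_inv : ∀ g, F (-g) = F g := by
    intro g
    have h : S * (S * g) = -g := by rw [← mul_assoc, S_mul_S']; simp
    rw [← h, hSS]
  let φ : Additive Γ →+ A := AddMonoidHom.mk'
    (fun a => F ((Additive.toMul a : Γ) : SL(2, ℤ)) - F 1)
    (by
      intro a b
      show F (((Additive.toMul a * Additive.toMul b : Γ)) : SL(2, ℤ)) - F 1 = _
      rw [Subgroup.coe_mul]
      have := hconst (Additive.toMul b) ((Additive.toMul a : Γ) : SL(2, ℤ))
      rw [sub_eq_iff_eq_add] at this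
      rw [this]; abel)
  have hφ_apply : ∀ γ : Γ, φ (Additive.ofMul γ) = F (γ : SL(2, ℤ)) - F 1 := fun _ => rfl
  refine ⟨φ, ?_, ?_⟩
  · intro γ hγ
    rw [hφ_apply]
    obtain ⟨δ, m, h | h⟩ := Fermat.Agent.S21.exists_conj_T_zpow_of_trace_sq (γ : SL(2, ℤ)) hγ
    · have h1 := hconst γ δ⁻¹
      rw [← h1, h]
      have : δ⁻¹ * (δ * T ^ m * δ⁻¹) = T ^ m * δ⁻¹ := by group
      rw [this, lift_T_zpow hT, sub_self]
    · have h1 := hconst γ δ⁻¹
      rw [← h1, h]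
      have : δ⁻¹ * -(δ * T ^ m * δ⁻¹) = -(T ^ m * δ⁻¹) := by
        rw [mul_neg]; congr 1; group
      rw [this, hneg_inv, lift_T_zpow hT, sub_self]
  · intro g γ
    rw [hφ_apply, ← hconst γ g]; abel

/-- **Corollary of the potential lemma (2).** A right-`Γ`-invariant symbol `ξ` on `SL(2, ℤ)`
(`ξ (S * g) = - ξ g`) which has a `T`-invariant potential is the symbol of a lift of a parabolic
homomorphism. The existence of the potential is the hypothesis `hpot` (leaf (2)). -/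
theorem exists_lift_of_symbol (Γ : Subgroup SL(2, ℤ)) {A : Type*} [AddCommGroup A]
    (ξ : SL(2, ℤ) → A) (hΓ : ∀ (g : SL(2, ℤ)) (γ : Γ), ξ (g * (γ : SL(2, ℤ))) = ξ g)
    (hS : ∀ g, ξ (S * g) = - ξ g)
    (hpot : ∃ F : SL(2, ℤ) → A, (∀ g, F (T * g) = F g) ∧ ∀ g, F (S * g) = F g + ξ g) :
    ∃ (φ : Additive Γ →+ A) (F : SL(2, ℤ) → A), IsParabolicHom Γ φ ∧
      (∀ (g : SL(2, ℤ)) (γ : Γ), F (g * (γ : SL(2, ℤ))) = F g + φ (Additive.ofMul γ)) ∧
      (∀ g, F (T * g) = F g) ∧ (∀ g, F (S * g) - F g = ξ g) := by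
  obtain ⟨F, hT, hF⟩ := hpot
  have hsym : ∀ g, F (S * g) - F g = ξ g := fun g => by rw [hF]; abel
  obtain ⟨φ, hφ, hlift⟩ := exists_hom_of_potential Γ F hT
    (fun g => by rw [hF, hF, hS]; abel)
    (fun g γ => by rw [hsym, hsym, hΓ])
  exact ⟨φ, F, hφ, hlift, hT, hsym⟩

/-! ### (2c) Surjectivity onto symbols, in the shared `PDDefs` vocabulary -/

/-- **(2c), general coefficients, with the potential lemma plugged in.** A function `η` on
`X = SL(2, ℤ) ⧸ Γ` with `η (S • x) = - η x` and `η x + η (u x) + η (u (u x)) = 0`, `u = (T * S) •`,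
is the symbol of a lift of a parabolic homomorphism. -/
theorem exists_isLift_sym_eq' (Γ : Subgroup SL(2, ℤ)) {A : Type*} [AddCommGroup A]
    (η : SL(2, ℤ) ⧸ Γ → A) (hanti : ∀ x, η (PD.sX Γ x) = - η x)
    (htri : ∀ x, η x + η (PD.uX Γ x) + η (PD.uX Γ (PD.uX Γ x)) = 0) :
    ∃ (ψ : Additive Γ →+ A) (F : SL(2, ℤ) → A),
      IsParabolicHom Γ ψ ∧ PD.IsLift Γ ψ F ∧ PD.sym Γ F = η := by
  obtain ⟨ψ, F, hψ, hlift, hT, hsym⟩ := exists_lift_of_symbol Γ
    (fun g => η (g : SL(2, ℤ) ⧸ Γ))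
    (fun g γ => by
      show η ((g * (γ : SL(2, ℤ)) : SL(2, ℤ)) : SL(2, ℤ) ⧸ Γ) = η (g : SL(2, ℤ) ⧸ Γ)
      rw [QuotientGroup.mk_mul_of_mem g γ.2])
    (fun g => hanti (g : SL(2, ℤ) ⧸ Γ))
    (PDPotential.exists_potential (fun g => η (g : SL(2, ℤ) ⧸ Γ))
      (fun g => hanti (g : SL(2, ℤ) ⧸ Γ)) (fun g => htri (g : SL(2, ℤ) ⧸ Γ)))
  have hF : PD.IsLift Γ ψ F := ⟨hlift, hT⟩
  refine ⟨ψ, F, hψ, hF, ?_⟩
  funext x
  induction x using QuotientGroup.induction_on with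
  | H g => rw [PD.sym_mk hF]; exact hsym g

/-- **(2c) SURJECTIVITY.** Every symbol `η` (`PDSym.IsSym (sX Γ) (uX Γ) η`) is the symbol
`sym Γ F` of a lift `F` of a parabolic homomorphism `ψ : Γ → ℤ`. -/
theorem exists_isLift_sym_eq (Γ : Subgroup SL(2, ℤ)) (η : SL(2, ℤ) ⧸ Γ → ℤ)
    (hη : PDSym.IsSym (PD.sX Γ) (PD.uX Γ) η) :
    ∃ (ψ : Additive Γ →+ ℤ) (F : SL(2, ℤ) → ℤ),
      IsParabolicHom Γ ψ ∧ PD.IsLift Γ ψ F ∧ PD.sym Γ F = η :=
  exists_isLift_sym_eq' Γ η hη.anti hη.tri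

/-- (0a) in the shared vocabulary (spare): every parabolic homomorphism has a lift. -/
theorem exists_isLift (Γ : Subgroup SL(2, ℤ)) {A : Type*} [AddCommGroup A]
    (φ : Additive Γ →+ A) (hφ : IsParabolicHom Γ φ) :
    ∃ F : SL(2, ℤ) → A, PD.IsLift Γ φ F ∧ F 1 = 0 := by
  obtain ⟨F, h1, h2, h3⟩ := exists_lift Γ φ hφ
  exact ⟨F, ⟨h1, h2⟩, h3⟩

end Fermat.Agent.S41.PDSurjB
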