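/-
S41 (level raising), block [PD]: the pairing.  Owner: helper98 ([PD] sub-captain).

The mod `p` intersection pairing on the parabolic lattices `Lpar M = Hom_par(Γ₀(M), ℤ)`:

* `pdPair M p : Lpar M →ₗ[ℤ] Lpar M →ₗ[ℤ] ZMod p` (junk value `0` for `M = 0`);
* `pdPair_skew`, `pdPair_nondegenerate` (every odd prime `p`, including `p = 3`).

The shapes are the ones consumed by `Plan.result_of_leaves` (`B`, `hBs`, `hBn`).  The adjunctions
`res_i ⊣ tr_i` (`hBa₁`, `hBa₂`) are in `S41/PD.lean`.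
-/
import Mathlib
import Fermat.Prelude.Def_ModularCurve_PeriodMap
import Fermat.Agent.S41.Defs
import Fermat.Agent.S41.LparFree
import Fermat.Agent.S41.PDSym
import Fermat.Agent.S41.PDDefs
import Fermat.Agent.S41.PDPair
import Fermat.Agent.S41.PDSurjB
import Fermat.Agent.S41.PDCycleB

set_option autoImplicit false
set_option linter.style.haveILetI false

open CongruenceSubgroup ModularCurve.Period
open scoped MatrixGroups

namespace Fermat.Agent.S41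

open Fermat.Agent.S41.PD Fermat.Agent.S41.PDPair

/-! ### general subgroups -/

/-- **Poincaré dual class of an element** (leaf (3iii)): for `γ ∈ Γ` there is a parabolic
homomorphism `ψ` with `3 B(φ, ψ) = -12 φ(γ)` for every parabolic `φ`. -/
theorem PDForm.exists_dual (Γ : Subgroup SL(2, ℤ)) [Fintype (SL(2, ℤ) ⧸ Γ)]
    (hneg : (-1 : SL(2, ℤ)) ∈ Γ) (γ : Γ) :
    ∃ ψ : Additive Γ →+ ℤ, IsParabolicHom Γ ψ ∧
      ∀ φ : Additive Γ →+ ℤ, IsParabolicHom Γ φ → pd3 Γ φ ψ = -12 * φ (Additive.ofMul γ) := by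
  obtain ⟨ζ, E, h1, h2, h3⟩ := PDCycleB.exists_cycle Γ hneg γ
  have hη : PDSym.IsSym (sX Γ) (uX Γ) (fun x => E x - E (sX Γ x)) :=
    PDSym.isSym_dual (sX_sX hneg) (uX_uX_uX hneg) h1 h2
  obtain ⟨ψ, F', hψ, hF', hsym⟩ := PDSurjB.exists_isLift_sym_eq Γ _ hη
  refine ⟨ψ, hψ, fun φ hφ => ?_⟩
  obtain ⟨F, hF⟩ := PDPair.exists_isLift Γ φ hφ
  rw [pd3_eq hneg hφ hψ hF hF', hsym,
    PDSym.B3_dual (sX_sX hneg) (uX_uX_uX hneg) (isSym_sym hneg hφ hF) h1 h2, h3 φ F hF]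
  ring

/-! ### the levels `Γ₀(M)` -/

theorem PDForm.neg_one_mem_Gamma0 (M : ℕ) : (-1 : SL(2, ℤ)) ∈ Gamma0 M := by
  rw [Gamma0_mem]
  simp

/-- The mod `p` pairing for `M ≠ 0`. -/
noncomputable def pdPairAux (M p : ℕ) [NeZero M] : Lpar M →ₗ[ℤ] Lpar M →ₗ[ℤ] ZMod p :=
  (pdZ (Gamma0 M) (PDForm.neg_one_mem_Gamma0 M)).compr₂ (Int.castAddHom (ZMod p)).toIntLinearMap

theorem pdPairAux_apply (M p : ℕ) [NeZero M] (x y : Lpar M) :
    pdPairAux M p x y = ((pd3 (Gamma0 M) x.1 y.1 / 3 : ℤ) : ZMod p) := rfl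

/-- **The mod `p` intersection pairing** on `Lpar M = Hom_par(Γ₀(M), ℤ)`. -/
noncomputable def pdPair (M p : ℕ) : Lpar M →ₗ[ℤ] Lpar M →ₗ[ℤ] ZMod p :=
  if h : M = 0 then 0 else
    haveI : NeZero M := ⟨h⟩
    pdPairAux M p

theorem pdPair_eq (M p : ℕ) [NeZero M] : pdPair M p = pdPairAux M p := by
  unfold pdPair
  rw [dif_neg (NeZero.ne M)]

theorem pdPair_apply (M p : ℕ) [NeZero M] (x y : Lpar M) :
    pdPair M p x y = ((pd3 (Gamma0 M) x.1 y.1 / 3 : ℤ) : ZMod p) := by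
  rw [pdPair_eq]; rfl

theorem pdPair_skew (M p : ℕ) (x y : Lpar M) : pdPair M p x y = - pdPair M p y x := by
  by_cases h : M = 0
  · unfold pdPair
    rw [dif_pos h]
    simp
  · haveI : NeZero M := ⟨h⟩
    rw [pdPair_apply, pdPair_apply, ← Int.cast_neg]
    congr 1
    have h1 := pdZ_skew (PDForm.neg_one_mem_Gamma0 M) x y
    rw [pdZ_apply, pdZ_apply] at h1
    exact h1

theorem pdPair_nondegenerate (M : ℕ) [NeZero M] {p : ℕ} [Fact p.Prime] (hp2 : p ≠ 2)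
    (x : Lpar M) (h : ∀ y, pdPair M p x y = 0) : ∃ z : Lpar M, x = (p : ℤ) • z := by
  have hp : p.Prime := Fact.out
  apply LparFree.exists_eq_smul_of_dvd (Gamma0 M) (p : ℤ) x
  intro γ'
  obtain ⟨γ, rfl⟩ := Additive.ofMul.surjective γ'
  obtain ⟨ψ, hψ, hdual⟩ := PDForm.exists_dual (Gamma0 M) (PDForm.neg_one_mem_Gamma0 M) γ
  have h1 := h ⟨ψ, hψ⟩
  rw [pdPair_apply, ZMod.intCast_zmod_eq_zero_iff_dvd] at h1
  have h2 : pd3 (Gamma0 M) x.1 ψ = -12 * x.1 (Additive.ofMul γ) := hdual x.1 x.2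
  rw [h2] at h1
  have h3 : (-12 * x.1 (Additive.ofMul γ)) / 3 = -4 * x.1 (Additive.ofMul γ) := by
    have : (-12 * x.1 (Additive.ofMul γ)) = 3 * (-4 * x.1 (Additive.ofMul γ)) := by ring
    rw [this, Int.mul_ediv_cancel_left _ (by norm_num : (3 : ℤ) ≠ 0)]
  rw [h3] at h1
  have hcop : IsCoprime (p : ℤ) (-4 : ℤ) := by
    have h4 : Nat.Coprime p 4 := by
      have : Nat.Coprime p 2 := (Nat.coprime_primes hp Nat.prime_two).mpr hp2
      exact Nat.Coprime.pow_right 2 this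
    have h5 : IsCoprime (p : ℤ) ((4 : ℕ) : ℤ) := Nat.isCoprime_iff_coprime.mpr h4
    exact h5.neg_right
  exact hcop.dvd_of_dvd_mul_left h1

end Fermat.Agent.S41
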