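/-
S41 [PD] leaf (5) of helper68's design (#1385): the INTRINSIC FORMULA.
Mathlib-only, independent of the PD definitions.

Conventions: `G = SL(2,ℤ)`, `Γ ≤ G`, `X = G ⧸ Γ` (left cosets), `S`, `T` act on the left,
`u = T * S`.  A lift of `φ : Γ → ℚ` is `F : G → ℚ` with `F (g * γ) = F g + φ γ`, `F (T * g) = F g`;
its symbol is `ξ g = F (S * g) - F g`.  A primitive is `H : G → ℚ` with
`H (g * γ) = H g + f γ - F g * ψ γ`.  Then `τ g = H (T * g) - H g` descends to `X` and
`6 * ∑ τ = - ∑ (ξ x * ξ' (u x) - ξ (u x) * ξ' x)`.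
-/
import Mathlib

set_option autoImplicit false

open scoped MatrixGroups

namespace Fermat.Agent.S41.PDIntr

open ModularGroup

/-! ### (5a) the finite-sum core -/

theorem six_sum_tau {X R : Type*} [Fintype X] [CommRing R] (s u : Equiv.Perm X)
    (xi xi' k tau : X → R)
    (hb : ∀ x, xi x + xi (u x) + xi (u (u x)) = 0)
    (hk : ∀ x, k x + k (s x) = -(xi x * xi' x))
    (htau : ∀ x, tau (s x) + tau (s (u x)) + tau (s (u (u x)))
      = -(k x + k (u x) + k (u (u x)))
        + (xi (u x) * xi' x + xi (u (u x)) * xi' x + xi (u (u x)) * xi' (u x))) :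
    6 * ∑ x, tau x = - ∑ x, (xi x * xi' (u x) - xi (u x) * xi' x) := by
  have e1 : ∀ f : X → R, ∑ x, f (s x) = ∑ x, f x := fun f => Equiv.sum_comp s f
  have e2 : ∀ f : X → R, ∑ x, f (u x) = ∑ x, f x := fun f => Equiv.sum_comp u f
  -- notation for the basic sums
  set A : R := ∑ x, xi x * xi' x with hA
  set Bq : R := ∑ x, xi (u x) * xi' x with hBq
  have t1 : ∑ x, tau (s x) = ∑ x, tau x := e1 tau
  have t2 : ∑ x, tau (s (u x)) = ∑ x, tau x := by
    rw [e2 (fun x => tau (s x)), e1]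
  have t3 : ∑ x, tau (s (u (u x))) = ∑ x, tau x := by
    rw [e2 (fun x => tau (s (u x))), e2 (fun x => tau (s x)), e1]
  have k2 : ∑ x, k (u x) = ∑ x, k x := e2 k
  have k3 : ∑ x, k (u (u x)) = ∑ x, k x := by
    rw [e2 (fun x => k (u x)), e2 k]
  have hk2 : 2 * ∑ x, k x = - A := by
    have h := Finset.sum_congr (s₁ := Finset.univ) rfl (fun x _ => hk x)
    simp only [Finset.sum_add_distrib, Finset.sum_neg_distrib] at h
    rw [e1 k] at h
    rw [hA]; linear_combination h
  -- ξ(u²x) ξ'(x) summed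
  have r2 : ∑ x, xi (u (u x)) * xi' x = - A - Bq := by
    have : ∀ x, xi (u (u x)) * xi' x = - (xi x * xi' x) - xi (u x) * xi' x := by
      intro x; linear_combination (xi' x) * hb x
    rw [Finset.sum_congr rfl (fun x _ => this x)]
    simp only [Finset.sum_sub_distrib, Finset.sum_neg_distrib]
    rfl
  have r3 : ∑ x, xi (u (u x)) * xi' (u x) = Bq := by
    rw [e2 (fun x => xi (u x) * xi' x)]
  have r4 : ∑ x, xi x * xi' (u x) = - A - Bq := by
    have : ∀ x, xi x * xi' (u x) = - (xi (u x) * xi' (u x)) - xi (u (u x)) * xi' (u x) := by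
      intro x; linear_combination (xi' (u x)) * hb x
    rw [Finset.sum_congr rfl (fun x _ => this x)]
    simp only [Finset.sum_sub_distrib, Finset.sum_neg_distrib]
    rw [e2 (fun x => xi x * xi' x), r3]
  have h3 : 3 * ∑ x, tau x = - (3 * ∑ x, k x) + (Bq + (- A - Bq) + Bq) := by
    have h := Finset.sum_congr (s₁ := Finset.univ) rfl (fun x _ => htau x)
    simp only [Finset.sum_add_distrib, Finset.sum_neg_distrib] at h
    rw [t1, t2, t3, k2, k3, r2, r3] at h
    linear_combination h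
  simp only [Finset.sum_sub_distrib]
  rw [r4]
  linear_combination 2 * h3 - 3 * hk2


/-! ### matrix identities -/

theorem S_mul_S' : (S * S : SL(2, ℤ)) = -1 := by decide

theorem TS_cube : (T * (S * (T * (S * (T * S)))) : SL(2, ℤ)) = -1 := by decide

theorem S_mul_S_mul (g : SL(2, ℤ)) : S * (S * g) = g * (-1) := by
  rw [← mul_assoc, S_mul_S', mul_neg_one, neg_one_mul]

theorem TS_cube_mul (g : SL(2, ℤ)) : T * (S * (T * (S * (T * (S * g))))) = g * (-1) := by
  have h : T * (S * (T * (S * (T * (S * g))))) = (T * (S * (T * (S * (T * S))))) * g := by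
    simp only [mul_assoc]
  rw [h, TS_cube, mul_neg_one, neg_one_mul]

/-- a function on `SL(2,ℤ)` which is left-invariant under `S` and `T` is constant -/
theorem const_of_left_inv {A : Type*} (E : SL(2, ℤ) → A) (hS : ∀ g, E (S * g) = E g)
    (hT : ∀ g, E (T * g) = E g) (g : SL(2, ℤ)) : E g = E 1 := by
  have key : ∀ h ∈ Subgroup.closure ({S, T} : Set SL(2, ℤ)), ∀ g, E (h * g) = E g := by
    intro h hh
    induction hh using Subgroup.closure_induction with
    | mem x hx =>
      rcases hx with rfl | hx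
      · exact hS
      · rw [Set.mem_singleton_iff] at hx; subst hx; exact hT
    | one => intro g; rw [one_mul]
    | mul x y _ _ hx hy => intro g; rw [mul_assoc, hx, hy]
    | inv x _ hx => intro g; have := hx (x⁻¹ * g); rw [mul_inv_cancel_left] at this; exact this.symm
  have hg : g ∈ Subgroup.closure ({S, T} : Set SL(2, ℤ)) := by
    rw [_root_.SpecialLinearGroup.SL2Z_generators]; trivial
  simpa using key g hg 1

/-! ### descent to the quotient -/

section Desc

variable (Γ : Subgroup SL(2, ℤ))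

/-- descend a right-`Γ`-invariant function to `G ⧸ Γ` -/
def desc (f : SL(2, ℤ) → ℚ) (hf : ∀ g (c : Γ), f (g * c) = f g) : SL(2, ℤ) ⧸ Γ → ℚ :=
  fun x => Quotient.liftOn' x f (by
    intro a b hab
    rw [QuotientGroup.leftRel_apply] at hab
    have h := hf a ⟨a⁻¹ * b, hab⟩
    simp only [mul_inv_cancel_left] at h
    exact h.symm)

theorem desc_mk (f : SL(2, ℤ) → ℚ) (hf : ∀ g (c : Γ), f (g * c) = f g) (g : SL(2, ℤ)) :
    desc Γ f hf (g : SL(2, ℤ) ⧸ Γ) = f g := rfl

end Desc

/-! ### basic consequences of the lift / primitive equations -/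

section Lift

variable {Γ : Subgroup SL(2, ℤ)} (hneg : (-1 : SL(2, ℤ)) ∈ Γ)
  {phi : Γ → ℚ} {F : SL(2, ℤ) → ℚ} (hF : ∀ g (c : Γ), F (g * c) = F g + phi c)

include hF in
theorem phi_mul (c c' : Γ) : phi (c * c') = phi c + phi c' := by
  have h1 := hF 1 (c * c')
  have h2 := hF (1 * c) c'
  have h3 := hF 1 c
  rw [Subgroup.coe_mul, ← mul_assoc, h2, h3] at h1
  linarith

include hF in
theorem phi_one : phi 1 = 0 := by
  have := phi_mul hF 1 1
  rw [mul_one] at this; linarith

include hneg hF in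
theorem phi_neg_one : phi ⟨-1, hneg⟩ = 0 := by
  have h := phi_mul hF ⟨-1, hneg⟩ ⟨-1, hneg⟩
  have h1 : (⟨-1, hneg⟩ : Γ) * ⟨-1, hneg⟩ = 1 := by
    ext1; simp
  rw [h1, phi_one hF] at h
  linarith

include hneg hF in
theorem F_mul_neg_one (g : SL(2, ℤ)) : F (g * (-1)) = F g := by
  have := hF g ⟨-1, hneg⟩
  rw [phi_neg_one hneg hF, add_zero] at this
  exact this

end Lift

section Prim

variable {Γ : Subgroup SL(2, ℤ)} (hneg : (-1 : SL(2, ℤ)) ∈ Γ)
  {phi psi f : Γ → ℚ} {F F' H : SL(2, ℤ) → ℚ}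
  (hF : ∀ g (c : Γ), F (g * c) = F g + phi c)
  (hF' : ∀ g (c : Γ), F' (g * c) = F' g + psi c)
  (hH : ∀ g (c : Γ), H (g * c) = H g + f c - F g * psi c)

include hF hF' hH in
theorem f_mul (c c' : Γ) : f (c * c') = f c + f c' - phi c * psi c' := by
  have h1 := hH 1 (c * c')
  have h2 := hH (1 * c) c'
  have h3 := hH 1 c
  have h4 := hF 1 c
  have h5 := phi_mul hF' c c'
  rw [Subgroup.coe_mul, ← mul_assoc, h2, h3, h4, h5] at h1
  linarith

include hF hF' hH in
theorem f_one : f 1 = 0 := by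
  have h := f_mul hF hF' hH 1 1
  rw [mul_one, phi_one hF, zero_mul] at h
  linarith

include hneg hF hF' hH in
theorem f_neg_one : f ⟨-1, hneg⟩ = 0 := by
  have h := f_mul hF hF' hH ⟨-1, hneg⟩ ⟨-1, hneg⟩
  have h1 : (⟨-1, hneg⟩ : Γ) * ⟨-1, hneg⟩ = 1 := by
    ext1; simp
  rw [h1, f_one hF hF' hH, phi_neg_one hneg hF, zero_mul] at h
  linarith

include hneg hF hF' hH in
theorem H_mul_neg_one (g : SL(2, ℤ)) : H (g * (-1)) = H g := by
  have h := hH g ⟨-1, hneg⟩
  rw [f_neg_one hneg hF hF' hH, phi_neg_one hneg hF', mul_zero] at h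
  simpa using h

end Prim

/-! ### (5b) the intrinsic formula on `G ⧸ Γ` -/

theorem six_sum_tau_eq (Γ : Subgroup SL(2, ℤ)) [Fintype (SL(2, ℤ) ⧸ Γ)]
    (hneg : (-1 : SL(2, ℤ)) ∈ Γ) (phi psi f : Γ → ℚ) (F F' H : SL(2, ℤ) → ℚ)
    (hF : ∀ g (c : Γ), F (g * c) = F g + phi c) (hFT : ∀ g, F (T * g) = F g)
    (hF' : ∀ g (c : Γ), F' (g * c) = F' g + psi c) (hF'T : ∀ g, F' (T * g) = F' g)
    (hH : ∀ g (c : Γ), H (g * c) = H g + f c - F g * psi c)
    (tau D : SL(2, ℤ) ⧸ Γ → ℚ)
    (htau : ∀ g : SL(2, ℤ), tau (g : SL(2, ℤ) ⧸ Γ) = H (T * g) - H g)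
    (hD : ∀ g : SL(2, ℤ), D (g : SL(2, ℤ) ⧸ Γ)
      = (F (S * g) - F g) * (F' (S * (T * S * g)) - F' (T * S * g))
        - (F (S * (T * S * g)) - F (T * S * g)) * (F' (S * g) - F' g)) :
    6 * ∑ x, tau x = - ∑ x, D x := by
  -- the symbols and κ as functions on G
  have hxi : ∀ g (c : Γ), (fun g => F (S * g) - F g) (g * c) = (fun g => F (S * g) - F g) g := by
    intro g c
    show F (S * (g * c)) - F (g * c) = F (S * g) - F g
    rw [← mul_assoc, hF, hF]; ring
  have hxi' : ∀ g (c : Γ), (fun g => F' (S * g) - F' g) (g * c) = (fun g => F' (S * g) - F' g) g := by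
    intro g c
    show F' (S * (g * c)) - F' (g * c) = F' (S * g) - F' g
    rw [← mul_assoc, hF', hF']; ring
  have hkap : ∀ g (c : Γ), (fun g => H (S * g) - H g + (F (S * g) - F g) * F' g) (g * c)
      = (fun g => H (S * g) - H g + (F (S * g) - F g) * F' g) g := by
    intro g c
    show H (S * (g * c)) - H (g * c) + (F (S * (g * c)) - F (g * c)) * F' (g * c)
      = H (S * g) - H g + (F (S * g) - F g) * F' g
    rw [← mul_assoc, hH, hH, hF, hF, hF']; ring
  have hs : ∀ g : SL(2, ℤ), (MulAction.toPerm S : Equiv.Perm (SL(2, ℤ) ⧸ Γ)) (g : SL(2, ℤ) ⧸ Γ)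
      = ((S * g : SL(2, ℤ)) : SL(2, ℤ) ⧸ Γ) := fun g => rfl
  have hu : ∀ g : SL(2, ℤ), (MulAction.toPerm (T * S) : Equiv.Perm (SL(2, ℤ) ⧸ Γ))
      (g : SL(2, ℤ) ⧸ Γ) = ((T * (S * g) : SL(2, ℤ)) : SL(2, ℤ) ⧸ Γ) := fun g => by
    rw [← mul_assoc]; rfl
  have key := six_sum_tau (MulAction.toPerm S : Equiv.Perm (SL(2, ℤ) ⧸ Γ))
    (MulAction.toPerm (T * S)) (desc Γ (fun g => F (S * g) - F g) hxi)
    (desc Γ (fun g => F' (S * g) - F' g) hxi')
    (desc Γ (fun g => H (S * g) - H g + (F (S * g) - F g) * F' g) hkap) tau ?_ ?_ ?_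
  · rw [key]
    congr 1
    refine Finset.sum_congr rfl (fun x _ => ?_)
    induction x using QuotientGroup.induction_on with
    | H g =>
      rw [hD, hu, desc_mk, desc_mk, desc_mk, desc_mk]
      simp only [mul_assoc]
  · -- (b)
    intro x
    induction x using QuotientGroup.induction_on with
    | H g =>
      rw [hu, hu, desc_mk, desc_mk, desc_mk]
      have a1 : F (T * (S * g)) = F (S * g) := hFT _
      have a2 : F (T * (S * (T * (S * g)))) = F (S * (T * (S * g))) := hFT _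
      have a3 : F (S * (T * (S * (T * (S * g))))) = F g := by
        rw [← hFT, TS_cube_mul, F_mul_neg_one hneg hF]
      show F (S * g) - F g + (F (S * (T * (S * g))) - F (T * (S * g)))
        + (F (S * (T * (S * (T * (S * g))))) - F (T * (S * (T * (S * g))))) = 0
      rw [a1, a2, a3]; ring
  · -- κ(x) + κ(s x)
    intro x
    induction x using QuotientGroup.induction_on with
    | H g =>
      rw [hs, desc_mk, desc_mk, desc_mk, desc_mk]
      show H (S * g) - H g + (F (S * g) - F g) * F' g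
        + (H (S * (S * g)) - H (S * g) + (F (S * (S * g)) - F (S * g)) * F' (S * g))
        = -((F (S * g) - F g) * (F' (S * g) - F' g))
      rw [S_mul_S_mul, H_mul_neg_one hneg hF hF' hH, F_mul_neg_one hneg hF]; ring
  · -- the (TS)³ loop
    intro x
    induction x using QuotientGroup.induction_on with
    | H g =>
      rw [hu, hu, hs, hs, hs, htau, htau, htau]
      simp only [desc_mk]
      have a1 : F (T * (S * g)) = F (S * g) := hFT _
      have a2 : F (T * (S * (T * (S * g)))) = F (S * (T * (S * g))) := hFT _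
      have a3 : F (S * (T * (S * (T * (S * g))))) = F g := by
        rw [← hFT, TS_cube_mul, F_mul_neg_one hneg hF]
      have b1 : F' (T * (S * g)) = F' (S * g) := hF'T _
      have b2 : F' (T * (S * (T * (S * g)))) = F' (S * (T * (S * g))) := hF'T _
      have c3 : H (T * (S * (T * (S * (T * (S * g)))))) = H g := by
        rw [TS_cube_mul, H_mul_neg_one hneg hF hF' hH]
      rw [a1, a2, a3, b1, b2, c3]; ring

end Fermat.Agent.S41.PDIntr
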