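/-
S41 / [PD] leaf (6b), layer 1 (Mathlib only): the abstract "delta-twist" summation lemma.

`G` a group, `Γ' Γ'' ≤ G` of finite index, `t : G`, and twist data
* `α : Γ' → G` with image exactly `Γ''`,
* `h : G → G`, `j : G → ℕ` with `h (g * γ) = h g * α γ`, `j (g * γ) = j g` for `γ ∈ Γ'`,
* every `k : G` is `t ^ i * h g` for a unique pair `(g, i)` with `i < j g`.
Then `(gΓ', i) ↦ t ^ i * h g Γ''` is a bijection `{(x, i) : i < j x} → G ⧸ Γ''`, hence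
`∑_{x ∈ G ⧸ Γ'} ∑_{i < j x} τ'' (t ^ i * h x) = ∑_{y ∈ G ⧸ Γ''} τ'' y` (`sum_twist`).
If moreover `h (t * g) = t ^ j g * h g`, then for every function `H` on `G` the left `t`-increments
of `H ∘ h` (a function on `G ⧸ Γ'`) and of `H` (a function on `G ⧸ Γ''`) have the same sum
(`twist_sum`).  Lifts and primitives pull back along `h` (`lift_comp`, `prim_comp`).
-/
import Mathlib

set_option autoImplicit false

open Finset

namespace Fermat.Agent.S41.PDIsoCore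

variable {G : Type*} [Group G]

/-- **Abstract coset bijection / summation lemma.** -/
theorem sum_twist (Γ' Γ'' : Subgroup G) [Fintype (G ⧸ Γ')] [Fintype (G ⧸ Γ'')]
    (t : G) (α : Γ' → G) (hα_mem : ∀ γ, α γ ∈ Γ'') (hα_surj : ∀ δ ∈ Γ'', ∃ γ, α γ = δ)
    (h : G → G) (j : G → ℕ)
    (h_mul : ∀ (g : G) (γ : Γ'), h (g * γ) = h g * α γ)
    (j_mul : ∀ (g : G) (γ : Γ'), j (g * γ) = j g)
    (h_bij : ∀ k : G, ∃! p : G × ℕ, p.2 < j p.1 ∧ t ^ p.2 * h p.1 = k)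
    {A : Type*} [AddCommMonoid A] (τ'' : G ⧸ Γ'' → A) (τ' : G ⧸ Γ' → A)
    (hτ' : ∀ g : G, τ' (g : G ⧸ Γ') =
      ∑ i ∈ Finset.range (j g), τ'' ((t ^ i * h g : G) : G ⧸ Γ'')) :
    ∑ x, τ' x = ∑ y, τ'' y := by
  classical
  -- every `g` differs from the chosen representative of its class by an element of `Γ'`
  have hout : ∀ g : G, ∃ γ : Γ', ((g : G ⧸ Γ').out : G) = g * γ := by
    intro g
    have h1 : ((g : G ⧸ Γ').out : G ⧸ Γ') = (g : G ⧸ Γ') := QuotientGroup.out_eq' _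
    have h2 : g⁻¹ * (g : G ⧸ Γ').out ∈ Γ' := QuotientGroup.eq.mp h1.symm
    exact ⟨⟨_, h2⟩, by simp⟩
  have e1 : ∀ x : G ⧸ Γ', τ' x =
      ∑ i ∈ Finset.range (j x.out), τ'' ((t ^ i * h x.out : G) : G ⧸ Γ'') := by
    intro x
    have := hτ' x.out
    rwa [QuotientGroup.out_eq'] at this
  rw [Finset.sum_congr rfl (fun x _ => e1 x)]
  rw [Finset.sum_sigma' (Finset.univ : Finset (G ⧸ Γ')) (fun x => Finset.range (j x.out))
    (fun x i => τ'' ((t ^ i * h x.out : G) : G ⧸ Γ''))]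
  refine Finset.sum_bij (fun p _ => ((t ^ p.2 * h p.1.out : G) : G ⧸ Γ''))
    (fun _ _ => Finset.mem_univ _) ?_ ?_ (fun _ _ => rfl)
  · -- injectivity
    rintro ⟨x₁, i₁⟩ hp₁ ⟨x₂, i₂⟩ hp₂ heq
    simp only [Finset.mem_sigma, Finset.mem_univ, Finset.mem_range, true_and] at hp₁ hp₂
    have h3 : (t ^ i₁ * h x₁.out)⁻¹ * (t ^ i₂ * h x₂.out) ∈ Γ'' := QuotientGroup.eq.mp heq
    obtain ⟨γ, hγ⟩ := hα_surj _ h3
    have h4 : t ^ i₁ * h (x₁.out * γ) = t ^ i₂ * h x₂.out := by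
      rw [h_mul, hγ]; group
    obtain ⟨p, -, hp⟩ := h_bij (t ^ i₂ * h x₂.out)
    have h5 := hp (x₁.out * γ, i₁) ⟨by rw [j_mul]; exact hp₁, h4⟩
    have h6 := hp (x₂.out, i₂) ⟨hp₂, rfl⟩
    have h7 : ((x₁.out : G) * γ, i₁) = ((x₂.out : G), i₂) := h5.trans h6.symm
    have h8 : (x₁.out : G) * γ = x₂.out := congrArg Prod.fst h7
    have h9 : i₁ = i₂ := congrArg Prod.snd h7
    have h10 : x₁ = x₂ := by
      have : ((x₁.out * (γ : G) : G) : G ⧸ Γ') = ((x₁.out : G) : G ⧸ Γ') :=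
        QuotientGroup.mk_mul_of_mem _ γ.2
      rw [h8, QuotientGroup.out_eq', QuotientGroup.out_eq'] at this
      exact this.symm
    subst h9
    subst h10
    rfl
  · -- surjectivity
    intro y _
    obtain ⟨⟨g, i⟩, ⟨hi, hk⟩, -⟩ := h_bij y.out
    obtain ⟨γ, hγ⟩ := hout g
    refine ⟨⟨(g : G ⧸ Γ'), i⟩, ?_, ?_⟩
    · simp only [Finset.mem_sigma, Finset.mem_univ, Finset.mem_range, true_and]
      rw [hγ, j_mul]
      exact hi
    · show ((t ^ i * h ((g : G ⧸ Γ').out) : G) : G ⧸ Γ'') = y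
      rw [hγ, h_mul, ← mul_assoc]
      have hk' : t ^ i * h g = y.out := hk
      rw [hk', QuotientGroup.mk_mul_of_mem _ (hα_mem γ), QuotientGroup.out_eq']

/-- **Telescoped form**: the left `t`-increments of `H ∘ h` on `G ⧸ Γ'` and of `H` on `G ⧸ Γ''`
have the same sum. -/
theorem twist_sum (Γ' Γ'' : Subgroup G) [Fintype (G ⧸ Γ')] [Fintype (G ⧸ Γ'')]
    (t : G) (α : Γ' → G) (hα_mem : ∀ γ, α γ ∈ Γ'') (hα_surj : ∀ δ ∈ Γ'', ∃ γ, α γ = δ)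
    (h : G → G) (j : G → ℕ)
    (h_mul : ∀ (g : G) (γ : Γ'), h (g * γ) = h g * α γ)
    (j_mul : ∀ (g : G) (γ : Γ'), j (g * γ) = j g)
    (h_t : ∀ g : G, h (t * g) = t ^ j g * h g)
    (h_bij : ∀ k : G, ∃! p : G × ℕ, p.2 < j p.1 ∧ t ^ p.2 * h p.1 = k)
    {A : Type*} [AddCommGroup A] (H : G → A)
    (τ'' : G ⧸ Γ'' → A) (hτ'' : ∀ g : G, τ'' (g : G ⧸ Γ'') = H (t * g) - H g)
    (τ' : G ⧸ Γ' → A) (hτ' : ∀ g : G, τ' (g : G ⧸ Γ') = H (h (t * g)) - H (h g)) :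
    ∑ x, τ' x = ∑ y, τ'' y := by
  refine sum_twist Γ' Γ'' t α hα_mem hα_surj h j h_mul j_mul h_bij τ'' τ' ?_
  intro g
  rw [hτ' g, h_t g]
  have h1 : ∀ i : ℕ, τ'' ((t ^ i * h g : G) : G ⧸ Γ'') =
      H (t ^ (i + 1) * h g) - H (t ^ i * h g) := by
    intro i
    rw [hτ'', pow_succ', mul_assoc]
  rw [Finset.sum_congr rfl (fun i _ => h1 i),
    Finset.sum_range_sub (fun i => H (t ^ i * h g)) (j g)]
  simp

/-- A left-`t`-invariant function is invariant under `t ^ n`. -/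
theorem pow_invariant {A : Type*} (t : G) (F : G → A) (hFt : ∀ g, F (t * g) = F g) (n : ℕ)
    (g : G) : F (t ^ n * g) = F g := by
  induction n with
  | zero => simp
  | succ n ih => rw [pow_succ', mul_assoc, hFt, ih]

/-- Lifts pull back along the twist: if `F` is a lift of `φ` on `Γ''` then `F ∘ h` is a lift of
`φ ∘ α` on `Γ'`. -/
theorem lift_comp (Γ' Γ'' : Subgroup G) (t : G) (α : Γ' → G) (hα_mem : ∀ γ, α γ ∈ Γ'')
    (h : G → G) (j : G → ℕ)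
    (h_mul : ∀ (g : G) (γ : Γ'), h (g * γ) = h g * α γ)
    (h_t : ∀ g : G, h (t * g) = t ^ j g * h g)
    {A : Type*} [Add A] (φ : Γ'' → A) (F : G → A)
    (hF : ∀ (g : G) (c : Γ''), F (g * c) = F g + φ c) (hFt : ∀ g, F (t * g) = F g) :
    (∀ (g : G) (γ : Γ'), F (h (g * γ)) = F (h g) + φ ⟨α γ, hα_mem γ⟩) ∧
      ∀ g, F (h (t * g)) = F (h g) := by
  refine ⟨fun g γ => ?_, fun g => ?_⟩
  · rw [h_mul]
    exact hF (h g) ⟨α γ, hα_mem γ⟩
  · rw [h_t]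
    exact pow_invariant t F hFt (j g) (h g)

/-- Primitives pull back along the twist. -/
theorem prim_comp (Γ' Γ'' : Subgroup G) (α : Γ' → G) (hα_mem : ∀ γ, α γ ∈ Γ'')
    (h : G → G) (h_mul : ∀ (g : G) (γ : Γ'), h (g * γ) = h g * α γ)
    {K : Type*} [Ring K] (ψ f : Γ'' → K) (F H : G → K)
    (hH : ∀ (g : G) (c : Γ''), H (g * c) = H g + f c - F g * ψ c) :
    ∀ (g : G) (γ : Γ'), H (h (g * γ)) =
      H (h g) + f ⟨α γ, hα_mem γ⟩ - F (h g) * ψ ⟨α γ, hα_mem γ⟩ := by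
  intro g γ
  rw [h_mul]
  exact hH (h g) ⟨α γ, hα_mem γ⟩

end Fermat.Agent.S41.PDIsoCore
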