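/-
S41 / [PD] leaf (6b), layer 2a: the group `Γ'' = δ Γ₀(Nq) δ⁻¹` (`δ = diag(q,1)`), i.e. the image
of `incl₂ N q` inside `SL(2, ℤ)`, and the factorisation `incl₂ = j₂ ∘ al₂` with
`al₂ : Γ₀(Nq) ↠ Γ''` (an isomorphism `e₂` for `q ≠ 0`) and `j₂ : Γ'' ↪ Γ₀(N)` the inclusion.

* `Gam2 N q`, `mem_Gam2_iff`, `neg_one_mem_Gam2`, `finiteIndex_Gam2`;
* `res₂_eq`  : `res₂ N q x = (x ∘ j₂) ∘ al₂`;
* `tr₂_eq`   : `tr₂ N q y = transferAlong j₂ (y ∘ e₂⁻¹)`  (`transferAlong_comp_mulEquiv`);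
* parabolicity is transported along `al₂`, `e₂⁻¹`, `j₂`.
-/
import Mathlib
import Fermat.Agent.S41.Defs

set_option autoImplicit false

noncomputable section

open CongruenceSubgroup ModularCurve.Period
open scoped MatrixGroups

namespace Fermat.Agent.S41.PDIsoGam

open Fermat.Agent.S41

/-! ### transfer along `f ∘ e` for an isomorphism `e` -/

section Transfer

variable {G H H' : Type*} [Group G] [Group H] [Group H'] {A : Type*} [AddCommGroup A]

/-- The transfer along `f ∘ e` (`e` an isomorphism) is the transfer along `f` of `ψ ∘ e⁻¹`. -/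
theorem transferAlong_comp_mulEquiv (f : H' →* G) (e : H ≃* H') (hf : Function.Injective f)
    (hfin : Finite (RCosets f)) (ψ : Additive H →+ A) :
    transferAlong (f.comp e.toMonoidHom) ψ =
      transferAlong f (ψ.comp (MonoidHom.toAdditive e.symm.toMonoidHom)) := by
  classical
  let _ : Fintype (RCosets f) := @Fintype.ofFinite _ hfin
  refine AddMonoidHom.ext fun γ => ?_
  obtain ⟨γ, rfl⟩ := Additive.ofMul.surjective γ
  have hinj' : Function.Injective (f.comp e.toMonoidHom) := hf.comp e.injective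
  have hcov : ∀ g : G, ∃ x : RCosets f, ∃ h : H, g = (f.comp e.toMonoidHom) h * rcRep f x := by
    intro g
    refine ⟨rcMk f g, ?_⟩
    have h1 : rcMk f (rcRep f (rcMk f g)) = rcMk f g := rcMk_rcRep f _
    obtain ⟨h', hh'⟩ := (rcMk_eq_iff f).mp h1
    refine ⟨e.symm h', ?_⟩
    show g = f (e (e.symm h')) * _
    rw [e.apply_symm_apply, hh', inv_mul_cancel_right]
  have hinj : ∀ x y : RCosets f,
      (∃ h : H, rcRep f x = (f.comp e.toMonoidHom) h * rcRep f y) → x = y := by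
    rintro x y ⟨h, hh⟩
    have h1 : rcMk f (rcRep f x) = rcMk f (rcRep f y) := by
      rw [hh]
      exact rcMk_mul_left f (e h) _
    rwa [rcMk_rcRep, rcMk_rcRep] at h1
  have hspec : ∀ x : RCosets f, rcRep f x * γ =
      (f.comp e.toMonoidHom) (e.symm (rcPart f γ x)) * rcRep f (rcMul f γ x) := by
    intro x
    show rcRep f x * γ = f (e (e.symm (rcPart f γ x))) * rcRep f (rcMul f γ x)
    rw [e.apply_symm_apply, rcPart_spec, inv_mul_cancel_right]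
  rw [transferAlong_apply_of_reps (f.comp e.toMonoidHom) hinj' (rcRep f) hcov hinj γ (rcMul f γ)
    (fun x => e.symm (rcPart f γ x)) hspec ψ, transferAlong_of_cond f hf hfin, transferAux_apply]
  rfl

end Transfer

/-! ### the group `Γ''` -/

variable (N q : ℕ)

/-- `γ ↦ δ γ δ⁻¹` with values in `SL(2, ℤ)`. -/
def iota₂ : Gamma0 (N * q) →* SL(2, ℤ) := (Gamma0 N).subtype.comp (incl₂ N q)

theorem iota₂_apply (γ : Gamma0 (N * q)) : iota₂ N q γ = conjMat N q γ := rfl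

theorem iota₂_injective (hq : q ≠ 0) : Function.Injective (iota₂ N q) :=
  (Subgroup.subtype_injective _).comp (incl₂_injective N q hq)

/-- `Γ'' = δ Γ₀(Nq) δ⁻¹`, the image of `incl₂ N q` in `SL(2, ℤ)`. -/
def Gam2 : Subgroup SL(2, ℤ) := (iota₂ N q).range

theorem mem_Gam2 (g : SL(2, ℤ)) :
    g ∈ Gam2 N q ↔ ∃ γ : Gamma0 (N * q), ((incl₂ N q γ : Gamma0 N) : SL(2, ℤ)) = g := Iff.rfl

theorem Gam2_le : Gam2 N q ≤ Gamma0 N := by
  rintro _ ⟨γ, rfl⟩
  exact (incl₂ N q γ).2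

theorem det_entries (g : SL(2, ℤ)) : g 0 0 * g 1 1 - g 0 1 * g 1 0 = 1 := by
  have h := g.det_coe
  rw [Matrix.det_fin_two] at h
  exact h

theorem ext4 {g h : SL(2, ℤ)} (h00 : g 0 0 = h 0 0) (h01 : g 0 1 = h 0 1)
    (h10 : g 1 0 = h 1 0) (h11 : g 1 1 = h 1 1) : g = h := by
  ext i j
  fin_cases i <;> fin_cases j <;> assumption

/-- `Γ'' = Γ₀(N) ∩ Γ⁰(q)`. -/
theorem mem_Gam2_iff (hq : q ≠ 0) (g : SL(2, ℤ)) :
    g ∈ Gam2 N q ↔ (N : ℤ) ∣ g 1 0 ∧ (q : ℤ) ∣ g 0 1 := by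
  have hq0 : (q : ℤ) ≠ 0 := by exact_mod_cast hq
  constructor
  · rintro ⟨γ, rfl⟩
    exact ⟨N_dvd_div γ, ⟨(γ : SL(2, ℤ)) 0 1, rfl⟩⟩
  · rintro ⟨⟨k, hk⟩, ⟨m, hm⟩⟩
    have hdet := det_entries g
    let γ₀ : SL(2, ℤ) := ⟨!![g 0 0, m; (q : ℤ) * g 1 0, g 1 1], by
      rw [Matrix.det_fin_two_of]
      rw [hm] at hdet
      linear_combination hdet⟩
    have hγ₀ : γ₀ ∈ Gamma0 (N * q) := by
      rw [Fermat.Agent.S16.mem_Gamma0_iff_dvd]
      show ((N * q : ℕ) : ℤ) ∣ (q : ℤ) * g 1 0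
      rw [hk]
      exact ⟨k, by push_cast; ring⟩
    refine ⟨⟨γ₀, hγ₀⟩, ?_⟩
    show conjMat N q ⟨γ₀, hγ₀⟩ = g
    apply ext4
    · rfl
    · show (q : ℤ) * m = g 0 1
      rw [hm]
    · show (q : ℤ) * g 1 0 / (q : ℤ) = g 1 0
      exact Int.mul_ediv_cancel_left _ hq0
    · rfl

theorem neg_one_mem_Gam2 (hq : q ≠ 0) : (-1 : SL(2, ℤ)) ∈ Gam2 N q := by
  rw [mem_Gam2_iff N q hq]
  constructor <;> simp

/-- `Γ''` contains the principal congruence subgroup `Γ(Nq)`. -/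
theorem Gamma_le_Gam2 (hq : q ≠ 0) : Gamma (N * q) ≤ Gam2 N q := by
  intro g hg
  rw [Gamma_mem] at hg
  rw [mem_Gam2_iff N q hq]
  obtain ⟨-, h01, h10, -⟩ := hg
  have h01' : ((N * q : ℕ) : ℤ) ∣ g 0 1 := (ZMod.intCast_zmod_eq_zero_iff_dvd _ _).mp h01
  have h10' : ((N * q : ℕ) : ℤ) ∣ g 1 0 := (ZMod.intCast_zmod_eq_zero_iff_dvd _ _).mp h10
  refine ⟨(Dvd.intro (q : ℤ) (by push_cast; ring)).trans h10', ?_⟩
  exact (Dvd.intro_left (N : ℤ) (by push_cast; ring)).trans h01'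

theorem finiteIndex_Gam2 [NeZero N] (hq : q ≠ 0) : (Gam2 N q).FiniteIndex := by
  have : NeZero (N * q) := ⟨mul_ne_zero (NeZero.ne N) hq⟩
  exact Subgroup.finiteIndex_of_le (Gamma_le_Gam2 N q hq)

/-! ### the maps `al₂`, `e₂`, `j₂` -/

/-- `γ ↦ δ γ δ⁻¹` as a surjection onto `Γ''`. -/
def al₂ : Gamma0 (N * q) →* Gam2 N q := (iota₂ N q).rangeRestrict

theorem al₂_coe (γ : Gamma0 (N * q)) : ((al₂ N q γ : Gam2 N q) : SL(2, ℤ)) = conjMat N q γ := rfl

theorem al₂_surjective : Function.Surjective (al₂ N q) := (iota₂ N q).rangeRestrict_surjective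

/-- `γ ↦ δ γ δ⁻¹` as an isomorphism `Γ₀(Nq) ≃ Γ''` (`q ≠ 0`). -/
def e₂ (hq : q ≠ 0) : Gamma0 (N * q) ≃* Gam2 N q := MonoidHom.ofInjective (iota₂_injective N q hq)

theorem e₂_apply (hq : q ≠ 0) (γ : Gamma0 (N * q)) : e₂ N q hq γ = al₂ N q γ := rfl

theorem e₂_toMonoidHom (hq : q ≠ 0) : (e₂ N q hq).toMonoidHom = al₂ N q := rfl

/-- The inclusion `Γ'' ≤ Γ₀(N)`. -/
def j₂ : Gam2 N q →* Gamma0 N := Subgroup.inclusion (Gam2_le N q)

theorem j₂_coe (g : Gam2 N q) : ((j₂ N q g : Gamma0 N) : SL(2, ℤ)) = g := rfl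

theorem j₂_injective : Function.Injective (j₂ N q) := Subgroup.inclusion_injective _

theorem j₂_al₂ (γ : Gamma0 (N * q)) : j₂ N q (al₂ N q γ) = incl₂ N q γ := rfl

theorem incl₂_eq : incl₂ N q = (j₂ N q).comp (al₂ N q) := rfl

theorem incl₂_eq' (hq : q ≠ 0) : incl₂ N q = (j₂ N q).comp (e₂ N q hq).toMonoidHom := rfl

/-- `Γ''` has finitely many right cosets in `Γ₀(N)`. -/
theorem finite_rcosets_j₂ [NeZero N] (hq : q ≠ 0) : Finite (RCosets (j₂ N q)) := by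
  have := finiteIndex_Gam2 N q hq
  have h1 : (j₂ N q).range = (Gam2 N q).subgroupOf (Gamma0 N) := Subgroup.inclusion_range _
  have : ((j₂ N q).range).FiniteIndex := by rw [h1]; infer_instance
  have : Finite (Gamma0 N ⧸ (j₂ N q).range) := Subgroup.finite_quotient_of_finiteIndex
  exact Finite.of_equiv _ (QuotientGroup.quotientRightRelEquivQuotientLeftRel _).symm

variable {A : Type*} [AddCommGroup A]

/-- `res₂` is restriction to `Γ''` followed by the twist. -/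
theorem res₂_eq (x : Additive (Gamma0 N) →+ A) :
    res₂ N q x = (x.comp (MonoidHom.toAdditive (j₂ N q))).comp (MonoidHom.toAdditive (al₂ N q)) :=
  rfl

/-- `tr₂` is the transfer from `Γ''` to `Γ₀(N)` of `y ∘ e₂⁻¹`. -/
theorem tr₂_eq [NeZero N] (hq : q ≠ 0) (y : Additive (Gamma0 (N * q)) →+ A) :
    tr₂ N q y = transferAlong (j₂ N q)
      (y.comp (MonoidHom.toAdditive (e₂ N q hq).symm.toMonoidHom)) :=
  transferAlong_comp_mulEquiv (j₂ N q) (e₂ N q hq) (j₂_injective N q) (finite_rcosets_j₂ N q hq) y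

/-! ### parabolicity -/

theorem trace_conjMat (γ : Gamma0 (N * q)) :
    ((conjMat N q γ : SL(2, ℤ)) : Matrix (Fin 2) (Fin 2) ℤ).trace =
      ((γ : SL(2, ℤ)) : Matrix (Fin 2) (Fin 2) ℤ).trace := by
  rw [Matrix.trace_fin_two, Matrix.trace_fin_two]
  rfl

theorem isParabolicHom_comp_al₂ {φ : Additive (Gam2 N q) →+ A} (hφ : IsParabolicHom (Gam2 N q) φ) :
    IsParabolicHom (Gamma0 (N * q)) (φ.comp (MonoidHom.toAdditive (al₂ N q))) := by
  intro γ hγ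
  apply hφ (al₂ N q γ)
  rw [al₂_coe, trace_conjMat]
  exact hγ

theorem isParabolicHom_comp_e₂_symm (hq : q ≠ 0) {y : Additive (Gamma0 (N * q)) →+ A}
    (hy : IsParabolicHom (Gamma0 (N * q)) y) :
    IsParabolicHom (Gam2 N q) (y.comp (MonoidHom.toAdditive (e₂ N q hq).symm.toMonoidHom)) := by
  intro g hg
  apply hy ((e₂ N q hq).symm g)
  have h1 : ((g : Gam2 N q) : SL(2, ℤ)) = conjMat N q ((e₂ N q hq).symm g) := by
    rw [← al₂_coe, ← e₂_apply N q hq, MulEquiv.apply_symm_apply]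
  rw [h1, trace_conjMat] at hg
  exact hg

theorem isParabolicHom_comp_j₂ {x : Additive (Gamma0 N) →+ A} (hx : IsParabolicHom (Gamma0 N) x) :
    IsParabolicHom (Gam2 N q) (x.comp (MonoidHom.toAdditive (j₂ N q))) := by
  intro g hg
  exact hx (j₂ N q g) hg

/-- `(y ∘ e₂⁻¹) ∘ al₂ = y`. -/
theorem comp_e₂_symm_comp_al₂ (hq : q ≠ 0) (y : Additive (Gamma0 (N * q)) →+ A) :
    (y.comp (MonoidHom.toAdditive (e₂ N q hq).symm.toMonoidHom)).comp
      (MonoidHom.toAdditive (al₂ N q)) = y := by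
  refine AddMonoidHom.ext fun γ => ?_
  obtain ⟨γ, rfl⟩ := Additive.ofMul.surjective γ
  show y (Additive.ofMul ((e₂ N q hq).symm (al₂ N q γ))) = y (Additive.ofMul γ)
  rw [← e₂_apply N q hq, MulEquiv.symm_apply_apply]

end Fermat.Agent.S41.PDIsoGam
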