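/-
S41 / [PD] : the final form of the adjunction (4) for the integral pairing `pd3`:
`pd3 Γ₂ (φ ∘ j) ψ = pd3 Γ₁ φ (transferAlong j ψ)` for a coset-compatible `j : Γ₂ →* Γ₁`.
Owner: helper14.

* `isParabolicHom_of_isLift` : a `ℤ`-valued homomorphism having a lift is parabolic;
* `pushLift j F'`, `isLift_pushLift` : `g ↦ ∑_x F' (g * (rcRep j x)⁻¹)` lifts the transfer;
* `isLift_comp` : a lift for `Γ₁` is a lift of the restriction to `Γ₂`;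
* `pd3_res_transfer`, `pd3_res₁`.
-/
import Mathlib
import Fermat.Prelude.Def_ModularCurve_PeriodMap
import Fermat.Agent.S21.Parabolic
import Fermat.Agent.S41.PDSym
import Fermat.Agent.S41.PDDefs
import Fermat.Agent.S41.PDPair
import Fermat.Agent.S41.Transfer
import Fermat.Agent.S41.Defs

set_option autoImplicit false

open ModularCurve.Period ModularGroup CongruenceSubgroup
open scoped MatrixGroups

namespace Fermat.Agent.S41.PDPairAdj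

open Fermat.Agent.S41 Fermat.Agent.S41.PD Fermat.Agent.S41.PDPair

/-! ### a homomorphism with a lift is parabolic -/

theorem map_neg_one_eq_zero {Γ : Subgroup SL(2, ℤ)} (hneg : -1 ∈ Γ) (φ : Additive Γ →+ ℤ) :
    φ (Additive.ofMul (⟨-1, hneg⟩ : Γ)) = 0 := by
  have h1 : (⟨-1, hneg⟩ : Γ) * ⟨-1, hneg⟩ = 1 := by
    apply Subtype.ext
    simp
  have h2 : φ (Additive.ofMul ((⟨-1, hneg⟩ : Γ) * ⟨-1, hneg⟩)) = 0 := by
    rw [h1]; exact map_zero φ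
  rw [ofMul_mul, map_add] at h2
  omega

/-- A `ℤ`-valued homomorphism of `Γ ∋ -1` which has a lift is parabolic. -/
theorem isParabolicHom_of_isLift {Γ : Subgroup SL(2, ℤ)} (hneg : -1 ∈ Γ) {φ : Additive Γ →+ ℤ}
    {F : SL(2, ℤ) → ℤ} (hF : IsLift Γ φ F) : IsParabolicHom Γ φ := by
  intro γ hγ
  obtain ⟨δ, m, h⟩ := Fermat.Agent.S21.exists_conj_T_zpow_of_trace_sq (γ : SL(2, ℤ)) hγ
  have h1 := hF.mul_right δ⁻¹ γ
  rcases h with h | h
  · have e : δ⁻¹ * (γ : SL(2, ℤ)) = T ^ m * δ⁻¹ := by rw [h]; group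
    rw [e, isLift_T_zpow_left hF] at h1
    linarith
  · have e : δ⁻¹ * (γ : SL(2, ℤ)) = T ^ m * δ⁻¹ * ((⟨-1, hneg⟩ : Γ) : SL(2, ℤ)) := by
      rw [h]
      simp only [mul_neg, mul_one, neg_inj]
      group
    rw [e, hF.mul_right, map_neg_one_eq_zero hneg, isLift_T_zpow_left hF] at h1
    linarith

/-! ### restriction and push-forward of lifts -/

section Adj

variable {Γ₁ Γ₂ : Subgroup SL(2, ℤ)} (j : Γ₂ →* Γ₁)

theorem injective_of_coe (hj : ∀ γ, ((j γ : Γ₁) : SL(2, ℤ)) = γ) : Function.Injective j := by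
  intro a b hab
  apply Subtype.ext
  rw [← hj a, ← hj b, hab]

theorem le_of_coe (hj : ∀ γ, ((j γ : Γ₁) : SL(2, ℤ)) = γ) : Γ₂ ≤ Γ₁ := by
  intro γ hγ
  have := (j ⟨γ, hγ⟩).2
  rwa [hj] at this

theorem mem_range_iff (hj : ∀ γ, ((j γ : Γ₁) : SL(2, ℤ)) = γ) (δ : Γ₁) :
    δ ∈ j.range ↔ (δ : SL(2, ℤ)) ∈ Γ₂ := by
  constructor
  · rintro ⟨h, rfl⟩
    rw [hj]; exact h.2
  · intro h
    exact ⟨⟨δ, h⟩, Subtype.ext (hj _)⟩

/-- A lift for `Γ₁` is a lift of the restriction to `Γ₂`. -/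
theorem isLift_comp {A : Type*} [AddCommGroup A] (hj : ∀ γ, ((j γ : Γ₁) : SL(2, ℤ)) = γ)
    {φ : Additive Γ₁ →+ A} {F : SL(2, ℤ) → A} (hF : IsLift Γ₁ φ F) :
    IsLift Γ₂ (φ.comp (MonoidHom.toAdditive j)) F :=
  ⟨fun g γ => by
    have := hF.mul_right g (j γ)
    rw [hj] at this
    exact this, hF.T_left⟩

/-- The symbol of the restricted lift is the pull-back of the symbol. -/
theorem sym_comp {A : Type*} [AddCommGroup A] (hj : ∀ γ, ((j γ : Γ₁) : SL(2, ℤ)) = γ)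
    {φ : Additive Γ₁ →+ A} {F : SL(2, ℤ) → A} (hF : IsLift Γ₁ φ F) (y : SL(2, ℤ) ⧸ Γ₂) :
    sym Γ₂ F y = sym Γ₁ F (Subgroup.quotientMapOfLE (le_of_coe j hj) y) := by
  obtain ⟨g, rfl⟩ := QuotientGroup.mk_surjective y
  rw [Subgroup.quotientMapOfLE_apply_mk, sym_mk (isLift_comp j hj hF), sym_mk hF]

theorem finite_rcosets [Finite (SL(2, ℤ) ⧸ Γ₂)] (hj : ∀ γ, ((j γ : Γ₁) : SL(2, ℤ)) = γ) :
    Finite (RCosets j) := by
  refine Finite.of_injective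
    (fun x : RCosets j => (((((rcRep j x : Γ₁) : SL(2, ℤ))⁻¹ : SL(2, ℤ))) : SL(2, ℤ) ⧸ Γ₂)) ?_
  intro x y hxy
  have h1 : (((rcRep j x : Γ₁) : SL(2, ℤ))⁻¹)⁻¹ * ((rcRep j y : Γ₁) : SL(2, ℤ))⁻¹ ∈ Γ₂ :=
    QuotientGroup.eq.mp hxy
  rw [inv_inv] at h1
  have h2 : rcRep j x * (rcRep j y)⁻¹ ∈ j.range := by
    rw [mem_range_iff j hj]
    simpa using h1
  have h3 : rcMk j (rcRep j y) = rcMk j (rcRep j x) := (rcMk_eq_iff j).mpr h2
  rw [rcMk_rcRep, rcMk_rcRep] at h3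
  exact h3.symm

/-- The transfer with the canonical coset data, for an arbitrary `Fintype` instance. -/
theorem transferAlong_apply_canonical {A : Type*} [AddCommGroup A] [Fintype (RCosets j)]
    (hinj : Function.Injective j) (ψ : Additive Γ₂ →+ A) (γ : Γ₁) :
    transferAlong j ψ (Additive.ofMul γ) = ∑ x : RCosets j, ψ (Additive.ofMul (rcPart j γ x)) := by
  have hfin : Finite (RCosets j) := Finite.of_fintype _
  rw [transferAlong_of_cond j hinj hfin, transferAux_apply]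
  have h : ∀ (i₁ i₂ : Fintype (RCosets j)) (f : RCosets j → A),
      @Finset.sum _ _ _ (@Finset.univ _ i₁) f = @Finset.sum _ _ _ (@Finset.univ _ i₂) f := by
    intro i₁ i₂ f
    rw [Subsingleton.elim i₁ i₂]
  exact h _ _ _

/-- Push-forward of a function on `SL(2, ℤ)` along the canonical representatives of
`j(Γ₂) \ Γ₁`. -/
noncomputable def pushLift {A : Type*} [AddCommGroup A] [Fintype (RCosets j)]
    (F' : SL(2, ℤ) → A) (g : SL(2, ℤ)) : A :=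
  ∑ x : RCosets j, F' (g * ((rcRep j x : Γ₁) : SL(2, ℤ))⁻¹)

/-- The push-forward of a lift of `ψ` is a lift of the transfer of `ψ`. -/
theorem isLift_pushLift {A : Type*} [AddCommGroup A] [Fintype (RCosets j)]
    (hj : ∀ γ, ((j γ : Γ₁) : SL(2, ℤ)) = γ) {ψ : Additive Γ₂ →+ A} {F' : SL(2, ℤ) → A}
    (hF' : IsLift Γ₂ ψ F') : IsLift Γ₁ (transferAlong j ψ) (pushLift j F') := by
  refine ⟨fun g γ => ?_, fun g => ?_⟩
  · rw [transferAlong_apply_canonical j (injective_of_coe j hj)]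
    unfold pushLift
    rw [← Finset.sum_add_distrib, ← Equiv.sum_comp (rcPerm j γ)]
    refine Finset.sum_congr rfl fun y _ => ?_
    have hp := congrArg (fun δ : Γ₁ => (δ : SL(2, ℤ))) (rcPart_spec j γ y)
    simp only [hj, Subgroup.coe_mul, Subgroup.coe_inv] at hp
    rw [← hF'.mul_right, hp, rcPerm_apply]
    congr 1
    group
  · unfold pushLift
    refine Finset.sum_congr rfl fun y _ => ?_
    rw [mul_assoc, hF'.T_left]

/-- The symbol of the push-forward lift is the push-forward of the symbol. -/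
theorem sym_pushLift [Fintype (RCosets j)] [Fintype (SL(2, ℤ) ⧸ Γ₂)]
    [DecidableEq (SL(2, ℤ) ⧸ Γ₁)]
    (hj : ∀ γ, ((j γ : Γ₁) : SL(2, ℤ)) = γ) {ψ : Additive Γ₂ →+ ℤ} {F' : SL(2, ℤ) → ℤ}
    (hF' : IsLift Γ₂ ψ F') :
    sym Γ₁ (pushLift j F') =
      PDSym.push (Subgroup.quotientMapOfLE (le_of_coe j hj)) (sym Γ₂ F') := by
  funext x
  obtain ⟨g, rfl⟩ := QuotientGroup.mk_surjective x
  rw [sym_mk (isLift_pushLift j hj hF')]
  unfold pushLift PDSym.push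
  rw [← Finset.sum_sub_distrib]
  refine Finset.sum_bij (fun x _ => ((g * ((rcRep j x : Γ₁) : SL(2, ℤ))⁻¹ : SL(2, ℤ)) :
    SL(2, ℤ) ⧸ Γ₂)) ?_ ?_ ?_ ?_
  · intro x _
    rw [Finset.mem_filter]
    refine ⟨Finset.mem_univ _, ?_⟩
    rw [Subgroup.quotientMapOfLE_apply_mk]
    exact QuotientGroup.mk_mul_of_mem g (Γ₁.inv_mem (rcRep j x).2)
  · intro x _ y _ hxy
    have h1 : (g * ((rcRep j x : Γ₁) : SL(2, ℤ))⁻¹)⁻¹ * (g * ((rcRep j y : Γ₁) : SL(2, ℤ))⁻¹)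
        ∈ Γ₂ := QuotientGroup.eq.mp hxy
    have h2 : rcRep j x * (rcRep j y)⁻¹ ∈ j.range := by
      rw [mem_range_iff j hj]
      have e : (g * ((rcRep j x : Γ₁) : SL(2, ℤ))⁻¹)⁻¹ * (g * ((rcRep j y : Γ₁) : SL(2, ℤ))⁻¹)
          = ((rcRep j x * (rcRep j y)⁻¹ : Γ₁) : SL(2, ℤ)) := by
        rw [Subgroup.coe_mul, Subgroup.coe_inv]; group
      rwa [e] at h1
    have h3 : rcMk j (rcRep j y) = rcMk j (rcRep j x) := (rcMk_eq_iff j).mpr h2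
    rw [rcMk_rcRep, rcMk_rcRep] at h3
    exact h3.symm
  · intro y hy
    obtain ⟨h, rfl⟩ := QuotientGroup.mk_surjective y
    rw [Finset.mem_filter, Subgroup.quotientMapOfLE_apply_mk] at hy
    have hδ : h⁻¹ * g ∈ Γ₁ := QuotientGroup.eq.mp hy.2
    refine ⟨rcMk j ⟨h⁻¹ * g, hδ⟩, Finset.mem_univ _, ?_⟩
    have h1 : rcMk j (rcRep j (rcMk j ⟨h⁻¹ * g, hδ⟩)) = rcMk j ⟨h⁻¹ * g, hδ⟩ := rcMk_rcRep j _
    have h2 : (⟨h⁻¹ * g, hδ⟩ : Γ₁) * (rcRep j (rcMk j ⟨h⁻¹ * g, hδ⟩))⁻¹ ∈ j.range :=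
      (rcMk_eq_iff j).mp h1
    rw [mem_range_iff j hj] at h2
    symm
    rw [QuotientGroup.eq]
    have e : h⁻¹ * (g * ((rcRep j (rcMk j ⟨h⁻¹ * g, hδ⟩) : Γ₁) : SL(2, ℤ))⁻¹)
        = (((⟨h⁻¹ * g, hδ⟩ : Γ₁) * (rcRep j (rcMk j ⟨h⁻¹ * g, hδ⟩))⁻¹ : Γ₁) : SL(2, ℤ)) := by
      rw [Subgroup.coe_mul, Subgroup.coe_inv]; group
    rw [e]
    exact h2
  · intro x _
    rw [sym_mk hF', mul_assoc]

/-- **Adjunction of restriction and transfer for `pd3`** (final form of leaf (4)). -/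
theorem pd3_res_transfer (Γ₁ Γ₂ : Subgroup SL(2, ℤ)) [Fintype (SL(2, ℤ) ⧸ Γ₁)]
    [Fintype (SL(2, ℤ) ⧸ Γ₂)] (hneg : -1 ∈ Γ₂) (j : Γ₂ →* Γ₁)
    (hj : ∀ γ, ((j γ : Γ₁) : SL(2, ℤ)) = γ) (φ : Additive Γ₁ →+ ℤ) (hφ : IsParabolicHom Γ₁ φ)
    (ψ : Additive Γ₂ →+ ℤ) (hψ : IsParabolicHom Γ₂ ψ) :
    pd3 Γ₂ (φ.comp (MonoidHom.toAdditive j)) ψ = pd3 Γ₁ φ (transferAlong j ψ) := by
  classical
  have hneg₁ : -1 ∈ Γ₁ := le_of_coe j hj hneg
  have hfin : Finite (RCosets j) := finite_rcosets j hj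
  let _ : Fintype (RCosets j) := Fintype.ofFinite _
  have hF : IsLift Γ₁ φ (liftFun Γ₁ φ) := isLift_liftFun hφ
  have hF' : IsLift Γ₂ ψ (liftFun Γ₂ ψ) := isLift_liftFun hψ
  have hFr := isLift_comp j hj hF
  have hF'' := isLift_pushLift j hj hF'
  rw [pd3_eq hneg (isParabolicHom_of_isLift hneg hFr) hψ hFr hF',
    pd3_eq hneg₁ hφ (isParabolicHom_of_isLift hneg₁ hF'') hF hF'', sym_pushLift j hj hF']
  have e : sym Γ₂ (liftFun Γ₁ φ)
      = fun y => sym Γ₁ (liftFun Γ₁ φ) (Subgroup.quotientMapOfLE (le_of_coe j hj) y) := by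
    funext y; exact sym_comp j hj hF y
  rw [e]
  refine PDSym.B3_comp_left (uX_uX_uX hneg₁) (uX_uX_uX hneg) _ (fun y => ?_) _ _
  obtain ⟨g, rfl⟩ := QuotientGroup.mk_surjective y
  rfl

/-- The transfer of a parabolic homomorphism along a coset-compatible map is parabolic. -/
theorem isParabolicHom_transferAlong (Γ₁ Γ₂ : Subgroup SL(2, ℤ)) [Finite (SL(2, ℤ) ⧸ Γ₂)]
    (hneg : -1 ∈ Γ₂) (j : Γ₂ →* Γ₁) (hj : ∀ γ, ((j γ : Γ₁) : SL(2, ℤ)) = γ)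
    (ψ : Additive Γ₂ →+ ℤ) (hψ : IsParabolicHom Γ₂ ψ) :
    IsParabolicHom Γ₁ (transferAlong j ψ) := by
  have hfin : Finite (RCosets j) := finite_rcosets j hj
  let _ : Fintype (RCosets j) := Fintype.ofFinite _
  exact isParabolicHom_of_isLift (le_of_coe j hj hneg)
    (isLift_pushLift j hj (isLift_liftFun hψ))

end Adj

/-! ### the case `Γ₀(Nq) ≤ Γ₀(N)` -/

theorem neg_one_mem_Gamma0 (M : ℕ) : (-1 : SL(2, ℤ)) ∈ Gamma0 M := by
  rw [Gamma0_mem]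
  simp

/-- `res₁ ⊣ tr₁` for `pd3`. -/
theorem pd3_res₁ (N q : ℕ) [Fintype (SL(2, ℤ) ⧸ Gamma0 N)] [Fintype (SL(2, ℤ) ⧸ Gamma0 (N * q))]
    (x : Additive (Gamma0 N) →+ ℤ) (hx : IsParabolicHom (Gamma0 N) x)
    (y : Additive (Gamma0 (N * q)) →+ ℤ) (hy : IsParabolicHom (Gamma0 (N * q)) y) :
    pd3 (Gamma0 (N * q)) (res₁ N q x) y = pd3 (Gamma0 N) x (tr₁ N q y) :=
  pd3_res_transfer (Gamma0 N) (Gamma0 (N * q)) (neg_one_mem_Gamma0 _) (incl₁ N q)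
    (incl₁_coe N q) x hx y hy

end Fermat.Agent.S41.PDPairAdj
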