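import Mathlib

/-!
# S41 / [PD] (6): the `δ`-twist decomposition of `SL(2, ℤ)`  (`δ = diag(q, 1)`, `q` prime)

For `g = [[a, b], [c, d]] ∈ SL(2, ℤ)` there is a unique row-Hermite representative
`β(g) ∈ {[[1, y], [0, q]] (0 ≤ y < q)} ∪ {[[q, 0], [0, 1]]}` such that
`hq q g := β(g) * g * δ⁻¹` is integral:

* `q ∣ c`: `β = [[q, 0], [0, 1]]`, `hq q g = [[a, q b], [c / q, d]]`;
* `q ∤ c`: `β = [[1, y], [0, q]]` with `q ∣ a + y c`, `hq q g = [[(a + y c) / q, b + y d], [c, q d]]`.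

Main results (`T = ModularGroup.T`, `q` prime):

* `hq_mul_of_entries` : `hq q (g * γ) = hq q g * γ'` when `γ' = δ γ δ⁻¹`, given by its entries
  `γ' 0 0 = γ 0 0 ∧ γ' 0 1 = q * γ 0 1 ∧ q * γ' 1 0 = γ 1 0 ∧ γ' 1 1 = γ 1 1`
  (the shape of `incl₂_entries`);
* `hq_mul`   : for `q ∣ γ 1 0` such a `γ'` exists, and `hq q (g * γ) = hq q g * γ'`;
* `jq_mul`   : `jq q (g * γ) = jq q g` when `q ∣ γ 1 0`;
* `hq_T`     : `hq q (T * g) = T ^ (jq q g) * hq q g`, where `jq q g = q` if `q ∣ c`,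
               `= 1` if `q ∤ c`, `q ∣ a`, and `= 0` otherwise;
* `exists_hq`, `hq_inj`, `exists_unique_hq` : `(g, i) ↦ T ^ i * hq q g` is a bijection
  `{(g, i) | i < jq q g} → SL(2, ℤ)`;
* `comp_hq_T` : `F ∘ hq q` is left `T`-invariant when `F` is.
-/

set_option autoImplicit false

open Matrix ModularGroup
open scoped MatrixGroups

namespace Fermat.Agent.S41.PDTwist

/-! ### entries of `SL(2, ℤ)` -/

theorem det_entries (g : SL(2, ℤ)) : g 0 0 * g 1 1 - g 0 1 * g 1 0 = 1 := by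
  have h := g.det_coe
  rw [Matrix.det_fin_two] at h
  exact h

theorem ext4 {g h : SL(2, ℤ)} (h00 : g 0 0 = h 0 0) (h01 : g 0 1 = h 0 1)
    (h10 : g 1 0 = h 1 0) (h11 : g 1 1 = h 1 1) : g = h := by
  ext i j
  fin_cases i <;> fin_cases j <;> assumption

theorem mul_entry (g h : SL(2, ℤ)) (i j : Fin 2) :
    (g * h) i j = g i 0 * h 0 j + g i 1 * h 1 j := by
  rw [Matrix.SpecialLinearGroup.coe_mul, Matrix.mul_apply, Fin.sum_univ_two]

theorem T_pow_entries (n : ℕ) :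
    (T ^ n : SL(2, ℤ)) 0 0 = 1 ∧ (T ^ n : SL(2, ℤ)) 0 1 = n ∧
      (T ^ n : SL(2, ℤ)) 1 0 = 0 ∧ (T ^ n : SL(2, ℤ)) 1 1 = 1 := by
  have h : ((T ^ n : SL(2, ℤ)) : Matrix (Fin 2) (Fin 2) ℤ) = !![1, (n : ℤ); 0, 1] := by
    rw [← zpow_natCast]
    exact coe_T_zpow n
  refine ⟨?_, ?_, ?_, ?_⟩ <;> rw [h] <;> rfl

theorem T_pow_mul_entries (n : ℕ) (g : SL(2, ℤ)) :
    (T ^ n * g) 0 0 = g 0 0 + n * g 1 0 ∧ (T ^ n * g) 0 1 = g 0 1 + n * g 1 1 ∧
      (T ^ n * g) 1 0 = g 1 0 ∧ (T ^ n * g) 1 1 = g 1 1 := by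
  obtain ⟨h00, h01, h10, h11⟩ := T_pow_entries n
  refine ⟨?_, ?_, ?_, ?_⟩
  · rw [mul_entry, h00, h01]; ring
  · rw [mul_entry, h00, h01]; ring
  · rw [mul_entry, h10, h11]; ring
  · rw [mul_entry, h10, h11]; ring

theorem T_mul_entries (g : SL(2, ℤ)) :
    (T * g) 0 0 = g 0 0 + g 1 0 ∧ (T * g) 0 1 = g 0 1 + g 1 1 ∧
      (T * g) 1 0 = g 1 0 ∧ (T * g) 1 1 = g 1 1 := by
  have h := T_pow_mul_entries 1 g
  simpa using h

/-! ### the shift `y` -/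

/-- the shift `y` with `0 ≤ y < q` and `q ∣ a + y * c` (when `q` is prime and `q ∤ c`). -/
def yq (q : ℕ) (a c : ℤ) : ℤ := (-(a * Int.gcdA c q)) % q

theorem yq_nonneg {q : ℕ} (hq : q.Prime) (a c : ℤ) : 0 ≤ yq q a c :=
  Int.emod_nonneg _ (by exact_mod_cast hq.ne_zero)

theorem yq_lt {q : ℕ} (hq : q.Prime) (a c : ℤ) : yq q a c < q :=
  Int.emod_lt_of_pos _ (by exact_mod_cast hq.pos)

theorem dvd_add_yq_mul {q : ℕ} (hq : q.Prime) {a c : ℤ} (hc : ¬ (q : ℤ) ∣ c) :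
    (q : ℤ) ∣ a + yq q a c * c := by
  have h1 : Int.gcd c q = 1 := by
    have h2 : ¬ q ∣ c.natAbs := fun h => hc (Int.natCast_dvd.mpr h)
    have h3 : Nat.Coprime q c.natAbs := (Nat.Prime.coprime_iff_not_dvd hq).mpr h2
    have h4 : Int.gcd c q = Nat.gcd c.natAbs q := by
      simp [Int.gcd]
    rw [h4]
    exact Nat.Coprime.symm h3
  have hb := Int.gcd_eq_gcd_ab c q
  rw [h1] at hb
  have hk : yq q a c = -(a * Int.gcdA c q) - q * (-(a * Int.gcdA c q) / q) := by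
    unfold yq
    rw [Int.emod_def]
  refine ⟨a * Int.gcdB c q - (-(a * Int.gcdA c q) / q) * c, ?_⟩
  rw [hk]
  have hb' : (1 : ℤ) = c * Int.gcdA c q + q * Int.gcdB c q := by exact_mod_cast hb
  linear_combination a * hb'

theorem yq_unique {q : ℕ} (hq : q.Prime) {a c : ℤ} (hc : ¬ (q : ℤ) ∣ c) {y : ℤ} (h0 : 0 ≤ y)
    (h1 : y < q) (h : (q : ℤ) ∣ a + y * c) : y = yq q a c := by
  have h2 := dvd_add_yq_mul hq (a := a) hc
  have h3 : (q : ℤ) ∣ (y - yq q a c) * c := by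
    have := dvd_sub h h2
    have e : a + y * c - (a + yq q a c * c) = (y - yq q a c) * c := by ring
    rwa [e] at this
  have hp : Prime (q : ℤ) := Nat.prime_iff_prime_int.mp hq
  have h4 : (q : ℤ) ∣ y - yq q a c := (hp.dvd_or_dvd h3).resolve_right hc
  have h5 : |y - yq q a c| < q := by
    have := yq_nonneg hq a c
    have := yq_lt hq a c
    rw [abs_lt]
    constructor <;> linarith
  have := Int.eq_zero_of_abs_lt_dvd h4 h5
  linarith

/-! ### the map `hq` -/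

/-- underlying matrix of `hq`. -/
def hqMat (q : ℕ) (g : SL(2, ℤ)) : Matrix (Fin 2) (Fin 2) ℤ :=
  if (q : ℤ) ∣ g 1 0 then !![g 0 0, q * g 0 1; g 1 0 / q, g 1 1]
  else !![(g 0 0 + yq q (g 0 0) (g 1 0) * g 1 0) / q, g 0 1 + yq q (g 0 0) (g 1 0) * g 1 1;
          g 1 0, q * g 1 1]

theorem det_hqMat (q : ℕ) [hq : Fact q.Prime] (g : SL(2, ℤ)) : (hqMat q g).det = 1 := by
  have hdet := det_entries g
  unfold hqMat
  split_ifs with h
  · rw [Matrix.det_fin_two_of]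
    obtain ⟨k, hk⟩ := h
    have hq0 : (q : ℤ) ≠ 0 := by exact_mod_cast hq.out.ne_zero
    rw [hk, Int.mul_ediv_cancel_left _ hq0]
    rw [hk] at hdet
    linear_combination hdet
  · rw [Matrix.det_fin_two_of]
    obtain ⟨k, hk⟩ := dvd_add_yq_mul hq.out (a := g 0 0) h
    have hq0 : (q : ℤ) ≠ 0 := by exact_mod_cast hq.out.ne_zero
    rw [hk, Int.mul_ediv_cancel_left _ hq0]
    linear_combination hdet - g 1 1 * hk

/-- `hq q g = β(g) * g * diag(q, 1)⁻¹`, with `β(g)` the row-Hermite representative. -/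
def hq (q : ℕ) [Fact q.Prime] (g : SL(2, ℤ)) : SL(2, ℤ) := ⟨hqMat q g, det_hqMat q g⟩

/-- the number of `T`-steps: `hq q (T * g) = T ^ (jq q g) * hq q g`. -/
def jq (q : ℕ) (g : SL(2, ℤ)) : ℕ :=
  if (q : ℤ) ∣ g 1 0 then q else if (q : ℤ) ∣ g 0 0 then 1 else 0

variable {q : ℕ} [hq' : Fact q.Prime]

theorem q_ne_zero : (q : ℤ) ≠ 0 := by exact_mod_cast hq'.out.ne_zero

theorem hq_of_dvd {g : SL(2, ℤ)} (h : (q : ℤ) ∣ g 1 0) :
    (hq q g) 0 0 = g 0 0 ∧ (hq q g) 0 1 = q * g 0 1 ∧ (q : ℤ) * (hq q g) 1 0 = g 1 0 ∧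
      (hq q g) 1 1 = g 1 1 := by
  have e : ((hq q g : SL(2, ℤ)) : Matrix (Fin 2) (Fin 2) ℤ)
      = !![g 0 0, q * g 0 1; g 1 0 / q, g 1 1] := by
    show hqMat q g = _
    unfold hqMat
    rw [if_pos h]
  refine ⟨?_, ?_, ?_, ?_⟩
  · rw [e]; rfl
  · rw [e]; rfl
  · rw [e]
    show (q : ℤ) * (g 1 0 / q) = g 1 0
    exact Int.mul_ediv_cancel' h
  · rw [e]; rfl

theorem hq_of_not_dvd {g : SL(2, ℤ)} (h : ¬ (q : ℤ) ∣ g 1 0) :
    (q : ℤ) * (hq q g) 0 0 = g 0 0 + yq q (g 0 0) (g 1 0) * g 1 0 ∧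
      (hq q g) 0 1 = g 0 1 + yq q (g 0 0) (g 1 0) * g 1 1 ∧ (hq q g) 1 0 = g 1 0 ∧
      (hq q g) 1 1 = q * g 1 1 := by
  have e : ((hq q g : SL(2, ℤ)) : Matrix (Fin 2) (Fin 2) ℤ)
      = !![(g 0 0 + yq q (g 0 0) (g 1 0) * g 1 0) / q, g 0 1 + yq q (g 0 0) (g 1 0) * g 1 1;
          g 1 0, q * g 1 1] := by
    show hqMat q g = _
    unfold hqMat
    rw [if_neg h]
  refine ⟨?_, ?_, ?_, ?_⟩
  · rw [e]
    show (q : ℤ) * ((g 0 0 + yq q (g 0 0) (g 1 0) * g 1 0) / q) = _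
    exact Int.mul_ediv_cancel' (dvd_add_yq_mul hq'.out h)
  · rw [e]; rfl
  · rw [e]; rfl
  · rw [e]; rfl

theorem not_dvd_of_dvd {γ : SL(2, ℤ)} (h : (q : ℤ) ∣ γ 1 0) : ¬ (q : ℤ) ∣ γ 0 0 := by
  intro h0
  have hdet := det_entries γ
  have hp : Prime (q : ℤ) := Nat.prime_iff_prime_int.mp hq'.out
  have h1 : (q : ℤ) ∣ 1 := by
    rw [← hdet]
    exact dvd_sub (Dvd.dvd.mul_right h0 _) (Dvd.dvd.mul_left h _)
  exact hp.not_dvd_one h1

theorem dvd_mul_iff (g : SL(2, ℤ)) {γ : SL(2, ℤ)} (h : (q : ℤ) ∣ γ 1 0) :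
    (q : ℤ) ∣ (g * γ) 1 0 ↔ (q : ℤ) ∣ g 1 0 := by
  have hp : Prime (q : ℤ) := Nat.prime_iff_prime_int.mp hq'.out
  rw [mul_entry]
  constructor
  · intro h1
    have h2 : (q : ℤ) ∣ g 1 0 * γ 0 0 := (dvd_add_left (Dvd.dvd.mul_left h _)).mp h1
    exact (hp.dvd_or_dvd h2).resolve_right (not_dvd_of_dvd h)
  · intro h1
    exact dvd_add (Dvd.dvd.mul_right h1 _) (Dvd.dvd.mul_left h _)

theorem dvd_mul_iff' (g : SL(2, ℤ)) {γ : SL(2, ℤ)} (h : (q : ℤ) ∣ γ 1 0) :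
    (q : ℤ) ∣ (g * γ) 0 0 ↔ (q : ℤ) ∣ g 0 0 := by
  have hp : Prime (q : ℤ) := Nat.prime_iff_prime_int.mp hq'.out
  rw [mul_entry]
  constructor
  · intro h1
    have h2 : (q : ℤ) ∣ g 0 0 * γ 0 0 := (dvd_add_left (Dvd.dvd.mul_left h _)).mp h1
    exact (hp.dvd_or_dvd h2).resolve_right (not_dvd_of_dvd h)
  · intro h1
    exact dvd_add (Dvd.dvd.mul_right h1 _) (Dvd.dvd.mul_left h _)

theorem jq_mul (g : SL(2, ℤ)) {γ : SL(2, ℤ)} (h : (q : ℤ) ∣ γ 1 0) : jq q (g * γ) = jq q g := by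
  unfold jq
  simp only [dvd_mul_iff g h, dvd_mul_iff' g h]

/-- right equivariance: `hq q (g * γ) = hq q g * (δ γ δ⁻¹)`, for `γ' = δ γ δ⁻¹` given by its
entries (the shape of `incl₂_entries`). -/
theorem hq_mul_of_entries (g : SL(2, ℤ)) {γ γ' : SL(2, ℤ)}
    (hrel : γ' 0 0 = γ 0 0 ∧ γ' 0 1 = q * γ 0 1 ∧ (q : ℤ) * γ' 1 0 = γ 1 0 ∧ γ' 1 1 = γ 1 1) :
    hq q (g * γ) = hq q g * γ' := by
  obtain ⟨r00, r01, r10, r11⟩ := hrel
  have hγ : (q : ℤ) ∣ γ 1 0 := ⟨γ' 1 0, r10.symm⟩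
  have hq0 : (q : ℤ) ≠ 0 := q_ne_zero
  by_cases hc : (q : ℤ) ∣ g 1 0
  · have hc' : (q : ℤ) ∣ (g * γ) 1 0 := (dvd_mul_iff g hγ).mpr hc
    obtain ⟨a00, a01, a10, a11⟩ := hq_of_dvd hc'
    obtain ⟨b00, b01, b10, b11⟩ := hq_of_dvd hc
    refine ext4 ?_ ?_ ?_ ?_
    · rw [a00, mul_entry, mul_entry, b00, b01, r00]
      linear_combination (-(g 0 1)) * r10
    · rw [a01, mul_entry, mul_entry, b00, b01, r01, r11]
      ring
    · apply mul_left_cancel₀ hq0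
      rw [a10, mul_entry, mul_entry, r00]
      linear_combination (-(γ 0 0)) * b10 - (hq q g) 1 1 * r10 - γ 1 0 * b11
    · rw [a11, mul_entry, mul_entry, b11, r01, r11]
      linear_combination (-(γ 0 1)) * b10
  · have hc' : ¬ (q : ℤ) ∣ (g * γ) 1 0 := fun h => hc ((dvd_mul_iff g hγ).mp h)
    obtain ⟨a00, a01, a10, a11⟩ := hq_of_not_dvd hc'
    obtain ⟨b00, b01, b10, b11⟩ := hq_of_not_dvd hc
    -- the shift is unchanged
    have hy : yq q (g 0 0) (g 1 0) = yq q ((g * γ) 0 0) ((g * γ) 1 0) := by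
      refine yq_unique hq'.out hc' (yq_nonneg hq'.out _ _) (yq_lt hq'.out _ _) ?_
      obtain ⟨k, hk⟩ := dvd_add_yq_mul hq'.out (a := g 0 0) hc
      refine ⟨k * γ 0 0 + (g 0 1 + yq q (g 0 0) (g 1 0) * g 1 1) * γ' 1 0, ?_⟩
      rw [mul_entry, mul_entry]
      linear_combination (γ 0 0) * hk - (g 0 1 + yq q (g 0 0) (g 1 0) * g 1 1) * r10
    rw [← hy] at a00 a01
    refine ext4 ?_ ?_ ?_ ?_
    · apply mul_left_cancel₀ hq0
      rw [a00, mul_entry, mul_entry, mul_entry, r00]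
      linear_combination (-(γ 0 0)) * b00 - (hq q g) 0 1 * r10 - γ 1 0 * b01
    · rw [a01, mul_entry, mul_entry, mul_entry, r01, r11, b01]
      linear_combination (-(γ 0 1)) * b00
    · rw [a10, mul_entry, mul_entry, b10, b11, r00]
      linear_combination (-(g 1 1)) * r10
    · rw [a11, mul_entry, mul_entry, b10, b11, r01, r11]
      ring

/-- left `T`-equivariance up to the shift `jq`. -/
theorem hq_T (g : SL(2, ℤ)) : hq q (T * g) = T ^ (jq q g) * hq q g := by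
  obtain ⟨t00, t01, t10, t11⟩ := T_mul_entries g
  have hq0 : (q : ℤ) ≠ 0 := q_ne_zero
  by_cases hc : (q : ℤ) ∣ g 1 0
  · have hc' : (q : ℤ) ∣ (T * g) 1 0 := by rw [t10]; exact hc
    obtain ⟨a00, a01, a10, a11⟩ := hq_of_dvd hc'
    obtain ⟨b00, b01, b10, b11⟩ := hq_of_dvd hc
    have hj : jq q g = q := by unfold jq; rw [if_pos hc]
    obtain ⟨p00, p01, p10, p11⟩ := T_pow_mul_entries q (hq q g)
    rw [hj]
    refine ext4 ?_ ?_ ?_ ?_
    · rw [a00, p00, t00, b00, b10]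
    · rw [a01, p01, t01, b01, b11]; ring
    · apply mul_left_cancel₀ hq0
      rw [a10, p10, t10, b10]
    · rw [a11, p11, t11, b11]
  · have hc' : ¬ (q : ℤ) ∣ (T * g) 1 0 := by rw [t10]; exact hc
    obtain ⟨a00, a01, a10, a11⟩ := hq_of_not_dvd hc'
    obtain ⟨b00, b01, b10, b11⟩ := hq_of_not_dvd hc
    rw [t00, t10] at a00 a01
    rw [t01, t11] at a01
    rw [t10] at a10
    rw [t11] at a11
    by_cases ha : (q : ℤ) ∣ g 0 0
    · -- `y = 0`, new shift `q - 1`, one `T`-step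
      have hj : jq q g = 1 := by unfold jq; rw [if_neg hc, if_pos ha]
      have hy : (0 : ℤ) = yq q (g 0 0) (g 1 0) :=
        yq_unique hq'.out hc le_rfl (by exact_mod_cast hq'.out.pos) (by simpa using ha)
      have hy' : (q : ℤ) - 1 = yq q (g 0 0 + g 1 0) (g 1 0) := by
        refine yq_unique hq'.out hc ?_ (by linarith) ?_
        · have : (1 : ℤ) ≤ q := by exact_mod_cast hq'.out.one_lt.le
          linarith
        · obtain ⟨k, hk⟩ := ha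
          exact ⟨k + g 1 0, by rw [hk]; ring⟩
      rw [← hy'] at a00 a01
      rw [← hy] at b00 b01
      obtain ⟨p00, p01, p10, p11⟩ := T_pow_mul_entries 1 (hq q g)
      rw [hj]
      refine ext4 ?_ ?_ ?_ ?_
      · apply mul_left_cancel₀ hq0
        rw [a00, p00, b10]
        push_cast
        linear_combination (-1 : ℤ) * b00
      · rw [a01, p01, b01, b11]
        push_cast
        ring
      · rw [a10, p10, b10]
      · rw [a11, p11, b11]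
    · -- `y ≥ 1`, new shift `y - 1`, no `T`-step
      have hj : jq q g = 0 := by unfold jq; rw [if_neg hc, if_neg ha]
      have hy0 : yq q (g 0 0) (g 1 0) ≠ 0 := by
        intro h0
        have := dvd_add_yq_mul hq'.out (a := g 0 0) hc
        rw [h0] at this
        exact ha (by simpa using this)
      have hy' : yq q (g 0 0) (g 1 0) - 1 = yq q (g 0 0 + g 1 0) (g 1 0) := by
        have h1 := yq_nonneg hq'.out (g 0 0) (g 1 0)
        have h2 := yq_lt hq'.out (g 0 0) (g 1 0)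
        refine yq_unique hq'.out hc ?_ (by linarith) ?_
        · have : yq q (g 0 0) (g 1 0) ≠ 0 := hy0
          omega
        · obtain ⟨k, hk⟩ := dvd_add_yq_mul hq'.out (a := g 0 0) hc
          exact ⟨k, by rw [← hk]; ring⟩
      rw [← hy'] at a00 a01
      rw [hj, pow_zero, one_mul]
      refine ext4 ?_ ?_ ?_ ?_
      · apply mul_left_cancel₀ hq0
        rw [a00, b00]; ring
      · rw [a01, b01]; ring
      · rw [a10, b10]
      · rw [a11, b11]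

/-- `F ∘ hq q` is left `T`-invariant as soon as `F` is. -/
theorem comp_hq_T {A : Type*} (F : SL(2, ℤ) → A) (hF : ∀ g, F (T * g) = F g) (g : SL(2, ℤ)) :
    F (hq q (T * g)) = F (hq q g) := by
  rw [hq_T]
  generalize jq q g = n
  induction n with
  | zero => rw [pow_zero, one_mul]
  | succ n ih => rw [pow_succ', mul_assoc, hF, ih]

/-- right equivariance, existence form: for `q ∣ γ 1 0` the matrix `γ' = δ γ δ⁻¹` is integral
and `hq q (g * γ) = hq q g * γ'`. -/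
theorem hq_mul (g γ : SL(2, ℤ)) (hγ : (q : ℤ) ∣ γ 1 0) :
    ∃ γ' : SL(2, ℤ), γ' 0 0 = γ 0 0 ∧ γ' 0 1 = q * γ 0 1 ∧ (q : ℤ) * γ' 1 0 = γ 1 0 ∧
      γ' 1 1 = γ 1 1 ∧ hq q (g * γ) = hq q g * γ' := by
  have hq0 : (q : ℤ) ≠ 0 := q_ne_zero
  have hdet := det_entries γ
  obtain ⟨k, hk⟩ := hγ
  let γ' : SL(2, ℤ) := ⟨!![γ 0 0, q * γ 0 1; k, γ 1 1], by
    rw [Matrix.det_fin_two_of]; rw [hk] at hdet; linear_combination hdet⟩
  have e : γ' 0 0 = γ 0 0 ∧ γ' 0 1 = q * γ 0 1 ∧ (q : ℤ) * γ' 1 0 = γ 1 0 ∧ γ' 1 1 = γ 1 1 :=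
    ⟨rfl, rfl, hk.symm, rfl⟩
  exact ⟨γ', e.1, e.2.1, e.2.2.1, e.2.2.2, hq_mul_of_entries g e⟩

/-! ### the bijection `(g, i) ↦ T ^ i * hq q g` -/

theorem yq_eq_zero {a c : ℤ} (hc : ¬ (q : ℤ) ∣ c) (ha : (q : ℤ) ∣ a) : yq q a c = 0 :=
  (yq_unique hq'.out hc le_rfl (by exact_mod_cast hq'.out.pos) (by simpa using ha)).symm

theorem not_dvd_one_one {g : SL(2, ℤ)} (h : (q : ℤ) ∣ g 1 0) : ¬ (q : ℤ) ∣ g 1 1 := by
  intro h1
  have hdet := det_entries g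
  have hp : Prime (q : ℤ) := Nat.prime_iff_prime_int.mp hq'.out
  have h2 : (q : ℤ) ∣ 1 := by
    rw [← hdet]
    exact dvd_sub (Dvd.dvd.mul_left h1 _) (Dvd.dvd.mul_left h _)
  exact hp.not_dvd_one h2

omit hq' in
/-- the two cases of `i < jq q g`. -/
theorem cases_of_lt_jq {g : SL(2, ℤ)} {i : ℕ} (hi : i < jq q g) :
    ((q : ℤ) ∣ g 1 0 ∧ i < q) ∨ (¬ (q : ℤ) ∣ g 1 0 ∧ (q : ℤ) ∣ g 0 0 ∧ i = 0) := by
  unfold jq at hi
  by_cases hc : (q : ℤ) ∣ g 1 0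
  · rw [if_pos hc] at hi
    exact Or.inl ⟨hc, hi⟩
  · rw [if_neg hc] at hi
    by_cases ha : (q : ℤ) ∣ g 0 0
    · rw [if_pos ha] at hi
      exact Or.inr ⟨hc, ha, by omega⟩
    · rw [if_neg ha] at hi
      exact absurd hi (Nat.not_lt_zero _)

/-- surjectivity of `(g, i) ↦ T ^ i * hq q g` on `{(g, i) | i < jq q g}`. -/
theorem exists_hq (h0 : SL(2, ℤ)) :
    ∃ (g : SL(2, ℤ)) (i : ℕ), i < jq q g ∧ T ^ i * hq q g = h0 := by
  have hq0 : (q : ℤ) ≠ 0 := q_ne_zero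
  have hdet := det_entries h0
  by_cases hD : (q : ℤ) ∣ h0 1 1
  · -- `g = [[q A, B], [C, D / q]]`, `i = 0`
    obtain ⟨k, hk⟩ := hD
    have hC : ¬ (q : ℤ) ∣ h0 1 0 := by
      intro hC
      have hp : Prime (q : ℤ) := Nat.prime_iff_prime_int.mp hq'.out
      have h1 : (q : ℤ) ∣ 1 := by
        rw [← hdet]
        exact dvd_sub (Dvd.dvd.mul_left ⟨k, hk⟩ _) (Dvd.dvd.mul_left hC _)
      exact hp.not_dvd_one h1
    let g : SL(2, ℤ) := ⟨!![q * h0 0 0, h0 0 1; h0 1 0, k], by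
      rw [Matrix.det_fin_two_of]; rw [hk] at hdet; linear_combination hdet⟩
    have g00 : g 0 0 = q * h0 0 0 := rfl
    have g01 : g 0 1 = h0 0 1 := rfl
    have g10 : g 1 0 = h0 1 0 := rfl
    have g11 : g 1 1 = k := rfl
    have hc : ¬ (q : ℤ) ∣ g 1 0 := by rw [g10]; exact hC
    have ha : (q : ℤ) ∣ g 0 0 := ⟨h0 0 0, g00⟩
    refine ⟨g, 0, ?_, ?_⟩
    · unfold jq
      rw [if_neg hc, if_pos ha]
      exact Nat.one_pos
    · rw [pow_zero, one_mul]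
      obtain ⟨b00, b01, b10, b11⟩ := hq_of_not_dvd hc
      rw [yq_eq_zero hc ha] at b00 b01
      refine ext4 ?_ ?_ ?_ ?_
      · apply mul_left_cancel₀ hq0
        rw [b00, g00]; ring
      · rw [b01, g01]; ring
      · rw [b10, g10]
      · rw [b11, g11, hk]
  · -- `g = [[A - i C, (B - i D) / q], [q C, D]]`, `0 ≤ i < q`, `q ∣ B - i D`
    have hD' : ¬ (q : ℤ) ∣ -(h0 1 1) := by rwa [dvd_neg]
    obtain ⟨k, hk⟩ := dvd_add_yq_mul hq'.out (a := h0 0 1) hD'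
    have hi0 : 0 ≤ yq q (h0 0 1) (-(h0 1 1)) := yq_nonneg hq'.out _ _
    have hiq : yq q (h0 0 1) (-(h0 1 1)) < q := yq_lt hq'.out _ _
    generalize yq q (h0 0 1) (-(h0 1 1)) = y at hk hi0 hiq
    obtain ⟨i, rfl⟩ := Int.eq_ofNat_of_zero_le hi0
    have hiq' : i < q := by exact_mod_cast hiq
    let g : SL(2, ℤ) := ⟨!![h0 0 0 - i * h0 1 0, k; q * h0 1 0, h0 1 1], by
      rw [Matrix.det_fin_two_of]; linear_combination hdet + h0 1 0 * hk⟩
    have g00 : g 0 0 = h0 0 0 - i * h0 1 0 := rfl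
    have g01 : g 0 1 = k := rfl
    have g10 : g 1 0 = q * h0 1 0 := rfl
    have g11 : g 1 1 = h0 1 1 := rfl
    have hc : (q : ℤ) ∣ g 1 0 := ⟨h0 1 0, g10⟩
    refine ⟨g, i, ?_, ?_⟩
    · unfold jq
      rw [if_pos hc]
      exact hiq'
    · obtain ⟨b00, b01, b10, b11⟩ := hq_of_dvd hc
      obtain ⟨p00, p01, p10, p11⟩ := T_pow_mul_entries i (hq q g)
      have b10' : (hq q g) 1 0 = h0 1 0 := by
        apply mul_left_cancel₀ hq0
        rw [b10, g10]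
      refine ext4 ?_ ?_ ?_ ?_
      · rw [p00, b00, b10', g00]; ring
      · rw [p01, b01, b11, g01, g11]
        linear_combination (-1 : ℤ) * hk
      · rw [p10, b10']
      · rw [p11, b11, g11]

theorem dvd_T_pow_mul_hq_iff (g : SL(2, ℤ)) (i : ℕ) :
    (q : ℤ) ∣ (T ^ i * hq q g) 1 1 ↔ ¬ (q : ℤ) ∣ g 1 0 := by
  obtain ⟨-, -, -, p11⟩ := T_pow_mul_entries i (hq q g)
  rw [p11]
  by_cases hc : (q : ℤ) ∣ g 1 0
  · obtain ⟨-, -, -, b11⟩ := hq_of_dvd hc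
    rw [b11]
    exact ⟨fun h => absurd h (not_dvd_one_one hc), fun h => absurd hc h⟩
  · obtain ⟨-, -, -, b11⟩ := hq_of_not_dvd hc
    rw [b11]
    exact ⟨fun _ => hc, fun _ => Dvd.intro _ rfl⟩

/-- injectivity of `(g, i) ↦ T ^ i * hq q g` on `{(g, i) | i < jq q g}`. -/
theorem hq_inj {g g' : SL(2, ℤ)} {i i' : ℕ} (hi : i < jq q g) (hi' : i' < jq q g')
    (h : T ^ i * hq q g = T ^ i' * hq q g') : g = g' ∧ i = i' := by
  have hq0 : (q : ℤ) ≠ 0 := q_ne_zero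
  have hp : Prime (q : ℤ) := Nat.prime_iff_prime_int.mp hq'.out
  have hiff : (q : ℤ) ∣ g 1 0 ↔ (q : ℤ) ∣ g' 1 0 := by
    have h1 := dvd_T_pow_mul_hq_iff (q := q) g i
    have h2 := dvd_T_pow_mul_hq_iff (q := q) g' i'
    rw [h] at h1
    exact not_iff_not.mp (h1.symm.trans h2)
  have e00 := congrArg (fun M : SL(2, ℤ) => M 0 0) h
  have e01 := congrArg (fun M : SL(2, ℤ) => M 0 1) h
  have e10 := congrArg (fun M : SL(2, ℤ) => M 1 0) h
  have e11 := congrArg (fun M : SL(2, ℤ) => M 1 1) h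
  obtain ⟨p00, p01, p10, p11⟩ := T_pow_mul_entries i (hq q g)
  obtain ⟨p00', p01', p10', p11'⟩ := T_pow_mul_entries i' (hq q g')
  simp only [p00, p01, p10, p11, p00', p01', p10', p11'] at e00 e01 e10 e11
  rcases cases_of_lt_jq hi with ⟨hc, hiq⟩ | ⟨hc, ha, rfl⟩
  · have hc' : (q : ℤ) ∣ g' 1 0 := hiff.mp hc
    rcases cases_of_lt_jq hi' with ⟨-, hiq'⟩ | ⟨hn, -, -⟩
    swap
    · exact absurd hc' hn
    obtain ⟨b00, b01, b10, b11⟩ := hq_of_dvd hc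
    obtain ⟨b00', b01', b10', b11'⟩ := hq_of_dvd hc'
    rw [b00, b00'] at e00
    rw [b01, b11, b01', b11'] at e01
    rw [b11, b11'] at e11
    have c10 : g 1 0 = g' 1 0 := by rw [← b10, ← b10', e10]
    -- `q ∣ (i - i') * g 1 1`
    have hd : (q : ℤ) ∣ ((i : ℤ) - i') * g 1 1 :=
      ⟨g' 0 1 - g 0 1, by rw [← e11] at e01; linear_combination e01⟩
    have hd' : (q : ℤ) ∣ (i : ℤ) - i' := (hp.dvd_or_dvd hd).resolve_right (not_dvd_one_one hc)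
    have hii : (i : ℤ) - i' = 0 := by
      apply Int.eq_zero_of_abs_lt_dvd hd'
      rw [abs_lt]
      constructor <;> omega
    have hii' : i = i' := by omega
    subst hii'
    refine ⟨ext4 ?_ ?_ c10 e11, rfl⟩
    · rw [e10] at e00
      linear_combination e00
    · rw [← e11] at e01
      apply mul_left_cancel₀ hq0
      linear_combination e01
  · have hc' : ¬ (q : ℤ) ∣ g' 1 0 := fun h => hc (hiff.mpr h)
    rcases cases_of_lt_jq hi' with ⟨hn, -⟩ | ⟨-, ha', rfl⟩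
    · exact absurd hn hc'
    simp only [Nat.cast_zero, zero_mul, add_zero] at e00 e01
    obtain ⟨b00, b01, b10, b11⟩ := hq_of_not_dvd hc
    obtain ⟨b00', b01', b10', b11'⟩ := hq_of_not_dvd hc'
    rw [yq_eq_zero hc ha] at b00 b01
    rw [yq_eq_zero hc' ha'] at b00' b01'
    rw [b10, b10'] at e10
    rw [b01, b01'] at e01
    rw [b11, b11'] at e11
    have c11 : g 1 1 = g' 1 1 := mul_left_cancel₀ hq0 e11
    refine ⟨ext4 ?_ ?_ e10 c11, rfl⟩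
    · have h1 : (q : ℤ) * (hq q g) 0 0 = q * (hq q g') 0 0 := by rw [e00]
      rw [b00, b00'] at h1
      linear_combination h1
    · linear_combination e01

/-- `(g, i) ↦ T ^ i * hq q g` is a bijection `{(g, i) | i < jq q g} → SL(2, ℤ)`. -/
theorem exists_unique_hq (h0 : SL(2, ℤ)) :
    ∃! p : SL(2, ℤ) × ℕ, p.2 < jq q p.1 ∧ T ^ p.2 * hq q p.1 = h0 := by
  obtain ⟨g, i, hi, hgi⟩ := exists_hq (q := q) h0
  refine ⟨(g, i), ⟨hi, hgi⟩, ?_⟩
  rintro ⟨g', i'⟩ ⟨hi', hgi'⟩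
  obtain ⟨e1, e2⟩ := hq_inj (g := g') (i := i') hi' hi (hgi'.trans hgi.symm)
  exact Prod.ext e1 e2

end Fermat.Agent.S41.PDTwist
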