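/-
S41 [PD] leaf (2) / PD1 (owner: helper72) — presentation of `SL(2, ℤ)` and the potential lemma.
Mathlib-only.

* `exists_hom_SU`, `exists_hom_ST`, `exists_hom_TS`, `exists_hom_SR` : universal property of
  `SL(2, ℤ) = ⟨S, T | S⁴ = 1, (S T)³ = S²⟩` (ping-pong for `C₂ * C₃` on the upper half plane, then
  the central extension through the presented group).
* `hom_unique` : homomorphisms out of `SL(2, ℤ)` are determined by their values at `S`, `T`.
* `exists_potential_gen` : a function on `SL(2, ℤ)` with prescribed increments along left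
  multiplication by `S` and by `T`, under the two loop conditions.
* `exists_potential`, `exists_potential'` : the symbol form (`F (T g) = F g`,
  `F (S g) = F g + ξ g`).
* `exists_primitive` : prescribed increments along `S` and `T * S` (tree form).
* `exists_cocycle` : cocycle form for an action on which `-1` acts trivially.
-/
import Mathlib

set_option autoImplicit false

open Matrix ModularGroup UpperHalfPlane
open scoped MatrixGroups

namespace Fermat.Agent.S41.SLPres

/-- The homomorphism `C_n → K` sending the generator to `k`. -/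
noncomputable def cyc (n : ℕ) {K : Type*} [Group K] (k : K) (hk : k ^ n = 1) :
    Multiplicative (ZMod n) →* K :=
  AddMonoidHom.toMultiplicativeLeft
    (ZMod.lift n ⟨zmultiplesHom (Additive K) (Additive.ofMul k), by
      simp only [zmultiplesHom_apply, natCast_zsmul]
      rw [← ofMul_pow, hk]; rfl⟩)

theorem cyc_gen (n : ℕ) {K : Type*} [Group K] (k : K) (hk : k ^ n = 1) :
    cyc n k hk (Multiplicative.ofAdd 1) = k := by
  have : (1 : ZMod n) = ((1 : ℤ) : ZMod n) := by simp
  simp only [cyc, AddMonoidHom.coe_toMultiplicativeLeft, Function.comp_apply, toAdd_ofAdd]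
  rw [this, ZMod.lift_coe]
  simp

theorem re_S_smul' (z : ℍ) : (S • z).re = -z.re / Complex.normSq z := by
  rw [modular_S_smul]
  show ((-(z : ℂ))⁻¹).re = _
  rw [Complex.inv_re, Complex.normSq_neg, Complex.neg_re]
  rfl

theorem normSq_pos' (z : ℍ) : 0 < Complex.normSq z := Complex.normSq_pos.mpr z.ne_zero

theorem re_S_smul_pos {z : ℍ} (hz : z.re < 0) : 0 < (S • z).re := by
  rw [re_S_smul']
  exact div_pos (by linarith) (normSq_pos' z)

theorem re_U_smul_neg {z : ℍ} (hz : -1 < z.re) : ((S * T) • z).re < 0 := by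
  rw [mul_smul, re_S_smul', re_T_smul]
  exact div_neg_of_neg_of_pos (by linarith) (normSq_pos' _)

theorem re_U_smul_gt {z : ℍ} (hz : 0 < z.re) : -1 < ((S * T) • z).re := by
  rw [mul_smul, re_S_smul', re_T_smul]
  have h1 := normSq_pos' (T • z)
  rw [lt_div_iff₀ h1]
  have h2 : Complex.normSq (T • z : ℍ) = (z.re + 1) ^ 2 + z.im ^ 2 := by
    rw [Complex.normSq_apply]
    have e1 : ((T • z : ℍ) : ℂ).re = z.re + 1 := re_T_smul z
    have e2 : ((T • z : ℍ) : ℂ).im = z.im := im_T_smul z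
    rw [e1, e2]; ring
  rw [h2]
  nlinarith [sq_nonneg z.im]

/-- the action of `SL(2, ℤ)` on `ℍ` as a homomorphism to permutations -/
noncomputable def act : SL(2, ℤ) →* Equiv.Perm ℍ := MulAction.toPermHom SL(2, ℤ) ℍ

theorem act_apply (g : SL(2, ℤ)) (z : ℍ) : act g z = g • z := rfl

theorem S_sq : (S : SL(2, ℤ)) ^ 2 = -1 := by decide
theorem U_cube : (S * T : SL(2, ℤ)) ^ 3 = -1 := by decide
theorem S_pow_four : (S : SL(2, ℤ)) ^ 4 = 1 := by decide

theorem act_neg_one : act (-1) = 1 := by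
  refine Equiv.ext fun z => ?_
  show ((-1 : SL(2, ℤ)) • z : ℍ) = z
  rw [SL_neg_smul, one_smul]

theorem act_S_sq : act S ^ 2 = 1 := by rw [← map_pow, S_sq, act_neg_one]
theorem act_U_cube : act (S * T) ^ 3 = 1 := by rw [← map_pow, U_cube, act_neg_one]

/-- the two cyclic groups -/
abbrev Hf (b : Bool) : Type := Multiplicative (ZMod (cond b 3 2))

noncomputable def fam : ∀ b : Bool, Hf b →* Equiv.Perm ℍ
  | false => cyc 2 (act S) act_S_sq
  | true => cyc 3 (act (S * T)) act_U_cube

def Xs : Bool → Set ℍ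
  | false => {z | 0 < z.re}
  | true => {z | z.re < 0}

theorem c2_cases (h : Hf false) : h = 1 ∨ h = Multiplicative.ofAdd 1 := by
  obtain ⟨x, rfl⟩ := Multiplicative.ofAdd.surjective h
  change ZMod 2 at x
  fin_cases x
  · left; rfl
  · right; rfl

theorem c3_cases (h : Hf true) : h = 1 ∨ h = Multiplicative.ofAdd 1 ∨
    h = Multiplicative.ofAdd 1 ^ 2 := by
  obtain ⟨x, rfl⟩ := Multiplicative.ofAdd.surjective h
  change ZMod 3 at x
  fin_cases x
  · left; rfl
  · right; left; rfl
  · right; right; rfl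

theorem fam_false_gen : fam false (Multiplicative.ofAdd 1) = act S := cyc_gen 2 (act S) act_S_sq
theorem fam_true_gen : fam true (Multiplicative.ofAdd 1) = act (S * T) :=
  cyc_gen 3 (act (S * T)) act_U_cube

theorem mem_Xs_false (z : ℍ) : z ∈ Xs false ↔ 0 < z.re := Iff.rfl
theorem mem_Xs_true (z : ℍ) : z ∈ Xs true ↔ z.re < 0 := Iff.rfl

theorem lift_fam_injective : Function.Injective (Monoid.CoprodI.lift fam) := by
  refine Monoid.CoprodI.lift_injective_of_ping_pong fam (Or.inr ⟨true, ?_⟩) Xs ?_ ?_ ?_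
  · show (3 : Cardinal) ≤ Cardinal.mk (Multiplicative (ZMod 3))
    rw [Cardinal.mk_fintype, Fintype.card_multiplicative, ZMod.card]
    norm_num
  · intro b
    cases b
    · refine ⟨T • UpperHalfPlane.I, ?_⟩
      rw [mem_Xs_false, re_T_smul, UpperHalfPlane.I_re]; norm_num
    · refine ⟨(S * T) • UpperHalfPlane.I, ?_⟩
      rw [mem_Xs_true]
      exact re_U_smul_neg (by rw [UpperHalfPlane.I_re]; norm_num)
  · intro i j hij
    show Disjoint (Xs i) (Xs j)
    rw [Set.disjoint_left]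
    intro z h1 h2
    cases i <;> cases j
    · exact hij rfl
    · rw [mem_Xs_false] at h1; rw [mem_Xs_true] at h2; linarith
    · rw [mem_Xs_false] at h2; rw [mem_Xs_true] at h1; linarith
    · exact hij rfl
  · intro i j hij h hh
    rintro _ ⟨z, hz, rfl⟩
    cases i <;> cases j
    · exact absurd rfl hij
    · rcases c2_cases h with rfl | rfl
      · exact absurd rfl hh
      · rw [fam_false_gen]
        rw [mem_Xs_true] at hz
        show 0 < (S • z).re
        exact re_S_smul_pos hz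
    · rw [mem_Xs_false] at hz
      rcases c3_cases h with rfl | rfl | rfl
      · exact absurd rfl hh
      · rw [fam_true_gen]
        show ((S * T) • z).re < 0
        exact re_U_smul_neg (by linarith)
      · rw [map_pow, fam_true_gen]
        show ((S * T) • ((S * T) • z)).re < 0
        exact re_U_smul_neg (re_U_smul_gt hz)
    · exact absurd rfl hij

/-! ### the presented group `⟨a, b | a⁴, b³ a⁻²⟩` -/

/-- the relations -/
def rels : Set (FreeGroup Bool) :=
  {FreeGroup.of false ^ 4, FreeGroup.of true ^ 3 * (FreeGroup.of false ^ 2)⁻¹}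

/-- the presented group -/
abbrev P : Type := PresentedGroup rels

/-- generators -/
def ga : P := PresentedGroup.of false
def gb : P := PresentedGroup.of true

theorem ga_pow_four : ga ^ 4 = 1 := by
  have h : (PresentedGroup.mk rels) (FreeGroup.of false ^ 4) = 1 :=
    PresentedGroup.one_of_mem (Set.mem_insert _ _)
  rwa [map_pow] at h

theorem gb_pow_three : gb ^ 3 = ga ^ 2 := by
  have h : (PresentedGroup.mk rels) (FreeGroup.of true ^ 3 * (FreeGroup.of false ^ 2)⁻¹) = 1 :=
    PresentedGroup.one_of_mem (Set.mem_insert_of_mem _ rfl)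
  rw [map_mul, map_inv, map_pow, map_pow, mul_inv_eq_one] at h
  exact h

/-- the universal property of `P` -/
noncomputable def liftP {K : Type*} [Group K] (s u : K) (hs : s ^ 4 = 1) (hu : u ^ 3 = s ^ 2) :
    P →* K :=
  PresentedGroup.toGroup (f := fun b => cond b u s) (by
    intro r hr
    rcases hr with rfl | rfl
    · simp [hs]
    · simp [hu])

theorem liftP_ga {K : Type*} [Group K] (s u : K) (hs : s ^ 4 = 1) (hu : u ^ 3 = s ^ 2) :
    liftP s u hs hu ga = s := PresentedGroup.toGroup.of _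

theorem liftP_gb {K : Type*} [Group K] (s u : K) (hs : s ^ 4 = 1) (hu : u ^ 3 = s ^ 2) :
    liftP s u hs hu gb = u := PresentedGroup.toGroup.of _

theorem hom_ext_P {K : Type*} [Group K] {f g : P →* K} (ha : f ga = g ga) (hb : f gb = g gb) :
    f = g :=
  PresentedGroup.ext fun x => by cases x <;> assumption

theorem ga_sq_comm (x : P) : x * ga ^ 2 = ga ^ 2 * x := by
  have key : x ∈ Subgroup.centralizer ({ga ^ 2} : Set P) := by
    refine PresentedGroup.generated_by rels _ (fun j => ?_) x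
    rw [Subgroup.mem_centralizer_iff]
    rintro _ rfl
    cases j
    · show ga ^ 2 * ga = ga * ga ^ 2
      rw [← pow_succ, ← pow_succ']
    · show ga ^ 2 * gb = gb * ga ^ 2
      rw [← gb_pow_three, ← pow_succ, ← pow_succ']
  rw [Subgroup.mem_centralizer_iff] at key
  exact (key _ rfl).symm

/-- the central subgroup generated by `a²` -/
def NP : Subgroup P := Subgroup.zpowers (ga ^ 2)

instance : NP.Normal := by
  refine ⟨fun n hn g => ?_⟩
  obtain ⟨k, rfl⟩ := hn
  have : g * (ga ^ 2) ^ k = (ga ^ 2) ^ k * g := by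
    have h := ga_sq_comm g
    exact (Commute.zpow_right h k)
  rw [this, mul_inv_cancel_right]
  exact ⟨k, rfl⟩

/-- `P → C₂ * C₃` -/
noncomputable def kap : P →* Monoid.CoprodI Hf :=
  liftP (Monoid.CoprodI.of (i := false) (Multiplicative.ofAdd 1))
    (Monoid.CoprodI.of (i := true) (Multiplicative.ofAdd 1))
    (by
      have h2 : (Multiplicative.ofAdd 1 : Hf false) ^ 4 = 1 := rfl
      rw [← MonoidHom.map_pow, h2, MonoidHom.map_one])
    (by
      have h1 : (Multiplicative.ofAdd 1 : Hf true) ^ 3 = 1 := rfl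
      have h2 : (Multiplicative.ofAdd 1 : Hf false) ^ 2 = 1 := rfl
      rw [← MonoidHom.map_pow, ← MonoidHom.map_pow, h1, h2, MonoidHom.map_one, MonoidHom.map_one])

theorem mk_ga_sq : (QuotientGroup.mk' NP ga) ^ 2 = 1 := by
  rw [← map_pow]
  exact (QuotientGroup.eq_one_iff _).mpr ⟨1, by simp⟩

theorem mk_gb_cube : (QuotientGroup.mk' NP gb) ^ 3 = 1 := by
  rw [← map_pow, gb_pow_three, map_pow, mk_ga_sq]

/-- `C₂ * C₃ → P / ⟨a²⟩` -/
noncomputable def lam : Monoid.CoprodI Hf →* P ⧸ NP :=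
  Monoid.CoprodI.lift (fun b => match b with
    | false => cyc 2 (QuotientGroup.mk' NP ga) mk_ga_sq
    | true => cyc 3 (QuotientGroup.mk' NP gb) mk_gb_cube)

theorem lam_comp_kap : lam.comp kap = QuotientGroup.mk' NP := by
  refine hom_ext_P ?_ ?_
  · show lam (kap ga) = _
    rw [kap, liftP_ga, lam, Monoid.CoprodI.lift_of]
    exact cyc_gen 2 _ mk_ga_sq
  · show lam (kap gb) = _
    rw [kap, liftP_gb, lam, Monoid.CoprodI.lift_of]
    exact cyc_gen 3 _ mk_gb_cube

/-- `P → SL(2, ℤ)` -/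
noncomputable def piP : P →* SL(2, ℤ) := liftP S (S * T) S_pow_four (by rw [U_cube, S_sq])

theorem lift_fam_comp_kap : (Monoid.CoprodI.lift fam).comp kap = act.comp piP := by
  refine hom_ext_P ?_ ?_
  · show Monoid.CoprodI.lift fam (kap ga) = act (piP ga)
    rw [kap, liftP_ga, Monoid.CoprodI.lift_of, fam_false_gen, piP, liftP_ga]
  · show Monoid.CoprodI.lift fam (kap gb) = act (piP gb)
    rw [kap, liftP_gb, Monoid.CoprodI.lift_of, fam_true_gen, piP, liftP_gb]

theorem neg_one_zpow_ne (k : ℤ) (h : ((-1 : SL(2, ℤ))) ^ k = 1) : Even k := by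
  rcases Int.even_or_odd k with hk | hk
  · exact hk
  · exfalso
    obtain ⟨m, rfl⟩ := hk
    rw [_root_.zpow_add, _root_.zpow_mul, zpow_one] at h
    have h2 : ((-1 : SL(2, ℤ))) ^ (2 : ℤ) = 1 := by decide
    rw [h2, _root_.one_zpow, one_mul] at h
    revert h
    decide

theorem piP_injective : Function.Injective piP := by
  rw [injective_iff_map_eq_one]
  intro x hx
  have h1 : Monoid.CoprodI.lift fam (kap x) = 1 := by
    have := DFunLike.congr_fun lift_fam_comp_kap x
    simp only [MonoidHom.comp_apply] at this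
    rw [this, hx, map_one]
  have h2 : kap x = 1 := lift_fam_injective (by rw [h1, map_one])
  have h3 : QuotientGroup.mk' NP x = 1 := by
    rw [← lam_comp_kap, MonoidHom.comp_apply, h2, map_one]
  have h4 : x ∈ NP := (QuotientGroup.eq_one_iff x).mp h3
  obtain ⟨k, rfl⟩ := h4
  have h5 : ((-1 : SL(2, ℤ))) ^ k = 1 := by
    rw [map_zpow, map_pow, piP, liftP_ga, S_sq] at hx
    exact hx
  obtain ⟨m, rfl⟩ := neg_one_zpow_ne k h5
  show (ga ^ 2) ^ (m + m) = 1
  rw [← two_mul, _root_.zpow_mul, zpow_ofNat, ← pow_mul]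
  show (ga ^ 4) ^ m = 1
  rw [ga_pow_four, _root_.one_zpow]

theorem piP_surjective : Function.Surjective piP := by
  rw [← MonoidHom.range_eq_top, eq_top_iff, ← SpecialLinearGroup.SL2Z_generators,
    Subgroup.closure_le]
  rintro g (rfl | rfl)
  · exact ⟨ga, liftP_ga _ _ _ _⟩
  · refine ⟨ga⁻¹ * gb, ?_⟩
    rw [map_mul, map_inv, piP, liftP_ga, liftP_gb, inv_mul_cancel_left]

/-- **Presentation of `SL(2, ℤ)`**: `⟨S, U | S⁴ = 1, U³ = S²⟩` with `U = S * T`. -/
theorem exists_hom_SU {K : Type*} [Group K] (s u : K) (hs : s ^ 4 = 1) (hu : u ^ 3 = s ^ 2) :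
    ∃ f : SL(2, ℤ) →* K, f S = s ∧ f (S * T) = u := by
  let e : P ≃* SL(2, ℤ) := MulEquiv.ofBijective piP ⟨piP_injective, piP_surjective⟩
  have he : ∀ x, e x = piP x := fun _ => rfl
  refine ⟨(liftP s u hs hu).comp e.symm.toMonoidHom, ?_, ?_⟩
  · have : e.symm S = ga := by
      rw [MulEquiv.symm_apply_eq, he, piP, liftP_ga]
    show liftP s u hs hu (e.symm S) = s
    rw [this, liftP_ga]
  · have : e.symm (S * T) = gb := by
      rw [MulEquiv.symm_apply_eq, he, piP, liftP_gb]
    show liftP s u hs hu (e.symm (S * T)) = u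
    rw [this, liftP_gb]

/-- The same with generators `S`, `T`: `S⁴ = 1`, `(S T)³ = S²`. -/
theorem exists_hom_ST {K : Type*} [Group K] (s t : K) (hs : s ^ 4 = 1) (hu : (s * t) ^ 3 = s ^ 2) :
    ∃ f : SL(2, ℤ) →* K, f S = s ∧ f T = t := by
  obtain ⟨f, h1, h2⟩ := exists_hom_SU s (s * t) hs hu
  refine ⟨f, h1, ?_⟩
  rw [map_mul, h1] at h2
  exact mul_left_cancel h2

/-- The same with the relation written as `(T S)³ = S²`. -/
theorem exists_hom_TS {K : Type*} [Group K] (s t : K) (hs : s ^ 4 = 1) (hu : (t * s) ^ 3 = s ^ 2) :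
    ∃ f : SL(2, ℤ) →* K, f S = s ∧ f T = t := by
  refine exists_hom_ST s t hs ?_
  have h1 : (s * t) ^ 3 = s * (t * s) ^ 3 * s⁻¹ := by
    simp only [pow_succ, pow_zero, one_mul]
    group
  rw [h1, hu]
  group

theorem hom_unique {K : Type*} [Group K] {f g : SL(2, ℤ) →* K} (hS : f S = g S) (hT : f T = g T) :
    f = g := by
  refine MonoidHom.eq_of_eqOn_dense SpecialLinearGroup.SL2Z_generators ?_
  rintro x (rfl | rfl)
  · exact hS
  · exact hT

/-- **Potential lemma** (general form): a function on `SL(2, ℤ)` with prescribed increments along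
left multiplication by `S` and `T` exists as soon as the two loop conditions (`S⁴ = 1` and
`(T S)³ = S²`) hold. -/
theorem exists_potential_gen {A : Type*} [AddCommGroup A] (α β : SL(2, ℤ) → A)
    (hS : ∀ g, α g + α (S * g) + α (S * (S * g)) + α (S * (S * (S * g))) = 0)
    (hU : ∀ g, (α g + β (S * g)) + (α (T * S * g) + β (S * (T * S * g)))
        + (α (T * S * (T * S * g)) + β (S * (T * S * (T * S * g)))) = α g + α (S * g)) :
    ∃ F : SL(2, ℤ) → A, (∀ g, F (S * g) = F g + α g) ∧ ∀ g, F (T * g) = F g + β g := by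
  classical
  let s : Equiv.Perm (SL(2, ℤ) × A) :=
    { toFun := fun x => (S * x.1, x.2 + α x.1)
      invFun := fun x => (S⁻¹ * x.1, x.2 - α (S⁻¹ * x.1))
      left_inv := fun x => by simp
      right_inv := fun x => by simp }
  let t : Equiv.Perm (SL(2, ℤ) × A) :=
    { toFun := fun x => (T * x.1, x.2 + β x.1)
      invFun := fun x => (T⁻¹ * x.1, x.2 - β (T⁻¹ * x.1))
      left_inv := fun x => by simp
      right_inv := fun x => by simp }
  have hs_apply : ∀ x, s x = (S * x.1, x.2 + α x.1) := fun _ => rfl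
  have ht_apply : ∀ x, t x = (T * x.1, x.2 + β x.1) := fun _ => rfl
  have hs4 : s ^ 4 = 1 := by
    refine Equiv.ext fun x => ?_
    have e : (s ^ 4) x = s (s (s (s x))) := rfl
    rw [e]
    simp only [hs_apply, Equiv.Perm.coe_one, id_eq]
    refine Prod.ext ?_ ?_
    · show S * (S * (S * (S * x.1))) = x.1
      have : (S : SL(2, ℤ)) * (S * (S * (S * x.1))) = S ^ 4 * x.1 := by
        simp only [pow_succ, pow_zero, one_mul, mul_assoc]
      rw [this, S_pow_four, one_mul]
    · show x.2 + α x.1 + α (S * x.1) + α (S * (S * x.1)) + α (S * (S * (S * x.1))) = x.2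
      have := hS x.1
      rw [add_assoc, add_assoc, add_assoc, ← add_assoc (α x.1), ← add_assoc (α x.1 + _), this,
        add_zero]
  have hu : (t * s) ^ 3 = s ^ 2 := by
    refine Equiv.ext fun x => ?_
    have e : ((t * s) ^ 3) x = t (s (t (s (t (s x))))) := rfl
    have e' : (s ^ 2) x = s (s x) := rfl
    rw [e, e']
    simp only [hs_apply, ht_apply]
    refine Prod.ext ?_ ?_
    · show T * (S * (T * (S * (T * (S * x.1))))) = S * (S * x.1)
      have h1 : (T : SL(2, ℤ)) * (S * (T * (S * (T * (S * x.1))))) = (T * S) ^ 3 * x.1 := by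
        simp only [pow_succ, pow_zero, one_mul, mul_assoc]
      have h2 : (S : SL(2, ℤ)) * (S * x.1) = S ^ 2 * x.1 := by
        simp only [pow_succ, pow_zero, one_mul, mul_assoc]
      have h3 : (T * S : SL(2, ℤ)) ^ 3 = -1 := by decide
      rw [h1, h2, h3, S_sq]
    · show x.2 + α x.1 + β (S * x.1) + α (T * (S * x.1)) + β (S * (T * (S * x.1)))
          + α (T * (S * (T * (S * x.1)))) + β (S * (T * (S * (T * (S * x.1)))))
          = x.2 + α x.1 + α (S * x.1)
      have := hU x.1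
      simp only [mul_assoc] at this
      rw [add_assoc x.2 (α x.1) (α (S * x.1)), ← this]
      abel
  obtain ⟨f, hfS, hfT⟩ := exists_hom_TS s t hs4 hu
  have key : ∀ g : SL(2, ℤ), ∃ c : SL(2, ℤ) → A, ∀ x, f g x = (g * x.1, x.2 + c x.1) := by
    intro g
    have hg : g ∈ Subgroup.closure ({S, T} : Set SL(2, ℤ)) := by
      rw [SpecialLinearGroup.SL2Z_generators]; trivial
    induction hg using Subgroup.closure_induction with
    | mem y hy =>
      rcases hy with rfl | rfl
      · exact ⟨α, fun x => by rw [hfS, hs_apply]⟩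
      · exact ⟨β, fun x => by rw [hfT, ht_apply]⟩
    | one => exact ⟨0, fun x => by simp⟩
    | mul y z _ _ hy hz =>
      obtain ⟨c₁, h₁⟩ := hy
      obtain ⟨c₂, h₂⟩ := hz
      refine ⟨fun x => c₂ x + c₁ (z * x), fun x => ?_⟩
      rw [map_mul, Equiv.Perm.mul_apply, h₂, h₁]
      simp [mul_assoc, add_assoc]
    | inv y _ hy =>
      obtain ⟨c, h⟩ := hy
      refine ⟨fun x => -c (y⁻¹ * x), fun x => ?_⟩
      rw [map_inv, Equiv.Perm.inv_eq_iff_eq, h]
      simp
  refine ⟨fun g => (f g (1, 0)).2, fun g => ?_, fun g => ?_⟩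
  · obtain ⟨c, hc⟩ := key g
    show (f (S * g) (1, 0)).2 = (f g (1, 0)).2 + α g
    rw [map_mul, Equiv.Perm.mul_apply, hfS, hs_apply, hc]
    simp
  · obtain ⟨c, hc⟩ := key g
    show (f (T * g) (1, 0)).2 = (f g (1, 0)).2 + β g
    rw [map_mul, Equiv.Perm.mul_apply, hfT, ht_apply, hc]
    simp

/-- **Potential lemma** (symbol form): for `ξ` with `ξ(S g) = -ξ(g)` and
`ξ(g) + ξ(TS g) + ξ((TS)² g) = 0` there is `F` with `F(T g) = F(g)` and `F(S g) = F(g) + ξ(g)`. -/
theorem exists_potential {A : Type*} [AddCommGroup A] (ξ : SL(2, ℤ) → A)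
    (h2 : ∀ g, ξ (S * g) = -ξ g)
    (h3 : ∀ g, ξ g + ξ (T * S * g) + ξ (T * S * (T * S * g)) = 0) :
    ∃ F : SL(2, ℤ) → A, (∀ g, F (T * g) = F g) ∧ ∀ g, F (S * g) = F g + ξ g := by
  obtain ⟨F, hF1, hF2⟩ := exists_potential_gen ξ 0 (fun g => by
      rw [h2 (S * (S * g)), h2 (S * g), h2 g]; abel) (fun g => by
      simp only [Pi.zero_apply, add_zero]
      rw [h3 g, h2 g]; abel)
  exact ⟨F, fun g => by simpa using hF2 g, hF1⟩

/-- **Potential lemma**, shape with `(T * S) ^ 2 * g`. -/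
theorem exists_potential' {A : Type*} [AddCommGroup A] (ξ : SL(2, ℤ) → A)
    (hS : ∀ g, ξ (S * g) = -ξ g)
    (hU : ∀ g, ξ g + ξ (T * S * g) + ξ ((T * S) ^ 2 * g) = 0) :
    ∃ F : SL(2, ℤ) → A, (∀ g, F (T * g) = F g) ∧ ∀ g, F (S * g) = F g + ξ g := by
  refine exists_potential ξ hS (fun g => ?_)
  have h := hU g
  rwa [pow_two, mul_assoc (T * S) (T * S) g] at h

/-- **Primitive with prescribed increments along `S` and `U = T * S`** (tree form): if
`dS g + dS (S g) = 0` and `dU g + dU (U g) + dU (U (U g)) = 0` then there is `J` with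
`J (S g) = J g + dS g` and `J (U g) = J g + dU g`. -/
theorem exists_primitive {A : Type*} [AddCommGroup A] (dS dU : SL(2, ℤ) → A)
    (hS : ∀ g, dS g + dS (S * g) = 0)
    (hU : ∀ g, dU g + dU (T * S * g) + dU (T * S * (T * S * g)) = 0) :
    ∃ J : SL(2, ℤ) → A, (∀ g, J (S * g) = J g + dS g) ∧ ∀ g, J (T * S * g) = J g + dU g := by
  obtain ⟨J, hJS, hJT⟩ := exists_potential_gen dS (fun g => dU (S⁻¹ * g) - dS (S⁻¹ * g))
    (fun g => by
      have h1 := hS g
      have h2 := hS (S * (S * g))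
      rw [add_assoc, h2, add_zero, h1])
    (fun g => by
      simp only [inv_mul_cancel_left]
      have h1 := hU g
      have h2 := hS g
      rw [h2, ← h1]
      abel)
  refine ⟨J, hJS, fun g => ?_⟩
  rw [mul_assoc, hJT, hJS]
  simp only [inv_mul_cancel_left]
  abel

/-- The universal property with generators `S` and `R = T * S`: `s⁴ = 1`, `r³ = s²`. -/
theorem exists_hom_SR {K : Type*} [Group K] (s r : K) (hs : s ^ 4 = 1) (hr : r ^ 3 = s ^ 2) :
    ∃ f : SL(2, ℤ) →* K, f S = s ∧ f (T * S) = r := by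
  obtain ⟨f, h1, h2⟩ := exists_hom_TS s (r * s⁻¹) hs (by rw [inv_mul_cancel_right, hr])
  exact ⟨f, h1, by rw [map_mul, h1, h2, inv_mul_cancel_right]⟩

/-- The permutation `(x, a) ↦ (g • x, a + c x)` of `X × A`. -/
def shear {X : Type*} [MulAction SL(2, ℤ) X] {A : Type*} [AddCommGroup A] (g : SL(2, ℤ))
    (c : X → A) : Equiv.Perm (X × A) where
  toFun x := (g • x.1, x.2 + c x.1)
  invFun x := (g⁻¹ • x.1, x.2 - c (g⁻¹ • x.1))
  left_inv x := by simp
  right_inv x := by simp

theorem shear_apply {X : Type*} [MulAction SL(2, ℤ) X] {A : Type*} [AddCommGroup A]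
    (g : SL(2, ℤ)) (c : X → A) (x : X × A) : shear g c x = (g • x.1, x.2 + c x.1) := rfl

theorem shear_inv_apply {X : Type*} [MulAction SL(2, ℤ) X] {A : Type*} [AddCommGroup A]
    (g : SL(2, ℤ)) (c : X → A) (x : X × A) :
    (shear g c)⁻¹ x = (g⁻¹ • x.1, x.2 - c (g⁻¹ • x.1)) := rfl

/-- **Cocycle form**: for an action of `SL(2, ℤ)` on `X` on which `-1` acts trivially, a cocycle
`c : SL(2, ℤ) → X → A` with prescribed values on `S` and `T * S` exists as soon as the two orbit
sums vanish. -/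
theorem exists_cocycle {X : Type*} [MulAction SL(2, ℤ) X]
    (hneg : ∀ x : X, (-1 : SL(2, ℤ)) • x = x) {A : Type*} [AddCommGroup A] (aS aR : X → A)
    (hS : ∀ x, aS x + aS (S • x) = 0)
    (hR : ∀ x, aR x + aR ((T * S) • x) + aR ((T * S) • (T * S) • x) = 0) :
    ∃ c : SL(2, ℤ) → X → A, c S = aS ∧ c (T * S) = aR ∧
      ∀ g h x, c (g * h) x = c g (h • x) + c h x := by
  classical
  let s : Equiv.Perm (X × A) := shear S aS
  let r : Equiv.Perm (X × A) := shear (T * S) aR
  have hs_apply : ∀ x, s x = (S • x.1, x.2 + aS x.1) := fun _ => rfl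
  have hr_apply : ∀ x, r x = ((T * S) • x.1, x.2 + aR x.1) := fun _ => rfl
  have hSS : ∀ x : X, S • S • x = x := fun x => by
    rw [← mul_smul, ← pow_two, S_sq, hneg]
  have hRRR : ∀ x : X, (T * S) • (T * S) • (T * S) • x = x := fun x => by
    have h3 : (T * S : SL(2, ℤ)) * (T * S) * (T * S) = -1 := by decide
    rw [← mul_smul, ← mul_smul, h3, hneg]
  have hs2 : s ^ 2 = 1 := by
    refine Equiv.ext fun x => ?_
    have e : (s ^ 2) x = s (s x) := rfl
    rw [e]
    simp only [hs_apply, Equiv.Perm.coe_one, id_eq]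
    refine Prod.ext (hSS x.1) ?_
    show x.2 + aS x.1 + aS (S • x.1) = x.2
    rw [add_assoc, hS, add_zero]
  have hr3 : r ^ 3 = 1 := by
    refine Equiv.ext fun x => ?_
    have e : (r ^ 3) x = r (r (r x)) := rfl
    rw [e]
    simp only [hr_apply, Equiv.Perm.coe_one, id_eq]
    refine Prod.ext (hRRR x.1) ?_
    show x.2 + aR x.1 + aR ((T * S) • x.1) + aR ((T * S) • (T * S) • x.1) = x.2
    rw [add_assoc, add_assoc, ← add_assoc (aR x.1), hR, add_zero]
  obtain ⟨f, hfS, hfR⟩ := exists_hom_SR s r (by rw [show 4 = 2 * 2 from rfl, pow_mul, hs2, one_pow])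
    (by rw [hr3, hs2])
  have hfT : ∀ x, f T x = (T • x.1, x.2 + aR ((S⁻¹ : SL(2, ℤ)) • x.1)
      - aS ((S⁻¹ : SL(2, ℤ)) • x.1)) := by
    intro x
    have hT : (T : SL(2, ℤ)) = (T * S) * S⁻¹ := by rw [mul_inv_cancel_right]
    have h1 : f T = r * s⁻¹ := by
      conv_lhs => rw [hT]
      rw [map_mul, map_inv, hfR, hfS]
    rw [h1, Equiv.Perm.mul_apply]
    have h2 : s⁻¹ x = ((S⁻¹ : SL(2, ℤ)) • x.1, x.2 - aS ((S⁻¹ : SL(2, ℤ)) • x.1)) := rfl
    rw [h2, hr_apply]
    refine Prod.ext ?_ ?_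
    · show (T * S) • (S⁻¹ : SL(2, ℤ)) • x.1 = T • x.1
      rw [← mul_smul, mul_inv_cancel_right]
    · show x.2 - aS ((S⁻¹ : SL(2, ℤ)) • x.1) + aR ((S⁻¹ : SL(2, ℤ)) • x.1)
        = x.2 + aR ((S⁻¹ : SL(2, ℤ)) • x.1) - aS ((S⁻¹ : SL(2, ℤ)) • x.1)
      abel
  have key : ∀ g : SL(2, ℤ), ∃ c : X → A, ∀ x, f g x = (g • x.1, x.2 + c x.1) := by
    intro g
    have hg : g ∈ Subgroup.closure ({S, T} : Set SL(2, ℤ)) := by
      rw [SpecialLinearGroup.SL2Z_generators]; trivial
    induction hg using Subgroup.closure_induction with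
    | mem y hy =>
      rcases hy with rfl | rfl
      · exact ⟨aS, fun x => by rw [hfS, hs_apply]⟩
      · exact ⟨fun x => aR ((S⁻¹ : SL(2, ℤ)) • x) - aS ((S⁻¹ : SL(2, ℤ)) • x), fun x => by
          rw [hfT]
          refine Prod.ext rfl ?_
          show x.2 + aR ((S⁻¹ : SL(2, ℤ)) • x.1) - aS ((S⁻¹ : SL(2, ℤ)) • x.1)
            = x.2 + (aR ((S⁻¹ : SL(2, ℤ)) • x.1) - aS ((S⁻¹ : SL(2, ℤ)) • x.1))
          abel⟩
    | one => exact ⟨0, fun x => by simp⟩
    | mul y z _ _ hy hz =>
      obtain ⟨c₁, h₁⟩ := hy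
      obtain ⟨c₂, h₂⟩ := hz
      refine ⟨fun x => c₂ x + c₁ (z • x), fun x => ?_⟩
      rw [map_mul, Equiv.Perm.mul_apply, h₂, h₁]
      simp [mul_smul, add_assoc]
    | inv y _ hy =>
      obtain ⟨c, h⟩ := hy
      refine ⟨fun x => -c (y⁻¹ • x), fun x => ?_⟩
      rw [map_inv, Equiv.Perm.inv_eq_iff_eq, h]
      simp
  have hc : ∀ g x a, f g (x, a) = (g • x, a + (f g (x, 0)).2) := by
    intro g x a
    obtain ⟨c, hc⟩ := key g
    rw [hc, hc]
    simp
  refine ⟨fun g x => (f g (x, 0)).2, ?_, ?_, ?_⟩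
  · funext x
    show (f S (x, 0)).2 = aS x
    rw [hfS, hs_apply]; simp
  · funext x
    show (f (T * S) (x, 0)).2 = aR x
    rw [hfR, hr_apply]; simp
  · intro g h x
    show (f (g * h) (x, 0)).2 = (f g (h • x, 0)).2 + (f h (x, 0)).2
    rw [map_mul, Equiv.Perm.mul_apply, hc h x 0, hc g (h • x)]
    simp [add_comm]

end Fermat.Agent.S41.SLPres
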