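import Mathlib
import Fermat.Prelude.Def_ModularCurve_PeriodMap
import Fermat.Agent.S41.Defs
import Fermat.Agent.S41.PDDefs
import Fermat.Agent.S41.PDPair
import Fermat.Agent.S41.PDIntr
import Fermat.Agent.S41.PDIsoCore
import Fermat.Agent.S41.PDTwist
import Fermat.Agent.S41.SLPres
import Fermat.Agent.S41.PDIsoGam
import Fermat.Agent.S41.PDPairAdj

/-!
# S41 / [PD] leaf (6b), B copy: the `δ`-twist isometry of the integral pairing `pd3`

* `exists_prim` : existence of an admissible primitive `H` for two raw lifts (from the tree lemma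
  `SLPres.exists_primitive`).
* `B3_twist` / `pd3_twist` : for `α : Γ' →* Γ''` surjective with the entries of `γ ↦ δ γ δ⁻¹`
  (`δ = diag(q, 1)`), `pd3 Γ' (φ ∘ α) (ψ ∘ α) = pd3 Γ'' φ ψ`.
* `pd3_iso` : the isometry for `Γ' = Γ₀(Nq)`, `Γ'' = Gam2 N q`, `α = al₂`.
* `pd3_res₂` : the adjunction `res₂ ⊣ tr₂` for `pd3` (levels `N`, `N q`).
-/

set_option autoImplicit false

open scoped MatrixGroups
open ModularGroup ModularCurve.Period CongruenceSubgroup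

namespace Fermat.Agent.S41.PDIsoB

open Fermat.Agent.S41 Fermat.Agent.S41.PD Fermat.Agent.S41.PDPair

/-! ### existence of an admissible primitive -/

section Prim

variable {Γ : Subgroup SL(2, ℤ)} (hneg : (-1 : SL(2, ℤ)) ∈ Γ)
  {phi : Γ → ℚ} {F : SL(2, ℤ) → ℚ} (hF : ∀ g (c : Γ), F (g * c) = F g + phi c)
  (hFT : ∀ g, F (T * g) = F g)

include hFT in
theorem raw_U (g : SL(2, ℤ)) : F (T * S * g) = F (S * g) := by
  rw [mul_assoc]; exact hFT _

include hneg hF in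
theorem raw_neg (g : SL(2, ℤ)) : F (g * (-1)) = F g :=
  PDIntr.F_mul_neg_one hneg hF g

include hneg hF in
theorem raw_U3 (g : SL(2, ℤ)) : F (T * S * (T * S * (T * S * g))) = F g := by
  have h : T * S * (T * S * (T * S * g)) = g * (-1) := by
    rw [← PDIntr.TS_cube_mul g]; simp only [mul_assoc]
  rw [h, raw_neg hneg hF]

include hneg hF in
theorem raw_SS (g : SL(2, ℤ)) : F (S * (S * g)) = F g := by
  rw [PDIntr.S_mul_S_mul, raw_neg hneg hF]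

/-- the symbol of a raw lift, on `G` -/
def xi (F : SL(2, ℤ) → ℚ) (g : SL(2, ℤ)) : ℚ := F (S * g) - F g

include hF in
theorem xi_mul (g : SL(2, ℤ)) (c : Γ) : xi F (g * c) = xi F g := by
  unfold xi
  rw [← mul_assoc, hF, hF]; ring

include hneg hF in
theorem xi_S (g : SL(2, ℤ)) : xi F (S * g) = - xi F g := by
  unfold xi
  rw [raw_SS hneg hF]; ring

include hneg hF hFT in
theorem xi_tri (g : SL(2, ℤ)) :
    xi F g + xi F (T * S * g) + xi F (T * S * (T * S * g)) = 0 := by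
  unfold xi
  have e1 := raw_U hFT g
  have e2 := raw_U hFT (T * S * g)
  have e3 := raw_U hFT (T * S * (T * S * g))
  have e4 := raw_U3 hneg hF g
  rw [← e2, ← e3, e4, e1]; ring

include hneg hF in
theorem xi_U3 (g : SL(2, ℤ)) : xi F (T * S * (T * S * (T * S * g))) = xi F g := by
  have h : T * S * (T * S * (T * S * g)) = g * (-1) := by
    rw [← PDIntr.TS_cube_mul g]; simp only [mul_assoc]
  rw [h]
  exact xi_mul hF g ⟨-1, hneg⟩

end Prim

/-- **Existence of an admissible primitive** for two raw lifts. -/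
theorem exists_prim (Γ : Subgroup SL(2, ℤ)) (hneg : (-1 : SL(2, ℤ)) ∈ Γ) (phi psi : Γ → ℚ)
    (F F' : SL(2, ℤ) → ℚ)
    (hF : ∀ g (c : Γ), F (g * c) = F g + phi c) (hFT : ∀ g, F (T * g) = F g)
    (hF' : ∀ g (c : Γ), F' (g * c) = F' g + psi c) (hF'T : ∀ g, F' (T * g) = F' g) :
    ∃ (H : SL(2, ℤ) → ℚ) (f : Γ → ℚ), ∀ g (c : Γ), H (g * c) = H g + f c - F g * psi c := by
  -- the increments
  set R : SL(2, ℤ) → ℚ := fun g =>
    xi F (T * S * (T * S * g)) * xi F' (T * S * g) - xi F g * xi F' g with hR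
  set dS : SL(2, ℤ) → ℚ := fun g => -(xi F g * xi F' g) / 2 - xi F g * F' g with hdS
  set dU : SL(2, ℤ) → ℚ := fun g => R g / 3 - xi F g * F' g with hdU
  have hF'S : ∀ g, F' (S * g) = F' g + xi F' g := fun g => by unfold xi; ring
  have hFS : ∀ g, F (S * g) = F g + xi F g := fun g => by unfold xi; ring
  have hS : ∀ g, dS g + dS (S * g) = 0 := by
    intro g
    simp only [hdS]
    rw [xi_S hneg hF, xi_S hneg hF', hF'S]
    ring
  have hRU : ∀ g, R g + R (T * S * g) + R (T * S * (T * S * g)) = 3 * R g := by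
    intro g
    simp only [hR]
    have a1 := xi_tri hneg hF hFT g
    have a2 := xi_tri hneg hF' hF'T g
    have a3 := xi_U3 hneg hF g
    have a4 := xi_U3 hneg hF (T * S * g)
    have a5 := xi_U3 hneg hF' g
    rw [a3, a4, a5]
    have b1 : xi F (T * S * (T * S * g)) = - xi F g - xi F (T * S * g) := by linarith
    have b2 : xi F' (T * S * (T * S * g)) = - xi F' g - xi F' (T * S * g) := by linarith
    rw [b1, b2]
    ring
  have hU : ∀ g, dU g + dU (T * S * g) + dU (T * S * (T * S * g)) = 0 := by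
    intro g
    have h1 := hRU g
    have a1 := xi_tri hneg hF hFT g
    have e1 : F' (T * S * g) = F' g + xi F' g := by rw [raw_U hF'T, hF'S]
    have e2 : F' (T * S * (T * S * g)) = F' g + xi F' g + xi F' (T * S * g) := by
      rw [raw_U hF'T, hF'S, e1]
    simp only [hdU]
    rw [e1, e2]
    have hRg : R g = xi F (T * S * (T * S * g)) * xi F' (T * S * g) - xi F g * xi F' g := rfl
    linear_combination (1 / 3 : ℚ) * h1 + hRg + (-(F' g) - xi F' g) * a1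
  obtain ⟨J, hJS, hJU⟩ := SLPres.exists_primitive dS dU hS hU
  -- invariance of the increments
  have hRc : ∀ g (c : Γ), R (g * c) = R g := by
    intro g c
    simp only [hR]
    have e1 : T * S * (g * c) = T * S * g * c := by simp only [mul_assoc]
    have e2 : T * S * (T * S * (g * c)) = T * S * (T * S * g) * c := by simp only [mul_assoc]
    rw [e2, e1, xi_mul hF, xi_mul hF', xi_mul hF, xi_mul hF']
  have hdSc : ∀ g (c : Γ), dS (g * c) = dS g - xi F g * psi c := by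
    intro g c
    simp only [hdS]
    rw [xi_mul hF, xi_mul hF', hF']
    ring
  have hdUc : ∀ g (c : Γ), dU (g * c) = dU g - xi F g * psi c := by
    intro g c
    simp only [hdU]
    rw [hRc, xi_mul hF, hF']
    ring
  refine ⟨J, fun c => J ((1 : SL(2, ℤ)) * c) - J 1 + F 1 * psi c, ?_⟩
  intro g c
  have hES : ∀ g, (fun g => J (g * c) - J g + F g * psi c) (S * g)
      = (fun g => J (g * c) - J g + F g * psi c) g := by
    intro g
    show J (S * g * c) - J (S * g) + F (S * g) * psi c = J (g * c) - J g + F g * psi c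
    rw [mul_assoc, hJS, hJS, hdSc, hFS]
    ring
  have hEU : ∀ g, (fun g => J (g * c) - J g + F g * psi c) (T * S * g)
      = (fun g => J (g * c) - J g + F g * psi c) g := by
    intro g
    show J (T * S * g * c) - J (T * S * g) + F (T * S * g) * psi c
      = J (g * c) - J g + F g * psi c
    rw [mul_assoc (T * S) g, hJU, hJU, hdUc, raw_U hFT, hFS]
    ring
  have hET : ∀ g, (fun g => J (g * c) - J g + F g * psi c) (T * g)
      = (fun g => J (g * c) - J g + F g * psi c) g := by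
    intro g
    have h1 := hEU (S⁻¹ * g)
    have h2 := hES (S⁻¹ * g)
    rw [mul_inv_cancel_left] at h2
    have h3 : T * S * (S⁻¹ * g) = T * g := by
      rw [mul_assoc, mul_inv_cancel_left]
    rw [h3] at h1
    rw [h1, h2]
  have key : J (g * c) - J g + F g * psi c = J (1 * c) - J 1 + F 1 * psi c :=
    PDIntr.const_of_left_inv (fun g => J (g * c) - J g + F g * psi c) hES hET g
  linarith

/-! ### the twist -/

/-- the `T`-increment of an admissible primitive is right-invariant -/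
theorem tau_inv {Γ : Subgroup SL(2, ℤ)} {psi f : Γ → ℚ} {F H : SL(2, ℤ) → ℚ}
    (hFT : ∀ g, F (T * g) = F g)
    (hH : ∀ g (c : Γ), H (g * c) = H g + f c - F g * psi c) (g : SL(2, ℤ)) (c : Γ) :
    (fun g => H (T * g) - H g) (g * c) = (fun g => H (T * g) - H g) g := by
  show H (T * (g * c)) - H (g * c) = H (T * g) - H g
  rw [← mul_assoc, hH, hH, hFT]; ring

section Twist

variable {q : ℕ} [Fact q.Prime]

/-- **The `δ`-twist at the level of lifts**: if `α : Γ' →* Γ''` is onto and has the entries of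
`γ ↦ δ γ δ⁻¹`, then `F ∘ hq` is a lift of `φ ∘ α` and `B3` is preserved. -/
theorem B3_twist (Γ' Γ'' : Subgroup SL(2, ℤ)) [Fintype (SL(2, ℤ) ⧸ Γ')]
    [Fintype (SL(2, ℤ) ⧸ Γ'')]
    (hneg' : (-1 : SL(2, ℤ)) ∈ Γ') (hneg'' : (-1 : SL(2, ℤ)) ∈ Γ'')
    (α : Γ' →* Γ'') (hα : Function.Surjective α)
    (hent : ∀ γ : Γ', ((α γ : Γ'') : SL(2, ℤ)) 0 0 = (γ : SL(2, ℤ)) 0 0 ∧
      ((α γ : Γ'') : SL(2, ℤ)) 0 1 = q * (γ : SL(2, ℤ)) 0 1 ∧
      (q : ℤ) * ((α γ : Γ'') : SL(2, ℤ)) 1 0 = (γ : SL(2, ℤ)) 1 0 ∧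
      ((α γ : Γ'') : SL(2, ℤ)) 1 1 = (γ : SL(2, ℤ)) 1 1)
    {φ ψ : Additive Γ'' →+ ℤ} {F F' : SL(2, ℤ) → ℤ}
    (hF : IsLift Γ'' φ F) (hF' : IsLift Γ'' ψ F') :
    IsLift Γ' (φ.comp (MonoidHom.toAdditive α)) (F ∘ PDTwist.hq q) ∧
    IsLift Γ' (ψ.comp (MonoidHom.toAdditive α)) (F' ∘ PDTwist.hq q) ∧
    PDSym.B3 (uX Γ') (sym Γ' (F ∘ PDTwist.hq q)) (sym Γ' (F' ∘ PDTwist.hq q))
      = PDSym.B3 (uX Γ'') (sym Γ'' F) (sym Γ'' F') := by
  have h_mul : ∀ (g : SL(2, ℤ)) (γ : Γ'),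
      PDTwist.hq q (g * γ) = PDTwist.hq q g * ((α γ : Γ'') : SL(2, ℤ)) :=
    fun g γ => PDTwist.hq_mul_of_entries g (hent γ)
  have j_mul : ∀ (g : SL(2, ℤ)) (γ : Γ'), PDTwist.jq q (g * γ) = PDTwist.jq q g :=
    fun g γ => PDTwist.jq_mul g (Dvd.intro _ (hent γ).2.2.1)
  -- the twisted lifts
  have hL : ∀ {χ : Additive Γ'' →+ ℤ} {E : SL(2, ℤ) → ℤ}, IsLift Γ'' χ E →
      IsLift Γ' (χ.comp (MonoidHom.toAdditive α)) (E ∘ PDTwist.hq q) := by
    intro χ E hE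
    refine ⟨fun g γ => ?_, fun g => ?_⟩
    · show E (PDTwist.hq q (g * γ)) = E (PDTwist.hq q g) + χ (Additive.ofMul (α γ))
      rw [h_mul]
      exact hE.mul_right _ _
    · exact PDTwist.comp_hq_T E hE.T_left g
  have hL1 := hL hF
  have hL2 := hL hF'
  refine ⟨hL1, hL2, ?_⟩
  -- rational data on `Γ''`
  have hFq : ∀ g (c : Γ''), (fun g => (F g : ℚ)) (g * c)
      = (fun g => (F g : ℚ)) g + (fun c : Γ'' => (φ (Additive.ofMul c) : ℚ)) c := by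
    intro g c
    show ((F (g * c) : ℤ) : ℚ) = (F g : ℚ) + (φ (Additive.ofMul c) : ℚ)
    rw [hF.mul_right]; push_cast; ring
  have hFqT : ∀ g, (fun g => (F g : ℚ)) (T * g) = (fun g => (F g : ℚ)) g := by
    intro g
    show ((F (T * g) : ℤ) : ℚ) = (F g : ℚ)
    rw [hF.T_left]
  have hF'q : ∀ g (c : Γ''), (fun g => (F' g : ℚ)) (g * c)
      = (fun g => (F' g : ℚ)) g + (fun c : Γ'' => (ψ (Additive.ofMul c) : ℚ)) c := by
    intro g c
    show ((F' (g * c) : ℤ) : ℚ) = (F' g : ℚ) + (ψ (Additive.ofMul c) : ℚ)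
    rw [hF'.mul_right]; push_cast; ring
  have hF'qT : ∀ g, (fun g => (F' g : ℚ)) (T * g) = (fun g => (F' g : ℚ)) g := by
    intro g
    show ((F' (T * g) : ℤ) : ℚ) = (F' g : ℚ)
    rw [hF'.T_left]
  obtain ⟨H, f, hH⟩ := exists_prim Γ'' hneg'' (fun c : Γ'' => (φ (Additive.ofMul c) : ℚ))
    (fun c : Γ'' => (ψ (Additive.ofMul c) : ℚ)) (fun g => (F g : ℚ)) (fun g => (F' g : ℚ))
    hFq hFqT hF'q hF'qT
  -- the transgression identity on `Γ''`
  have hD'' : ∀ g : SL(2, ℤ),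
      (fun x => ((PDSym.D (uX Γ'') (sym Γ'' F) (sym Γ'' F') x : ℤ) : ℚ)) (g : SL(2, ℤ) ⧸ Γ'')
      = ((F (S * g) : ℚ) - F g) * ((F' (S * (T * S * g)) : ℚ) - F' (T * S * g))
        - ((F (S * (T * S * g)) : ℚ) - F (T * S * g)) * ((F' (S * g) : ℚ) - F' g) := by
    intro g
    show ((PDSym.D (uX Γ'') (sym Γ'' F) (sym Γ'' F') (g : SL(2, ℤ) ⧸ Γ'') : ℤ) : ℚ) = _
    unfold PDSym.D
    rw [uX_mk, sym_mk hF, sym_mk hF', sym_mk hF, sym_mk hF']
    push_cast; ring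
  have e'' := PDIntr.six_sum_tau_eq Γ'' hneg'' (fun c : Γ'' => (φ (Additive.ofMul c) : ℚ))
    (fun c : Γ'' => (ψ (Additive.ofMul c) : ℚ)) f (fun g => (F g : ℚ)) (fun g => (F' g : ℚ)) H
    hFq hFqT hF'q hF'qT hH
    (PDIntr.desc Γ'' (fun g => H (T * g) - H g) (tau_inv hFqT hH))
    (fun x => ((PDSym.D (uX Γ'') (sym Γ'' F) (sym Γ'' F') x : ℤ) : ℚ))
    (fun g => rfl) hD''
  -- rational data on `Γ'`
  have hF1 : ∀ g (c : Γ'), (fun g => (F (PDTwist.hq q g) : ℚ)) (g * c)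
      = (fun g => (F (PDTwist.hq q g) : ℚ)) g
        + (fun c : Γ' => (φ (Additive.ofMul (α c)) : ℚ)) c := by
    intro g c
    show ((F (PDTwist.hq q (g * c)) : ℤ) : ℚ) = _
    rw [h_mul]
    exact hFq _ _
  have hF1T : ∀ g, (fun g => (F (PDTwist.hq q g) : ℚ)) (T * g)
      = (fun g => (F (PDTwist.hq q g) : ℚ)) g :=
    fun g => PDTwist.comp_hq_T (fun g => (F g : ℚ)) hFqT g
  have hF'1 : ∀ g (c : Γ'), (fun g => (F' (PDTwist.hq q g) : ℚ)) (g * c)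
      = (fun g => (F' (PDTwist.hq q g) : ℚ)) g
        + (fun c : Γ' => (ψ (Additive.ofMul (α c)) : ℚ)) c := by
    intro g c
    show ((F' (PDTwist.hq q (g * c)) : ℤ) : ℚ) = _
    rw [h_mul]
    exact hF'q _ _
  have hF'1T : ∀ g, (fun g => (F' (PDTwist.hq q g) : ℚ)) (T * g)
      = (fun g => (F' (PDTwist.hq q g) : ℚ)) g :=
    fun g => PDTwist.comp_hq_T (fun g => (F' g : ℚ)) hF'qT g
  have hH1 : ∀ g (c : Γ'), (fun g => H (PDTwist.hq q g)) (g * c)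
      = (fun g => H (PDTwist.hq q g)) g + (fun c : Γ' => f (α c)) c
        - (fun g => (F (PDTwist.hq q g) : ℚ)) g
          * (fun c : Γ' => (ψ (Additive.ofMul (α c)) : ℚ)) c := by
    intro g c
    show H (PDTwist.hq q (g * c)) = _
    rw [h_mul]
    exact hH _ _
  have hD' : ∀ g : SL(2, ℤ),
      (fun x => ((PDSym.D (uX Γ') (sym Γ' (F ∘ PDTwist.hq q)) (sym Γ' (F' ∘ PDTwist.hq q)) x
        : ℤ) : ℚ)) (g : SL(2, ℤ) ⧸ Γ')
      = ((F (PDTwist.hq q (S * g)) : ℚ) - F (PDTwist.hq q g))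
          * ((F' (PDTwist.hq q (S * (T * S * g))) : ℚ) - F' (PDTwist.hq q (T * S * g)))
        - ((F (PDTwist.hq q (S * (T * S * g))) : ℚ) - F (PDTwist.hq q (T * S * g)))
          * ((F' (PDTwist.hq q (S * g)) : ℚ) - F' (PDTwist.hq q g)) := by
    intro g
    show ((PDSym.D (uX Γ') (sym Γ' (F ∘ PDTwist.hq q)) (sym Γ' (F' ∘ PDTwist.hq q))
      (g : SL(2, ℤ) ⧸ Γ') : ℤ) : ℚ) = _
    unfold PDSym.D
    rw [uX_mk, sym_mk hL1, sym_mk hL2, sym_mk hL1, sym_mk hL2]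
    simp only [Function.comp_apply]
    push_cast; ring
  have e' := PDIntr.six_sum_tau_eq Γ' hneg' (fun c : Γ' => (φ (Additive.ofMul (α c)) : ℚ))
    (fun c : Γ' => (ψ (Additive.ofMul (α c)) : ℚ)) (fun c : Γ' => f (α c))
    (fun g => (F (PDTwist.hq q g) : ℚ)) (fun g => (F' (PDTwist.hq q g) : ℚ))
    (fun g => H (PDTwist.hq q g)) hF1 hF1T hF'1 hF'1T hH1
    (PDIntr.desc Γ' (fun g => H (PDTwist.hq q (T * g)) - H (PDTwist.hq q g))
      (tau_inv (H := fun g => H (PDTwist.hq q g)) hF1T hH1))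
    (fun x => ((PDSym.D (uX Γ') (sym Γ' (F ∘ PDTwist.hq q)) (sym Γ' (F' ∘ PDTwist.hq q)) x
        : ℤ) : ℚ))
    (fun g => rfl) hD'
  -- the twisted sum
  have et := PDIsoCore.twist_sum Γ' Γ'' T (fun γ : Γ' => ((α γ : Γ'') : SL(2, ℤ)))
    (fun γ => (α γ).2)
    (fun δ hδ => by
      obtain ⟨γ, hγ⟩ := hα ⟨δ, hδ⟩
      exact ⟨γ, by rw [hγ]⟩)
    (PDTwist.hq q) (PDTwist.jq q) h_mul j_mul PDTwist.hq_T PDTwist.exists_unique_hq H
    (PDIntr.desc Γ'' (fun g => H (T * g) - H g) (tau_inv hFqT hH)) (fun g => rfl)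
    (PDIntr.desc Γ' (fun g => H (PDTwist.hq q (T * g)) - H (PDTwist.hq q g))
      (tau_inv (H := fun g => H (PDTwist.hq q g)) hF1T hH1)) (fun g => rfl)
  rw [et] at e'
  have e3 : (∑ x : SL(2, ℤ) ⧸ Γ',
      ((PDSym.D (uX Γ') (sym Γ' (F ∘ PDTwist.hq q)) (sym Γ' (F' ∘ PDTwist.hq q)) x : ℤ) : ℚ))
      = ∑ x : SL(2, ℤ) ⧸ Γ'', ((PDSym.D (uX Γ'') (sym Γ'' F) (sym Γ'' F') x : ℤ) : ℚ) := by
    linarith
  unfold PDSym.B3
  exact_mod_cast e3

/-- **The `δ`-twist isometry** of the integral pairing. -/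
theorem pd3_twist (Γ' Γ'' : Subgroup SL(2, ℤ)) [Fintype (SL(2, ℤ) ⧸ Γ')]
    [Fintype (SL(2, ℤ) ⧸ Γ'')]
    (hneg' : (-1 : SL(2, ℤ)) ∈ Γ') (hneg'' : (-1 : SL(2, ℤ)) ∈ Γ'')
    (α : Γ' →* Γ'') (hα : Function.Surjective α)
    (hent : ∀ γ : Γ', ((α γ : Γ'') : SL(2, ℤ)) 0 0 = (γ : SL(2, ℤ)) 0 0 ∧
      ((α γ : Γ'') : SL(2, ℤ)) 0 1 = q * (γ : SL(2, ℤ)) 0 1 ∧
      (q : ℤ) * ((α γ : Γ'') : SL(2, ℤ)) 1 0 = (γ : SL(2, ℤ)) 1 0 ∧
      ((α γ : Γ'') : SL(2, ℤ)) 1 1 = (γ : SL(2, ℤ)) 1 1)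
    (φ ψ : Additive Γ'' →+ ℤ) (hφ : IsParabolicHom Γ'' φ) (hψ : IsParabolicHom Γ'' ψ) :
    pd3 Γ' (φ.comp (MonoidHom.toAdditive α)) (ψ.comp (MonoidHom.toAdditive α))
      = pd3 Γ'' φ ψ := by
  have hpar : ∀ {χ : Additive Γ'' →+ ℤ}, IsParabolicHom Γ'' χ →
      IsParabolicHom Γ' (χ.comp (MonoidHom.toAdditive α)) := by
    intro χ hχ γ hγ
    show χ (Additive.ofMul (α γ)) = 0
    apply hχ
    rw [Matrix.trace_fin_two] at hγ ⊢
    have h0 := (hent γ).1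
    have h1 := (hent γ).2.2.2
    have h0' : ((α γ : Γ'') : SL(2, ℤ)).1 0 0 = (γ : SL(2, ℤ)).1 0 0 := h0
    have h1' : ((α γ : Γ'') : SL(2, ℤ)).1 1 1 = (γ : SL(2, ℤ)).1 1 1 := h1
    rw [h0', h1']
    exact hγ
  obtain ⟨F, hF⟩ := exists_isLift Γ'' φ hφ
  obtain ⟨F', hF'⟩ := exists_isLift Γ'' ψ hψ
  obtain ⟨hL1, hL2, hB⟩ := B3_twist (q := q) Γ' Γ'' hneg' hneg'' α hα hent hF hF'
  rw [pd3_eq hneg' (hpar hφ) (hpar hψ) hL1 hL2, pd3_eq hneg'' hφ hψ hF hF', hB]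

end Twist

/-! ### the concrete isometry and the adjunction `res₂ ⊣ tr₂` -/

section Concrete

variable (N q : ℕ) [Fact q.Prime]

/-- **Isometry**: `pd3 Γ₀(Nq) (φ ∘ al₂) (ψ ∘ al₂) = pd3 Γ'' φ ψ`, `Γ'' = δ Γ₀(Nq) δ⁻¹`. -/
theorem pd3_iso [Fintype (SL(2, ℤ) ⧸ Gamma0 (N * q))]
    [Fintype (SL(2, ℤ) ⧸ PDIsoGam.Gam2 N q)]
    (φ ψ : Additive (PDIsoGam.Gam2 N q) →+ ℤ) (hφ : IsParabolicHom (PDIsoGam.Gam2 N q) φ)
    (hψ : IsParabolicHom (PDIsoGam.Gam2 N q) ψ) :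
    pd3 (Gamma0 (N * q)) (φ.comp (MonoidHom.toAdditive (PDIsoGam.al₂ N q)))
        (ψ.comp (MonoidHom.toAdditive (PDIsoGam.al₂ N q)))
      = pd3 (PDIsoGam.Gam2 N q) φ ψ :=
  pd3_twist (q := q) (Gamma0 (N * q)) (PDIsoGam.Gam2 N q) (PDPairAdj.neg_one_mem_Gamma0 _)
    (PDIsoGam.neg_one_mem_Gam2 N q (Fact.out : q.Prime).ne_zero) (PDIsoGam.al₂ N q)
    (PDIsoGam.al₂_surjective N q) (fun γ => incl₂_entries N q γ) φ ψ hφ hψ

/-- **The adjunction `res₂ ⊣ tr₂`** for the integral pairing `pd3` (levels `N` and `N q`). -/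
theorem pd3_res₂ [NeZero N] [Fintype (SL(2, ℤ) ⧸ Gamma0 N)]
    [Fintype (SL(2, ℤ) ⧸ Gamma0 (N * q))]
    (x : Additive (Gamma0 N) →+ ℤ) (hx : IsParabolicHom (Gamma0 N) x)
    (y : Additive (Gamma0 (N * q)) →+ ℤ) (hy : IsParabolicHom (Gamma0 (N * q)) y) :
    pd3 (Gamma0 (N * q)) (res₂ N q x) y = pd3 (Gamma0 N) x (tr₂ N q y) := by
  have hq : q ≠ 0 := (Fact.out : q.Prime).ne_zero
  have := PDIsoGam.finiteIndex_Gam2 N q hq
  let _ : Fintype (SL(2, ℤ) ⧸ PDIsoGam.Gam2 N q) := Fintype.ofFinite _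
  have h1 := pd3_iso N q (x.comp (MonoidHom.toAdditive (PDIsoGam.j₂ N q)))
    (y.comp (MonoidHom.toAdditive (PDIsoGam.e₂ N q hq).symm.toMonoidHom))
    (PDIsoGam.isParabolicHom_comp_j₂ N q hx) (PDIsoGam.isParabolicHom_comp_e₂_symm N q hq hy)
  rw [PDIsoGam.comp_e₂_symm_comp_al₂] at h1
  have h2 := PDPairAdj.pd3_res_transfer (Gamma0 N) (PDIsoGam.Gam2 N q)
    (PDIsoGam.neg_one_mem_Gam2 N q hq) (PDIsoGam.j₂ N q) (PDIsoGam.j₂_coe N q) x hx
    (y.comp (MonoidHom.toAdditive (PDIsoGam.e₂ N q hq).symm.toMonoidHom))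
    (PDIsoGam.isParabolicHom_comp_e₂_symm N q hq hy)
  rw [PDIsoGam.tr₂_eq N q hq y, ← h2, ← h1]
  rfl

end Concrete

end Fermat.Agent.S41.PDIsoB
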