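/-
S41 (level raising), block [PD]: the top file.  Owner: helper98 ([PD] sub-captain).

The adjunctions `res_i ⊣ tr_i` for the mod `p` intersection pairing `pdPair` of `S41/PDForm.lean`:
`pdPair_res₁`, `pdPair_res₂`, in the shapes consumed by `Plan.result_of_leaves` (`hBa₁`, `hBa₂`).
-/
import Mathlib
import Fermat.Prelude.Def_ModularCurve_PeriodMap
import Fermat.Agent.S41.Defs
import Fermat.Agent.S41.PDForm
import Fermat.Agent.S41.PDAdj
import Fermat.Agent.S41.PDIsoGam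
import Fermat.Agent.S41.PDIsoB

set_option autoImplicit false
set_option linter.style.haveILetI false

open CongruenceSubgroup ModularCurve.Period
open scoped MatrixGroups

namespace Fermat.Agent.S41

open Fermat.Agent.S41.PD Fermat.Agent.S41.PDPair

theorem pdPair_res₁ (N q p : ℕ) [NeZero N] [Fact q.Prime] (_hqN : ¬ q ∣ N) (x : Lpar N)
    (y : Lpar (N * q)) (hx : res₁ N q x.1 ∈ Lpar (N * q)) (hy : tr₁ N q y.1 ∈ Lpar N) :
    pdPair (N * q) p ⟨res₁ N q x.1, hx⟩ y = pdPair N p x ⟨tr₁ N q y.1, hy⟩ := by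
  haveI : NeZero (N * q) := ⟨Nat.mul_ne_zero (NeZero.ne N) (Fact.out : q.Prime).ne_zero⟩
  rw [pdPair_apply, pdPair_apply]
  congr 2
  exact PDAdj.pd3_comp (Gamma0 N) (Gamma0 (N * q)) (PDForm.neg_one_mem_Gamma0 (N * q)) (incl₁ N q)
    (incl₁_coe N q) x.2 y.2

theorem pdPair_res₂ (N q p : ℕ) [NeZero N] [Fact q.Prime] (_hqN : ¬ q ∣ N) (x : Lpar N)
    (y : Lpar (N * q)) (hx : res₂ N q x.1 ∈ Lpar (N * q)) (hy : tr₂ N q y.1 ∈ Lpar N) :
    pdPair (N * q) p ⟨res₂ N q x.1, hx⟩ y = pdPair N p x ⟨tr₂ N q y.1, hy⟩ := by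
  have hq : q ≠ 0 := (Fact.out : q.Prime).ne_zero
  haveI : NeZero (N * q) := ⟨Nat.mul_ne_zero (NeZero.ne N) hq⟩
  haveI := PDIsoGam.finiteIndex_Gam2 N q hq
  rw [pdPair_apply, pdPair_apply]
  congr 2
  show pd3 (Gamma0 (N * q)) (res₂ N q x.1) y.1 = pd3 (Gamma0 N) x.1 (tr₂ N q y.1)
  have hy' := PDIsoGam.isParabolicHom_comp_e₂_symm N q hq y.2
  have hx' := PDIsoGam.isParabolicHom_comp_j₂ N q x.2
  rw [PDIsoGam.tr₂_eq N q hq, PDIsoGam.res₂_eq,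
    ← PDAdj.pd3_comp (Gamma0 N) (PDIsoGam.Gam2 N q) (PDIsoGam.neg_one_mem_Gam2 N q hq)
      (PDIsoGam.j₂ N q) (PDIsoGam.j₂_coe N q) x.2 hy',
    ← PDIsoB.pd3_iso N q _ _ hx' hy', PDIsoGam.comp_e₂_symm_comp_al₂ N q hq]

end Fermat.Agent.S41
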