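/-
S41 (level raising) — PLAN / GLUE (captain: helper85; blueprint: helper75 #1068, [FIN]).

`result_of_leaves` derives the conclusion of the frozen statement S41 from the leaf statements of
the block table ([NE], [FS], [NEW], [IH], [COH], [PD], [ALG]), each taken as a hypothesis in
exactly the shape its owner proves.  No leaf file is imported here: the final `S41.lean` feeds
the landed leaves into this theorem.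
-/
import Mathlib
import Fermat.Statements.S41
import Fermat.Agent.S41.Defs

set_option autoImplicit false

open CongruenceSubgroup ModularCurve ModularCurve.Period
open scoped MatrixGroups

namespace Fermat.Agent.S41.Plan

open Fermat.Agent.S16 (heckeTHom tData CosetData)
open Fermat.Agent.S41 (Lpar res₁ res₂ tr₁ tr₂)

noncomputable section

/-- The set of auxiliary primes: good for `W`, prime to `N q` and different from `p`. -/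
def goodSet (W : WeierstrassCurve ℤ) (N q p : ℕ) : Set ℕ :=
  {ℓ | ℓ.Prime ∧ W.IsGoodPrimeFor ℓ ∧ ¬ ℓ ∣ N * q ∧ ℓ ≠ p}

/-- `T_ℓ` as a `ℤ`-linear endomorphism of `Hom(Γ₀(M), ℤ)`. -/
def tLin (M ℓ : ℕ) [Fact ℓ.Prime] (hℓ : ¬ ℓ ∣ M) :
    (Additive (Gamma0 M) →+ ℤ) →ₗ[ℤ] (Additive (Gamma0 M) →+ ℤ) :=
  ((tData M ℓ hℓ).opHom (A := ℤ)).toIntLinearMap

theorem tLin_apply (M ℓ : ℕ) [Fact ℓ.Prime] (hℓ : ¬ ℓ ∣ M) (φ : Additive (Gamma0 M) →+ ℤ) :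
    tLin M ℓ hℓ φ = heckeTHom M ℓ hℓ φ := rfl

/-- `res₁` as a `ℤ`-linear map. -/
def resLin₁ (M ℓ : ℕ) : (Additive (Gamma0 M) →+ ℤ) →ₗ[ℤ] (Additive (Gamma0 (M * ℓ)) →+ ℤ) where
  toFun φ := res₁ M ℓ φ
  map_add' _ _ := rfl
  map_smul' _ _ := rfl

/-- `res₂` as a `ℤ`-linear map. -/
def resLin₂ (M ℓ : ℕ) : (Additive (Gamma0 M) →+ ℤ) →ₗ[ℤ] (Additive (Gamma0 (M * ℓ)) →+ ℤ) where
  toFun φ := res₂ M ℓ φ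
  map_add' _ _ := rfl
  map_smul' _ _ := rfl

/-- An additive map between `Hom` groups as a `ℤ`-linear map. -/
def addLin {X Y : Type*} [AddCommGroup X] [AddCommGroup Y] (t : X → Y)
    (hadd : ∀ ψ ψ', t (ψ + ψ') = t ψ + t ψ') : X →ₗ[ℤ] Y :=
  (AddMonoidHom.mk' t hadd).toIntLinearMap

theorem addLin_apply {X Y : Type*} [AddCommGroup X] [AddCommGroup Y] (t : X → Y)
    (hadd : ∀ ψ ψ', t (ψ + ψ') = t ψ + t ψ') (x : X) : addLin t hadd x = t x := rfl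

/-- **[FIN] glue.**  The conclusion of the frozen statement S41 from the leaf statements. -/
theorem result_of_leaves
    {W : WeierstrassCurve ℤ} {p N q : ℕ} [Fact p.Prime] [NeZero N] [Fact q.Prime]
    (hqN : ¬ q ∣ N)
    (f : CuspForm (Gamma0 N) 2) (𝔪 : Ideal (integralClosure ℤ ℂ)) (hmax : 𝔪.IsMaximal)
    (hcong : ∀ ℓ : ℕ, ℓ.Prime → W.IsGoodPrimeFor ℓ → ¬ ℓ ∣ N → ℓ ≠ p →
      ∃ a : integralClosure ℤ ℂ, (a : ℂ) = ModularFormClass.qCoeff f ℓ ∧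
        a - ((W.apOfModel ℓ : ℤ) : integralClosure ℤ ℂ) ∈ 𝔪)
    (hLR : ∃ a : integralClosure ℤ ℂ, (a : ℂ) = ModularFormClass.qCoeff f q ∧
      a ^ 2 - ((q : integralClosure ℤ ℂ) + 1) ^ 2 ∈ 𝔪)
    -- [NE]
    (hNE : ∀ B : ℕ, ∃ ℓ : ℕ, ℓ.Prime ∧ B < ℓ ∧ W.IsGoodPrimeFor ℓ ∧
      ¬ p ∣ (W.reductionMod ℓ).card)
    -- [FS]
    (hFS : ∀ (Ps : Set ℕ) (θ : ℕ → ℤ),
      (∀ ℓ ∈ Ps, ℓ.Prime ∧ ¬ ℓ ∣ N ∧ ∃ a : integralClosure ℤ ℂ,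
        (a : ℂ) = ModularFormClass.qCoeff f ℓ ∧ a - (θ ℓ : integralClosure ℤ ℂ) ∈ 𝔪) →
      ∃ x₀ : Lpar N, (¬ ∃ z : Lpar N, x₀ = (p : ℤ) • z) ∧
        ∀ (ℓ : ℕ) [Fact ℓ.Prime] (hℓ : ¬ ℓ ∣ N), ℓ ∈ Ps →
          ∃ z : Lpar N, heckeTHom N ℓ hℓ x₀.1 - θ ℓ • x₀.1 = (p : ℤ) • z.1)
    -- [NEW]
    (hNEW : ∀ (Ps : Set ℕ) (θ : ℕ → ℤ), (∀ ℓ ∈ Ps, ℓ.Prime ∧ ¬ ℓ ∣ N * q) →
      ∀ (y : Lpar (N * q)), tr₁ N q y.1 = 0 → tr₂ N q y.1 = 0 →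
      (¬ ∃ z : Lpar (N * q), y = (p : ℤ) • z) →
      (∀ (ℓ : ℕ) [Fact ℓ.Prime] (hℓ : ¬ ℓ ∣ N * q), ℓ ∈ Ps →
        ∃ z : Lpar (N * q), heckeTHom (N * q) ℓ hℓ y.1 - θ ℓ • y.1 = (p : ℤ) • z.1) →
      ∃ (g : CuspForm (Gamma0 (N * q)) 2) (𝔪' : Ideal (integralClosure ℤ ℂ)),
        g.IsNormalizedEigenform ∧ 𝔪'.IsMaximal ∧ (p : integralClosure ℤ ℂ) ∈ 𝔪' ∧
        (∀ ℓ ∈ Ps, ∃ a : integralClosure ℤ ℂ, (a : ℂ) = ModularFormClass.qCoeff g ℓ ∧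
          a - (θ ℓ : integralClosure ℤ ℂ) ∈ 𝔪') ∧
        ModularFormClass.qCoeff g q ^ 2 = 1)
    -- [IH]
    (hIH : ∃ S : Finset ℕ, ∀ (ℓ : ℕ) [Fact ℓ.Prime] (hℓ : ¬ ℓ ∣ N), ℓ ∉ S →
      ∀ φ₁ φ₂ : Additive (Gamma0 N) →+ ZMod p,
        IsParabolicHom (Gamma0 N) φ₁ → IsParabolicHom (Gamma0 N) φ₂ →
        res₁ N q φ₁ + res₂ N q φ₂ = 0 →
        heckeTHom N ℓ hℓ φ₁ = (ℓ + 1) • φ₁ ∧ heckeTHom N ℓ hℓ φ₂ = (ℓ + 1) • φ₂)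
    -- [COH]
    (hC0₁ : ∀ (M ℓ : ℕ) (ψ ψ' : Additive (Gamma0 (M * ℓ)) →+ ℤ),
      tr₁ M ℓ (ψ + ψ') = tr₁ M ℓ ψ + tr₁ M ℓ ψ')
    (hC0₂ : ∀ (M ℓ : ℕ) (ψ ψ' : Additive (Gamma0 (M * ℓ)) →+ ℤ),
      tr₂ M ℓ (ψ + ψ') = tr₂ M ℓ ψ + tr₂ M ℓ ψ')
    (hC1₁ : ∀ (M ℓ : ℕ) [Fact ℓ.Prime] (_ : ¬ ℓ ∣ M) (φ : Additive (Gamma0 M) →+ ℤ),
      tr₁ M ℓ (res₁ M ℓ φ) = (ℓ + 1) • φ)
    (hC1₂ : ∀ (M ℓ : ℕ) [Fact ℓ.Prime] (_ : ¬ ℓ ∣ M) (φ : Additive (Gamma0 M) →+ ℤ),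
      tr₂ M ℓ (res₂ M ℓ φ) = (ℓ + 1) • φ)
    (hC2₁ : ∀ (M ℓ : ℕ) [Fact ℓ.Prime] (hℓ : ¬ ℓ ∣ M) (φ : Additive (Gamma0 M) →+ ℤ),
      tr₁ M ℓ (res₂ M ℓ φ) = heckeTHom M ℓ hℓ φ)
    (hC2₂ : ∀ (M ℓ : ℕ) [Fact ℓ.Prime] (hℓ : ¬ ℓ ∣ M) (φ : Additive (Gamma0 M) →+ ℤ),
      tr₂ M ℓ (res₁ M ℓ φ) = heckeTHom M ℓ hℓ φ)
    (hC3r₁ : ∀ (ℓ : ℕ) [Fact ℓ.Prime] (hℓ : ¬ ℓ ∣ N) (hℓ' : ¬ ℓ ∣ N * q)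
      (φ : Additive (Gamma0 N) →+ ℤ),
      res₁ N q (heckeTHom N ℓ hℓ φ) = heckeTHom (N * q) ℓ hℓ' (res₁ N q φ))
    (hC3r₂ : ∀ (ℓ : ℕ) [Fact ℓ.Prime] (hℓ : ¬ ℓ ∣ N) (hℓ' : ¬ ℓ ∣ N * q)
      (φ : Additive (Gamma0 N) →+ ℤ),
      res₂ N q (heckeTHom N ℓ hℓ φ) = heckeTHom (N * q) ℓ hℓ' (res₂ N q φ))
    (hC3t₁ : ∀ (ℓ : ℕ) [Fact ℓ.Prime] (hℓ : ¬ ℓ ∣ N) (hℓ' : ¬ ℓ ∣ N * q)
      (ψ : Additive (Gamma0 (N * q)) →+ ℤ),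
      tr₁ N q (heckeTHom (N * q) ℓ hℓ' ψ) = heckeTHom N ℓ hℓ (tr₁ N q ψ))
    (hC3t₂ : ∀ (ℓ : ℕ) [Fact ℓ.Prime] (hℓ : ¬ ℓ ∣ N) (hℓ' : ¬ ℓ ∣ N * q)
      (ψ : Additive (Gamma0 (N * q)) →+ ℤ),
      tr₂ N q (heckeTHom (N * q) ℓ hℓ' ψ) = heckeTHom N ℓ hℓ (tr₂ N q ψ))
    (hC4r₁ : ∀ (M ℓ : ℕ) [Fact ℓ.Prime] (_ : ¬ ℓ ∣ M), ∀ φ ∈ Lpar M, res₁ M ℓ φ ∈ Lpar (M * ℓ))
    (hC4r₂ : ∀ (M ℓ : ℕ) [Fact ℓ.Prime] (_ : ¬ ℓ ∣ M), ∀ φ ∈ Lpar M, res₂ M ℓ φ ∈ Lpar (M * ℓ))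
    (hC4t₁ : ∀ (M ℓ : ℕ) [Fact ℓ.Prime] (_ : ¬ ℓ ∣ M), ∀ ψ ∈ Lpar (M * ℓ), tr₁ M ℓ ψ ∈ Lpar M)
    (hC4t₂ : ∀ (M ℓ : ℕ) [Fact ℓ.Prime] (_ : ¬ ℓ ∣ M), ∀ ψ ∈ Lpar (M * ℓ), tr₂ M ℓ ψ ∈ Lpar M)
    (hC4T : ∀ (M ℓ : ℕ) [Fact ℓ.Prime] (hℓ : ¬ ℓ ∣ M), ∀ φ ∈ Lpar M,
      heckeTHom M ℓ hℓ φ ∈ Lpar M)
    (hC6 : ∀ (M ℓ ℓ' : ℕ) [NeZero M] [Fact ℓ.Prime] [Fact ℓ'.Prime] (hℓ : ¬ ℓ ∣ M)
      (hℓ' : ¬ ℓ' ∣ M), ∀ φ ∈ Lpar M,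
      heckeTHom M ℓ hℓ (heckeTHom M ℓ' hℓ' φ) = heckeTHom M ℓ' hℓ' (heckeTHom M ℓ hℓ φ))
    (hC7 : ∀ (M : ℕ), ∀ φ ∈ Lpar M, (∀ x, (p : ℤ) ∣ φ x) → ∃ z ∈ Lpar M, φ = (p : ℤ) • z)
    -- [PD]
    (B : ∀ M : ℕ, Lpar M →ₗ[ℤ] Lpar M →ₗ[ℤ] ZMod p)
    (hBs : ∀ (M : ℕ) (x y : Lpar M), B M x y = - B M y x)
    (hBn : ∀ (M : ℕ) [NeZero M] (x : Lpar M), (∀ y, B M x y = 0) → ∃ z : Lpar M, x = (p : ℤ) • z)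
    (hBa₁ : ∀ (M ℓ : ℕ) [NeZero M] [Fact ℓ.Prime] (_ : ¬ ℓ ∣ M) (x : Lpar M) (y : Lpar (M * ℓ))
      (h₁ : res₁ M ℓ x.1 ∈ Lpar (M * ℓ)) (h₂ : tr₁ M ℓ y.1 ∈ Lpar M),
      B (M * ℓ) ⟨res₁ M ℓ x.1, h₁⟩ y = B M x ⟨tr₁ M ℓ y.1, h₂⟩)
    (hBa₂ : ∀ (M ℓ : ℕ) [NeZero M] [Fact ℓ.Prime] (_ : ¬ ℓ ∣ M) (x : Lpar M) (y : Lpar (M * ℓ))
      (h₁ : res₂ M ℓ x.1 ∈ Lpar (M * ℓ)) (h₂ : tr₂ M ℓ y.1 ∈ Lpar M),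
      B (M * ℓ) ⟨res₂ M ℓ x.1, h₁⟩ y = B M x ⟨tr₂ M ℓ y.1, h₂⟩)
    -- [ALG], specialised to `L = Lpar N`, `M = Lpar (N q)`
    (hALG : ∀ (P : Type) (tL : P → Module.End ℤ (Lpar N)) (tM : P → Module.End ℤ (Lpar (N * q)))
      (Tq : Module.End ℤ (Lpar N))
      (_ : ∀ i j, Commute (tL i) (tL j)) (_ : ∀ i j, Commute (tM i) (tM j))
      (_ : ∀ i, Commute Tq (tL i))
      (α₁ α₂ : Lpar N →ₗ[ℤ] Lpar (N * q)) (β₁ β₂ : Lpar (N * q) →ₗ[ℤ] Lpar N)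
      (_ : ∀ i x, α₁ (tL i x) = tM i (α₁ x)) (_ : ∀ i x, α₂ (tL i x) = tM i (α₂ x))
      (_ : ∀ i y, β₁ (tM i y) = tL i (β₁ y)) (_ : ∀ i y, β₂ (tM i y) = tL i (β₂ y))
      (c : ℤ)
      (_ : ∀ x, β₁ (α₁ x) = c • x) (_ : ∀ x, β₂ (α₂ x) = c • x)
      (_ : ∀ x, β₁ (α₂ x) = Tq x) (_ : ∀ x, β₂ (α₁ x) = Tq x)
      (BL : Lpar N →ₗ[ℤ] Lpar N →ₗ[ℤ] ZMod p)
      (BM : Lpar (N * q) →ₗ[ℤ] Lpar (N * q) →ₗ[ℤ] ZMod p)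
      (_ : ∀ x, (∀ y, BL x y = 0) → ∃ z, x = (p : ℤ) • z)
      (_ : ∀ x, (∀ y, BM x y = 0) → ∃ z, x = (p : ℤ) • z)
      (_ : ∀ x y, BL x y = - BL y x) (_ : ∀ x y, BM x y = - BM y x)
      (_ : ∀ x y, BM (α₁ x) y = BL x (β₁ y)) (_ : ∀ x y, BM (α₂ x) y = BL x (β₂ y))
      (_ : ∀ i x y, BL (tL i x) y = BL x (tL i y)) (_ : ∀ i x y, BM (tM i x) y = BM x (tM i y))
      (θ : P → ℤ) (a : ℤ) (_ : (p : ℤ) ∣ a ^ 2 - c ^ 2)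
      (x₀ : Lpar N) (_ : ¬ ∃ z, x₀ = (p : ℤ) • z)
      (_ : ∀ i, ∃ z, tL i x₀ - θ i • x₀ = (p : ℤ) • z) (_ : ∃ z, Tq x₀ - a • x₀ = (p : ℤ) • z)
      (i₀ : P) (e : ℤ)
      (_ : ∀ x y : Lpar N, (∃ m, α₁ x + α₂ y = (p : ℤ) • m) →
        (∃ z, tL i₀ x - e • x = (p : ℤ) • z) ∧ (∃ z, tL i₀ y - e • y = (p : ℤ) • z))
      (_ : ¬ (p : ℤ) ∣ θ i₀ - e),
      ∃ y : Lpar (N * q), β₁ y = 0 ∧ β₂ y = 0 ∧ (¬ ∃ z, y = (p : ℤ) • z) ∧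
        ∀ i, ∃ z, tM i y - θ i • y = (p : ℤ) • z) :
    ∃ (g : CuspForm (Gamma0 (N * q)) 2) (𝔪' : Ideal (integralClosure ℤ ℂ)),
      g.IsNormalizedEigenform ∧ 𝔪'.IsMaximal ∧ (p : integralClosure ℤ ℂ) ∈ 𝔪' ∧
      (∀ ℓ : ℕ, ℓ.Prime → W.IsGoodPrimeFor ℓ → ¬ ℓ ∣ N * q → ℓ ≠ p →
        ∃ a : integralClosure ℤ ℂ, (a : ℂ) = ModularFormClass.qCoeff g ℓ ∧
          a - ((W.apOfModel ℓ : ℤ) : integralClosure ℤ ℂ) ∈ 𝔪') ∧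
      g.IsNewAt q := by
  classical
  have hqpr : q.Prime := Fact.out
  haveI hNq : NeZero (N * q) := ⟨Nat.mul_ne_zero (NeZero.ne N) hqpr.ne_zero⟩
  -- Step A: the eigenvalue system
  obtain ⟨aq', haq', hLR'⟩ := hLR
  have hprime : 𝔪.IsPrime := hmax.isPrime
  have hfac : (aq' - ((q : integralClosure ℤ ℂ) + 1)) * (aq' + ((q : integralClosure ℤ ℂ) + 1))
      ∈ 𝔪 := by
    have : (aq' - ((q : integralClosure ℤ ℂ) + 1)) * (aq' + ((q : integralClosure ℤ ℂ) + 1))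
        = aq' ^ 2 - ((q : integralClosure ℤ ℂ) + 1) ^ 2 := by ring
    rw [this]; exact hLR'
  obtain ⟨a, ha2, haq⟩ : ∃ a : ℤ, a ^ 2 = ((q : ℤ) + 1) ^ 2 ∧
      aq' - ((a : ℤ) : integralClosure ℤ ℂ) ∈ 𝔪 := by
    rcases hprime.mem_or_mem hfac with h | h
    · exact ⟨(q : ℤ) + 1, rfl, by push_cast; exact h⟩
    · refine ⟨-((q : ℤ) + 1), by ring, ?_⟩
      push_cast
      rw [sub_neg_eq_add]; exact h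
  set Ps : Set ℕ := goodSet W N q p with hPs
  let θ : ℕ → ℤ := fun ℓ => if ℓ = q then a else W.apOfModel ℓ
  have hθq : θ q = a := if_pos rfl
  have hθ : ∀ ℓ, ℓ ≠ q → θ ℓ = W.apOfModel ℓ := fun ℓ h => if_neg h
  have hPs_ne : ∀ ℓ ∈ Ps, ℓ ≠ q := by
    intro ℓ hℓ h
    exact hℓ.2.2.1 (h ▸ Dvd.intro_left N rfl)
  have hPs_N : ∀ ℓ ∈ Ps, ¬ ℓ ∣ N := fun ℓ hℓ h => hℓ.2.2.1 (Dvd.dvd.mul_right h q)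
  obtain ⟨x₀, hx₀, hx₀θ⟩ := hFS (Ps ∪ {q}) θ (by
    rintro ℓ (hℓ | hℓ)
    · refine ⟨hℓ.1, hPs_N ℓ hℓ, ?_⟩
      rw [hθ ℓ (hPs_ne ℓ hℓ)]
      exact hcong ℓ hℓ.1 hℓ.2.1 (hPs_N ℓ hℓ) hℓ.2.2.2
    · rw [Set.mem_singleton_iff] at hℓ
      subst hℓ
      exact ⟨hqpr, hqN, aq', haq', by rw [hθq]; exact haq⟩)
  -- Step B: the non-Eisenstein prime
  obtain ⟨S, hS⟩ := hIH
  obtain ⟨ℓ₀, hℓ₀p, hℓ₀B, hℓ₀good, hℓ₀card⟩ := hNE (S.sup id + N * q + p)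
  haveI hℓ₀F : Fact ℓ₀.Prime := ⟨hℓ₀p⟩
  have hℓ₀S : ℓ₀ ∉ S := fun h => by
    have := Finset.le_sup (f := id) h
    simp only [id] at this
    omega
  have hℓ₀Nq : ¬ ℓ₀ ∣ N * q := fun h => by
    have := Nat.le_of_dvd (Nat.pos_of_ne_zero (NeZero.ne (N * q))) h
    omega
  have hℓ₀ne : ℓ₀ ≠ p := by omega
  have hℓ₀mem : ℓ₀ ∈ Ps := ⟨hℓ₀p, hℓ₀good, hℓ₀Nq, hℓ₀ne⟩
  have hℓ₀N : ¬ ℓ₀ ∣ N := hPs_N ℓ₀ hℓ₀mem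
  have hθℓ₀ : θ ℓ₀ - ((ℓ₀ : ℤ) + 1) = - ((W.reductionMod ℓ₀).card : ℤ) := by
    rw [hθ ℓ₀ (hPs_ne ℓ₀ hℓ₀mem)]
    unfold WeierstrassCurve.apOfModel WeierstrassCurve.traceOfFrobenius
    rw [Nat.card_zmod]; ring
  have hNE' : ¬ (p : ℤ) ∣ θ ℓ₀ - ((ℓ₀ : ℤ) + 1) := by
    rw [hθℓ₀, dvd_neg, Int.natCast_dvd_natCast]; exact hℓ₀card
  -- self-adjointness of `T_ℓ` from the two adjunctions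
  have hsa : ∀ (M ℓ : ℕ) [NeZero M] [Fact ℓ.Prime] (hℓ : ¬ ℓ ∣ M) (x y : Lpar M)
      (hx : heckeTHom M ℓ hℓ x.1 ∈ Lpar M) (hy : heckeTHom M ℓ hℓ y.1 ∈ Lpar M),
      B M ⟨heckeTHom M ℓ hℓ x.1, hx⟩ y = B M x ⟨heckeTHom M ℓ hℓ y.1, hy⟩ := by
    intro M ℓ _ _ hℓ x y hx hy
    have hr₂x := hC4r₂ M ℓ hℓ x.1 x.2
    have hr₁y := hC4r₁ M ℓ hℓ y.1 y.2
    have e1 : (⟨heckeTHom M ℓ hℓ x.1, hx⟩ : Lpar M)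
        = ⟨tr₁ M ℓ (res₂ M ℓ x.1), hC4t₁ M ℓ hℓ _ hr₂x⟩ := Subtype.ext (hC2₁ M ℓ hℓ x.1).symm
    have e2 : (⟨heckeTHom M ℓ hℓ y.1, hy⟩ : Lpar M)
        = ⟨tr₂ M ℓ (res₁ M ℓ y.1), hC4t₂ M ℓ hℓ _ hr₁y⟩ := Subtype.ext (hC2₂ M ℓ hℓ y.1).symm
    rw [e1, e2, hBs M, ← hBa₁ M ℓ hℓ y ⟨res₂ M ℓ x.1, hr₂x⟩ hr₁y, hBs (M * ℓ), neg_neg,
      ← hBa₂ M ℓ hℓ x ⟨res₁ M ℓ y.1, hr₁y⟩ hr₂x]
  -- Step C: the data for [ALG]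
  let P : Type := {ℓ : ℕ // ℓ ∈ Ps}
  have hPF : ∀ i : P, Fact (i.1).Prime := fun i => ⟨i.2.1⟩
  have hPN : ∀ i : P, ¬ i.1 ∣ N := fun i => hPs_N i.1 i.2
  have hPNq : ∀ i : P, ¬ i.1 ∣ N * q := fun i => i.2.2.2.1
  let tL : P → Module.End ℤ (Lpar N) := fun i =>
    (@tLin N i.1 (hPF i) (hPN i)).restrict (fun φ hφ => @hC4T N i.1 (hPF i) (hPN i) φ hφ)
  let tM : P → Module.End ℤ (Lpar (N * q)) := fun i =>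
    (@tLin (N * q) i.1 (hPF i) (hPNq i)).restrict
      (fun φ hφ => @hC4T (N * q) i.1 (hPF i) (hPNq i) φ hφ)
  let Tq : Module.End ℤ (Lpar N) := (tLin N q hqN).restrict (fun φ hφ => hC4T N q hqN φ hφ)
  let α₁ : Lpar N →ₗ[ℤ] Lpar (N * q) :=
    (resLin₁ N q).restrict (fun φ hφ => hC4r₁ N q hqN φ hφ)
  let α₂ : Lpar N →ₗ[ℤ] Lpar (N * q) :=
    (resLin₂ N q).restrict (fun φ hφ => hC4r₂ N q hqN φ hφ)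
  let β₁ : Lpar (N * q) →ₗ[ℤ] Lpar N :=
    (addLin (tr₁ N q) (hC0₁ N q)).restrict (fun ψ hψ => hC4t₁ N q hqN ψ hψ)
  let β₂ : Lpar (N * q) →ₗ[ℤ] Lpar N :=
    (addLin (tr₂ N q) (hC0₂ N q)).restrict (fun ψ hψ => hC4t₂ N q hqN ψ hψ)
  have htL : ∀ i j, Commute (tL i) (tL j) := by
    intro i j
    refine LinearMap.ext fun x => Subtype.ext ?_
    exact @hC6 N i.1 j.1 _ (hPF i) (hPF j) (hPN i) (hPN j) x.1 x.2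
  have htM : ∀ i j, Commute (tM i) (tM j) := by
    intro i j
    refine LinearMap.ext fun x => Subtype.ext ?_
    exact @hC6 (N * q) i.1 j.1 _ (hPF i) (hPF j) (hPNq i) (hPNq j) x.1 x.2
  have hTq : ∀ i, Commute Tq (tL i) := by
    intro i
    refine LinearMap.ext fun x => Subtype.ext ?_
    exact @hC6 N q i.1 _ _ (hPF i) hqN (hPN i) x.1 x.2
  have hα₁ : ∀ i x, α₁ (tL i x) = tM i (α₁ x) := fun i x =>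
    Subtype.ext (@hC3r₁ i.1 (hPF i) (hPN i) (hPNq i) x.1)
  have hα₂ : ∀ i x, α₂ (tL i x) = tM i (α₂ x) := fun i x =>
    Subtype.ext (@hC3r₂ i.1 (hPF i) (hPN i) (hPNq i) x.1)
  have hβ₁ : ∀ i y, β₁ (tM i y) = tL i (β₁ y) := fun i y =>
    Subtype.ext (@hC3t₁ i.1 (hPF i) (hPN i) (hPNq i) y.1)
  have hβ₂ : ∀ i y, β₂ (tM i y) = tL i (β₂ y) := fun i y =>
    Subtype.ext (@hC3t₂ i.1 (hPF i) (hPN i) (hPNq i) y.1)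
  have hc : ∀ x : Lpar N, ((q + 1 : ℕ) • x.1 : Additive (Gamma0 N) →+ ℤ)
      = (((q : ℤ) + 1) • x : Lpar N).1 := by
    intro x
    rw [Submodule.coe_smul, ← natCast_zsmul]
    push_cast; rfl
  have h11 : ∀ x, β₁ (α₁ x) = ((q : ℤ) + 1) • x := fun x =>
    Subtype.ext ((hC1₁ N q hqN x.1).trans (hc x))
  have h22 : ∀ x, β₂ (α₂ x) = ((q : ℤ) + 1) • x := fun x =>
    Subtype.ext ((hC1₂ N q hqN x.1).trans (hc x))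
  have h12 : ∀ x, β₁ (α₂ x) = Tq x := fun x => Subtype.ext (hC2₁ N q hqN x.1)
  have h21 : ∀ x, β₂ (α₁ x) = Tq x := fun x => Subtype.ext (hC2₂ N q hqN x.1)
  have hadj₁ : ∀ x y, B (N * q) (α₁ x) y = B N x (β₁ y) := fun x y =>
    hBa₁ N q hqN x y _ _
  have hadj₂ : ∀ x y, B (N * q) (α₂ x) y = B N x (β₂ y) := fun x y =>
    hBa₂ N q hqN x y _ _
  have hsaL : ∀ i x y, B N (tL i x) y = B N x (tL i y) := fun i x y =>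
    @hsa N i.1 _ (hPF i) (hPN i) x y _ _
  have hsaM : ∀ i x y, B (N * q) (tM i x) y = B (N * q) x (tM i y) := fun i x y =>
    @hsa (N * q) i.1 _ (hPF i) (hPNq i) x y _ _
  have ha : (p : ℤ) ∣ a ^ 2 - ((q : ℤ) + 1) ^ 2 := by rw [ha2, sub_self]; exact dvd_zero _
  have hx₀θ' : ∀ i : P, ∃ z, tL i x₀ - θ i.1 • x₀ = (p : ℤ) • z := by
    intro i
    obtain ⟨z, hz⟩ := @hx₀θ i.1 (hPF i) (hPN i) (Or.inl i.2)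
    exact ⟨z, Subtype.ext hz⟩
  have hx₀q : ∃ z, Tq x₀ - a • x₀ = (p : ℤ) • z := by
    obtain ⟨z, hz⟩ := hx₀θ q hqN (Or.inr rfl)
    rw [hθq] at hz
    exact ⟨z, Subtype.ext hz⟩
  have hIh : ∀ x y : Lpar N, (∃ m, α₁ x + α₂ y = (p : ℤ) • m) →
      (∃ z, tL ⟨ℓ₀, hℓ₀mem⟩ x - ((ℓ₀ : ℤ) + 1) • x = (p : ℤ) • z) ∧
      (∃ z, tL ⟨ℓ₀, hℓ₀mem⟩ y - ((ℓ₀ : ℤ) + 1) • y = (p : ℤ) • z) := by
    rintro x y ⟨m, hm⟩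
    let h : ℤ →+ ZMod p := Int.castAddHom (ZMod p)
    have hpar : ∀ w : Lpar N, IsParabolicHom (Gamma0 N) (h.comp w.1) := by
      intro w γ hγ
      show h (w.1 (Additive.ofMul γ)) = 0
      rw [w.2 γ hγ]; exact map_zero h
    have hsum : res₁ N q (h.comp x.1) + res₂ N q (h.comp y.1) = 0 := by
      have h1 : res₁ N q x.1 + res₂ N q y.1 = (p : ℤ) • m.1 := congrArg Subtype.val hm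
      refine AddMonoidHom.ext fun γ => ?_
      have h2 := DFunLike.congr_fun h1 γ
      show h ((res₁ N q x.1) γ) + h ((res₂ N q y.1) γ) = 0
      rw [← map_add, ← AddMonoidHom.add_apply, h2]
      simp [h]
    obtain ⟨e1, e2⟩ := hS ℓ₀ hℓ₀N hℓ₀S (h.comp x.1) (h.comp y.1) (hpar x) (hpar y) hsum
    have key : ∀ w : Lpar N, heckeTHom N ℓ₀ hℓ₀N (h.comp w.1) = (ℓ₀ + 1) • (h.comp w.1) →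
        ∃ z, tL ⟨ℓ₀, hℓ₀mem⟩ w - ((ℓ₀ : ℤ) + 1) • w = (p : ℤ) • z := by
      intro w hw
      have hmemw : heckeTHom N ℓ₀ hℓ₀N w.1 - ((ℓ₀ : ℤ) + 1) • w.1 ∈ Lpar N :=
        (Lpar N).sub_mem (hC4T N ℓ₀ hℓ₀N w.1 w.2) ((Lpar N).smul_mem _ w.2)
      have hdiv : ∀ γ, (p : ℤ) ∣ (heckeTHom N ℓ₀ hℓ₀N w.1 - ((ℓ₀ : ℤ) + 1) • w.1) γ := by
        intro γ
        rw [← ZMod.intCast_zmod_eq_zero_iff_dvd]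
        have h3 := DFunLike.congr_fun hw γ
        rw [heckeTHom, CosetData.op_comp] at h3
        have h4 : h ((heckeTHom N ℓ₀ hℓ₀N w.1) γ) = (ℓ₀ + 1) • h (w.1 γ) := h3
        show h ((heckeTHom N ℓ₀ hℓ₀N w.1) γ - ((ℓ₀ : ℤ) + 1) • w.1 γ) = 0
        rw [map_sub, h4, map_zsmul]
        rw [← natCast_zsmul]; push_cast; exact sub_self _
      obtain ⟨z, hz, hzeq⟩ := hC7 N _ hmemw hdiv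
      exact ⟨⟨z, hz⟩, Subtype.ext hzeq⟩
    exact ⟨key x e1, key y e2⟩
  obtain ⟨y, hy₁, hy₂, hy, hyθ⟩ := hALG P tL tM Tq htL htM hTq α₁ α₂ β₁ β₂ hα₁ hα₂ hβ₁ hβ₂
    ((q : ℤ) + 1) h11 h22 h12 h21 (B N) (B (N * q)) (hBn N) (hBn (N * q)) (hBs N) (hBs (N * q))
    hadj₁ hadj₂ hsaL hsaM (fun i => θ i.1) a ha x₀ hx₀ hx₀θ' hx₀q ⟨ℓ₀, hℓ₀mem⟩ ((ℓ₀ : ℤ) + 1)
    hIh hNE'
  -- Step D: the new eigenform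
  obtain ⟨g, 𝔪', hg, hmax', hp', hcong', hnew⟩ := hNEW Ps θ (fun ℓ hℓ => ⟨hℓ.1, hℓ.2.2.1⟩) y
    (congrArg Subtype.val hy₁) (congrArg Subtype.val hy₂) hy (by
      intro ℓ hF hℓ hmem
      obtain ⟨z, hz⟩ := hyθ ⟨ℓ, hmem⟩
      exact ⟨z, congrArg Subtype.val hz⟩)
  refine ⟨g, 𝔪', hg, hmax', hp', ?_, hnew⟩
  intro ℓ hℓ hgood hNq' hne
  have hmem : ℓ ∈ Ps := ⟨hℓ, hgood, hNq', hne⟩
  obtain ⟨a', ha', hmem'⟩ := hcong' ℓ hmem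
  rw [hθ ℓ (hPs_ne ℓ hmem)] at hmem'
  exact ⟨a', ha', hmem'⟩

end

end Fermat.Agent.S41.Plan
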