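import Mathlib

/-
S41 block [ALG] (B-copy, helper40): abstract level raising, pure linear algebra.

`Fermat.Agent.S41.AlgB.exists_new_eigenvector_mod_p` is the statement of the S41 plan, verbatim.
Proof (no generalised eigenspaces): with `α (x, y) = α₁ x + α₂ y`, `β m = (β₁ m, β₂ m)`:
* duality (`exists_eq_add_of_orth`): `(tL i₀ - e) (L × L) ⊆ β M + p (L × L)`;
* `v₀ = (x₀, lam • x₀)` with `β (α v₀) = p • z₀`; then `z₀ ∈ β M + p ^ n (L × L)` for all `n`
  (`mem_of_coprime_eigen`), hence `z₀ = β m'` (`mem_of_forall_pow`);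
* the witness is `y = α v₀ - p • m'`.
-/

set_option autoImplicit false

namespace Fermat.Agent.S41.AlgB

open Module

section Quot

variable (p : ℕ) (L : Type*) [AddCommGroup L]

/-- The submodule `pL` of an abelian group `L`. -/
def pSub : Submodule ℤ L := LinearMap.range (LinearMap.lsmul ℤ L (p : ℤ))

variable {p L}

theorem mem_pSub {x : L} : x ∈ pSub p L ↔ ∃ z, x = (p : ℤ) • z := by
  simp [pSub, LinearMap.mem_range, eq_comm]

/-- `L / pL` as a `ZMod p`-module. -/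
@[reducible] noncomputable def modQ : Module (ZMod p) (L ⧸ pSub p L) :=
  AddCommGroup.zmodModule (n := p) (by
    intro x
    induction x using Submodule.Quotient.induction_on with
    | H x =>
      rw [← Submodule.Quotient.mk_smul, Submodule.Quotient.mk_eq_zero]
      exact mem_pSub.2 ⟨x, by simp⟩)

attribute [local instance] modQ

theorem finiteQ [Module.Finite ℤ L] : Module.Finite (ZMod p) (L ⧸ pSub p L) :=
  Module.Finite.of_restrictScalars_finite ℤ (ZMod p) _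

attribute [local instance] finiteQ

/-- An additive functional `L → ZMod p` descends to `L / pL`. -/
noncomputable def barFun (φ : L →ₗ[ℤ] ZMod p) : Module.Dual (ZMod p) (L ⧸ pSub p L) :=
  (((pSub p L).liftQ φ (by
      intro x hx
      obtain ⟨z, rfl⟩ := mem_pSub.1 hx
      simp [LinearMap.mem_ker])).toAddMonoidHom).toZModLinearMap p

@[simp] theorem barFun_mk (φ : L →ₗ[ℤ] ZMod p) (x : L) :
    barFun φ (Submodule.Quotient.mk x) = φ x := rfl

end Quot

section Dual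

attribute [local instance] modQ finiteQ

/-- **Duality step.** If `v` is orthogonal to everything that `f` kills modulo `p`, then `v` lies
in the image of the adjoint `g` modulo `p`. -/
theorem exists_eq_add_of_orth {p : ℕ} [Fact p.Prime] {L M : Type*} [AddCommGroup L]
    [AddCommGroup M] [Module.Finite ℤ M]
    (BL : L →ₗ[ℤ] L →ₗ[ℤ] ZMod p) (BM : M →ₗ[ℤ] M →ₗ[ℤ] ZMod p)
    (hBL : ∀ x, (∀ y, BL x y = 0) → ∃ z, x = (p : ℤ) • z)
    (hBM : ∀ x, (∀ y, BM x y = 0) → ∃ z, x = (p : ℤ) • z)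
    (hBLs : ∀ x y, BL x y = - BL y x) (hBMs : ∀ x y, BM x y = - BM y x)
    (f : L →ₗ[ℤ] M) (g : M →ₗ[ℤ] L) (hadj : ∀ x y, BM (f x) y = BL x (g y))
    (v : L) (hv : ∀ k : L, (∃ m, f k = (p : ℤ) • m) → BL k v = 0) :
    ∃ (w : M) (z : L), v = g w + (p : ℤ) • z := by
  classical
  have hf : pSub p L ≤ (pSub p M).comap f := by
    intro x hx
    obtain ⟨z, rfl⟩ := mem_pSub.1 hx
    exact mem_pSub.2 ⟨f z, by simp⟩
  let fbar : (L ⧸ pSub p L) →ₗ[ZMod p] (M ⧸ pSub p M) :=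
    ((pSub p L).mapQ (pSub p M) f hf).toAddMonoidHom.toZModLinearMap p
  have fbar_mk : ∀ x : L, fbar (Submodule.Quotient.mk x) = Submodule.Quotient.mk (f x) :=
    fun x => rfl
  let φ : Module.Dual (ZMod p) (L ⧸ pSub p L) := barFun (BL.flip v)
  have hφ : φ ∈ (LinearMap.ker fbar).dualAnnihilator := by
    rw [Submodule.mem_dualAnnihilator]
    intro k hk
    induction k using Submodule.Quotient.induction_on with
    | H k =>
      rw [LinearMap.mem_ker, fbar_mk, Submodule.Quotient.mk_eq_zero] at hk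
      exact hv k (mem_pSub.1 hk)
  rw [← LinearMap.range_dualMap_eq_dualAnnihilator_ker] at hφ
  obtain ⟨ψ, hψ⟩ := hφ
  -- the map `w ↦ BM(·, w)` from `M / pM` to its dual
  let J₀ : M →ₗ[ℤ] Module.Dual (ZMod p) (M ⧸ pSub p M) :=
    (AddMonoidHom.mk' (fun w => barFun (BM.flip w)) (by
      intro w₁ w₂
      refine LinearMap.ext fun u => ?_
      induction u using Submodule.Quotient.induction_on with
      | H u => simp)).toIntLinearMap
  have hJ₀ : ∀ w u, J₀ w (Submodule.Quotient.mk u) = BM u w := fun w u => rfl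
  have hJ₀ker : pSub p M ≤ LinearMap.ker J₀ := by
    intro w hw
    obtain ⟨z, rfl⟩ := mem_pSub.1 hw
    rw [LinearMap.mem_ker]
    refine LinearMap.ext fun u => ?_
    induction u using Submodule.Quotient.induction_on with
    | H u => rw [hJ₀]; simp
  let J : (M ⧸ pSub p M) →ₗ[ZMod p] Module.Dual (ZMod p) (M ⧸ pSub p M) :=
    ((pSub p M).liftQ J₀ hJ₀ker).toAddMonoidHom.toZModLinearMap p
  have hJ : ∀ w u, J (Submodule.Quotient.mk w) (Submodule.Quotient.mk u) = BM u w :=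
    fun w u => rfl
  have hJinj : Function.Injective J := by
    rw [injective_iff_map_eq_zero]
    intro w hw
    induction w using Submodule.Quotient.induction_on with
    | H w =>
      rw [Submodule.Quotient.mk_eq_zero]
      refine mem_pSub.2 (hBM w fun y => ?_)
      have h1 : J (Submodule.Quotient.mk w) (Submodule.Quotient.mk y) = 0 := by rw [hw]; rfl
      rw [hJ] at h1
      rw [hBMs, h1, neg_zero]
  have hJsurj : Function.Surjective J :=
    (LinearMap.injective_iff_surjective_of_finrank_eq_finrank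
      (Subspace.dual_finrank_eq (K := ZMod p) (V := M ⧸ pSub p M)).symm).1 hJinj
  obtain ⟨w', hw'⟩ := hJsurj ψ
  obtain ⟨w, rfl⟩ := Submodule.Quotient.mk_surjective _ w'
  refine ⟨w, ?_⟩
  have key : ∀ u, BL (v - g w) u = 0 := by
    intro u
    have h1 : BL u v = BM (f u) w := by
      have h2 : φ (Submodule.Quotient.mk u) = ψ (fbar (Submodule.Quotient.mk u)) := by
        rw [← hψ]; rfl
      rw [fbar_mk, ← hw', hJ] at h2
      exact h2
    rw [map_sub, LinearMap.sub_apply, hBLs v u, hBLs (g w) u, h1, hadj]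
    simp
  obtain ⟨z, hz⟩ := hBL _ key
  exact ⟨z, by rw [← hz]; abel⟩

end Dual

section Noeth

/-- In a finitely generated abelian group, an element that is `p`-torsion modulo a subgroup `U`
and lies in `U + p ^ n A` for every `n` lies in `U`. -/
theorem mem_of_forall_pow {A : Type*} [AddCommGroup A] [Module.Finite ℤ A] (U : Submodule ℤ A)
    (p : ℤ) (z : A) (hz : p • z ∈ U) (h : ∀ n : ℕ, ∃ u ∈ U, ∃ r : A, z = u + p ^ n • r) :
    z ∈ U := by
  let T : ℕ →o Submodule ℤ A :=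
    ⟨fun k => U.comap (LinearMap.lsmul ℤ A (p ^ k)), by
      intro k k' hkk' x hx
      simp only [Submodule.mem_comap, LinearMap.lsmul_apply] at hx ⊢
      obtain ⟨j, rfl⟩ := Nat.exists_eq_add_of_le hkk'
      rw [pow_add, mul_comm, mul_smul]
      exact U.smul_mem _ hx⟩
  have hT : ∀ k x, x ∈ T k ↔ p ^ k • x ∈ U := fun k x => Iff.rfl
  obtain ⟨n, hn⟩ := monotone_stabilizes_iff_noetherian.2 (inferInstance : IsNoetherian ℤ A) T
  obtain ⟨u, hu, r, hr⟩ := h (n + 1)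
  have hzT : z ∈ T (n + 1) := by
    rw [hT, pow_succ, mul_smul]
    exact U.smul_mem _ hz
  have huT : u ∈ T (n + 1) := by
    rw [hT]
    exact U.smul_mem _ hu
  have hrT : p ^ (n + 1) • r ∈ T (n + 1) := by
    have : p ^ (n + 1) • r = z - u := by rw [hr]; abel
    rw [this]
    exact (T (n + 1)).sub_mem hzT huT
  have hr2 : r ∈ T (n + 1 + (n + 1)) := by
    rw [hT, pow_add, mul_smul]
    exact (hT _ _).1 hrT
  have hr1 : r ∈ T (n + 1) := by
    rw [← hn (n + 1) (by omega), hn (n + 1 + (n + 1)) (by omega)]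
    exact hr2
  rw [hr]
  exact U.add_mem hu ((hT _ _).1 hr1)

/-- The abstract "θ-part of the cokernel vanishes" step. -/
theorem mem_of_coprime_eigen {A : Type*} [AddCommGroup A] [Module.Finite ℤ A] (U : Submodule ℤ A)
    (p : ℤ) (s : A →ₗ[ℤ] A) (hsU : ∀ x ∈ U, s x ∈ U)
    (hsA : ∀ x : A, ∃ u ∈ U, ∃ r : A, s x = u + p • r)
    (z : A) (hz : p • z ∈ U) (d : ℤ) (hd : s z - d • z ∈ U) (hcop : IsCoprime d p) : z ∈ U := by
  refine mem_of_forall_pow U p z hz fun n => ?_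
  induction n with
  | zero => exact ⟨0, U.zero_mem, z, by simp⟩
  | succ n ih =>
    obtain ⟨u, hu, r, hr⟩ := ih
    obtain ⟨u', hu', r', hr'⟩ := hsA r
    obtain ⟨a, b, hab⟩ := IsCoprime.pow_right (n := n + 1) hcop
    -- `d • z = u₂ + p ^ (n + 1) • r'`
    have hsz : s z = (s u + p ^ n • u') + p ^ (n + 1) • r' := by
      conv_lhs => rw [hr]
      rw [map_add, map_smul, hr', smul_add, smul_smul, ← pow_succ]
      abel
    obtain ⟨X, hX, hdz⟩ : ∃ X ∈ U, d • z = X + p ^ (n + 1) • r' := by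
      refine ⟨s u + p ^ n • u' - (s z - d • z), ?_, ?_⟩
      · exact U.sub_mem (U.add_mem (hsU u hu) (U.smul_mem _ hu')) hd
      · rw [hsz]; abel
    refine ⟨a • X + (b * p ^ n) • (p • z), U.add_mem (U.smul_mem _ hX) (U.smul_mem _ hz),
      a • r', ?_⟩
    have h1 : z = a • (d • z) + (b * p ^ n) • (p • z) := by
      rw [smul_smul, smul_smul, ← add_smul, mul_assoc, ← pow_succ, hab, one_smul]
    have h2 : z = a • (X + p ^ (n + 1) • r') + (b * p ^ n) • (p • z) := by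
      rw [← hdz]; exact h1
    rw [smul_add, smul_comm a (p ^ (n + 1)) r'] at h2
    exact h2.trans (add_right_comm _ _ _)

end Noeth

section Main

set_option linter.unusedVariables false in
/-- **[ALG] Abstract level raising** (pure linear algebra; statement verbatim from the S41 plan).
The witness is explicit: `y = α₁ x₀ + α₂ (lam • x₀) - p • m'`. -/
theorem exists_new_eigenvector_mod_p
    {p : ℕ} [Fact p.Prime] {P : Type*}
    {L M : Type*} [AddCommGroup L] [Module.Free ℤ L] [Module.Finite ℤ L]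
    [AddCommGroup M] [Module.Free ℤ M] [Module.Finite ℤ M]
    (tL : P → Module.End ℤ L) (tM : P → Module.End ℤ M) (Tq : Module.End ℤ L)
    (htL : ∀ i j, Commute (tL i) (tL j)) (htM : ∀ i j, Commute (tM i) (tM j))
    (hTq : ∀ i, Commute Tq (tL i))
    (α₁ α₂ : L →ₗ[ℤ] M) (β₁ β₂ : M →ₗ[ℤ] L)
    (hα₁ : ∀ i x, α₁ (tL i x) = tM i (α₁ x)) (hα₂ : ∀ i x, α₂ (tL i x) = tM i (α₂ x))
    (hβ₁ : ∀ i y, β₁ (tM i y) = tL i (β₁ y)) (hβ₂ : ∀ i y, β₂ (tM i y) = tL i (β₂ y))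
    (c : ℤ)
    (h11 : ∀ x, β₁ (α₁ x) = c • x) (h22 : ∀ x, β₂ (α₂ x) = c • x)
    (h12 : ∀ x, β₁ (α₂ x) = Tq x) (h21 : ∀ x, β₂ (α₁ x) = Tq x)
    (BL : L →ₗ[ℤ] L →ₗ[ℤ] ZMod p) (BM : M →ₗ[ℤ] M →ₗ[ℤ] ZMod p)
    (hBL : ∀ x, (∀ y, BL x y = 0) → ∃ z, x = (p : ℤ) • z)
    (hBM : ∀ x, (∀ y, BM x y = 0) → ∃ z, x = (p : ℤ) • z)
    (hBLs : ∀ x y, BL x y = - BL y x) (hBMs : ∀ x y, BM x y = - BM y x)
    (hadj₁ : ∀ x y, BM (α₁ x) y = BL x (β₁ y)) (hadj₂ : ∀ x y, BM (α₂ x) y = BL x (β₂ y))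
    (hsaL : ∀ i x y, BL (tL i x) y = BL x (tL i y)) (hsaM : ∀ i x y, BM (tM i x) y = BM x (tM i y))
    (θ : P → ℤ) (a : ℤ) (ha : (p : ℤ) ∣ a ^ 2 - c ^ 2)
    (x₀ : L) (hx₀ : ¬ ∃ z, x₀ = (p : ℤ) • z)
    (hx₀θ : ∀ i, ∃ z, tL i x₀ - θ i • x₀ = (p : ℤ) • z) (hx₀q : ∃ z, Tq x₀ - a • x₀ = (p : ℤ) • z)
    (i₀ : P) (e : ℤ)
    (hIh : ∀ x y : L, (∃ m, α₁ x + α₂ y = (p : ℤ) • m) →
      (∃ z, tL i₀ x - e • x = (p : ℤ) • z) ∧ (∃ z, tL i₀ y - e • y = (p : ℤ) • z))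
    (hNE : ¬ (p : ℤ) ∣ θ i₀ - e) :
    ∃ y : M, β₁ y = 0 ∧ β₂ y = 0 ∧ (¬ ∃ z, y = (p : ℤ) • z) ∧
      ∀ i, ∃ z, tM i y - θ i • y = (p : ℤ) • z := by
  classical
  have hp : p.Prime := Fact.out
  have hpZ : Prime (p : ℤ) := Nat.prime_iff_prime_int.mp hp
  have hp0 : (p : ℤ) ≠ 0 := hpZ.ne_zero
  have hcop : IsCoprime (θ i₀ - e) (p : ℤ) :=
    (hpZ.irreducible.coprime_iff_not_dvd.2 hNE).symm
  -- the auxiliary scalar `lam`
  obtain ⟨lam, k₁, k₂, hk₁, hk₂⟩ : ∃ lam k₁ k₂ : ℤ, c + lam * a = p * k₁ ∧ a + lam * c = p * k₂ := by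
    by_cases hc : (p : ℤ) ∣ c
    · have h2 : (p : ℤ) ∣ a ^ 2 := by
        have := dvd_add ha (dvd_pow hc two_ne_zero)
        simpa using this
      obtain ⟨k₂, hk₂⟩ := hpZ.dvd_of_dvd_pow h2
      obtain ⟨k₁, hk₁⟩ := hc
      exact ⟨0, k₁, k₂, by simpa using hk₁, by simpa using hk₂⟩
    · obtain ⟨u, v, huv⟩ := (hpZ.irreducible.coprime_iff_not_dvd.2 hc).symm
      -- `u * c + v * p = 1`
      have h2 : (p : ℤ) ∣ a + (-a * u) * c := ⟨a * v, by linear_combination (-a) * huv⟩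
      have h1 : (p : ℤ) ∣ c * (c + (-a * u) * a) := by
        obtain ⟨w, hw⟩ := ha
        exact ⟨-w + a ^ 2 * v, by linear_combination (-1 : ℤ) * hw - a ^ 2 * huv⟩
      obtain ⟨k₁, hk₁⟩ := (hpZ.dvd_or_dvd h1).resolve_left hc
      obtain ⟨k₂, hk₂⟩ := h2
      exact ⟨-a * u, k₁, k₂, hk₁, hk₂⟩
  obtain ⟨zq, hzq⟩ := hx₀q
  have hTqx₀ : Tq x₀ = a • x₀ + (p : ℤ) • zq := by rw [← hzq]; abel
  -- the combined maps on `L × L`
  let αα : L × L →ₗ[ℤ] M := α₁.coprod α₂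
  let ββ : M →ₗ[ℤ] L × L := β₁.prod β₂
  have hαα : ∀ x : L × L, αα x = α₁ x.1 + α₂ x.2 := fun x => rfl
  have hββ : ∀ m : M, ββ m = (β₁ m, β₂ m) := fun m => rfl
  let v₀ : L × L := (x₀, lam • x₀)
  let z₀ : L × L := (k₁ • x₀ + lam • zq, k₂ • x₀ + zq)
  have hz₀ : ββ (αα v₀) = (p : ℤ) • z₀ := by
    rw [hββ, hαα]
    simp only [v₀, z₀, map_add, map_smul, h11, h12, h21, h22, hTqx₀, Prod.smul_mk, smul_add,
      smul_smul]
    refine Prod.ext ?_ ?_
    · dsimp only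
      rw [← add_assoc, ← add_smul, hk₁, mul_comm lam]
    · dsimp only
      rw [add_right_comm, ← add_smul, hk₂]
  -- eigen-relations for `αα v₀`
  have hE : ∀ i, ∃ R : L × L, tM i (αα v₀) - θ i • αα v₀ = (p : ℤ) • αα R := by
    intro i
    obtain ⟨r, hr⟩ := hx₀θ i
    refine ⟨(r, lam • r), ?_⟩
    simp only [hαα, v₀, map_add, map_smul, ← hα₁, ← hα₂, smul_add]
    have h1 : tL i x₀ = θ i • x₀ + (p : ℤ) • r := by rw [← hr]; abel
    rw [h1]
    simp only [map_add, map_smul, smul_add, smul_comm (p : ℤ) lam, smul_comm (θ i) lam]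
    abel
  -- the operator `tL i₀ - e` on `L × L`
  let s : L × L →ₗ[ℤ] L × L :=
    (tL i₀ - e • LinearMap.id).prodMap (tL i₀ - e • LinearMap.id)
  have hs : ∀ x : L × L, s x = (tL i₀ x.1 - e • x.1, tL i₀ x.2 - e • x.2) := fun x => rfl
  -- the pairing on `L × L`
  let BLL : (L × L) →ₗ[ℤ] (L × L) →ₗ[ℤ] ZMod p :=
    BL.compl₁₂ (LinearMap.fst ℤ L L) (LinearMap.fst ℤ L L) +
      BL.compl₁₂ (LinearMap.snd ℤ L L) (LinearMap.snd ℤ L L)
  have hBLL : ∀ x y : L × L, BLL x y = BL x.1 y.1 + BL x.2 y.2 := fun x y => rfl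
  -- Step A: duality
  have hsA : ∀ x : L × L, ∃ u ∈ LinearMap.range ββ, ∃ r : L × L, s x = u + (p : ℤ) • r := by
    intro x
    obtain ⟨w, z, hwz⟩ := exists_eq_add_of_orth (p := p) BLL BM
      (by
        intro x hx
        obtain ⟨z₁, hz₁⟩ := hBL x.1 (fun y => by simpa [hBLL] using hx (y, 0))
        obtain ⟨z₂, hz₂⟩ := hBL x.2 (fun y => by simpa [hBLL] using hx (0, y))
        exact ⟨(z₁, z₂), Prod.ext hz₁ hz₂⟩)
      hBM
      (by intro x y; rw [hBLL, hBLL, hBLs x.1, hBLs x.2]; ring)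
      hBMs αα ββ
      (by intro x y; rw [hαα, hBLL, map_add, LinearMap.add_apply, hadj₁, hadj₂, hββ])
      (s x)
      (by
        rintro k ⟨m, hm⟩
        obtain ⟨⟨z₁, hz₁⟩, ⟨z₂, hz₂⟩⟩ := hIh k.1 k.2 ⟨m, by rw [← hαα]; exact hm⟩
        have key : ∀ (k' x' z' : L), tL i₀ k' - e • k' = (p : ℤ) • z' →
            BL k' (tL i₀ x' - e • x') = 0 := by
          intro k' x' z' hz'
          rw [map_sub, map_smul, ← hsaL, ← LinearMap.smul_apply, ← map_smul, ← LinearMap.sub_apply,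
            ← map_sub, hz', map_smul, LinearMap.smul_apply]
          simp
        rw [hBLL, hs, key _ _ _ hz₁, key _ _ _ hz₂, add_zero])
    exact ⟨ββ w, ⟨w, rfl⟩, z, hwz⟩
  have hsU : ∀ x ∈ LinearMap.range ββ, s x ∈ LinearMap.range ββ := by
    rintro _ ⟨m, rfl⟩
    refine ⟨tM i₀ m - e • m, ?_⟩
    rw [hs, hββ, hββ]
    simp only [map_sub, map_smul, hβ₁, hβ₂]
  have hpz : (p : ℤ) • z₀ ∈ LinearMap.range ββ := ⟨αα v₀, hz₀⟩
  have hd : s z₀ - (θ i₀ - e) • z₀ ∈ LinearMap.range ββ := by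
    obtain ⟨R, hR⟩ := hE i₀
    refine ⟨αα R, ?_⟩
    have h1 : (p : ℤ) • (s z₀ - (θ i₀ - e) • z₀) = (p : ℤ) • ββ (αα R) := by
      rw [← map_smul, ← hR, smul_sub, ← map_smul, smul_comm, ← hz₀]
      rw [map_sub, map_smul, hs, hββ, hββ]
      refine Prod.ext ?_ ?_
      · simp only [hβ₁, Prod.fst_sub, Prod.smul_fst, sub_smul]
        abel
      · simp only [hβ₂, Prod.snd_sub, Prod.smul_snd, sub_smul]
        abel
    exact (smul_right_injective (L × L) hp0 h1).symm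
  obtain ⟨m', hm'⟩ := mem_of_coprime_eigen (LinearMap.range ββ) (p : ℤ) s hsU hsA z₀ hpz
    (θ i₀ - e) hd hcop
  -- Step D: the witness
  have hβy : ββ (αα v₀ - (p : ℤ) • m') = 0 := by
    rw [map_sub, map_smul, hm', hz₀, sub_self]
  refine ⟨αα v₀ - (p : ℤ) • m', ?_, ?_, ?_, ?_⟩
  · exact congrArg Prod.fst hβy
  · exact congrArg Prod.snd hβy
  · rintro ⟨z, hz⟩
    have h1 : α₁ x₀ + α₂ (lam • x₀) = (p : ℤ) • (z + m') := by
      have : αα v₀ = (p : ℤ) • z + (p : ℤ) • m' := by rw [← hz]; abel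
      rw [smul_add, ← this]
      rfl
    obtain ⟨⟨z', hz'⟩, -⟩ := hIh x₀ (lam • x₀) ⟨_, h1⟩
    obtain ⟨r, hr⟩ := hx₀θ i₀
    obtain ⟨u, v, huv⟩ := hcop
    apply hx₀
    refine ⟨u • (z' - r) + v • x₀, ?_⟩
    have h2 : (θ i₀ - e) • x₀ = (p : ℤ) • (z' - r) := by
      rw [smul_sub, ← hz', ← hr, sub_smul]; abel
    calc x₀ = (u * (θ i₀ - e) + v * p) • x₀ := by rw [huv, one_smul]
      _ = u • ((θ i₀ - e) • x₀) + (v * p) • x₀ := by rw [add_smul, mul_smul]
      _ = _ := by rw [h2, smul_add, smul_comm u, mul_comm, mul_smul]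
  · intro i
    obtain ⟨R, hR⟩ := hE i
    refine ⟨αα R - (tM i m' - θ i • m'), ?_⟩
    rw [map_sub, map_smul, smul_sub, smul_sub (p : ℤ), ← hR, smul_sub, smul_comm (θ i) (p : ℤ)]
    abel

end Main

end Fermat.Agent.S41.AlgB
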