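import Mathlib

/-!
# S41, block [ALG], strong form

`exists_new_eigenvector_mod_p_strong` is the abstract level-raising statement of
`Fermat/Agent/S41/Alg.lean` with the five hypotheses that its proof never uses
(`htL`, `htM`, `hTq`, `hBMs`, `hsaM`) deleted.  Everything else is verbatim, same binder order.
The file is self-contained (Mathlib only); the two abstract lemmas are repeated here under
this namespace.
-/

namespace Fermat.Agent.S41.AlgS

open scoped TensorProduct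

/-- Torsion lifting.  `N ≤ A` stable under `s`, `s A ⊆ N + p A`, `p z ∈ N`, `z` an eigenvector of
`s` modulo `N` with eigenvalue `d` prime to `p`.  Then `z ∈ N`. -/
theorem mem_of_smul_mem_of_eigen {A : Type*} [AddCommGroup A] [IsNoetherian ℤ A]
    (N : Submodule ℤ A) (s : A →ₗ[ℤ] A) (p d : ℤ) (hdp : IsCoprime d p)
    (hsN : ∀ a ∈ N, s a ∈ N)
    (h3 : ∀ a, ∃ n ∈ N, ∃ a', s a = n + p • a')
    (z : A) (hpz : p • z ∈ N) (hsz : s z - d • z ∈ N) : z ∈ N := by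
  -- the ascending chain `T k = {a | p ^ k • a ∈ N}`
  let T : ℕ →o Submodule ℤ A :=
    { toFun := fun k => N.comap ((p ^ k) • (LinearMap.id : A →ₗ[ℤ] A))
      monotone' := by
        apply monotone_nat_of_le_succ
        intro k a ha
        simp only [Submodule.mem_comap, LinearMap.smul_apply, LinearMap.id_coe, id_eq] at ha ⊢
        rw [pow_succ, mul_comm, mul_smul]
        exact N.smul_mem p ha }
  have memT : ∀ k a, a ∈ T k ↔ p ^ k • a ∈ N := by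
    intro k a
    exact Iff.rfl
  obtain ⟨n, hn⟩ := monotone_stabilizes_iff_noetherian.mpr inferInstance T
  -- `s T ⊆ N + p T`
  have hc : ∀ a, p ^ n • a ∈ N → ∃ n₁ ∈ N, ∃ a', p ^ n • a' ∈ N ∧ s a = n₁ + p • a' := by
    intro a ha
    obtain ⟨n₁, hn₁, a', ha'⟩ := h3 a
    refine ⟨n₁, hn₁, a', ?_, ha'⟩
    have h1 : p ^ n • s a ∈ N := by
      rw [← map_smul]; exact hsN _ ha
    have h2 : p ^ (n + 1) • a' ∈ N := by
      have : p ^ (n + 1) • a' = p ^ n • s a - p ^ n • n₁ := by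
        rw [ha', smul_add, add_sub_cancel_left, pow_succ, mul_smul]
      rw [this]
      exact N.sub_mem h1 (N.smul_mem _ hn₁)
    have h3' : a' ∈ T (n + 1) := (memT _ _).2 h2
    rw [← hn (n + 1) (Nat.le_succ n)] at h3'
    exact (memT _ _).1 h3'
  -- iterate
  have hiter : ∀ j : ℕ, ∀ a, p ^ n • a ∈ N →
      ∃ n₁ ∈ N, ∃ a', p ^ n • a' ∈ N ∧ (s ^ j) a = n₁ + p ^ j • a' := by
    intro j
    induction j with
    | zero =>
      intro a ha
      exact ⟨0, N.zero_mem, a, ha, by simp⟩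
    | succ j ih =>
      intro a ha
      obtain ⟨n₁, hn₁, a₁, ha₁, h1⟩ := ih a ha
      obtain ⟨n₂, hn₂, a₂, ha₂, h2⟩ := hc a₁ ha₁
      refine ⟨s n₁ + p ^ j • n₂, N.add_mem (hsN _ hn₁) (N.smul_mem _ hn₂), a₂, ha₂, ?_⟩
      rw [pow_succ', Module.End.mul_apply, h1, map_add, map_smul, h2, smul_add, pow_succ,
        mul_smul, add_assoc]
  -- `s ^ j` preserves `N`
  have hsNj : ∀ j : ℕ, ∀ a ∈ N, (s ^ j) a ∈ N := by
    intro j
    induction j with
    | zero => intro a ha; simpa using ha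
    | succ j ih =>
      intro a ha
      rw [pow_succ, Module.End.mul_apply]
      exact ih _ (hsN _ ha)
  -- `s ^ j z ≡ d ^ j z` modulo `N`
  have heig : ∀ j : ℕ, (s ^ j) z - d ^ j • z ∈ N := by
    intro j
    induction j with
    | zero => simp
    | succ j ih =>
      have : (s ^ (j + 1)) z - d ^ (j + 1) • z
          = (s ^ j) (s z - d • z) + d • ((s ^ j) z - d ^ j • z) := by
        rw [pow_succ, Module.End.mul_apply, map_sub, map_smul, smul_sub, smul_smul,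
          ← pow_succ']
        abel
      rw [this]
      exact N.add_mem (hsNj j _ hsz) (N.smul_mem _ ih)
  -- `z ∈ T n`
  have hzT : p ^ n • z ∈ N := by
    have h1 : z ∈ T 1 := (memT _ _).2 (by simpa using hpz)
    have h2 : z ∈ T (n + 1) := T.monotone (Nat.le_add_left 1 n) h1
    rw [← hn (n + 1) (Nat.le_succ n)] at h2
    exact (memT _ _).1 h2
  obtain ⟨n₁, hn₁, a', ha', h1⟩ := hiter n z hzT
  have h4 : (s ^ n) z ∈ N := by
    rw [h1]; exact N.add_mem hn₁ ha'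
  have h5 : d ^ n • z ∈ N := by
    have := N.sub_mem h4 (heig n)
    simpa using this
  obtain ⟨u, v, huv⟩ := (hdp.pow_left (m := n))
  have : z = u • (d ^ n • z) + v • (p • z) := by
    rw [smul_smul, smul_smul, ← add_smul, huv, one_smul]
  rw [this]
  exact N.add_mem (N.smul_mem _ h5) (N.smul_mem _ hpz)

/-- Mod-`p` duality.  `B` a skew pairing on a finite `ℤ`-module `A` with values in `ZMod p` whose
kernel is `p A`; `U ⊇ p A` a submodule.  If `a` is orthogonal to everything orthogonal to `U`, then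
`a ∈ U`. -/
theorem mem_of_orthogonal {p : ℕ} [Fact p.Prime] {A : Type*} [AddCommGroup A] [Module.Finite ℤ A]
    (B : A →ₗ[ℤ] A →ₗ[ℤ] ZMod p)
    (hB : ∀ x, (∀ y, B x y = 0) → ∃ z, x = (p : ℤ) • z)
    (hBs : ∀ x y, B x y = - B y x)
    (U : Submodule ℤ A) (hU : ∀ z : A, (p : ℤ) • z ∈ U)
    (a : A) (ha : ∀ n, (∀ u ∈ U, B u n = 0) → B a n = 0) : a ∈ U := by
  let red : A →ₗ[ℤ] ZMod p ⊗[ℤ] A := TensorProduct.mk ℤ (ZMod p) A 1
  have hred : Function.Surjective red := by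
    intro v
    induction v using TensorProduct.induction_on with
    | zero => exact ⟨0, map_zero _⟩
    | tmul c x =>
      obtain ⟨k, rfl⟩ := ZMod.intCast_surjective c
      refine ⟨k • x, ?_⟩
      show (1 : ZMod p) ⊗ₜ[ℤ] (k • x) = (k : ZMod p) ⊗ₜ[ℤ] x
      rw [← TensorProduct.smul_tmul]
      simp
    | add v w hv hw =>
      obtain ⟨x, rfl⟩ := hv
      obtain ⟨y, rfl⟩ := hw
      exact ⟨x + y, map_add _ _ _⟩
  let Bbar : LinearMap.BilinForm (ZMod p) (ZMod p ⊗[ℤ] A) :=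
    LinearMap.liftBaseChange (ZMod p)
      (((LinearMap.liftBaseChangeEquiv (R := ℤ) (M := A) (N := ZMod p) (ZMod p)).toLinearMap.restrictScalars ℤ) ∘ₗ B)
  have hBbar : ∀ x y, Bbar (red x) (red y) = B x y := by
    intro x y
    show ((1 : ZMod p) • (LinearMap.liftBaseChange (ZMod p) (B x))) ((1 : ZMod p) ⊗ₜ[ℤ] y) = B x y
    rw [one_smul, LinearMap.liftBaseChange_tmul, one_smul]
  have hrefl : Bbar.IsRefl := by
    intro v w h
    obtain ⟨x, rfl⟩ := hred v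
    obtain ⟨y, rfl⟩ := hred w
    rw [hBbar] at h ⊢
    rw [hBs, h, neg_zero]
  have hker : ∀ x, (∀ y, B x y = 0) → red x = 0 := by
    intro x hx
    obtain ⟨z, rfl⟩ := hB x hx
    show (1 : ZMod p) ⊗ₜ[ℤ] ((p : ℤ) • z) = 0
    rw [← TensorProduct.smul_tmul]
    simp
  have hnd : Bbar.Nondegenerate := by
    rw [LinearMap.BilinForm.Nondegenerate, LinearMap.IsRefl.nondegenerate_iff_separatingLeft hrefl]
    intro v hv
    obtain ⟨x, rfl⟩ := hred v
    apply hker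
    intro y
    rw [← hBbar]
    exact hv _
  -- the image of `U`
  let U' : Submodule (ZMod p) (ZMod p ⊗[ℤ] A) := Submodule.span (ZMod p) (red '' U)
  have hU' : ∀ v ∈ U', ∃ u ∈ U, red u = v := by
    intro v hv
    induction hv using Submodule.span_induction with
    | mem v hv => obtain ⟨u, hu, rfl⟩ := hv; exact ⟨u, hu, rfl⟩
    | zero => exact ⟨0, U.zero_mem, map_zero _⟩
    | add v w _ _ hv hw =>
      obtain ⟨x, hx, rfl⟩ := hv
      obtain ⟨y, hy, rfl⟩ := hw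
      exact ⟨x + y, U.add_mem hx hy, map_add _ _ _⟩
    | smul c v _ hv =>
      obtain ⟨x, hx, rfl⟩ := hv
      obtain ⟨k, rfl⟩ := ZMod.intCast_surjective c
      refine ⟨k • x, U.smul_mem _ hx, ?_⟩
      rw [map_smul, Int.cast_smul_eq_zsmul]
  have hmem : red a ∈ Bbar.orthogonal (Bbar.orthogonal U') := by
    rw [LinearMap.BilinForm.mem_orthogonal_iff]
    intro w hw
    obtain ⟨y, rfl⟩ := hred w
    show Bbar (red y) (red a) = 0
    rw [hBbar, hBs, neg_eq_zero]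
    apply ha
    intro u hu
    rw [← hBbar]
    exact (LinearMap.BilinForm.mem_orthogonal_iff.1 hw) (red u) (Submodule.subset_span ⟨u, hu, rfl⟩)
  rw [LinearMap.BilinForm.orthogonal_orthogonal hnd hrefl] at hmem
  obtain ⟨u, hu, hua⟩ := hU' _ hmem
  obtain ⟨z, hz⟩ := hB (a - u) (by
    intro y
    rw [← hBbar, map_sub, hua, sub_self, map_zero, LinearMap.zero_apply])
  have : a = u + (p : ℤ) • z := by rw [← hz]; abel
  rw [this]
  exact U.add_mem hu (hU z)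

/-- Block [ALG] of S41, strong form: abstract level raising without the commutativity
hypotheses, without skewness of `BM` and without self-adjointness on `M`. -/
theorem exists_new_eigenvector_mod_p_strong
    {p : ℕ} [Fact p.Prime] {P : Type*}
    {L M : Type*} [AddCommGroup L] [Module.Free ℤ L] [Module.Finite ℤ L]
    [AddCommGroup M] [Module.Free ℤ M] [Module.Finite ℤ M]
    (tL : P → Module.End ℤ L) (tM : P → Module.End ℤ M) (Tq : Module.End ℤ L)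
    (α₁ α₂ : L →ₗ[ℤ] M) (β₁ β₂ : M →ₗ[ℤ] L)
    (hα₁ : ∀ i x, α₁ (tL i x) = tM i (α₁ x)) (hα₂ : ∀ i x, α₂ (tL i x) = tM i (α₂ x))
    (hβ₁ : ∀ i y, β₁ (tM i y) = tL i (β₁ y)) (hβ₂ : ∀ i y, β₂ (tM i y) = tL i (β₂ y))
    (c : ℤ)
    (h11 : ∀ x, β₁ (α₁ x) = c • x) (h22 : ∀ x, β₂ (α₂ x) = c • x)
    (h12 : ∀ x, β₁ (α₂ x) = Tq x) (h21 : ∀ x, β₂ (α₁ x) = Tq x)
    (BL : L →ₗ[ℤ] L →ₗ[ℤ] ZMod p) (BM : M →ₗ[ℤ] M →ₗ[ℤ] ZMod p)
    (hBL : ∀ x, (∀ y, BL x y = 0) → ∃ z, x = (p : ℤ) • z)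
    (hBM : ∀ x, (∀ y, BM x y = 0) → ∃ z, x = (p : ℤ) • z)
    (hBLs : ∀ x y, BL x y = - BL y x)
    (hadj₁ : ∀ x y, BM (α₁ x) y = BL x (β₁ y)) (hadj₂ : ∀ x y, BM (α₂ x) y = BL x (β₂ y))
    (hsaL : ∀ i x y, BL (tL i x) y = BL x (tL i y))
    (θ : P → ℤ) (a : ℤ) (ha : (p : ℤ) ∣ a ^ 2 - c ^ 2)
    (x₀ : L) (hx₀ : ¬ ∃ z, x₀ = (p : ℤ) • z)
    (hx₀θ : ∀ i, ∃ z, tL i x₀ - θ i • x₀ = (p : ℤ) • z) (hx₀q : ∃ z, Tq x₀ - a • x₀ = (p : ℤ) • z)
    (i₀ : P) (e : ℤ)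
    (hIh : ∀ x y : L, (∃ m, α₁ x + α₂ y = (p : ℤ) • m) →
      (∃ z, tL i₀ x - e • x = (p : ℤ) • z) ∧ (∃ z, tL i₀ y - e • y = (p : ℤ) • z))
    (hNE : ¬ (p : ℤ) ∣ θ i₀ - e) :
    ∃ y : M, β₁ y = 0 ∧ β₂ y = 0 ∧ (¬ ∃ z, y = (p : ℤ) • z) ∧
      ∀ i, ∃ z, tM i y - θ i • y = (p : ℤ) • z := by
  have hp : p.Prime := Fact.out
  have hpZ : Prime (p : ℤ) := Nat.prime_iff_prime_int.mp hp
  have hp0 : (p : ℤ) ≠ 0 := hpZ.ne_zero
  have hpsmul : ∀ t : ZMod p, (p : ℤ) • t = 0 := by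
    intro t
    rw [zsmul_eq_mul, Int.cast_natCast, ZMod.natCast_self, zero_mul]
  have hcop : IsCoprime (θ i₀ - e) (p : ℤ) := (hpZ.coprime_iff_not_dvd.2 hNE).symm
  -- the integer `lam`
  obtain ⟨lam, ⟨k₁, hk₁⟩, ⟨k₂, hk₂⟩⟩ :
      ∃ lam : ℤ, (p : ℤ) ∣ c * lam + a ∧ (p : ℤ) ∣ a * lam + c := by
    by_cases hc : (p : ℤ) ∣ c
    · refine ⟨0, ?_, ?_⟩
      · have h2 : (p : ℤ) ∣ a ^ 2 := by
          have h3 : (p : ℤ) ∣ c ^ 2 := dvd_pow hc two_ne_zero
          simpa using dvd_add ha h3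
        simpa using hpZ.dvd_of_dvd_pow h2
      · simpa using hc
    · obtain ⟨u, v, huv⟩ := (hpZ.coprime_iff_not_dvd.2 hc).symm
      obtain ⟨k, hk⟩ := ha
      refine ⟨-(a * u), ⟨a * v, by linear_combination (-a) * huv⟩,
        ⟨c * v - k * u, by linear_combination (-c) * huv - u * hk⟩⟩
  obtain ⟨zq, hzq⟩ := hx₀q
  have hTq0 : Tq x₀ = a • x₀ + (p : ℤ) • zq := by rw [← hzq]; abel
  -- the candidate
  set m₀ : M := α₁ x₀ + α₂ (lam • x₀) with hm₀
  set z₁ : L := k₂ • x₀ + lam • zq with hz₁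
  set z₂ : L := k₁ • x₀ + zq with hz₂
  have hβ₁m₀ : β₁ m₀ = (p : ℤ) • z₁ := by
    rw [hm₀, map_add, h11, h12, map_smul, hTq0, hz₁]
    have : c • x₀ + lam • (a • x₀ + (p : ℤ) • zq) = (a * lam + c) • x₀ + (p : ℤ) • lam • zq := by
      module
    rw [this, hk₂]
    module
  have hβ₂m₀ : β₂ m₀ = (p : ℤ) • z₂ := by
    rw [hm₀, map_add, h21, h22, hTq0, hz₂]
    have : a • x₀ + (p : ℤ) • zq + c • lam • x₀ = (c * lam + a) • x₀ + (p : ℤ) • zq := by
      module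
    rw [this, hk₁]
    module
  have heigm₀ : ∀ i, ∃ m, tM i m₀ - θ i • m₀ = (p : ℤ) • m := by
    intro i
    obtain ⟨zi, hzi⟩ := hx₀θ i
    refine ⟨α₁ zi + lam • α₂ zi, ?_⟩
    have h1 : tM i m₀ - θ i • m₀ = α₁ (tL i x₀ - θ i • x₀) + lam • α₂ (tL i x₀ - θ i • x₀) := by
      rw [hm₀]
      simp only [map_add, map_sub, map_smul, hα₁, hα₂]
      module
    rw [h1, hzi]
    simp only [map_smul]
    module
  have hm₀p : ¬ ∃ m, m₀ = (p : ℤ) • m := by
    rintro ⟨m, hm⟩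
    obtain ⟨⟨z, hz⟩, -⟩ := hIh x₀ (lam • x₀) ⟨m, hm⟩
    obtain ⟨z', hz'⟩ := hx₀θ i₀
    obtain ⟨u, v, huv⟩ := hcop
    apply hx₀
    refine ⟨u • (z - z') + v • x₀, ?_⟩
    have h1 : (θ i₀ - e) • x₀ = (p : ℤ) • (z - z') := by
      rw [smul_sub, ← hz, ← hz']
      module
    calc x₀ = (u * (θ i₀ - e) + v * (p : ℤ)) • x₀ := by rw [huv, one_smul]
      _ = u • ((θ i₀ - e) • x₀) + v • ((p : ℤ) • x₀) := by module
      _ = (p : ℤ) • (u • (z - z') + v • x₀) := by rw [h1]; module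
  -- the abstract setting on `L × L`
  let sL : L →ₗ[ℤ] L := tL i₀ - e • LinearMap.id
  have hsL : ∀ x, sL x = tL i₀ x - e • x := fun x => rfl
  let s : L × L →ₗ[ℤ] L × L := sL.prodMap sL
  let N : Submodule ℤ (L × L) := LinearMap.range (β₁.prod β₂)
  let B₂ : L × L →ₗ[ℤ] L × L →ₗ[ℤ] ZMod p :=
    BL.compl₁₂ (LinearMap.fst ℤ L L) (LinearMap.fst ℤ L L) +
      BL.compl₁₂ (LinearMap.snd ℤ L L) (LinearMap.snd ℤ L L)
  have hB₂ : ∀ v w : L × L, B₂ v w = BL v.1 w.1 + BL v.2 w.2 := fun v w => rfl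
  have hsN : ∀ v ∈ N, s v ∈ N := by
    rintro _ ⟨w, rfl⟩
    refine ⟨tM i₀ w - e • w, ?_⟩
    ext
    · simp [s, hsL, hβ₁]
    · simp [s, hsL, hβ₂]
  -- duality step
  have h3 : ∀ v, ∃ n ∈ N, ∃ v', s v = n + (p : ℤ) • v' := by
    intro v
    let U : Submodule ℤ (L × L) := N ⊔ LinearMap.range ((p : ℤ) • (LinearMap.id : L × L →ₗ[ℤ] L × L))
    have hmemU : s v ∈ U := by
      refine mem_of_orthogonal B₂ ?_ ?_ U ?_ (s v) ?_
      · intro x hx
        obtain ⟨y₁, hy₁⟩ := hBL x.1 (fun y => by simpa [hB₂] using hx (y, 0))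
        obtain ⟨y₂, hy₂⟩ := hBL x.2 (fun y => by simpa [hB₂] using hx (0, y))
        exact ⟨(y₁, y₂), Prod.ext (by simpa using hy₁) (by simpa using hy₂)⟩
      · intro x y
        rw [hB₂, hB₂, hBLs x.1 y.1, hBLs x.2 y.2, neg_add]
      · intro z
        exact Submodule.mem_sup_right ⟨z, rfl⟩
      · intro n hn
        have h1 : ∀ w, BM (α₁ n.1 + α₂ n.2) w = 0 := by
          intro w
          have h2 := hn (β₁ w, β₂ w) (Submodule.mem_sup_left ⟨w, rfl⟩)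
          rw [hB₂] at h2
          rw [map_add, LinearMap.add_apply, hadj₁, hadj₂, hBLs n.1, hBLs n.2, ← neg_add, h2,
            neg_zero]
        obtain ⟨⟨y₁, hy₁⟩, ⟨y₂, hy₂⟩⟩ := hIh n.1 n.2 (hBM _ h1)
        have h4 : ∀ x y : L, BL (sL x) y = BL x (sL y) := by
          intro x y
          rw [hsL, hsL, map_sub, LinearMap.sub_apply, hsaL, map_smul, LinearMap.smul_apply,
            map_sub, map_smul]
        rw [hB₂]
        show BL (sL v.1) n.1 + BL (sL v.2) n.2 = 0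
        rw [h4, h4, hsL, hsL, hy₁, hy₂, map_smul, map_smul, hpsmul, hpsmul, add_zero]
    obtain ⟨n, hn, w, ⟨v', rfl⟩, hnw⟩ := Submodule.mem_sup.1 hmemU
    exact ⟨n, hn, v', hnw.symm⟩
  -- torsion lifting
  have hzN : (z₁, z₂) ∈ N := by
    refine mem_of_smul_mem_of_eigen N s (p : ℤ) (θ i₀ - e) hcop hsN h3 (z₁, z₂) ?_ ?_
    · exact ⟨m₀, Prod.ext (by simpa using hβ₁m₀) (by simpa using hβ₂m₀)⟩
    · obtain ⟨m', hm'⟩ := heigm₀ i₀
      refine ⟨m', ?_⟩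
      have hinj : Function.Injective (fun x : L => (p : ℤ) • x) := smul_right_injective L hp0
      have e₁ : β₁ m' = tL i₀ z₁ - θ i₀ • z₁ := by
        apply hinj
        show (p : ℤ) • β₁ m' = (p : ℤ) • (tL i₀ z₁ - θ i₀ • z₁)
        rw [← map_smul, ← hm', map_sub, map_smul, hβ₁, hβ₁m₀, map_smul]
        module
      have e₂ : β₂ m' = tL i₀ z₂ - θ i₀ • z₂ := by
        apply hinj
        show (p : ℤ) • β₂ m' = (p : ℤ) • (tL i₀ z₂ - θ i₀ • z₂)
        rw [← map_smul, ← hm', map_sub, map_smul, hβ₂, hβ₂m₀, map_smul]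
        module
      refine Prod.ext ?_ ?_
      · show β₁ m' = (tL i₀ z₁ - e • z₁) - (θ i₀ - e) • z₁
        rw [e₁]
        module
      · show β₂ m' = (tL i₀ z₂ - e • z₂) - (θ i₀ - e) • z₂
        rw [e₂]
        module
  obtain ⟨w, hw⟩ := hzN
  have hw₁ : β₁ w = z₁ := congrArg Prod.fst hw
  have hw₂ : β₂ w = z₂ := congrArg Prod.snd hw
  refine ⟨m₀ - (p : ℤ) • w, ?_, ?_, ?_, ?_⟩
  · rw [map_sub, map_smul, hβ₁m₀, hw₁, sub_self]
  · rw [map_sub, map_smul, hβ₂m₀, hw₂, sub_self]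
  · rintro ⟨m, hm⟩
    exact hm₀p ⟨m + w, by rw [smul_add, ← hm]; abel⟩
  · intro i
    obtain ⟨m, hm⟩ := heigm₀ i
    refine ⟨m - (tM i w - θ i • w), ?_⟩
    have : tM i (m₀ - (p : ℤ) • w) - θ i • (m₀ - (p : ℤ) • w)
        = (tM i m₀ - θ i • m₀) - (p : ℤ) • (tM i w - θ i • w) := by
      rw [map_sub, map_smul]
      module
    rw [this, hm]
    module

end Fermat.Agent.S41.AlgS
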