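import Fermat.Agent.S41.CSPMat
import Fermat.Agent.S41.CSPChain

/-!
# [CSP] for `Γ₀(N)[1/q]` (S41): the final statement

`csp_strong`: let `Δ ≤ SL(2, ℚ)` be the group of matrices with entries in `ℤ[1/q]` and lower-left
entry in `N ℤ[1/q]` (`q` prime, `q ∤ N`), and let `Φ : Δ → A` be a homomorphism into an abelian
group without `2`-torsion which kills the elementary matrices `u(x)` (`x ∈ ℤ[1/q]`) and `l(N y)`
(`y ∈ ℤ[1/q]`).  Then `Φ g = 0` for every `g ∈ Δ` with `g₁₁ ≡ 1 mod N ℤ[1/q]`.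

Proof: matrix side `CSPMat` (rules (B0), (B1), (B2), (B4) and the reduction to integral first
columns) + the arithmetic chain `CSPChain.csp_arith` (Dirichlet + prime-power density of `⟨q⟩`).
The membership predicate "`x ∈ ℤ[1/q]`" is written inline as `∃ (k : ℕ) (z : ℤ), x * q ^ k = z`.
-/

namespace Fermat.Agent.S41.CSP

open Matrix MatrixGroups

/-- **Congruence subgroup property (abelianised form) for `Γ₀(N)[1/q]`.** -/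
theorem csp_strong (N q : ℕ) (hq : q.Prime) (hN : 0 < N) (hqN : ¬ q ∣ N)
    (Δ : Subgroup SL(2, ℚ))
    (hΔ : ∀ g : SL(2, ℚ), g ∈ Δ ↔
      (∀ i j, ∃ (k : ℕ) (z : ℤ), g i j * (q : ℚ) ^ k = z) ∧
        ∃ y : ℚ, (∃ (k : ℕ) (z : ℤ), y * (q : ℚ) ^ k = z) ∧ g 1 0 = N * y)
    {A : Type*} [AddCommGroup A] (h2 : ∀ x : A, x + x = 0 → x = 0) (Φ : Additive Δ →+ A)
    (hu : ∀ g : Δ, (g : SL(2, ℚ)) 1 0 = 0 → (g : SL(2, ℚ)) 0 0 = 1 → Φ (Additive.ofMul g) = 0)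
    (hl : ∀ g : Δ, (g : SL(2, ℚ)) 0 1 = 0 → (g : SL(2, ℚ)) 0 0 = 1 → Φ (Additive.ofMul g) = 0)
    (g : Δ)
    (hg : ∃ y : ℚ, (∃ (k : ℕ) (z : ℤ), y * (q : ℚ) ^ k = z) ∧ (g : SL(2, ℚ)) 0 0 - 1 = N * y) :
    Φ (Additive.ofMul g) = 0 :=
  CSPMat.csp_strong_of_arith (N := N) (q := q) (Δ := Δ) hΔ Φ hu hl h2 hq hN hqN
    (CSPChain.csp_arith q N hq.two_le hN ((Nat.Prime.coprime_iff_not_dvd hq).mpr hqN)) g hg

/-- The same for `A = ZMod p`, `p` an odd prime. -/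
theorem csp_strong_zmod (N q : ℕ) (hq : q.Prime) (hN : 0 < N) (hqN : ¬ q ∣ N)
    (Δ : Subgroup SL(2, ℚ))
    (hΔ : ∀ g : SL(2, ℚ), g ∈ Δ ↔
      (∀ i j, ∃ (k : ℕ) (z : ℤ), g i j * (q : ℚ) ^ k = z) ∧
        ∃ y : ℚ, (∃ (k : ℕ) (z : ℤ), y * (q : ℚ) ^ k = z) ∧ g 1 0 = N * y)
    (p : ℕ) [Fact p.Prime] (hp2 : p ≠ 2) (Φ : Additive Δ →+ ZMod p)
    (hu : ∀ g : Δ, (g : SL(2, ℚ)) 1 0 = 0 → (g : SL(2, ℚ)) 0 0 = 1 → Φ (Additive.ofMul g) = 0)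
    (hl : ∀ g : Δ, (g : SL(2, ℚ)) 0 1 = 0 → (g : SL(2, ℚ)) 0 0 = 1 → Φ (Additive.ofMul g) = 0)
    (g : Δ)
    (hg : ∃ y : ℚ, (∃ (k : ℕ) (z : ℤ), y * (q : ℚ) ^ k = z) ∧ (g : SL(2, ℚ)) 0 0 - 1 = N * y) :
    Φ (Additive.ofMul g) = 0 := by
  refine csp_strong N q hq hN hqN Δ hΔ ?_ Φ hu hl g hg
  intro x hx
  have h2x : (2 : ZMod p) * x = 0 := by rw [two_mul]; exact hx
  have h2ne : (2 : ZMod p) ≠ 0 := by
    intro h
    have h' : ((2 : ℕ) : ZMod p) = 0 := by exact_mod_cast h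
    rw [ZMod.natCast_eq_zero_iff] at h'
    have hp := (Fact.out : p.Prime)
    exact hp2 ((Nat.prime_dvd_prime_iff_eq hp Nat.prime_two).mp h')
  exact (mul_eq_zero.mp h2x).resolve_left h2ne

end Fermat.Agent.S41.CSP
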