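import Mathlib
import Fermat.Agent.S41.CSPDens

/-!
# S41 team library, block [CSP]: prime selectors and small arithmetic leaves

Mathlib-only (plus the landed `CSPDens`).  Everything the arithmetic chain of the
congruence-subgroup argument needs from Dirichlet's theorem, the Chinese remainder theorem,
Euler's criterion and lifting the exponent, in directly usable shapes.
-/

set_option autoImplicit false

namespace Fermat.Agent.S41.CSPPrime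

/-- Dirichlet, one modulus, integer residue. -/
theorem exists_prime_modEq (m : ℕ) (hm : m ≠ 0) (r : ℤ) (h : IsCoprime r (m : ℤ)) (B : ℕ) :
    ∃ p : ℕ, p.Prime ∧ B < p ∧ (p : ℤ) ≡ r [ZMOD (m : ℤ)] := by
  obtain ⟨p, hp1, hp2, hp3⟩ := Nat.forall_exists_prime_gt_and_zmodEq B hm h
  exact ⟨p, hp2, hp1, hp3⟩

/-- Integer CRT with units: a common lift of two unit residues modulo coprime moduli. -/
theorem exists_lift (m₁ m₂ : ℕ) (hcop : Nat.Coprime m₁ m₂) (r₁ r₂ : ℤ)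
    (h₁ : IsCoprime r₁ (m₁ : ℤ)) (h₂ : IsCoprime r₂ (m₂ : ℤ)) :
    ∃ r : ℤ, r ≡ r₁ [ZMOD (m₁ : ℤ)] ∧ r ≡ r₂ [ZMOD (m₂ : ℤ)] ∧
      IsCoprime r ((m₁ * m₂ : ℕ) : ℤ) := by
  have hc : IsCoprime (m₁ : ℤ) (m₂ : ℤ) := Nat.isCoprime_iff_coprime.mpr hcop
  obtain ⟨u, v, huv⟩ := hc
  -- `u * m₁ + v * m₂ = 1`
  have e1 : r₁ * (v * m₂) + r₂ * (u * m₁) = r₁ + (m₁ : ℤ) * ((r₂ - r₁) * u) := by
    linear_combination r₁ * huv
  have e2 : r₁ * (v * m₂) + r₂ * (u * m₁) = r₂ + (m₂ : ℤ) * ((r₁ - r₂) * v) := by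
    linear_combination r₂ * huv
  refine ⟨r₁ * (v * m₂) + r₂ * (u * m₁), ?_, ?_, ?_⟩
  · rw [e1, Int.modEq_iff_dvd]
    exact ⟨-((r₂ - r₁) * u), by ring⟩
  · rw [e2, Int.modEq_iff_dvd]
    exact ⟨-((r₁ - r₂) * v), by ring⟩
  · push_cast
    refine IsCoprime.mul_right ?_ ?_
    · rw [e1]
      exact h₁.add_mul_left_left _
    · rw [e2]
      exact h₂.add_mul_left_left _

/-- Dirichlet + CRT: a large prime in prescribed unit classes modulo two coprime moduli. -/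
theorem exists_prime_modEq_modEq (m₁ m₂ : ℕ) (hm₁ : m₁ ≠ 0) (hm₂ : m₂ ≠ 0)
    (hcop : Nat.Coprime m₁ m₂) (r₁ r₂ : ℤ) (h₁ : IsCoprime r₁ (m₁ : ℤ))
    (h₂ : IsCoprime r₂ (m₂ : ℤ)) (B : ℕ) :
    ∃ p : ℕ, p.Prime ∧ B < p ∧ (p : ℤ) ≡ r₁ [ZMOD (m₁ : ℤ)] ∧ (p : ℤ) ≡ r₂ [ZMOD (m₂ : ℤ)] := by
  obtain ⟨r, hr1, hr2, hr⟩ := exists_lift m₁ m₂ hcop r₁ r₂ h₁ h₂
  obtain ⟨p, hp, hB, hpr⟩ := exists_prime_modEq (m₁ * m₂) (Nat.mul_ne_zero hm₁ hm₂) r hr B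
  refine ⟨p, hp, hB, ?_, ?_⟩
  · refine Int.ModEq.trans (hpr.of_dvd ?_) hr1
    push_cast
    exact dvd_mul_right _ _
  · refine Int.ModEq.trans (hpr.of_dvd ?_) hr2
    push_cast
    exact dvd_mul_left _ _

/-- Step 2 selector: a large prime `p ≡ a (mod M)` with `p ≡ 3 (mod 4)`; the only compatibility
condition is that `a ≡ 3 (mod 4)` when `4 ∣ M`. -/
theorem exists_prime_modEq_three_mod_four (M : ℕ) (hM : M ≠ 0) (a : ℤ)
    (ha : IsCoprime a (M : ℤ)) (h4 : 4 ∣ M → a ≡ 3 [ZMOD 4]) (B : ℕ) :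
    ∃ p : ℕ, p.Prime ∧ B < p ∧ (p : ℤ) ≡ a [ZMOD (M : ℤ)] ∧ p % 4 = 3 := by
  have h34 : IsCoprime (3 : ℤ) ((4 : ℕ) : ℤ) := by
    refine ⟨-1, 1, ?_⟩
    norm_num
  have key : ∀ p : ℕ, (p : ℤ) ≡ 3 [ZMOD ((4 : ℕ) : ℤ)] → p % 4 = 3 := by
    intro p hp
    have h := hp
    rw [Int.ModEq] at h
    norm_num at h
    omega
  by_cases hodd : 2 ∣ M
  · by_cases hfour : 4 ∣ M
    · -- `4 ∣ M`
      obtain ⟨p, hp, hB, hpa⟩ := exists_prime_modEq M hM a ha B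
      refine ⟨p, hp, hB, hpa, key p ?_⟩
      have h4' : ((4 : ℕ) : ℤ) ∣ (M : ℤ) := by exact_mod_cast hfour
      exact (hpa.of_dvd h4').trans (by simpa using h4 hfour)
    · -- `2 ‖ M`
      obtain ⟨M', rfl⟩ := hodd
      have hM' : M' ≠ 0 := by rintro rfl; exact hM rfl
      have hM'odd : ¬ 2 ∣ M' := by
        rintro ⟨M'', rfl⟩
        exact hfour ⟨M'', by ring⟩
      have hcop : Nat.Coprime M' 4 := by
        have : Nat.Coprime M' 2 := (Nat.coprime_comm.mp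
          ((Nat.Prime.coprime_iff_not_dvd Nat.prime_two).mpr hM'odd))
        exact (Nat.Coprime.pow_right 2 this)
      have ha' : IsCoprime a (M' : ℤ) := by
        have := ha
        push_cast at this
        exact IsCoprime.of_mul_right_right this
      have ha2 : IsCoprime a (2 : ℤ) := by
        have := ha
        push_cast at this
        exact IsCoprime.of_mul_right_left this
      obtain ⟨p, hp, hB, hpa, hp3⟩ :=
        exists_prime_modEq_modEq M' 4 hM' (by norm_num) hcop a 3 ha' h34 B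
      have hp4 := key p hp3
      refine ⟨p, hp, hB, ?_, hp4⟩
      -- `a` is odd, `p` is odd
      have haodd : a % 2 = 1 := by
        rcases Int.emod_two_eq_zero_or_one a with h | h
        · exfalso
          have h2a : (2 : ℤ) ∣ a := Int.dvd_of_emod_eq_zero h
          have : IsUnit (2 : ℤ) := ha2.isUnit_of_dvd' h2a (dvd_refl 2)
          rw [Int.isUnit_iff] at this
          omega
        · exact h
      have hpodd : (p : ℤ) % 2 = 1 := by omega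
      have h2 : (2 : ℤ) ∣ (a - p) := by omega
      have hM'd : (M' : ℤ) ∣ (a - p) := hpa.dvd
      have hc2 : IsCoprime (2 : ℤ) (M' : ℤ) := by
        have : Nat.Coprime 2 M' := (Nat.Prime.coprime_iff_not_dvd Nat.prime_two).mpr hM'odd
        exact_mod_cast Nat.isCoprime_iff_coprime.mpr this
      rw [Int.modEq_iff_dvd]
      push_cast
      exact hc2.mul_dvd h2 hM'd
  · -- `M` odd
    have hcop : Nat.Coprime M 4 := by
      have : Nat.Coprime M 2 := (Nat.coprime_comm.mp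
        ((Nat.Prime.coprime_iff_not_dvd Nat.prime_two).mpr hodd))
      exact (Nat.Coprime.pow_right 2 this)
    obtain ⟨p, hp, hB, hpa, hp3⟩ :=
      exists_prime_modEq_modEq M 4 hM (by norm_num) hcop a 3 ha h34 B
    exact ⟨p, hp, hB, hpa, key p hp3⟩

/-- Step 3 (sign trick): for a prime `p ≡ 3 (mod 4)` and `L` prime to `p`, one of `±L` has
`(±L) ^ (p / 2) ≡ 1 (mod p)`.  (Note `p / 2 = (p - 1) / 2` is odd.) -/
theorem exists_sign_pow_modEq_one (p : ℕ) (hp : p.Prime) (hp3 : p % 4 = 3) (L : ℤ)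
    (hL : ¬ (p : ℤ) ∣ L) :
    ∃ s : ℤ, (s = 1 ∨ s = -1) ∧ (s * L) ^ (p / 2) ≡ 1 [ZMOD (p : ℤ)] := by
  have : Fact p.Prime := ⟨hp⟩
  have hL0 : ((L : ℤ) : ZMod p) ≠ 0 := by
    rwa [Ne, ZMod.intCast_zmod_eq_zero_iff_dvd]
  have hoddO : Odd (p / 2) := by
    rw [Nat.odd_iff]; omega
  rcases ZMod.pow_div_two_eq_neg_one_or_one p hL0 with h | h
  · refine ⟨1, Or.inl rfl, ?_⟩
    rw [← ZMod.intCast_eq_intCast_iff]
    push_cast
    rw [one_mul, h]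
  · refine ⟨-1, Or.inr rfl, ?_⟩
    rw [← ZMod.intCast_eq_intCast_iff]
    push_cast
    rw [neg_one_mul, neg_pow, h, hoddO.neg_one_pow]
    ring

/-- Step 5, CRT for the exponent: `k ≥ e` with `k ≡ 1 (mod O)` and `m ∣ k`. -/
theorem exists_exponent (O m e : ℕ) (hO : O ≠ 0) (hm : m ≠ 0) (hcop : Nat.Coprime O m) :
    ∃ k : ℕ, e ≤ k ∧ k ≡ 1 [MOD O] ∧ m ∣ k := by
  obtain ⟨k₀, hk1, hk2⟩ := Nat.chineseRemainder hcop 1 0
  refine ⟨k₀ + e * (O * m), ?_, ?_, ?_⟩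
  · have : 1 ≤ O * m := Nat.one_le_iff_ne_zero.mpr (Nat.mul_ne_zero hO hm)
    nlinarith
  · have h0 : e * (O * m) ≡ 0 [MOD O] := by
      rw [Nat.modEq_zero_iff_dvd]
      exact ⟨e * m, by ring⟩
    simpa using hk1.add h0
  · have h1 : m ∣ k₀ := (Nat.modEq_zero_iff_dvd).mp hk2
    exact dvd_add h1 ⟨e * O, by ring⟩

/-- The exact `ℓ`-adic valuation of `G - 1` exists when `G ≠ 1`. -/
theorem exists_exact_pow_dvd (ℓ : ℕ) (hℓ : ℓ.Prime) (G : ℤ) (hG : G ≠ 1)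
    (h : (ℓ : ℤ) ∣ G - 1) :
    ∃ e : ℕ, 1 ≤ e ∧ (ℓ : ℤ) ^ e ∣ G - 1 ∧ ¬ (ℓ : ℤ) ^ (e + 1) ∣ G - 1 := by
  have hfin : FiniteMultiplicity (ℓ : ℤ) (G - 1) := by
    rw [Int.finiteMultiplicity_iff]
    refine ⟨?_, sub_ne_zero.mpr hG⟩
    simpa using hℓ.ne_one
  refine ⟨multiplicity (ℓ : ℤ) (G - 1), ?_, pow_multiplicity_dvd _ _, ?_⟩
  · by_contra hlt
    have h0 : multiplicity (ℓ : ℤ) (G - 1) = 0 := by omega
    rw [multiplicity_eq_zero] at h0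
    exact h0 h
  · exact hfin.not_pow_dvd_of_multiplicity_lt (Nat.lt_succ_self _)

/-- Step 5, density in usable form: if `ℓ` is an odd prime, `G ≠ 1`, `ℓ ∣ G - 1`, there is
`e ≥ 1` (depending only on `ℓ`, `G`) such that any `y ≡ x (mod ℓ^e)` with `ℓ ∤ x` satisfies
`y ≡ G ^ j * x (mod ℓ^k)` for a suitable `j`, for every `k`. -/
theorem exists_pow_mul_modEq (ℓ : ℕ) (hℓ : ℓ.Prime) (hodd : ℓ ≠ 2) (G : ℤ) (hG : G ≠ 1)
    (h : (ℓ : ℤ) ∣ G - 1) :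
    ∃ e : ℕ, 1 ≤ e ∧ ∀ (k : ℕ) (x y : ℤ), ¬ (ℓ : ℤ) ∣ x → y ≡ x [ZMOD (ℓ : ℤ) ^ e] →
      ∃ j : ℕ, y ≡ G ^ j * x [ZMOD (ℓ : ℤ) ^ k] := by
  obtain ⟨e, he, hdvd, hndvd⟩ := exists_exact_pow_dvd ℓ hℓ G hG h
  refine ⟨e, he, ?_⟩
  intro k x y hx hyx
  have hp : Prime (ℓ : ℤ) := Nat.prime_iff_prime_int.mp hℓ
  -- work modulo `ℓ ^ (max k e)`
  set K := max k e with hK
  have hxc : IsCoprime x ((ℓ : ℤ) ^ K) :=
    (((Prime.coprime_iff_not_dvd hp).mpr hx).symm).pow_right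
  obtain ⟨x', w, hx'⟩ := hxc
  -- `x' * x + w * ℓ ^ K = 1`
  have hxx' : x * x' ≡ 1 [ZMOD (ℓ : ℤ) ^ K] := by
    rw [Int.modEq_iff_dvd]
    exact ⟨w, by linear_combination (-1 : ℤ) * hx'⟩
  have hKe : (ℓ : ℤ) ^ e ∣ (ℓ : ℤ) ^ K := pow_dvd_pow _ (le_max_right _ _)
  have hKk : (ℓ : ℤ) ^ k ∣ (ℓ : ℤ) ^ K := pow_dvd_pow _ (le_max_left _ _)
  have hy1 : y * x' ≡ 1 [ZMOD (ℓ : ℤ) ^ e] :=
    (hyx.mul_right x').trans (hxx'.of_dvd hKe)
  obtain ⟨j, hj⟩ := CSPDens.exists_pow_modEq ℓ hℓ hodd G e he hdvd hndvd K (y * x') hy1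
  refine ⟨j, Int.ModEq.of_dvd hKk ?_⟩
  -- `y ≡ y * (x * x') = (y * x') * x ≡ G ^ j * x`
  have h1 : y * (x * x') ≡ y * 1 [ZMOD (ℓ : ℤ) ^ K] := hxx'.mul_left y
  have h2 : y * x' * x ≡ G ^ j * x [ZMOD (ℓ : ℤ) ^ K] := hj.mul_right x
  calc y = y * 1 := (mul_one y).symm
    _ ≡ y * (x * x') [ZMOD (ℓ : ℤ) ^ K] := h1.symm
    _ = y * x' * x := by ring
    _ ≡ G ^ j * x [ZMOD (ℓ : ℤ) ^ K] := h2

end Fermat.Agent.S41.CSPPrime
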