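import Mathlib

/-!
# S41 team library, block [COH]: comparison of transfer-type sums

A "transfer-type sum" for an element `g` of an ambient group `G`, a subgroup-like `j : Γ →* G`
and a finite family of representatives `rep : ι → G` is `∑ i, ψ (part i)`, where
`rep i * g = j (part i) * rep (σ i)` for a permutation `σ` of the index set.

The main result `sum_part_eq` says that such a sum only depends on the cosets `j(Γ) · rep i`
(with multiplicity): if a second family `rep'` satisfies `rep' i = j (c i) * rep (f i)` for a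
bijection `f` of the index sets, the two sums agree, for every homomorphism `ψ` from `Γ` to an
abelian group.  Repeated cosets are allowed.  (Mathlib-only.)
-/

set_option autoImplicit false

namespace Fermat.Agent.S41.CosetCmp

variable {G Γ A : Type*} [Group G] [Group Γ] [AddCommGroup A]

/-- Core lemma: if two bijections `τ₁ τ₂ : κ ≃ ι` hit the same `j(Γ)`-cosets of a family `rep`,
say `rep (τ₁ k) = j (e k) * rep (τ₂ k)`, then `∑ k, ψ (e k) = 0` for every homomorphism `ψ` to an
abelian group. -/
theorem sum_eq_zero_of_same_coset {ι κ : Type*} [Fintype ι] [Fintype κ]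
    (j : Γ →* G) (hj : Function.Injective j) (rep : ι → G) (τ₁ τ₂ : κ ≃ ι) (e : κ → Γ)
    (he : ∀ k, rep (τ₁ k) = j (e k) * rep (τ₂ k)) (ψ : Additive Γ →+ A) :
    ∑ k, ψ (Additive.ofMul (e k)) = 0 := by
  classical
  -- the equivalence relation "same coset"
  let s : Setoid ι :=
    { r := fun i i' => ∃ g : Γ, rep i = j g * rep i'
      iseqv :=
        { refl := fun i => ⟨1, by simp⟩
          symm := by
            rintro i i' ⟨g, hg⟩
            exact ⟨g⁻¹, by rw [hg, ← mul_assoc, ← map_mul, inv_mul_cancel, map_one, one_mul]⟩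
          trans := by
            rintro i i' i'' ⟨g, hg⟩ ⟨g', hg'⟩
            exact ⟨g * g', by rw [hg, hg', map_mul, mul_assoc]⟩ } }
  -- class representatives
  let ρ : ι → ι := fun i => (Quotient.mk s i).out
  have hρ : ∀ i, ∃ g : Γ, rep i = j g * rep (ρ i) := fun i =>
    s.symm (Quotient.mk_out (s := s) i)
  choose f hf using hρ
  have hρeq : ∀ k, ρ (τ₁ k) = ρ (τ₂ k) := by
    intro k
    have : (Quotient.mk s (τ₁ k)) = Quotient.mk s (τ₂ k) := Quotient.sound ⟨e k, he k⟩
    show (Quotient.mk s (τ₁ k)).out = (Quotient.mk s (τ₂ k)).out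
    rw [this]
  have hkey : ∀ k, f (τ₁ k) = e k * f (τ₂ k) := by
    intro k
    apply hj
    have h1 := hf (τ₁ k)
    have h2 := hf (τ₂ k)
    have h3 := he k
    rw [h1, h2, hρeq k, ← mul_assoc, ← map_mul] at h3
    exact mul_right_cancel h3
  have hψ : ∀ k, ψ (Additive.ofMul (e k)) =
      ψ (Additive.ofMul (f (τ₁ k))) - ψ (Additive.ofMul (f (τ₂ k))) := by
    intro k
    rw [hkey k, ofMul_mul, map_add, add_sub_cancel_right]
  simp only [hψ, Finset.sum_sub_distrib]
  rw [Equiv.sum_comp τ₁ (fun i => ψ (Additive.ofMul (f i))),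
    Equiv.sum_comp τ₂ (fun i => ψ (Additive.ofMul (f i))), sub_self]

/-- **Independence of the representatives.**  Two families of representatives with the same
cosets (via a bijection `f` of the index sets) give the same transfer-type sum. -/
theorem sum_part_eq {ι ι' : Type*} [Fintype ι] [Fintype ι']
    (j : Γ →* G) (hj : Function.Injective j) (g : G)
    (rep : ι → G) (σ : Equiv.Perm ι) (part : ι → Γ)
    (h : ∀ i, rep i * g = j (part i) * rep (σ i))
    (rep' : ι' → G) (σ' : Equiv.Perm ι') (part' : ι' → Γ)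
    (h' : ∀ i, rep' i * g = j (part' i) * rep' (σ' i))
    (f : ι' ≃ ι) (c : ι' → Γ) (hc : ∀ i, rep' i = j (c i) * rep (f i))
    (ψ : Additive Γ →+ A) :
    ∑ i, ψ (Additive.ofMul (part' i)) = ∑ i, ψ (Additive.ofMul (part i)) := by
  classical
  -- `rep (σ (f i))` and `rep (f (σ' i))` lie in the same coset
  have hcos : ∀ i, rep ((f.trans σ) i) =
      j ((part (f i))⁻¹ * (c i)⁻¹ * part' i * c (σ' i)) * rep ((σ'.trans f) i) := by
    intro i
    have h1 := h' i
    rw [hc i, hc (σ' i), mul_assoc, h (f i)] at h1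
    -- h1 : j (c i) * (j (part (f i)) * rep (σ (f i))) = j (part' i) * (j (c (σ' i)) * rep (f (σ' i)))
    simp only [Equiv.trans_apply, map_mul, map_inv]
    have h2 : rep (σ (f i)) =
        (j (part (f i)))⁻¹ * ((j (c i))⁻¹ * (j (part' i) * (j (c (σ' i)) * rep (f (σ' i))))) := by
      rw [← h1]; group
    rw [h2]; group
  have h0 := sum_eq_zero_of_same_coset j hj rep (f.trans σ) (σ'.trans f)
    (fun i => (part (f i))⁻¹ * (c i)⁻¹ * part' i * c (σ' i)) hcos ψ
  simp only [ofMul_mul, ofMul_inv, map_add, map_neg] at h0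
  rw [Finset.sum_add_distrib, Finset.sum_add_distrib, Finset.sum_add_distrib,
    Finset.sum_neg_distrib, Finset.sum_neg_distrib] at h0
  have e1 : ∑ i, ψ (Additive.ofMul (c (σ' i))) = ∑ i, ψ (Additive.ofMul (c i)) :=
    Equiv.sum_comp σ' (fun i => ψ (Additive.ofMul (c i)))
  have e2 : ∑ i, ψ (Additive.ofMul (part (f i))) = ∑ i, ψ (Additive.ofMul (part i)) :=
    Equiv.sum_comp f (fun i => ψ (Additive.ofMul (part i)))
  rw [e1, e2] at h0
  have h3 : ∑ i, ψ (Additive.ofMul (part' i)) - ∑ i, ψ (Additive.ofMul (part i)) = 0 := by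
    rw [← h0]; abel
  exact sub_eq_zero.mp h3

/-- Variant of `sum_part_eq` where the comparison map `f` is only assumed surjective and the two
index types have the same cardinality. -/
theorem sum_part_eq_of_surjective {ι ι' : Type*} [Fintype ι] [Fintype ι']
    (j : Γ →* G) (hj : Function.Injective j) (g : G)
    (rep : ι → G) (σ : Equiv.Perm ι) (part : ι → Γ)
    (h : ∀ i, rep i * g = j (part i) * rep (σ i))
    (rep' : ι' → G) (σ' : Equiv.Perm ι') (part' : ι' → Γ)
    (h' : ∀ i, rep' i * g = j (part' i) * rep' (σ' i))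
    (f : ι' → ι) (hf : Function.Surjective f) (hcard : Fintype.card ι' = Fintype.card ι)
    (c : ι' → Γ) (hc : ∀ i, rep' i = j (c i) * rep (f i))
    (ψ : Additive Γ →+ A) :
    ∑ i, ψ (Additive.ofMul (part' i)) = ∑ i, ψ (Additive.ofMul (part i)) :=
  sum_part_eq j hj g rep σ part h rep' σ' part' h'
    (Equiv.ofBijective f ((Fintype.bijective_iff_surjective_and_card f).mpr ⟨hf, hcard⟩)) c hc ψ

/-- Variant of `sum_part_eq` where the comparison map `f` is only assumed injective and the two
index types have the same cardinality. -/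
theorem sum_part_eq_of_injective {ι ι' : Type*} [Fintype ι] [Fintype ι']
    (j : Γ →* G) (hj : Function.Injective j) (g : G)
    (rep : ι → G) (σ : Equiv.Perm ι) (part : ι → Γ)
    (h : ∀ i, rep i * g = j (part i) * rep (σ i))
    (rep' : ι' → G) (σ' : Equiv.Perm ι') (part' : ι' → Γ)
    (h' : ∀ i, rep' i * g = j (part' i) * rep' (σ' i))
    (f : ι' → ι) (hf : Function.Injective f) (hcard : Fintype.card ι' = Fintype.card ι)
    (c : ι' → Γ) (hc : ∀ i, rep' i = j (c i) * rep (f i))
    (ψ : Additive Γ →+ A) :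
    ∑ i, ψ (Additive.ofMul (part' i)) = ∑ i, ψ (Additive.ofMul (part i)) :=
  sum_part_eq j hj g rep σ part h rep' σ' part' h'
    (Equiv.ofBijective f ((Fintype.bijective_iff_injective_and_card f).mpr ⟨hf, hcard⟩)) c hc ψ

/-- If the cosets of the family `rep'` are pairwise distinct, any comparison map to another
family is injective. -/
theorem injective_of_distinct {ι ι' : Type*} (j : Γ →* G) (rep : ι → G) (rep' : ι' → G)
    (hdist : ∀ i i' : ι', ∀ γ : Γ, rep' i = j γ * rep' i' → i = i')
    (f : ι' → ι) (c : ι' → Γ) (hc : ∀ i, rep' i = j (c i) * rep (f i)) :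
    Function.Injective f := by
  intro i i' hii
  apply hdist i i' (c i * (c i')⁻¹)
  rw [hc i, hc i', hii, map_mul, map_inv]
  group

/-- Scaling all representatives by a central element does not change the defining relation. -/
theorem spec_central_mul {ι : Type*} (j : Γ →* G) (g : G) (z : G) (hz : ∀ x : G, z * x = x * z)
    (rep : ι → G) (σ : Equiv.Perm ι) (part : ι → Γ)
    (h : ∀ i, rep i * g = j (part i) * rep (σ i)) (i : ι) :
    (z * rep i) * g = j (part i) * (z * rep (σ i)) := by
  rw [mul_assoc, h i, ← mul_assoc, hz, mul_assoc]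

end Fermat.Agent.S41.CosetCmp
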