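import Mathlib
import Fermat.Agent.S49.Core

/-!
# Deligne–Serre lifting lemma for a commuting family preserving a lattice, general modulus

`G` is a commuting family of endomorphisms of a complex vector space `V` preserving a finitely
generated `ℤ`-submodule `L` spanning `V`, and `f₀ ∈ L ∖ pL`.  Then there is a genuine common
eigenvector `g` of `G` whose eigenvalues are algebraic integers, and a maximal ideal `𝔪'` of the
algebraic integers containing `p`, such that for every `t ∈ G` and every integer `n` with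
`t f₀ ≡ n f₀` modulo `pL` the eigenvalue of `t` on `g` is congruent to `n` modulo `𝔪'`.

No hypothesis is made on `p`, and the members of `G` need not all have an integer eigenvalue on
`f₀` modulo `pL`: the congruence is stated operator by operator.

Route (B-copy).  The set `{t ∈ ℤ[G] | t f₀ ∈ pL}` is a proper ideal containing `p`; we pick any
maximal ideal above it and feed it to `Fermat.Agent.S49.exists_character_of_isMaximal`.  The
argument is first carried out for a pair of abstract commutative subalgebras `A ≤ B` (variables,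
so that the kernel never has to compare two different algebra closures), and then specialised to
the two closures of `G`.
-/

set_option autoImplicit false

namespace Fermat.Agent.S41.DSLiftB

open scoped IsMulCommutative in
/-- Abstract form: `A` a commutative `ℤ`-subalgebra of `End V` preserving the lattice `L`,
contained in a commutative `ℂ`-subalgebra `B`. -/
theorem exists_eigenvector_lift_subalgebra
    {V : Type*} [AddCommGroup V] [Module ℂ V] (p : ℕ)
    (A : Subalgebra ℤ (Module.End ℂ V)) (B : Subalgebra ℂ (Module.End ℂ V))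
    [hcommA : IsMulCommutative A] [hcommB : IsMulCommutative B]
    (hAB : ∀ t ∈ A, t ∈ B)
    (L : Submodule ℤ V) (hLfg : L.FG) (hLspan : Submodule.span ℂ (L : Set V) = ⊤)
    (hAL : ∀ t ∈ A, ∀ x ∈ L, t x ∈ L)
    (f₀ : V) (hf₀ : f₀ ∈ L) (hf₀' : ∀ y ∈ L, f₀ ≠ (p : ℤ) • y) :
    ∃ (g : V) (lam : A → integralClosure ℤ ℂ) (𝔪' : Ideal (integralClosure ℤ ℂ)),
      g ≠ 0 ∧ 𝔪'.IsMaximal ∧ ((p : ℕ) : integralClosure ℤ ℂ) ∈ 𝔪' ∧
      (∀ t : A, (t : Module.End ℂ V) g = ((lam t : integralClosure ℤ ℂ) : ℂ) • g) ∧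
      ∀ (t : A) (n : ℤ), (∃ y ∈ L, (t : Module.End ℂ V) f₀ - n • f₀ = (p : ℤ) • y) →
        lam t - (n : integralClosure ℤ ℂ) ∈ 𝔪' := by
  classical
  -- finite-dimensionality
  have hfd : FiniteDimensional ℂ V := by
    obtain ⟨S, hS⟩ := hLfg
    refine Module.finite_def.mpr ⟨S, ?_⟩
    rw [← hLspan, ← hS, Submodule.span_span_of_tower]
  have hLfin : Module.Finite ℤ L := Module.Finite.iff_fg.mpr hLfg
  -- `pL`
  set Lp : Submodule ℤ V := L.map ((p : ℤ) • (LinearMap.id : V →ₗ[ℤ] V)) with hLp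
  have hmemLp : ∀ x : V, x ∈ Lp ↔ ∃ y ∈ L, x = (p : ℤ) • y := by
    intro x
    rw [hLp, Submodule.mem_map]
    constructor
    · rintro ⟨y, hy, rfl⟩
      exact ⟨y, hy, rfl⟩
    · rintro ⟨y, hy, rfl⟩
      exact ⟨y, hy, rfl⟩
  have hALp : ∀ t ∈ A, ∀ x ∈ Lp, t x ∈ Lp := by
    intro t ht x hx
    obtain ⟨y, hy, rfl⟩ := (hmemLp x).mp hx
    refine (hmemLp _).mpr ⟨t y, hAL t ht y hy, ?_⟩
    exact map_zsmul t (p : ℤ) y
  have hf₀p : f₀ ∉ Lp := fun h => by
    obtain ⟨y, hy, hy'⟩ := (hmemLp _).mp h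
    exact hf₀' y hy hy'
  -- the ideal of operators sending `f₀` into `pL`
  let I : Ideal A :=
    { carrier := {t | (t : Module.End ℂ V) f₀ ∈ Lp}
      add_mem' := fun {s t} hs ht => by
        change ((s + t : A) : Module.End ℂ V) f₀ ∈ Lp
        rw [Subalgebra.coe_add, LinearMap.add_apply]
        exact Lp.add_mem hs ht
      zero_mem' := by
        change ((0 : A) : Module.End ℂ V) f₀ ∈ Lp
        rw [Subalgebra.coe_zero, LinearMap.zero_apply]
        exact Lp.zero_mem
      smul_mem' := fun s t ht => by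
        change ((s * t : A) : Module.End ℂ V) f₀ ∈ Lp
        rw [Subalgebra.coe_mul, Module.End.mul_apply]
        exact hALp s s.2 _ ht }
  have hmemI : ∀ t : A, t ∈ I ↔ (t : Module.End ℂ V) f₀ ∈ Lp := fun t => Iff.rfl
  have hpI : (((p : ℤ)) : A) ∈ I := by
    rw [hmemI]
    have : ((((p : ℤ)) : A) : Module.End ℂ V) f₀ = (p : ℤ) • f₀ := by
      rw [SubringClass.coe_intCast, ← zsmul_one, LinearMap.smul_apply, Module.End.one_apply]
    rw [this]
    exact (hmemLp _).mpr ⟨f₀, hf₀, rfl⟩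
  have hItop : I ≠ ⊤ := by
    rw [Ideal.ne_top_iff_one, hmemI, Subalgebra.coe_one, Module.End.one_apply]
    exact hf₀p
  -- any maximal ideal above it
  obtain ⟨𝔪, h𝔪max, hI𝔪⟩ := Ideal.exists_le_maximal I hItop
  -- the maps
  let ρ : B →ₐ[ℂ] Module.End ℂ V := B.val
  have hρ : Function.Injective ρ := Subtype.val_injective
  have hρv : ∀ b : B, ρ b = (b : Module.End ℂ V) := fun b => rfl
  let ι : A →+* B :=
    { toFun := fun t => ⟨t.1, hAB t.1 t.2⟩
      map_one' := Subtype.ext rfl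
      map_mul' := fun _ _ => Subtype.ext rfl
      map_zero' := Subtype.ext rfl
      map_add' := fun _ _ => Subtype.ext rfl }
  have hιv : ∀ s : A, ((ι s : B) : Module.End ℂ V) = (s : Module.End ℂ V) :=
    fun s => Subtype.coe_mk s.1 (hAB s.1 s.2)
  have hι : Function.Injective ι := by
    intro s t hst
    apply Subtype.ext
    rw [← hιv s, ← hιv t, hst]
  -- integrality
  let r₀ : A →+* Module.End ℤ L :=
    { toFun := fun t => ((t : Module.End ℂ V).restrictScalars ℤ).restrict (hAL t.1 t.2)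
      map_one' := LinearMap.ext fun _ => Subtype.ext rfl
      map_mul' := fun _ _ => LinearMap.ext fun _ => Subtype.ext rfl
      map_zero' := LinearMap.ext fun _ => Subtype.ext rfl
      map_add' := fun _ _ => LinearMap.ext fun _ => Subtype.ext rfl }
  have hr₀v : ∀ (t : A) (x : L), ((r₀ t x : L) : V) = (t : Module.End ℂ V) (x : V) :=
    fun t x => rfl
  let r : A →ₐ[ℤ] Module.End ℤ L := r₀.toIntAlgHom
  have hrv : ∀ t : A, r t = r₀ t := fun t => rfl
  have hr : Function.Injective r := by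
    rw [injective_iff_map_eq_zero]
    intro t ht
    apply Subtype.ext
    rw [Subalgebra.coe_zero]
    have hker : (L : Set V) ⊆ (LinearMap.ker (t : Module.End ℂ V) : Set V) := by
      intro x hx
      rw [SetLike.mem_coe, LinearMap.mem_ker, ← hr₀v t ⟨x, hx⟩, ← hrv, ht, LinearMap.zero_apply,
        ZeroMemClass.coe_zero]
    have hle : Submodule.span ℂ (L : Set V) ≤ LinearMap.ker (t : Module.End ℂ V) :=
      Submodule.span_le.mpr hker
    rw [hLspan] at hle
    exact LinearMap.ext fun x => hle (Submodule.mem_top (x := x))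
  have hint : ∀ t : A, IsIntegral ℤ t := fun t =>
    (isIntegral_algHom_iff r hr).mp (Algebra.IsIntegral.isIntegral (r t))
  -- apply the core lemma
  obtain ⟨χ, g, lam, 𝔪', hg0, hg, hlam, h𝔪'max, h𝔪'comap⟩ :=
    Fermat.Agent.S49.exists_character_of_isMaximal ρ hρ ι hι hint 𝔪
  refine ⟨g, fun t => lam t, 𝔪', hg0, h𝔪'max, ?_, ?_, ?_⟩
  · have : lam (((p : ℤ)) : A) ∈ 𝔪' := by
      rw [← Ideal.mem_comap, h𝔪'comap]
      exact hI𝔪 hpI
    rw [map_intCast] at this
    exact_mod_cast this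
  · intro t
    rw [hlam, ← hg (ι t), hρv, hιv]
  · rintro t n ⟨y, hy, hy'⟩
    have hmem : t - ((n : ℤ) : A) ∈ 𝔪 := by
      apply hI𝔪
      rw [hmemI]
      have : ((t - ((n : ℤ) : A) : A) : Module.End ℂ V) f₀ = (t : Module.End ℂ V) f₀ - n • f₀ := by
        rw [Subalgebra.coe_sub, LinearMap.sub_apply, SubringClass.coe_intCast, ← zsmul_one,
          LinearMap.smul_apply, Module.End.one_apply]
      rw [this]
      exact (hmemLp _).mpr ⟨y, hy, hy'⟩
    rw [← h𝔪'comap, Ideal.mem_comap] at hmem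
    simpa using hmem

open scoped IsMulCommutative in
theorem exists_eigenvector_lift_p {V} [AddCommGroup V] [Module ℂ V] (p : ℕ) (G : Set (Module.End ℂ V)) (hG : ∀ s ∈ G, ∀ t ∈ G, s * t = t * s) (L : Submodule ℤ V) (hLfg : L.FG) (hLspan : Submodule.span ℂ (L : Set V) = ⊤) (hGL : ∀ t ∈ G, ∀ x ∈ L, t x ∈ L) (f₀ : V) (hf₀ : f₀ ∈ L) (hf₀' : ∀ y ∈ L, f₀ ≠ (p : ℤ) • y) : ∃ (g : V) (μ : Module.End ℂ V → integralClosure ℤ ℂ) (𝔪' : Ideal (integralClosure ℤ ℂ)), g ≠ 0 ∧ 𝔪'.IsMaximal ∧ ((p : ℕ) : integralClosure ℤ ℂ) ∈ 𝔪' ∧ ∀ t ∈ G, t g = ((μ t : integralClosure ℤ ℂ) : ℂ) • g ∧ ∀ n : ℤ, (∃ y ∈ L, t f₀ - n • f₀ = (p : ℤ) • y) → μ t - (n : integralClosure ℤ ℂ) ∈ 𝔪' := by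
  classical
  have hcommA : IsMulCommutative (Algebra.adjoin ℤ G) := Algebra.isMulCommutative_adjoin ℤ hG
  have hcommB : IsMulCommutative (Algebra.adjoin ℂ G) := Algebra.isMulCommutative_adjoin ℂ hG
  have hAB : ∀ t ∈ Algebra.adjoin ℤ G, t ∈ Algebra.adjoin ℂ G := by
    intro t ht
    have hle : Algebra.adjoin ℤ G ≤ (Algebra.adjoin ℂ G).restrictScalars ℤ :=
      Algebra.adjoin_le (Algebra.subset_adjoin)
    exact hle ht
  have hAL : ∀ t ∈ Algebra.adjoin ℤ G, ∀ x ∈ L, t x ∈ L := by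
    intro t ht
    induction ht using Algebra.adjoin_induction with
    | mem t ht => exact hGL t ht
    | algebraMap n =>
      intro x hx
      rw [Algebra.algebraMap_eq_smul_one, LinearMap.smul_apply, Module.End.one_apply]
      exact L.smul_mem n hx
    | add s t _ _ hs ht =>
      intro x hx
      rw [LinearMap.add_apply]
      exact L.add_mem (hs x hx) (ht x hx)
    | mul s t _ _ hs ht =>
      intro x hx
      rw [Module.End.mul_apply]
      exact hs _ (ht x hx)
  obtain ⟨g, lam, 𝔪', hg0, hmax, hp, heig, hcong⟩ :=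
    exists_eigenvector_lift_subalgebra p (Algebra.adjoin ℤ G) (Algebra.adjoin ℂ G) hAB L hLfg
      hLspan hAL f₀ hf₀ hf₀'
  refine ⟨g, fun t => if h : t ∈ Algebra.adjoin ℤ G then lam ⟨t, h⟩ else 0, 𝔪', hg0, hmax, hp, ?_⟩
  intro t ht
  have htA : t ∈ Algebra.adjoin ℤ G := Algebra.subset_adjoin ht
  beta_reduce
  rw [dif_pos htA]
  exact ⟨heig ⟨t, htA⟩, fun n hn => hcong ⟨t, htA⟩ n hn⟩

end Fermat.Agent.S41.DSLiftB
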