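import Mathlib
import Fermat.Agent.S49.Core

/-!
# S41 [NEW] (N1), C-copy: Deligne–Serre lifting for a prime `p` and a sub-family

`G` is a commuting family of endomorphisms of a complex vector space `V` preserving a finitely
generated `ℤ`-submodule `L` spanning `V`, and `f₀ ∈ L ∖ pL`.  Then there is a common eigenvector
`g ≠ 0` of `G` whose eigenvalues `μ t` are algebraic integers, and a maximal ideal `𝔪' ∋ p` of
the algebraic integers such that `μ t ≡ n (mod 𝔪')` for every `t ∈ G` and `n : ℤ` with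
`t f₀ ≡ n f₀ (mod p L)`.

The proof is organised so that no definitional unfolding of ring instances on subalgebras of
`End V` is needed: the core (`lift_commRing`) is about an abstract commutative `ℂ`-algebra `B`
acting faithfully on `V`, and the subring of `B` of the elements preserving `L`.
-/

set_option autoImplicit false

namespace Fermat.Agent.S41.DSLiftC

open Fermat.Agent.S49

section Abstract

variable {V : Type*} [AddCommGroup V] [Module ℂ V]

/-- The abstract core: `B` a commutative `ℂ`-algebra acting faithfully on `V`. -/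
theorem lift_commRing {B : Type*} [CommRing B] [Algebra ℂ B]
    (ρ : B →ₐ[ℂ] Module.End ℂ V) (hρ : Function.Injective ρ) (p : ℕ)
    (L : Submodule ℤ V) (hLfg : L.FG) (hLspan : Submodule.span ℂ (L : Set V) = ⊤)
    (f₀ : V) (hf₀ : f₀ ∈ L) (hf₀' : ∀ y ∈ L, f₀ ≠ (p : ℤ) • y) :
    ∃ (g : V) (𝔪' : Ideal (integralClosure ℤ ℂ)),
      g ≠ 0 ∧ 𝔪'.IsMaximal ∧ ((p : ℕ) : integralClosure ℤ ℂ) ∈ 𝔪' ∧
      ∀ b : B, (∀ x ∈ L, ρ b x ∈ L) →
        ∃ a : integralClosure ℤ ℂ, ρ b g = (a : ℂ) • g ∧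
          ∀ n : ℤ, (∃ y ∈ L, ρ b f₀ - n • f₀ = (p : ℤ) • y) →
            a - (n : integralClosure ℤ ℂ) ∈ 𝔪' := by
  classical
  -- finite-dimensionality
  have hfd : FiniteDimensional ℂ V := by
    obtain ⟨S, hS⟩ := hLfg
    refine Module.finite_def.mpr ⟨S, ?_⟩
    rw [← hLspan, ← hS, Submodule.span_span_of_tower]
  have hLfin : Module.Finite ℤ L := Module.Finite.iff_fg.mpr hLfg
  -- the subring of the elements preserving `L`
  let A : Subring B :=
    { carrier := {b | ∀ x ∈ L, ρ b x ∈ L}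
      mul_mem' := fun {a b} ha hb x hx => by
        rw [map_mul, Module.End.mul_apply]
        exact ha _ (hb x hx)
      one_mem' := fun x hx => by
        rw [map_one, Module.End.one_apply]
        exact hx
      add_mem' := fun {a b} ha hb x hx => by
        rw [map_add, LinearMap.add_apply]
        exact L.add_mem (ha x hx) (hb x hx)
      zero_mem' := fun x _ => by
        rw [map_zero, LinearMap.zero_apply]
        exact L.zero_mem
      neg_mem' := fun {a} ha x hx => by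
        rw [map_neg, LinearMap.neg_apply]
        exact L.neg_mem (ha x hx) }
  have hAL : ∀ t : A, ∀ x ∈ L, ρ (t : B) x ∈ L := fun t => t.2
  -- `pL`
  set Lp : Submodule ℤ V := L.map ((p : ℤ) • (LinearMap.id : V →ₗ[ℤ] V)) with hLp
  have hmemLp : ∀ x : V, x ∈ Lp ↔ ∃ y ∈ L, x = (p : ℤ) • y := by
    intro x
    rw [hLp, Submodule.mem_map]
    constructor
    · rintro ⟨y, hy, rfl⟩
      exact ⟨y, hy, rfl⟩
    · rintro ⟨y, hy, rfl⟩
      exact ⟨y, hy, rfl⟩
  have hALp : ∀ t : A, ∀ x ∈ Lp, ρ (t : B) x ∈ Lp := by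
    intro t x hx
    obtain ⟨y, hy, rfl⟩ := (hmemLp x).mp hx
    refine (hmemLp _).mpr ⟨ρ (t : B) y, hAL t y hy, ?_⟩
    exact map_zsmul (ρ (t : B)) (p : ℤ) y
  have hf₀p : f₀ ∉ Lp := fun h => by
    obtain ⟨y, hy, hy'⟩ := (hmemLp _).mp h
    exact hf₀' y hy hy'
  have hint_apply : ∀ (n : ℤ) (x : V), ρ ((n : ℤ) : B) x = n • x := by
    intro n x
    rw [map_intCast, ← zsmul_one, LinearMap.smul_apply, Module.End.one_apply]
  -- the ideal of the elements of `A` killing `f₀` modulo `pL`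
  let I : Ideal A :=
    { carrier := {t | ρ (t : B) f₀ ∈ Lp}
      add_mem' := fun {s t} hs ht => by
        change ρ ((s + t : A) : B) f₀ ∈ Lp
        rw [Subring.coe_add, map_add, LinearMap.add_apply]
        exact Lp.add_mem hs ht
      zero_mem' := by
        change ρ ((0 : A) : B) f₀ ∈ Lp
        rw [Subring.coe_zero, map_zero, LinearMap.zero_apply]
        exact Lp.zero_mem
      smul_mem' := fun s t ht => by
        change ρ ((s * t : A) : B) f₀ ∈ Lp
        rw [Subring.coe_mul, map_mul, Module.End.mul_apply]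
        exact hALp s _ ht }
  have hmemI : ∀ t : A, t ∈ I ↔ ρ (t : B) f₀ ∈ Lp := fun t => Iff.rfl
  have hpI : (((p : ℕ) : ℤ) : A) ∈ I := by
    rw [hmemI, Subring.coe_intCast, hint_apply]
    exact (hmemLp _).mpr ⟨f₀, hf₀, rfl⟩
  have hIne : I ≠ ⊤ := by
    intro h
    have h1 : (1 : A) ∈ I := by rw [h]; exact Submodule.mem_top
    rw [hmemI, Subring.coe_one, map_one, Module.End.one_apply] at h1
    exact hf₀p h1
  obtain ⟨𝔪, h𝔪max, hI𝔪⟩ := Ideal.exists_le_maximal I hIne
  -- integrality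
  let r₀ : A →+* Module.End ℤ L :=
    { toFun := fun t => ((ρ (t : B)).restrictScalars ℤ).restrict (hAL t)
      map_one' := by
        refine LinearMap.ext fun x => Subtype.ext ?_
        show ρ ((1 : A) : B) (x : V) = x
        rw [Subring.coe_one, map_one, Module.End.one_apply]
      map_mul' := fun s t => by
        refine LinearMap.ext fun x => Subtype.ext ?_
        show ρ ((s * t : A) : B) (x : V) = ρ (s : B) (ρ (t : B) (x : V))
        rw [Subring.coe_mul, map_mul, Module.End.mul_apply]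
      map_zero' := by
        refine LinearMap.ext fun x => Subtype.ext ?_
        show ρ ((0 : A) : B) (x : V) = 0
        rw [Subring.coe_zero, map_zero, LinearMap.zero_apply]
      map_add' := fun s t => by
        refine LinearMap.ext fun x => Subtype.ext ?_
        show ρ ((s + t : A) : B) (x : V) = ρ (s : B) (x : V) + ρ (t : B) (x : V)
        rw [Subring.coe_add, map_add, LinearMap.add_apply] }
  have hr₀ : ∀ (t : A) (x : L), ((r₀ t x : L) : V) = ρ (t : B) (x : V) := fun _ _ => rfl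
  let r : A →ₐ[ℤ] Module.End ℤ L := r₀.toIntAlgHom
  have hr : Function.Injective r := by
    rw [injective_iff_map_eq_zero]
    intro t ht
    apply Subtype.ext
    rw [Subring.coe_zero]
    apply hρ
    rw [map_zero]
    have hker : (L : Set V) ⊆ (LinearMap.ker (ρ (t : B)) : Set V) := by
      intro x hx
      have h0 : r₀ t ⟨x, hx⟩ = 0 := by
        have := congrArg (fun φ : Module.End ℤ L => φ ⟨x, hx⟩) ht
        exact this
      have h1 := hr₀ t ⟨x, hx⟩
      rw [h0] at h1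
      exact h1.symm
    have hle : Submodule.span ℂ (L : Set V) ≤ LinearMap.ker (ρ (t : B)) :=
      Submodule.span_le.mpr hker
    rw [hLspan] at hle
    exact LinearMap.ext fun x => hle (Submodule.mem_top (x := x))
  have hint : ∀ t : A, IsIntegral ℤ t := fun t =>
    (isIntegral_algHom_iff r hr).mp (Algebra.IsIntegral.isIntegral (r t))
  -- apply the core lemma
  obtain ⟨χ, g, lam, 𝔪', hg0, hg, hlam, h𝔪'max, h𝔪'comap⟩ :=
    exists_character_of_isMaximal ρ hρ A.subtype Subtype.val_injective hint 𝔪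
  refine ⟨g, 𝔪', hg0, h𝔪'max, ?_, ?_⟩
  · have : lam (((p : ℕ) : ℤ) : A) ∈ 𝔪' := by
      rw [← Ideal.mem_comap, h𝔪'comap]
      exact hI𝔪 hpI
    rw [map_intCast] at this
    exact_mod_cast this
  · intro b hb
    refine ⟨lam ⟨b, hb⟩, ?_, ?_⟩
    · rw [hlam]
      exact hg b
    · rintro n ⟨y, hy, hy'⟩
      have hmem : (⟨b, hb⟩ : A) - ((n : ℤ) : A) ∈ 𝔪 := by
        apply hI𝔪
        rw [hmemI, AddSubgroupClass.coe_sub, Subring.coe_intCast, map_sub, LinearMap.sub_apply,
          hint_apply]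
        exact (hmemLp _).mpr ⟨y, hy, hy'⟩
      rw [← h𝔪'comap, Ideal.mem_comap, map_sub, map_intCast] at hmem
      exact hmem

/-- The same for a ring `B` with commutativity as a hypothesis. -/
theorem lift_ring {B : Type*} [Ring B] [Algebra ℂ B] (hcomm : ∀ a b : B, a * b = b * a)
    (ρ : B →ₐ[ℂ] Module.End ℂ V) (hρ : Function.Injective ρ) (p : ℕ)
    (L : Submodule ℤ V) (hLfg : L.FG) (hLspan : Submodule.span ℂ (L : Set V) = ⊤)
    (f₀ : V) (hf₀ : f₀ ∈ L) (hf₀' : ∀ y ∈ L, f₀ ≠ (p : ℤ) • y) :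
    ∃ (g : V) (𝔪' : Ideal (integralClosure ℤ ℂ)),
      g ≠ 0 ∧ 𝔪'.IsMaximal ∧ ((p : ℕ) : integralClosure ℤ ℂ) ∈ 𝔪' ∧
      ∀ b : B, (∀ x ∈ L, ρ b x ∈ L) →
        ∃ a : integralClosure ℤ ℂ, ρ b g = (a : ℂ) • g ∧
          ∀ n : ℤ, (∃ y ∈ L, ρ b f₀ - n • f₀ = (p : ℤ) • y) →
            a - (n : integralClosure ℤ ℂ) ∈ 𝔪' := by
  let _ : CommRing B := { ‹Ring B› with mul_comm := hcomm }
  exact lift_commRing ρ hρ p L hLfg hLspan f₀ hf₀ hf₀'

end Abstract

/-- **Deligne–Serre lifting for a prime `p` and a sub-family.** -/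
theorem exists_eigenvector_lift_p
    {V : Type*} [AddCommGroup V] [Module ℂ V] (p : ℕ)
    (G : Set (Module.End ℂ V)) (hG : ∀ s ∈ G, ∀ t ∈ G, s * t = t * s)
    (L : Submodule ℤ V) (hLfg : L.FG) (hLspan : Submodule.span ℂ (L : Set V) = ⊤)
    (hGL : ∀ t ∈ G, ∀ x ∈ L, t x ∈ L)
    (f₀ : V) (hf₀ : f₀ ∈ L) (hf₀' : ∀ y ∈ L, f₀ ≠ (p : ℤ) • y) :
    ∃ (g : V) (μ : Module.End ℂ V → integralClosure ℤ ℂ)
      (𝔪' : Ideal (integralClosure ℤ ℂ)),
      g ≠ 0 ∧ 𝔪'.IsMaximal ∧ ((p : ℕ) : integralClosure ℤ ℂ) ∈ 𝔪' ∧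
      ∀ t ∈ G, t g = ((μ t : integralClosure ℤ ℂ) : ℂ) • g ∧
        ∀ n : ℤ, (∃ y ∈ L, t f₀ - n • f₀ = (p : ℤ) • y) →
          μ t - (n : integralClosure ℤ ℂ) ∈ 𝔪' := by
  classical
  have hcomm : ∀ a b : Algebra.adjoin ℂ G, a * b = b * a := by
    intro a b
    have hle := Algebra.adjoin_le_centralizer_centralizer ℂ G
    exact Subtype.ext
      (Set.centralizer_centralizer_comm_of_comm hG _ (hle a.2) _ (hle b.2))
  obtain ⟨g, 𝔪', hg0, hmax, hp, hall⟩ :=
    lift_ring hcomm (Algebra.adjoin ℂ G).val Subtype.val_injective p L hLfg hLspan f₀ hf₀ hf₀'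
  have hex : ∀ t : Module.End ℂ V, t ∈ G →
      ∃ a : integralClosure ℤ ℂ, t g = (a : ℂ) • g ∧
        ∀ n : ℤ, (∃ y ∈ L, t f₀ - n • f₀ = (p : ℤ) • y) →
          a - (n : integralClosure ℤ ℂ) ∈ 𝔪' := by
    intro t ht
    exact hall ⟨t, Algebra.subset_adjoin ht⟩ (hGL t ht)
  refine ⟨g, fun t => if h : t ∈ G then (hex t h).choose else 0, 𝔪', hg0, hmax, hp, ?_⟩
  intro t ht
  beta_reduce
  rw [dif_pos ht]
  exact (hex t ht).choose_spec

end Fermat.Agent.S41.DSLiftC
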