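/-
S41, block [EIS], B-copy (owner: helper79).

A homomorphism `φ : Γ₀(N) → A` which vanishes on `Γ₁(N)` (i.e. on the `γ ∈ Γ₀(N)` whose lower
right entry is `≡ 1 mod N`; equivalently whose upper left entry is `≡ 1 mod N`) satisfies
`T_ℓ φ = (ℓ + 1) • φ` for every prime `ℓ ∤ N`, where `T_ℓ = heckeTHom N ℓ` is the S16 Hecke
operator on `Hom(Γ₀(N), A)`.

Proof: with the coset representatives `α_x` (`x ∈ P¹(𝔽_ℓ)`) and `α_x γ = γ'_x α_{σ x}`, the lower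
right entries satisfy `d(α_x) d(γ) ≡ d(γ'_x) d(α_{σ x}) (mod N)`
(`S16.tData_part_apply_one_one`), and `d(α_x) ∈ {1, ℓ}`.  Choosing `τ ∈ Γ₀(N)` with
`d(τ) ≡ ℓ (mod N)` and `e_x ∈ {1, τ}` accordingly, `e_x γ` and `γ'_x e_{σ x}` have the same image
in `Γ₀(N)/Γ₁(N)`, so `φ(e_x) + φ(γ) = φ(γ'_x) + φ(e_{σ x})`; summing over `x` gives the claim.
-/
import Mathlib
import Fermat.Agent.S16.HeckeHom

set_option autoImplicit false

noncomputable section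

namespace Fermat.Agent.S41.EisB

open CongruenceSubgroup Matrix.SpecialLinearGroup
open scoped MatrixGroups
open Fermat.Agent.S16

variable {A : Type*} [AddCommGroup A]

/-- The lower right entry modulo `N`, as a function on `Γ₀(N)` (`= Gamma0Map N`). -/
theorem gamma0Map_apply (N : ℕ) (γ : Gamma0 N) :
    Gamma0Map N γ = ((((γ : SL(2, ℤ)) 1 1 : ℤ)) : ZMod N) := rfl

/-- For `γ ∈ Γ₀(N)`: `a d ≡ 1 (mod N)`. -/
theorem a_mul_d (N : ℕ) (γ : Gamma0 N) :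
    ((((γ : SL(2, ℤ)) 0 0 : ℤ)) : ZMod N) * ((((γ : SL(2, ℤ)) 1 1 : ℤ)) : ZMod N) = 1 := by
  have hdet := Matrix.SpecialLinearGroup.det_coe (γ : SL(2, ℤ))
  rw [Matrix.det_fin_two] at hdet
  have hc : ((((γ : SL(2, ℤ)) 1 0 : ℤ)) : ZMod N) = 0 := Gamma0_mem.mp γ.2
  have h := congrArg (Int.cast : ℤ → ZMod N) hdet
  push_cast at h
  rw [hc, mul_zero, sub_zero] at h
  exact h

/-- For `γ ∈ Γ₀(N)`: `a ≡ 1 (mod N)` iff `d ≡ 1 (mod N)`. -/
theorem a_eq_one_iff_d_eq_one (N : ℕ) (γ : Gamma0 N) :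
    ((((γ : SL(2, ℤ)) 0 0 : ℤ)) : ZMod N) = 1 ↔ ((((γ : SL(2, ℤ)) 1 1 : ℤ)) : ZMod N) = 1 := by
  have h := a_mul_d N γ
  constructor
  · intro ha
    rw [ha, one_mul] at h
    exact h
  · intro hd
    rw [hd, mul_one] at h
    exact h

/-- A homomorphism killing `Γ₁(N)` only depends on the lower right entry modulo `N`. -/
theorem eq_of_gamma0Map_eq (N : ℕ) (φ : Additive (Gamma0 N) →+ A)
    (h : ∀ γ : Gamma0 N, ((((γ : SL(2, ℤ)) 1 1 : ℤ)) : ZMod N) = 1 → φ (Additive.ofMul γ) = 0)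
    (γ₁ γ₂ : Gamma0 N) (h12 : Gamma0Map N γ₁ = Gamma0Map N γ₂) :
    φ (Additive.ofMul γ₁) = φ (Additive.ofMul γ₂) := by
  have h1 : Gamma0Map N (γ₁ * γ₂⁻¹) = 1 := by
    rw [map_mul, h12, ← map_mul, mul_inv_cancel, map_one]
  have h2 := h (γ₁ * γ₂⁻¹) (by rw [← gamma0Map_apply]; exact h1)
  rw [ofMul_mul, map_add, ofMul_inv, map_neg] at h2
  exact sub_eq_zero.mp (by rw [sub_eq_add_neg]; exact h2)

/-- For `ℓ` prime to `N` there is `τ ∈ Γ₀(N)` with lower right entry `≡ ℓ (mod N)`. -/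
theorem exists_gamma0Map_eq (N ℓ : ℕ) (h : Nat.Coprime ℓ N) :
    ∃ τ : Gamma0 N, Gamma0Map N τ = (ℓ : ZMod N) := by
  -- `x ℓ + y N = 1`; take `τ = [[x, -y], [N, ℓ]]`.
  have hc : IsCoprime (ℓ : ℤ) (N : ℤ) := Nat.isCoprime_iff_coprime.mpr h
  obtain ⟨x, y, hxy⟩ := hc
  have hdet : Matrix.det !![x, -y; (N : ℤ), (ℓ : ℤ)] = 1 := by
    rw [Matrix.det_fin_two_of]
    linarith
  refine ⟨⟨⟨!![x, -y; (N : ℤ), (ℓ : ℤ)], hdet⟩, ?_⟩, ?_⟩
  · rw [Gamma0_mem]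
    simp
  · rw [gamma0Map_apply]
    simp

/-- **[EIS]** A homomorphism `Γ₀(N) → A` killing `Γ₁(N)` is an eigenvector of `T_ℓ` with
eigenvalue `ℓ + 1`, for every prime `ℓ ∤ N` (condition on the lower right entry). -/
theorem heckeTHom_eq_of_kills_gamma1 (N ℓ : ℕ) [Fact ℓ.Prime] (hℓ : ¬ ℓ ∣ N)
    (φ : Additive (Gamma0 N) →+ A)
    (h : ∀ γ : Gamma0 N, ((((γ : SL(2, ℤ)) 1 1 : ℤ)) : ZMod N) = 1 → φ (Additive.ofMul γ) = 0) :
    heckeTHom N ℓ hℓ φ = (ℓ + 1) • φ := by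
  have hℓp : ℓ.Prime := Fact.out
  have hcop : Nat.Coprime ℓ N := (Nat.Prime.coprime_iff_not_dvd hℓp).mpr hℓ
  obtain ⟨τ, hτ⟩ := exists_gamma0Map_eq N ℓ hcop
  -- the auxiliary elements `e_x`
  let e : OnePoint (ZMod ℓ) → Gamma0 N := fun x => x.elim 1 (fun _ => τ)
  have he : ∀ x : OnePoint (ZMod ℓ), Gamma0Map N (e x) = ((tDen ℓ x : ℕ) : ZMod N) := by
    intro x
    induction x using OnePoint.rec with
    | infty => simp [e]
    | coe j => simpa [e] using hτ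
  refine AddMonoidHom.ext fun γ => ?_
  obtain ⟨γ, rfl⟩ := Additive.ofMul.surjective γ
  rw [heckeTHom_apply, AddMonoidHom.smul_apply]
  set D := tData N ℓ hℓ with hD
  -- the key relation for each `x`
  have key : ∀ x : OnePoint (ZMod ℓ),
      φ (Additive.ofMul (D.part γ x)) =
        φ (Additive.ofMul (e x)) + φ (Additive.ofMul γ) - φ (Additive.ofMul (e (D.perm γ x))) := by
    intro x
    have h1 : Gamma0Map N (e x * γ) = Gamma0Map N (D.part γ x * e (D.perm γ x)) := by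
      rw [map_mul, map_mul, he, he, gamma0Map_apply, gamma0Map_apply]
      exact tData_part_apply_one_one hℓ γ x
    have h2 := eq_of_gamma0Map_eq N φ h _ _ h1
    rw [ofMul_mul, map_add, ofMul_mul, map_add] at h2
    rw [h2]
    abel
  rw [Finset.sum_congr rfl (fun x _ => key x), Finset.sum_sub_distrib, Finset.sum_add_distrib,
    Equiv.sum_comp (D.perm γ) (fun x => φ (Additive.ofMul (e x))), add_sub_cancel_left,
    Finset.sum_const, Finset.card_univ]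
  congr 1
  have hcard : Fintype.card (OnePoint (ZMod ℓ)) = ℓ + 1 := by
    have : NeZero ℓ := ⟨hℓp.ne_zero⟩
    rw [show Fintype.card (OnePoint (ZMod ℓ)) = Fintype.card (Option (ZMod ℓ)) from
      Fintype.card_congr (Equiv.refl _), Fintype.card_option, ZMod.card]
  exact hcard

/-- **[EIS]**, upper-left form: a homomorphism `Γ₀(N) → A` killing every `γ` with
`γ₀₀ ≡ 1 (mod N)` satisfies `T_ℓ φ = (ℓ + 1) • φ` for every prime `ℓ ∤ N`. -/
theorem heckeTHom_eq_of_kills_gamma1' (N ℓ : ℕ) [Fact ℓ.Prime] (hℓ : ¬ ℓ ∣ N)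
    (φ : Additive (Gamma0 N) →+ A)
    (h : ∀ γ : Gamma0 N, ((((γ : SL(2, ℤ)) 0 0 : ℤ)) : ZMod N) = 1 → φ (Additive.ofMul γ) = 0) :
    heckeTHom N ℓ hℓ φ = (ℓ + 1) • φ :=
  heckeTHom_eq_of_kills_gamma1 N ℓ hℓ φ
    (fun γ hd => h γ ((a_eq_one_iff_d_eq_one N γ).mpr hd))

end Fermat.Agent.S41.EisB
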