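/-
S41, block [FS] (owner: helper12): the algebraic core.

For a finitely generated nonzero subgroup `H ⊂ ℂ` and a proper ideal `𝔪` of the ring of all
algebraic integers containing a prime number `p`, there is a homomorphism `ψ : H → ℤ`, not
divisible by `p`, such that `ψ (a h) ≡ θ ψ (h) (mod p)` whenever `a h ∈ H` and `a ≡ θ (mod 𝔪)`.

Proof: Nakayama for the `𝒪`-span `M` of `H` gives `𝔪 M ≠ M`; the quotient `H / (H ∩ 𝔪 M)` is a
nonzero `𝔽_p`-vector space, take a nonzero functional and lift it to `ℤ` (`H` is free).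
-/
import Mathlib

set_option autoImplicit false

namespace Fermat.Agent.S41.FSB

open scoped Pointwise

/-- A nonzero element of an abelian group killed by a prime `p` is detected by a homomorphism
to `ZMod p`. -/
theorem exists_addHom_zmod {Q : Type*} [AddCommGroup Q] (p : ℕ) [Fact p.Prime]
    (hQ : ∀ x : Q, p • x = 0) (v : Q) (hv : v ≠ 0) : ∃ f : Q →+ ZMod p, f v ≠ 0 := by
  obtain ⟨inst⟩ : Nonempty (Module (ZMod p) Q) := ⟨AddCommGroup.zmodModule hQ⟩
  by_contra hc
  push Not at hc
  apply hv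
  refine (Module.forall_dual_apply_eq_zero_iff (ZMod p) v).mp ?_
  intro φ
  exact hc φ.toAddMonoidHom

/-- **Algebraic core of [FS].** -/
theorem exists_functional (H : AddSubgroup ℂ) (hfg : H.FG) (hne : H ≠ ⊥)
    (𝔪 : Ideal (integralClosure ℤ ℂ)) (h𝔪 : 𝔪 ≠ ⊤) {p : ℕ} (hp : p.Prime)
    (hpm : (p : integralClosure ℤ ℂ) ∈ 𝔪) :
    ∃ ψ : H →+ ℤ, (¬ ∀ h : H, (p : ℤ) ∣ ψ h) ∧
      ∀ (a : integralClosure ℤ ℂ) (θ : ℤ), a - (θ : integralClosure ℤ ℂ) ∈ 𝔪 →
        ∀ h h' : H, (h' : ℂ) = (a : ℂ) * (h : ℂ) → (p : ℤ) ∣ ψ h' - θ * ψ h := by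
  classical
  have : Fact p.Prime := ⟨hp⟩
  -- the `𝒪`-span of `H`
  set M : Submodule (integralClosure ℤ ℂ) ℂ := Submodule.span (integralClosure ℤ ℂ) (H : Set ℂ)
    with hM
  have hHM : ∀ h : H, (h : ℂ) ∈ M := fun h => Submodule.subset_span h.2
  -- `M` is finitely generated
  have hMfg : M.FG := by
    obtain ⟨S, hS⟩ := hfg
    have h1 : M = Submodule.span (integralClosure ℤ ℂ) (S : Set ℂ) := by
      apply le_antisymm
      · rw [hM, Submodule.span_le]
        intro x hx
        have hx' : x ∈ AddSubgroup.closure (S : Set ℂ) := by rw [hS]; exact hx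
        have hle : AddSubgroup.closure (S : Set ℂ) ≤
            (Submodule.span (integralClosure ℤ ℂ) (S : Set ℂ)).toAddSubgroup := by
          rw [AddSubgroup.closure_le]
          exact Submodule.subset_span
        exact hle hx'
      · apply Submodule.span_mono
        rw [← hS]
        exact AddSubgroup.subset_closure
    rw [h1]
    exact Submodule.fg_span (Finset.finite_toSet S)
  -- Nakayama: some element of `H` is not in `𝔪 M`
  have hex : ∃ h₀ : H, (h₀ : ℂ) ∉ 𝔪 • M := by
    by_contra hcon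
    push Not at hcon
    have hle : M ≤ 𝔪 • M := by
      rw [hM, Submodule.span_le]
      intro x hx
      exact hcon ⟨x, hx⟩
    obtain ⟨r, hr1, hr2⟩ :=
      Submodule.exists_sub_one_mem_and_smul_eq_zero_of_fg_of_le_smul 𝔪 M hMfg hle
    obtain ⟨x, hx, hx0⟩ : ∃ x ∈ H, x ≠ 0 := by
      by_contra hc
      push Not at hc
      apply hne
      rw [eq_bot_iff]
      intro x hx
      rw [AddSubgroup.mem_bot]
      exact hc x hx
    have h2 := hr2 x (Submodule.subset_span hx)
    have h3 : (r : ℂ) * x = 0 := h2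
    have h4 : (r : ℂ) = 0 := by
      rcases mul_eq_zero.mp h3 with h | h
      · exact h
      · exact absurd h hx0
    have h5 : r = 0 := Subtype.ext h4
    rw [h5, zero_sub] at hr1
    apply h𝔪
    rw [Ideal.eq_top_iff_one]
    have := 𝔪.neg_mem hr1
    rwa [neg_neg] at this
  obtain ⟨h₀, hh₀⟩ := hex
  -- the subgroup `K = H ∩ 𝔪 M`
  set K : AddSubgroup H := AddSubgroup.comap H.subtype (𝔪 • M).toAddSubgroup with hK
  have hKmem : ∀ h : H, h ∈ K ↔ (h : ℂ) ∈ 𝔪 • M := fun h => Iff.rfl
  have hpK : ∀ x : H, p • x ∈ K := by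
    intro x
    rw [hKmem]
    have h1 : ((p • x : H) : ℂ) = (p : integralClosure ℤ ℂ) • (x : ℂ) := by
      rw [AddSubgroup.coe_nsmul, nsmul_eq_mul]
      rfl
    rw [h1]
    exact Submodule.smul_mem_smul hpm (hHM x)
  have hQ : ∀ x : H ⧸ K, p • x = 0 := by
    intro x
    induction x using QuotientAddGroup.induction_on with
    | H h =>
      rw [← QuotientAddGroup.mk_nsmul]
      exact (QuotientAddGroup.eq_zero_iff _).mpr (hpK h)
  have hv : (QuotientAddGroup.mk' K h₀) ≠ 0 := by
    intro h0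
    apply hh₀
    rw [← hKmem]
    exact (QuotientAddGroup.eq_zero_iff h₀).mp h0
  obtain ⟨f, hf⟩ := exists_addHom_zmod p hQ _ hv
  -- the functional mod `p`
  set ψbar : H →+ ZMod p := f.comp (QuotientAddGroup.mk' K) with hψbar
  have hψK : ∀ h : H, h ∈ K → ψbar h = 0 := by
    intro h hh
    have : QuotientAddGroup.mk' K h = 0 := (QuotientAddGroup.eq_zero_iff h).mpr hh
    show f (QuotientAddGroup.mk' K h) = 0
    rw [this, map_zero]
  -- `H` is free, lift to `ℤ`
  have : Module.Finite ℤ H :=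
    Module.Finite.iff_addGroup_fg.mpr ((AddGroup.fg_iff_addSubgroup_fg H).mpr hfg)
  have : Module.Free ℤ H := Module.free_of_finite_type_torsion_free'
  obtain ⟨ψl, hψl⟩ := Module.projective_lifting_property
    ((Int.castAddHom (ZMod p)).toIntLinearMap) (ψbar.toIntLinearMap)
    (ZMod.intCast_surjective)
  have hψ : ∀ h : H, ((ψl h : ℤ) : ZMod p) = ψbar h := fun h => by
    have := congrArg (fun g => g h) hψl
    exact this
  refine ⟨ψl.toAddMonoidHom, ?_, ?_⟩
  · intro hall
    apply hf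
    have h1 := hall h₀
    have h2 : ((ψl h₀ : ℤ) : ZMod p) = 0 := (ZMod.intCast_zmod_eq_zero_iff_dvd _ _).mpr h1
    rw [hψ] at h2
    exact h2
  · intro a θ ha h h' hh'
    have hd : h' - θ • h ∈ K := by
      rw [hKmem]
      have h1 : ((h' - θ • h : H) : ℂ) = (a - (θ : integralClosure ℤ ℂ)) • (h : ℂ) := by
        rw [AddSubgroup.coe_sub, AddSubgroup.coe_zsmul, hh', sub_smul]
        congr 1
        rw [zsmul_eq_mul]
        rfl
      rw [h1]
      exact Submodule.smul_mem_smul ha (hHM h)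
    have h2 := hψK _ hd
    rw [← hψ, map_sub, map_zsmul] at h2
    have h3 := (ZMod.intCast_zmod_eq_zero_iff_dvd _ _).mp h2
    simpa [smul_eq_mul] using h3

end Fermat.Agent.S41.FSB
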