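/-
S41, block [FS], B-route (owner: helper12): from the eigenform `f` to an eigenvector mod `p` in
the parabolic lattice `L_N = Hom_par(Γ₀(N), ℤ)`.

Route: `φ := periodMap N f : Γ₀(N) → ℂ` is a nonzero parabolic homomorphism with
`T_ℓ φ = a_ℓ(f) • φ`.  Its image `H = φ(Γ₀(N))` is a finitely generated subgroup of `ℂ`,
stable under multiplication by every `a_ℓ(f)`.  For the functional `ψ : H → ℤ` of
`FSBAlg.exists_functional`, the homomorphism `x₀ := ψ ∘ φ` is parabolic, not divisible by `p`,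
and `T_ℓ x₀ = ψ ∘ (a_ℓ ·) ∘ φ ≡ θ_ℓ x₀ (mod p)` by naturality of `T_ℓ` in the coefficients.
No commutativity of Hecke operators and no finiteness of the lattice is needed.
-/
import Mathlib
import Fermat.Agent.S16.HeckePeriod
import Fermat.Agent.S21.Main
import Fermat.Agent.S22.GammaFG
import Fermat.Agent.S41.FSBAlg
import Fermat.Agent.S41.FSEigen
import Fermat.Prelude.Def_FLTPrelim_ModularRep

set_option autoImplicit false

open CongruenceSubgroup ModularCurve ModularCurve.Period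
open scoped MatrixGroups

namespace Fermat.Agent.S41.FSB

open Fermat.Agent.S16 (heckeTHom tData CosetData)

/-- A homomorphism to `ℤ` all of whose values are divisible by `p` is `p` times a
homomorphism. -/
theorem exists_eq_zsmul_of_forall_dvd {G : Type*} [AddGroup G] (χ : G →+ ℤ) {p : ℤ}
    (h : ∀ g, p ∣ χ g) : ∃ z : G →+ ℤ, χ = p • z := by
  refine ⟨AddMonoidHom.mk' (fun g => χ g / p) ?_, ?_⟩
  · intro a b
    show χ (a + b) / p = χ a / p + χ b / p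
    rw [map_add, Int.add_ediv_of_dvd_left (h a)]
  · refine AddMonoidHom.ext fun g => ?_
    show χ g = p • (χ g / p)
    rw [smul_eq_mul, Int.mul_ediv_cancel' (h g)]

/-- The generic statement: a nonzero parabolic homomorphism `φ : Γ₀(N) → ℂ` which is an
eigenvector of the `T_ℓ`, `ℓ ∈ Pset`, with algebraic integer eigenvalues congruent to `θ ℓ`
modulo `𝔪`, produces an eigenvector mod `p` in the parabolic lattice. -/
theorem exists_eigen_of_hom (N : ℕ) [NeZero N] {p : ℕ} (hp : p.Prime)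
    (φ : Additive (Gamma0 N) →+ ℂ) (hφpar : φ ∈ parabolicHoms ℂ (Gamma0 N) ℂ) (hφ0 : φ ≠ 0)
    (𝔪 : Ideal (integralClosure ℤ ℂ)) (h𝔪 : 𝔪 ≠ ⊤) (hpm : (p : integralClosure ℤ ℂ) ∈ 𝔪)
    (Pset : Set ℕ) (θ : ℕ → ℤ)
    (hθ : ∀ (ℓ : ℕ) [Fact ℓ.Prime] (hℓ : ¬ ℓ ∣ N), ℓ ∈ Pset → ∃ a : integralClosure ℤ ℂ,
      heckeTHom N ℓ hℓ φ = (a : ℂ) • φ ∧ a - (θ ℓ : integralClosure ℤ ℂ) ∈ 𝔪) :
    ∃ x₀ : parabolicHoms ℤ (Gamma0 N) ℤ,
      (¬ ∃ z : parabolicHoms ℤ (Gamma0 N) ℤ, x₀ = (p : ℤ) • z) ∧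
      ∀ (ℓ : ℕ) [Fact ℓ.Prime] (hℓ : ¬ ℓ ∣ N), ℓ ∈ Pset →
        ∃ z : parabolicHoms ℤ (Gamma0 N) ℤ,
          heckeTHom N ℓ hℓ x₀.1 - θ ℓ • x₀.1 = (p : ℤ) • z.1 := by
  classical
  have hp0 : (p : ℤ) ≠ 0 := by exact_mod_cast hp.ne_zero
  -- the image of `φ`
  set H : AddSubgroup ℂ := AddMonoidHom.range φ with hH
  have hfg : H.FG := by
    have : Group.FG (Gamma0 N) := Fermat.Agent.S22.gamma0_fg N
    have h2 : AddGroup.FG (AddMonoidHom.range φ) := AddGroup.fg_range φ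
    exact (AddGroup.fg_iff_addSubgroup_fg _).mp h2
  have hne : H ≠ ⊥ := by
    intro hbot
    apply hφ0
    refine AddMonoidHom.ext fun g => ?_
    have h1 : φ g ∈ H := ⟨g, rfl⟩
    rw [hbot, AddSubgroup.mem_bot] at h1
    rw [h1]; rfl
  obtain ⟨ψ, hψ1, hψ2⟩ := exists_functional H hfg hne 𝔪 h𝔪 hp hpm
  set φ' : Additive (Gamma0 N) →+ H := φ.rangeRestrict with hφ'
  have hφ'coe : ∀ g, ((φ' g : H) : ℂ) = φ g := fun g => rfl
  have hφ'surj : Function.Surjective φ' := φ.rangeRestrict_surjective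
  -- vanishing on parabolic elements
  have hpar0 : ∀ γ : Gamma0 N,
      ((γ : SL(2, ℤ)) : Matrix (Fin 2) (Fin 2) ℤ).trace ^ 2 = 4 → φ' (Additive.ofMul γ) = 0 := by
    intro γ hγ
    apply Subtype.ext
    rw [hφ'coe]
    exact hφpar γ hγ
  have hx₀par : ψ.comp φ' ∈ parabolicHoms ℤ (Gamma0 N) ℤ := by
    intro γ hγ
    show ψ (φ' (Additive.ofMul γ)) = 0
    rw [hpar0 γ hγ, map_zero]
  refine ⟨⟨ψ.comp φ', hx₀par⟩, ?_, ?_⟩
  · rintro ⟨z, hz⟩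
    apply hψ1
    intro h
    obtain ⟨g, rfl⟩ := hφ'surj h
    have h1 : (ψ.comp φ') g = ((p : ℤ) • z.1) g := by
      have := congrArg (fun x : parabolicHoms ℤ (Gamma0 N) ℤ => x.1 g) hz
      exact this
    have h2 : ψ (φ' g) = (p : ℤ) * z.1 g := h1
    exact ⟨z.1 g, h2⟩
  · intro ℓ _ hℓ hℓP
    obtain ⟨a, hTa, ham⟩ := hθ ℓ hℓ hℓP
    -- naturality of the Hecke operator
    have hnat1 : heckeTHom N ℓ hℓ (ψ.comp φ') = ψ.comp (heckeTHom N ℓ hℓ φ') :=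
      (tData N ℓ hℓ).op_comp ψ φ'
    have hnat2 : H.subtype.comp (heckeTHom N ℓ hℓ φ') = heckeTHom N ℓ hℓ φ :=
      ((tData N ℓ hℓ).op_comp H.subtype φ').symm
    have hcoe : ∀ g, ((heckeTHom N ℓ hℓ φ' g : H) : ℂ) = (a : ℂ) * ((φ' g : H) : ℂ) := by
      intro g
      have h1 := congrArg (fun χ : Additive (Gamma0 N) →+ ℂ => χ g) hnat2
      have h2 : ((heckeTHom N ℓ hℓ φ' g : H) : ℂ) = heckeTHom N ℓ hℓ φ g := h1
      rw [h2, hTa, hφ'coe]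
      rfl
    have hdvd : ∀ g, (p : ℤ) ∣
        (heckeTHom N ℓ hℓ (ψ.comp φ') - θ ℓ • (ψ.comp φ')) g := by
      intro g
      have h1 := hψ2 a (θ ℓ) ham (φ' g) (heckeTHom N ℓ hℓ φ' g) (hcoe g)
      rw [hnat1]
      exact h1
    obtain ⟨z, hz⟩ := exists_eq_zsmul_of_forall_dvd
      (heckeTHom N ℓ hℓ (ψ.comp φ') - θ ℓ • (ψ.comp φ')) hdvd
    have hzpar : z ∈ parabolicHoms ℤ (Gamma0 N) ℤ := by
      intro γ hγ
      have h1 := congrArg (fun χ : Additive (Gamma0 N) →+ ℤ => χ (Additive.ofMul γ)) hz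
      have h2 : ψ (heckeTHom N ℓ hℓ φ' (Additive.ofMul γ)) - θ ℓ * ψ (φ' (Additive.ofMul γ))
          = (p : ℤ) * z (Additive.ofMul γ) := by
        rw [hnat1] at h1
        exact h1
      have h3 : heckeTHom N ℓ hℓ φ' (Additive.ofMul γ) = 0 := by
        apply Subtype.ext
        rw [hcoe, hpar0 γ hγ]
        simp
      rw [h3, hpar0 γ hγ, map_zero, mul_zero, sub_zero] at h2
      rcases mul_eq_zero.mp h2.symm with h | h
      · exact absurd h hp0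
      · exact h
    exact ⟨⟨z, hzpar⟩, hz⟩

/-- **[FS]**, conditional on the two analytic inputs (eigenform ⇒ Hecke eigenvector, and
nonvanishing of the period map). -/
theorem exists_eigen_mod_p_of_eigenform_aux (N : ℕ) [NeZero N] {p : ℕ} (hp : p.Prime)
    (f : CuspForm (Gamma0 N) 2)
    (hT : ∀ (ℓ : ℕ) (hℓ : ℓ.Prime) (hℓN : ¬ ℓ ∣ N),
      CuspForm.heckeTLin 2 hℓ hℓN f = ModularFormClass.qCoeff f ℓ • f)
    (hP : periodMap N f ≠ 0)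
    (𝔪 : Ideal (integralClosure ℤ ℂ)) (hmax : 𝔪.IsMaximal) (hpm : (p : integralClosure ℤ ℂ) ∈ 𝔪)
    (Pset : Set ℕ) (θ : ℕ → ℤ)
    (hθ : ∀ ℓ ∈ Pset, ℓ.Prime ∧ ¬ ℓ ∣ N ∧ ∃ a : integralClosure ℤ ℂ,
      (a : ℂ) = ModularFormClass.qCoeff f ℓ ∧ a - (θ ℓ : integralClosure ℤ ℂ) ∈ 𝔪) :
    ∃ x₀ : parabolicHoms ℤ (Gamma0 N) ℤ,
      (¬ ∃ z : parabolicHoms ℤ (Gamma0 N) ℤ, x₀ = (p : ℤ) • z) ∧
      ∀ (ℓ : ℕ) [Fact ℓ.Prime] (hℓ : ¬ ℓ ∣ N), ℓ ∈ Pset →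
        ∃ z : parabolicHoms ℤ (Gamma0 N) ℤ,
          heckeTHom N ℓ hℓ x₀.1 - θ ℓ • x₀.1 = (p : ℤ) • z.1 := by
  refine exists_eigen_of_hom N hp (periodMap N f)
    (Fermat.Agent.S21.periodMap_mem_parabolicHoms N f) hP 𝔪 hmax.ne_top hpm Pset θ ?_
  intro ℓ _ hℓ hℓP
  obtain ⟨hℓp, -, a, ha, ham⟩ := hθ ℓ hℓP
  refine ⟨a, ?_, ham⟩
  rw [← Fermat.Agent.S16.periodMap_heckeTLin hℓp hℓ f, hT ℓ hℓp hℓ,
    Fermat.Agent.S21.periodMap_smul, ha]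

/-- **[FS]** (B-route), skeleton statement verbatim (`Lpar N` is the abbreviation of
`parabolicHoms ℤ (Gamma0 N) ℤ`). -/
theorem exists_eigen_mod_p_of_eigenform (N : ℕ) [NeZero N] {p : ℕ} (hp : p.Prime)
    (f : CuspForm (Gamma0 N) 2) (hf : f.IsNormalizedEigenform)
    (𝔪 : Ideal (integralClosure ℤ ℂ)) (hmax : 𝔪.IsMaximal) (hpm : (p : integralClosure ℤ ℂ) ∈ 𝔪)
    (Pset : Set ℕ) (θ : ℕ → ℤ)
    (hθ : ∀ ℓ ∈ Pset, ℓ.Prime ∧ ¬ ℓ ∣ N ∧ ∃ a : integralClosure ℤ ℂ,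
      (a : ℂ) = ModularFormClass.qCoeff f ℓ ∧ a - (θ ℓ : integralClosure ℤ ℂ) ∈ 𝔪) :
    ∃ x₀ : parabolicHoms ℤ (Gamma0 N) ℤ,
      (¬ ∃ z : parabolicHoms ℤ (Gamma0 N) ℤ, x₀ = (p : ℤ) • z) ∧
      ∀ (ℓ : ℕ) [Fact ℓ.Prime] (hℓ : ¬ ℓ ∣ N), ℓ ∈ Pset →
        ∃ z : parabolicHoms ℤ (Gamma0 N) ℤ,
          heckeTHom N ℓ hℓ x₀.1 - θ ℓ • x₀.1 = (p : ℤ) • z.1 :=
  exists_eigen_mod_p_of_eigenform_aux N hp f
    (fun _ hℓ hℓN => Fermat.Agent.S41.FSEigen.heckeTLin_eq_smul f hf hℓ hℓN)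
    (Fermat.Agent.S41.FSEigen.periodMap_ne_zero f hf.ne_zero) 𝔪 hmax hpm Pset θ hθ

end Fermat.Agent.S41.FSB
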