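/-
S41, block [COH] (C3), B-copy: `res₁`, `res₂`, `tr₁`, `tr₂` commute with `T_ℓ`, `ℓ ∤ N q`.
Owner: helper16.  (All statements live in the namespace `Fermat.Agent.S41.HeckeCommB`.)

Proof: `TransferComm.transferAlong_op_comm` / `res_op_comm` (helper99) for the representatives
`heckeRep ℓ x`, `x : OnePoint (ZMod ℓ)`; for `incl₂` the conjugated representatives
`δ α_x δ⁻¹ = u(t) α_{q x}`, `δ = diag(q, 1)`.
-/
import Mathlib
import Fermat.Agent.S16.HeckeHom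
import Fermat.Agent.S41.Defs
import Fermat.Agent.S41.TransferComm
import Fermat.Agent.S41.HeckeCommU

set_option autoImplicit false

noncomputable section

namespace Fermat.Agent.S41.HeckeCommB

open CongruenceSubgroup Matrix.SpecialLinearGroup
open scoped MatrixGroups
open P2MW.S_ModularForm_heckeT_slash_eq_self_of_mem_Gamma0.ModularForm.HeckeSlashInvariance
open Fermat.Agent.S16 Fermat.Agent.S41.HeckeCommU

section Rep

variable {ℓ : ℕ} [Fact ℓ.Prime]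

/-- upper left entry of `heckeRep ℓ x` -/
def aT (ℓ : ℕ) (x : OnePoint (ZMod ℓ)) : ℤ := x.elim (ℓ : ℤ) (fun _ => 1)
/-- upper right entry of `heckeRep ℓ x` -/
def bT (ℓ : ℕ) (x : OnePoint (ZMod ℓ)) : ℤ := x.elim 0 (fun j => (j.val : ℤ))
/-- lower right entry of `heckeRep ℓ x` -/
def dT (ℓ : ℕ) (x : OnePoint (ZMod ℓ)) : ℤ := x.elim 1 (fun _ => (ℓ : ℤ))

theorem hr00 (x : OnePoint (ZMod ℓ)) :
    ((heckeRep ℓ x : GL (Fin 2) ℝ) : Matrix (Fin 2) (Fin 2) ℝ) 0 0 = (aT ℓ x : ℝ) := by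
  induction x using OnePoint.rec with
  | infty => rw [heckeRep_infty, hd00]; simp [aT]
  | coe j => rw [heckeRep_coe, hm00]; simp [aT]

theorem hr01 (x : OnePoint (ZMod ℓ)) :
    ((heckeRep ℓ x : GL (Fin 2) ℝ) : Matrix (Fin 2) (Fin 2) ℝ) 0 1 = (bT ℓ x : ℝ) := by
  induction x using OnePoint.rec with
  | infty => rw [heckeRep_infty, hd01]; simp [bT]
  | coe j => rw [heckeRep_coe, hm01]; simp [bT]

theorem hr10 (x : OnePoint (ZMod ℓ)) :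
    ((heckeRep ℓ x : GL (Fin 2) ℝ) : Matrix (Fin 2) (Fin 2) ℝ) 1 0 = 0 := by
  induction x using OnePoint.rec with
  | infty => rw [heckeRep_infty, hd10]
  | coe j => rw [heckeRep_coe, hm10]

theorem hr11 (x : OnePoint (ZMod ℓ)) :
    ((heckeRep ℓ x : GL (Fin 2) ℝ) : Matrix (Fin 2) (Fin 2) ℝ) 1 1 = (dT ℓ x : ℝ) := by
  induction x using OnePoint.rec with
  | infty => rw [heckeRep_infty, hd11]; simp [dT]
  | coe j => rw [heckeRep_coe, hm11]; simp [dT]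

theorem aT_dvd (x : OnePoint (ZMod ℓ)) : aT ℓ x ∣ (ℓ : ℤ) := by
  induction x using OnePoint.rec with
  | infty => exact dvd_refl _
  | coe j => exact one_dvd _

theorem dT_dvd (x : OnePoint (ZMod ℓ)) : dT ℓ x ∣ (ℓ : ℤ) := by
  induction x using OnePoint.rec with
  | infty => exact one_dvd _
  | coe j => exact dvd_refl _

/-- The cosets `SL₂(ℤ) · heckeRep ℓ x`, `x ∈ P¹(𝔽_ℓ)`, are pairwise distinct. -/
theorem heckeRep_disjoint (g : SL(2, ℤ)) (x y : OnePoint (ZMod ℓ))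
    (h : mapGL ℝ g * heckeRep ℓ x = heckeRep ℓ y) : x = y := by
  have hℓ : (ℓ : ℤ) ≠ 1 ∧ (ℓ : ℤ) ≠ -1 := by
    have := (Fact.out : ℓ.Prime).two_le
    constructor <;> omega
  have hnu : ¬ (ℓ : ℤ) ∣ 1 := by
    intro hd
    rcases Int.isUnit_iff.mp (isUnit_of_dvd_one hd) with h1 | h1
    · exact hℓ.1 h1
    · exact hℓ.2 h1
  have e00 := congrArg (fun M : GL (Fin 2) ℝ => (M : Matrix (Fin 2) (Fin 2) ℝ) 0 0) h
  have e10 := congrArg (fun M : GL (Fin 2) ℝ => (M : Matrix (Fin 2) (Fin 2) ℝ) 1 0) h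
  have e11 := congrArg (fun M : GL (Fin 2) ℝ => (M : Matrix (Fin 2) (Fin 2) ℝ) 1 1) h
  simp only [gl_mul_apply, hr00, hr01, hr10, hr11, mapGL_apply] at e00 e10 e11
  have i00 : g 0 0 * aT ℓ x = aT ℓ y := by
    have : ((g 0 0 * aT ℓ x : ℤ) : ℝ) = ((aT ℓ y : ℤ) : ℝ) := by push_cast; linarith
    exact_mod_cast this
  have i10 : g 1 0 * aT ℓ x = 0 := by
    have : ((g 1 0 * aT ℓ x : ℤ) : ℝ) = ((0 : ℤ) : ℝ) := by push_cast; linarith
    exact_mod_cast this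
  have i11 : g 1 0 * bT ℓ x + g 1 1 * dT ℓ x = dT ℓ y := by
    have : ((g 1 0 * bT ℓ x + g 1 1 * dT ℓ x : ℤ) : ℝ) = ((dT ℓ y : ℤ) : ℝ) := by
      push_cast; linarith
    exact_mod_cast this
  induction x using OnePoint.rec with
  | infty =>
    induction y using OnePoint.rec with
    | infty => rfl
    | coe j' =>
      exfalso
      have : g 0 0 * (ℓ : ℤ) = 1 := i00
      exact hnu (Dvd.intro_left _ this)
  | coe j =>
    induction y using OnePoint.rec with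
    | infty =>
      exfalso
      have h1 : g 1 0 * 1 = 0 := i10
      have h2 : g 1 0 * (j.val : ℤ) + g 1 1 * (ℓ : ℤ) = 1 := i11
      rw [mul_one] at h1
      rw [h1, zero_mul, zero_add] at h2
      exact hnu (Dvd.intro_left _ h2)
    | coe j' =>
      have := heckeMatrix_disjoint g j j' h
      rw [this]

end Rep

section Main

variable (N q : ℕ) {A : Type*} [AddCommGroup A]

theorem coprime_aux {ℓ : ℕ} [Fact ℓ.Prime] (hℓ' : ¬ ℓ ∣ N * q) :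
    IsCoprime (ℓ : ℤ) ((N * q : ℕ) : ℤ) ∧ IsCoprime (ℓ : ℤ) (q : ℤ) := by
  have h1 : Nat.Coprime ℓ (N * q) := (Nat.Prime.coprime_iff_not_dvd Fact.out).mpr hℓ'
  exact ⟨Nat.isCoprime_iff_coprime.mpr h1,
    Nat.isCoprime_iff_coprime.mpr (Nat.Coprime.coprime_dvd_right (Dvd.intro_left N rfl) h1)⟩

/-- the hypothesis `hR` of `transferAlong_op_comm` for `incl₁` and the representatives of `T_ℓ` -/
theorem hR₁ {ℓ : ℕ} [Fact ℓ.Prime] (hℓ' : ¬ ℓ ∣ N * q) (g : Gamma0 N)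
    (x x' : OnePoint (ZMod ℓ)) (h : Gamma0 (N * q))
    (hh : heckeRep ℓ x * toGL N g = toGL N (incl₁ N q h) * heckeRep ℓ x') :
    g ∈ (incl₁ N q).range := by
  rw [toGL_apply, toGL_apply, incl₁_coe] at hh
  have e10 := congrArg (fun M : GL (Fin 2) ℝ => (M : Matrix (Fin 2) (Fin 2) ℝ) 1 0) hh
  simp only [gl_mul_apply, hr00, hr10, hr11, mapGL_apply] at e10
  have e10' : dT ℓ x * (g : SL(2, ℤ)) 1 0 = (h : SL(2, ℤ)) 1 0 * aT ℓ x' := by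
    have : ((dT ℓ x * (g : SL(2, ℤ)) 1 0 : ℤ) : ℝ) = (((h : SL(2, ℤ)) 1 0 * aT ℓ x' : ℤ) : ℝ) := by
      push_cast
      linarith
    exact_mod_cast this
  have hdvd : ((N * q : ℕ) : ℤ) ∣ (h : SL(2, ℤ)) 1 0 := mem_Gamma0_iff_dvd.mp h.2
  have h2 : ((N * q : ℕ) : ℤ) ∣ dT ℓ x * (g : SL(2, ℤ)) 1 0 := by
    rw [e10']
    exact Dvd.dvd.mul_right hdvd _
  have hcop : IsCoprime ((N * q : ℕ) : ℤ) (dT ℓ x) :=
    ((coprime_aux N q hℓ').1.of_isCoprime_of_dvd_left (dT_dvd x)).symm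
  have hmem : (g : SL(2, ℤ)) ∈ Gamma0 (N * q) :=
    mem_Gamma0_iff_dvd.mpr (hcop.dvd_of_dvd_mul_left h2)
  exact ⟨⟨(g : SL(2, ℤ)), hmem⟩, Subtype.ext rfl⟩

/-- (C3) `tr₁` commutes with `T_ℓ`, `ℓ ∤ N q`. -/
theorem tr₁_heckeT {ℓ : ℕ} [Fact ℓ.Prime] (hℓ : ¬ ℓ ∣ N) (hℓ' : ¬ ℓ ∣ N * q)
    (ψ : Additive (Gamma0 (N * q)) →+ A) :
    tr₁ N q (heckeTHom (N * q) ℓ hℓ' ψ) = heckeTHom N ℓ hℓ (tr₁ N q ψ) := by
  refine TransferComm.transferAlong_op_comm (toGL N) (toGL_injective N) (incl₁ N q)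
    (incl₁_injective N q) (tData N ℓ hℓ) (tData (N * q) ℓ hℓ')
    (fun x => heckeRep ℓ x) (fun γ x => tData_spec hℓ γ x)
    (fun γ x y h => heckeRep_disjoint (γ : SL(2, ℤ)) x y h) 1 (fun _ => 1)
    (fun x => heckeRep ℓ x) ?_ (fun h x => tData_spec hℓ' h x) (hR₁ N q hℓ') ψ
  intro x
  rw [map_one, one_mul, Equiv.Perm.one_apply]

/-- (C3) `res₁` commutes with `T_ℓ`, `ℓ ∤ N q`. -/
theorem res₁_heckeT {ℓ : ℕ} [Fact ℓ.Prime] (hℓ : ¬ ℓ ∣ N) (hℓ' : ¬ ℓ ∣ N * q)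
    (φ : Additive (Gamma0 N) →+ A) :
    res₁ N q (heckeTHom N ℓ hℓ φ) = heckeTHom (N * q) ℓ hℓ' (res₁ N q φ) := by
  refine TransferComm.res_op_comm (toGL N) (toGL_injective N) (incl₁ N q)
    (tData N ℓ hℓ) (tData (N * q) ℓ hℓ')
    (fun x => heckeRep ℓ x) (fun γ x => tData_spec hℓ γ x)
    (fun γ x y h => heckeRep_disjoint (γ : SL(2, ℤ)) x y h) 1 (fun _ => 1)
    (fun x => heckeRep ℓ x) ?_ (fun h x => tData_spec hℓ' h x) φ
  intro x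
  rw [map_one, one_mul, Equiv.Perm.one_apply]

section Twisted

variable [Fact q.Prime]

/-- the unipotent correction `c_x`: `δ α_x δ⁻¹ = c_x α_{q x}` -/
def cT (ℓ : ℕ) [NeZero ℓ] (x : OnePoint (ZMod ℓ)) : Gamma0 N :=
  x.elim 1 (fun j => uMat N (tPar q j))

/-- the permutation `x ↦ q x` of `P¹(𝔽_ℓ)` -/
def mT {ℓ : ℕ} (hℓq : Nat.Coprime q ℓ) : Equiv.Perm (OnePoint (ZMod ℓ)) :=
  Equiv.optionCongr (Units.mulLeft (ZMod.unitOfCoprime q hℓq))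

theorem mT_infty {ℓ : ℕ} (hℓq : Nat.Coprime q ℓ) : mT q hℓq (OnePoint.infty) = OnePoint.infty :=
  rfl

theorem mT_coe {ℓ : ℕ} (hℓq : Nat.Coprime q ℓ) (j : ZMod ℓ) :
    mT q hℓq (j : OnePoint (ZMod ℓ)) = (((q : ZMod ℓ) * j : ZMod ℓ) : OnePoint (ZMod ℓ)) := by
  show (Option.some ((ZMod.unitOfCoprime q hℓq : ZMod ℓ) * j) : Option (ZMod ℓ)) = _
  rw [ZMod.coe_unitOfCoprime]
  rfl

/-- `c_x α_{q x} δ = δ α_x`. -/
theorem conj_heckeRep {ℓ : ℕ} [Fact ℓ.Prime] (hℓq : Nat.Coprime q ℓ) (x : OnePoint (ZMod ℓ)) :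
    toGL N (cT N q ℓ x) * heckeRep ℓ (mT q hℓq x) * ModularForm.heckeDiagMatrix q =
      ModularForm.heckeDiagMatrix q * heckeRep ℓ x := by
  have : NeZero q := ⟨(Fact.out : q.Prime).ne_zero⟩
  induction x using OnePoint.rec with
  | infty =>
    rw [mT_infty, heckeRep_infty]
    show toGL N 1 * _ * _ = _
    rw [map_one, one_mul]
    apply gl_ext <;> simp only [gl_mul_apply, hd00, hd01, hd10, hd11] <;> ring
  | coe j =>
    rw [mT_coe, heckeRep_coe, heckeRep_coe]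
    exact conj_heckeMatrix N q j

/-- (C3) `tr₂` and `res₂` commute with `T_ℓ`, `ℓ ∤ N q`: common set-up. -/
theorem twisted_setup {ℓ : ℕ} [Fact ℓ.Prime] (hℓ' : ¬ ℓ ∣ N * q) :
    ∃ (m : Equiv.Perm (OnePoint (ZMod ℓ))) (c : OnePoint (ZMod ℓ) → Gamma0 N)
      (α' : OnePoint (ZMod ℓ) → GL (Fin 2) ℝ),
      (∀ x, α' x = toGL N (c x) * heckeRep ℓ (m x)) ∧
      (∀ (h : Gamma0 (N * q)) (x : OnePoint (ZMod ℓ)),
        α' x * toGL N (incl₂ N q h) =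
          toGL N (incl₂ N q ((tData (N * q) ℓ hℓ').part h x)) *
            α' ((tData (N * q) ℓ hℓ').perm h x)) ∧
      (∀ (g : Gamma0 N) (x x' : OnePoint (ZMod ℓ)) (h : Gamma0 (N * q)),
        α' x * toGL N g = toGL N (incl₂ N q h) * α' x' → g ∈ (incl₂ N q).range) := by
  have hq : q.Prime := Fact.out
  have : NeZero q := ⟨hq.ne_zero⟩
  have hcop := (coprime_aux N q hℓ').2
  have hℓq : Nat.Coprime q ℓ := (Nat.isCoprime_iff_coprime.mp hcop).symm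
  obtain ⟨δ, hδ⟩ : ∃ δ : GL (Fin 2) ℝ, δ = ModularForm.heckeDiagMatrix q := ⟨_, rfl⟩
  obtain ⟨α, hα⟩ : ∃ α : OnePoint (ZMod ℓ) → GL (Fin 2) ℝ, ∀ x, α x = heckeRep ℓ x :=
    ⟨_, fun _ => rfl⟩
  obtain ⟨α', hα'⟩ : ∃ α' : OnePoint (ZMod ℓ) → GL (Fin 2) ℝ,
      ∀ x, α' x = toGL N (cT N q ℓ x) * α (mT q hℓq x) := ⟨_, fun _ => rfl⟩
  have hincl : ∀ h : Gamma0 (N * q),
      mapGL ℝ ((incl₂ N q h : Gamma0 N) : SL(2, ℤ)) * δ = δ * mapGL ℝ (h : SL(2, ℤ)) := by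
    intro h
    rw [hδ]
    exact mapGL_incl₂_mul h
  have key : ∀ x, α' x * δ = δ * α x := by
    intro x
    rw [hα', hα, hα, hδ]
    exact conj_heckeRep N q hℓq x
  have hE2 : ∀ (h : Gamma0 (N * q)) (x : OnePoint (ZMod ℓ)), α x * mapGL ℝ (h : SL(2, ℤ)) =
      mapGL ℝ (((tData (N * q) ℓ hℓ').part h x : Gamma0 (N * q)) : SL(2, ℤ)) *
        α ((tData (N * q) ℓ hℓ').perm h x) := by
    intro h x
    rw [hα, hα]
    exact tData_spec hℓ' h x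
  refine ⟨mT q hℓq, cT N q ℓ, α', ?_, ?_, ?_⟩
  · intro x
    rw [hα', hα]
  · intro h x
    apply mul_right_cancel (b := δ)
    calc α' x * toGL N (incl₂ N q h) * δ
        = α' x * (mapGL ℝ ((incl₂ N q h : Gamma0 N) : SL(2, ℤ)) * δ) := by
          rw [toGL_apply, mul_assoc]
      _ = α' x * δ * mapGL ℝ (h : SL(2, ℤ)) := by rw [hincl, mul_assoc]
      _ = δ * (α x * mapGL ℝ (h : SL(2, ℤ))) := by rw [key, mul_assoc]
      _ = δ * mapGL ℝ ((((tData (N * q) ℓ hℓ').part h x : Gamma0 (N * q))) : SL(2, ℤ)) *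
            α ((tData (N * q) ℓ hℓ').perm h x) := by rw [hE2, mul_assoc]
      _ = mapGL ℝ ((incl₂ N q ((tData (N * q) ℓ hℓ').part h x) : Gamma0 N) : SL(2, ℤ)) *
            (δ * α ((tData (N * q) ℓ hℓ').perm h x)) := by
          rw [← hincl, mul_assoc]
      _ = toGL N (incl₂ N q ((tData (N * q) ℓ hℓ').part h x)) *
            α' ((tData (N * q) ℓ hℓ').perm h x) * δ := by
          rw [← key, toGL_apply, mul_assoc]
  · intro g x x' h hh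
    obtain ⟨Y, hY⟩ : ∃ Y : GL (Fin 2) ℝ, Y = δ⁻¹ * mapGL ℝ (g : SL(2, ℤ)) * δ := ⟨_, rfl⟩
    have e2 : δ * Y = mapGL ℝ (g : SL(2, ℤ)) * δ := by
      rw [hY]
      group
    have e1 : α x * Y = mapGL ℝ (h : SL(2, ℤ)) * α x' := by
      apply mul_left_cancel (a := δ)
      calc δ * (α x * Y) = α' x * (δ * Y) := by rw [← mul_assoc, ← key, mul_assoc]
        _ = α' x * toGL N g * δ := by rw [e2, toGL_apply, mul_assoc]
        _ = toGL N (incl₂ N q h) * (α' x' * δ) := by rw [hh, mul_assoc]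
        _ = mapGL ℝ ((incl₂ N q h : Gamma0 N) : SL(2, ℤ)) * δ * α x' := by
            rw [key, toGL_apply, mul_assoc]
        _ = δ * (mapGL ℝ (h : SL(2, ℤ)) * α x') := by rw [hincl, mul_assoc]
    have eY01 := congrArg (fun M : GL (Fin 2) ℝ => (M : Matrix (Fin 2) (Fin 2) ℝ) 0 1) e2
    have eY11 := congrArg (fun M : GL (Fin 2) ℝ => (M : Matrix (Fin 2) (Fin 2) ℝ) 1 1) e2
    have e01 := congrArg (fun M : GL (Fin 2) ℝ => (M : Matrix (Fin 2) (Fin 2) ℝ) 0 1) e1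
    simp only [hα, hδ, gl_mul_apply, hd00, hd01, hd10, hd11, hr00, hr01, hr11,
      mapGL_apply] at eY01 eY11 e01
    have e01' : aT ℓ x * (g : SL(2, ℤ)) 0 1 = (q : ℤ) * ((h : SL(2, ℤ)) 0 0 * bT ℓ x' +
        (h : SL(2, ℤ)) 0 1 * dT ℓ x' - bT ℓ x * (g : SL(2, ℤ)) 1 1) := by
      have : ((aT ℓ x * (g : SL(2, ℤ)) 0 1 : ℤ) : ℝ) = (((q : ℤ) * ((h : SL(2, ℤ)) 0 0 * bT ℓ x' +
          (h : SL(2, ℤ)) 0 1 * dT ℓ x' - bT ℓ x * (g : SL(2, ℤ)) 1 1) : ℤ) : ℝ) := by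
        push_cast
        linear_combination (q : ℝ) * e01 - (aT ℓ x : ℝ) * eY01 - (q : ℝ) * (bT ℓ x : ℝ) * eY11
      exact_mod_cast this
    have hq1 : (q : ℤ) ∣ aT ℓ x * (g : SL(2, ℤ)) 0 1 := Dvd.intro _ e01'.symm
    have hcop' : IsCoprime (q : ℤ) (aT ℓ x) := (hcop.of_isCoprime_of_dvd_left (aT_dvd x)).symm
    exact mem_range_incl₂ (NeZero.ne q) g (hcop'.dvd_of_dvd_mul_left hq1)

/-- (C3) `tr₂` commutes with `T_ℓ`, `ℓ ∤ N q`. -/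
theorem tr₂_heckeT {ℓ : ℕ} [Fact ℓ.Prime] (hℓ : ¬ ℓ ∣ N) (hℓ' : ¬ ℓ ∣ N * q)
    (ψ : Additive (Gamma0 (N * q)) →+ A) :
    tr₂ N q (heckeTHom (N * q) ℓ hℓ' ψ) = heckeTHom N ℓ hℓ (tr₂ N q ψ) := by
  obtain ⟨m, c, α', hα', hE', hR⟩ := twisted_setup N q hℓ'
  exact TransferComm.transferAlong_op_comm (toGL N) (toGL_injective N) (incl₂ N q)
    (incl₂_injective N q (Fact.out : q.Prime).ne_zero) (tData N ℓ hℓ) (tData (N * q) ℓ hℓ')
    (fun x => heckeRep ℓ x) (fun γ x => tData_spec hℓ γ x)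
    (fun γ x y h => heckeRep_disjoint (γ : SL(2, ℤ)) x y h) m c α' hα' hE' hR ψ

/-- (C3) `res₂` commutes with `T_ℓ`, `ℓ ∤ N q`. -/
theorem res₂_heckeT {ℓ : ℕ} [Fact ℓ.Prime] (hℓ : ¬ ℓ ∣ N) (hℓ' : ¬ ℓ ∣ N * q)
    (φ : Additive (Gamma0 N) →+ A) :
    res₂ N q (heckeTHom N ℓ hℓ φ) = heckeTHom (N * q) ℓ hℓ' (res₂ N q φ) := by
  obtain ⟨m, c, α', hα', hE', -⟩ := twisted_setup N q hℓ'
  exact TransferComm.res_op_comm (toGL N) (toGL_injective N) (incl₂ N q)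
    (tData N ℓ hℓ) (tData (N * q) ℓ hℓ')
    (fun x => heckeRep ℓ x) (fun γ x => tData_spec hℓ γ x)
    (fun γ x y h => heckeRep_disjoint (γ : SL(2, ℤ)) x y h) m c α' hα' hE' φ

end Twisted

end Main

end Fermat.Agent.S41.HeckeCommB
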