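/-
S41 (level raising), block [COH], leaf (C2) (and (C1)): the mixed composites of the two
transfers with the two restrictions are `T_q`.  Owner: helper28.

DEFS-INDEPENDENT core: everything is stated for arbitrary homomorphisms
`i₁ i₂ : Γ₀(Nq) →* Γ₀(N)` satisfying the specifications of the inclusion (`hi₁`) and of the
twisted inclusion `γ ↦ δ γ δ⁻¹`, `δ = diag(q, 1)` (`hi₂`), and for arbitrary transfer data
(`CosetLib.TransferData`) realised by coset representatives `r : ι → Γ₀(N)`.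

* `tr_res₂_eq_heckeT`: transfer along `i₁` ∘ restriction along `i₂` = `T_q`;
* `tr_res₁_eq_heckeT`: transfer along `i₂` ∘ restriction along `i₁` = `T_q`;
* `tr_res_self`: transfer ∘ restriction along the same map = `card ι`.
-/
import Mathlib
import Fermat.Agent.S16.HeckeHom
import Fermat.Agent.S41.CosetLib
import Fermat.Agent.S41.CosetCmp

set_option autoImplicit false

noncomputable section

namespace Fermat.Agent.S41.MixedTr

open CongruenceSubgroup Matrix.SpecialLinearGroup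
open scoped MatrixGroups
open Fermat.Agent.S16
open P2MW.S_ModularForm_heckeT_slash_eq_self_of_mem_Gamma0.ModularForm.HeckeSlashInvariance

/-- `g = δ h δ⁻¹` with `δ = diag(q, 1)`, entrywise (the shape of the skeleton `incl₂_entries`). -/
def IsConjEntries (q : ℕ) (h g : SL(2, ℤ)) : Prop :=
  g 0 0 = h 0 0 ∧ g 0 1 = q * h 0 1 ∧ (q : ℤ) * g 1 0 = h 1 0 ∧ g 1 1 = h 1 1

/-- `diag(q,1) * h = (δ h δ⁻¹) * diag(q,1)`. -/
theorem heckeDiagMatrix_mul {q : ℕ} (hq : q ≠ 0) {h g : SL(2, ℤ)} (hc : IsConjEntries q h g) :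
    ModularForm.heckeDiagMatrix q * mapGL ℝ h = mapGL ℝ g * ModularForm.heckeDiagMatrix q := by
  obtain ⟨e00, e01, e10, e11⟩ := hc
  have e10' : ((h 1 0 : ℤ) : ℝ) = (q : ℝ) * ((g 1 0 : ℤ) : ℝ) := by
    rw [← e10]; push_cast; ring
  apply Matrix.GeneralLinearGroup.ext
  intro i j
  fin_cases i <;> fin_cases j
  · simp [Matrix.mul_apply, Fin.sum_univ_two, ModularForm.val_heckeDiagMatrix hq, e00]
    ring
  · simp [Matrix.mul_apply, Fin.sum_univ_two, ModularForm.val_heckeDiagMatrix hq, e01]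
  · simp [Matrix.mul_apply, Fin.sum_univ_two, ModularForm.val_heckeDiagMatrix hq, e10']
    ring
  · simp [Matrix.mul_apply, Fin.sum_univ_two, ModularForm.val_heckeDiagMatrix hq, e11]

/-- `diag(1,q) * (δ h δ⁻¹) = h * diag(1,q)`. -/
theorem heckeMatrix_zero_mul {q : ℕ} (hq : q ≠ 0) {h g : SL(2, ℤ)} (hc : IsConjEntries q h g) :
    ModularForm.heckeMatrix q 0 * mapGL ℝ g = mapGL ℝ h * ModularForm.heckeMatrix q 0 := by
  obtain ⟨e00, e01, e10, e11⟩ := hc
  have e10' : ((h 1 0 : ℤ) : ℝ) = (q : ℝ) * ((g 1 0 : ℤ) : ℝ) := by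
    rw [← e10]; push_cast; ring
  apply Matrix.GeneralLinearGroup.ext
  intro i j
  fin_cases i <;> fin_cases j
  · simp [Matrix.mul_apply, Fin.sum_univ_two, ModularForm.val_heckeMatrix hq, e00]
  · simp [Matrix.mul_apply, Fin.sum_univ_two, ModularForm.val_heckeMatrix hq, e01]
    ring
  · simp [Matrix.mul_apply, Fin.sum_univ_two, ModularForm.val_heckeMatrix hq, e10']
  · simp [Matrix.mul_apply, Fin.sum_univ_two, ModularForm.val_heckeMatrix hq, e11]
    ring

/-- If `diag(q,1) * s = g * diag(q,1)` then `s₁₀ = q * g₁₀`. -/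
theorem apply_one_zero_of_heckeDiagMatrix_mul {q : ℕ} (hq : q ≠ 0) {s g : SL(2, ℤ)}
    (h : ModularForm.heckeDiagMatrix q * mapGL ℝ s = mapGL ℝ g * ModularForm.heckeDiagMatrix q) :
    s 1 0 = q * g 1 0 := by
  have h10 := congrArg (fun M : GL (Fin 2) ℝ => (M : Matrix (Fin 2) (Fin 2) ℝ) 1 0) h
  simp [Matrix.mul_apply, Fin.sum_univ_two, ModularForm.val_heckeDiagMatrix hq] at h10
  have : ((s 1 0 : ℤ) : ℝ) = (((q : ℤ) * g 1 0 : ℤ) : ℝ) := by
    push_cast; linarith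
  exact_mod_cast this

/-- If `diag(1,q) * s = g * diag(1,q)` then `s = δ g δ⁻¹` entrywise. -/
theorem isConjEntries_of_heckeMatrix_zero_mul {q : ℕ} (hq : q ≠ 0) {s g : SL(2, ℤ)}
    (h : ModularForm.heckeMatrix q 0 * mapGL ℝ s = mapGL ℝ g * ModularForm.heckeMatrix q 0) :
    IsConjEntries q g s := by
  have hq' : (q : ℝ) ≠ 0 := Nat.cast_ne_zero.mpr hq
  have h00 := congrArg (fun M : GL (Fin 2) ℝ => (M : Matrix (Fin 2) (Fin 2) ℝ) 0 0) h
  have h01 := congrArg (fun M : GL (Fin 2) ℝ => (M : Matrix (Fin 2) (Fin 2) ℝ) 0 1) h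
  have h10 := congrArg (fun M : GL (Fin 2) ℝ => (M : Matrix (Fin 2) (Fin 2) ℝ) 1 0) h
  have h11 := congrArg (fun M : GL (Fin 2) ℝ => (M : Matrix (Fin 2) (Fin 2) ℝ) 1 1) h
  simp [Matrix.mul_apply, Fin.sum_univ_two, ModularForm.val_heckeMatrix hq] at h00 h01 h10 h11
  refine ⟨?_, ?_, ?_, ?_⟩
  · exact_mod_cast h00
  · have : ((s 0 1 : ℤ) : ℝ) = (((q : ℤ) * g 0 1 : ℤ) : ℝ) := by push_cast; linarith
    exact_mod_cast this
  · have : (((q : ℤ) * s 1 0 : ℤ) : ℝ) = ((g 1 0 : ℤ) : ℝ) := by push_cast; linarith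
    exact_mod_cast this
  · have : ((s 1 1 : ℤ) : ℝ) = ((g 1 1 : ℤ) : ℝ) := by
      apply mul_left_cancel₀ hq'
      linarith
    exact_mod_cast this

theorem card_onePoint_zmod (q : ℕ) [NeZero q] : Fintype.card (OnePoint (ZMod q)) = q + 1 := by
  have : Fintype.card (Option (ZMod q)) = q + 1 := by
    rw [Fintype.card_option, ZMod.card]
  exact this

section Main

variable {N q : ℕ} [Fact q.Prime]

/-- The embedding `Γ₀(N) → GL₂(ℝ)`. -/
def jN (N : ℕ) : Gamma0 N →* GL (Fin 2) ℝ := (mapGL ℝ).comp (Gamma0 N).subtype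

theorem jN_injective (N : ℕ) : Function.Injective (jN N) := fun a b h =>
  Subtype.ext (mapGL_injective (S := ℝ) h)

theorem jN_apply (N : ℕ) (g : Gamma0 N) : jN N g = mapGL ℝ (g : SL(2, ℤ)) := rfl

/-- **(C2), first half.**  Transfer along `i₁` (the inclusion) composed with restriction along
`i₂` (the twisted inclusion) is `T_q`. -/
theorem tr_res₂_eq_heckeT (hqN : ¬ q ∣ N) (i₁ i₂ : Gamma0 (N * q) →* Gamma0 N)
    (hi₁ : ∀ γ : Gamma0 (N * q), ((i₁ γ : Gamma0 N) : SL(2, ℤ)) = γ)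
    (hi₂ : ∀ γ : Gamma0 (N * q),
      IsConjEntries q (γ : SL(2, ℤ)) ((i₂ γ : Gamma0 N) : SL(2, ℤ)))
    {ι : Type*} [Fintype ι] (hcard : Fintype.card ι = q + 1)
    (D : CosetLib.TransferData (Gamma0 (N * q)) (Gamma0 N) ι) (r : ι → Gamma0 N)
    (hspec : ∀ γ x, r x * γ = i₁ (D.part γ x) * r (D.perm γ x))
    (hdis : ∀ (h : Gamma0 (N * q)) (x y : ι), i₁ h * r x = r y → x = y)
    {A : Type*} [AddCommGroup A] (φ : Additive (Gamma0 N) →+ A) :
    D.tr (φ.comp (MonoidHom.toAdditive i₂)) = heckeTHom N q hqN φ := by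
  have hq : q ≠ 0 := (Fact.out : q.Prime).ne_zero
  refine AddMonoidHom.ext fun γ => ?_
  obtain ⟨γ, rfl⟩ := Additive.ofMul.surjective γ
  rw [CosetLib.TransferData.tr_apply, heckeTHom_apply]
  -- the comparison with the representatives of `T_q`
  have hex : ∀ x : ι, ∃ g' : Gamma0 N,
      ModularForm.heckeDiagMatrix q * mapGL ℝ ((r x : Gamma0 N) : SL(2, ℤ)) =
        jN N g' * heckeRep q (redMatrix q ((r x : Gamma0 N) : SL(2, ℤ)) • OnePoint.infty) := by
    intro x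
    obtain ⟨g', hg', hmul⟩ := heckeRep_mul hqN ((r x : Gamma0 N) : SL(2, ℤ))
      (mem_Gamma0_iff_dvd.mp (r x).2) OnePoint.infty
    exact ⟨⟨g', mem_Gamma0_iff_dvd.mpr hg'⟩, hmul⟩
  choose c hc using hex
  -- the defining relation of the new family
  have hspec' : ∀ x : ι,
      (ModularForm.heckeDiagMatrix q * mapGL ℝ ((r x : Gamma0 N) : SL(2, ℤ))) *
          mapGL ℝ ((γ : Gamma0 N) : SL(2, ℤ)) =
        jN N (i₂ (D.part γ x)) *
          (ModularForm.heckeDiagMatrix q * mapGL ℝ ((r (D.perm γ x) : Gamma0 N) : SL(2, ℤ))) := by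
    intro x
    have h1 := congrArg (fun g : Gamma0 N => mapGL ℝ (g : SL(2, ℤ))) (hspec γ x)
    simp only [Subgroup.coe_mul, map_mul, hi₁] at h1
    rw [mul_assoc, h1, ← mul_assoc, heckeDiagMatrix_mul hq (hi₂ (D.part γ x)), mul_assoc]
    rfl
  -- distinctness of the cosets of the new family
  have hinj : Function.Injective
      (fun x : ι => redMatrix q ((r x : Gamma0 N) : SL(2, ℤ)) • (OnePoint.infty : OnePoint (ZMod q))) := by
    apply CosetCmp.injective_of_distinct (jN N) (heckeRep q)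
      (fun x : ι => ModularForm.heckeDiagMatrix q * mapGL ℝ ((r x : Gamma0 N) : SL(2, ℤ))) ?_ _ c hc
    intro x y g hxy
    -- `diag * r x = g * diag * r y`
    set s : Gamma0 N := r x * (r y)⁻¹ with hs
    have h2 : ModularForm.heckeDiagMatrix q * mapGL ℝ ((s : Gamma0 N) : SL(2, ℤ)) =
        mapGL ℝ ((g : Gamma0 N) : SL(2, ℤ)) * ModularForm.heckeDiagMatrix q := by
      have : mapGL ℝ ((s : Gamma0 N) : SL(2, ℤ)) =
          mapGL ℝ ((r x : Gamma0 N) : SL(2, ℤ)) * (mapGL ℝ ((r y : Gamma0 N) : SL(2, ℤ)))⁻¹ := by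
        rw [hs, Subgroup.coe_mul, Subgroup.coe_inv, map_mul, map_inv]
      rw [this, ← mul_assoc, hxy, jN_apply]
      group
    have h3 := apply_one_zero_of_heckeDiagMatrix_mul hq h2
    have hsmem : ((s : Gamma0 N) : SL(2, ℤ)) ∈ Gamma0 (N * q) := by
      rw [mem_Gamma0_iff_dvd, h3]
      obtain ⟨k, hk⟩ := mem_Gamma0_iff_dvd.mp g.2
      exact ⟨k, by rw [hk]; push_cast; ring⟩
    have h4 : i₁ ⟨(s : SL(2, ℤ)), hsmem⟩ = s := Subtype.ext (hi₁ _)
    refine (hdis ⟨(s : SL(2, ℤ)), hsmem⟩ y x ?_).symm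
    rw [h4, hs, inv_mul_cancel_right]
  have hcard' : Fintype.card ι = Fintype.card (OnePoint (ZMod q)) := by
    rw [hcard, card_onePoint_zmod]
  exact CosetCmp.sum_part_eq_of_injective (jN N) (jN_injective N)
    (mapGL ℝ ((γ : Gamma0 N) : SL(2, ℤ))) (heckeRep q) ((tData N q hqN).perm γ)
    ((tData N q hqN).part γ) (fun x => tData_spec hqN γ x)
    (fun x : ι => ModularForm.heckeDiagMatrix q * mapGL ℝ ((r x : Gamma0 N) : SL(2, ℤ)))
    (D.perm γ) (fun x => i₂ (D.part γ x)) hspec'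
    (fun x : ι => redMatrix q ((r x : Gamma0 N) : SL(2, ℤ)) • (OnePoint.infty : OnePoint (ZMod q)))
    hinj hcard' c hc φ

/-- **(C2), second half.**  Transfer along `i₂` (the twisted inclusion) composed with restriction
along `i₁` (the inclusion) is `T_q`. -/
theorem tr_res₁_eq_heckeT (hqN : ¬ q ∣ N) (i₁ i₂ : Gamma0 (N * q) →* Gamma0 N)
    (hi₁ : ∀ γ : Gamma0 (N * q), ((i₁ γ : Gamma0 N) : SL(2, ℤ)) = γ)
    (hi₂ : ∀ γ : Gamma0 (N * q),
      IsConjEntries q (γ : SL(2, ℤ)) ((i₂ γ : Gamma0 N) : SL(2, ℤ)))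
    {ι : Type*} [Fintype ι] (hcard : Fintype.card ι = q + 1)
    (D : CosetLib.TransferData (Gamma0 (N * q)) (Gamma0 N) ι) (r : ι → Gamma0 N)
    (hspec : ∀ γ x, r x * γ = i₂ (D.part γ x) * r (D.perm γ x))
    (hdis : ∀ (h : Gamma0 (N * q)) (x y : ι), i₂ h * r x = r y → x = y)
    {A : Type*} [AddCommGroup A] (φ : Additive (Gamma0 N) →+ A) :
    D.tr (φ.comp (MonoidHom.toAdditive i₁)) = heckeTHom N q hqN φ := by
  have hq : q ≠ 0 := (Fact.out : q.Prime).ne_zero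
  refine AddMonoidHom.ext fun γ => ?_
  obtain ⟨γ, rfl⟩ := Additive.ofMul.surjective γ
  rw [CosetLib.TransferData.tr_apply, heckeTHom_apply]
  have hrep0 : heckeRep q ((0 : ZMod q) : OnePoint (ZMod q)) = ModularForm.heckeMatrix q 0 := by
    rw [heckeRep_coe, ZMod.val_zero]
  have hex : ∀ x : ι, ∃ g' : Gamma0 N,
      ModularForm.heckeMatrix q 0 * mapGL ℝ ((r x : Gamma0 N) : SL(2, ℤ)) =
        jN N g' * heckeRep q (redMatrix q ((r x : Gamma0 N) : SL(2, ℤ)) •
          ((0 : ZMod q) : OnePoint (ZMod q))) := by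
    intro x
    obtain ⟨g', hg', hmul⟩ := heckeRep_mul hqN ((r x : Gamma0 N) : SL(2, ℤ))
      (mem_Gamma0_iff_dvd.mp (r x).2) ((0 : ZMod q) : OnePoint (ZMod q))
    rw [hrep0] at hmul
    exact ⟨⟨g', mem_Gamma0_iff_dvd.mpr hg'⟩, hmul⟩
  choose c hc using hex
  have hspec' : ∀ x : ι,
      (ModularForm.heckeMatrix q 0 * mapGL ℝ ((r x : Gamma0 N) : SL(2, ℤ))) *
          mapGL ℝ ((γ : Gamma0 N) : SL(2, ℤ)) =
        jN N (i₁ (D.part γ x)) *
          (ModularForm.heckeMatrix q 0 * mapGL ℝ ((r (D.perm γ x) : Gamma0 N) : SL(2, ℤ))) := by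
    intro x
    have h1 := congrArg (fun g : Gamma0 N => mapGL ℝ (g : SL(2, ℤ))) (hspec γ x)
    simp only [Subgroup.coe_mul, map_mul] at h1
    rw [mul_assoc, h1, ← mul_assoc, heckeMatrix_zero_mul hq (hi₂ (D.part γ x)), mul_assoc,
      jN_apply, hi₁]
  have hinj : Function.Injective
      (fun x : ι => redMatrix q ((r x : Gamma0 N) : SL(2, ℤ)) •
        ((0 : ZMod q) : OnePoint (ZMod q))) := by
    apply CosetCmp.injective_of_distinct (jN N) (heckeRep q)
      (fun x : ι => ModularForm.heckeMatrix q 0 * mapGL ℝ ((r x : Gamma0 N) : SL(2, ℤ))) ?_ _ c hc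
    intro x y g hxy
    set s : Gamma0 N := r x * (r y)⁻¹ with hs
    have h2 : ModularForm.heckeMatrix q 0 * mapGL ℝ ((s : Gamma0 N) : SL(2, ℤ)) =
        mapGL ℝ ((g : Gamma0 N) : SL(2, ℤ)) * ModularForm.heckeMatrix q 0 := by
      have : mapGL ℝ ((s : Gamma0 N) : SL(2, ℤ)) =
          mapGL ℝ ((r x : Gamma0 N) : SL(2, ℤ)) * (mapGL ℝ ((r y : Gamma0 N) : SL(2, ℤ)))⁻¹ := by
        rw [hs, Subgroup.coe_mul, Subgroup.coe_inv, map_mul, map_inv]
      rw [this, ← mul_assoc, hxy, jN_apply]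
      group
    have h3 := isConjEntries_of_heckeMatrix_zero_mul hq h2
    -- `g ∈ Γ₀(N q)` and `i₂ g = s`
    have hgmem : ((g : Gamma0 N) : SL(2, ℤ)) ∈ Gamma0 (N * q) := by
      rw [mem_Gamma0_iff_dvd, ← h3.2.2.1]
      obtain ⟨k, hk⟩ := mem_Gamma0_iff_dvd.mp s.2
      exact ⟨k, by rw [hk]; push_cast; ring⟩
    have h4 : i₂ ⟨(g : SL(2, ℤ)), hgmem⟩ = s := by
      have h5 := hi₂ ⟨(g : SL(2, ℤ)), hgmem⟩
      apply Subtype.ext
      apply Subtype.ext
      ext a b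
      obtain ⟨e00, e01, e10, e11⟩ := h5
      obtain ⟨f00, f01, f10, f11⟩ := h3
      have hqz : (q : ℤ) ≠ 0 := Int.natCast_ne_zero.mpr hq
      fin_cases a <;> fin_cases b
      · exact e00.trans f00.symm
      · exact e01.trans f01.symm
      · exact mul_left_cancel₀ hqz (e10.trans f10.symm)
      · exact e11.trans f11.symm
    refine (hdis ⟨(g : SL(2, ℤ)), hgmem⟩ y x ?_).symm
    rw [h4, hs, inv_mul_cancel_right]
  have hcard' : Fintype.card ι = Fintype.card (OnePoint (ZMod q)) := by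
    rw [hcard, card_onePoint_zmod]
  exact CosetCmp.sum_part_eq_of_injective (jN N) (jN_injective N)
    (mapGL ℝ ((γ : Gamma0 N) : SL(2, ℤ))) (heckeRep q) ((tData N q hqN).perm γ)
    ((tData N q hqN).part γ) (fun x => tData_spec hqN γ x)
    (fun x : ι => ModularForm.heckeMatrix q 0 * mapGL ℝ ((r x : Gamma0 N) : SL(2, ℤ)))
    (D.perm γ) (fun x => i₁ (D.part γ x)) hspec'
    (fun x : ι => redMatrix q ((r x : Gamma0 N) : SL(2, ℤ)) • ((0 : ZMod q) : OnePoint (ZMod q)))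
    hinj hcard' c hc φ

end Main

/-- **(C1).**  Transfer ∘ restriction along the same map is multiplication by the index. -/
theorem tr_res_self {N q : ℕ} (i : Gamma0 (N * q) →* Gamma0 N)
    {ι : Type*} [Fintype ι] (D : CosetLib.TransferData (Gamma0 (N * q)) (Gamma0 N) ι)
    (r : ι → Gamma0 N) (hspec : ∀ γ x, r x * γ = i (D.part γ x) * r (D.perm γ x))
    {A : Type*} [AddCommGroup A] (φ : Additive (Gamma0 N) →+ A) :
    D.tr (φ.comp (MonoidHom.toAdditive i)) = Fintype.card ι • φ :=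
  CosetLib.TransferData.tr_comp_hom_eq_card_nsmul D i r
    (fun γ x => by rw [hspec γ x, mul_inv_cancel_right]) φ

end Fermat.Agent.S41.MixedTr
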