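/-
S41 (level raising), block [COH], leaf (C2): the mixed composites of the two transfers with the
two restrictions are `T_q`, for the actual `tr₁`, `tr₂`, `res₁`, `res₂` of `S41/Defs.lean`.
Owner: helper28.

Instantiation of the definition-independent core `S41/MixedTr.lean` with the concrete coset data
`trData₁`, `trData₂` of `S41/TrReps.lean`.

* `tr₁_res₂ : tr₁ N q (res₂ N q φ) = heckeTHom N q hqN φ`;
* `tr₂_res₁ : tr₂ N q (res₁ N q φ) = heckeTHom N q hqN φ`.
-/
import Mathlib
import Fermat.Agent.S41.TrReps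
import Fermat.Agent.S41.MixedTr

set_option autoImplicit false

noncomputable section

open CongruenceSubgroup
open scoped MatrixGroups
open Fermat.Agent.S16

namespace Fermat.Agent.S41

variable {N q : ℕ} [Fact q.Prime] {A : Type*} [AddCommGroup A]

/-- **(C2), first half**: `tr₁ ∘ res₂ = T_q`. -/
theorem tr₁_res₂ (hqN : ¬ q ∣ N) (φ : Additive (Gamma0 N) →+ A) :
    tr₁ N q (res₂ N q φ) = heckeTHom N q hqN φ := by
  rw [tr₁_eq hqN]
  exact MixedTr.tr_res₂_eq_heckeT hqN (incl₁ N q) (incl₂ N q) (incl₁_coe N q)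
    (incl₂_entries N q) card_onePoint_zmod (trData₁ N q hqN) (rep₁ N q) (trData₁_spec hqN)
    (fun h x y hh => (isActReps₁ N q hqN).dis' h x y hh) φ

/-- **(C2), second half**: `tr₂ ∘ res₁ = T_q`. -/
theorem tr₂_res₁ (hqN : ¬ q ∣ N) (φ : Additive (Gamma0 N) →+ A) :
    tr₂ N q (res₁ N q φ) = heckeTHom N q hqN φ := by
  rw [tr₂_eq hqN]
  exact MixedTr.tr_res₁_eq_heckeT hqN (incl₁ N q) (incl₂ N q) (incl₁_coe N q)
    (incl₂_entries N q) card_onePoint_zmod (trData₂ N q hqN) (rep₂ N q hqN) (trData₂_spec hqN)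
    (fun h x y hh => (isActReps₂ N q hqN).dis' h x y hh) φ

end Fermat.Agent.S41
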