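/-
S41, block [NEW], slice (N2), B-copy (owner: helper81): the level-`M` core.

A class `y` in a Hecke-stable sublattice `K` of `Hom_par(Γ₀(M), ℤ)` which is primitive in `K`
and an eigenvector modulo `p • K` for the `T_ℓ`, `ℓ ∈ Pset`, lifts to a normalized eigenform of
level `M` whose `ℓ`-th coefficients are congruent to `θ ℓ`; the `U_ℓ₀`-eigenvalue squares to `1`
whenever `U_ℓ₀² = 1` on `K`.

Proof: work on `V = S₂(Γ₀(M)) × S₂(Γ₀(M))` with the operators `T_ℓ × T_ℓ`, `U_ℓ × U_ℓ` (they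
commute by the Prelude), and the lattice `L ⊆ V` of the pairs whose period homomorphism is the
complexification of an element of `K` (Eichler–Shimura, S21).  The Deligne–Serre lifting lemma
(`DSSpan`) gives a common eigenvector in the `ℂ`-span of `L`; its nonzero component is
normalized by S49.
-/
import Mathlib
import Fermat.Agent.S21
import Fermat.Agent.S16.HeckePairB
import Fermat.Agent.S16.LiftLemma
import Fermat.Agent.S22.GammaFG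
import Fermat.Agent.S49.Normalize
import Fermat.Agent.S41.NewAsm
import Fermat.Agent.S41.DSSpan

set_option autoImplicit false

open CongruenceSubgroup ModularCurve ModularCurve.Period
open scoped MatrixGroups

namespace Fermat.Agent.S41.NewCoreB

open Fermat.Agent.S16 (heckeTHom heckeUHom)

section

variable (M : ℕ)

/-- Complexification `Hom(Γ₀(M), ℤ) → Hom(Γ₀(M), ℂ)`, as a `ℤ`-linear map. -/
def toCLin : (Additive (Gamma0 M) →+ ℤ) →ₗ[ℤ] (Additive (Gamma0 M) →+ ℂ) where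
  toFun ψ := (Int.castAddHom ℂ).comp ψ
  map_add' ψ ψ' := by
    ext γ
    simp
  map_smul' n ψ := by
    ext γ
    simp

theorem toCLin_apply (ψ : Additive (Gamma0 M) →+ ℤ) (γ : Additive (Gamma0 M)) :
    toCLin M ψ γ = ((ψ γ : ℤ) : ℂ) := rfl

theorem toCLin_injective : Function.Injective (toCLin M) := by
  intro ψ ψ' h
  refine AddMonoidHom.ext fun γ => ?_
  have := DFunLike.congr_fun h γ
  rw [toCLin_apply, toCLin_apply] at this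
  exact_mod_cast this

theorem toCLin_mem_parabolic {ψ : Additive (Gamma0 M) →+ ℤ}
    (h : ψ ∈ parabolicHoms ℤ (Gamma0 M) ℤ) :
    toCLin M ψ ∈ parabolicHoms ℂ (Gamma0 M) ℂ := by
  intro γ hγ
  rw [toCLin_apply, h γ hγ, Int.cast_zero]

theorem heckeTHom_toCLin (ℓ : ℕ) [Fact ℓ.Prime] (hℓM : ¬ ℓ ∣ M)
    (ψ : Additive (Gamma0 M) →+ ℤ) :
    heckeTHom M ℓ hℓM (toCLin M ψ) = toCLin M (heckeTHom M ℓ hℓM ψ) :=
  Fermat.Agent.S16.CosetData.op_comp _ (Int.castAddHom ℂ) ψ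

theorem heckeUHom_toCLin (ℓ : ℕ) [NeZero ℓ] (hℓM : ℓ ∣ M)
    (ψ : Additive (Gamma0 M) →+ ℤ) :
    heckeUHom M ℓ hℓM (toCLin M ψ) = toCLin M (heckeUHom M ℓ hℓM ψ) :=
  Fermat.Agent.S16.CosetData.op_comp _ (Int.castAddHom ℂ) ψ

variable [NeZero M]

/-- `T_ℓ × T_ℓ` on `S₂ × S₂`. -/
noncomputable def tT (ℓ : ℕ) (hℓ : ℓ.Prime) (hℓM : ¬ ℓ ∣ M) :
    Module.End ℂ (CuspForm (Gamma0 M) 2 × CuspForm (Gamma0 M) 2) :=
  LinearMap.prodMap (CuspForm.heckeTLin 2 hℓ hℓM) (CuspForm.heckeTLin 2 hℓ hℓM)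

/-- `U_ℓ × U_ℓ` on `S₂ × S₂`. -/
noncomputable def tU (ℓ : ℕ) (hℓM : ℓ ∣ M) :
    Module.End ℂ (CuspForm (Gamma0 M) 2 × CuspForm (Gamma0 M) 2) :=
  LinearMap.prodMap (CuspForm.heckeULin 2 hℓM) (CuspForm.heckeULin 2 hℓM)

theorem pair_tT (ℓ : ℕ) [Fact ℓ.Prime] (hℓ : ℓ.Prime) (hℓM : ¬ ℓ ∣ M)
    (v : CuspForm (Gamma0 M) 2 × CuspForm (Gamma0 M) 2) :
    periodHomPair M (tT M ℓ hℓ hℓM v) = heckeTHom M ℓ hℓM (periodHomPair M v) := by
  obtain ⟨f, g⟩ := v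
  exact Fermat.Agent.S16.HeckePairB.periodHomPair_heckeTLin hℓ hℓM f g

theorem pair_tU (ℓ : ℕ) [NeZero ℓ] (hℓM : ℓ ∣ M)
    (v : CuspForm (Gamma0 M) 2 × CuspForm (Gamma0 M) 2) :
    periodHomPair M (tU M ℓ hℓM v) = heckeUHom M ℓ hℓM (periodHomPair M v) := by
  obtain ⟨f, g⟩ := v
  exact Fermat.Agent.S16.HeckePairB.periodHomPair_heckeULin hℓM f g

/-- The lattice of the pairs of cusp forms whose period homomorphism is the complexification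
of an element of `K`. -/
noncomputable def latt (K : Submodule ℤ (Additive (Gamma0 M) →+ ℤ)) :
    Submodule ℤ (CuspForm (Gamma0 M) 2 × CuspForm (Gamma0 M) 2) :=
  (K.map (toCLin M)).comap ((periodHomPair M).restrictScalars ℤ)

omit [NeZero M] in
theorem mem_latt {K : Submodule ℤ (Additive (Gamma0 M) →+ ℤ)}
    {v : CuspForm (Gamma0 M) 2 × CuspForm (Gamma0 M) 2} :
    v ∈ latt M K ↔ ∃ k ∈ K, toCLin M k = periodHomPair M v := Iff.rfl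

theorem latt_fg (K : Submodule ℤ (Additive (Gamma0 M) →+ ℤ)) : (latt M K).FG := by
  have : Group.FG (Gamma0 M) := Fermat.Agent.S22.gamma0_fg M
  have : IsNoetherian ℤ (Additive (Gamma0 M) →+ ℤ) :=
    Fermat.Agent.S16.LiftLemma.isNoetherian_hom
  refine Submodule.fg_of_fg_map_injective ((periodHomPair M).restrictScalars ℤ)
    (Fermat.Agent.S21.periodHomPair_injective_Gamma0 M) ?_
  have hle : (latt M K).map ((periodHomPair M).restrictScalars ℤ) ≤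
      LinearMap.range (toCLin M) := by
    rintro _ ⟨v, hv, rfl⟩
    obtain ⟨k, -, hk⟩ := (mem_latt M).mp hv
    exact ⟨k, hk⟩
  rw [← Submodule.map_comap_eq_of_le hle]
  exact Submodule.FG.map _ (IsNoetherian.noetherian _)

theorem commute_prodMap {W : Type*} [AddCommGroup W] [Module ℂ W] {a b : Module.End ℂ W}
    (h : Commute a b) :
    (LinearMap.prodMap a a : Module.End ℂ (W × W)) * LinearMap.prodMap b b =
      LinearMap.prodMap b b * LinearMap.prodMap a a := by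
  rw [LinearMap.prodMap_mul, LinearMap.prodMap_mul, h.eq]

end

/-- **The level-`M` core of block [NEW]** (B-copy). -/
theorem core (M : ℕ) [NeZero M] {p : ℕ} (_hp : p.Prime) :
    Fermat.Agent.S41.NewAsm.CoreStatement M p := by
  intro Pset θ hP K hK hKT hKU y hyK hy hyθ
  classical
  have hinj : Function.Injective (periodHomPair M) :=
    Fermat.Agent.S21.periodHomPair_injective_Gamma0 M
  have hrange := (Fermat.Agent.S21.result M).2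
  -- Eichler–Shimura: every element of `K` is a period homomorphism
  have hsurj : ∀ k ∈ K, ∃ v : CuspForm (Gamma0 M) 2 × CuspForm (Gamma0 M) 2,
      periodHomPair M v = toCLin M k := by
    intro k hk
    have h1 : toCLin M k ∈ parabolicHoms ℂ (Gamma0 M) ℂ := toCLin_mem_parabolic M (hK hk)
    rw [← hrange] at h1
    exact h1
  obtain ⟨f₀, hf₀⟩ := hsurj y hyK
  -- the commuting family
  set G : Set (Module.End ℂ (CuspForm (Gamma0 M) 2 × CuspForm (Gamma0 M) 2)) :=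
    {t | (∃ (ℓ : ℕ) (hℓ : ℓ.Prime) (hℓM : ¬ ℓ ∣ M), t = tT M ℓ hℓ hℓM) ∨
      (∃ (ℓ : ℕ) (_ : ℓ.Prime) (hℓM : ℓ ∣ M), t = tU M ℓ hℓM)} with hGdef
  have hG : ∀ s ∈ G, ∀ t ∈ G, s * t = t * s := by
    rintro s (⟨ℓ, hℓ, hℓM, rfl⟩ | ⟨ℓ, hℓ, hℓM, rfl⟩) t (⟨ℓ', hℓ', hℓ'M, rfl⟩ | ⟨ℓ', hℓ', hℓ'M, rfl⟩)
    · exact commute_prodMap (CuspForm.heckeTLin_comm 2 hℓ hℓM hℓ' hℓ'M)
    · exact commute_prodMap (CuspForm.heckeTLin_heckeULin_comm 2 hℓ hℓM hℓ'M)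
    · exact commute_prodMap (CuspForm.heckeTLin_heckeULin_comm 2 hℓ' hℓ'M hℓM).symm
    · exact commute_prodMap (CuspForm.heckeULin_comm 2 hℓM hℓ'M)
  have hGL : ∀ t ∈ G, ∀ x ∈ latt M K, t x ∈ latt M K := by
    rintro t (⟨ℓ, hℓ, hℓM, rfl⟩ | ⟨ℓ, hℓ, hℓM, rfl⟩) x hx
    · have : Fact ℓ.Prime := ⟨hℓ⟩
      obtain ⟨k, hk, hkx⟩ := (mem_latt M).mp hx
      refine (mem_latt M).mpr ⟨heckeTHom M ℓ hℓM k, hKT ℓ hℓM k hk, ?_⟩
      rw [pair_tT, ← hkx, heckeTHom_toCLin]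
    · have : NeZero ℓ := ⟨hℓ.ne_zero⟩
      obtain ⟨k, hk, hkx⟩ := (mem_latt M).mp hx
      refine (mem_latt M).mpr ⟨heckeUHom M ℓ hℓM k, hKU ℓ hℓM hℓ k hk, ?_⟩
      rw [pair_tU, ← hkx, heckeUHom_toCLin]
  have hf₀L : f₀ ∈ latt M K := (mem_latt M).mpr ⟨y, hyK, hf₀.symm⟩
  have hf₀' : ∀ v ∈ latt M K, f₀ ≠ (p : ℤ) • v := by
    intro v hv h
    obtain ⟨k, hk, hkv⟩ := (mem_latt M).mp hv
    refine hy k hk (toCLin_injective M ?_)
    rw [← hf₀, h, map_zsmul, ← hkv, map_zsmul]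
  obtain ⟨g, μ, 𝔪', hg0, hgspan, hmax, hpm, hall⟩ :=
    Fermat.Agent.S41.DSSpan.exists_eigenvector_lift_p_span p G hG (latt M K) (latt_fg M K)
      hGL f₀ hf₀L hf₀'
  -- the system of eigenvalues
  set lam : ℕ → ℂ := fun ℓ =>
    if hℓ : ℓ.Prime then
      (if hℓM : ℓ ∣ M then ((μ (tU M ℓ hℓM) : integralClosure ℤ ℂ) : ℂ)
        else ((μ (tT M ℓ hℓ hℓM) : integralClosure ℤ ℂ) : ℂ))
    else 0 with hlam
  have hlamT : ∀ (ℓ : ℕ) (hℓ : ℓ.Prime) (hℓM : ¬ ℓ ∣ M),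
      lam ℓ = ((μ (tT M ℓ hℓ hℓM) : integralClosure ℤ ℂ) : ℂ) := by
    intro ℓ hℓ hℓM
    rw [hlam]
    simp only [dif_pos hℓ, dif_neg hℓM]
  have hlamU : ∀ (ℓ : ℕ) (_ : ℓ.Prime) (hℓM : ℓ ∣ M),
      lam ℓ = ((μ (tU M ℓ hℓM) : integralClosure ℤ ℂ) : ℂ) := by
    intro ℓ hℓ hℓM
    rw [hlam]
    simp only [dif_pos hℓ, dif_pos hℓM]
  have hTg : ∀ (ℓ : ℕ) (hℓ : ℓ.Prime) (hℓM : ¬ ℓ ∣ M), tT M ℓ hℓ hℓM g = lam ℓ • g := by
    intro ℓ hℓ hℓM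
    rw [hlamT ℓ hℓ hℓM]
    exact (hall _ (Or.inl ⟨ℓ, hℓ, hℓM, rfl⟩)).1
  have hUg : ∀ (ℓ : ℕ) (_ : ℓ.Prime) (hℓM : ℓ ∣ M), tU M ℓ hℓM g = lam ℓ • g := by
    intro ℓ hℓ hℓM
    rw [hlamU ℓ hℓ hℓM]
    exact (hall _ (Or.inr ⟨ℓ, hℓ, hℓM, rfl⟩)).1
  -- a nonzero component of `g` is a simultaneous eigenvector
  have hcomp : ∃ g' : CuspForm (Gamma0 M) 2, g' ≠ 0 ∧
      (∀ (ℓ : ℕ) (hℓ : ℓ.Prime) (hℓM : ¬ ℓ ∣ M), CuspForm.heckeTLin 2 hℓ hℓM g' = lam ℓ • g') ∧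
      (∀ (ℓ : ℕ) (_ : ℓ.Prime) (hℓM : ℓ ∣ M), CuspForm.heckeULin 2 hℓM g' = lam ℓ • g') := by
    by_cases h1 : g.1 = 0
    · refine ⟨g.2, ?_, ?_, ?_⟩
      · intro h2
        exact hg0 (Prod.ext h1 h2)
      · intro ℓ hℓ hℓM
        exact congrArg Prod.snd (hTg ℓ hℓ hℓM)
      · intro ℓ hℓ hℓM
        exact congrArg Prod.snd (hUg ℓ hℓ hℓM)
    · refine ⟨g.1, h1, ?_, ?_⟩
      · intro ℓ hℓ hℓM
        exact congrArg Prod.fst (hTg ℓ hℓ hℓM)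
      · intro ℓ hℓ hℓM
        exact congrArg Prod.fst (hUg ℓ hℓ hℓM)
  obtain ⟨g', hg', hT', hU'⟩ := hcomp
  obtain ⟨f, hf, hfq⟩ :=
    Fermat.Agent.S49.exists_normalizedEigenform_of_eigenvector g' hg' lam hT' hU'
  refine ⟨f, 𝔪', hf, hmax, hpm, ?_, ?_⟩
  · -- the congruences
    intro ℓ hℓP
    obtain ⟨hℓ, hℓM⟩ := hP ℓ hℓP
    have : Fact ℓ.Prime := ⟨hℓ⟩
    refine ⟨μ (tT M ℓ hℓ hℓM), ?_, ?_⟩
    · rw [hfq ℓ hℓ, hlamT ℓ hℓ hℓM]
    · refine (hall _ (Or.inl ⟨ℓ, hℓ, hℓM, rfl⟩)).2 (θ ℓ) ?_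
      obtain ⟨z, hz, hyz⟩ := hyθ ℓ hℓM hℓP
      obtain ⟨v, hv⟩ := hsurj z hz
      refine ⟨v, (mem_latt M).mpr ⟨z, hz, hv.symm⟩, ?_⟩
      apply hinj
      rw [map_sub, pair_tT, hf₀, heckeTHom_toCLin, map_zsmul, hf₀, map_zsmul, hv,
        ← map_zsmul (toCLin M), ← map_sub, hyz, map_zsmul]
  · -- `U_ℓ₀² = 1` on `K` forces the eigenvalue to square to `1`
    intro ℓ₀ _ h₀ hℓ₀ hsq
    rw [hfq ℓ₀ hℓ₀]
    have hsqL : ∀ v ∈ Submodule.span ℂ (latt M K : Set (CuspForm (Gamma0 M) 2 × CuspForm (Gamma0 M) 2)),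
        tU M ℓ₀ h₀ (tU M ℓ₀ h₀ v) = v := by
      intro v hv
      have hle : Submodule.span ℂ (latt M K : Set (CuspForm (Gamma0 M) 2 × CuspForm (Gamma0 M) 2)) ≤
          LinearMap.eqLocus (tU M ℓ₀ h₀ * tU M ℓ₀ h₀) LinearMap.id := by
        rw [Submodule.span_le]
        intro w hw
        obtain ⟨k, hk, hkw⟩ := (mem_latt M).mp hw
        show tU M ℓ₀ h₀ (tU M ℓ₀ h₀ w) = w
        apply hinj
        rw [pair_tU, pair_tU, ← hkw, heckeUHom_toCLin, heckeUHom_toCLin, hsq k hk]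
      exact hle hv
    have h1 := hsqL g hgspan
    rw [hUg ℓ₀ hℓ₀ h₀, map_smul, hUg ℓ₀ hℓ₀ h₀, smul_smul] at h1
    have h2 : (lam ℓ₀ * lam ℓ₀ - 1) • g = 0 := by
      rw [sub_smul, h1, one_smul, sub_self]
    rcases smul_eq_zero.mp h2 with h3 | h3
    · rw [pow_two]
      exact sub_eq_zero.mp h3
    · exact absurd h3 hg0

end Fermat.Agent.S41.NewCoreB
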