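/-
S41, block [PD], leaf (4b) (A-owner: helper79): the bridge between the transfer of
`S41/Transfer.lean` (right cosets of the range, canonical representatives) and the push-forward
of lifts along LEFT coset representatives.

Setting: `j : H →* G` injective, `t : ι → G` a system of representatives of the left cosets
`t i * j(H)` (`hcov`, `hinj`).

* `transferAlong_apply_of_leftReps` : if `γ * t i = t (σ i) * j (part i)` for all `i`, then
  `transferAlong j ψ γ = ∑ i, ψ (part i)`;
* `isLift_sum` : for `G = Γ₁ ≤ SL(2, ℤ)`, if `F'` is right-`j(H)`-equivariant with increment `ψ`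
  and left-`T`-invariant, then `g ↦ ∑ i, F' (g * t i)` is a lift of `transferAlong j ψ`;
* `exists_leftReps` : representatives exist when the range has finite index.
-/
import Mathlib
import Fermat.Prelude.Def_ModularCurve_PeriodMap
import Fermat.Agent.S41.Transfer
import Fermat.Agent.S41.PDDefs

set_option autoImplicit false

open scoped MatrixGroups
open ModularGroup

namespace Fermat.Agent.S41.PDBridge

open Fermat.Agent.S41 (transferAlong transferAlong_apply_of_reps)

section General

variable {G H : Type*} [Group G] [Group H] {A : Type*} [AddCommGroup A]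

/-- The index map `σ` of left multiplication by `γ` on left coset representatives is injective. -/
theorem sigma_injective (j : H →* G) {ι : Type*} (t : ι → G)
    (hinj : ∀ i i', (∃ h : H, t i = t i' * j h) → i = i')
    (γ : G) (σ : ι → ι) (part : ι → H) (hspec : ∀ i, γ * t i = t (σ i) * j (part i)) :
    Function.Injective σ := by
  intro i i' h
  apply hinj
  refine ⟨(part i')⁻¹ * part i, ?_⟩
  have h1 := hspec i
  have h2 := hspec i'
  rw [h] at h1
  have h3 : t i = γ⁻¹ * (t (σ i') * j (part i)) := by rw [← h1, inv_mul_cancel_left]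
  have h4 : t (σ i') = γ * t i' * (j (part i'))⁻¹ := by rw [h2, mul_inv_cancel_right]
  rw [h3, h4, map_mul, map_inv]
  group

/-- **(4b)(a)** The transfer computed with LEFT coset representatives of the range:
if `γ * t i = t (σ i) * j (part i)` then `(transferAlong j ψ)(γ) = ∑ i, ψ (part i)`. -/
theorem transferAlong_apply_of_leftReps (j : H →* G) (hj : Function.Injective j)
    {ι : Type*} [Fintype ι] (t : ι → G) (hcov : ∀ g : G, ∃ i, ∃ h : H, g = t i * j h)
    (hinj : ∀ i i', (∃ h : H, t i = t i' * j h) → i = i')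
    (γ : G) (σ : ι → ι) (part : ι → H) (hspec : ∀ i, γ * t i = t (σ i) * j (part i))
    (ψ : Additive H →+ A) :
    transferAlong j ψ (Additive.ofMul γ) = ∑ i, ψ (Additive.ofMul (part i)) := by
  classical
  have hσ : Function.Bijective σ :=
    Finite.injective_iff_bijective.mp (sigma_injective j t hinj γ σ part hspec)
  let σe : Equiv.Perm ι := Equiv.ofBijective σ hσ
  have hcov' : ∀ g : G, ∃ i, ∃ h : H, g = j h * (t i)⁻¹ := by
    intro g
    obtain ⟨i, h, hg⟩ := hcov g⁻¹
    refine ⟨i, h⁻¹, ?_⟩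
    rw [map_inv, ← mul_inv_rev, ← hg, inv_inv]
  have hinj' : ∀ i i', (∃ h : H, (t i)⁻¹ = j h * (t i')⁻¹) → i = i' := by
    rintro i i' ⟨h, hh⟩
    apply hinj
    refine ⟨h⁻¹, ?_⟩
    rw [map_inv, ← inv_inv (t i), hh, mul_inv_rev, inv_inv]
  have hspec' : ∀ k, (t k)⁻¹ * γ = j (part (σe.symm k)) * (t (σe.symm k))⁻¹ := by
    intro k
    have h1 := hspec (σe.symm k)
    have h2 : σ (σe.symm k) = k := σe.apply_symm_apply k
    rw [h2] at h1
    calc (t k)⁻¹ * γ = (t k)⁻¹ * (γ * t (σe.symm k)) * (t (σe.symm k))⁻¹ := by group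
      _ = j (part (σe.symm k)) * (t (σe.symm k))⁻¹ := by rw [h1]; group
  rw [transferAlong_apply_of_reps j hj (fun i => (t i)⁻¹) hcov' hinj' γ (fun k => σe.symm k)
    (fun k => part (σe.symm k)) hspec' ψ]
  exact Equiv.sum_comp σe.symm (fun i => ψ (Additive.ofMul (part i)))

/-- **(4b)(c)** Left coset representatives of the range exist when it has finite index. -/
theorem exists_leftReps (j : H →* G) [Finite (G ⧸ j.range)] :
    ∃ (n : ℕ) (t : Fin n → G), (∀ g : G, ∃ i, ∃ h : H, g = t i * j h) ∧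
      (∀ i i', (∃ h : H, t i = t i' * j h) → i = i') := by
  classical
  obtain ⟨n, ⟨e⟩⟩ := Finite.exists_equiv_fin (G ⧸ j.range)
  refine ⟨n, fun i => (e.symm i).out, ?_, ?_⟩
  · intro g
    refine ⟨e (g : G ⧸ j.range), ?_⟩
    show ∃ h : H, g = (e.symm (e (g : G ⧸ j.range))).out * j h
    rw [Equiv.symm_apply_apply]
    obtain ⟨k, hk⟩ := QuotientGroup.mk_out_eq_mul j.range g
    obtain ⟨h, hh⟩ := k.2
    refine ⟨h⁻¹, ?_⟩
    rw [hk, map_inv, hh, mul_inv_cancel_right]
  · rintro i i' ⟨h, hh⟩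
    replace hh : (e.symm i).out = (e.symm i').out * j h := hh
    have h1 : (((e.symm i).out : G) : G ⧸ j.range) = (((e.symm i').out : G) : G ⧸ j.range) := by
      rw [hh]
      exact QuotientGroup.mk_mul_of_mem _ ⟨h, rfl⟩
    rw [QuotientGroup.out_eq', QuotientGroup.out_eq'] at h1
    exact e.symm.injective h1

end General

section Lift

variable {H : Type*} [Group H] {A : Type*} [AddCommGroup A] {Γ₁ : Subgroup SL(2, ℤ)}

/-- **(4b)(b)** The push-forward of a lift along left coset representatives is a lift of the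
transfer.  The hypotheses on `F'` are in raw form: right-equivariance under `j(H)` with
increment `ψ`, and left `T`-invariance. -/
theorem isLift_sum (j : H →* Γ₁) (hj : Function.Injective j) {ι : Type*} [Fintype ι]
    (t : ι → Γ₁) (hcov : ∀ g : Γ₁, ∃ i, ∃ h : H, g = t i * j h)
    (hinj : ∀ i i', (∃ h : H, t i = t i' * j h) → i = i')
    (ψ : Additive H →+ A) (F' : SL(2, ℤ) → A)
    (hr : ∀ (g : SL(2, ℤ)) (h : H),
      F' (g * ((j h : Γ₁) : SL(2, ℤ))) = F' g + ψ (Additive.ofMul h))
    (hl : ∀ g, F' (T * g) = F' g) :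
    PD.IsLift Γ₁ (transferAlong j ψ) (fun g => ∑ i, F' (g * ((t i : Γ₁) : SL(2, ℤ)))) := by
  classical
  refine ⟨fun g γ => ?_, fun g => ?_⟩
  · have hex : ∀ i, ∃ k, ∃ h : H, γ * t i = t k * j h := fun i => hcov (γ * t i)
    choose σ part hspec using hex
    have hσ : Function.Bijective σ :=
      Finite.injective_iff_bijective.mp (sigma_injective j t hinj γ σ part hspec)
    let σe : Equiv.Perm ι := Equiv.ofBijective σ hσ
    rw [transferAlong_apply_of_leftReps j hj t hcov hinj γ σ part hspec ψ]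
    have h1 : ∀ i, F' (g * (γ : SL(2, ℤ)) * ((t i : Γ₁) : SL(2, ℤ)))
        = F' (g * ((t (σe i) : Γ₁) : SL(2, ℤ))) + ψ (Additive.ofMul (part i)) := by
      intro i
      have h2 : (γ : SL(2, ℤ)) * ((t i : Γ₁) : SL(2, ℤ))
          = ((t (σ i) : Γ₁) : SL(2, ℤ)) * ((j (part i) : Γ₁) : SL(2, ℤ)) := by
        have h3 := congrArg (fun x : Γ₁ => (x : SL(2, ℤ))) (hspec i)
        simpa only [Subgroup.coe_mul] using h3
      rw [mul_assoc, h2, ← mul_assoc, hr]
      rfl
    show ∑ i, F' (g * (γ : SL(2, ℤ)) * ((t i : Γ₁) : SL(2, ℤ)))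
      = ∑ i, F' (g * ((t i : Γ₁) : SL(2, ℤ))) + ∑ i, ψ (Additive.ofMul (part i))
    simp only [h1, Finset.sum_add_distrib]
    rw [Equiv.sum_comp σe (fun i => F' (g * ((t i : Γ₁) : SL(2, ℤ))))]
  · show ∑ i, F' (T * g * ((t i : Γ₁) : SL(2, ℤ))) = ∑ i, F' (g * ((t i : Γ₁) : SL(2, ℤ)))
    refine Finset.sum_congr rfl fun i _ => ?_
    rw [mul_assoc, hl]

/-- Existence form: with finite index, the transfer of the class of a raw lift has a lift of the
form `g ↦ ∑ i, F' (g * t i)` for a system of left coset representatives. -/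
theorem exists_isLift_transferAlong (j : H →* Γ₁) (hj : Function.Injective j)
    [Finite (Γ₁ ⧸ j.range)] (ψ : Additive H →+ A) (F' : SL(2, ℤ) → A)
    (hr : ∀ (g : SL(2, ℤ)) (h : H),
      F' (g * ((j h : Γ₁) : SL(2, ℤ))) = F' g + ψ (Additive.ofMul h))
    (hl : ∀ g, F' (T * g) = F' g) :
    ∃ (n : ℕ) (t : Fin n → Γ₁), (∀ g : Γ₁, ∃ i, ∃ h : H, g = t i * j h) ∧
      (∀ i i', (∃ h : H, t i = t i' * j h) → i = i') ∧
      PD.IsLift Γ₁ (transferAlong j ψ) (fun g => ∑ i, F' (g * ((t i : Γ₁) : SL(2, ℤ)))) := by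
  obtain ⟨n, t, hcov, hinj⟩ := exists_leftReps j
  exact ⟨n, t, hcov, hinj, isLift_sum j hj t hcov hinj ψ F' hr hl⟩

end Lift

end Fermat.Agent.S41.PDBridge
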