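/-
S41, block [PD], leaf (4b) (B copy; helper96): the bridge between the canonical transfer
`transferAlong` of `S41/Transfer.lean` (right cosets of the range, `Quotient.out` representatives)
and the fibre sums of lifts used by the Poincaré pairing.

Setting: `Γ₁ ≤ SL(2, ℤ)`, `H` any group, `j : H →* Γ₁` injective, and a system of LEFT coset
representatives `t : ι → Γ₁` of `Γ₁ / j(H)`:
  `hcov : ∀ g : Γ₁, ∃ i, ∃ h : H, g = t i * j h`,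
  `hinj : ∀ i i', (∃ h : H, t i = t i' * j h) → i = i'`.

* `transferAlong_apply_of_leftReps` : the transfer computed with left representatives
  (`γ * t i = t (σ i) * j (part i)` ⟹ `(transferAlong j ψ) γ = ∑ i, ψ (part i)`), any group `G`;
* `isLift_sum` : if `F'` is right-equivariant along `j` (`F' (g * j h) = F' g + ψ h`) and left
  `T`-invariant then `g ↦ ∑ i, F' (g * t i)` is a lift of `transferAlong j ψ` on `Γ₁`;
* `exists_leftReps` : left representatives exist when `j(H)` has finite index;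
* `sym_sum_eq_push` : the symbol of the fibre sum is the push-forward of the symbol;
* `sym_restrict` : the symbol of a restricted lift is the pull-back of the symbol;
* `B3_adjunction` : `B3_{Γ₂}(π^* ξ_F, ξ_{F'}) = B3_{Γ₁}(ξ_F, ξ_{∑ F'(· t_i)})`;
* `isLift_restrict`, `isLift_sum_of_coe`, `adjunction_of_coe` : the case of an inclusion
  `j : Γ₂ →* Γ₁`, `(j γ : SL(2, ℤ)) = γ`.
-/
import Mathlib
import Fermat.Prelude.Def_ModularCurve_PeriodMap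
import Fermat.Agent.S41.Transfer
import Fermat.Agent.S41.PDDefs

set_option autoImplicit false

open scoped MatrixGroups
open ModularGroup ModularCurve.Period

namespace Fermat.Agent.S41.PDBridgeB

open Fermat.Agent.S41 (transferAlong transferAlong_apply_of_reps)

/-! ### Generic: the transfer with left coset representatives -/

section Generic

variable {G H : Type*} [Group G] [Group H] (j : H →* G)

/-- The index map of left multiplication on a system of left coset representatives is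
injective. -/
theorem sigma_injective {ι : Type*} (t : ι → G)
    (hinj : ∀ i i', (∃ h : H, t i = t i' * j h) → i = i')
    (γ : G) (σ : ι → ι) (part : ι → H) (hspec : ∀ i, γ * t i = t (σ i) * j (part i)) :
    Function.Injective σ := by
  intro i i' h
  apply hinj
  have h1 := hspec i
  have h2 := hspec i'
  rw [h] at h1
  refine ⟨(part i')⁻¹ * part i, ?_⟩
  have h3 : t (σ i') = γ * t i' * (j (part i'))⁻¹ := by rw [h2, mul_inv_cancel_right]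
  have h4 : t i = γ⁻¹ * (t (σ i') * j (part i)) := by rw [← h1, inv_mul_cancel_left]
  rw [h4, h3, map_mul, map_inv]
  group

/-- **The transfer computed with LEFT coset representatives**: if `Γ = ⊔ t_i j(H)` and
`γ t_i = t_{σ i} j(part i)` then `(transferAlong j ψ)(γ) = ∑ i, ψ (part i)`. -/
theorem transferAlong_apply_of_leftReps (hj : Function.Injective j) {ι : Type*} [Fintype ι]
    (t : ι → G) (hcov : ∀ g : G, ∃ i, ∃ h : H, g = t i * j h)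
    (hinj : ∀ i i', (∃ h : H, t i = t i' * j h) → i = i')
    (γ : G) (σ : ι → ι) (part : ι → H) (hspec : ∀ i, γ * t i = t (σ i) * j (part i))
    {A : Type*} [AddCommGroup A] (ψ : Additive H →+ A) :
    transferAlong j ψ (Additive.ofMul γ) = ∑ i, ψ (Additive.ofMul (part i)) := by
  classical
  have hσinj := sigma_injective j t hinj γ σ part hspec
  let σe : Equiv.Perm ι := Equiv.ofBijective σ (Finite.injective_iff_bijective.mp hσinj)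
  have hσe : ∀ i, σe i = σ i := fun i => rfl
  have hcov' : ∀ g : G, ∃ i, ∃ h : H, g = j h * (t i)⁻¹ := by
    intro g
    obtain ⟨i, h, hg⟩ := hcov g⁻¹
    refine ⟨i, h⁻¹, ?_⟩
    rw [map_inv, ← mul_inv_rev, ← hg, inv_inv]
  have hinj' : ∀ i i', (∃ h : H, (t i)⁻¹ = j h * (t i')⁻¹) → i = i' := by
    rintro i i' ⟨h, hh⟩
    apply hinj
    refine ⟨h⁻¹, ?_⟩
    have h1 : t i = (j h * (t i')⁻¹)⁻¹ := by rw [← hh, inv_inv]
    rw [h1, mul_inv_rev, inv_inv, map_inv]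
  have hspec' : ∀ k, (t k)⁻¹ * γ = j (part (σe.symm k)) * (t (σe.symm k))⁻¹ := by
    intro k
    have h1 := hspec (σe.symm k)
    rw [← hσe, Equiv.apply_symm_apply] at h1
    have h2 : γ = t k * j (part (σe.symm k)) * (t (σe.symm k))⁻¹ := by
      rw [← h1, mul_inv_cancel_right]
    rw [h2]
    group
  rw [transferAlong_apply_of_reps j hj (fun i => (t i)⁻¹) hcov' hinj' γ (fun k => σe.symm k)
    (fun k => part (σe.symm k)) hspec' ψ]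
  exact Equiv.sum_comp σe.symm (fun i => ψ (Additive.ofMul (part i)))

/-- Left coset representatives of a subgroup of finite index, indexed by `Fin n`. -/
theorem exists_leftReps [Finite (G ⧸ j.range)] :
    ∃ (n : ℕ) (t : Fin n → G), (∀ g : G, ∃ i, ∃ h : H, g = t i * j h) ∧
      (∀ i i', (∃ h : H, t i = t i' * j h) → i = i') := by
  let e : (G ⧸ j.range) ≃ Fin (Nat.card (G ⧸ j.range)) := Finite.equivFin _
  refine ⟨Nat.card (G ⧸ j.range), fun i => Quotient.out (e.symm i), ?_, ?_⟩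
  · intro g
    obtain ⟨n, hn⟩ := QuotientGroup.mk_out_eq_mul j.range g
    obtain ⟨h, hh⟩ := n.2
    refine ⟨e (g : G ⧸ j.range), h⁻¹, ?_⟩
    show g = Quotient.out (e.symm (e (g : G ⧸ j.range))) * j h⁻¹
    rw [Equiv.symm_apply_apply, hn, map_inv, hh, mul_inv_cancel_right]
  · rintro i i' ⟨h, hh⟩
    have hh' : Quotient.out (e.symm i) = Quotient.out (e.symm i') * j h := hh
    have h1 : ((Quotient.out (e.symm i) : G) : G ⧸ j.range)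
        = ((Quotient.out (e.symm i') : G) : G ⧸ j.range) := by
      rw [hh']
      exact QuotientGroup.mk_mul_of_mem _ ⟨h, rfl⟩
    rw [QuotientGroup.out_eq', QuotientGroup.out_eq'] at h1
    exact e.symm.injective h1

end Generic

/-! ### Lifts -/

section Lifts

variable {Γ₁ : Subgroup SL(2, ℤ)} {H : Type*} [Group H] (j : H →* Γ₁)

/-- **The fibre sum of a lift is a lift of the transfer.** `F'` is right-equivariant along `j`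
(with respect to `ψ`) and left `T`-invariant; `t` is a system of left coset representatives of
`Γ₁ / j(H)`. -/
theorem isLift_sum (hj : Function.Injective j) {ι : Type*} [Fintype ι]
    (t : ι → Γ₁) (hcov : ∀ g : Γ₁, ∃ i, ∃ h : H, g = t i * j h)
    (hinj : ∀ i i', (∃ h : H, t i = t i' * j h) → i = i')
    {A : Type*} [AddCommGroup A] (ψ : Additive H →+ A) (F' : SL(2, ℤ) → A)
    (hr : ∀ (g : SL(2, ℤ)) (h : H),
      F' (g * ((j h : Γ₁) : SL(2, ℤ))) = F' g + ψ (Additive.ofMul h))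
    (hl : ∀ g, F' (T * g) = F' g) :
    PD.IsLift Γ₁ (transferAlong j ψ) (fun g => ∑ i, F' (g * ((t i : Γ₁) : SL(2, ℤ)))) := by
  classical
  refine ⟨fun g γ => ?_, fun g => ?_⟩
  · have hex : ∀ i, ∃ i', ∃ h : H, γ * t i = t i' * j h := fun i => hcov (γ * t i)
    choose σ part hspec using hex
    rw [transferAlong_apply_of_leftReps j hj t hcov hinj γ σ part hspec ψ]
    have hσinj := sigma_injective j t hinj γ σ part hspec
    let σe : Equiv.Perm ι := Equiv.ofBijective σ (Finite.injective_iff_bijective.mp hσinj)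
    have h1 : ∀ i, F' (g * (γ : SL(2, ℤ)) * ((t i : Γ₁) : SL(2, ℤ)))
        = F' (g * ((t (σe i) : Γ₁) : SL(2, ℤ))) + ψ (Additive.ofMul (part i)) := by
      intro i
      have h2 := hr (g * ((t (σ i) : Γ₁) : SL(2, ℤ))) (part i)
      have h3 : ((γ : SL(2, ℤ)) * ((t i : Γ₁) : SL(2, ℤ)))
          = ((t (σ i) : Γ₁) : SL(2, ℤ)) * ((j (part i) : Γ₁) : SL(2, ℤ)) := by
        have := congrArg (Subtype.val : Γ₁ → SL(2, ℤ)) (hspec i)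
        simpa using this
      show _ = F' (g * ((t (σ i) : Γ₁) : SL(2, ℤ))) + _
      rw [← h2, mul_assoc, h3, mul_assoc]
    show ∑ i, F' (g * (γ : SL(2, ℤ)) * ((t i : Γ₁) : SL(2, ℤ))) = _
    simp only [h1, Finset.sum_add_distrib]
    congr 1
    exact Equiv.sum_comp σe (fun i => F' (g * ((t i : Γ₁) : SL(2, ℤ))))
  · show ∑ i, F' (T * g * ((t i : Γ₁) : SL(2, ℤ))) = ∑ i, F' (g * ((t i : Γ₁) : SL(2, ℤ)))
    refine Finset.sum_congr rfl fun i _ => ?_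
    rw [mul_assoc, hl]

variable {Γ₂ : Subgroup SL(2, ℤ)}

/-- The symbol of a lift on `Γ₁`, pulled back along `π : G/Γ₂ → G/Γ₁`, is its symbol on
`Γ₂`. -/
theorem sym_restrict (π : SL(2, ℤ) ⧸ Γ₂ → SL(2, ℤ) ⧸ Γ₁)
    (hπ : ∀ g : SL(2, ℤ), π (g : SL(2, ℤ) ⧸ Γ₂) = (g : SL(2, ℤ) ⧸ Γ₁))
    {A : Type*} [AddCommGroup A] {φ : Additive Γ₁ →+ A} {F : SL(2, ℤ) → A}
    (hF : PD.IsLift Γ₁ φ F) (y : SL(2, ℤ) ⧸ Γ₂) :
    PD.sym Γ₂ F y = PD.sym Γ₁ F (π y) := by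
  have h1 : π y = ((Quotient.out y : SL(2, ℤ)) : SL(2, ℤ) ⧸ Γ₁) := by
    conv_lhs => rw [← QuotientGroup.out_eq' y]
    exact hπ _
  rw [h1, PD.sym_mk hF]
  rfl

/-- `π` commutes with `uX`. -/
theorem pi_uX (π : SL(2, ℤ) ⧸ Γ₂ → SL(2, ℤ) ⧸ Γ₁)
    (hπ : ∀ g : SL(2, ℤ), π (g : SL(2, ℤ) ⧸ Γ₂) = (g : SL(2, ℤ) ⧸ Γ₁))
    (y : SL(2, ℤ) ⧸ Γ₂) : π (PD.uX Γ₂ y) = PD.uX Γ₁ (π y) := by
  induction y using QuotientGroup.induction_on with
  | H g => rw [PD.uX_mk, hπ, hπ, PD.uX_mk]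

/-- `π` commutes with `sX`. -/
theorem pi_sX (π : SL(2, ℤ) ⧸ Γ₂ → SL(2, ℤ) ⧸ Γ₁)
    (hπ : ∀ g : SL(2, ℤ), π (g : SL(2, ℤ) ⧸ Γ₂) = (g : SL(2, ℤ) ⧸ Γ₁))
    (y : SL(2, ℤ) ⧸ Γ₂) : π (PD.sX Γ₂ y) = PD.sX Γ₁ (π y) := by
  induction y using QuotientGroup.induction_on with
  | H g => rw [PD.sX_mk, hπ, hπ, PD.sX_mk]

/-- **The symbol of the fibre sum is the push-forward of the symbol.** `Γ₂` is the image of `j`
in `SL(2, ℤ)`, `π : G/Γ₂ → G/Γ₁` the projection. -/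
theorem sym_sum_eq_push [Fintype (SL(2, ℤ) ⧸ Γ₁)] [Fintype (SL(2, ℤ) ⧸ Γ₂)]
    [DecidableEq (SL(2, ℤ) ⧸ Γ₁)]
    (hΓ₂ : ∀ x : SL(2, ℤ), x ∈ Γ₂ ↔ ∃ h : H, ((j h : Γ₁) : SL(2, ℤ)) = x)
    (π : SL(2, ℤ) ⧸ Γ₂ → SL(2, ℤ) ⧸ Γ₁)
    (hπ : ∀ g : SL(2, ℤ), π (g : SL(2, ℤ) ⧸ Γ₂) = (g : SL(2, ℤ) ⧸ Γ₁))
    {ι : Type*} [Fintype ι] (t : ι → Γ₁) (hcov : ∀ g : Γ₁, ∃ i, ∃ h : H, g = t i * j h)
    (hinj : ∀ i i', (∃ h : H, t i = t i' * j h) → i = i')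
    {ψ₂ : Additive Γ₂ →+ ℤ} {F' : SL(2, ℤ) → ℤ} (hF' : PD.IsLift Γ₂ ψ₂ F') :
    PD.sym Γ₁ (fun g => ∑ i, F' (g * ((t i : Γ₁) : SL(2, ℤ)))) = PDSym.push π (PD.sym Γ₂ F') := by
  classical
  funext x
  set g₀ : SL(2, ℤ) := Quotient.out x with hg₀
  have hx : ((g₀ : SL(2, ℤ)) : SL(2, ℤ) ⧸ Γ₁) = x := QuotientGroup.out_eq' x
  -- the left hand side as a sum of symbols
  have hL : PD.sym Γ₁ (fun g => ∑ i, F' (g * ((t i : Γ₁) : SL(2, ℤ)))) x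
      = ∑ i, PD.sym Γ₂ F' ((g₀ * ((t i : Γ₁) : SL(2, ℤ)) : SL(2, ℤ)) : SL(2, ℤ) ⧸ Γ₂) := by
    show (∑ i, F' (S * g₀ * ((t i : Γ₁) : SL(2, ℤ)))) - ∑ i, F' (g₀ * ((t i : Γ₁) : SL(2, ℤ))) = _
    rw [← Finset.sum_sub_distrib]
    refine Finset.sum_congr rfl fun i _ => ?_
    rw [PD.sym_mk hF', mul_assoc]
  rw [hL]
  unfold PDSym.push
  refine Finset.sum_nbij
    (fun i => ((g₀ * ((t i : Γ₁) : SL(2, ℤ)) : SL(2, ℤ)) : SL(2, ℤ) ⧸ Γ₂)) ?_ ?_ ?_ ?_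
  · intro i _
    rw [Finset.mem_filter]
    refine ⟨Finset.mem_univ _, ?_⟩
    rw [hπ, ← hx]
    exact QuotientGroup.mk_mul_of_mem g₀ (t i).2
  · intro i _ i' _ h
    have h1 : (g₀ * ((t i : Γ₁) : SL(2, ℤ)))⁻¹ * (g₀ * ((t i' : Γ₁) : SL(2, ℤ))) ∈ Γ₂ :=
      QuotientGroup.eq.mp h
    obtain ⟨k, hk⟩ := (hΓ₂ _).mp h1
    refine (hinj i' i ⟨k, ?_⟩).symm
    apply Subtype.ext
    rw [Subgroup.coe_mul, hk]
    group
  · intro y hy
    rw [Finset.mem_coe, Finset.mem_filter] at hy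
    induction y using QuotientGroup.induction_on with
    | H g' =>
      have h1 : ((g' : SL(2, ℤ)) : SL(2, ℤ) ⧸ Γ₁) = ((g₀ : SL(2, ℤ)) : SL(2, ℤ) ⧸ Γ₁) := by
        rw [← hπ, hy.2, hx]
      have h2 : g₀⁻¹ * g' ∈ Γ₁ := QuotientGroup.eq.mp h1.symm
      obtain ⟨i, h, hh⟩ := hcov ⟨g₀⁻¹ * g', h2⟩
      refine ⟨i, Finset.mem_coe.mpr (Finset.mem_univ _), ?_⟩
      show ((g₀ * ((t i : Γ₁) : SL(2, ℤ)) : SL(2, ℤ)) : SL(2, ℤ) ⧸ Γ₂) = (g' : SL(2, ℤ) ⧸ Γ₂)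
      rw [QuotientGroup.eq]
      refine (hΓ₂ _).mpr ⟨h, ?_⟩
      have h3 : g₀⁻¹ * g' = ((t i : Γ₁) : SL(2, ℤ)) * ((j h : Γ₁) : SL(2, ℤ)) := by
        have := congrArg (Subtype.val : Γ₁ → SL(2, ℤ)) hh
        simpa using this
      have h4 : g' = g₀ * (((t i : Γ₁) : SL(2, ℤ)) * ((j h : Γ₁) : SL(2, ℤ))) := by
        rw [← h3, mul_inv_cancel_left]
      rw [h4]
      group
  · intro i _
    rfl

/-- **The model adjunction in lift form**: `B3_{Γ₂}(ξ_F, ξ_{F'}) = B3_{Γ₁}(ξ_F, ξ_{F''})` where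
`F` is a lift on `Γ₁` (restricted to `Γ₂` on the left), `F'` a lift on `Γ₂ = j(H)` and
`F'' g = ∑ i, F' (g * t i)` its fibre sum. -/
theorem B3_adjunction [Fintype (SL(2, ℤ) ⧸ Γ₁)] [Fintype (SL(2, ℤ) ⧸ Γ₂)]
    (hneg : (-1 : SL(2, ℤ)) ∈ Γ₂)
    (hΓ₂ : ∀ x : SL(2, ℤ), x ∈ Γ₂ ↔ ∃ h : H, ((j h : Γ₁) : SL(2, ℤ)) = x)
    {ι : Type*} [Fintype ι] (t : ι → Γ₁) (hcov : ∀ g : Γ₁, ∃ i, ∃ h : H, g = t i * j h)
    (hinj : ∀ i i', (∃ h : H, t i = t i' * j h) → i = i')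
    {φ : Additive Γ₁ →+ ℤ} {F : SL(2, ℤ) → ℤ} (hF : PD.IsLift Γ₁ φ F)
    {ψ₂ : Additive Γ₂ →+ ℤ} {F' : SL(2, ℤ) → ℤ} (hF' : PD.IsLift Γ₂ ψ₂ F') :
    PDSym.B3 (PD.uX Γ₂) (PD.sym Γ₂ F) (PD.sym Γ₂ F')
      = PDSym.B3 (PD.uX Γ₁) (PD.sym Γ₁ F)
          (PD.sym Γ₁ (fun g => ∑ i, F' (g * ((t i : Γ₁) : SL(2, ℤ))))) := by
  classical
  have hle : Γ₂ ≤ Γ₁ := by
    intro x hx
    obtain ⟨h, rfl⟩ := (hΓ₂ x).mp hx
    exact (j h).2
  have hneg₁ : (-1 : SL(2, ℤ)) ∈ Γ₁ := hle hneg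
  let π : SL(2, ℤ) ⧸ Γ₂ → SL(2, ℤ) ⧸ Γ₁ := Subgroup.quotientMapOfLE hle
  have hπ : ∀ g : SL(2, ℤ), π (g : SL(2, ℤ) ⧸ Γ₂) = (g : SL(2, ℤ) ⧸ Γ₁) := fun g => rfl
  rw [sym_sum_eq_push j hΓ₂ π hπ t hcov hinj hF',
    ← PDSym.B3_comp_left (PD.uX_uX_uX hneg₁) (PD.uX_uX_uX hneg) π (pi_uX π hπ)]
  congr 1
  funext y
  exact sym_restrict π hπ hF y

/-- The fibre sum of a lift on the image `Γ₂` of `j` is a lift of the transfer (`IsLift` form of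
the hypothesis of `isLift_sum`; `j` need not be an inclusion). -/
theorem isLift_sum_of_image (hj : Function.Injective j) {ι : Type*} [Fintype ι]
    (t : ι → Γ₁) (hcov : ∀ g : Γ₁, ∃ i, ∃ h : H, g = t i * j h)
    (hinj : ∀ i i', (∃ h : H, t i = t i' * j h) → i = i')
    {A : Type*} [AddCommGroup A] (ψ : Additive H →+ A) {ψ₂ : Additive Γ₂ →+ A}
    {F' : SL(2, ℤ) → A} (hF' : PD.IsLift Γ₂ ψ₂ F')
    (hc : ∀ h : H, ∃ γ₂ : Γ₂, (γ₂ : SL(2, ℤ)) = ((j h : Γ₁) : SL(2, ℤ)) ∧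
      ψ₂ (Additive.ofMul γ₂) = ψ (Additive.ofMul h)) :
    PD.IsLift Γ₁ (transferAlong j ψ) (fun g => ∑ i, F' (g * ((t i : Γ₁) : SL(2, ℤ)))) :=
  isLift_sum j hj t hcov hinj ψ F' (fun g h => by
    obtain ⟨γ₂, h1, h2⟩ := hc h
    rw [← h1, ← h2]
    exact hF'.mul_right g γ₂) hF'.T_left

end Lifts

/-! ### The case of an inclusion `Γ₂ ≤ Γ₁` -/

section Inclusion

variable {Γ₁ Γ₂ : Subgroup SL(2, ℤ)} (j : Γ₂ →* Γ₁)

theorem injective_of_coe (hjc : ∀ γ : Γ₂, ((j γ : Γ₁) : SL(2, ℤ)) = (γ : SL(2, ℤ))) :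
    Function.Injective j := by
  intro a b h
  apply Subtype.ext
  rw [← hjc a, ← hjc b, h]

theorem mem_iff_of_coe (hjc : ∀ γ : Γ₂, ((j γ : Γ₁) : SL(2, ℤ)) = (γ : SL(2, ℤ))) :
    ∀ x : SL(2, ℤ), x ∈ Γ₂ ↔ ∃ h : Γ₂, ((j h : Γ₁) : SL(2, ℤ)) = x :=
  fun x => ⟨fun hx => ⟨⟨x, hx⟩, hjc _⟩, fun ⟨h, hh⟩ => by rw [← hh, hjc]; exact h.2⟩

/-- Restriction of a lift along an inclusion. -/
theorem isLift_restrict (hjc : ∀ γ : Γ₂, ((j γ : Γ₁) : SL(2, ℤ)) = (γ : SL(2, ℤ)))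
    {A : Type*} [AddCommGroup A] {φ : Additive Γ₁ →+ A} {F : SL(2, ℤ) → A}
    (hF : PD.IsLift Γ₁ φ F) : PD.IsLift Γ₂ (φ.comp (MonoidHom.toAdditive j)) F :=
  ⟨fun g γ => by
    have h := hF.mul_right g (j γ)
    rw [hjc] at h
    exact h, hF.T_left⟩

/-- The fibre sum of a lift on `Γ₂` is a lift of the transfer on `Γ₁`. -/
theorem isLift_sum_of_coe (hjc : ∀ γ : Γ₂, ((j γ : Γ₁) : SL(2, ℤ)) = (γ : SL(2, ℤ)))
    {ι : Type*} [Fintype ι]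
    (t : ι → Γ₁) (hcov : ∀ g : Γ₁, ∃ i, ∃ h : Γ₂, g = t i * j h)
    (hinj : ∀ i i', (∃ h : Γ₂, t i = t i' * j h) → i = i')
    {A : Type*} [AddCommGroup A] {ψ : Additive Γ₂ →+ A} {F' : SL(2, ℤ) → A}
    (hF' : PD.IsLift Γ₂ ψ F') :
    PD.IsLift Γ₁ (transferAlong j ψ) (fun g => ∑ i, F' (g * ((t i : Γ₁) : SL(2, ℤ)))) :=
  isLift_sum j (injective_of_coe j hjc) t hcov hinj ψ F'
    (fun g h => by rw [hjc]; exact hF'.mul_right g h) hF'.T_left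

/-- The model adjunction for an inclusion, in lift form. -/
theorem B3_adjunction_of_coe [Fintype (SL(2, ℤ) ⧸ Γ₁)] [Fintype (SL(2, ℤ) ⧸ Γ₂)]
    (hneg : (-1 : SL(2, ℤ)) ∈ Γ₂)
    (hjc : ∀ γ : Γ₂, ((j γ : Γ₁) : SL(2, ℤ)) = (γ : SL(2, ℤ)))
    {ι : Type*} [Fintype ι] (t : ι → Γ₁) (hcov : ∀ g : Γ₁, ∃ i, ∃ h : Γ₂, g = t i * j h)
    (hinj : ∀ i i', (∃ h : Γ₂, t i = t i' * j h) → i = i')
    {φ : Additive Γ₁ →+ ℤ} {F : SL(2, ℤ) → ℤ} (hF : PD.IsLift Γ₁ φ F)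
    {ψ : Additive Γ₂ →+ ℤ} {F' : SL(2, ℤ) → ℤ} (hF' : PD.IsLift Γ₂ ψ F') :
    PDSym.B3 (PD.uX Γ₂) (PD.sym Γ₂ F) (PD.sym Γ₂ F')
      = PDSym.B3 (PD.uX Γ₁) (PD.sym Γ₁ F)
          (PD.sym Γ₁ (fun g => ∑ i, F' (g * ((t i : Γ₁) : SL(2, ℤ))))) :=
  B3_adjunction j hneg (mem_iff_of_coe j hjc) t hcov hinj hF hF'

/-- `j(Γ₂)` has finite index in `Γ₁` when `Γ₂` has finite index in `SL(2, ℤ)`. -/
theorem finite_quotient_range_of_coe [Finite (SL(2, ℤ) ⧸ Γ₂)]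
    (hjc : ∀ γ : Γ₂, ((j γ : Γ₁) : SL(2, ℤ)) = (γ : SL(2, ℤ))) : Finite (Γ₁ ⧸ j.range) := by
  let f : Γ₁ ⧸ j.range → SL(2, ℤ) ⧸ Γ₂ :=
    Quotient.map' (fun a : Γ₁ => (a : SL(2, ℤ))) (by
      intro a b hab
      have h1 : a⁻¹ * b ∈ j.range := QuotientGroup.leftRel_apply.mp hab
      obtain ⟨h, hh⟩ := h1
      refine QuotientGroup.leftRel_apply.mpr ?_
      have h2 : ((a : SL(2, ℤ)))⁻¹ * (b : SL(2, ℤ)) = (h : SL(2, ℤ)) := by
        rw [← hjc h, hh]; rfl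
      rw [h2]
      exact h.2)
  refine Finite.of_injective f ?_
  intro x y hxy
  induction x using QuotientGroup.induction_on with
  | H a =>
    induction y using QuotientGroup.induction_on with
    | H b =>
      have h1 : ((a : SL(2, ℤ)) : SL(2, ℤ) ⧸ Γ₂) = ((b : SL(2, ℤ)) : SL(2, ℤ) ⧸ Γ₂) := hxy
      have h2 : ((a : SL(2, ℤ)))⁻¹ * (b : SL(2, ℤ)) ∈ Γ₂ := QuotientGroup.eq.mp h1
      rw [QuotientGroup.eq]
      refine ⟨⟨_, h2⟩, ?_⟩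
      apply Subtype.ext
      rw [hjc]
      rfl

/-- **Packaged adjunction for an inclusion `j : Γ₂ →* Γ₁`** (no representatives in the
statement): for a lift `F` on `Γ₁` and a lift `F'` of `ψ` on `Γ₂` there is a lift `F''` of
`transferAlong j ψ` on `Γ₁` with `B3_{Γ₂}(ξ_F, ξ_{F'}) = B3_{Γ₁}(ξ_F, ξ_{F''})`; moreover `F` is
a lift of the restriction `φ ∘ j` on `Γ₂`. -/
theorem exists_lift_transfer_of_coe [Fintype (SL(2, ℤ) ⧸ Γ₁)] [Fintype (SL(2, ℤ) ⧸ Γ₂)]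
    (hneg : (-1 : SL(2, ℤ)) ∈ Γ₂)
    (hjc : ∀ γ : Γ₂, ((j γ : Γ₁) : SL(2, ℤ)) = (γ : SL(2, ℤ)))
    {φ : Additive Γ₁ →+ ℤ} {F : SL(2, ℤ) → ℤ} (hF : PD.IsLift Γ₁ φ F)
    {ψ : Additive Γ₂ →+ ℤ} {F' : SL(2, ℤ) → ℤ} (hF' : PD.IsLift Γ₂ ψ F') :
    PD.IsLift Γ₂ (φ.comp (MonoidHom.toAdditive j)) F ∧
    ∃ F'' : SL(2, ℤ) → ℤ, PD.IsLift Γ₁ (transferAlong j ψ) F'' ∧
      PDSym.B3 (PD.uX Γ₂) (PD.sym Γ₂ F) (PD.sym Γ₂ F')
        = PDSym.B3 (PD.uX Γ₁) (PD.sym Γ₁ F) (PD.sym Γ₁ F'') := by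
  have : Finite (SL(2, ℤ) ⧸ Γ₂) := Finite.of_fintype _
  have := finite_quotient_range_of_coe j hjc
  obtain ⟨n, t, hcov, hinj⟩ := exists_leftReps j
  exact ⟨isLift_restrict j hjc hF, _, isLift_sum_of_coe j hjc t hcov hinj hF',
    B3_adjunction_of_coe j hneg hjc t hcov hinj hF hF'⟩

end Inclusion

end Fermat.Agent.S41.PDBridgeB
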