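import Fermat.Agent.S41.PDDefs

/-!
# S41 / [PD] leaf (3i) : cycles

`Γ ≤ SL(2, ℤ)` with `-1 ∈ Γ` and `X = SL(2, ℤ) ⧸ Γ` finite.  For every `γ ∈ Γ` there is an
antisymmetric function `ζ : X → ℤ` (the cycle of `γ`) together with a primitive `E` of
`ζ ∘ t + ζ` along `t = u ∘ s` such that `∑ x, sym F x * ζ x = 2 * φ γ` for every lift `F` of every
homomorphism `φ : Γ → ℤ`.  These are exactly the data consumed by `PDSym.isSym_dual` and
`PDSym.B3_dual`.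

The proof is an induction over words in `S`, `T`: writing `x₀` for the base coset, the statement
`P g` says that there are `c E : X → ℤ` with `F g - F 1 = ∑ x, sym F x * c x` for all lifts and
`E (T • y) - E y = c y - c (S • y) - [y = x₀] + [y = g • x₀]`.
-/

set_option autoImplicit false

open scoped MatrixGroups
open ModularGroup ModularCurve.Period

namespace Fermat.Agent.S41.PDCycle

open Fermat.Agent.S41

variable {Γ : Subgroup SL(2, ℤ)}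

/-- An integer valued lift is even. -/
theorem lift_neg (hneg : (-1 : SL(2, ℤ)) ∈ Γ) {φ : Additive Γ →+ ℤ} {F : SL(2, ℤ) → ℤ}
    (hF : PD.IsLift Γ φ F) (g : SL(2, ℤ)) : F (-g) = F g := by
  have h1 : φ (Additive.ofMul (⟨-1, hneg⟩ : Γ)) = 0 := by
    have h2 : φ (Additive.ofMul (⟨-1, hneg⟩ : Γ)) + φ (Additive.ofMul (⟨-1, hneg⟩ : Γ)) = 0 := by
      rw [← map_add, ← ofMul_mul]
      have : (⟨-1, hneg⟩ : Γ) * ⟨-1, hneg⟩ = 1 := by
        apply Subtype.ext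
        show (-1 : SL(2, ℤ)) * (-1) = 1
        simp
      rw [this, ofMul_one, map_zero]
    omega
  have h2 := hF.mul_right g ⟨-1, hneg⟩
  rw [h1, add_zero] at h2
  rw [← h2]
  congr 1
  exact (mul_neg_one g).symm

/-- The symbol of an integer valued lift is antisymmetric (no parabolicity needed). -/
theorem sym_sX (hneg : (-1 : SL(2, ℤ)) ∈ Γ) {φ : Additive Γ →+ ℤ} {F : SL(2, ℤ) → ℤ}
    (hF : PD.IsLift Γ φ F) (x : SL(2, ℤ) ⧸ Γ) : PD.sym Γ F (PD.sX Γ x) = - PD.sym Γ F x := by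
  induction x using QuotientGroup.induction_on with
  | H g =>
    rw [PD.sX_mk, PD.sym_mk hF, PD.sym_mk hF, ← mul_assoc, PD.S_mul_S, neg_one_mul,
      lift_neg hneg hF]
    abel

open Classical in
/-- The indicator function of a point. -/
noncomputable def ind {X : Type*} (a : X) (y : X) : ℤ := if y = a then 1 else 0

theorem ind_self {X : Type*} (a : X) : ind a a = 1 := by
  unfold ind
  exact if_pos rfl

theorem ind_ne {X : Type*} {a y : X} (h : y ≠ a) : ind a y = 0 := by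
  unfold ind
  exact if_neg h

theorem ind_congr {X : Type*} {a b y z : X} (h : y = a ↔ z = b) : ind a y = ind b z := by
  by_cases hy : y = a
  · rw [hy, h.1 hy, ind_self, ind_self]
  · rw [ind_ne hy, ind_ne (fun hz => hy (h.2 hz))]

theorem sum_mul_ind {X : Type*} [Fintype X] (f : X → ℤ) (a : X) : ∑ x, f x * ind a x = f a := by
  classical
  rw [Finset.sum_eq_single a]
  · rw [ind_self, mul_one]
  · intro b _ hb
    rw [ind_ne hb, mul_zero]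
  · intro h
    exact absurd (Finset.mem_univ a) h

/-- The induction statement. -/
def P (Γ : Subgroup SL(2, ℤ)) [Fintype (SL(2, ℤ) ⧸ Γ)] (g : SL(2, ℤ)) : Prop :=
  ∃ c E : SL(2, ℤ) ⧸ Γ → ℤ,
    (∀ (φ : Additive Γ →+ ℤ) (F : SL(2, ℤ) → ℤ), PD.IsLift Γ φ F →
      F g - F 1 = ∑ x, PD.sym Γ F x * c x) ∧
    ∀ y : SL(2, ℤ) ⧸ Γ, E (T • y) - E y =
      c y - c (PD.sX Γ y) - ind ((1 : SL(2, ℤ)) : SL(2, ℤ) ⧸ Γ) y
        + ind ((g : SL(2, ℤ)) : SL(2, ℤ) ⧸ Γ) y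

variable [Fintype (SL(2, ℤ) ⧸ Γ)]

theorem P_one : P Γ 1 :=
  ⟨0, 0, fun φ F _ => by simp, fun y => by simp⟩

theorem P_S (hneg : (-1 : SL(2, ℤ)) ∈ Γ) {g : SL(2, ℤ)} (h : P Γ g) : P Γ (S * g) := by
  obtain ⟨c, E, h1, h2⟩ := h
  refine ⟨fun x => c x + ind ((g : SL(2, ℤ)) : SL(2, ℤ) ⧸ Γ) x, E,
    fun φ F hF => ?_, fun y => ?_⟩
  · have e := h1 φ F hF
    have e2 := PD.sym_mk hF g
    simp only [mul_add, Finset.sum_add_distrib]
    rw [sum_mul_ind, ← e, e2]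
    ring
  · rw [h2 y]
    have e3 : ind ((g : SL(2, ℤ)) : SL(2, ℤ) ⧸ Γ) (PD.sX Γ y)
        = ind ((S * g : SL(2, ℤ)) : SL(2, ℤ) ⧸ Γ) y := by
      apply ind_congr
      constructor
      · intro h
        rw [← PD.sX_mk, ← h, PD.sX_sX hneg]
      · intro h
        rw [h, ← PD.sX_mk, PD.sX_sX hneg]
    show _ = c y + ind ((g : SL(2, ℤ)) : SL(2, ℤ) ⧸ Γ) y
      - (c (PD.sX Γ y) + ind ((g : SL(2, ℤ)) : SL(2, ℤ) ⧸ Γ) (PD.sX Γ y)) - _ + _
    rw [e3]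
    ring

theorem P_T {g : SL(2, ℤ)} (h : P Γ g) : P Γ (T * g) := by
  obtain ⟨c, E, h1, h2⟩ := h
  refine ⟨c, fun x => E x - ind ((T * g : SL(2, ℤ)) : SL(2, ℤ) ⧸ Γ) x,
    fun φ F hF => ?_, fun y => ?_⟩
  · rw [hF.T_left]
    exact h1 φ F hF
  · have e3 : ind ((T * g : SL(2, ℤ)) : SL(2, ℤ) ⧸ Γ) (T • y)
        = ind ((g : SL(2, ℤ)) : SL(2, ℤ) ⧸ Γ) y := by
      apply ind_congr
      have : ((T * g : SL(2, ℤ)) : SL(2, ℤ) ⧸ Γ) = T • ((g : SL(2, ℤ)) : SL(2, ℤ) ⧸ Γ) := rfl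
      rw [this]
      exact (MulAction.injective T).eq_iff
    have e := h2 y
    show E (T • y) - ind ((T * g : SL(2, ℤ)) : SL(2, ℤ) ⧸ Γ) (T • y)
      - (E y - ind ((T * g : SL(2, ℤ)) : SL(2, ℤ) ⧸ Γ) y) = _
    rw [e3]
    linarith

theorem P_T_inv {g : SL(2, ℤ)} (h : P Γ g) : P Γ (T⁻¹ * g) := by
  obtain ⟨c, E, h1, h2⟩ := h
  refine ⟨c, fun x => E x + ind ((g : SL(2, ℤ)) : SL(2, ℤ) ⧸ Γ) x,
    fun φ F hF => ?_, fun y => ?_⟩
  · rw [hF.T_inv_left]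
    exact h1 φ F hF
  · have e3 : ind ((g : SL(2, ℤ)) : SL(2, ℤ) ⧸ Γ) (T • y)
        = ind ((T⁻¹ * g : SL(2, ℤ)) : SL(2, ℤ) ⧸ Γ) y := by
      apply ind_congr
      have : ((g : SL(2, ℤ)) : SL(2, ℤ) ⧸ Γ)
          = T • ((T⁻¹ * g : SL(2, ℤ)) : SL(2, ℤ) ⧸ Γ) := by
        show _ = (((T * (T⁻¹ * g) : SL(2, ℤ))) : SL(2, ℤ) ⧸ Γ)
        rw [mul_inv_cancel_left]
      rw [this]
      exact (MulAction.injective T).eq_iff
    have e := h2 y
    show E (T • y) + ind ((g : SL(2, ℤ)) : SL(2, ℤ) ⧸ Γ) (T • y)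
      - (E y + ind ((g : SL(2, ℤ)) : SL(2, ℤ) ⧸ Γ) y) = _
    rw [e3]
    linarith

theorem P_S_inv (hneg : (-1 : SL(2, ℤ)) ∈ Γ) {g : SL(2, ℤ)} (h : P Γ g) : P Γ (S⁻¹ * g) := by
  have h3 := P_S hneg (P_S hneg (P_S hneg h))
  have e : S * (S * (S * g)) = S⁻¹ * g := by
    have : (S * (S * S) : SL(2, ℤ)) = S⁻¹ := by decide
    rw [← this]
    simp only [mul_assoc]
  rwa [e] at h3

theorem P_all (hneg : (-1 : SL(2, ℤ)) ∈ Γ) (g : SL(2, ℤ)) : P Γ g := by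
  have hg : g ∈ Subgroup.closure ({S, T} : Set SL(2, ℤ)) := by
    rw [SpecialLinearGroup.SL2Z_generators]
    exact Subgroup.mem_top g
  induction hg using Subgroup.closure_induction_left with
  | one => exact P_one
  | mul_left x hx y _ ih =>
    rcases hx with rfl | hx
    · exact P_S hneg ih
    · rw [Set.mem_singleton_iff] at hx
      subst hx
      exact P_T ih
  | inv_mul_cancel x hx y _ ih =>
    rcases hx with rfl | hx
    · exact P_S_inv hneg ih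
    · rw [Set.mem_singleton_iff] at hx
      subst hx
      exact P_T_inv ih

/-- **Leaf (3i): the cycle of `γ ∈ Γ`.**  `ζ` is antisymmetric, `ζ ∘ t + ζ` has the primitive `E`
along `t = u ∘ s`, and `ζ` computes `2 φ γ` against the symbol of every lift of every `φ`. -/
theorem exists_cycle (Γ : Subgroup SL(2, ℤ)) [Fintype (SL(2, ℤ) ⧸ Γ)]
    (hneg : (-1 : SL(2, ℤ)) ∈ Γ) (γ : Γ) :
    ∃ ζ E : SL(2, ℤ) ⧸ Γ → ℤ,
      (∀ x, ζ (PD.sX Γ x) = - ζ x) ∧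
      (∀ y, E (PD.uX Γ (PD.sX Γ y)) - E y = ζ (PD.uX Γ (PD.sX Γ y)) + ζ y) ∧
      ∀ (φ : Additive Γ →+ ℤ) (F : SL(2, ℤ) → ℤ), PD.IsLift Γ φ F →
        ∑ x, PD.sym Γ F x * ζ x = 2 * φ (Additive.ofMul γ) := by
  obtain ⟨c, E, h1, h2⟩ := P_all hneg (γ : SL(2, ℤ))
  have hγ : (((γ : SL(2, ℤ)) : SL(2, ℤ)) : SL(2, ℤ) ⧸ Γ) = ((1 : SL(2, ℤ)) : SL(2, ℤ) ⧸ Γ) := by
    rw [QuotientGroup.eq]
    simp
  refine ⟨fun x => c x - c (PD.sX Γ x), fun y => E (T • y) + E y, fun x => ?_, fun y => ?_,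
    fun φ F hF => ?_⟩
  · show c (PD.sX Γ x) - c (PD.sX Γ (PD.sX Γ x)) = -(c x - c (PD.sX Γ x))
    rw [PD.sX_sX hneg]
    ring
  · rw [PD.uX_sX hneg]
    show E (T • T • y) + E (T • y) - (E (T • y) + E y)
      = c (T • y) - c (PD.sX Γ (T • y)) + (c y - c (PD.sX Γ y))
    have e1 := h2 y
    have e2 := h2 (T • y)
    rw [hγ] at e1 e2
    linarith
  · have e := h1 φ F hF
    have e0 : F (γ : SL(2, ℤ)) - F 1 = φ (Additive.ofMul γ) := by
      have := hF.mul_right 1 γ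
      rw [one_mul] at this
      rw [this]
      ring
    have e4 : ∑ x, PD.sym Γ F x * c (PD.sX Γ x) = - ∑ x, PD.sym Γ F x * c x := by
      rw [← Finset.sum_neg_distrib]
      have hbij : Function.Bijective (PD.sX Γ) :=
        Function.Involutive.bijective (PD.sX_sX hneg)
      rw [← Function.Bijective.sum_comp hbij (fun x => - (PD.sym Γ F x * c x))]
      refine Finset.sum_congr rfl fun x _ => ?_
      rw [sym_sX hneg hF]
      ring
    simp only [mul_sub, Finset.sum_sub_distrib]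
    rw [e4, ← e, e0]
    ring

/-- The same with the primitive written along `T • ·`. -/
theorem exists_cycle_T (Γ : Subgroup SL(2, ℤ)) [Fintype (SL(2, ℤ) ⧸ Γ)]
    (hneg : (-1 : SL(2, ℤ)) ∈ Γ) (γ : Γ) :
    ∃ ζ E : SL(2, ℤ) ⧸ Γ → ℤ,
      (∀ x, ζ (S • x) = - ζ x) ∧
      (∀ y, E (T • y) - E y = ζ (T • y) + ζ y) ∧
      ∀ (φ : Additive Γ →+ ℤ) (F : SL(2, ℤ) → ℤ), PD.IsLift Γ φ F →
        ∑ x, PD.sym Γ F x * ζ x = 2 * φ (Additive.ofMul γ) := by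
  obtain ⟨ζ, E, h1, h2, h3⟩ := exists_cycle Γ hneg γ
  refine ⟨ζ, E, h1, fun y => ?_, h3⟩
  have := h2 y
  rwa [PD.uX_sX hneg] at this

end Fermat.Agent.S41.PDCycle
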