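/-
S41, block [PD], leaf (3iii) NONDEGENERACY — final form (owner: helper45, B seat of (3iii)).

For `Γ ≤ SL(2, ℤ)` with `-1 ∈ Γ` and finite coset space:

* `exists_dual_hom` : every `γ : Γ` has a dual parabolic class `ψ` with
  `pd3 Γ φ ψ = -12 * φ γ` for all parabolic `φ`;
* `pdZ_dual` : the same for the bundled pairing, `pdZ x y = -4 * x γ`;
* `pdZ_nondegenerate`, `pdZ_nondegenerate_zmod` : if `p` is an odd prime and `p ∣ pdZ x y` for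
  all `y`, then `x = p • z`.

Inputs: (1)/(3ii) `PDSym`, (D) `PDDefs`, (7a) `PDPair`, (2c) `PDSurjB`, (3i) `PDCycleB`,
(C7) `LparFree`.
-/
import Mathlib
import Fermat.Prelude.Def_ModularCurve_PeriodMap
import Fermat.Agent.S41.PDSym
import Fermat.Agent.S41.PDDefs
import Fermat.Agent.S41.PDPair
import Fermat.Agent.S41.PDSurjB
import Fermat.Agent.S41.PDCycleB
import Fermat.Agent.S41.LparFree

set_option autoImplicit false

open ModularCurve.Period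
open scoped MatrixGroups

namespace Fermat.Agent.S41.PDNondegFinB

open Fermat.Agent.S41 Fermat.Agent.S41.PD

variable (Γ : Subgroup SL(2, ℤ)) [Fintype (SL(2, ℤ) ⧸ Γ)]

/-- The Poincare dual class of `γ : Γ`. -/
theorem exists_dual_hom (hneg : (-1 : SL(2, ℤ)) ∈ Γ) (γ : Γ) :
    ∃ ψ : Additive Γ →+ ℤ, IsParabolicHom Γ ψ ∧
      ∀ φ : Additive Γ →+ ℤ, IsParabolicHom Γ φ →
        PDPair.pd3 Γ φ ψ = -12 * φ (Additive.ofMul γ) := by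
  obtain ⟨ζ, E, hζ, hE, hζφ⟩ := PDCycleB.exists_cycle Γ hneg γ
  have hs : ∀ x, sX Γ (sX Γ x) = x := sX_sX hneg
  have hu : ∀ x, uX Γ (uX Γ (uX Γ x)) = x := uX_uX_uX hneg
  obtain ⟨ψ, F', hψ, hF', hη⟩ :=
    PDSurjB.exists_isLift_sym_eq Γ _ (PDSym.isSym_dual hs hu hζ hE)
  refine ⟨ψ, hψ, fun φ hφ => ?_⟩
  obtain ⟨F, hF⟩ := PDPair.exists_isLift Γ φ hφ
  rw [PDPair.pd3_eq hneg hφ hψ hF hF', hη,
    PDSym.B3_dual hs hu (isSym_sym hneg hφ hF) hζ hE, hζφ φ F hF]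
  ring

/-- The Poincare dual class of `γ : Γ` for the bundled pairing `pdZ = pd3 / 3`. -/
theorem pdZ_dual (hneg : (-1 : SL(2, ℤ)) ∈ Γ) (γ : Γ) :
    ∃ y : parabolicHoms ℤ Γ ℤ, ∀ x : parabolicHoms ℤ Γ ℤ,
      PDPair.pdZ Γ hneg x y = -4 * (x : Additive Γ →+ ℤ) (Additive.ofMul γ) := by
  obtain ⟨ψ, hψ, h⟩ := exists_dual_hom Γ hneg γ
  refine ⟨⟨ψ, hψ⟩, fun x => ?_⟩
  have h1 := PDPair.three_mul_pdZ hneg x ⟨ψ, hψ⟩
  have h2 := h x.1 x.2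
  have h3 : 3 * PDPair.pdZ Γ hneg x ⟨ψ, hψ⟩ = -12 * (x : Additive Γ →+ ℤ) (Additive.ofMul γ) :=
    h1.trans h2
  linarith

/-- **Nondegeneracy of `pdZ` modulo an odd prime** (values form). -/
theorem dvd_apply_of_forall_dvd (hneg : (-1 : SL(2, ℤ)) ∈ Γ) {p : ℕ} (hp : p.Prime)
    (hp2 : p ≠ 2) (x : parabolicHoms ℤ Γ ℤ)
    (h : ∀ y : parabolicHoms ℤ Γ ℤ, (p : ℤ) ∣ PDPair.pdZ Γ hneg x y) (γ : Γ) :
    (p : ℤ) ∣ (x : Additive Γ →+ ℤ) (Additive.ofMul γ) := by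
  obtain ⟨y, hy⟩ := pdZ_dual Γ hneg γ
  have h1 : (p : ℤ) ∣ -4 * (x : Additive Γ →+ ℤ) (Additive.ofMul γ) := by
    rw [← hy x]; exact h y
  have hpZ : Prime (p : ℤ) := Nat.prime_iff_prime_int.mp hp
  rcases hpZ.dvd_or_dvd h1 with h2 | h2
  · exfalso
    have h3 : (p : ℤ) ∣ 4 := (dvd_neg).mp h2
    have h4 : p ∣ 4 := by exact_mod_cast h3
    have h5 : p ∣ 2 ^ 2 := by simpa using h4
    have h6 : p ∣ 2 := hp.dvd_of_dvd_pow h5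
    exact hp2 ((Nat.prime_dvd_prime_iff_eq hp Nat.prime_two).mp h6)
  · exact h2

/-- **Nondegeneracy of `pdZ` modulo an odd prime**: the kernel modulo `p` is `p • Hom_par`. -/
theorem pdZ_nondegenerate (hneg : (-1 : SL(2, ℤ)) ∈ Γ) {p : ℕ} (hp : p.Prime) (hp2 : p ≠ 2)
    (x : parabolicHoms ℤ Γ ℤ)
    (h : ∀ y : parabolicHoms ℤ Γ ℤ, (p : ℤ) ∣ PDPair.pdZ Γ hneg x y) :
    ∃ z : parabolicHoms ℤ Γ ℤ, x = (p : ℤ) • z := by
  refine LparFree.exists_eq_smul_of_dvd Γ (p : ℤ) x fun γ => ?_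
  exact dvd_apply_of_forall_dvd Γ hneg hp hp2 x h (Additive.toMul γ)

/-- **Nondegeneracy**, `ZMod p` form (the shape consumed by `pdPair_nondegenerate`). -/
theorem pdZ_nondegenerate_zmod (hneg : (-1 : SL(2, ℤ)) ∈ Γ) {p : ℕ} [Fact p.Prime]
    (hp2 : p ≠ 2) (x : parabolicHoms ℤ Γ ℤ)
    (h : ∀ y : parabolicHoms ℤ Γ ℤ, ((PDPair.pdZ Γ hneg x y : ℤ) : ZMod p) = 0) :
    ∃ z : parabolicHoms ℤ Γ ℤ, x = (p : ℤ) • z :=
  pdZ_nondegenerate Γ hneg Fact.out hp2 x fun y =>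
    (ZMod.intCast_zmod_eq_zero_iff_dvd _ p).mp (h y)

end Fermat.Agent.S41.PDNondegFinB
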