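/-
S41 / [PD] leaf (7), B-copy of the assembly (owner: helper62), layer 1: the formal package.

From a family of integral pairings `Z M : Lpar M → Lpar M → ℤ` (in the application
`Z M x y = B3 (sym F_x) (sym F_y)`, three times the Poincare pairing of `Γ₀(M)`) which is
biadditive, skew, divisible by `3`, has "dual classes" (`Z M φ ψ_γ = 3 * (c * φ γ)` with
`p ∤ c`) and satisfies the two adjunctions, we produce the `ZMod p`-valued bilinear forms `B M`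
in the literal shapes consumed by `Plan.result_of_leaves` (`B`, `hBs`, `hBn`, `hBa₁`, `hBa₂`).
-/
import Mathlib
import Fermat.Agent.S41.Defs
import Fermat.Agent.S41.LparFree
import Fermat.Agent.S41.PDPair

set_option autoImplicit false
set_option linter.style.haveILetI false

open CongruenceSubgroup ModularCurve.Period
open scoped MatrixGroups

namespace Fermat.Agent.S41.PDPack

open Fermat.Agent.S41 (Lpar res₁ res₂ tr₁ tr₂)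

noncomputable section

theorem div_three_add {a b c : ℤ} (ha : (3 : ℤ) ∣ a) (hb : (3 : ℤ) ∣ b) (h : c = a + b) :
    c / 3 = a / 3 + b / 3 := by omega

/-- The `ZMod p`-valued bilinear form `(x, y) ↦ Z x y / 3` of a biadditive integral form all of
whose values are divisible by `3`. -/
def formOfZ (p : ℕ) {L : Type*} [AddCommGroup L] (Z : L → L → ℤ)
    (hl : ∀ x x' y, Z (x + x') y = Z x y + Z x' y) (hr : ∀ x y y', Z x (y + y') = Z x y + Z x y')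
    (h3 : ∀ x y, (3 : ℤ) ∣ Z x y) : L →ₗ[ℤ] L →ₗ[ℤ] ZMod p :=
  ((addMonoidHomLequivInt ℤ : (L →+ ZMod p) ≃ₗ[ℤ] (L →ₗ[ℤ] ZMod p)).toLinearMap).comp
    (AddMonoidHom.toIntLinearMap
      (AddMonoidHom.mk'
        (fun x => AddMonoidHom.mk' (fun y => ((Z x y / 3 : ℤ) : ZMod p)) (fun y y' => by
          rw [div_three_add (h3 x y) (h3 x y') (hr x y y')]
          push_cast
          rfl))
        (fun x x' => by
          refine AddMonoidHom.ext fun y => ?_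
          show ((Z (x + x') y / 3 : ℤ) : ZMod p) = ((Z x y / 3 : ℤ) : ZMod p) + ((Z x' y / 3 : ℤ) : ZMod p)
          rw [div_three_add (h3 x y) (h3 x' y) (hl x x' y)]
          push_cast
          rfl)))

theorem formOfZ_apply (p : ℕ) {L : Type*} [AddCommGroup L] (Z : L → L → ℤ)
    (hl : ∀ x x' y, Z (x + x') y = Z x y + Z x' y) (hr : ∀ x y y', Z x (y + y') = Z x y + Z x y')
    (h3 : ∀ x y, (3 : ℤ) ∣ Z x y) (x y : L) :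
    formOfZ p Z hl hr h3 x y = ((Z x y / 3 : ℤ) : ZMod p) := rfl

/-- **[PD] package, formal layer.**  The forms `B M` in the shapes of `Plan.result_of_leaves`. -/
theorem exists_forms (p : ℕ) [Fact p.Prime] (c : ℤ) (hc : ¬ (p : ℤ) ∣ c)
    (Z : ∀ M : ℕ, Lpar M → Lpar M → ℤ)
    (hadd : ∀ (M : ℕ) (x x' y : Lpar M), Z M (x + x') y = Z M x y + Z M x' y)
    (hskew : ∀ (M : ℕ) (x y : Lpar M), Z M x y = - Z M y x)
    (h3 : ∀ (M : ℕ) (x y : Lpar M), (3 : ℤ) ∣ Z M x y)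
    (hdual : ∀ (M : ℕ) [NeZero M] (γ : Gamma0 M), ∃ ψ : Lpar M, ∀ φ : Lpar M,
      Z M φ ψ = 3 * (c * (φ : Additive (Gamma0 M) →+ ℤ) (Additive.ofMul γ)))
    (hadj₁ : ∀ (M ℓ : ℕ) [NeZero M] [Fact ℓ.Prime] (_ : ¬ ℓ ∣ M) (x : Lpar M) (y : Lpar (M * ℓ))
      (h₁ : res₁ M ℓ x.1 ∈ Lpar (M * ℓ)) (h₂ : tr₁ M ℓ y.1 ∈ Lpar M),
      Z (M * ℓ) ⟨res₁ M ℓ x.1, h₁⟩ y = Z M x ⟨tr₁ M ℓ y.1, h₂⟩)
    (hadj₂ : ∀ (M ℓ : ℕ) [NeZero M] [Fact ℓ.Prime] (_ : ¬ ℓ ∣ M) (x : Lpar M) (y : Lpar (M * ℓ))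
      (h₁ : res₂ M ℓ x.1 ∈ Lpar (M * ℓ)) (h₂ : tr₂ M ℓ y.1 ∈ Lpar M),
      Z (M * ℓ) ⟨res₂ M ℓ x.1, h₁⟩ y = Z M x ⟨tr₂ M ℓ y.1, h₂⟩) :
    ∃ B : ∀ M : ℕ, Lpar M →ₗ[ℤ] Lpar M →ₗ[ℤ] ZMod p,
      (∀ (M : ℕ) (x y : Lpar M), B M x y = - B M y x) ∧
      (∀ (M : ℕ) [NeZero M] (x : Lpar M), (∀ y, B M x y = 0) → ∃ z : Lpar M, x = (p : ℤ) • z) ∧
      (∀ (M ℓ : ℕ) [NeZero M] [Fact ℓ.Prime] (_ : ¬ ℓ ∣ M) (x : Lpar M) (y : Lpar (M * ℓ))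
        (h₁ : res₁ M ℓ x.1 ∈ Lpar (M * ℓ)) (h₂ : tr₁ M ℓ y.1 ∈ Lpar M),
        B (M * ℓ) ⟨res₁ M ℓ x.1, h₁⟩ y = B M x ⟨tr₁ M ℓ y.1, h₂⟩) ∧
      (∀ (M ℓ : ℕ) [NeZero M] [Fact ℓ.Prime] (_ : ¬ ℓ ∣ M) (x : Lpar M) (y : Lpar (M * ℓ))
        (h₁ : res₂ M ℓ x.1 ∈ Lpar (M * ℓ)) (h₂ : tr₂ M ℓ y.1 ∈ Lpar M),
        B (M * ℓ) ⟨res₂ M ℓ x.1, h₁⟩ y = B M x ⟨tr₂ M ℓ y.1, h₂⟩) := by
  have haddr : ∀ (M : ℕ) (x y y' : Lpar M), Z M x (y + y') = Z M x y + Z M x y' := by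
    intro M x y y'
    rw [hskew M x (y + y'), hadd M y y' x, hskew M y x, hskew M y' x]
    ring
  refine ⟨fun M => formOfZ p (Z M) (hadd M) (haddr M) (h3 M), ?_, ?_, ?_, ?_⟩
  · intro M x y
    rw [formOfZ_apply, formOfZ_apply, hskew M x y]
    have h : - Z M y x / 3 = - (Z M y x / 3) := by
      have := h3 M y x
      omega
    rw [h]
    push_cast
    rfl
  · intro M _ x hx
    apply LparFree.exists_eq_smul_of_dvd (Gamma0 M) (p : ℤ) x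
    intro γ
    obtain ⟨ψ, hψ⟩ := hdual M (Additive.toMul γ)
    have h0 := hx ψ
    rw [formOfZ_apply, hψ x, Int.mul_ediv_cancel_left _ (by norm_num : (3 : ℤ) ≠ 0)] at h0
    rw [ZMod.intCast_zmod_eq_zero_iff_dvd] at h0
    have hp : Prime (p : ℤ) := Nat.prime_iff_prime_int.mp Fact.out
    rcases hp.dvd_or_dvd h0 with h | h
    · exact absurd h hc
    · exact h
  · intro M ℓ _ _ hℓ x y h₁ h₂
    rw [formOfZ_apply, formOfZ_apply, hadj₁ M ℓ hℓ x y h₁ h₂]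
  · intro M ℓ _ _ hℓ x y h₁ h₂
    rw [formOfZ_apply, formOfZ_apply, hadj₂ M ℓ hℓ x y h₁ h₂]

/-! ### Layer 2: from the `pd3`-leaves to the package -/

open Fermat.Agent.S41.PDPair (pd3)

/-- `pd3` without a `Fintype` argument (`0` if `SL(2, ℤ) ⧸ Γ` is infinite). -/
def pd3F (Γ : Subgroup SL(2, ℤ)) (φ ψ : Additive Γ →+ ℤ) : ℤ :=
  open Classical in
  if h : Finite (SL(2, ℤ) ⧸ Γ) then @pd3 Γ (@Fintype.ofFinite _ h) φ ψ else 0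

theorem pd3F_eq (Γ : Subgroup SL(2, ℤ)) [i : Fintype (SL(2, ℤ) ⧸ Γ)] (φ ψ : Additive Γ →+ ℤ) :
    pd3F Γ φ ψ = pd3 Γ φ ψ := by
  unfold pd3F
  rw [dif_pos (Finite.of_fintype _)]
  exact PDPair.pd3_inst_irrel _ _ φ ψ

theorem pd3F_of_not_finite (Γ : Subgroup SL(2, ℤ)) (h : ¬ Finite (SL(2, ℤ) ⧸ Γ))
    (φ ψ : Additive Γ →+ ℤ) : pd3F Γ φ ψ = 0 := by
  unfold pd3F
  rw [dif_neg h]

theorem not_dvd_neg_four (p : ℕ) [Fact p.Prime] (hp2 : p ≠ 2) : ¬ (p : ℤ) ∣ (-4 : ℤ) := by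
  intro h
  have hp : p.Prime := Fact.out
  have h4 : (p : ℤ) ∣ ((4 : ℕ) : ℤ) := by
    have := (dvd_neg (a := (p : ℤ)) (b := (-4 : ℤ))).mpr h
    simpa using this
  have h4' : p ∣ 2 ^ 2 := by
    have := Int.natCast_dvd_natCast.mp h4
    simpa using this
  have h2 : p ∣ 2 := hp.dvd_of_dvd_pow h4'
  exact hp2 ((Nat.prime_dvd_prime_iff_eq hp Nat.prime_two).mp h2)

/-- **[PD] package from the `pd3` leaves** (leaf statements as hypotheses; the `Fintype`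
instances on the coset spaces are universally quantified, so any instance convention of the
leaves fits). -/
theorem pd_package (p : ℕ) [Fact p.Prime] (hp2 : p ≠ 2)
    (hdual : ∀ (M : ℕ) [NeZero M] [Fintype (SL(2, ℤ) ⧸ Gamma0 M)] (γ : Gamma0 M),
      ∃ ψ : Additive (Gamma0 M) →+ ℤ, IsParabolicHom (Gamma0 M) ψ ∧
        ∀ φ : Additive (Gamma0 M) →+ ℤ, IsParabolicHom (Gamma0 M) φ →
          pd3 (Gamma0 M) φ ψ = -12 * φ (Additive.ofMul γ))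
    (hres₁ : ∀ (M ℓ : ℕ) [NeZero M] [Fact ℓ.Prime] (_ : ¬ ℓ ∣ M)
      [Fintype (SL(2, ℤ) ⧸ Gamma0 M)] [Fintype (SL(2, ℤ) ⧸ Gamma0 (M * ℓ))]
      (x : Additive (Gamma0 M) →+ ℤ) (_ : IsParabolicHom (Gamma0 M) x)
      (y : Additive (Gamma0 (M * ℓ)) →+ ℤ) (_ : IsParabolicHom (Gamma0 (M * ℓ)) y),
      pd3 (Gamma0 (M * ℓ)) (res₁ M ℓ x) y = pd3 (Gamma0 M) x (tr₁ M ℓ y))
    (hres₂ : ∀ (M ℓ : ℕ) [NeZero M] [Fact ℓ.Prime] (_ : ¬ ℓ ∣ M)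
      [Fintype (SL(2, ℤ) ⧸ Gamma0 M)] [Fintype (SL(2, ℤ) ⧸ Gamma0 (M * ℓ))]
      (x : Additive (Gamma0 M) →+ ℤ) (_ : IsParabolicHom (Gamma0 M) x)
      (y : Additive (Gamma0 (M * ℓ)) →+ ℤ) (_ : IsParabolicHom (Gamma0 (M * ℓ)) y),
      pd3 (Gamma0 (M * ℓ)) (res₂ M ℓ x) y = pd3 (Gamma0 M) x (tr₂ M ℓ y)) :
    ∃ B : ∀ M : ℕ, Lpar M →ₗ[ℤ] Lpar M →ₗ[ℤ] ZMod p,
      (∀ (M : ℕ) (x y : Lpar M), B M x y = - B M y x) ∧
      (∀ (M : ℕ) [NeZero M] (x : Lpar M), (∀ y, B M x y = 0) → ∃ z : Lpar M, x = (p : ℤ) • z) ∧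
      (∀ (M ℓ : ℕ) [NeZero M] [Fact ℓ.Prime] (_ : ¬ ℓ ∣ M) (x : Lpar M) (y : Lpar (M * ℓ))
        (h₁ : res₁ M ℓ x.1 ∈ Lpar (M * ℓ)) (h₂ : tr₁ M ℓ y.1 ∈ Lpar M),
        B (M * ℓ) ⟨res₁ M ℓ x.1, h₁⟩ y = B M x ⟨tr₁ M ℓ y.1, h₂⟩) ∧
      (∀ (M ℓ : ℕ) [NeZero M] [Fact ℓ.Prime] (_ : ¬ ℓ ∣ M) (x : Lpar M) (y : Lpar (M * ℓ))
        (h₁ : res₂ M ℓ x.1 ∈ Lpar (M * ℓ)) (h₂ : tr₂ M ℓ y.1 ∈ Lpar M),
        B (M * ℓ) ⟨res₂ M ℓ x.1, h₁⟩ y = B M x ⟨tr₂ M ℓ y.1, h₂⟩) := by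
  have hneg : ∀ M : ℕ, (-1 : SL(2, ℤ)) ∈ Gamma0 M := fun M => by
    rw [Gamma0_mem]
    simp
  have hfin : ∀ (M : ℕ) [NeZero M], Finite (SL(2, ℤ) ⧸ Gamma0 M) := fun M _ =>
    Subgroup.finite_quotient_of_finiteIndex
  refine exists_forms p (-4) (not_dvd_neg_four p hp2)
    (fun M x y => pd3F (Gamma0 M) x.1 y.1) ?_ ?_ ?_ ?_ ?_ ?_
  · intro M x x' y
    by_cases h : Finite (SL(2, ℤ) ⧸ Gamma0 M)
    · letI := Fintype.ofFinite (SL(2, ℤ) ⧸ Gamma0 M)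
      show pd3F (Gamma0 M) (x.1 + x'.1) y.1 = _
      rw [pd3F_eq, pd3F_eq, pd3F_eq]
      exact PDPair.pd3_add_left (hneg M) x.2 x'.2 y.2
    · show pd3F (Gamma0 M) (x.1 + x'.1) y.1 = _
      rw [pd3F_of_not_finite _ h, pd3F_of_not_finite _ h, pd3F_of_not_finite _ h]
      rfl
  · intro M x y
    by_cases h : Finite (SL(2, ℤ) ⧸ Gamma0 M)
    · letI := Fintype.ofFinite (SL(2, ℤ) ⧸ Gamma0 M)
      rw [pd3F_eq, pd3F_eq]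
      exact PDPair.pd3_skew x.1 y.1
    · rw [pd3F_of_not_finite _ h, pd3F_of_not_finite _ h]
      rfl
  · intro M x y
    by_cases h : Finite (SL(2, ℤ) ⧸ Gamma0 M)
    · letI := Fintype.ofFinite (SL(2, ℤ) ⧸ Gamma0 M)
      rw [pd3F_eq]
      exact PDPair.three_dvd_pd3 (hneg M) x.2 y.2
    · rw [pd3F_of_not_finite _ h]
      exact dvd_zero _
  · intro M _ γ
    haveI := hfin M
    letI := Fintype.ofFinite (SL(2, ℤ) ⧸ Gamma0 M)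
    obtain ⟨ψ, hψ, hψ'⟩ := hdual M γ
    refine ⟨⟨ψ, hψ⟩, fun φ => ?_⟩
    rw [pd3F_eq]
    show pd3 (Gamma0 M) φ.1 ψ = _
    rw [hψ' φ.1 φ.2]
    ring
  · intro M ℓ _ _ hℓ x y h₁ h₂
    haveI : NeZero (M * ℓ) := ⟨Nat.mul_ne_zero (NeZero.ne M) (Fact.out : ℓ.Prime).ne_zero⟩
    haveI := hfin M
    haveI := hfin (M * ℓ)
    letI := Fintype.ofFinite (SL(2, ℤ) ⧸ Gamma0 M)
    letI := Fintype.ofFinite (SL(2, ℤ) ⧸ Gamma0 (M * ℓ))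
    rw [pd3F_eq, pd3F_eq]
    exact hres₁ M ℓ hℓ x.1 x.2 y.1 y.2
  · intro M ℓ _ _ hℓ x y h₁ h₂
    haveI : NeZero (M * ℓ) := ⟨Nat.mul_ne_zero (NeZero.ne M) (Fact.out : ℓ.Prime).ne_zero⟩
    haveI := hfin M
    haveI := hfin (M * ℓ)
    letI := Fintype.ofFinite (SL(2, ℤ) ⧸ Gamma0 M)
    letI := Fintype.ofFinite (SL(2, ℤ) ⧸ Gamma0 (M * ℓ))
    rw [pd3F_eq, pd3F_eq]
    exact hres₂ M ℓ hℓ x.1 x.2 y.1 y.2

end

end Fermat.Agent.S41.PDPack
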