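/-
S41 / [PD] leaf (7), B-copy of the assembly (owner: helper62), layer 3.

`pd_exists_of_res₂`: the whole [PD] package in the literal shapes of `Plan.result_of_leaves`
(`B`, `hBs`, `hBn`, `hBa₁`, `hBa₂`) from the landed leaves (3iii) `PDNondegFinB.exists_dual_hom`
and (4) `PDPairAdj.pd3_res₁`, with the delta-twist adjunction (6b) as the only hypothesis;
`pd_exists`: the closed package (with (6b) = `PDIsoB.pd3_res₂`).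
-/
import Mathlib
import Fermat.Agent.S41.PDPack
import Fermat.Agent.S41.PDNondegFinB
import Fermat.Agent.S41.PDPairAdj
import Fermat.Agent.S41.PDIsoGam
import Fermat.Agent.S41.PDIsoB

set_option autoImplicit false
set_option linter.style.haveILetI false

open CongruenceSubgroup ModularCurve.Period
open scoped MatrixGroups

namespace Fermat.Agent.S41.PDFin

open Fermat.Agent.S41 (Lpar res₁ res₂ tr₁ tr₂)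
open Fermat.Agent.S41.PDPair (pd3)

/-- **[PD] package**, modulo the delta-twist adjunction `res₂ ⊣ tr₂` for `pd3`. -/
theorem pd_exists_of_res₂ (p : ℕ) [Fact p.Prime] (hp2 : p ≠ 2)
    (hres₂ : ∀ (M ℓ : ℕ) [NeZero M] [Fact ℓ.Prime] (_ : ¬ ℓ ∣ M)
      [Fintype (SL(2, ℤ) ⧸ Gamma0 M)] [Fintype (SL(2, ℤ) ⧸ Gamma0 (M * ℓ))]
      (x : Additive (Gamma0 M) →+ ℤ) (_ : IsParabolicHom (Gamma0 M) x)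
      (y : Additive (Gamma0 (M * ℓ)) →+ ℤ) (_ : IsParabolicHom (Gamma0 (M * ℓ)) y),
      pd3 (Gamma0 (M * ℓ)) (res₂ M ℓ x) y = pd3 (Gamma0 M) x (tr₂ M ℓ y)) :
    ∃ B : ∀ M : ℕ, Lpar M →ₗ[ℤ] Lpar M →ₗ[ℤ] ZMod p,
      (∀ (M : ℕ) (x y : Lpar M), B M x y = - B M y x) ∧
      (∀ (M : ℕ) [NeZero M] (x : Lpar M), (∀ y, B M x y = 0) → ∃ z : Lpar M, x = (p : ℤ) • z) ∧
      (∀ (M ℓ : ℕ) [NeZero M] [Fact ℓ.Prime] (_ : ¬ ℓ ∣ M) (x : Lpar M) (y : Lpar (M * ℓ))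
        (h₁ : res₁ M ℓ x.1 ∈ Lpar (M * ℓ)) (h₂ : tr₁ M ℓ y.1 ∈ Lpar M),
        B (M * ℓ) ⟨res₁ M ℓ x.1, h₁⟩ y = B M x ⟨tr₁ M ℓ y.1, h₂⟩) ∧
      (∀ (M ℓ : ℕ) [NeZero M] [Fact ℓ.Prime] (_ : ¬ ℓ ∣ M) (x : Lpar M) (y : Lpar (M * ℓ))
        (h₁ : res₂ M ℓ x.1 ∈ Lpar (M * ℓ)) (h₂ : tr₂ M ℓ y.1 ∈ Lpar M),
        B (M * ℓ) ⟨res₂ M ℓ x.1, h₁⟩ y = B M x ⟨tr₂ M ℓ y.1, h₂⟩) :=
  PDPack.pd_package p hp2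
    (fun M _ _ γ => PDNondegFinB.exists_dual_hom (Gamma0 M) (PDPairAdj.neg_one_mem_Gamma0 M) γ)
    (fun M ℓ _ _ _ _ _ x hx y hy => PDPairAdj.pd3_res₁ M ℓ x hx y hy)
    hres₂

open Fermat.Agent.S41.PDIsoGam in
/-- The delta-twist adjunction `res₂ ⊣ tr₂` for `pd3` from the isometry
`pd3 Γ₀(Mℓ) (φ ∘ α) (ψ ∘ α) = pd3 Γ'' φ ψ` (`Γ'' = Gam2 M ℓ`, `α = al₂ M ℓ`) and the landed
adjunction (4) along `Γ'' ≤ Γ₀(M)`. -/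
theorem pd3_res₂_of_iso (M ℓ : ℕ) [NeZero M] (hℓ0 : ℓ ≠ 0)
    [Fintype (SL(2, ℤ) ⧸ Gamma0 M)] [Fintype (SL(2, ℤ) ⧸ Gamma0 (M * ℓ))]
    (hiso : ∀ [Fintype (SL(2, ℤ) ⧸ Gam2 M ℓ)] (φ ψ : Additive (Gam2 M ℓ) →+ ℤ),
      IsParabolicHom (Gam2 M ℓ) φ → IsParabolicHom (Gam2 M ℓ) ψ →
      pd3 (Gamma0 (M * ℓ)) (φ.comp (MonoidHom.toAdditive (al₂ M ℓ)))
        (ψ.comp (MonoidHom.toAdditive (al₂ M ℓ))) = pd3 (Gam2 M ℓ) φ ψ)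
    (x : Additive (Gamma0 M) →+ ℤ) (hx : IsParabolicHom (Gamma0 M) x)
    (y : Additive (Gamma0 (M * ℓ)) →+ ℤ) (hy : IsParabolicHom (Gamma0 (M * ℓ)) y) :
    pd3 (Gamma0 (M * ℓ)) (res₂ M ℓ x) y = pd3 (Gamma0 M) x (tr₂ M ℓ y) := by
  haveI := finiteIndex_Gam2 M ℓ hℓ0
  letI : Fintype (SL(2, ℤ) ⧸ Gam2 M ℓ) := Fintype.ofFinite _
  have h1 := hiso (x.comp (MonoidHom.toAdditive (j₂ M ℓ)))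
    (y.comp (MonoidHom.toAdditive (e₂ M ℓ hℓ0).symm.toMonoidHom))
    (isParabolicHom_comp_j₂ M ℓ hx) (isParabolicHom_comp_e₂_symm M ℓ hℓ0 hy)
  rw [comp_e₂_symm_comp_al₂] at h1
  rw [res₂_eq, h1, tr₂_eq M ℓ hℓ0]
  exact PDPairAdj.pd3_res_transfer (Gamma0 M) (Gam2 M ℓ) (neg_one_mem_Gam2 M ℓ hℓ0) (j₂ M ℓ)
    (j₂_coe M ℓ) x hx _ (isParabolicHom_comp_e₂_symm M ℓ hℓ0 hy)

open Fermat.Agent.S41.PDIsoGam in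
/-- **[PD] package**, modulo the delta-twist isometry. -/
theorem pd_exists_of_iso (p : ℕ) [Fact p.Prime] (hp2 : p ≠ 2)
    (hiso : ∀ (M ℓ : ℕ) [NeZero M] [Fact ℓ.Prime] (_ : ¬ ℓ ∣ M)
      [Fintype (SL(2, ℤ) ⧸ Gamma0 (M * ℓ))] [Fintype (SL(2, ℤ) ⧸ Gam2 M ℓ)]
      (φ ψ : Additive (Gam2 M ℓ) →+ ℤ),
      IsParabolicHom (Gam2 M ℓ) φ → IsParabolicHom (Gam2 M ℓ) ψ →
      pd3 (Gamma0 (M * ℓ)) (φ.comp (MonoidHom.toAdditive (al₂ M ℓ)))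
        (ψ.comp (MonoidHom.toAdditive (al₂ M ℓ))) = pd3 (Gam2 M ℓ) φ ψ) :
    ∃ B : ∀ M : ℕ, Lpar M →ₗ[ℤ] Lpar M →ₗ[ℤ] ZMod p,
      (∀ (M : ℕ) (x y : Lpar M), B M x y = - B M y x) ∧
      (∀ (M : ℕ) [NeZero M] (x : Lpar M), (∀ y, B M x y = 0) → ∃ z : Lpar M, x = (p : ℤ) • z) ∧
      (∀ (M ℓ : ℕ) [NeZero M] [Fact ℓ.Prime] (_ : ¬ ℓ ∣ M) (x : Lpar M) (y : Lpar (M * ℓ))
        (h₁ : res₁ M ℓ x.1 ∈ Lpar (M * ℓ)) (h₂ : tr₁ M ℓ y.1 ∈ Lpar M),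
        B (M * ℓ) ⟨res₁ M ℓ x.1, h₁⟩ y = B M x ⟨tr₁ M ℓ y.1, h₂⟩) ∧
      (∀ (M ℓ : ℕ) [NeZero M] [Fact ℓ.Prime] (_ : ¬ ℓ ∣ M) (x : Lpar M) (y : Lpar (M * ℓ))
        (h₁ : res₂ M ℓ x.1 ∈ Lpar (M * ℓ)) (h₂ : tr₂ M ℓ y.1 ∈ Lpar M),
        B (M * ℓ) ⟨res₂ M ℓ x.1, h₁⟩ y = B M x ⟨tr₂ M ℓ y.1, h₂⟩) :=
  pd_exists_of_res₂ p hp2 (fun M ℓ _ _ hℓ _ _ x hx y hy =>
    pd3_res₂_of_iso M ℓ (Fact.out : ℓ.Prime).ne_zero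
      (fun φ ψ hφ hψ => hiso M ℓ hℓ φ ψ hφ hψ) x hx y hy)

/-- **[PD] package, closed form**: `ZMod p`-valued bilinear forms `B M` on `Lpar M` for all `M`,
skew, nondegenerate modulo the odd prime `p`, with `res₁ ⊣ tr₁` and `res₂ ⊣ tr₂` — literally the
binders `B`, `hBs`, `hBn`, `hBa₁`, `hBa₂` of `Plan.result_of_leaves`. -/
theorem pd_exists (p : ℕ) [Fact p.Prime] (hp2 : p ≠ 2) :
    ∃ B : ∀ M : ℕ, Lpar M →ₗ[ℤ] Lpar M →ₗ[ℤ] ZMod p,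
      (∀ (M : ℕ) (x y : Lpar M), B M x y = - B M y x) ∧
      (∀ (M : ℕ) [NeZero M] (x : Lpar M), (∀ y, B M x y = 0) → ∃ z : Lpar M, x = (p : ℤ) • z) ∧
      (∀ (M ℓ : ℕ) [NeZero M] [Fact ℓ.Prime] (_ : ¬ ℓ ∣ M) (x : Lpar M) (y : Lpar (M * ℓ))
        (h₁ : res₁ M ℓ x.1 ∈ Lpar (M * ℓ)) (h₂ : tr₁ M ℓ y.1 ∈ Lpar M),
        B (M * ℓ) ⟨res₁ M ℓ x.1, h₁⟩ y = B M x ⟨tr₁ M ℓ y.1, h₂⟩) ∧
      (∀ (M ℓ : ℕ) [NeZero M] [Fact ℓ.Prime] (_ : ¬ ℓ ∣ M) (x : Lpar M) (y : Lpar (M * ℓ))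
        (h₁ : res₂ M ℓ x.1 ∈ Lpar (M * ℓ)) (h₂ : tr₂ M ℓ y.1 ∈ Lpar M),
        B (M * ℓ) ⟨res₂ M ℓ x.1, h₁⟩ y = B M x ⟨tr₂ M ℓ y.1, h₂⟩) :=
  pd_exists_of_res₂ p hp2 (fun M ℓ _ _ _ _ _ x hx y hy => PDIsoB.pd3_res₂ M ℓ x hx y hy)

end Fermat.Agent.S41.PDFin
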