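import Mathlib

/-!
# S41 / [PD] : `PSL(2, ℤ) = C₂ * C₃` as a universal property of `SL(2, ℤ)`

`exists_hom` : for every group `H` and `s r : H` with `s ^ 2 = 1`, `r ^ 3 = 1` there is a group
homomorphism `f : SL(2, ℤ) →* H` with `f S = s` and `f (T * S) = r`.

Proof: ping-pong (Mathlib's `Monoid.CoprodI.lift_injective_of_ping_pong`) for the action of
`C₂ * C₃` on the upper half plane through `S` and `T * S`, with the two half planes
`{re < 0}`, `{0 < re}`; together with `SL2Z_generators` this gives a homomorphism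
`SL(2, ℤ) →* C₂ * C₃` with `S ↦ s`, `T * S ↦ r`.

Consequences:
* `exists_cocycle` : extension of a cocycle given on the generators `S`, `T * S`, with values in
  functions on an `SL(2, ℤ)`-set on which `-1` acts trivially;
* `exists_primitive` (the TREE lemma) : prescribed increments `dS`, `dU` on `SL(2, ℤ)` along
  left multiplication by `S` and `U = T * S`, subject to the two loop conditions;
* `exists_potential` (the POTENTIAL lemma) : the Farey cocycle is a coboundary.
-/

set_option autoImplicit false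

open scoped MatrixGroups
open UpperHalfPlane ModularGroup

namespace Fermat.Agent.S41.PDFree

/-! ## Homomorphisms out of a finite cyclic group -/

section cyc

variable {G : Type*} [Group G]

/-- The homomorphism `C_n → G` sending the generator to `g`, for `g ^ n = 1`. -/
noncomputable def cyc (n : ℕ) (g : G) (hg : g ^ n = 1) : Multiplicative (ZMod n) →* G :=
  AddMonoidHom.toMultiplicativeLeft
    (ZMod.lift n ⟨zmultiplesHom (Additive G) (Additive.ofMul g), by
      rw [zmultiplesHom_apply, natCast_zsmul, ← ofMul_pow, hg, ofMul_one]⟩)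

theorem cyc_ofAdd_intCast (n : ℕ) (g : G) (hg : g ^ n = 1) (k : ℤ) :
    cyc n g hg (Multiplicative.ofAdd (k : ZMod n)) = g ^ k := by
  unfold cyc
  rw [AddMonoidHom.coe_toMultiplicativeLeft]
  simp only [Function.comp_apply, toAdd_ofAdd, ZMod.lift_coe]
  rw [zmultiplesHom_apply, ← ofMul_zpow, toMul_ofMul]

theorem cyc_ofAdd_one (n : ℕ) (g : G) (hg : g ^ n = 1) :
    cyc n g hg (Multiplicative.ofAdd (1 : ZMod n)) = g := by
  have := cyc_ofAdd_intCast n g hg 1
  simpa using this

theorem cyc_ofAdd_two (n : ℕ) (g : G) (hg : g ^ n = 1) :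
    cyc n g hg (Multiplicative.ofAdd (2 : ZMod n)) = g ^ 2 := by
  have := cyc_ofAdd_intCast n g hg 2
  simpa using this

end cyc

/-! ## The action on the upper half plane -/

theorem re_S_smul (z : ℍ) : (S • z).re = - z.re / Complex.normSq (z : ℂ) := by
  rw [modular_S_smul]
  show ((-(z : ℂ))⁻¹).re = _
  rw [Complex.inv_re, Complex.neg_re, Complex.normSq_neg]
  rfl

theorem re_TS_smul (z : ℍ) : ((T * S) • z).re = 1 - z.re / Complex.normSq (z : ℂ) := by
  rw [mul_smul, re_T_smul, re_S_smul]
  ring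

theorem re_TS_smul_gt_one {z : ℍ} (hz : z.re < 0) : 1 < ((T * S) • z).re := by
  rw [re_TS_smul]
  have hpos : 0 < Complex.normSq (z : ℂ) := Complex.normSq_pos.mpr z.ne_zero
  have : z.re / Complex.normSq (z : ℂ) < 0 := div_neg_of_neg_of_pos hz hpos
  linarith

theorem re_TS_smul_pos_of_one_lt {w : ℍ} (hw : 1 < w.re) : 0 < ((T * S) • w).re := by
  rw [re_TS_smul]
  have hpos : 0 < Complex.normSq (w : ℂ) := Complex.normSq_pos.mpr w.ne_zero
  have h1 : w.re < Complex.normSq (w : ℂ) := by
    rw [Complex.normSq_apply]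
    have : (w : ℂ).re = w.re := rfl
    rw [this]
    nlinarith [mul_self_nonneg (w : ℂ).im]
  have : w.re / Complex.normSq (w : ℂ) < 1 := (div_lt_one hpos).mpr h1
  linarith

theorem S_mul_S : (S * S : SL(2, ℤ)) = -1 := by decide

theorem TS_pow_three : ((T * S) ^ 3 : SL(2, ℤ)) = -1 := by decide

/-- the permutation representation on `ℍ` -/
noncomputable def mH : SL(2, ℤ) →* Equiv.Perm ℍ := MulAction.toPermHom SL(2, ℤ) ℍ

theorem mH_apply (g : SL(2, ℤ)) (z : ℍ) : mH g z = g • z := rfl

theorem mH_neg_one : mH (-1) = 1 := by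
  ext z
  rw [mH_apply, SL_neg_smul, one_smul]
  rfl

theorem mH_S_sq : mH S ^ 2 = 1 := by
  rw [← map_pow, pow_two, S_mul_S, mH_neg_one]

theorem mH_TS_cube : mH (T * S) ^ 3 = 1 := by
  rw [← map_pow, TS_pow_three, mH_neg_one]

/-! ## The free product `C₂ * C₃` and ping-pong -/

/-- the two cyclic factors -/
abbrev Cyc : Bool → Type := fun b => Multiplicative (ZMod (cond b 3 2))

/-- `C₂ * C₃` -/
abbrev W : Type := Monoid.CoprodI Cyc

/-- the generator of order two -/
noncomputable def sW : W := Monoid.CoprodI.of (M := Cyc) (i := false) (Multiplicative.ofAdd 1)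

/-- the generator of order three -/
noncomputable def rW : W := Monoid.CoprodI.of (M := Cyc) (i := true) (Multiplicative.ofAdd 1)

/-- a pair of elements of orders dividing 2 and 3 gives a family of homomorphisms -/
noncomputable def fam {H : Type*} [Group H] (s r : H) (hs : s ^ 2 = 1) (hr : r ^ 3 = 1) :
    ∀ b : Bool, Cyc b →* H
  | false => cyc 2 s hs
  | true => cyc 3 r hr

theorem lift_fam_sW {H : Type*} [Group H] (s r : H) (hs : s ^ 2 = 1) (hr : r ^ 3 = 1) :
    Monoid.CoprodI.lift (fam s r hs hr) sW = s := by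
  unfold sW
  rw [Monoid.CoprodI.lift_of]
  exact cyc_ofAdd_one 2 s hs

theorem lift_fam_rW {H : Type*} [Group H] (s r : H) (hs : s ^ 2 = 1) (hr : r ^ 3 = 1) :
    Monoid.CoprodI.lift (fam s r hs hr) rW = r := by
  unfold rW
  rw [Monoid.CoprodI.lift_of]
  exact cyc_ofAdd_one 3 r hr

/-- the ping-pong table -/
def pp : Bool → Set ℍ
  | false => {z | z.re < 0}
  | true => {z | 0 < z.re}

theorem c2_cases (h : Multiplicative (ZMod 2)) (hne : h ≠ 1) : h = Multiplicative.ofAdd 1 := by
  revert h
  decide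

theorem c3_cases (h : Multiplicative (ZMod 3)) (hne : h ≠ 1) :
    h = Multiplicative.ofAdd 1 ∨ h = Multiplicative.ofAdd 2 := by
  revert h
  decide

theorem lift_injective :
    Function.Injective (Monoid.CoprodI.lift (fam (mH S) (mH (T * S)) mH_S_sq mH_TS_cube)) := by
  apply Monoid.CoprodI.lift_injective_of_ping_pong _ _ pp
  · -- nonempty
    intro b
    cases b
    · refine ⟨T⁻¹ • UpperHalfPlane.I, ?_⟩
      show (T⁻¹ • UpperHalfPlane.I).re < 0
      rw [re_T_inv_smul]
      simp
    · refine ⟨T • UpperHalfPlane.I, ?_⟩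
      show 0 < (T • UpperHalfPlane.I).re
      rw [re_T_smul]
      simp
  · -- disjoint
    intro i j hij
    rw [Function.onFun, Set.disjoint_left]
    cases i <;> cases j
    · exact absurd rfl hij
    · intro z (h1 : z.re < 0) (h2 : 0 < z.re)
      linarith
    · intro z (h1 : 0 < z.re) (h2 : z.re < 0)
      linarith
    · exact absurd rfl hij
  · -- ping-pong
    intro i j hij h hne
    rw [Set.smul_set_subset_iff]
    cases i <;> cases j
    · exact absurd rfl hij
    · intro z (hz : 0 < z.re)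
      have hh : h = Multiplicative.ofAdd 1 := c2_cases h hne
      subst hh
      show (fam (mH S) (mH (T * S)) mH_S_sq mH_TS_cube false (Multiplicative.ofAdd 1) • z).re < 0
      have : fam (mH S) (mH (T * S)) mH_S_sq mH_TS_cube false (Multiplicative.ofAdd 1) = mH S :=
        cyc_ofAdd_one 2 (mH S) mH_S_sq
      rw [this, Equiv.Perm.smul_def, mH_apply, re_S_smul]
      have hpos : 0 < Complex.normSq (z : ℂ) := Complex.normSq_pos.mpr z.ne_zero
      exact div_neg_of_neg_of_pos (by linarith) hpos
    · intro z (hz : z.re < 0)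
      rcases c3_cases h hne with hh | hh
      · subst hh
        show 0 < (fam (mH S) (mH (T * S)) mH_S_sq mH_TS_cube true (Multiplicative.ofAdd 1) • z).re
        have : fam (mH S) (mH (T * S)) mH_S_sq mH_TS_cube true (Multiplicative.ofAdd 1)
            = mH (T * S) := cyc_ofAdd_one 3 (mH (T * S)) mH_TS_cube
        rw [this, Equiv.Perm.smul_def, mH_apply]
        linarith [re_TS_smul_gt_one hz]
      · subst hh
        show 0 < (fam (mH S) (mH (T * S)) mH_S_sq mH_TS_cube true (Multiplicative.ofAdd 2) • z).re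
        have : fam (mH S) (mH (T * S)) mH_S_sq mH_TS_cube true (Multiplicative.ofAdd 2)
            = mH (T * S) ^ 2 := cyc_ofAdd_two 3 (mH (T * S)) mH_TS_cube
        rw [this, Equiv.Perm.smul_def, pow_two, Equiv.Perm.mul_apply, mH_apply, mH_apply]
        exact re_TS_smul_pos_of_one_lt (re_TS_smul_gt_one hz)
    · exact absurd rfl hij
  · -- cardinality
    right
    refine ⟨true, ?_⟩
    show (3 : Cardinal) ≤ Cardinal.mk (Multiplicative (ZMod 3))
    rw [Cardinal.mk_fintype]
    have : Fintype.card (Multiplicative (ZMod 3)) = 3 := by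
      rw [Fintype.card_multiplicative, ZMod.card]
    rw [this]
    norm_num

theorem mH_mem_range (g : SL(2, ℤ)) :
    mH g ∈ (Monoid.CoprodI.lift (fam (mH S) (mH (T * S)) mH_S_sq mH_TS_cube)).range := by
  have hg : g ∈ Subgroup.closure ({S, T} : Set SL(2, ℤ)) := by
    rw [SpecialLinearGroup.SL2Z_generators]
    exact Subgroup.mem_top g
  induction hg using Subgroup.closure_induction with
  | mem x hx =>
    rcases hx with rfl | rfl
    · exact ⟨sW, lift_fam_sW _ _ _ _⟩
    · refine ⟨rW * sW⁻¹, ?_⟩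
      have h1 := lift_fam_sW (mH S) (mH (T * S)) mH_S_sq mH_TS_cube
      have h2 := lift_fam_rW (mH S) (mH (T * S)) mH_S_sq mH_TS_cube
      have h3 : mH (T * S) * (mH S)⁻¹ = mH T := by
        rw [← map_inv, ← map_mul]
        congr 1
        group
      calc Monoid.CoprodI.lift (fam (mH S) (mH (T * S)) mH_S_sq mH_TS_cube) (rW * sW⁻¹)
          = mH (T * S) * (mH S)⁻¹ := by rw [map_mul, map_inv, h1, h2]
        _ = mH T := h3
  | one =>
    have := Subgroup.one_mem
      (Monoid.CoprodI.lift (fam (mH S) (mH (T * S)) mH_S_sq mH_TS_cube)).range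
    rwa [← map_one mH] at this
  | mul x y _ _ hx hy =>
    have := Subgroup.mul_mem _ hx hy
    rwa [← map_mul mH] at this
  | inv x _ hx =>
    have := Subgroup.inv_mem _ hx
    rwa [← map_inv mH] at this

/-- the homomorphism `SL(2, ℤ) → C₂ * C₃` -/
noncomputable def kappa : SL(2, ℤ) →* W :=
  (MonoidHom.ofInjective lift_injective).symm.toMonoidHom.comp
    (mH.codRestrict _ mH_mem_range)

theorem lift_kappa (g : SL(2, ℤ)) :
    Monoid.CoprodI.lift (fam (mH S) (mH (T * S)) mH_S_sq mH_TS_cube) (kappa g) = mH g := by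
  have h := MonoidHom.ofInjective_apply lift_injective (x := kappa g)
  rw [← h]
  unfold kappa
  simp

theorem kappa_S : kappa S = sW := by
  apply lift_injective
  rw [lift_kappa, lift_fam_sW]

theorem kappa_TS : kappa (T * S) = rW := by
  apply lift_injective
  rw [lift_kappa, lift_fam_rW]

/-! ## The universal property -/

/-- **`PSL(2, ℤ) = C₂ * C₃`**, as a universal property of `SL(2, ℤ)`. -/
theorem exists_hom {H : Type*} [Group H] (s r : H) (hs : s ^ 2 = 1) (hr : r ^ 3 = 1) :
    ∃ f : SL(2, ℤ) →* H, f S = s ∧ f (T * S) = r := by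
  refine ⟨(Monoid.CoprodI.lift (fam s r hs hr)).comp kappa, ?_, ?_⟩
  · rw [MonoidHom.comp_apply, kappa_S, lift_fam_sW]
  · rw [MonoidHom.comp_apply, kappa_TS, lift_fam_rW]

/-! ## Cocycles on `SL(2, ℤ)` from their values on `S` and `T * S` -/

section cocycle

variable {X : Type*} [MulAction SL(2, ℤ) X] {A : Type*} [AddCommGroup A]

/-- the "affine" permutation `(x, n) ↦ (g • x, n + a x)` of `X × A` -/
def affPerm (g : SL(2, ℤ)) (a : X → A) : Equiv.Perm (X × A) where
  toFun p := (g • p.1, p.2 + a p.1)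
  invFun p := (g⁻¹ • p.1, p.2 - a (g⁻¹ • p.1))
  left_inv p := by
    rcases p with ⟨x, n⟩
    simp
  right_inv p := by
    rcases p with ⟨x, n⟩
    simp

theorem affPerm_apply (g : SL(2, ℤ)) (a : X → A) (x : X) (n : A) :
    affPerm g a (x, n) = (g • x, n + a x) := rfl

/-- **Extension of cocycles from the generators.** Let `SL(2, ℤ)` act on `X` with `-1` acting
trivially. Given `aS aR : X → A` with the cocycle relations for `S ^ 2 = -1` and
`(T * S) ^ 3 = -1`, there is a cocycle `c` with `c S = aS`, `c (T * S) = aR`. -/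
theorem exists_cocycle (hneg : ∀ x : X, (-1 : SL(2, ℤ)) • x = x) (aS aR : X → A)
    (hS : ∀ x, aS x + aS (S • x) = 0)
    (hR : ∀ x, aR x + aR ((T * S) • x) + aR ((T * S) • (T * S) • x) = 0) :
    ∃ c : SL(2, ℤ) → X → A, c S = aS ∧ c (T * S) = aR ∧
      ∀ g h x, c (g * h) x = c g (h • x) + c h x := by
  have hs : (affPerm S aS : Equiv.Perm (X × A)) ^ 2 = 1 := by
    ext ⟨x, n⟩
    · show S • S • x = x
      rw [← mul_smul, S_mul_S, hneg]
    · show n + aS x + aS (S • x) = n
      rw [add_assoc, hS, add_zero]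
  have hr : (affPerm (T * S) aR : Equiv.Perm (X × A)) ^ 3 = 1 := by
    ext ⟨x, n⟩
    · show (T * S) • (T * S) • (T * S) • x = x
      rw [← mul_smul, ← mul_smul, ← pow_two, ← pow_succ, TS_pow_three, hneg]
    · show n + aR x + aR ((T * S) • x) + aR ((T * S) • (T * S) • x) = n
      rw [add_assoc, add_assoc, ← add_assoc (aR x), hR, add_zero]
  obtain ⟨f, hfS, hfR⟩ := exists_hom (affPerm S aS) (affPerm (T * S) aR) hs hr
  -- every `f g` is affine over `g`
  have key : ∀ g : SL(2, ℤ), ∃ a : X → A, ∀ x n, f g (x, n) = (g • x, n + a x) := by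
    intro g
    have hg : g ∈ Subgroup.closure ({S, T} : Set SL(2, ℤ)) := by
      rw [SpecialLinearGroup.SL2Z_generators]
      exact Subgroup.mem_top g
    induction hg using Subgroup.closure_induction with
    | mem x hx =>
      rcases hx with rfl | rfl
      · exact ⟨aS, fun x n => by rw [hfS, affPerm_apply]⟩
      · refine ⟨fun x => aR (S⁻¹ • x) - aS (S⁻¹ • x), fun x n => ?_⟩
        have hT : f T = f (T * S) * (f S)⁻¹ := by
          rw [← map_inv, ← map_mul]
          congr 1
          group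
        rw [hT, hfS, hfR, Equiv.Perm.mul_apply]
        have : (affPerm S aS)⁻¹ (x, n) = (S⁻¹ • x, n - aS (S⁻¹ • x)) := rfl
        rw [this, affPerm_apply, ← mul_smul]
        have h2 : T * S * S⁻¹ = T := by group
        rw [h2, sub_add_eq_add_sub, add_sub_assoc]
    | one => exact ⟨0, fun x n => by simp⟩
    | mul g h _ _ hg hh =>
      obtain ⟨a, ha⟩ := hg
      obtain ⟨b, hb⟩ := hh
      refine ⟨fun x => b x + a (h • x), fun x n => ?_⟩
      rw [map_mul, Equiv.Perm.mul_apply, hb, ha, mul_smul, add_assoc]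
    | inv g _ hg =>
      obtain ⟨a, ha⟩ := hg
      refine ⟨fun x => - a (g⁻¹ • x), fun x n => ?_⟩
      rw [map_inv, Equiv.Perm.inv_def, Equiv.symm_apply_eq, ha, smul_inv_smul,
        neg_add_cancel_right]
  choose a ha using key
  refine ⟨a, ?_, ?_, ?_⟩
  · funext x
    have h1 := ha S x 0
    rw [hfS, affPerm_apply] at h1
    simpa using (congrArg Prod.snd h1).symm
  · funext x
    have h1 := ha (T * S) x 0
    rw [hfR, affPerm_apply] at h1
    simpa using (congrArg Prod.snd h1).symm
  · intro g h x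
    have h1 := ha (g * h) x 0
    rw [map_mul, Equiv.Perm.mul_apply, ha h, ha g] at h1
    have h2 := congrArg Prod.snd h1
    simp only [zero_add] at h2
    rw [← h2, add_comm]

/-- **The Farey cocycle is a coboundary.** For `ξ : X → A` with `ξ ∘ S = -ξ` and
`ξ + ξ ∘ R + ξ ∘ R² = 0` (`R = T * S`) and a base point `x₀` there is a potential
`F : SL(2, ℤ) → A`, invariant under left multiplication by `T`, with
`F (S * g) = F g + ξ (g • x₀)`. -/
theorem exists_potential_of_action (hneg : ∀ x : X, (-1 : SL(2, ℤ)) • x = x) (ξ : X → A)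
    (hS : ∀ x, ξ x + ξ (S • x) = 0)
    (hR : ∀ x, ξ x + ξ ((T * S) • x) + ξ ((T * S) • (T * S) • x) = 0) (x₀ : X) :
    ∃ F : SL(2, ℤ) → A, F 1 = 0 ∧ (∀ g, F (T * g) = F g) ∧
      (∀ g, F (S * g) = F g + ξ (g • x₀)) ∧ (∀ g, F (-g) = F g) := by
  obtain ⟨c, hcS, hcR, hc⟩ := exists_cocycle hneg ξ ξ hS hR
  have hc1 : ∀ x, c 1 x = 0 := by
    intro x
    have := hc 1 1 x
    rw [mul_one, one_smul] at this
    exact left_eq_add.mp this
  have hcT : ∀ x, c T x = 0 := by
    intro x
    have := hc T S (S⁻¹ • x)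
    rw [hcR, hcS, smul_inv_smul] at this
    exact (right_eq_add.mp this)
  have hcneg : ∀ x, c (-1) x = 0 := by
    intro x
    have := hc S S x
    rw [S_mul_S, hcS] at this
    rw [this, add_comm, hS]
  refine ⟨fun g => c g x₀, hc1 x₀, fun g => ?_, fun g => ?_, fun g => ?_⟩
  · show c (T * g) x₀ = c g x₀
    rw [hc, hcT, zero_add]
  · show c (S * g) x₀ = c g x₀ + ξ (g • x₀)
    rw [hc, hcS, add_comm]
  · show c (-g) x₀ = c g x₀
    have : -g = -1 * g := by simp
    rw [this, hc, hcneg, zero_add]

end cocycle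

/-! ## The tree lemma and the potential lemma on `SL(2, ℤ)` itself -/

section tree

variable {A : Type*} [AddCommGroup A]

/-- the subgroup `{1, -1}` -/
def negSub : Subgroup SL(2, ℤ) where
  carrier := {1, -1}
  mul_mem' := by
    rintro a b (rfl | rfl) (rfl | rfl)
    · left; decide
    · right; decide
    · right; decide
    · left; decide
  one_mem' := Or.inl rfl
  inv_mem' := by
    rintro a (rfl | rfl)
    · left; decide
    · right; decide

theorem neg_one_mem_negSub : (-1 : SL(2, ℤ)) ∈ negSub := Or.inr rfl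

theorem eq_or_eq_neg_of_leftRel {a b : SL(2, ℤ)} (h : a⁻¹ * b ∈ negSub) : b = a ∨ b = -a := by
  rcases h with h | h
  · left
    have := congrArg (fun x => a * x) h
    simpa using this
  · right
    have := congrArg (fun x => a * x) h
    simpa using this

/-- descent of an even function to `SL(2, ℤ) ⧸ {±1}` -/
def descend {A : Type*} (d : SL(2, ℤ) → A) (hd : ∀ g, d (-g) = d g) : SL(2, ℤ) ⧸ negSub → A :=
  fun x => Quotient.liftOn' x d (by
    intro a b hab
    rw [QuotientGroup.leftRel_apply] at hab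
    rcases eq_or_eq_neg_of_leftRel hab with rfl | rfl
    · rfl
    · exact (hd a).symm)

omit [AddCommGroup A] in
theorem descend_mk (d : SL(2, ℤ) → A) (hd : ∀ g, d (-g) = d g) (g : SL(2, ℤ)) :
    descend d hd (g : SL(2, ℤ) ⧸ negSub) = d g := rfl

theorem neg_smul_quot (x : SL(2, ℤ) ⧸ negSub) : (-1 : SL(2, ℤ)) • x = x := by
  induction x using QuotientGroup.induction_on with
  | H g =>
    rw [MulAction.Quotient.smul_mk, smul_eq_mul]
    have : (-1 : SL(2, ℤ)) * g = g * (-1) := by simp
    rw [this]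
    exact QuotientGroup.mk_mul_of_mem g neg_one_mem_negSub

/-- **The tree lemma.** Prescribed increments on `SL(2, ℤ)` along left multiplication by `S`
and by `U = T * S`, subject to the two loop conditions (`S ^ 2 = -1 = U ^ 3`), are the increments
of a function `J`. -/
theorem exists_primitive (dS dU : SL(2, ℤ) → A) (hS : ∀ g, dS g + dS (S * g) = 0)
    (hU : ∀ g, dU g + dU (T * S * g) + dU (T * S * (T * S * g)) = 0) :
    ∃ J : SL(2, ℤ) → A, (∀ g, J (S * g) = J g + dS g) ∧ (∀ g, J (T * S * g) = J g + dU g) := by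
  have hSS : ∀ g : SL(2, ℤ), S * (S * g) = -g := by
    intro g
    rw [← mul_assoc, S_mul_S]
    simp
  have hUUU : ∀ g : SL(2, ℤ), T * S * (T * S * (T * S * g)) = -g := by
    intro g
    rw [← mul_assoc, ← mul_assoc, ← pow_two, ← pow_succ, TS_pow_three]
    simp
  have hSe : ∀ g, dS (-g) = dS g := by
    intro g
    have h1 := hS g
    have h2 := hS (S * g)
    rw [hSS] at h2
    have h3 : dS (-g) = - dS (S * g) := eq_neg_of_add_eq_zero_right h2
    have h4 : dS g = - dS (S * g) := eq_neg_of_add_eq_zero_left h1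
    rw [h3, h4]
  have hUe : ∀ g, dU (-g) = dU g := by
    intro g
    have h1 := hU g
    have h2 := hU (T * S * g)
    rw [hUUU] at h2
    have h3 : dU (-g) = - (dU (T * S * g) + dU (T * S * (T * S * g))) :=
      eq_neg_of_add_eq_zero_right h2
    have h4 : dU g = - (dU (T * S * g) + dU (T * S * (T * S * g))) := by
      rw [add_assoc] at h1
      exact eq_neg_of_add_eq_zero_left h1
    rw [h3, h4]
  obtain ⟨c, hcS, hcU, hc⟩ := exists_cocycle (X := SL(2, ℤ) ⧸ negSub) neg_smul_quot
    (descend dS hSe) (descend dU hUe)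
    (by
      intro x
      induction x using QuotientGroup.induction_on with
      | H g =>
        rw [MulAction.Quotient.smul_mk, descend_mk, descend_mk]
        exact hS g)
    (by
      intro x
      induction x using QuotientGroup.induction_on with
      | H g =>
        rw [MulAction.Quotient.smul_mk, MulAction.Quotient.smul_mk, descend_mk, descend_mk,
          descend_mk]
        exact hU g)
  refine ⟨fun g => c g ((1 : SL(2, ℤ)) : SL(2, ℤ) ⧸ negSub), fun g => ?_, fun g => ?_⟩
  · show c (S * g) _ = c g _ + dS g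
    rw [hc, hcS, MulAction.Quotient.smul_mk, smul_eq_mul, mul_one, descend_mk, add_comm]
  · show c (T * S * g) _ = c g _ + dU g
    rw [hc, hcU, MulAction.Quotient.smul_mk, smul_eq_mul, mul_one, descend_mk, add_comm]

/-- **The potential lemma** (normalised form): the Farey cocycle is a coboundary. -/
theorem exists_potential_normalized (ξ : SL(2, ℤ) → A) (hS : ∀ g, ξ (S * g) = - ξ g)
    (hU : ∀ g, ξ g + ξ (T * S * g) + ξ ((T * S) ^ 2 * g) = 0) :
    ∃ F : SL(2, ℤ) → A, F 1 = 0 ∧ (∀ g, F (T * g) = F g) ∧ (∀ g, F (S * g) = F g + ξ g) ∧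
      (∀ g, F (-g) = F g) := by
  obtain ⟨J, hJS, hJU⟩ := exists_primitive ξ ξ (fun g => by rw [hS g, add_neg_cancel])
    (fun g => by
      have := hU g
      rwa [pow_two, mul_assoc (T * S) (T * S) g] at this)
  have hT : ∀ g, J (T * g) = J g := by
    intro g
    have h1 := hJU (S⁻¹ * g)
    have h2 := hJS (S⁻¹ * g)
    rw [mul_inv_cancel_left] at h2
    have h3 : T * S * (S⁻¹ * g) = T * g := by group
    rw [h3] at h1
    rw [h1, h2]
  have hneg : ∀ g, J (-g) = J g := by
    intro g
    have h1 := hJS (S * g)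
    have h2 := hJS g
    have h3 : S * (S * g) = -g := by
      rw [← mul_assoc, S_mul_S]
      simp
    rw [h3, h2, hS g, add_neg_cancel_right] at h1
    exact h1
  refine ⟨fun g => J g - J 1, sub_self _, fun g => ?_, fun g => ?_, fun g => ?_⟩
  · show J (T * g) - J 1 = J g - J 1
    rw [hT]
  · show J (S * g) - J 1 = J g - J 1 + ξ g
    rw [hJS]
    abel
  · show J (-g) - J 1 = J g - J 1
    rw [hneg]

/-- **The potential lemma**: for `ξ : SL(2, ℤ) → A` with `ξ (S g) = - ξ g` and
`ξ g + ξ (T S g) + ξ ((T S)² g) = 0` there is `F` with `F (T g) = F g` and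
`F (S g) = F g + ξ g`. -/
theorem exists_potential (ξ : SL(2, ℤ) → A) (hS : ∀ g, ξ (S * g) = - ξ g)
    (hU : ∀ g, ξ g + ξ (T * S * g) + ξ ((T * S) ^ 2 * g) = 0) :
    ∃ F : SL(2, ℤ) → A, (∀ g, F (T * g) = F g) ∧ ∀ g, F (S * g) = F g + ξ g := by
  obtain ⟨F, -, h1, h2, -⟩ := exists_potential_normalized ξ hS hU
  exact ⟨F, h1, h2⟩

end tree

end Fermat.Agent.S41.PDFree
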