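import Mathlib

/-!
# S41 [PD] (5b), route (S-E): existence of a primitive of the cup product

For an arbitrary subgroup `Γ ≤ SL(2, ℤ)` and additive maps `φ ψ : Γ → ℚ` there is a function
`f : Γ → ℚ` with `f (a * b) = f a + f b - φ a * ψ b`.

Proof: the Sanov subgroup `⟨[[1,2],[0,1]], [[1,0],[2,1]]⟩` is free (ping-pong) and of finite
index (it contains `Γ(4)`); on a free group the pair `(φ, ψ)` lifts to the Heisenberg group;
a primitive on a finite index subgroup is transferred to the whole group.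
-/

namespace Fermat.Agent.S41.PDHeis

open scoped BigOperators

/-! ### The Heisenberg group -/

/-- The rational Heisenberg group, with the convention
`(a, b, c) * (a', b', c') = (a + a', b + b', c + c' - a * b')`. -/
structure Heis where
  /-- first coordinate -/
  a : ℚ
  /-- second coordinate -/
  b : ℚ
  /-- central coordinate -/
  c : ℚ

namespace Heis

theorem ext_iff' {x y : Heis} : x = y ↔ x.a = y.a ∧ x.b = y.b ∧ x.c = y.c := by
  cases x; cases y; simp

instance : Mul Heis := ⟨fun x y => ⟨x.a + y.a, x.b + y.b, x.c + y.c - x.a * y.b⟩⟩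
instance : One Heis := ⟨⟨0, 0, 0⟩⟩
instance : Inv Heis := ⟨fun x => ⟨-x.a, -x.b, -x.c - x.a * x.b⟩⟩

theorem mul_a (x y : Heis) : (x * y).a = x.a + y.a := rfl
theorem mul_b (x y : Heis) : (x * y).b = x.b + y.b := rfl
theorem mul_c (x y : Heis) : (x * y).c = x.c + y.c - x.a * y.b := rfl
theorem one_a : (1 : Heis).a = 0 := rfl
theorem one_b : (1 : Heis).b = 0 := rfl
theorem one_c : (1 : Heis).c = 0 := rfl
theorem inv_a (x : Heis) : (x⁻¹).a = -x.a := rfl
theorem inv_b (x : Heis) : (x⁻¹).b = -x.b := rfl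
theorem inv_c (x : Heis) : (x⁻¹).c = -x.c - x.a * x.b := rfl

instance : Group Heis where
  mul_assoc x y z := by
    rw [ext_iff']
    refine ⟨?_, ?_, ?_⟩
    · simp only [mul_a]; ring
    · simp only [mul_b]; ring
    · simp only [mul_c, mul_a, mul_b]; ring
  one_mul x := by
    rw [ext_iff']
    refine ⟨?_, ?_, ?_⟩
    · simp only [mul_a, one_a]; ring
    · simp only [mul_b, one_b]; ring
    · simp only [mul_c, one_a, one_c]; ring
  mul_one x := by
    rw [ext_iff']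
    refine ⟨?_, ?_, ?_⟩
    · simp only [mul_a, one_a]; ring
    · simp only [mul_b, one_b]; ring
    · simp only [mul_c, one_b, one_c]; ring
  inv_mul_cancel x := by
    rw [ext_iff']
    refine ⟨?_, ?_, ?_⟩
    · simp only [mul_a, inv_a, one_a]; ring
    · simp only [mul_b, inv_b, one_b]; ring
    · simp only [mul_c, inv_a, inv_c, one_c]; ring

/-- First coordinate as a homomorphism. -/
def aHom : Heis →* Multiplicative ℚ where
  toFun x := Multiplicative.ofAdd x.a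
  map_one' := rfl
  map_mul' _ _ := rfl

/-- Second coordinate as a homomorphism. -/
def bHom : Heis →* Multiplicative ℚ where
  toFun x := Multiplicative.ofAdd x.b
  map_one' := rfl
  map_mul' _ _ := rfl

end Heis

/-- On a free group, the cup product of two additive maps has a primitive. -/
theorem exists_primitive_of_free {D : Type*} [Group D] [IsFreeGroup D] (φ ψ : D → ℚ)
    (hφ : ∀ a b, φ (a * b) = φ a + φ b) (hψ : ∀ a b, ψ (a * b) = ψ a + ψ b) :
    ∃ f : D → ℚ, ∀ a b : D, f (a * b) = f a + f b - φ a * ψ b := by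
  classical
  let L : D →* Heis :=
    IsFreeGroup.lift (fun s => (⟨φ (IsFreeGroup.of s), ψ (IsFreeGroup.of s), 0⟩ : Heis))
  let φm : D →* Multiplicative ℚ :=
    MonoidHom.mk' (fun d => Multiplicative.ofAdd (φ d)) (fun a b => by rw [hφ]; rfl)
  let ψm : D →* Multiplicative ℚ :=
    MonoidHom.mk' (fun d => Multiplicative.ofAdd (ψ d)) (fun a b => by rw [hψ]; rfl)
  have ha : Heis.aHom.comp L = φm := by
    apply IsFreeGroup.ext_hom
    intro s
    simp [L, φm, Heis.aHom, IsFreeGroup.lift_of]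
  have hb : Heis.bHom.comp L = ψm := by
    apply IsFreeGroup.ext_hom
    intro s
    simp [L, ψm, Heis.bHom, IsFreeGroup.lift_of]
  have ha' : ∀ d, (L d).a = φ d := fun d => by
    have := DFunLike.congr_fun ha d
    exact this
  have hb' : ∀ d, (L d).b = ψ d := fun d => by
    have := DFunLike.congr_fun hb d
    exact this
  refine ⟨fun d => (L d).c, fun a b => ?_⟩
  show (L (a * b)).c = (L a).c + (L b).c - φ a * ψ b
  rw [map_mul, Heis.mul_c, ha', hb']

/-- Transfer of a primitive of the cup product from a subgroup of finite index. -/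
theorem transfer_primitive {Γ : Type*} [Group Γ] (Δ : Subgroup Γ) [Δ.FiniteIndex]
    (φ ψ : Γ → ℚ) (hφ : ∀ a b, φ (a * b) = φ a + φ b) (hψ : ∀ a b, ψ (a * b) = ψ a + ψ b)
    (f' : Δ → ℚ) (hf' : ∀ a b : Δ, f' (a * b) = f' a + f' b - φ a * ψ b) :
    ∃ f : Γ → ℚ, ∀ a b : Γ, f (a * b) = f a + f b - φ a * ψ b := by
  classical
  let _ : Fintype (Γ ⧸ Δ) := Subgroup.fintypeQuotientOfFiniteIndex
  have hφ1 : φ 1 = 0 := by
    have := hφ 1 1
    rw [mul_one] at this
    linarith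
  have hφinv : ∀ a, φ a⁻¹ = - φ a := fun a => by
    have := hφ a a⁻¹
    rw [mul_inv_cancel, hφ1] at this
    linarith
  have hψ1 : ψ 1 = 0 := by
    have := hψ 1 1
    rw [mul_one] at this
    linarith
  have hψinv : ∀ a, ψ a⁻¹ = - ψ a := fun a => by
    have := hψ a a⁻¹
    rw [mul_inv_cancel, hψ1] at this
    linarith
  let t : Γ ⧸ Δ → Γ := fun x => x.out
  have ht : ∀ x, (QuotientGroup.mk (t x) : Γ ⧸ Δ) = x := fun x => QuotientGroup.out_eq' x
  have hmem : ∀ (γ : Γ) (x : Γ ⧸ Δ), (t (γ • x))⁻¹ * γ * t x ∈ Δ := by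
    intro γ x
    rw [mul_assoc, ← QuotientGroup.eq, ht]
    conv_lhs => rw [← ht x]
    rfl
  let n : Γ → Γ ⧸ Δ → Δ := fun γ x => ⟨(t (γ • x))⁻¹ * γ * t x, hmem γ x⟩
  have hn : ∀ γ γ' x, n (γ * γ') x = n γ (γ' • x) * n γ' x := by
    intro γ γ' x
    apply Subtype.ext
    simp only [n, Subgroup.coe_mul, mul_smul]
    group
  have hφn : ∀ γ x, φ (n γ x) = φ γ + φ (t x) - φ (t (γ • x)) := by
    intro γ x
    show φ ((t (γ • x))⁻¹ * γ * t x) = _
    rw [hφ, hφ, hφinv]; ring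
  have hψn : ∀ γ x, ψ (n γ x) = ψ γ + ψ (t x) - ψ (t (γ • x)) := by
    intro γ x
    show ψ ((t (γ • x))⁻¹ * γ * t x) = _
    rw [hψ, hψ, hψinv]; ring
  have hm : ((Fintype.card (Γ ⧸ Δ) : ℕ) : ℚ) ≠ 0 := by exact_mod_cast Fintype.card_ne_zero
  let S : Γ → ℚ := fun γ => ∑ x, f' (n γ x)
  let P : Γ → ℚ := fun γ => ∑ x, φ (t (γ • x)) * ψ (t x)
  have hre : ∀ (γ : Γ) (g : Γ ⧸ Δ → ℚ), ∑ x, g (γ • x) = ∑ x, g x :=
    fun γ g => Equiv.sum_comp (MulAction.toPerm γ) g
  refine ⟨fun γ => (S γ - P γ + P 1) / (Fintype.card (Γ ⧸ Δ) : ℚ), fun γ γ' => ?_⟩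
  have hS : S (γ * γ') = S γ + S γ' - ∑ x, φ (n γ (γ' • x)) * ψ (n γ' x) := by
    show ∑ x, f' (n (γ * γ') x) = _
    simp only [hn, hf', Finset.sum_sub_distrib, Finset.sum_add_distrib]
    rw [hre γ' (fun x => f' (n γ x))]
  have hcross : ∑ x, φ (n γ (γ' • x)) * ψ (n γ' x)
      = (Fintype.card (Γ ⧸ Δ) : ℚ) * (φ γ * ψ γ') + (P γ' - P 1 - P (γ * γ') + P γ) := by
    have e : ∀ x, φ (n γ (γ' • x)) * ψ (n γ' x)
        = φ γ * ψ γ' + φ γ * ψ (t x) - φ γ * ψ (t (γ' • x)) + ψ γ' * φ (t (γ' • x))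
          - ψ γ' * φ (t (γ • γ' • x)) + φ (t (γ' • x)) * ψ (t x)
          - φ (t (γ' • x)) * ψ (t (γ' • x)) - φ (t (γ • γ' • x)) * ψ (t x)
          + φ (t (γ • γ' • x)) * ψ (t (γ' • x)) := by
      intro x
      rw [hφn, hψn]; ring
    have h1 : ∑ x, ψ (t (γ' • x)) = ∑ x, ψ (t x) := hre γ' (fun x => ψ (t x))
    have h2 : ∑ x, φ (t (γ • γ' • x)) = ∑ x, φ (t (γ' • x)) := by
      rw [hre γ' (fun x => φ (t (γ • x))), hre γ' (fun x => φ (t x)), hre γ (fun x => φ (t x))]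
    have h3 : ∑ x, φ (t (γ' • x)) * ψ (t (γ' • x)) = P 1 := by
      rw [hre γ' (fun x => φ (t x) * ψ (t x))]
      simp only [P, one_smul]
    have h4 : ∑ x, φ (t (γ • γ' • x)) * ψ (t x) = P (γ * γ') := by
      simp only [P, mul_smul]
    have h5 : ∑ x, φ (t (γ • γ' • x)) * ψ (t (γ' • x)) = P γ :=
      hre γ' (fun x => φ (t (γ • x)) * ψ (t x))
    have h6 : ∑ x, φ (t (γ' • x)) * ψ (t x) = P γ' := rfl
    simp only [e, Finset.sum_add_distrib, Finset.sum_sub_distrib, ← Finset.mul_sum,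
      Finset.sum_const, Finset.card_univ, nsmul_eq_mul]
    rw [h1, h2, h3, h4, h5, h6]
    ring
  show (S (γ * γ') - P (γ * γ') + P 1) / (Fintype.card (Γ ⧸ Δ) : ℚ)
    = (S γ - P γ + P 1) / (Fintype.card (Γ ⧸ Δ) : ℚ)
      + (S γ' - P γ' + P 1) / (Fintype.card (Γ ⧸ Δ) : ℚ) - φ γ * ψ γ'
  rw [hS, hcross]
  field_simp
  ring

/-- In a group with a free subgroup of finite index, the cup product of two additive maps to `ℚ`
has a primitive. -/
theorem exists_primitive_of_virtually_free {Γ : Type*} [Group Γ]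
    (hfree : ∃ Δ : Subgroup Γ, Δ.FiniteIndex ∧ Nonempty (IsFreeGroup Δ))
    (φ ψ : Γ → ℚ) (hφ : ∀ a b, φ (a * b) = φ a + φ b) (hψ : ∀ a b, ψ (a * b) = ψ a + ψ b) :
    ∃ f : Γ → ℚ, ∀ a b : Γ, f (a * b) = f a + f b - φ a * ψ b := by
  obtain ⟨Δ, hfin, ⟨hF⟩⟩ := hfree
  have := hfin
  have := hF
  obtain ⟨f', hf'⟩ := exists_primitive_of_free (fun d : Δ => φ d) (fun d : Δ => ψ d)
    (fun a b => hφ a b) (fun a b => hψ a b)
  exact transfer_primitive Δ φ ψ hφ hψ f' hf'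

/-- The same with the opposite sign convention `f (a * b) = f a + f b + φ a * ψ b`. -/
theorem exists_primitive_of_virtually_free' {Γ : Type*} [Group Γ]
    (hfree : ∃ Δ : Subgroup Γ, Δ.FiniteIndex ∧ Nonempty (IsFreeGroup Δ))
    (φ ψ : Γ → ℚ) (hφ : ∀ a b, φ (a * b) = φ a + φ b) (hψ : ∀ a b, ψ (a * b) = ψ a + ψ b) :
    ∃ f : Γ → ℚ, ∀ a b : Γ, f (a * b) = f a + f b + φ a * ψ b := by
  obtain ⟨f, hf⟩ := exists_primitive_of_virtually_free hfree φ (fun a => - ψ a) hφ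
    (fun a b => by rw [hψ]; ring)
  exact ⟨f, fun a b => by rw [hf]; ring⟩

/-- From a primitive `f` on `Γ` to a function `H` on the ambient group with
`H (g * c) = H g + f c - F g * ψ c`, for any `F` with `F (g * c) = F g + φ c`. -/
theorem exists_H_of_primitive {G : Type*} [Group G] (Γ : Subgroup G) (φ ψ f : Γ → ℚ)
    (hψ : ∀ a b, ψ (a * b) = ψ a + ψ b)
    (hf : ∀ a b : Γ, f (a * b) = f a + f b - φ a * ψ b)
    (F : G → ℚ) (hF : ∀ (g : G) (c : Γ), F (g * c) = F g + φ c) :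
    ∃ H : G → ℚ, ∀ (g : G) (c : Γ), H (g * c) = H g + f c - F g * ψ c := by
  classical
  let r : G → G := fun g => (QuotientGroup.mk g : G ⧸ Γ).out
  have hr : ∀ g, (r g)⁻¹ * g ∈ Γ := fun g => by
    rw [← QuotientGroup.eq]
    exact QuotientGroup.out_eq' _
  let n : G → Γ := fun g => ⟨(r g)⁻¹ * g, hr g⟩
  have hrc : ∀ (g : G) (c : Γ), r (g * c) = r g := fun g c => by
    show (QuotientGroup.mk (g * c) : G ⧸ Γ).out = (QuotientGroup.mk g : G ⧸ Γ).out
    rw [QuotientGroup.mk_mul_of_mem g c.2]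
  have hnc : ∀ (g : G) (c : Γ), n (g * c) = n g * c := fun g c => by
    apply Subtype.ext
    show (r (g * c))⁻¹ * (g * c) = (r g)⁻¹ * g * c
    rw [hrc, mul_assoc]
  have hFg : ∀ g, F g = F (r g) + φ (n g) := fun g => by
    rw [← hF (r g) (n g)]
    congr 1
    show g = r g * ((r g)⁻¹ * g)
    rw [mul_inv_cancel_left]
  refine ⟨fun g => f (n g) - F (r g) * ψ (n g), fun g c => ?_⟩
  show f (n (g * c)) - F (r (g * c)) * ψ (n (g * c)) = f (n g) - F (r g) * ψ (n g) + f c - F g * ψ c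
  rw [hnc, hrc, hf, hψ, hFg g]
  ring

end Fermat.Agent.S41.PDHeis
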