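/-
S41 / [PD] block, leaf PD1 (helper59): the free-product structure of `PSL(2, ℤ)`.

* `exists_hom`: for a group `K` and `a b : K` with `a ^ 2 = 1`, `b ^ 3 = 1` there is a
  homomorphism `SL(2, ℤ) →* K` with `S ↦ a`, `T * S ↦ b`  (`PSL(2, ℤ) = C₂ * C₃`).
  Proof: Mathlib's ping-pong lemma for the action `M ↦ g * M * gᵀ` on rank one matrices `v vᵀ`
  (sets: `v` in the open first/third resp. second/fourth quadrant), plus `SL2Z_generators`.
-/
import Mathlib

set_option autoImplicit false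

open Matrix ModularGroup
open scoped MatrixGroups Pointwise

namespace Fermat.Agent.S41.PDHom

/-! ### Homomorphisms out of a cyclic group -/

/-- The homomorphism `Multiplicative (ZMod m) →* K` sending the generator to `x`, `x ^ m = 1`. -/
noncomputable def cyc {K : Type*} [Group K] (m : ℕ) (x : K) (hx : x ^ m = 1) :
    Multiplicative (ZMod m) →* K :=
  AddMonoidHom.toMultiplicativeLeft
    (ZMod.lift m ⟨zmultiplesHom (Additive K) (Additive.ofMul x), by
      change (m : ℤ) • Additive.ofMul x = 0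
      rw [natCast_zsmul, ← ofMul_pow, hx]; rfl⟩)

theorem cyc_ofAdd_intCast {K : Type*} [Group K] (m : ℕ) (x : K) (hx : x ^ m = 1) (k : ℤ) :
    cyc m x hx (Multiplicative.ofAdd (k : ZMod m)) = x ^ k := by
  change Additive.toMul (ZMod.lift m _ (k : ZMod m)) = x ^ k
  rw [ZMod.lift_coe]
  change Additive.toMul (k • Additive.ofMul x) = x ^ k
  rfl

theorem cyc_ofAdd_one {K : Type*} [Group K] (m : ℕ) (x : K) (hx : x ^ m = 1) :
    cyc m x hx (Multiplicative.ofAdd (1 : ZMod m)) = x := by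
  have := cyc_ofAdd_intCast m x hx 1
  simpa using this

/-! ### An action of `SL(2, ℤ)` in which `-1` acts trivially -/

theorem coe_inv_mul_coe (g : SL(2, ℤ)) :
    ((g⁻¹ : SL(2, ℤ)) : Matrix (Fin 2) (Fin 2) ℤ) * (g : Matrix (Fin 2) (Fin 2) ℤ) = 1 := by
  rw [← Matrix.SpecialLinearGroup.coe_mul, inv_mul_cancel, Matrix.SpecialLinearGroup.coe_one]

theorem coe_mul_coe_inv (g : SL(2, ℤ)) :
    (g : Matrix (Fin 2) (Fin 2) ℤ) * ((g⁻¹ : SL(2, ℤ)) : Matrix (Fin 2) (Fin 2) ℤ) = 1 := by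
  rw [← Matrix.SpecialLinearGroup.coe_mul, mul_inv_cancel, Matrix.SpecialLinearGroup.coe_one]

/-- `g ↦ (M ↦ g * M * gᵀ)`. -/
def act : SL(2, ℤ) →* Equiv.Perm (Matrix (Fin 2) (Fin 2) ℤ) where
  toFun g :=
    { toFun := fun M => (g : Matrix (Fin 2) (Fin 2) ℤ) * M * (g : Matrix (Fin 2) (Fin 2) ℤ)ᵀ
      invFun := fun M => ((g⁻¹ : SL(2, ℤ)) : Matrix (Fin 2) (Fin 2) ℤ) * M *
        ((g⁻¹ : SL(2, ℤ)) : Matrix (Fin 2) (Fin 2) ℤ)ᵀ
      left_inv := fun M => by
        have h1 := coe_inv_mul_coe g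
        have h2 : (g : Matrix (Fin 2) (Fin 2) ℤ)ᵀ *
            ((g⁻¹ : SL(2, ℤ)) : Matrix (Fin 2) (Fin 2) ℤ)ᵀ = 1 := by
          rw [← Matrix.transpose_mul, h1, Matrix.transpose_one]
        calc ((g⁻¹ : SL(2, ℤ)) : Matrix (Fin 2) (Fin 2) ℤ) *
              ((g : Matrix (Fin 2) (Fin 2) ℤ) * M * (g : Matrix (Fin 2) (Fin 2) ℤ)ᵀ) *
              ((g⁻¹ : SL(2, ℤ)) : Matrix (Fin 2) (Fin 2) ℤ)ᵀ
            = (((g⁻¹ : SL(2, ℤ)) : Matrix (Fin 2) (Fin 2) ℤ) * (g : Matrix (Fin 2) (Fin 2) ℤ)) * M *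
              ((g : Matrix (Fin 2) (Fin 2) ℤ)ᵀ *
                ((g⁻¹ : SL(2, ℤ)) : Matrix (Fin 2) (Fin 2) ℤ)ᵀ) := by
              simp only [Matrix.mul_assoc]
          _ = M := by rw [h1, h2, Matrix.one_mul, Matrix.mul_one]
      right_inv := fun M => by
        have h1 := coe_mul_coe_inv g
        have h2 : ((g⁻¹ : SL(2, ℤ)) : Matrix (Fin 2) (Fin 2) ℤ)ᵀ *
            (g : Matrix (Fin 2) (Fin 2) ℤ)ᵀ = 1 := by
          rw [← Matrix.transpose_mul, h1, Matrix.transpose_one]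
        calc (g : Matrix (Fin 2) (Fin 2) ℤ) *
              (((g⁻¹ : SL(2, ℤ)) : Matrix (Fin 2) (Fin 2) ℤ) * M *
                ((g⁻¹ : SL(2, ℤ)) : Matrix (Fin 2) (Fin 2) ℤ)ᵀ) *
              (g : Matrix (Fin 2) (Fin 2) ℤ)ᵀ
            = ((g : Matrix (Fin 2) (Fin 2) ℤ) * ((g⁻¹ : SL(2, ℤ)) : Matrix (Fin 2) (Fin 2) ℤ)) * M *
              (((g⁻¹ : SL(2, ℤ)) : Matrix (Fin 2) (Fin 2) ℤ)ᵀ *
                (g : Matrix (Fin 2) (Fin 2) ℤ)ᵀ) := by
              simp only [Matrix.mul_assoc]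
          _ = M := by rw [h1, h2, Matrix.one_mul, Matrix.mul_one] }
  map_one' := by
    ext M : 1
    simp
  map_mul' g h := by
    ext M : 1
    simp [Matrix.mul_assoc, Matrix.transpose_mul]

theorem act_apply (g : SL(2, ℤ)) (M : Matrix (Fin 2) (Fin 2) ℤ) :
    act g M = (g : Matrix (Fin 2) (Fin 2) ℤ) * M * (g : Matrix (Fin 2) (Fin 2) ℤ)ᵀ := rfl

/-- The rank one matrix `v vᵀ`, `v = (x, y)`. -/
def vv (x y : ℤ) : Matrix (Fin 2) (Fin 2) ℤ := !![x * x, x * y; x * y, y * y]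

theorem act_vv (g : SL(2, ℤ)) (x y : ℤ) :
    act g (vv x y) = vv (g 0 0 * x + g 0 1 * y) (g 1 0 * x + g 1 1 * y) := by
  rw [act_apply]
  ext i j
  fin_cases i <;> fin_cases j <;>
    simp [vv, Matrix.mul_apply, Fin.sum_univ_two] <;> ring

theorem act_neg_one : act (-1) = 1 := by
  ext M : 1
  rw [act_apply]
  simp

/-! ### Ping-pong -/

theorem S_sq : (S ^ 2 : SL(2, ℤ)) = -1 := by decide

theorem TS_cube : ((T * S) ^ 3 : SL(2, ℤ)) = -1 := by decide

theorem actS_sq : act S ^ 2 = 1 := by rw [← map_pow, S_sq, act_neg_one]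

theorem actU_cube : act (T * S) ^ 3 = 1 := by rw [← map_pow, TS_cube, act_neg_one]

/-- first ping-pong set: `v vᵀ` with `v` in the open first/third quadrant -/
def XA : Set (Matrix (Fin 2) (Fin 2) ℤ) := {M | ∃ x y : ℤ, 0 < x * y ∧ M = vv x y}

/-- second ping-pong set: `v vᵀ` with `v` in the open second/fourth quadrant -/
def XB : Set (Matrix (Fin 2) (Fin 2) ℤ) := {M | ∃ x y : ℤ, x * y < 0 ∧ M = vv x y}

theorem act_S_XA {M : Matrix (Fin 2) (Fin 2) ℤ} (hM : M ∈ XA) : act S M ∈ XB := by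
  obtain ⟨x, y, hxy, rfl⟩ := hM
  rw [act_vv]
  refine ⟨_, _, ?_, rfl⟩
  have h00 : (S : SL(2, ℤ)) 0 0 = 0 := by decide
  have h01 : (S : SL(2, ℤ)) 0 1 = -1 := by decide
  have h10 : (S : SL(2, ℤ)) 1 0 = 1 := by decide
  have h11 : (S : SL(2, ℤ)) 1 1 = 0 := by decide
  rw [h00, h01, h10, h11]
  nlinarith

theorem act_U_XB {M : Matrix (Fin 2) (Fin 2) ℤ} (hM : M ∈ XB) : act (T * S) M ∈ XA := by
  obtain ⟨x, y, hxy, rfl⟩ := hM
  rw [act_vv]
  refine ⟨_, _, ?_, rfl⟩
  have h00 : (T * S : SL(2, ℤ)) 0 0 = 1 := by decide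
  have h01 : (T * S : SL(2, ℤ)) 0 1 = -1 := by decide
  have h10 : (T * S : SL(2, ℤ)) 1 0 = 1 := by decide
  have h11 : (T * S : SL(2, ℤ)) 1 1 = 0 := by decide
  rw [h00, h01, h10, h11]
  nlinarith [sq_nonneg x]

theorem act_UU_XB {M : Matrix (Fin 2) (Fin 2) ℤ} (hM : M ∈ XB) :
    act ((T * S) * (T * S)) M ∈ XA := by
  obtain ⟨x, y, hxy, rfl⟩ := hM
  rw [act_vv]
  refine ⟨_, _, ?_, rfl⟩
  have h00 : ((T * S) * (T * S) : SL(2, ℤ)) 0 0 = 0 := by decide
  have h01 : ((T * S) * (T * S) : SL(2, ℤ)) 0 1 = -1 := by decide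
  have h10 : ((T * S) * (T * S) : SL(2, ℤ)) 1 0 = 1 := by decide
  have h11 : ((T * S) * (T * S) : SL(2, ℤ)) 1 1 = -1 := by decide
  rw [h00, h01, h10, h11]
  nlinarith [sq_nonneg y]

/-- orders of the two cyclic factors -/
abbrev nn (b : Bool) : ℕ := cond b 3 2

/-- the two cyclic factors `C₂` (`false`) and `C₃` (`true`) -/
abbrev HH (b : Bool) : Type := Multiplicative (ZMod (nn b))

/-- a pair `a ^ 2 = 1`, `b ^ 3 = 1` as a family of homomorphisms out of the cyclic factors -/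
noncomputable def fam {K : Type*} [Group K] (a b : K) (ha : a ^ 2 = 1) (hb : b ^ 3 = 1) :
    ∀ i : Bool, HH i →* K
  | false => cyc 2 a ha
  | true => cyc 3 b hb

/-- the ping-pong sets, indexed as the factors -/
def XX (b : Bool) : Set (Matrix (Fin 2) (Fin 2) ℤ) := cond b XA XB

theorem XX_nonempty (i : Bool) : (XX i).Nonempty := by
  cases i
  · exact ⟨vv 1 (-1), 1, -1, by norm_num, rfl⟩
  · exact ⟨vv 1 1, 1, 1, by norm_num, rfl⟩

theorem vv_apply_01 (x y : ℤ) : vv x y 0 1 = x * y := by simp [vv]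

theorem XA_XB_disjoint : Disjoint XA XB := by
  rw [Set.disjoint_left]
  rintro M ⟨x, y, hxy, rfl⟩ ⟨x', y', hxy', h⟩
  have := congrFun (congrFun h 0) 1
  rw [vv_apply_01, vv_apply_01] at this
  omega

theorem XX_disjoint : Pairwise (Function.onFun Disjoint XX) := by
  intro i j hij
  cases i <;> cases j
  · exact absurd rfl hij
  · exact XA_XB_disjoint.symm
  · exact XA_XB_disjoint
  · exact absurd rfl hij

theorem ping_pong_aux : Pairwise fun i j : Bool => ∀ h : HH i, h ≠ 1 →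
    (fam (act S) (act (T * S)) actS_sq actU_cube i h) • XX j ⊆ XX i := by
  intro i j hij
  cases i <;> cases j
  · exact absurd rfl hij
  · -- `C₂` moves `XA` into `XB`
    intro h hh
    have h1 : h = Multiplicative.ofAdd (1 : ZMod 2) := by
      revert h
      change ∀ h : Multiplicative (ZMod 2), h ≠ 1 → h = Multiplicative.ofAdd (1 : ZMod 2)
      decide
    subst h1
    change (cyc 2 (act S) actS_sq (Multiplicative.ofAdd (1 : ZMod 2))) • XA ⊆ XB
    rw [cyc_ofAdd_one]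
    rintro _ ⟨M, hM, rfl⟩
    exact act_S_XA hM
  · -- `C₃ \ {1}` moves `XB` into `XA`
    intro h hh
    have h1 : h = Multiplicative.ofAdd (1 : ZMod 3) ∨
        h = Multiplicative.ofAdd (1 : ZMod 3) * Multiplicative.ofAdd (1 : ZMod 3) := by
      revert h
      change ∀ h : Multiplicative (ZMod 3), h ≠ 1 → h = Multiplicative.ofAdd (1 : ZMod 3) ∨
        h = Multiplicative.ofAdd (1 : ZMod 3) * Multiplicative.ofAdd (1 : ZMod 3)
      decide
    rcases h1 with h1 | h1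
    · subst h1
      change (cyc 3 (act (T * S)) actU_cube (Multiplicative.ofAdd (1 : ZMod 3))) • XB ⊆ XA
      rw [cyc_ofAdd_one]
      rintro _ ⟨M, hM, rfl⟩
      exact act_U_XB hM
    · subst h1
      change (cyc 3 (act (T * S)) actU_cube
        (Multiplicative.ofAdd (1 : ZMod 3) * Multiplicative.ofAdd (1 : ZMod 3))) • XB ⊆ XA
      rw [map_mul, cyc_ofAdd_one, ← map_mul]
      rintro _ ⟨M, hM, rfl⟩
      exact act_UU_XB hM
  · exact absurd rfl hij

theorem lift_fam_injective :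
    Function.Injective (Monoid.CoprodI.lift (fam (act S) (act (T * S)) actS_sq actU_cube)) := by
  refine Monoid.CoprodI.lift_injective_of_ping_pong _ (Or.inr ⟨true, ?_⟩) XX XX_nonempty
    XX_disjoint ping_pong_aux
  change (3 : Cardinal) ≤ Cardinal.mk (Multiplicative (ZMod 3))
  rw [Cardinal.mk_fintype]
  simp [ZMod.card]

/-! ### The presentation `PSL(2, ℤ) = C₂ * C₃` -/

theorem closure_S_TS : Subgroup.closure ({S, T * S} : Set SL(2, ℤ)) = ⊤ := by
  have h1 : (T * S : SL(2, ℤ)) ∈ Subgroup.closure ({S, T * S} : Set SL(2, ℤ)) :=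
    Subgroup.subset_closure (by simp)
  have h2 : (S : SL(2, ℤ)) ∈ Subgroup.closure ({S, T * S} : Set SL(2, ℤ)) :=
    Subgroup.subset_closure (by simp)
  rw [eq_top_iff, ← SpecialLinearGroup.SL2Z_generators, Subgroup.closure_le]
  rintro x (rfl | rfl)
  · exact h2
  · have h3 : (T * S) * S⁻¹ = (T : SL(2, ℤ)) := by group
    have h4 := mul_mem h1 (inv_mem h2)
    rwa [h3] at h4

theorem act_S_eq : act S = Monoid.CoprodI.lift (fam (act S) (act (T * S)) actS_sq actU_cube)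
    (Monoid.CoprodI.of (i := false) (Multiplicative.ofAdd (1 : ZMod 2))) := by
  rw [Monoid.CoprodI.lift_of]
  exact (cyc_ofAdd_one 2 (act S) actS_sq).symm

theorem act_TS_eq : act (T * S) =
    Monoid.CoprodI.lift (fam (act S) (act (T * S)) actS_sq actU_cube)
    (Monoid.CoprodI.of (i := true) (Multiplicative.ofAdd (1 : ZMod 3))) := by
  rw [Monoid.CoprodI.lift_of]
  exact (cyc_ofAdd_one 3 (act (T * S)) actU_cube).symm

theorem act_mem_range (g : SL(2, ℤ)) :
    act g ∈ (Monoid.CoprodI.lift (fam (act S) (act (T * S)) actS_sq actU_cube)).range := by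
  have h : (⊤ : Subgroup SL(2, ℤ)) ≤
      (Monoid.CoprodI.lift (fam (act S) (act (T * S)) actS_sq actU_cube)).range.comap act := by
    rw [← closure_S_TS, Subgroup.closure_le]
    rintro x (rfl | rfl)
    · exact ⟨_, act_S_eq.symm⟩
    · exact ⟨_, act_TS_eq.symm⟩
  exact h (Subgroup.mem_top g)

/-- **Presentation of `PSL(2, ℤ)`**: a pair `a ^ 2 = 1`, `b ^ 3 = 1` in any group comes from a
unique homomorphism of `SL(2, ℤ)` with `S ↦ a`, `T * S ↦ b`. -/
theorem exists_hom {K : Type*} [Group K] (a b : K) (ha : a ^ 2 = 1) (hb : b ^ 3 = 1) :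
    ∃ Ψ : SL(2, ℤ) →* K, Ψ S = a ∧ Ψ (T * S) = b := by
  let e := MonoidHom.ofInjective lift_fam_injective
  let act' : SL(2, ℤ) →*
      (Monoid.CoprodI.lift (fam (act S) (act (T * S)) actS_sq actU_cube)).range :=
    act.codRestrict _ act_mem_range
  refine ⟨(Monoid.CoprodI.lift (fam a b ha hb)).comp (e.symm.toMonoidHom.comp act'), ?_, ?_⟩
  · have h1 : e.symm (act' S) =
        Monoid.CoprodI.of (i := false) (Multiplicative.ofAdd (1 : ZMod 2)) := by
      rw [MulEquiv.symm_apply_eq]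
      apply Subtype.ext
      rw [MonoidHom.ofInjective_apply]
      exact act_S_eq
    change Monoid.CoprodI.lift (fam a b ha hb) (e.symm (act' S)) = a
    rw [h1, Monoid.CoprodI.lift_of]
    exact cyc_ofAdd_one 2 a ha
  · have h1 : e.symm (act' (T * S)) =
        Monoid.CoprodI.of (i := true) (Multiplicative.ofAdd (1 : ZMod 3)) := by
      rw [MulEquiv.symm_apply_eq]
      apply Subtype.ext
      rw [MonoidHom.ofInjective_apply]
      exact act_TS_eq
    change Monoid.CoprodI.lift (fam a b ha hb) (e.symm (act' (T * S))) = b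
    rw [h1, Monoid.CoprodI.lift_of]
    exact cyc_ofAdd_one 3 b hb

end Fermat.Agent.S41.PDHom
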