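/-
S41 / [PD] leaf (6b), layer 2b: the `δ`-twist ISOMETRY.

General form (`B3_twist`, `pd3_twist`): `Γ' Γ'' ≤ SL(2, ℤ)` of finite index containing `-1`,
`α : Γ' →* Γ''` surjective, and twist data `h : SL(2, ℤ) → SL(2, ℤ)`, `j : SL(2, ℤ) → ℕ` with
`h (g * γ) = h g * α γ`, `j (g * γ) = j g`, `h (T * g) = T ^ j g * h g` and
`(g, i) ↦ T ^ i * h g` a bijection `{(g, i) | i < j g} → SL(2, ℤ)`.  If `F, F₂` are lifts of
`φ, ψ` on `Γ''` which have a primitive `H` (`H (g * c) = H g + f c - F g * ψ c`), then `F ∘ h`,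
`F₂ ∘ h` are lifts of `φ ∘ α`, `ψ ∘ α` on `Γ'` and the pairings agree:
`B3_{Γ'} (sym (F ∘ h)) (sym (F₂ ∘ h)) = B3_{Γ''} (sym F) (sym F₂)`.
Proof: the intrinsic formula `PDIntr.six_sum_tau_eq` on both levels + `PDIsoCore.twist_sum`.

Concrete form (`pd3_iso_of_prim`): `Γ' = Γ₀(Nq)`, `Γ'' = Gam2 N q = δ Γ₀(Nq) δ⁻¹`, `α = al₂`,
`h = PDTwist.hq q`, `j = PDTwist.jq q`.
-/
import Mathlib
import Fermat.Agent.S41.PDDefs
import Fermat.Agent.S41.PDPair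
import Fermat.Agent.S41.PDIntr
import Fermat.Agent.S41.PDTwist
import Fermat.Agent.S41.PDIsoCore
import Fermat.Agent.S41.PDIsoGam

set_option autoImplicit false

open CongruenceSubgroup ModularCurve.Period ModularGroup
open scoped MatrixGroups

namespace Fermat.Agent.S41.PDIso

open Fermat.Agent.S41 Fermat.Agent.S41.PD Fermat.Agent.S41.PDPair Fermat.Agent.S41.PDIsoGam

/-! ### the intrinsic formula in the language of `PDDefs` -/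

/-- `B3` of the symbols of two lifts, as a sum over the quotient of a function given on
representatives in the shape used by `PDIntr.six_sum_tau_eq`. -/
theorem exists_D (Γ : Subgroup SL(2, ℤ)) [Fintype (SL(2, ℤ) ⧸ Γ)] {φ ψ : Additive Γ →+ ℤ}
    {F F₂ : SL(2, ℤ) → ℤ} (hF : IsLift Γ φ F) (hF₂ : IsLift Γ ψ F₂) :
    ∃ D : SL(2, ℤ) ⧸ Γ → ℚ,
      (∀ g : SL(2, ℤ), D (g : SL(2, ℤ) ⧸ Γ) =
        ((F (S * g) : ℚ) - (F g : ℚ)) * ((F₂ (S * (T * S * g)) : ℚ) - (F₂ (T * S * g) : ℚ)) -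
          ((F (S * (T * S * g)) : ℚ) - (F (T * S * g) : ℚ)) * ((F₂ (S * g) : ℚ) - (F₂ g : ℚ))) ∧
      ∑ x, D x = ((PDSym.B3 (uX Γ) (sym Γ F) (sym Γ F₂) : ℤ) : ℚ) := by
  refine ⟨fun x => ((PDSym.D (uX Γ) (sym Γ F) (sym Γ F₂) x : ℤ) : ℚ), fun g => ?_, ?_⟩
  · show ((PDSym.D (uX Γ) (sym Γ F) (sym Γ F₂) (g : SL(2, ℤ) ⧸ Γ) : ℤ) : ℚ) = _
    unfold PDSym.D
    rw [uX_mk, sym_mk hF, sym_mk hF₂, sym_mk hF, sym_mk hF₂]
    push_cast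
    ring
  · unfold PDSym.B3
    push_cast
    rfl

/-- The intrinsic formula (5a) for lifts in the sense of `PDDefs`. -/
theorem six_sum_tau_B3 (Γ : Subgroup SL(2, ℤ)) [Fintype (SL(2, ℤ) ⧸ Γ)]
    (hneg : (-1 : SL(2, ℤ)) ∈ Γ) {φ ψ : Additive Γ →+ ℤ} {F F₂ : SL(2, ℤ) → ℤ}
    (hF : IsLift Γ φ F) (hF₂ : IsLift Γ ψ F₂) (H : SL(2, ℤ) → ℚ) (f : Γ → ℚ)
    (hH : ∀ (g : SL(2, ℤ)) (c : Γ),
      H (g * c) = H g + f c - (F g : ℚ) * (ψ (Additive.ofMul c) : ℚ))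
    (τ : SL(2, ℤ) ⧸ Γ → ℚ) (hτ : ∀ g : SL(2, ℤ), τ (g : SL(2, ℤ) ⧸ Γ) = H (T * g) - H g) :
    6 * ∑ x, τ x = - ((PDSym.B3 (uX Γ) (sym Γ F) (sym Γ F₂) : ℤ) : ℚ) := by
  obtain ⟨D, hD, hsum⟩ := exists_D Γ hF hF₂
  rw [← hsum]
  refine PDIntr.six_sum_tau_eq Γ hneg (fun c => (φ (Additive.ofMul c) : ℚ))
    (fun c => (ψ (Additive.ofMul c) : ℚ)) f (fun g => (F g : ℚ)) (fun g => (F₂ g : ℚ)) H
    ?_ ?_ ?_ ?_ hH τ D hτ hD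
  · intro g c
    show ((F (g * c) : ℤ) : ℚ) = (F g : ℚ) + (φ (Additive.ofMul c) : ℚ)
    rw [hF.mul_right]
    push_cast
    rfl
  · intro g
    show ((F (T * g) : ℤ) : ℚ) = (F g : ℚ)
    rw [hF.T_left]
  · intro g c
    show ((F₂ (g * c) : ℤ) : ℚ) = (F₂ g : ℚ) + (ψ (Additive.ofMul c) : ℚ)
    rw [hF₂.mul_right]
    push_cast
    rfl
  · intro g
    show ((F₂ (T * g) : ℤ) : ℚ) = (F₂ g : ℚ)
    rw [hF₂.T_left]

/-! ### the isometry, general twist data -/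

section General

variable (Γ' Γ'' : Subgroup SL(2, ℤ)) [Fintype (SL(2, ℤ) ⧸ Γ')] [Fintype (SL(2, ℤ) ⧸ Γ'')]

omit [Fintype (SL(2, ℤ) ⧸ Γ')] [Fintype (SL(2, ℤ) ⧸ Γ'')] in
/-- Lifts pull back along the twist. -/
theorem isLift_comp (α : Γ' →* Γ'') (h : SL(2, ℤ) → SL(2, ℤ)) (j : SL(2, ℤ) → ℕ)
    (h_mul : ∀ (g : SL(2, ℤ)) (γ : Γ'), h (g * γ) = h g * ((α γ : Γ'') : SL(2, ℤ)))
    (h_T : ∀ g : SL(2, ℤ), h (T * g) = T ^ j g * h g)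
    {A : Type*} [AddCommGroup A] {φ : Additive Γ'' →+ A} {F : SL(2, ℤ) → A}
    (hF : IsLift Γ'' φ F) : IsLift Γ' (φ.comp (MonoidHom.toAdditive α)) (F ∘ h) := by
  refine ⟨fun g γ => ?_, fun g => ?_⟩
  · show F (h (g * γ)) = F (h g) + φ (Additive.ofMul (α γ))
    rw [h_mul]
    exact hF.mul_right (h g) (α γ)
  · show F (h (T * g)) = F (h g)
    rw [h_T]
    exact PDIsoCore.pow_invariant T F hF.T_left (j g) (h g)

/-- **The `δ`-twist isometry on the level of lifts.** -/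
theorem B3_twist (hneg' : (-1 : SL(2, ℤ)) ∈ Γ') (hneg'' : (-1 : SL(2, ℤ)) ∈ Γ'')
    (α : Γ' →* Γ'') (hα : Function.Surjective α)
    (h : SL(2, ℤ) → SL(2, ℤ)) (j : SL(2, ℤ) → ℕ)
    (h_mul : ∀ (g : SL(2, ℤ)) (γ : Γ'), h (g * γ) = h g * ((α γ : Γ'') : SL(2, ℤ)))
    (j_mul : ∀ (g : SL(2, ℤ)) (γ : Γ'), j (g * γ) = j g)
    (h_T : ∀ g : SL(2, ℤ), h (T * g) = T ^ j g * h g)
    (h_bij : ∀ k : SL(2, ℤ), ∃! p : SL(2, ℤ) × ℕ, p.2 < j p.1 ∧ T ^ p.2 * h p.1 = k)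
    {φ ψ : Additive Γ'' →+ ℤ} {F F₂ : SL(2, ℤ) → ℤ} (hF : IsLift Γ'' φ F)
    (hF₂ : IsLift Γ'' ψ F₂)
    (hprim : ∃ (H : SL(2, ℤ) → ℚ) (f : Γ'' → ℚ), ∀ (g : SL(2, ℤ)) (c : Γ''),
      H (g * c) = H g + f c - (F g : ℚ) * (ψ (Additive.ofMul c) : ℚ)) :
    IsLift Γ' (φ.comp (MonoidHom.toAdditive α)) (F ∘ h) ∧
      IsLift Γ' (ψ.comp (MonoidHom.toAdditive α)) (F₂ ∘ h) ∧
      PDSym.B3 (uX Γ') (sym Γ' (F ∘ h)) (sym Γ' (F₂ ∘ h)) =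
        PDSym.B3 (uX Γ'') (sym Γ'' F) (sym Γ'' F₂) := by
  have hL := isLift_comp Γ' Γ'' α h j h_mul h_T hF
  have hL₂ := isLift_comp Γ' Γ'' α h j h_mul h_T hF₂
  refine ⟨hL, hL₂, ?_⟩
  obtain ⟨H, f, hH⟩ := hprim
  -- the `T`-increment of `H` descends to `G ⧸ Γ''`
  have inv'' : ∀ (g : SL(2, ℤ)) (c : Γ''),
      (fun g => H (T * g) - H g) (g * c) = (fun g => H (T * g) - H g) g := by
    intro g c
    show H (T * (g * c)) - H (g * c) = H (T * g) - H g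
    rw [← mul_assoc, hH, hH, hF.T_left]
    ring
  -- the primitive pulled back along the twist
  have hH' : ∀ (g : SL(2, ℤ)) (γ : Γ'), (H ∘ h) (g * γ) = (H ∘ h) g + f (α γ) -
      (((F ∘ h) g : ℤ) : ℚ) * ((ψ.comp (MonoidHom.toAdditive α)) (Additive.ofMul γ) : ℚ) := by
    intro g γ
    show H (h (g * γ)) = H (h g) + f (α γ) - (F (h g) : ℚ) * (ψ (Additive.ofMul (α γ)) : ℚ)
    rw [h_mul]
    exact hH (h g) (α γ)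
  have inv' : ∀ (g : SL(2, ℤ)) (γ : Γ'),
      (fun g => H (h (T * g)) - H (h g)) (g * γ) = (fun g => H (h (T * g)) - H (h g)) g := by
    intro g γ
    show H (h (T * (g * γ))) - H (h (g * γ)) = H (h (T * g)) - H (h g)
    have e1 := hH' (T * g) γ
    have e2 := hH' g γ
    have e3 : F (h (T * g)) = F (h g) := hL.T_left g
    simp only [Function.comp_apply] at e1 e2
    rw [← mul_assoc, e1, e2, e3]
    ring
  have e'' := six_sum_tau_B3 Γ'' hneg'' hF hF₂ H f hH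
    (PDIntr.desc Γ'' (fun g => H (T * g) - H g) inv'') (fun g => rfl)
  have e' := six_sum_tau_B3 Γ' hneg' hL hL₂ (H ∘ h) (fun γ => f (α γ)) hH'
    (PDIntr.desc Γ' (fun g => H (h (T * g)) - H (h g)) inv') (fun g => rfl)
  have es := PDIsoCore.twist_sum Γ' Γ'' T (fun γ => ((α γ : Γ'') : SL(2, ℤ)))
    (fun γ => (α γ).2)
    (fun δ hδ => by
      obtain ⟨γ, hγ⟩ := hα ⟨δ, hδ⟩
      exact ⟨γ, congrArg Subtype.val hγ⟩)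
    h j h_mul j_mul h_T h_bij H
    (PDIntr.desc Γ'' (fun g => H (T * g) - H g) inv'') (fun g => rfl)
    (PDIntr.desc Γ' (fun g => H (h (T * g)) - H (h g)) inv') (fun g => rfl)
  rw [es] at e'
  have key : ((PDSym.B3 (uX Γ') (sym Γ' (F ∘ h)) (sym Γ' (F₂ ∘ h)) : ℤ) : ℚ) =
      ((PDSym.B3 (uX Γ'') (sym Γ'' F) (sym Γ'' F₂) : ℤ) : ℚ) := by
    linarith
  exact_mod_cast key

/-- **The `δ`-twist isometry for `pd3`** (existence of primitives as a hypothesis). -/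
theorem pd3_twist (hneg' : (-1 : SL(2, ℤ)) ∈ Γ') (hneg'' : (-1 : SL(2, ℤ)) ∈ Γ'')
    (α : Γ' →* Γ'') (hα : Function.Surjective α)
    (h : SL(2, ℤ) → SL(2, ℤ)) (j : SL(2, ℤ) → ℕ)
    (h_mul : ∀ (g : SL(2, ℤ)) (γ : Γ'), h (g * γ) = h g * ((α γ : Γ'') : SL(2, ℤ)))
    (j_mul : ∀ (g : SL(2, ℤ)) (γ : Γ'), j (g * γ) = j g)
    (h_T : ∀ g : SL(2, ℤ), h (T * g) = T ^ j g * h g)
    (h_bij : ∀ k : SL(2, ℤ), ∃! p : SL(2, ℤ) × ℕ, p.2 < j p.1 ∧ T ^ p.2 * h p.1 = k)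
    {φ ψ : Additive Γ'' →+ ℤ} (hφ : IsParabolicHom Γ'' φ) (hψ : IsParabolicHom Γ'' ψ)
    (hφ' : IsParabolicHom Γ' (φ.comp (MonoidHom.toAdditive α)))
    (hψ' : IsParabolicHom Γ' (ψ.comp (MonoidHom.toAdditive α)))
    (hprim : ∀ F F₂ : SL(2, ℤ) → ℤ, IsLift Γ'' φ F → IsLift Γ'' ψ F₂ →
      ∃ (H : SL(2, ℤ) → ℚ) (f : Γ'' → ℚ), ∀ (g : SL(2, ℤ)) (c : Γ''),
        H (g * c) = H g + f c - (F g : ℚ) * (ψ (Additive.ofMul c) : ℚ)) :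
    pd3 Γ' (φ.comp (MonoidHom.toAdditive α)) (ψ.comp (MonoidHom.toAdditive α)) = pd3 Γ'' φ ψ := by
  obtain ⟨F, hF⟩ := exists_isLift Γ'' φ hφ
  obtain ⟨F₂, hF₂⟩ := exists_isLift Γ'' ψ hψ
  obtain ⟨hL, hL₂, hB⟩ := B3_twist Γ' Γ'' hneg' hneg'' α hα h j h_mul j_mul h_T h_bij hF hF₂
    (hprim F F₂ hF hF₂)
  rw [pd3_eq hneg' hφ' hψ' hL hL₂, pd3_eq hneg'' hφ hψ hF hF₂, hB]

end General

/-! ### the concrete twist `Γ₀(Nq) → Γ'' = δ Γ₀(Nq) δ⁻¹` -/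

section Concrete

variable (N q : ℕ) [hq : Fact q.Prime]

theorem neg_one_mem_Gamma0 (M : ℕ) : (-1 : SL(2, ℤ)) ∈ Gamma0 M := by
  rw [Gamma0_mem]
  simp

/-- **The isometry `pd3 Γ₀(Nq) (φ ∘ α) (ψ ∘ α) = pd3 Γ'' φ ψ`** (`α = al₂ : γ ↦ δ γ δ⁻¹`),
existence of primitives as a hypothesis. -/
theorem pd3_iso_of_prim [Fintype (SL(2, ℤ) ⧸ Gamma0 (N * q))] [Fintype (SL(2, ℤ) ⧸ Gam2 N q)]
    {φ ψ : Additive (Gam2 N q) →+ ℤ} (hφ : IsParabolicHom (Gam2 N q) φ)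
    (hψ : IsParabolicHom (Gam2 N q) ψ)
    (hprim : ∀ F F₂ : SL(2, ℤ) → ℤ, IsLift (Gam2 N q) φ F → IsLift (Gam2 N q) ψ F₂ →
      ∃ (H : SL(2, ℤ) → ℚ) (f : Gam2 N q → ℚ), ∀ (g : SL(2, ℤ)) (c : Gam2 N q),
        H (g * c) = H g + f c - (F g : ℚ) * (ψ (Additive.ofMul c) : ℚ)) :
    pd3 (Gamma0 (N * q)) (φ.comp (MonoidHom.toAdditive (al₂ N q)))
        (ψ.comp (MonoidHom.toAdditive (al₂ N q))) = pd3 (Gam2 N q) φ ψ :=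
  pd3_twist (Gamma0 (N * q)) (Gam2 N q) (neg_one_mem_Gamma0 _)
    (neg_one_mem_Gam2 N q hq.out.ne_zero) (al₂ N q) (al₂_surjective N q)
    (PDTwist.hq q) (PDTwist.jq q)
    (fun g γ => PDTwist.hq_mul_of_entries g (incl₂_entries N q γ))
    (fun g γ => PDTwist.jq_mul g ⟨_, (incl₂_entries N q γ).2.2.1.symm⟩)
    PDTwist.hq_T PDTwist.exists_unique_hq hφ hψ
    (isParabolicHom_comp_al₂ N q hφ) (isParabolicHom_comp_al₂ N q hψ) hprim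

end Concrete

end Fermat.Agent.S41.PDIso
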