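/-
S41 [PD] leaf (2): the "potential lemma" for `SL(2, ℤ)` (the only topological input of the
Poincaré duality block), by the ping-pong lemma.

* `sl2z_lift`: universal property of `PSL(2, ℤ) = C₂ * C₃`, stated on `SL(2, ℤ)`.
* `exists_primitive`: integration of increments along `S`- and `T * S`-moves.
* `exists_potential`: a Farey symbol is the coboundary of a `T`-invariant potential.
-/
import Mathlib

set_option autoImplicit false

open Matrix ModularGroup
open scoped MatrixGroups Pointwise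

namespace Fermat.Agent.S41.PDTree

/-! ## Cyclic groups -/

/-- The hom from `Multiplicative (ZMod n)` sending the generator to `x`, when `x ^ n = 1`. -/
noncomputable def cycHom {N : Type*} [Group N] (n : ℕ) (x : N) (hx : x ^ n = 1) :
    Multiplicative (ZMod n) →* N :=
  AddMonoidHom.toMultiplicativeLeft
    (ZMod.lift n ⟨zmultiplesHom (Additive N) (Additive.ofMul x), by
      show (n : ℤ) • Additive.ofMul x = 0
      rw [natCast_zsmul, ← ofMul_pow, hx]; rfl⟩)

theorem cycHom_ofAdd_intCast {N : Type*} [Group N] (n : ℕ) (x : N) (hx : x ^ n = 1) (k : ℤ) :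
    cycHom n x hx (Multiplicative.ofAdd (k : ZMod n)) = x ^ k := by
  unfold cycHom
  rw [AddMonoidHom.coe_toMultiplicativeLeft]
  simp only [Function.comp_apply, toAdd_ofAdd, ZMod.lift_coe]
  show Additive.toMul (k • Additive.ofMul x) = x ^ k
  rw [← ofMul_zpow]; rfl

theorem cycHom_gen {N : Type*} [Group N] (n : ℕ) (x : N) (hx : x ^ n = 1) :
    cycHom n x hx (Multiplicative.ofAdd (1 : ZMod n)) = x := by
  have := cycHom_ofAdd_intCast n x hx 1
  simpa using this

/-! ## The two cyclic factors and ping-pong -/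

/-- The family `C₂, C₃`. -/
abbrev HH (b : Bool) : Type := Multiplicative (ZMod (cond b 3 2))

/-- The family of homs `C₂ → N`, `C₃ → N` attached to `s`, `u` with `s ^ 2 = 1`, `u ^ 3 = 1`. -/
noncomputable def famHom {N : Type*} [Group N] (s u : N) (hs : s ^ 2 = 1) (hu : u ^ 3 = 1) :
    ∀ b : Bool, HH b →* N
  | false => cycHom 2 s hs
  | true => cycHom 3 u hu

theorem S_inv_eq : (S : SL(2, ℤ))⁻¹ = -S := by decide
theorem U_inv_eq : ((T * S : SL(2, ℤ)))⁻¹ = -((T * S) * (T * S)) := by decide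
theorem S_sq_eq : (S : SL(2, ℤ)) ^ 2 = -1 := by decide
theorem U_cube_eq : ((T * S : SL(2, ℤ))) ^ 3 = -1 := by decide

theorem conj_neg_one : MulAut.conj (-1 : SL(2, ℤ)) = 1 := by
  ext g : 1
  simp [MulAut.conj_apply]

theorem conjS_sq : (MulAut.conj (S : SL(2, ℤ))) ^ 2 = 1 := by
  rw [← map_pow, S_sq_eq, conj_neg_one]

theorem conjU_cube : (MulAut.conj (T * S : SL(2, ℤ))) ^ 3 = 1 := by
  rw [← map_pow, U_cube_eq, conj_neg_one]

/-- The ping-pong sets. -/
def XX : Bool → Set SL(2, ℤ)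
  | false => {M | 0 ≤ M 0 1 ∧ M 1 0 ≤ 0 ∧ M 1 1 < M 0 0}
  | true => {M | 0 ≤ M 0 1 ∧ M 1 0 ≤ 0 ∧ M 0 0 < M 1 1}

theorem conjS_entries (M : SL(2, ℤ)) :
    (MulAut.conj (S : SL(2, ℤ)) M) 0 0 = M 1 1 ∧ (MulAut.conj (S : SL(2, ℤ)) M) 0 1 = - M 1 0 ∧
    (MulAut.conj (S : SL(2, ℤ)) M) 1 0 = - M 0 1 ∧ (MulAut.conj (S : SL(2, ℤ)) M) 1 1 = M 0 0 := by
  rw [MulAut.conj_apply, S_inv_eq]
  simp only [Matrix.SpecialLinearGroup.coe_mul, Matrix.SpecialLinearGroup.coe_neg,
    Matrix.mul_apply, Fin.sum_univ_two, ModularGroup.coe_S, Matrix.neg_apply, Matrix.of_apply,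
    Matrix.cons_val_zero, Matrix.cons_val_one, Matrix.cons_val', Matrix.cons_val_fin_one]
  refine ⟨?_, ?_, ?_, ?_⟩ <;> ring

theorem conjU_entries (M : SL(2, ℤ)) :
    (MulAut.conj (T * S : SL(2, ℤ)) M) 0 0 = M 1 1 - M 0 1 ∧
    (MulAut.conj (T * S : SL(2, ℤ)) M) 0 1 = M 0 0 - M 1 0 + M 0 1 - M 1 1 ∧
    (MulAut.conj (T * S : SL(2, ℤ)) M) 1 0 = - M 0 1 ∧
    (MulAut.conj (T * S : SL(2, ℤ)) M) 1 1 = M 0 0 + M 0 1 := by
  rw [MulAut.conj_apply, U_inv_eq]
  simp only [Matrix.SpecialLinearGroup.coe_mul, Matrix.SpecialLinearGroup.coe_neg,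
    Matrix.mul_apply, Fin.sum_univ_two, ModularGroup.coe_S, ModularGroup.coe_T, Matrix.neg_apply,
    Matrix.of_apply, Matrix.cons_val_zero, Matrix.cons_val_one, Matrix.cons_val',
    Matrix.cons_val_fin_one]
  refine ⟨?_, ?_, ?_, ?_⟩ <;> ring

theorem conjS_mem {M : SL(2, ℤ)} (hM : M ∈ XX true) : MulAut.conj (S : SL(2, ℤ)) M ∈ XX false := by
  obtain ⟨h1, h2, h3, h4⟩ := conjS_entries M
  obtain ⟨a, b, c⟩ := hM
  refine ⟨?_, ?_, ?_⟩
  · rw [h2]; omega
  · rw [h3]; omega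
  · rw [h4, h1]; exact c

theorem conjU_mem {M : SL(2, ℤ)} (hM : M ∈ XX false) :
    MulAut.conj (T * S : SL(2, ℤ)) M ∈ XX true := by
  obtain ⟨h1, h2, h3, h4⟩ := conjU_entries M
  obtain ⟨a, b, c⟩ := hM
  refine ⟨?_, ?_, ?_⟩
  · rw [h2]; omega
  · rw [h3]; omega
  · rw [h4, h1]; omega

theorem conjU_sq_mem {M : SL(2, ℤ)} (hM : M ∈ XX false) :
    MulAut.conj (T * S : SL(2, ℤ)) (MulAut.conj (T * S : SL(2, ℤ)) M) ∈ XX true := by
  obtain ⟨h1, h2, h3, h4⟩ := conjU_entries M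
  obtain ⟨k1, k2, k3, k4⟩ := conjU_entries (MulAut.conj (T * S : SL(2, ℤ)) M)
  obtain ⟨a, b, c⟩ := hM
  refine ⟨?_, ?_, ?_⟩
  · rw [k2, h1, h2, h3, h4]; omega
  · rw [k3, h2]; omega
  · rw [k4, k1, h1, h2, h4]; omega

/-- The canonical map `C₂ * C₃ → Aut(SL(2, ℤ))`. -/
noncomputable def Phi : Monoid.CoprodI HH →* MulAut SL(2, ℤ) :=
  Monoid.CoprodI.lift (famHom (MulAut.conj (S : SL(2, ℤ))) (MulAut.conj (T * S : SL(2, ℤ)))
    conjS_sq conjU_cube)

theorem HH_false_cases (h : Multiplicative (ZMod 2)) (hne : h ≠ 1) : h = Multiplicative.ofAdd (1 : ZMod 2) := by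
  obtain ⟨k, rfl⟩ := Multiplicative.ofAdd.surjective h
  fin_cases k
  · exact absurd rfl hne
  · rfl

theorem HH_true_cases (h : Multiplicative (ZMod 3)) (hne : h ≠ 1) :
    h = Multiplicative.ofAdd (1 : ZMod 3) ∨ h = Multiplicative.ofAdd ((2 : ℤ) : ZMod 3) := by
  obtain ⟨k, rfl⟩ := Multiplicative.ofAdd.surjective h
  fin_cases k
  · exact absurd rfl hne
  · left; rfl
  · right; rfl

theorem Phi_injective : Function.Injective Phi := by
  unfold Phi
  refine Monoid.CoprodI.lift_injective_of_ping_pong _ ?_ XX ?_ ?_ ?_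
  · right
    refine ⟨true, ?_⟩
    show (3 : Cardinal) ≤ Cardinal.mk (Multiplicative (ZMod 3))
    have : Cardinal.mk (Multiplicative (ZMod 3)) = 3 := by
      rw [Cardinal.mk_fintype]
      simp [Fintype.card_multiplicative, ZMod.card]
    rw [this]
  · rintro (_ | _)
    · refine ⟨⟨!![2, 1; -1, 0], by decide⟩, ?_⟩
      show (0:ℤ) ≤ _ ∧ _ ≤ (0:ℤ) ∧ _ < _
      decide
    · refine ⟨⟨!![0, 1; -1, 2], by decide⟩, ?_⟩
      show (0:ℤ) ≤ _ ∧ _ ≤ (0:ℤ) ∧ _ < _
      decide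
  · intro i j hij
    rw [Function.onFun, Set.disjoint_left]
    rcases i with _ | _ <;> rcases j with _ | _
    · exact absurd rfl hij
    · rintro M ⟨_, _, h1⟩ ⟨_, _, h2⟩; omega
    · rintro M ⟨_, _, h1⟩ ⟨_, _, h2⟩; omega
    · exact absurd rfl hij
  · rintro (_ | _) (_ | _) hij
    · exact absurd rfl hij
    · intro h hne
      have hh : h = Multiplicative.ofAdd (1 : ZMod 2) := HH_false_cases h hne
      subst hh
      show cycHom 2 (MulAut.conj (S : SL(2, ℤ))) conjS_sq (Multiplicative.ofAdd (1 : ZMod 2)) •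
        XX true ⊆ XX false
      rw [cycHom_gen]
      rintro _ ⟨M, hM, rfl⟩
      exact conjS_mem hM
    · intro h hne
      have hh : h = Multiplicative.ofAdd (1 : ZMod 3) ∨
          h = Multiplicative.ofAdd ((2 : ℤ) : ZMod 3) := HH_true_cases h hne
      rcases hh with rfl | rfl
      · show cycHom 3 (MulAut.conj (T * S : SL(2, ℤ))) conjU_cube
          (Multiplicative.ofAdd (1 : ZMod 3)) • XX false ⊆ XX true
        rw [cycHom_gen]
        rintro _ ⟨M, hM, rfl⟩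
        exact conjU_mem hM
      · show cycHom 3 (MulAut.conj (T * S : SL(2, ℤ))) conjU_cube
          (Multiplicative.ofAdd ((2 : ℤ) : ZMod 3)) • XX false ⊆ XX true
        rw [cycHom_ofAdd_intCast]
        rintro _ ⟨M, hM, rfl⟩
        exact conjU_sq_mem hM
    · exact absurd rfl hij

theorem closure_S_U : Subgroup.closure {S, T * S} = (⊤ : Subgroup SL(2, ℤ)) := by
  rw [eq_top_iff, ← SpecialLinearGroup.SL2Z_generators, Subgroup.closure_le]
  intro g hg
  rcases hg with rfl | hg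
  · exact Subgroup.subset_closure (Set.mem_insert _ _)
  · rw [Set.mem_singleton_iff] at hg
    subst hg
    have hS : S ∈ Subgroup.closure {S, T * S} := Subgroup.subset_closure (Set.mem_insert _ _)
    have hTS : T * S ∈ Subgroup.closure {S, T * S} :=
      Subgroup.subset_closure (Set.mem_insert_of_mem _ rfl)
    have := Subgroup.mul_mem _ hTS (Subgroup.inv_mem _ hS)
    rwa [mul_inv_cancel_right] at this

theorem Phi_of_false :
    Phi (Monoid.CoprodI.of (i := false) (Multiplicative.ofAdd (1 : ZMod 2))) =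
      MulAut.conj (S : SL(2, ℤ)) := by
  unfold Phi
  rw [Monoid.CoprodI.lift_of]
  exact cycHom_gen 2 _ conjS_sq

theorem Phi_of_true :
    Phi (Monoid.CoprodI.of (i := true) (Multiplicative.ofAdd (1 : ZMod 3))) =
      MulAut.conj (T * S : SL(2, ℤ)) := by
  unfold Phi
  rw [Monoid.CoprodI.lift_of]
  exact cycHom_gen 3 _ conjU_cube

theorem conj_mem_range (g : SL(2, ℤ)) : MulAut.conj g ∈ Phi.range := by
  have hg : g ∈ Subgroup.closure ({S, T * S} : Set SL(2, ℤ)) := by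
    rw [closure_S_U]; trivial
  induction hg using Subgroup.closure_induction with
  | mem x hx =>
    rcases hx with rfl | hx
    · exact ⟨_, Phi_of_false⟩
    · rw [Set.mem_singleton_iff] at hx
      subst hx
      exact ⟨_, Phi_of_true⟩
  | one => rw [map_one]; exact one_mem _
  | mul x y _ _ hx hy => rw [map_mul]; exact mul_mem hx hy
  | inv x _ hx => rw [map_inv]; exact inv_mem hx

/-- The projection `SL(2, ℤ) → C₂ * C₃`. -/
noncomputable def toCop : SL(2, ℤ) →* Monoid.CoprodI HH :=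
  (MonoidHom.ofInjective Phi_injective).symm.toMonoidHom.comp
    (MonoidHom.codRestrict (MulAut.conj) Phi.range conj_mem_range)

theorem Phi_toCop (g : SL(2, ℤ)) : Phi (toCop g) = MulAut.conj g := by
  have := (MonoidHom.ofInjective Phi_injective).apply_symm_apply
    (MonoidHom.codRestrict (MulAut.conj) Phi.range conj_mem_range g)
  exact congrArg Subtype.val this

theorem toCop_S : toCop S = Monoid.CoprodI.of (i := false) (Multiplicative.ofAdd (1 : ZMod 2)) := by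
  apply Phi_injective
  rw [Phi_toCop, Phi_of_false]

theorem toCop_U :
    toCop (T * S) = Monoid.CoprodI.of (i := true) (Multiplicative.ofAdd (1 : ZMod 3)) := by
  apply Phi_injective
  rw [Phi_toCop, Phi_of_true]

/-- **Universal property of `PSL(2, ℤ) = C₂ * C₃`**, stated on `SL(2, ℤ)`. -/
theorem sl2z_lift {N : Type*} [Group N] (s u : N) (hs : s ^ 2 = 1) (hu : u ^ 3 = 1) :
    ∃ ρ : SL(2, ℤ) →* N, ρ S = s ∧ ρ (T * S) = u := by
  refine ⟨(Monoid.CoprodI.lift (famHom s u hs hu)).comp toCop, ?_, ?_⟩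
  · rw [MonoidHom.comp_apply, toCop_S, Monoid.CoprodI.lift_of]
    exact cycHom_gen 2 s hs
  · rw [MonoidHom.comp_apply, toCop_U, Monoid.CoprodI.lift_of]
    exact cycHom_gen 3 u hu

/-! ## Integration of increments -/

/-- `{1, -1}` as a subgroup of `SL(2, ℤ)`. -/
def Zpm : Subgroup SL(2, ℤ) where
  carrier := {1, -1}
  mul_mem' := by
    rintro a b (rfl | rfl) (rfl | rfl) <;> simp
  one_mem' := by simp
  inv_mem' := by
    rintro a (rfl | rfl) <;> simp

theorem mk_neg (g : SL(2, ℤ)) : ((-g : SL(2, ℤ)) : SL(2, ℤ) ⧸ Zpm) = (g : SL(2, ℤ) ⧸ Zpm) := by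
  rw [eq_comm, QuotientGroup.eq]
  right
  simp

theorem S_mul_S_mul (g : SL(2, ℤ)) : S * (S * g) = -g := by
  have h : (S * S : SL(2, ℤ)) = -1 := by decide
  rw [← mul_assoc, h]; simp

theorem U_mul_U_mul_U_mul (g : SL(2, ℤ)) : T * S * (T * S * (T * S * g)) = -g := by
  have h : ((T * S) * ((T * S) * (T * S)) : SL(2, ℤ)) = -1 := by decide
  rw [← mul_assoc (T * S) (T * S) g, ← mul_assoc (T * S) ((T * S) * (T * S)) g, h]; simp

theorem S_smul_S_smul (x : SL(2, ℤ) ⧸ Zpm) : (S : SL(2, ℤ)) • (S : SL(2, ℤ)) • x = x := by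
  induction x using QuotientGroup.induction_on with
  | H g =>
    rw [MulAction.Quotient.smul_mk, MulAction.Quotient.smul_mk, ← mk_neg g]
    congr 1
    exact S_mul_S_mul g

theorem U_smul_U_smul_U_smul (x : SL(2, ℤ) ⧸ Zpm) :
    (T * S : SL(2, ℤ)) • (T * S : SL(2, ℤ)) • (T * S : SL(2, ℤ)) • x = x := by
  induction x using QuotientGroup.induction_on with
  | H g =>
    rw [MulAction.Quotient.smul_mk, MulAction.Quotient.smul_mk, MulAction.Quotient.smul_mk,
      ← mk_neg g]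
    congr 1
    exact U_mul_U_mul_U_mul g

section Prim

variable {A : Type*} [AddCommGroup A]

/-- Descend a `±`-invariant function to `SL(2, ℤ) ⧸ {±1}`. -/
def desc (d : SL(2, ℤ) → A) (hd : ∀ g, d (-g) = d g) : SL(2, ℤ) ⧸ Zpm → A :=
  fun x => Quotient.liftOn' x d (by
    intro a b hab
    rw [QuotientGroup.leftRel_apply] at hab
    rcases hab with h | h
    · have hb : b = a := by
        have := congrArg (fun z => a * z) h
        simpa using this
      rw [hb]
    · have hb : b = -a := by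
        have := congrArg (fun z => a * z) h
        simpa using this
      rw [hb, hd])

omit [AddCommGroup A] in
theorem desc_mk (d : SL(2, ℤ) → A) (hd : ∀ g, d (-g) = d g) (g : SL(2, ℤ)) :
    desc d hd (g : SL(2, ℤ) ⧸ Zpm) = d g := rfl

/-- The permutation of `PSL × A` attached to an increment along an order-two move. -/
def sPerm (r : SL(2, ℤ)) (hr : ∀ x : SL(2, ℤ) ⧸ Zpm, r • r • x = x) (d : SL(2, ℤ) ⧸ Zpm → A)
    (hd : ∀ x, d x + d (r • x) = 0) : Equiv.Perm ((SL(2, ℤ) ⧸ Zpm) × A) :=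
  Function.Involutive.toPerm (fun y => (r • y.1, y.2 + d y.1)) (by
    rintro ⟨x, a⟩
    simp only [hr, Prod.mk.injEq, true_and]
    rw [add_assoc, hd, add_zero])

theorem sPerm_apply (r : SL(2, ℤ)) (hr : ∀ x : SL(2, ℤ) ⧸ Zpm, r • r • x = x)
    (d : SL(2, ℤ) ⧸ Zpm → A) (hd : ∀ x, d x + d (r • x) = 0) (x : SL(2, ℤ) ⧸ Zpm) (a : A) :
    sPerm r hr d hd (x, a) = (r • x, a + d x) := rfl

theorem sPerm_sq (r : SL(2, ℤ)) (hr : ∀ x : SL(2, ℤ) ⧸ Zpm, r • r • x = x)
    (d : SL(2, ℤ) ⧸ Zpm → A) (hd : ∀ x, d x + d (r • x) = 0) : sPerm r hr d hd ^ 2 = 1 := by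
  ext ⟨x, a⟩ : 1
  rw [pow_two, Equiv.Perm.mul_apply, sPerm_apply, sPerm_apply, hr, add_assoc, hd, add_zero]
  rfl

/-- The permutation of `PSL × A` attached to an increment along an order-three move. -/
def uPerm (r : SL(2, ℤ)) (hr : ∀ x : SL(2, ℤ) ⧸ Zpm, r • r • r • x = x) (d : SL(2, ℤ) ⧸ Zpm → A)
    (hd : ∀ x, d x + d (r • x) + d (r • r • x) = 0) : Equiv.Perm ((SL(2, ℤ) ⧸ Zpm) × A) where
  toFun y := (r • y.1, y.2 + d y.1)
  invFun y := (r • r • y.1, y.2 + d y.1 + d (r • y.1))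
  left_inv := by
    rintro ⟨x, a⟩
    simp only [hr, Prod.mk.injEq, true_and]
    rw [add_assoc, add_assoc, ← add_assoc (d x), hd, add_zero]
  right_inv := by
    rintro ⟨x, a⟩
    simp only [hr, Prod.mk.injEq, true_and]
    rw [add_assoc, add_assoc, ← add_assoc (d x), hd, add_zero]

theorem uPerm_apply (r : SL(2, ℤ)) (hr : ∀ x : SL(2, ℤ) ⧸ Zpm, r • r • r • x = x)
    (d : SL(2, ℤ) ⧸ Zpm → A) (hd : ∀ x, d x + d (r • x) + d (r • r • x) = 0)
    (x : SL(2, ℤ) ⧸ Zpm) (a : A) :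
    uPerm r hr d hd (x, a) = (r • x, a + d x) := rfl

theorem uPerm_cube (r : SL(2, ℤ)) (hr : ∀ x : SL(2, ℤ) ⧸ Zpm, r • r • r • x = x)
    (d : SL(2, ℤ) ⧸ Zpm → A) (hd : ∀ x, d x + d (r • x) + d (r • r • x) = 0) :
    uPerm r hr d hd ^ 3 = 1 := by
  ext ⟨x, a⟩ : 1
  rw [pow_succ, pow_two, Equiv.Perm.mul_apply, Equiv.Perm.mul_apply, uPerm_apply, uPerm_apply,
    uPerm_apply, hr, add_assoc, add_assoc, ← add_assoc (d x), hd, add_zero]
  rfl

/-- **Integration of increments.** Increments `dS`, `dU` along the `S`- and `T * S`-moves whose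
loop sums vanish are the increments of a function on `SL(2, ℤ)`. -/
theorem exists_primitive (dS dU : SL(2, ℤ) → A) (hS : ∀ g, dS g + dS (S * g) = 0)
    (hU : ∀ g, dU g + dU (T * S * g) + dU (T * S * (T * S * g)) = 0) :
    ∃ J : SL(2, ℤ) → A, (∀ g, J (S * g) = J g + dS g) ∧ (∀ g, J (T * S * g) = J g + dU g) := by
  have hSneg : ∀ g, dS (-g) = dS g := by
    intro g
    have h1 := hS g
    have h2 := hS (S * g)
    have h3 : S * (S * g) = -g := S_mul_S_mul g
    rw [h3] at h2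
    have : dS (-g) = dS g + (dS (S * g) + dS (-g)) - (dS g + dS (S * g)) := by abel
    rw [this, h2, h1]; simp
  have hUneg : ∀ g, dU (-g) = dU g := by
    intro g
    have h1 := hU g
    have h2 := hU (T * S * g)
    have h3 : T * S * (T * S * (T * S * g)) = -g := U_mul_U_mul_U_mul g
    rw [h3] at h2
    have : dU (-g) = dU g + (dU (T * S * g) + dU (T * S * (T * S * g)) + dU (-g))
        - (dU g + dU (T * S * g) + dU (T * S * (T * S * g))) := by abel
    rw [this, h2, h1]; simp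
  have hS' : ∀ x : SL(2, ℤ) ⧸ Zpm, desc dS hSneg x + desc dS hSneg ((S : SL(2, ℤ)) • x) = 0 := by
    intro x
    induction x using QuotientGroup.induction_on with
    | H g => rw [MulAction.Quotient.smul_mk, desc_mk, desc_mk]; exact hS g
  have hU' : ∀ x : SL(2, ℤ) ⧸ Zpm, desc dU hUneg x + desc dU hUneg ((T * S : SL(2, ℤ)) • x) +
      desc dU hUneg ((T * S : SL(2, ℤ)) • (T * S : SL(2, ℤ)) • x) = 0 := by
    intro x
    induction x using QuotientGroup.induction_on with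
    | H g =>
      rw [MulAction.Quotient.smul_mk, MulAction.Quotient.smul_mk, desc_mk, desc_mk, desc_mk]
      exact hU g
  obtain ⟨ρ, hρS, hρU⟩ := sl2z_lift (sPerm S S_smul_S_smul (desc dS hSneg) hS')
    (uPerm (T * S) U_smul_U_smul_U_smul (desc dU hUneg) hU') (sPerm_sq _ _ _ _) (uPerm_cube _ _ _ _)
  have key : ∀ g : SL(2, ℤ), ∃ c : SL(2, ℤ) ⧸ Zpm → A, ∀ x a, ρ g (x, a) = (g • x, a + c x) := by
    intro g
    have hg : g ∈ Subgroup.closure ({S, T * S} : Set SL(2, ℤ)) := by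
      rw [closure_S_U]; trivial
    induction hg using Subgroup.closure_induction with
    | mem y hy =>
      rcases hy with rfl | hy
      · exact ⟨desc dS hSneg, fun x a => by rw [hρS, sPerm_apply]⟩
      · rw [Set.mem_singleton_iff] at hy
        subst hy
        exact ⟨desc dU hUneg, fun x a => by rw [hρU, uPerm_apply]⟩
    | one => exact ⟨fun _ => 0, fun x a => by simp⟩
    | mul y z _ _ hy hz =>
      obtain ⟨cy, hcy⟩ := hy
      obtain ⟨cz, hcz⟩ := hz
      refine ⟨fun x => cz x + cy (z • x), fun x a => ?_⟩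
      rw [map_mul, Equiv.Perm.mul_apply, hcz, hcy, mul_smul, add_assoc]
    | inv y _ hy =>
      obtain ⟨cy, hcy⟩ := hy
      refine ⟨fun x => - cy (y⁻¹ • x), fun x a => ?_⟩
      rw [map_inv, Equiv.Perm.inv_def, Equiv.symm_apply_eq, hcy, smul_inv_smul]
      simp
  choose c hc using key
  have hg1 : ∀ g : SL(2, ℤ), ρ g (((1 : SL(2, ℤ)) : SL(2, ℤ) ⧸ Zpm), 0) =
      ((g : SL(2, ℤ) ⧸ Zpm), 0 + c g ((1 : SL(2, ℤ)) : SL(2, ℤ) ⧸ Zpm)) := by
    intro g
    rw [hc g, MulAction.Quotient.smul_mk, smul_eq_mul, mul_one]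
  refine ⟨fun g => (ρ g (((1 : SL(2, ℤ)) : SL(2, ℤ) ⧸ Zpm), 0)).2, fun g => ?_, fun g => ?_⟩
  · show (ρ (S * g) _).2 = (ρ g _).2 + dS g
    rw [map_mul, Equiv.Perm.mul_apply, hg1 g, hρS, sPerm_apply, desc_mk]
  · show (ρ (T * S * g) _).2 = (ρ g _).2 + dU g
    rw [map_mul, Equiv.Perm.mul_apply, hg1 g, hρU, uPerm_apply, desc_mk]

/-- Potential lemma, with the triangle sum written with nested products. -/
theorem exists_potential_aux (ξ : SL(2, ℤ) → A) (hS : ∀ g, ξ (S * g) = - ξ g)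
    (hU : ∀ g, ξ g + ξ (T * S * g) + ξ (T * S * (T * S * g)) = 0) :
    ∃ F : SL(2, ℤ) → A, (∀ g, F (T * g) = F g) ∧ (∀ g, F (S * g) = F g + ξ g) := by
  obtain ⟨J, hJS, hJU⟩ := exists_primitive ξ ξ (fun g => by rw [hS]; abel) hU
  refine ⟨J, fun g => ?_, hJS⟩
  have h1 : T * g = T * S * (S⁻¹ * g) := by group
  have h2 := hJS (S⁻¹ * g)
  rw [mul_inv_cancel_left] at h2
  rw [h1, hJU, h2]

/-- **Potential lemma.** A symbol on `SL(2, ℤ)` (odd under `S`, with vanishing triangle sums)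
is the `S`-coboundary of a `T`-invariant potential. -/
theorem exists_potential (ξ : SL(2, ℤ) → A) (hS : ∀ g, ξ (S * g) = - ξ g)
    (hU : ∀ g, ξ g + ξ (T * S * g) + ξ ((T * S) ^ 2 * g) = 0) :
    ∃ F : SL(2, ℤ) → A, (∀ g, F (T * g) = F g) ∧ ∀ g, F (S * g) = F g + ξ g :=
  exists_potential_aux ξ hS (fun g => by
    have := hU g
    rwa [pow_two, mul_assoc (T * S) (T * S) g] at this)

/-- Potential lemma, normalised: `F 1 = 0`, and `F` is automatically even. -/
theorem exists_potential_normalized (ξ : SL(2, ℤ) → A) (hS : ∀ g, ξ (S * g) = - ξ g)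
    (hU : ∀ g, ξ g + ξ (T * S * g) + ξ ((T * S) ^ 2 * g) = 0) :
    ∃ F : SL(2, ℤ) → A, F 1 = 0 ∧ (∀ g, F (T * g) = F g) ∧ (∀ g, F (S * g) = F g + ξ g) ∧
      ∀ g, F (-g) = F g := by
  obtain ⟨F, hT, hFS⟩ := exists_potential ξ hS hU
  refine ⟨fun g => F g - F 1, sub_self _, fun g => ?_, fun g => ?_, fun g => ?_⟩
  · show F (T * g) - F 1 = F g - F 1
    rw [hT]
  · show F (S * g) - F 1 = F g - F 1 + ξ g
    rw [hFS]; abel
  have h1 := hFS (S * g)
  rw [S_mul_S_mul, hFS, hS] at h1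
  show F (-g) - F 1 = F g - F 1
  rw [h1]; abel

end Prim

end Fermat.Agent.S41.PDTree
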