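/-
S41 [PD] leaf (5b), B-copy: existence of a primitive `H` (over ℚ) for a pair of lifts,
from the TREE lemma (prescribed increments along `S` and `U = T * S`) taken as a hypothesis.
Raw-hypothesis form (`exists_prim`), and the unconditional form (`exists_prim_uncond`) using
helper78's landed `PDTree.exists_primitive`.
-/
import Mathlib
import Fermat.Agent.S41.PDIntr
import Fermat.Agent.S41.PDTree

set_option autoImplicit false

open scoped MatrixGroups

namespace Fermat.Agent.S41.PDPrimB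

open ModularGroup Fermat.Agent.S41.PDIntr

section

variable {Γ : Subgroup SL(2, ℤ)} (hneg : (-1 : SL(2, ℤ)) ∈ Γ)
  {phi : Γ → ℚ} {F : SL(2, ℤ) → ℚ}
  (hF : ∀ g (c : Γ), F (g * c) = F g + phi c) (hFT : ∀ g, F (T * g) = F g)

/-- the symbol of a raw lift, as a function on `G` -/
def xiOf (F : SL(2, ℤ) → ℚ) (g : SL(2, ℤ)) : ℚ := F (S * g) - F g

include hF in
theorem xiOf_mul_right (g : SL(2, ℤ)) (c : Γ) : xiOf F (g * c) = xiOf F g := by
  unfold xiOf
  rw [← mul_assoc, hF, hF]; ring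

include hneg hF in
theorem xiOf_S (g : SL(2, ℤ)) : xiOf F (S * g) = - xiOf F g := by
  unfold xiOf
  rw [S_mul_S_mul, F_mul_neg_one hneg hF]; ring

include hFT in
theorem F_TS (g : SL(2, ℤ)) : F (T * S * g) = F g + xiOf F g := by
  unfold xiOf
  rw [mul_assoc, hFT]; ring

include hneg hF hFT in
theorem xiOf_tri (g : SL(2, ℤ)) :
    xiOf F g + xiOf F (T * S * g) + xiOf F (T * S * (T * S * g)) = 0 := by
  have a1 : F (T * (S * g)) = F (S * g) := hFT _
  have a2 : F (T * (S * (T * (S * g)))) = F (S * (T * (S * g))) := hFT _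
  have a3 : F (S * (T * (S * (T * (S * g))))) = F g := by
    rw [← hFT, TS_cube_mul, F_mul_neg_one hneg hF]
  unfold xiOf
  simp only [mul_assoc]
  rw [a1, a2, a3]; ring

include hneg hF in
theorem xiOf_cube (g : SL(2, ℤ)) : xiOf F (T * S * (T * S * (T * S * g))) = xiOf F g := by
  have h : T * S * (T * S * (T * S * g)) = g * (-1) := by
    simp only [mul_assoc]; exact TS_cube_mul g
  rw [h]
  exact xiOf_mul_right hF g ⟨-1, hneg⟩

end

/-- (5b) existence of a primitive from the tree lemma. -/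
theorem exists_prim (Γ : Subgroup SL(2, ℤ)) (hneg : (-1 : SL(2, ℤ)) ∈ Γ)
    (phi psi : Γ → ℚ) (F F' : SL(2, ℤ) → ℚ)
    (hF : ∀ g (c : Γ), F (g * c) = F g + phi c) (hFT : ∀ g, F (T * g) = F g)
    (hF' : ∀ g (c : Γ), F' (g * c) = F' g + psi c) (hF'T : ∀ g, F' (T * g) = F' g)
    (htree : ∀ dS dU : SL(2, ℤ) → ℚ, (∀ g, dS g + dS (S * g) = 0) →
      (∀ g, dU g + dU (T * S * g) + dU (T * S * (T * S * g)) = 0) →
      ∃ J : SL(2, ℤ) → ℚ, (∀ g, J (S * g) = J g + dS g) ∧ (∀ g, J (T * S * g) = J g + dU g)) :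
    ∃ (H : SL(2, ℤ) → ℚ) (f : Γ → ℚ), ∀ g (c : Γ), H (g * c) = H g + f c - F g * psi c := by
  -- data
  set xi : SL(2, ℤ) → ℚ := xiOf F with hxi
  set xi' : SL(2, ℤ) → ℚ := xiOf F' with hxi'
  set kap : SL(2, ℤ) → ℚ := fun g => -(xi g * xi' g) / 2 with hkap
  set R : SL(2, ℤ) → ℚ := fun g => xi (T * S * g) * xi' g + xi (T * S * (T * S * g)) * xi' g
    + xi (T * S * (T * S * g)) * xi' (T * S * g) with hR
  set Rt : SL(2, ℤ) → ℚ := fun g => R g - (kap g + kap (T * S * g) + kap (T * S * (T * S * g)))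
    with hRt
  set dS : SL(2, ℤ) → ℚ := fun g => kap g - xi g * F' g with hdS
  set dU : SL(2, ℤ) → ℚ := fun g => Rt g / 3 + dS g with hdU
  -- basic facts
  have xS : ∀ g, xi (S * g) = - xi g := xiOf_S hneg hF
  have xS' : ∀ g, xi' (S * g) = - xi' g := xiOf_S hneg hF'
  have tri : ∀ g, xi g + xi (T * S * g) + xi (T * S * (T * S * g)) = 0 := xiOf_tri hneg hF hFT
  have tri' : ∀ g, xi' g + xi' (T * S * g) + xi' (T * S * (T * S * g)) = 0 :=
    xiOf_tri hneg hF' hF'T
  have cube : ∀ g, xi (T * S * (T * S * (T * S * g))) = xi g := xiOf_cube hneg hF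
  have cube' : ∀ g, xi' (T * S * (T * S * (T * S * g))) = xi' g := xiOf_cube hneg hF'
  have xr : ∀ g (c : Γ), xi (g * c) = xi g := xiOf_mul_right hF
  have xr' : ∀ g (c : Γ), xi' (g * c) = xi' g := xiOf_mul_right hF'
  have hTSc : ∀ g (c : Γ), T * S * (g * (c : SL(2, ℤ))) = T * S * g * c := fun g c => by
    simp only [mul_assoc]
  have kr : ∀ g (c : Γ), kap (g * c) = kap g := fun g c => by
    simp only [hkap, xr, xr']
  have Rr : ∀ g (c : Γ), R (g * c) = R g := fun g c => by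
    simp only [hR, hTSc, xr, xr']
  have Rtr : ∀ g (c : Γ), Rt (g * c) = Rt g := fun g c => by
    simp only [hRt, hTSc, Rr, kr]
  have kU3 : ∀ g, kap (T * S * (T * S * (T * S * g))) = kap g := fun g => by
    simp only [hkap, cube, cube']
  have RU : ∀ g, R (T * S * g) = R g := fun g => by
    simp only [hR, cube]
    linear_combination (xi' (T * S * g) + xi' (T * S * (T * S * g)) + xi' g) * tri g
      - (xi (T * S * g) + xi (T * S * (T * S * g)) + xi g) * tri' g
      + xi g * tri' g - xi' g * tri g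
  have RtU : ∀ g, Rt (T * S * g) = Rt g := fun g => by
    simp only [hRt, RU, kU3]; ring
  have FU' : ∀ g, F' (T * S * g) = F' g + xi' g := F_TS hF'T
  -- the two loop conditions
  have c1 : ∀ g, dS g + dS (S * g) = 0 := fun g => by
    have hF'S : F' (S * g) = F' g + xi' g := by simp only [hxi', xiOf]; ring
    simp only [hdS, hkap, xS, xS', hF'S]; ring
  have c2 : ∀ g, dU g + dU (T * S * g) + dU (T * S * (T * S * g)) = 0 := fun g => by
    simp only [hdU, hdS, RtU, FU']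
    simp only [hRt, hR]
    linear_combination (-F' g) * tri g
  obtain ⟨H, hHS, hHU⟩ := htree dS dU c1 c2
  -- T-increment
  have hHT : ∀ h, H (T * h) = H h + Rt (S⁻¹ * h) / 3 := fun h => by
    have e1 := hHS (S⁻¹ * h)
    have e2 := hHU (S⁻¹ * h)
    rw [mul_inv_cancel_left] at e1
    rw [mul_assoc, mul_inv_cancel_left] at e2
    rw [e2, e1]; simp only [hdU]; ring
  -- E c is left invariant
  have key : ∀ (c : Γ) (g : SL(2, ℤ)),
      H (g * c) - H g + F g * psi c = H ((1 : SL(2, ℤ)) * c) - H 1 + F 1 * psi c := by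
    intro c g
    refine const_of_left_inv (fun g => H (g * c) - H g + F g * psi c) ?_ ?_ g
    · intro g
      show H (S * g * c) - H (S * g) + F (S * g) * psi c = H (g * c) - H g + F g * psi c
      have hFS : F (S * g) = F g + xi g := by simp only [hxi, xiOf]; ring
      rw [mul_assoc, hHS, hHS, hFS]
      simp only [hdS, kr, xr, hF']; ring
    · intro g
      show H (T * g * c) - H (T * g) + F (T * g) * psi c = H (g * c) - H g + F g * psi c
      have e : S⁻¹ * (g * (c : SL(2, ℤ))) = S⁻¹ * g * c := by simp only [mul_assoc]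
      rw [mul_assoc, hHT, hHT, hFT, e, Rtr]; ring
  refine ⟨H, fun c => H ((1 : SL(2, ℤ)) * c) - H 1 + F 1 * psi c, fun g c => ?_⟩
  have := key c g
  linarith

/-- (5b), unconditional: the tree lemma is `PDTree.exists_primitive`. Hypotheses are exactly those
of `PDIntr.six_sum_tau_eq`. -/
theorem exists_prim_uncond (Γ : Subgroup SL(2, ℤ)) (hneg : (-1 : SL(2, ℤ)) ∈ Γ)
    (phi psi : Γ → ℚ) (F F' : SL(2, ℤ) → ℚ)
    (hF : ∀ g (c : Γ), F (g * c) = F g + phi c) (hFT : ∀ g, F (T * g) = F g)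
    (hF' : ∀ g (c : Γ), F' (g * c) = F' g + psi c) (hF'T : ∀ g, F' (T * g) = F' g) :
    ∃ (H : SL(2, ℤ) → ℚ) (f : Γ → ℚ), ∀ g (c : Γ), H (g * c) = H g + f c - F g * psi c :=
  exists_prim Γ hneg phi psi F F' hF hFT hF' hF'T
    (fun dS dU hS hU => Fermat.Agent.S41.PDTree.exists_primitive dS dU hS hU)

/-- (5a)+(5b) chained: for raw lifts `F`, `F'` (over ℚ) the symbol sum `∑ D` is `-6 ∑ τ_H` for
some `H` whose `T`-increment descends to the quotient; in particular `∑ D` can be computed from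
ANY primitive. -/
theorem exists_tau (Γ : Subgroup SL(2, ℤ)) [Fintype (SL(2, ℤ) ⧸ Γ)] (hneg : (-1 : SL(2, ℤ)) ∈ Γ)
    (phi psi : Γ → ℚ) (F F' : SL(2, ℤ) → ℚ)
    (hF : ∀ g (c : Γ), F (g * c) = F g + phi c) (hFT : ∀ g, F (T * g) = F g)
    (hF' : ∀ g (c : Γ), F' (g * c) = F' g + psi c) (hF'T : ∀ g, F' (T * g) = F' g)
    (D : SL(2, ℤ) ⧸ Γ → ℚ)
    (hD : ∀ g : SL(2, ℤ), D (g : SL(2, ℤ) ⧸ Γ)
      = (F (S * g) - F g) * (F' (S * (T * S * g)) - F' (T * S * g))
        - (F (S * (T * S * g)) - F (T * S * g)) * (F' (S * g) - F' g)) :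
    ∃ (H : SL(2, ℤ) → ℚ) (f : Γ → ℚ) (tau : SL(2, ℤ) ⧸ Γ → ℚ),
      (∀ g (c : Γ), H (g * c) = H g + f c - F g * psi c) ∧
      (∀ g : SL(2, ℤ), tau (g : SL(2, ℤ) ⧸ Γ) = H (T * g) - H g) ∧
      6 * ∑ x, tau x = - ∑ x, D x := by
  obtain ⟨H, f, hH⟩ := exists_prim_uncond Γ hneg phi psi F F' hF hFT hF' hF'T
  have hinv : ∀ g (c : Γ), (fun g => H (T * g) - H g) (g * c) = (fun g => H (T * g) - H g) g := by
    intro g c
    show H (T * (g * c)) - H (g * c) = H (T * g) - H g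
    rw [← mul_assoc, hH, hH, hFT]; ring
  refine ⟨H, f, desc Γ (fun g => H (T * g) - H g) hinv, hH, fun g => rfl, ?_⟩
  exact six_sum_tau_eq Γ hneg phi psi f F F' H hF hFT hF' hF'T hH _ D (fun g => rfl) hD

end Fermat.Agent.S41.PDPrimB
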