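/-
S41 / [PD] leaf (6b), final layer: the unconditional `δ`-twist isometry and the second adjunction.

* `pd3_iso`  : `pd3 Γ₀(Nq) (φ ∘ α) (ψ ∘ α) = pd3 Γ'' φ ψ` for parabolic `φ, ψ` on
  `Γ'' = Gam2 N q = δ Γ₀(Nq) δ⁻¹`, `α = al₂ : γ ↦ δ γ δ⁻¹`
  (`PDIso.pd3_iso_of_prim` + existence of primitives `PDPrimB.exists_prim_uncond`);
* `pd3_res₂` : `pd3 Γ₀(Nq) (res₂ N q x) y = pd3 Γ₀(N) x (tr₂ N q y)` for parabolic `x`, `y`
  (isometry + the adjunction `PDAdj.pd3_comp` for the inclusion `Γ'' ≤ Γ₀(N)` + `tr₂_eq`).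
-/
import Mathlib
import Fermat.Agent.S41.PDIso
import Fermat.Agent.S41.PDPrimB
import Fermat.Agent.S41.PDAdj

set_option autoImplicit false

open CongruenceSubgroup ModularCurve.Period ModularGroup
open scoped MatrixGroups

namespace Fermat.Agent.S41.PDIsoAdj

open Fermat.Agent.S41 Fermat.Agent.S41.PD Fermat.Agent.S41.PDPair Fermat.Agent.S41.PDIsoGam

variable (N q : ℕ) [hq : Fact q.Prime]

/-- **The `δ`-twist isometry**: `pd3 Γ₀(Nq) (φ ∘ α) (ψ ∘ α) = pd3 Γ'' φ ψ`. -/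
theorem pd3_iso [Fintype (SL(2, ℤ) ⧸ Gamma0 (N * q))] [Fintype (SL(2, ℤ) ⧸ Gam2 N q)]
    {φ ψ : Additive (Gam2 N q) →+ ℤ} (hφ : IsParabolicHom (Gam2 N q) φ)
    (hψ : IsParabolicHom (Gam2 N q) ψ) :
    pd3 (Gamma0 (N * q)) (φ.comp (MonoidHom.toAdditive (al₂ N q)))
        (ψ.comp (MonoidHom.toAdditive (al₂ N q))) = pd3 (Gam2 N q) φ ψ := by
  refine PDIso.pd3_iso_of_prim N q hφ hψ (fun F F₂ hF hF₂ => ?_)
  refine PDPrimB.exists_prim_uncond (Gam2 N q) (neg_one_mem_Gam2 N q hq.out.ne_zero)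
    (fun c => (φ (Additive.ofMul c) : ℚ)) (fun c => (ψ (Additive.ofMul c) : ℚ))
    (fun g => (F g : ℚ)) (fun g => (F₂ g : ℚ)) ?_ ?_ ?_ ?_
  · intro g c
    show ((F (g * c) : ℤ) : ℚ) = (F g : ℚ) + (φ (Additive.ofMul c) : ℚ)
    rw [hF.mul_right]
    push_cast
    rfl
  · intro g
    show ((F (T * g) : ℤ) : ℚ) = (F g : ℚ)
    rw [hF.T_left]
  · intro g c
    show ((F₂ (g * c) : ℤ) : ℚ) = (F₂ g : ℚ) + (ψ (Additive.ofMul c) : ℚ)
    rw [hF₂.mul_right]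
    push_cast
    rfl
  · intro g
    show ((F₂ (T * g) : ℤ) : ℚ) = (F₂ g : ℚ)
    rw [hF₂.T_left]

/-- The isometry in terms of the isomorphism `e₂ : Γ₀(Nq) ≃* Γ''`: for parabolic `x''` on `Γ''`
and parabolic `y` on `Γ₀(Nq)`, `pd3 Γ₀(Nq) (x'' ∘ α) y = pd3 Γ'' x'' (y ∘ α⁻¹)`. -/
theorem pd3_iso' [Fintype (SL(2, ℤ) ⧸ Gamma0 (N * q))] [Fintype (SL(2, ℤ) ⧸ Gam2 N q)]
    {φ : Additive (Gam2 N q) →+ ℤ} (hφ : IsParabolicHom (Gam2 N q) φ)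
    {y : Additive (Gamma0 (N * q)) →+ ℤ} (hy : IsParabolicHom (Gamma0 (N * q)) y) :
    pd3 (Gamma0 (N * q)) (φ.comp (MonoidHom.toAdditive (al₂ N q))) y =
      pd3 (Gam2 N q) φ
        (y.comp (MonoidHom.toAdditive (e₂ N q hq.out.ne_zero).symm.toMonoidHom)) := by
  have h := pd3_iso N q hφ (isParabolicHom_comp_e₂_symm N q hq.out.ne_zero hy)
  rw [comp_e₂_symm_comp_al₂] at h
  exact h

/-- **The second adjunction** `res₂ ⊣ tr₂` for the integral pairing `pd3`. -/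
theorem pd3_res₂ [NeZero N] [Fintype (SL(2, ℤ) ⧸ Gamma0 N)]
    [Fintype (SL(2, ℤ) ⧸ Gamma0 (N * q))]
    (x : Additive (Gamma0 N) →+ ℤ) (hx : IsParabolicHom (Gamma0 N) x)
    (y : Additive (Gamma0 (N * q)) →+ ℤ) (hy : IsParabolicHom (Gamma0 (N * q)) y) :
    pd3 (Gamma0 (N * q)) (res₂ N q x) y = pd3 (Gamma0 N) x (tr₂ N q y) := by
  have hq0 : q ≠ 0 := hq.out.ne_zero
  have : (Gam2 N q).FiniteIndex := finiteIndex_Gam2 N q hq0
  have hy'' := isParabolicHom_comp_e₂_symm N q hq0 hy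
  have hx'' := isParabolicHom_comp_j₂ N q hx
  calc pd3 (Gamma0 (N * q)) (res₂ N q x) y
      = pd3 (Gam2 N q) (x.comp (MonoidHom.toAdditive (j₂ N q)))
          (y.comp (MonoidHom.toAdditive (e₂ N q hq0).symm.toMonoidHom)) :=
        pd3_iso' N q hx'' hy
    _ = pd3 (Gamma0 N) x (transferAlong (j₂ N q)
          (y.comp (MonoidHom.toAdditive (e₂ N q hq0).symm.toMonoidHom))) :=
        PDAdj.pd3_comp (Gamma0 N) (Gam2 N q) (neg_one_mem_Gam2 N q hq0) (j₂ N q)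
          (j₂_coe N q) hx hy''
    _ = pd3 (Gamma0 N) x (tr₂ N q y) := by rw [tr₂_eq N q hq0 y]

end Fermat.Agent.S41.PDIsoAdj
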