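/-
S41, block [PD], leaf (0) LIFTS (owner: helper38).  Design: helper68 (board #1385 (0)), ruling #1433;
shared objects `PD.IsLift`, `PD.sym`, `PD.sX`, `PD.uX` from `S41/PDDefs.lean`.

`Γ ≤ SL(2, ℤ)` is ANY subgroup, `φ : Γ → A` a parabolic homomorphism.

* `exists_lift` : lifts exist (integrally, no averaging): `F` is an equivariant function for the
  action of `⟨T⟩ × Γ` on `SL(2, ℤ)`; the stabilisers are conjugates of powers of `T` lying in `Γ`,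
  which are parabolic, hence killed by `φ`.
* `T_zpow_left` : `F (T ^ n * g) = F g`.
* `sub_mul_right`, `sub_T_left`, `sym_sub_eq`, `sym_sub_eq'` : two lifts of the same `φ` differ by
  a function `w` on `X = SL(2, ℤ) ⧸ Γ` invariant under `T`, and their symbols differ by the
  boundary `w ∘ sX - w`.
* `isLift_add`, `isLift_zsmul`, `isLift_neg`, `isLift_sub`, `isLift_zero`, `isLift_comp` :
  algebra of lifts and restriction to a subgroup.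
* `sym_add`, `sym_zsmul`, `sym_neg`, `sym_sub`, `sym_zero`, `sym_comp`.
* `B3_sym_congr_left`, `B3_sym_congr_right`, `B3_sym_congr` : the pairing of the symbols does not
  depend on the lifts.
-/
import Mathlib
import Fermat.Prelude.Def_ModularCurve_PeriodMap
import Fermat.Agent.S41.PDDefs

set_option autoImplicit false

noncomputable section

open ModularCurve.Period ModularGroup
open scoped MatrixGroups

namespace Fermat.Agent.S41.PDLift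

open Fermat.Agent.S41

/-! ### a matrix fact -/

theorem trace_conj_T_zpow (r : SL(2, ℤ)) (n : ℤ) :
    ((r⁻¹ * T ^ n * r : SL(2, ℤ)) : Matrix (Fin 2) (Fin 2) ℤ).trace = 2 := by
  have h : ((r⁻¹ * T ^ n * r : SL(2, ℤ)) : Matrix (Fin 2) (Fin 2) ℤ)
      = (r⁻¹ : SL(2, ℤ)).1 * ((T ^ n * r : SL(2, ℤ)) : Matrix (Fin 2) (Fin 2) ℤ) := by
    rw [mul_assoc]; rfl
  rw [h, Matrix.trace_mul_comm]
  have h2 : ((T ^ n * r : SL(2, ℤ)) : Matrix (Fin 2) (Fin 2) ℤ) * (r⁻¹ : SL(2, ℤ)).1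
      = ((T ^ n : SL(2, ℤ)) : Matrix (Fin 2) (Fin 2) ℤ) := by
    have : (T ^ n * r * r⁻¹ : SL(2, ℤ)) = T ^ n := by group
    conv_rhs => rw [← this]
    rfl
  rw [h2, coe_T_zpow]
  simp [Matrix.trace_fin_two]

variable (Γ : Subgroup SL(2, ℤ)) {A : Type*} [AddCommGroup A]

/-! ### existence of lifts -/

/-- The double coset relation for `⟨T⟩ \ SL(2, ℤ) / Γ`. -/
def dcSetoid : Setoid SL(2, ℤ) where
  r g g' := ∃ (n : ℤ) (γ : Γ), g' = T ^ n * g * γ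
  iseqv :=
    { refl := fun g => ⟨0, 1, by simp⟩
      symm := by
        rintro g g' ⟨n, γ, rfl⟩
        refine ⟨-n, γ⁻¹, ?_⟩
        rw [Subgroup.coe_inv, zpow_neg]
        group
      trans := by
        rintro g g' g'' ⟨n, γ, rfl⟩ ⟨m, γ', rfl⟩
        refine ⟨m + n, γ * γ', ?_⟩
        rw [Subgroup.coe_mul, zpow_add]
        group }

/-- The chosen representative of the double coset of `g`. -/
def dcRep (g : SL(2, ℤ)) : SL(2, ℤ) := (Quotient.mk (dcSetoid Γ) g).out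

theorem dcRep_spec (g : SL(2, ℤ)) : ∃ (n : ℤ) (γ : Γ), g = T ^ n * dcRep Γ g * γ :=
  Quotient.mk_out (s := dcSetoid Γ) g

theorem dcRep_eq {g g' : SL(2, ℤ)} (h : ∃ (n : ℤ) (γ : Γ), g' = T ^ n * g * γ) :
    dcRep Γ g' = dcRep Γ g := by
  unfold dcRep
  have : (Quotient.mk (dcSetoid Γ) g) = Quotient.mk (dcSetoid Γ) g' := Quotient.sound h
  rw [this]

/-- The `Γ`-component of `g` with respect to the chosen representative. -/
def dcGam (g : SL(2, ℤ)) : Γ := (dcRep_spec Γ g).choose_spec.choose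

theorem dcGam_spec (g : SL(2, ℤ)) : ∃ n : ℤ, g = T ^ n * dcRep Γ g * dcGam Γ g :=
  ⟨(dcRep_spec Γ g).choose, (dcRep_spec Γ g).choose_spec.choose_spec⟩

variable {Γ}

/-- Key well-definedness: the value of a parabolic `φ` on the `Γ`-component does not depend on
the decomposition. -/
theorem phi_eq_of_decomp (φ : Additive Γ →+ A) (hφ : IsParabolicHom Γ φ) {r : SL(2, ℤ)}
    {n m : ℤ} {γ γ' : Γ} (h : T ^ n * r * γ = T ^ m * r * γ') :
    φ (Additive.ofMul γ) = φ (Additive.ofMul γ') := by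
  have hcoe : ((γ * γ'⁻¹ : Γ) : SL(2, ℤ)) = r⁻¹ * T ^ (m - n) * r := by
    rw [Subgroup.coe_mul, Subgroup.coe_inv]
    have h1 : (γ : SL(2, ℤ)) = (T ^ n * r)⁻¹ * (T ^ m * r * γ') := by
      rw [← h]; group
    rw [h1, zpow_sub]
    group
  have htr : (((γ * γ'⁻¹ : Γ) : SL(2, ℤ)) : Matrix (Fin 2) (Fin 2) ℤ).trace ^ 2 = 4 := by
    rw [hcoe, trace_conj_T_zpow]; norm_num
  have h0 := hφ (γ * γ'⁻¹) htr
  have h1 : φ (Additive.ofMul (γ * γ'⁻¹)) = φ (Additive.ofMul γ) - φ (Additive.ofMul γ') := by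
    rw [ofMul_mul, map_add, ofMul_inv, map_neg, sub_eq_add_neg]
  rw [h1] at h0
  exact sub_eq_zero.mp h0

/-- **Existence of lifts** (integral, no averaging), normalised by `F 1 = 0`. -/
theorem exists_lift (Γ : Subgroup SL(2, ℤ)) {A : Type*} [AddCommGroup A] (φ : Additive Γ →+ A)
    (hφ : IsParabolicHom Γ φ) :
    ∃ F : SL(2, ℤ) → A, PD.IsLift Γ φ F ∧ F 1 = 0 := by
  -- the un-normalised lift
  let F₀ : SL(2, ℤ) → A := fun g => φ (Additive.ofMul (dcGam Γ g))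
  have key : ∀ (g : SL(2, ℤ)) (n : ℤ) (γ : Γ), g = T ^ n * dcRep Γ g * γ →
      F₀ g = φ (Additive.ofMul γ) := by
    intro g n γ h
    obtain ⟨m, hm⟩ := dcGam_spec Γ g
    exact phi_eq_of_decomp φ hφ (hm.symm.trans h)
  have hr : ∀ (g : SL(2, ℤ)) (γ : Γ), F₀ (g * γ) = F₀ g + φ (Additive.ofMul γ) := by
    intro g γ
    obtain ⟨m, hm⟩ := dcGam_spec Γ g
    have hrep : dcRep Γ (g * γ) = dcRep Γ g := dcRep_eq Γ ⟨0, γ, by simp⟩
    have h1 : g * γ = T ^ m * dcRep Γ (g * γ) * ((dcGam Γ g * γ : Γ) : SL(2, ℤ)) := by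
      rw [hrep, Subgroup.coe_mul, ← mul_assoc, ← hm]
    rw [key (g * γ) m (dcGam Γ g * γ) h1, ofMul_mul, map_add]
  have hl : ∀ g, F₀ (T * g) = F₀ g := by
    intro g
    obtain ⟨m, hm⟩ := dcGam_spec Γ g
    have hrep : dcRep Γ (T * g) = dcRep Γ g := dcRep_eq Γ ⟨1, 1, by simp⟩
    have h1 : T * g = T ^ (1 + m) * dcRep Γ (T * g) * ((dcGam Γ g : Γ) : SL(2, ℤ)) := by
      rw [hrep, zpow_add, zpow_one, mul_assoc, mul_assoc, ← mul_assoc (T ^ m), ← hm]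
    exact key (T * g) (1 + m) (dcGam Γ g) h1
  refine ⟨fun g => F₀ g - F₀ 1, ⟨fun g γ => ?_, fun g => ?_⟩, sub_self _⟩
  · show F₀ (g * γ) - F₀ 1 = F₀ g - F₀ 1 + φ (Additive.ofMul γ)
    rw [hr]; abel
  · show F₀ (T * g) - F₀ 1 = F₀ g - F₀ 1
    rw [hl]

/-! ### properties of an arbitrary lift -/

section Lift

variable {φ ψ : Additive Γ →+ A} {F F' F₁ F₂ : SL(2, ℤ) → A}

theorem T_zpow_left (hF : PD.IsLift Γ φ F) (n : ℤ) (g : SL(2, ℤ)) : F (T ^ n * g) = F g := by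
  induction n using Int.induction_on with
  | zero => simp
  | succ k ih =>
    rw [zpow_add, zpow_one, mul_assoc, ← ih]
    have : T ^ (k : ℤ) * (T * g) = T * (T ^ (k : ℤ) * g) := by group
    rw [this, hF.T_left]
  | pred k ih =>
    rw [zpow_sub, zpow_one, mul_assoc, ← ih]
    have : T ^ (-(k : ℤ)) * (T⁻¹ * g) = T⁻¹ * (T ^ (-(k : ℤ)) * g) := by group
    rw [this, hF.T_inv_left]

/-! ### change of lift -/

theorem sub_mul_right (hF₁ : PD.IsLift Γ φ F₁) (hF₂ : PD.IsLift Γ φ F₂) (g : SL(2, ℤ)) (γ : Γ) :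
    F₁ (g * γ) - F₂ (g * γ) = F₁ g - F₂ g := by
  rw [hF₁.mul_right, hF₂.mul_right]; abel

theorem sub_T_left (hF₁ : PD.IsLift Γ φ F₁) (hF₂ : PD.IsLift Γ φ F₂) (g : SL(2, ℤ)) :
    F₁ (T * g) - F₂ (T * g) = F₁ g - F₂ g := by
  rw [hF₁.T_left, hF₂.T_left]

variable (Γ) in
/-- The difference of two functions on `SL(2, ℤ)` as a function on `X` (meaningful for two
lifts of the same homomorphism). -/
def diff (F₁ F₂ : SL(2, ℤ) → A) (x : SL(2, ℤ) ⧸ Γ) : A := F₁ x.out - F₂ x.out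

theorem diff_mk (hF₁ : PD.IsLift Γ φ F₁) (hF₂ : PD.IsLift Γ φ F₂) (g : SL(2, ℤ)) :
    diff Γ F₁ F₂ (g : SL(2, ℤ) ⧸ Γ) = F₁ g - F₂ g := by
  obtain ⟨γ, hγ⟩ := QuotientGroup.mk_out_eq_mul Γ g
  unfold diff
  rw [hγ]
  exact sub_mul_right hF₁ hF₂ g γ

theorem diff_T (hF₁ : PD.IsLift Γ φ F₁) (hF₂ : PD.IsLift Γ φ F₂) (x : SL(2, ℤ) ⧸ Γ) :
    diff Γ F₁ F₂ (T • x) = diff Γ F₁ F₂ x := by
  induction x using QuotientGroup.induction_on with
  | H g =>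
    rw [MulAction.Quotient.smul_mk, smul_eq_mul, diff_mk hF₁ hF₂, diff_mk hF₁ hF₂]
    exact sub_T_left hF₁ hF₂ g

theorem sym_sub_diff (hF₁ : PD.IsLift Γ φ F₁) (hF₂ : PD.IsLift Γ φ F₂) (x : SL(2, ℤ) ⧸ Γ) :
    PD.sym Γ F₁ x - PD.sym Γ F₂ x = diff Γ F₁ F₂ (PD.sX Γ x) - diff Γ F₁ F₂ x := by
  induction x using QuotientGroup.induction_on with
  | H g =>
    rw [PD.sX_mk, diff_mk hF₁ hF₂, diff_mk hF₁ hF₂, PD.sym_mk hF₁, PD.sym_mk hF₂]
    abel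

/-- Two lifts of the same `φ`: the symbols differ by the boundary of a `T`-invariant function
(`T • x` form; no hypothesis on `-1`). -/
theorem sym_sub_eq' (hF₁ : PD.IsLift Γ φ F₁) (hF₂ : PD.IsLift Γ φ F₂) :
    ∃ w : SL(2, ℤ) ⧸ Γ → A, (∀ x, w (T • x) = w x) ∧
      ∀ x, PD.sym Γ F₁ x - PD.sym Γ F₂ x = w (PD.sX Γ x) - w x :=
  ⟨diff Γ F₁ F₂, diff_T hF₁ hF₂, sym_sub_diff hF₁ hF₂⟩

/-- Two lifts of the same `φ`: the symbols differ by the boundary of a `t`-invariant function,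
`t = uX ∘ sX` (the shape consumed by `PDSym.B3_boundary_right/left`, `PDSym.isSym_boundary`). -/
theorem sym_sub_eq (hneg : (-1 : SL(2, ℤ)) ∈ Γ) (hF₁ : PD.IsLift Γ φ F₁)
    (hF₂ : PD.IsLift Γ φ F₂) :
    ∃ w : SL(2, ℤ) ⧸ Γ → A, (∀ x, w (PD.uX Γ (PD.sX Γ x)) = w x) ∧
      ∀ x, PD.sym Γ F₁ x - PD.sym Γ F₂ x = w (PD.sX Γ x) - w x :=
  ⟨diff Γ F₁ F₂, fun x => by rw [PD.uX_sX hneg]; exact diff_T hF₁ hF₂ x, sym_sub_diff hF₁ hF₂⟩

/-! ### algebra of lifts -/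

theorem isLift_add (hF : PD.IsLift Γ φ F) (hF' : PD.IsLift Γ ψ F') :
    PD.IsLift Γ (φ + ψ) (F + F') :=
  ⟨fun g γ => by
      simp only [Pi.add_apply, AddMonoidHom.add_apply, hF.mul_right, hF'.mul_right]; abel,
   fun g => by simp only [Pi.add_apply, hF.T_left, hF'.T_left]⟩

theorem isLift_zsmul (n : ℤ) (hF : PD.IsLift Γ φ F) : PD.IsLift Γ (n • φ) (n • F) :=
  ⟨fun g γ => by
      simp only [Pi.smul_apply, AddMonoidHom.smul_apply, hF.mul_right, smul_add],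
   fun g => by simp only [Pi.smul_apply, hF.T_left]⟩

theorem isLift_neg (hF : PD.IsLift Γ φ F) : PD.IsLift Γ (-φ) (-F) :=
  ⟨fun g γ => by
      simp only [Pi.neg_apply, AddMonoidHom.neg_apply, hF.mul_right, neg_add],
   fun g => by simp only [Pi.neg_apply, hF.T_left]⟩

theorem isLift_sub (hF : PD.IsLift Γ φ F) (hF' : PD.IsLift Γ ψ F') :
    PD.IsLift Γ (φ - ψ) (F - F') :=
  ⟨fun g γ => by
      simp only [Pi.sub_apply, AddMonoidHom.sub_apply, hF.mul_right, hF'.mul_right]; abel,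
   fun g => by simp only [Pi.sub_apply, hF.T_left, hF'.T_left]⟩

variable (Γ A) in
theorem isLift_zero : PD.IsLift Γ (0 : Additive Γ →+ A) (fun _ => (0 : A)) :=
  ⟨fun _ _ => by simp, fun _ => rfl⟩

/-- Restriction: a lift of `φ` is a lift of `φ ∘ j` for any `j : Γ₂ →* Γ` compatible with the
inclusions into `SL(2, ℤ)`. -/
theorem isLift_comp {Γ₂ : Subgroup SL(2, ℤ)} (j : Γ₂ →* Γ)
    (hj : ∀ γ : Γ₂, ((j γ : Γ) : SL(2, ℤ)) = γ) (hF : PD.IsLift Γ φ F) :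
    PD.IsLift Γ₂ (φ.comp (MonoidHom.toAdditive j)) F :=
  ⟨fun g γ => by
      have h := hF.mul_right g (j γ)
      rw [hj] at h
      exact h,
   hF.T_left⟩

/-! ### algebra of symbols (any functions) -/

variable (Γ) in
theorem sym_add (F F' : SL(2, ℤ) → A) : PD.sym Γ (F + F') = PD.sym Γ F + PD.sym Γ F' := by
  funext x
  simp only [PD.sym, Pi.add_apply]; abel

variable (Γ) in
theorem sym_zsmul (n : ℤ) (F : SL(2, ℤ) → A) : PD.sym Γ (n • F) = n • PD.sym Γ F := by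
  funext x
  simp only [PD.sym, Pi.smul_apply, smul_sub]

variable (Γ) in
theorem sym_neg (F : SL(2, ℤ) → A) : PD.sym Γ (-F) = - PD.sym Γ F := by
  funext x
  simp only [PD.sym, Pi.neg_apply]; abel

variable (Γ) in
theorem sym_sub (F F' : SL(2, ℤ) → A) : PD.sym Γ (F - F') = PD.sym Γ F - PD.sym Γ F' := by
  funext x
  simp only [PD.sym, Pi.sub_apply]; abel

variable (Γ A) in
theorem sym_zero : PD.sym Γ (fun _ : SL(2, ℤ) => (0 : A)) = 0 := by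
  funext x
  simp only [PD.sym, Pi.zero_apply, sub_self]

/-- Restriction of symbols: the symbol of `F` for `Γ₂` is the pull-back of its symbol for `Γ`
along `SL(2, ℤ) ⧸ Γ₂ → SL(2, ℤ) ⧸ Γ`. -/
theorem sym_comp {Γ₂ : Subgroup SL(2, ℤ)} (j : Γ₂ →* Γ)
    (hj : ∀ γ : Γ₂, ((j γ : Γ) : SL(2, ℤ)) = γ) (hF : PD.IsLift Γ φ F) (g : SL(2, ℤ)) :
    PD.sym Γ₂ F (g : SL(2, ℤ) ⧸ Γ₂) = PD.sym Γ F (g : SL(2, ℤ) ⧸ Γ) := by
  rw [PD.sym_mk (isLift_comp j hj hF), PD.sym_mk hF]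

end Lift

/-! ### the pairing of the symbols does not depend on the lifts -/

section Pairing

variable [Fintype (SL(2, ℤ) ⧸ Γ)] {φ ψ : Additive Γ →+ ℤ} {F₁ F₂ F' F₁' F₂' : SL(2, ℤ) → ℤ}

theorem B3_sym_congr_left (hneg : (-1 : SL(2, ℤ)) ∈ Γ) (hψ : IsParabolicHom Γ ψ)
    (hF₁ : PD.IsLift Γ φ F₁) (hF₂ : PD.IsLift Γ φ F₂) (hF' : PD.IsLift Γ ψ F') :
    PDSym.B3 (PD.uX Γ) (PD.sym Γ F₁) (PD.sym Γ F') = PDSym.B3 (PD.uX Γ) (PD.sym Γ F₂) (PD.sym Γ F') := by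
  obtain ⟨w, hw, hsub⟩ := sym_sub_eq hneg hF₁ hF₂
  have h0 := PDSym.B3_boundary_left (PD.sX_sX hneg) (PD.uX_uX_uX hneg)
    (PD.isSym_sym hneg hψ hF') w hw
  have e : PD.sym Γ F₁ - PD.sym Γ F₂ = fun x => w (PD.sX Γ x) - w x := by
    funext x; exact hsub x
  have h1 := PDSym.B3_sub_left (PD.uX Γ) (PD.sym Γ F₁) (PD.sym Γ F₂) (PD.sym Γ F')
  rw [e, h0] at h1
  linarith

theorem B3_sym_congr_right (hneg : (-1 : SL(2, ℤ)) ∈ Γ) (hφ : IsParabolicHom Γ φ)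
    (hF : PD.IsLift Γ φ F') (hF₁ : PD.IsLift Γ ψ F₁) (hF₂ : PD.IsLift Γ ψ F₂) :
    PDSym.B3 (PD.uX Γ) (PD.sym Γ F') (PD.sym Γ F₁) = PDSym.B3 (PD.uX Γ) (PD.sym Γ F') (PD.sym Γ F₂) := by
  rw [PDSym.B3_skew, B3_sym_congr_left hneg hφ hF₁ hF₂ hF, ← PDSym.B3_skew]

/-- The pairing of the symbols of lifts depends only on the homomorphisms. -/
theorem B3_sym_congr (hneg : (-1 : SL(2, ℤ)) ∈ Γ) (hφ : IsParabolicHom Γ φ)
    (hψ : IsParabolicHom Γ ψ) (hF₁ : PD.IsLift Γ φ F₁) (hF₂ : PD.IsLift Γ φ F₂)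
    (hF₁' : PD.IsLift Γ ψ F₁') (hF₂' : PD.IsLift Γ ψ F₂') :
    PDSym.B3 (PD.uX Γ) (PD.sym Γ F₁) (PD.sym Γ F₁')
      = PDSym.B3 (PD.uX Γ) (PD.sym Γ F₂) (PD.sym Γ F₂') := by
  rw [B3_sym_congr_left hneg hψ hF₁ hF₂ hF₁', B3_sym_congr_right hneg hφ hF₂ hF₁' hF₂']

end Pairing

end Fermat.Agent.S41.PDLift
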