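import Mathlib
import Fermat.Prelude.Def_ModularCurve_PeriodMap
import Fermat.Agent.S41.PDDefs

/-!
# S41 / [PD] leaf (0), B-copy : lifts of parabolic homomorphisms

`Γ ≤ SL(2, ℤ)` any subgroup, `φ : Γ → A` a parabolic homomorphism.  A *lift* of `φ`
(`PD.IsLift Γ φ F`) is a function `F : SL(2, ℤ) → A` with `F (g * γ) = F g + φ γ` and
`F (T * g) = F g`.

* `exists_lift` : lifts exist (orbit representatives of `⟨T⟩ × Γ` acting on `SL(2, ℤ)`; the
  stabilisers are conjugates of powers of `T`, which `φ` kills);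
* `T_zpow_left`, `apply_coe` : elementary properties;
* `isLift_add`, `isLift_zsmul`, `isLift_neg`, `isLift_sub`, `isLift_zero`, `isLift_comp` :
  the algebra of lifts and restriction to a subgroup;
* `sym_add`, `sym_zsmul`, … : the symbol is additive in the function;
* `sym_sub_eq` : the symbols of two lifts of the same homomorphism differ by the boundary of a
  `T`-invariant function;
* `sym_comp` : the symbol of a restricted lift is the pull-back.
-/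

set_option autoImplicit false

open scoped MatrixGroups
open ModularGroup ModularCurve.Period

namespace Fermat.Agent.S41.PDLiftB

open Fermat.Agent.S41

variable (Γ : Subgroup SL(2, ℤ))

/-! ### existence of lifts -/

/-- The orbit relation of `⟨T⟩ × Γ` on `SL(2, ℤ)`: `g' = T ^ n * g * γ`. -/
def orbRel : Setoid SL(2, ℤ) where
  r g g' := ∃ (n : ℤ) (γ : Γ), g' = T ^ n * g * γ
  iseqv :=
    ⟨fun g => ⟨0, 1, by simp⟩,
     fun {g g'} ⟨n, γ, h⟩ => ⟨-n, γ⁻¹, by rw [h]; simp [mul_assoc]⟩,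
     fun {g g' g''} ⟨n, γ, h⟩ ⟨m, γ', h'⟩ =>
      ⟨m + n, γ * γ', by rw [h', h, zpow_add]; simp [mul_assoc]⟩⟩

theorem trace_conj_T_zpow (r : SL(2, ℤ)) (k : ℤ) :
    ((r⁻¹ * T ^ k * r : SL(2, ℤ)) : Matrix (Fin 2) (Fin 2) ℤ).trace = 2 := by
  rw [Matrix.SpecialLinearGroup.coe_mul, Matrix.SpecialLinearGroup.coe_mul,
    Matrix.trace_mul_cycle, ← Matrix.SpecialLinearGroup.coe_mul, mul_inv_cancel,
    Matrix.SpecialLinearGroup.coe_one, Matrix.one_mul, ModularGroup.coe_T_zpow,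
    Matrix.trace_fin_two_of]
  norm_num

variable {Γ}

/-- A parabolic homomorphism takes the same value on the two `Γ`-components of two
decompositions `T ^ n * r * γ = T ^ m * r * γ'`. -/
theorem phi_eq_of_eq {A : Type*} [AddCommGroup A] {φ : Additive Γ →+ A}
    (hφ : IsParabolicHom Γ φ) {r : SL(2, ℤ)} {n m : ℤ} {γ γ' : Γ}
    (h : T ^ n * r * (γ : SL(2, ℤ)) = T ^ m * r * (γ' : SL(2, ℤ))) :
    φ (Additive.ofMul γ) = φ (Additive.ofMul γ') := by
  have h1 : (γ : SL(2, ℤ)) = r⁻¹ * (T ^ n)⁻¹ * (T ^ n * r * (γ : SL(2, ℤ))) := by group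
  rw [h] at h1
  have key : ((γ * γ'⁻¹ : Γ) : SL(2, ℤ)) = r⁻¹ * T ^ (m - n) * r := by
    rw [Subgroup.coe_mul, Subgroup.coe_inv, h1, zpow_sub]
    group
  have h0 : φ (Additive.ofMul (γ * γ'⁻¹)) = 0 := by
    apply hφ
    rw [key, trace_conj_T_zpow]
    norm_num
  rw [ofMul_mul, ofMul_inv, map_add, map_neg] at h0
  exact sub_eq_zero.mp (by rw [sub_eq_add_neg]; exact h0)

variable (Γ)

/-- **Lifts exist** (integrally, for any coefficient group, no finiteness needed). -/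
theorem exists_lift {A : Type*} [AddCommGroup A] (φ : Additive Γ →+ A)
    (hφ : IsParabolicHom Γ φ) : ∃ F : SL(2, ℤ) → A, PD.IsLift Γ φ F ∧ F 1 = 0 := by
  classical
  let rep : SL(2, ℤ) → SL(2, ℤ) := fun g => (Quotient.mk (orbRel Γ) g).out
  have hrep : ∀ g, ∃ (n : ℤ) (γ : Γ), g = T ^ n * rep g * γ :=
    fun g => Quotient.mk_out (s := orbRel Γ) g
  have hrep_eq : ∀ g g', (∃ (n : ℤ) (γ : Γ), g' = T ^ n * g * γ) → rep g' = rep g := by
    intro g g' h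
    have e : Quotient.mk (orbRel Γ) g' = Quotient.mk (orbRel Γ) g :=
      Quotient.sound ((orbRel Γ).symm h)
    show (Quotient.mk (orbRel Γ) g').out = (Quotient.mk (orbRel Γ) g).out
    rw [e]
  choose nn gam hgam using hrep
  let F₀ : SL(2, ℤ) → A := fun g => φ (Additive.ofMul (gam g))
  have hF₀ : ∀ (g : SL(2, ℤ)) (n : ℤ) (γ : Γ),
      F₀ (T ^ n * g * γ) = F₀ g + φ (Additive.ofMul γ) := by
    intro g n γ
    have h1 : rep (T ^ n * g * γ) = rep g := hrep_eq g _ ⟨n, γ, rfl⟩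
    have h2 := hgam (T ^ n * g * γ)
    rw [h1] at h2
    have h3 := hgam g
    have h4 : T ^ (n + nn g) * rep g * ((gam g * γ : Γ) : SL(2, ℤ)) = T ^ n * g * γ := by
      conv_rhs => rw [h3]
      rw [zpow_add, Subgroup.coe_mul]
      simp only [mul_assoc]
    have h5 := phi_eq_of_eq hφ (h4.trans h2)
    show φ (Additive.ofMul (gam (T ^ n * g * γ))) = φ (Additive.ofMul (gam g)) + φ (Additive.ofMul γ)
    rw [← h5, ofMul_mul, map_add]
  refine ⟨fun g => F₀ g - F₀ 1, ⟨fun g γ => ?_, fun g => ?_⟩, sub_self _⟩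
  · have := hF₀ g 0 γ
    rw [zpow_zero, one_mul] at this
    show F₀ (g * γ) - F₀ 1 = F₀ g - F₀ 1 + φ (Additive.ofMul γ)
    rw [this]; abel
  · have := hF₀ g 1 1
    rw [zpow_one, Subgroup.coe_one, mul_one, ofMul_one, map_zero, add_zero] at this
    show F₀ (T * g) - F₀ 1 = F₀ g - F₀ 1
    rw [this]

variable {Γ}

section Basic

variable {A : Type*} [AddCommGroup A] {φ ψ : Additive Γ →+ A} {F F' F₁ F₂ : SL(2, ℤ) → A}

/-! ### elementary properties -/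

theorem T_zpow_left (hF : PD.IsLift Γ φ F) (n : ℤ) (g : SL(2, ℤ)) : F (T ^ n * g) = F g := by
  induction n using Int.induction_on with
  | zero => rw [zpow_zero, one_mul]
  | succ k ih =>
    rw [zpow_add, zpow_one, mul_assoc, ← ih]
    have h : T ^ (k : ℤ) * (T * g) = T * (T ^ (k : ℤ) * g) := by
      rw [← mul_assoc, ← mul_assoc]
      congr 1
      exact (Commute.zpow_left (Commute.refl T) k).eq
    rw [h, hF.T_left]
  | pred k ih =>
    rw [zpow_sub, zpow_one, mul_assoc, ← ih]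
    have h : T ^ (-(k : ℤ)) * (T⁻¹ * g) = T⁻¹ * (T ^ (-(k : ℤ)) * g) := by
      rw [← mul_assoc, ← mul_assoc]
      congr 1
      exact (Commute.zpow_left (Commute.inv_right (Commute.refl T)) (-(k : ℤ))).eq
    rw [h, hF.T_inv_left]

theorem T_pow_left (hF : PD.IsLift Γ φ F) (n : ℕ) (g : SL(2, ℤ)) : F (T ^ n * g) = F g := by
  have := T_zpow_left hF (n : ℤ) g
  rwa [zpow_natCast] at this

/-- On `Γ` itself a lift is `φ` up to the constant `F 1`. -/
theorem apply_coe (hF : PD.IsLift Γ φ F) (γ : Γ) :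
    F (γ : SL(2, ℤ)) = F 1 + φ (Additive.ofMul γ) := by
  have := hF.mul_right 1 γ
  rwa [one_mul] at this

theorem apply_coe_of_one (hF : PD.IsLift Γ φ F) (h1 : F 1 = 0) (γ : Γ) :
    F (γ : SL(2, ℤ)) = φ (Additive.ofMul γ) := by
  rw [apply_coe hF, h1, zero_add]

/-- The general equivariance `F (T ^ n * g * γ) = F g + φ γ`. -/
theorem apply_T_zpow_mul (hF : PD.IsLift Γ φ F) (n : ℤ) (g : SL(2, ℤ)) (γ : Γ) :
    F (T ^ n * g * γ) = F g + φ (Additive.ofMul γ) := by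
  rw [hF.mul_right, T_zpow_left hF]

/-! ### the algebra of lifts -/

theorem isLift_zero : PD.IsLift Γ (0 : Additive Γ →+ A) (fun _ => 0) :=
  ⟨fun _ _ => by simp, fun _ => rfl⟩

theorem isLift_const (a : A) : PD.IsLift Γ (0 : Additive Γ →+ A) (fun _ => a) :=
  ⟨fun _ _ => by simp, fun _ => rfl⟩

theorem isLift_add (hF : PD.IsLift Γ φ F) (hF' : PD.IsLift Γ ψ F') :
    PD.IsLift Γ (φ + ψ) (F + F') :=
  ⟨fun g γ => by
    simp only [Pi.add_apply, AddMonoidHom.add_apply, hF.mul_right, hF'.mul_right]; abel,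
   fun g => by simp only [Pi.add_apply, hF.T_left, hF'.T_left]⟩

theorem isLift_neg (hF : PD.IsLift Γ φ F) : PD.IsLift Γ (-φ) (-F) :=
  ⟨fun g γ => by
    simp only [Pi.neg_apply, AddMonoidHom.neg_apply, hF.mul_right]; abel,
   fun g => by simp only [Pi.neg_apply, hF.T_left]⟩

theorem isLift_sub (hF : PD.IsLift Γ φ F) (hF' : PD.IsLift Γ ψ F') :
    PD.IsLift Γ (φ - ψ) (F - F') :=
  ⟨fun g γ => by
    simp only [Pi.sub_apply, AddMonoidHom.sub_apply, hF.mul_right, hF'.mul_right]; abel,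
   fun g => by simp only [Pi.sub_apply, hF.T_left, hF'.T_left]⟩

theorem isLift_zsmul (hF : PD.IsLift Γ φ F) (n : ℤ) : PD.IsLift Γ (n • φ) (n • F) :=
  ⟨fun g γ => by
    simp only [Pi.smul_apply, AddMonoidHom.smul_apply, hF.mul_right, smul_add],
   fun g => by simp only [Pi.smul_apply, hF.T_left]⟩

theorem isLift_nsmul (hF : PD.IsLift Γ φ F) (n : ℕ) : PD.IsLift Γ (n • φ) (n • F) :=
  ⟨fun g γ => by
    simp only [Pi.smul_apply, AddMonoidHom.smul_apply, hF.mul_right, smul_add],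
   fun g => by simp only [Pi.smul_apply, hF.T_left]⟩

/-- Adding a constant to a lift. -/
theorem isLift_add_const (hF : PD.IsLift Γ φ F) (a : A) : PD.IsLift Γ φ (fun g => F g + a) :=
  ⟨fun g γ => by rw [hF.mul_right]; abel, fun g => by rw [hF.T_left]⟩

/-- Post-composition with a homomorphism of coefficient groups. -/
theorem isLift_map {B : Type*} [AddCommGroup B] (hF : PD.IsLift Γ φ F) (f : A →+ B) :
    PD.IsLift Γ (f.comp φ) (fun g => f (F g)) :=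
  ⟨fun g γ => by rw [hF.mul_right, map_add]; rfl, fun g => by rw [hF.T_left]⟩

/-- **Restriction**: a lift for `Γ₁` is a lift of the restricted homomorphism for any subgroup
`Γ₂` mapping to `Γ₁` compatibly with the inclusions into `SL(2, ℤ)`. -/
theorem isLift_comp {Γ₂ : Subgroup SL(2, ℤ)} (j : Γ₂ →* Γ)
    (hj : ∀ γ : Γ₂, ((j γ : Γ) : SL(2, ℤ)) = γ) (hF : PD.IsLift Γ φ F) :
    PD.IsLift Γ₂ (φ.comp (MonoidHom.toAdditive j)) F :=
  ⟨fun g γ => by
    have := hF.mul_right g (j γ)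
    rw [hj] at this
    exact this,
   hF.T_left⟩

theorem isLift_of_le {Γ₂ : Subgroup SL(2, ℤ)} (h : Γ₂ ≤ Γ) (hF : PD.IsLift Γ φ F) :
    PD.IsLift Γ₂ (φ.comp (MonoidHom.toAdditive (Subgroup.inclusion h))) F :=
  isLift_comp (Subgroup.inclusion h) (fun _ => rfl) hF

/-! ### two lifts of the same homomorphism -/

theorem sub_mul_right (hF₁ : PD.IsLift Γ φ F₁) (hF₂ : PD.IsLift Γ φ F₂) (g : SL(2, ℤ))
    (γ : Γ) : F₁ (g * γ) - F₂ (g * γ) = F₁ g - F₂ g := by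
  rw [hF₁.mul_right, hF₂.mul_right]; abel

theorem sub_T_left (hF₁ : PD.IsLift Γ φ F₁) (hF₂ : PD.IsLift Γ φ F₂) (g : SL(2, ℤ)) :
    F₁ (T * g) - F₂ (T * g) = F₁ g - F₂ g := by
  rw [hF₁.T_left, hF₂.T_left]

variable (Γ) in
/-- The descent of `F₁ - F₂` to the coset space. -/
noncomputable def diff (F₁ F₂ : SL(2, ℤ) → A) (x : SL(2, ℤ) ⧸ Γ) : A := F₁ x.out - F₂ x.out

theorem diff_mk (hF₁ : PD.IsLift Γ φ F₁) (hF₂ : PD.IsLift Γ φ F₂) (g : SL(2, ℤ)) :
    diff Γ F₁ F₂ (g : SL(2, ℤ) ⧸ Γ) = F₁ g - F₂ g := by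
  obtain ⟨γ, hγ⟩ := QuotientGroup.mk_out_eq_mul Γ g
  unfold diff
  rw [hγ, sub_mul_right hF₁ hF₂]

theorem diff_T_smul (hF₁ : PD.IsLift Γ φ F₁) (hF₂ : PD.IsLift Γ φ F₂) (x : SL(2, ℤ) ⧸ Γ) :
    diff Γ F₁ F₂ (T • x) = diff Γ F₁ F₂ x := by
  induction x using QuotientGroup.induction_on with
  | H g =>
    have e : T • (g : SL(2, ℤ) ⧸ Γ) = ((T * g : SL(2, ℤ)) : SL(2, ℤ) ⧸ Γ) := rfl
    rw [e, diff_mk hF₁ hF₂, diff_mk hF₁ hF₂, sub_T_left hF₁ hF₂]

theorem sym_sub_diff (hF₁ : PD.IsLift Γ φ F₁) (hF₂ : PD.IsLift Γ φ F₂) (x : SL(2, ℤ) ⧸ Γ) :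
    PD.sym Γ F₁ x - PD.sym Γ F₂ x = diff Γ F₁ F₂ (PD.sX Γ x) - diff Γ F₁ F₂ x := by
  induction x using QuotientGroup.induction_on with
  | H g =>
    rw [PD.sX_mk, PD.sym_mk hF₁, PD.sym_mk hF₂, diff_mk hF₁ hF₂, diff_mk hF₁ hF₂]
    abel

/-- **Change of lift** (`T • x` form, no hypothesis on `-1`). -/
theorem sym_sub_eq' (hF₁ : PD.IsLift Γ φ F₁) (hF₂ : PD.IsLift Γ φ F₂) :
    ∃ w : SL(2, ℤ) ⧸ Γ → A, (∀ x, w (T • x) = w x) ∧
      ∀ x, PD.sym Γ F₁ x - PD.sym Γ F₂ x = w (PD.sX Γ x) - w x :=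
  ⟨diff Γ F₁ F₂, diff_T_smul hF₁ hF₂, sym_sub_diff hF₁ hF₂⟩

/-- **Change of lift**: the symbols of two lifts of the same homomorphism differ by the boundary
`w ∘ s - w` of a function invariant under `t = u ∘ s` (the shape consumed by
`PDSym.B3_boundary_right`). -/
theorem sym_sub_eq (hneg : (-1 : SL(2, ℤ)) ∈ Γ) (hF₁ : PD.IsLift Γ φ F₁)
    (hF₂ : PD.IsLift Γ φ F₂) :
    ∃ w : SL(2, ℤ) ⧸ Γ → A, (∀ x, w (PD.uX Γ (PD.sX Γ x)) = w x) ∧
      ∀ x, PD.sym Γ F₁ x - PD.sym Γ F₂ x = w (PD.sX Γ x) - w x :=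
  ⟨diff Γ F₁ F₂, fun x => by rw [PD.uX_sX hneg, diff_T_smul hF₁ hF₂], sym_sub_diff hF₁ hF₂⟩

/-! ### the symbol is additive in the function -/

theorem sym_add (F F' : SL(2, ℤ) → A) : PD.sym Γ (F + F') = PD.sym Γ F + PD.sym Γ F' := by
  funext x
  simp only [PD.sym, Pi.add_apply]
  abel

theorem sym_neg (F : SL(2, ℤ) → A) : PD.sym Γ (-F) = - PD.sym Γ F := by
  funext x
  simp only [PD.sym, Pi.neg_apply]
  abel

theorem sym_sub (F F' : SL(2, ℤ) → A) : PD.sym Γ (F - F') = PD.sym Γ F - PD.sym Γ F' := by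
  funext x
  simp only [PD.sym, Pi.sub_apply]
  abel

theorem sym_zsmul (n : ℤ) (F : SL(2, ℤ) → A) : PD.sym Γ (n • F) = n • PD.sym Γ F := by
  funext x
  simp only [PD.sym, Pi.smul_apply, smul_sub]

theorem sym_nsmul (n : ℕ) (F : SL(2, ℤ) → A) : PD.sym Γ (n • F) = n • PD.sym Γ F := by
  funext x
  simp only [PD.sym, Pi.smul_apply, smul_sub]

theorem sym_zero : PD.sym Γ (fun _ => (0 : A)) = 0 := by
  funext x
  simp only [PD.sym, Pi.zero_apply, sub_self]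

theorem sym_const (a : A) : PD.sym Γ (fun _ => a) = 0 := by
  funext x
  simp only [PD.sym, Pi.zero_apply, sub_self]

theorem sym_add_const (F : SL(2, ℤ) → A) (a : A) : PD.sym Γ (fun g => F g + a) = PD.sym Γ F := by
  funext x
  simp only [PD.sym]
  abel

/-- The symbol of a lift is right `Γ`-invariant as a function on `SL(2, ℤ)`. -/
theorem xi_mul_right (hF : PD.IsLift Γ φ F) (g : SL(2, ℤ)) (γ : Γ) :
    F (S * (g * γ)) - F (g * γ) = F (S * g) - F g := by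
  rw [← mul_assoc, hF.mul_right, hF.mul_right]; abel

/-- **Restriction and symbols**: the symbol of a lift restricted to `Γ₂` is the pull-back of its
symbol along `SL(2, ℤ) ⧸ Γ₂ → SL(2, ℤ) ⧸ Γ`. -/
theorem sym_comp {Γ₂ : Subgroup SL(2, ℤ)} (j : Γ₂ →* Γ)
    (hj : ∀ γ : Γ₂, ((j γ : Γ) : SL(2, ℤ)) = γ) (hF : PD.IsLift Γ φ F) (g : SL(2, ℤ)) :
    PD.sym Γ₂ F (g : SL(2, ℤ) ⧸ Γ₂) = PD.sym Γ F (g : SL(2, ℤ) ⧸ Γ) := by
  rw [PD.sym_mk (isLift_comp j hj hF), PD.sym_mk hF]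

end Basic

/-- Existence of a lift together with the symbol conditions (integral coefficients). -/
theorem exists_lift_isSym (hneg : (-1 : SL(2, ℤ)) ∈ Γ) (φ : Additive Γ →+ ℤ)
    (hφ : IsParabolicHom Γ φ) :
    ∃ F : SL(2, ℤ) → ℤ, PD.IsLift Γ φ F ∧ F 1 = 0 ∧
      PDSym.IsSym (PD.sX Γ) (PD.uX Γ) (PD.sym Γ F) := by
  obtain ⟨F, hF, h1⟩ := exists_lift Γ φ hφ
  exact ⟨F, hF, h1, PD.isSym_sym hneg hφ hF⟩

end Fermat.Agent.S41.PDLiftB
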