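/-
S41, block [PD], leaf (3iii) (owner: helper57): nondegeneracy of the Poincare pairing
`pdZ = pd3 / 3` on `Hom_par(Γ, ℤ)` modulo an odd prime, for a general `Γ ≤ SL(2, ℤ)` with
`-1 ∈ Γ` and finitely many cosets.

* `exists_dual_index`, `dvd_of_dvd_neg_four_mul`, `eq_neg_four_mul` : abstract core
  (Mathlib + `PDSym` only);
* `CycleStatement Γ` : the statement of leaf (3i) (cycles with primitive, in the shape consumed
  by `PDSym.isSym_dual` / `PDSym.B3_dual`);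
* `exists_dual_class_of` : for every `γ ∈ Γ` there is a parabolic `ψ` with
  `pd3 Γ φ ψ = -12 * φ γ` for every parabolic `φ`  (from (0), (2c), (3i), (3ii));
* `dvd_of_forall_dvd_pdZ_of`, `exists_eq_smul_of_forall_dvd_pdZ_of`,
  `exists_eq_smul_of_forall_cast_pdZ_eq_zero_of` : if an odd prime `p` divides `pdZ x y` for all
  `y`, then `x ∈ p • Hom_par(Γ, ℤ)`.

The `_of` statements take the statement of leaf (3i) as the hypothesis `hcyc`; the final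
statements (`exists_dual_class`, `exists_pdZ_eq`, `dvd_of_forall_dvd_pdZ`,
`exists_eq_smul_of_forall_dvd_pdZ`, `exists_eq_smul_of_forall_cast_pdZ_eq_zero`) plug in
`PDCycleB.exists_cycle`.
-/
import Mathlib
import Fermat.Prelude.Def_ModularCurve_PeriodMap
import Fermat.Agent.S41.PDSym
import Fermat.Agent.S41.PDDefs
import Fermat.Agent.S41.PDPair
import Fermat.Agent.S41.PDSurjB
import Fermat.Agent.S41.PDCycleB
import Fermat.Agent.S41.LparFree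

set_option autoImplicit false

open ModularCurve.Period ModularGroup
open scoped MatrixGroups

namespace Fermat.Agent.S41.PDNondeg

open Fermat.Agent.S41.PDSym Fermat.Agent.S41.PD Fermat.Agent.S41.PDPair

section Abstract

variable {X : Type*} [Fintype X]

/-- **Abstract dual class.**  `Λ` indexes lifted classes, `sym a` is the symbol of `a`,
`val a` its value at a fixed group element. -/
theorem exists_dual_index {Λ : Type*} {s u : X → X} (hs : ∀ x, s (s x) = x)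
    (hu : ∀ x, u (u (u x)) = x) (sym : Λ → X → ℤ) (hsym : ∀ a, IsSym s u (sym a))
    (hsurj : ∀ η : X → ℤ, IsSym s u η → ∃ b, sym b = η)
    (val : Λ → ℤ) {ζ E : X → ℤ} (hζ : ∀ x, ζ (s x) = - ζ x)
    (hE : ∀ y, E (u (s y)) - E y = ζ (u (s y)) + ζ y)
    (hval : ∀ a, ∑ x, sym a x * ζ x = 2 * val a) :
    ∃ b, ∀ a, B3 u (sym a) (sym b) = -12 * val a := by
  obtain ⟨b, hb⟩ := hsurj (fun x => E x - E (s x)) (isSym_dual hs hu hζ hE)
  refine ⟨b, fun a => ?_⟩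
  rw [hb, B3_dual hs hu (hsym a) hζ hE, hval a]
  ring

/-- An odd prime dividing `-4 * n` divides `n`. -/
theorem dvd_of_dvd_neg_four_mul {p : ℕ} (hp : p.Prime) (hp2 : p ≠ 2) {n : ℤ}
    (h : (p : ℤ) ∣ -4 * n) : (p : ℤ) ∣ n := by
  have hp' : Prime (p : ℤ) := Nat.prime_iff_prime_int.mp hp
  rcases hp'.dvd_or_dvd h with h4 | hn
  · exfalso
    have h4' : (p : ℤ) ∣ 2 * 2 := by
      have : (-4 : ℤ) = -(2 * 2) := by norm_num
      rw [this, dvd_neg] at h4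
      exact h4
    have h2 : (p : ℤ) ∣ 2 := by
      rcases hp'.dvd_or_dvd h4' with h | h <;> exact h
    have h2' : p ∣ 2 := by exact_mod_cast h2
    exact hp2 ((Nat.prime_dvd_prime_iff_eq hp Nat.prime_two).mp h2')
  · exact hn

/-- If `3 * P = B` and `B = -12 * n`, then `P = -4 * n`. -/
theorem eq_neg_four_mul {P B n : ℤ} (h3 : 3 * P = B) (hB : B = -12 * n) : P = -4 * n := by
  have : 3 * P = 3 * (-4 * n) := by rw [h3, hB]; ring
  exact mul_left_cancel₀ (by norm_num : (3 : ℤ) ≠ 0) this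

end Abstract

variable (Γ : Subgroup SL(2, ℤ)) [Fintype (SL(2, ℤ) ⧸ Γ)]

/-- The statement of leaf (3i): every `γ ∈ Γ` has a cycle `ζ` with primitive `E` computing
`2 * φ γ` against the symbol of every lift. -/
def CycleStatement : Prop :=
  ∀ γ : Γ, ∃ ζ E : SL(2, ℤ) ⧸ Γ → ℤ,
    (∀ x, ζ (sX Γ x) = - ζ x) ∧
    (∀ y, E (uX Γ (sX Γ y)) - E y = ζ (uX Γ (sX Γ y)) + ζ y) ∧
    ∀ (φ : Additive Γ →+ ℤ) (F : SL(2, ℤ) → ℤ), IsLift Γ φ F →
      ∑ x, sym Γ F x * ζ x = 2 * φ (Additive.ofMul γ)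

variable {Γ}

/-- **The dual class of `γ`.**  There is a parabolic `ψ` (with a lift `F'`) such that
`B3 (sym F) (sym F') = -12 * φ γ` for every lift `F` of every parabolic `φ`. -/
theorem exists_dual_lift_of (hneg : (-1 : SL(2, ℤ)) ∈ Γ) (hcyc : CycleStatement Γ) (γ : Γ) :
    ∃ (ψ : Additive Γ →+ ℤ) (F' : SL(2, ℤ) → ℤ), IsParabolicHom Γ ψ ∧ IsLift Γ ψ F' ∧
      ∀ (φ : Additive Γ →+ ℤ) (F : SL(2, ℤ) → ℤ), IsParabolicHom Γ φ → IsLift Γ φ F →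
        B3 (uX Γ) (sym Γ F) (sym Γ F') = -12 * φ (Additive.ofMul γ) := by
  obtain ⟨ζ, E, hζ, hE, hval⟩ := hcyc γ
  have hs : ∀ x, sX Γ (sX Γ x) = x := sX_sX hneg
  have hu : ∀ x, uX Γ (uX Γ (uX Γ x)) = x := uX_uX_uX hneg
  obtain ⟨ψ, F', hψ, hF', hsym⟩ :=
    PDSurjB.exists_isLift_sym_eq Γ (fun x => E x - E (sX Γ x)) (isSym_dual hs hu hζ hE)
  refine ⟨ψ, F', hψ, hF', fun φ F hφ hF => ?_⟩
  rw [hsym, B3_dual hs hu (isSym_sym hneg hφ hF) hζ hE, hval φ F hF]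
  ring

/-- **The dual class of `γ`, `pd3` form**: `pd3 Γ φ ψ = -12 * φ γ` for every parabolic `φ`. -/
theorem exists_dual_class_of (hneg : (-1 : SL(2, ℤ)) ∈ Γ) (hcyc : CycleStatement Γ) (γ : Γ) :
    ∃ ψ : Additive Γ →+ ℤ, IsParabolicHom Γ ψ ∧
      ∀ φ : Additive Γ →+ ℤ, IsParabolicHom Γ φ → pd3 Γ φ ψ = -12 * φ (Additive.ofMul γ) := by
  obtain ⟨ψ, F', hψ, hF', h⟩ := exists_dual_lift_of hneg hcyc γ
  refine ⟨ψ, hψ, fun φ hφ => ?_⟩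
  obtain ⟨F, hF⟩ := exists_isLift Γ φ hφ
  rw [pd3_eq hneg hφ hψ hF hF']
  exact h φ F hφ hF

/-- The dual class, `pdZ` form: `pdZ x y = -4 * x γ`. -/
theorem exists_pdZ_eq_of (hneg : (-1 : SL(2, ℤ)) ∈ Γ) (hcyc : CycleStatement Γ) (γ : Γ) :
    ∃ y : parabolicHoms ℤ Γ ℤ, ∀ x : parabolicHoms ℤ Γ ℤ,
      pdZ Γ hneg x y = -4 * (x : Additive Γ →+ ℤ) (Additive.ofMul γ) := by
  obtain ⟨ψ, hψ, h⟩ := exists_dual_class_of hneg hcyc γ
  exact ⟨⟨ψ, hψ⟩, fun x => eq_neg_four_mul (three_mul_pdZ hneg x ⟨ψ, hψ⟩) (h x.1 x.2)⟩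

/-- **Nondegeneracy, value form.**  If the odd prime `p` divides `pdZ x y` for all `y`, then it
divides all values of `x`. -/
theorem dvd_of_forall_dvd_pdZ_of (hneg : (-1 : SL(2, ℤ)) ∈ Γ) (hcyc : CycleStatement Γ)
    {p : ℕ} (hp : p.Prime) (hp2 : p ≠ 2) (x : parabolicHoms ℤ Γ ℤ)
    (h : ∀ y : parabolicHoms ℤ Γ ℤ, (p : ℤ) ∣ pdZ Γ hneg x y) (γ : Γ) :
    (p : ℤ) ∣ (x : Additive Γ →+ ℤ) (Additive.ofMul γ) := by
  obtain ⟨y, hy⟩ := exists_pdZ_eq_of hneg hcyc γ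
  have h1 := h y
  rw [hy x] at h1
  exact dvd_of_dvd_neg_four_mul hp hp2 h1

/-- **Nondegeneracy.**  If the odd prime `p` divides `pdZ x y` for all `y`, then `x = p • z`. -/
theorem exists_eq_smul_of_forall_dvd_pdZ_of (hneg : (-1 : SL(2, ℤ)) ∈ Γ)
    (hcyc : CycleStatement Γ) {p : ℕ} (hp : p.Prime) (hp2 : p ≠ 2) (x : parabolicHoms ℤ Γ ℤ)
    (h : ∀ y : parabolicHoms ℤ Γ ℤ, (p : ℤ) ∣ pdZ Γ hneg x y) :
    ∃ z : parabolicHoms ℤ Γ ℤ, x = (p : ℤ) • z :=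
  LparFree.exists_eq_smul_of_dvd Γ (p : ℤ) x
    (fun γ => dvd_of_forall_dvd_pdZ_of hneg hcyc hp hp2 x h (Additive.toMul γ))

/-- **Nondegeneracy modulo `p`** (the shape of `pdPair_nondegenerate`): if the reduction of
`pdZ x y` modulo the odd prime `p` vanishes for all `y`, then `x = p • z`. -/
theorem exists_eq_smul_of_forall_cast_pdZ_eq_zero_of (hneg : (-1 : SL(2, ℤ)) ∈ Γ)
    (hcyc : CycleStatement Γ) {p : ℕ} (hp : p.Prime) (hp2 : p ≠ 2) (x : parabolicHoms ℤ Γ ℤ)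
    (h : ∀ y : parabolicHoms ℤ Γ ℤ, ((pdZ Γ hneg x y : ℤ) : ZMod p) = 0) :
    ∃ z : parabolicHoms ℤ Γ ℤ, x = (p : ℤ) • z :=
  exists_eq_smul_of_forall_dvd_pdZ_of hneg hcyc hp hp2 x
    (fun y => (ZMod.intCast_zmod_eq_zero_iff_dvd _ p).mp (h y))

/-! ### Final statements (leaf (3i) plugged in) -/

/-- Leaf (3i) (`PDCycleB.exists_cycle`) in the form of `CycleStatement`. -/
theorem cycleStatement (hneg : (-1 : SL(2, ℤ)) ∈ Γ) : CycleStatement Γ :=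
  fun γ => PDCycleB.exists_cycle Γ hneg γ

/-- **The dual class of `γ`** with a lift: `B3 (sym F) (sym F') = -12 * φ γ`. -/
theorem exists_dual_lift (hneg : (-1 : SL(2, ℤ)) ∈ Γ) (γ : Γ) :
    ∃ (ψ : Additive Γ →+ ℤ) (F' : SL(2, ℤ) → ℤ), IsParabolicHom Γ ψ ∧ IsLift Γ ψ F' ∧
      ∀ (φ : Additive Γ →+ ℤ) (F : SL(2, ℤ) → ℤ), IsParabolicHom Γ φ → IsLift Γ φ F →
        B3 (uX Γ) (sym Γ F) (sym Γ F') = -12 * φ (Additive.ofMul γ) :=
  exists_dual_lift_of hneg (cycleStatement hneg) γ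

/-- **(3iii), `pd3` form.**  For every `γ ∈ Γ` there is a parabolic `ψ` with
`pd3 Γ φ ψ = -12 * φ γ` for every parabolic `φ`. -/
theorem exists_dual_class (hneg : (-1 : SL(2, ℤ)) ∈ Γ) (γ : Γ) :
    ∃ ψ : Additive Γ →+ ℤ, IsParabolicHom Γ ψ ∧
      ∀ φ : Additive Γ →+ ℤ, IsParabolicHom Γ φ → pd3 Γ φ ψ = -12 * φ (Additive.ofMul γ) :=
  exists_dual_class_of hneg (cycleStatement hneg) γ

/-- **(3iii), `pdZ` form.**  For every `γ ∈ Γ` there is `y` with `pdZ x y = -4 * x γ`. -/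
theorem exists_pdZ_eq (hneg : (-1 : SL(2, ℤ)) ∈ Γ) (γ : Γ) :
    ∃ y : parabolicHoms ℤ Γ ℤ, ∀ x : parabolicHoms ℤ Γ ℤ,
      pdZ Γ hneg x y = -4 * (x : Additive Γ →+ ℤ) (Additive.ofMul γ) :=
  exists_pdZ_eq_of hneg (cycleStatement hneg) γ

/-- **Nondegeneracy, value form.** -/
theorem dvd_of_forall_dvd_pdZ (hneg : (-1 : SL(2, ℤ)) ∈ Γ)
    {p : ℕ} (hp : p.Prime) (hp2 : p ≠ 2) (x : parabolicHoms ℤ Γ ℤ)
    (h : ∀ y : parabolicHoms ℤ Γ ℤ, (p : ℤ) ∣ pdZ Γ hneg x y) (γ : Γ) :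
    (p : ℤ) ∣ (x : Additive Γ →+ ℤ) (Additive.ofMul γ) :=
  dvd_of_forall_dvd_pdZ_of hneg (cycleStatement hneg) hp hp2 x h γ

/-- **Nondegeneracy of `pdZ` modulo an odd prime.**  If `p` divides `pdZ x y` for all `y`, then
`x = p • z` in `Hom_par(Γ, ℤ)`. -/
theorem exists_eq_smul_of_forall_dvd_pdZ (hneg : (-1 : SL(2, ℤ)) ∈ Γ)
    {p : ℕ} (hp : p.Prime) (hp2 : p ≠ 2) (x : parabolicHoms ℤ Γ ℤ)
    (h : ∀ y : parabolicHoms ℤ Γ ℤ, (p : ℤ) ∣ pdZ Γ hneg x y) :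
    ∃ z : parabolicHoms ℤ Γ ℤ, x = (p : ℤ) • z :=
  exists_eq_smul_of_forall_dvd_pdZ_of hneg (cycleStatement hneg) hp hp2 x h

/-- **Nondegeneracy modulo `p`, `ZMod p` form** (the shape of `pdPair_nondegenerate`). -/
theorem exists_eq_smul_of_forall_cast_pdZ_eq_zero (hneg : (-1 : SL(2, ℤ)) ∈ Γ)
    {p : ℕ} (hp : p.Prime) (hp2 : p ≠ 2) (x : parabolicHoms ℤ Γ ℤ)
    (h : ∀ y : parabolicHoms ℤ Γ ℤ, ((pdZ Γ hneg x y : ℤ) : ZMod p) = 0) :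
    ∃ z : parabolicHoms ℤ Γ ℤ, x = (p : ℤ) • z :=
  exists_eq_smul_of_forall_cast_pdZ_eq_zero_of hneg (cycleStatement hneg) hp hp2 x h

end Fermat.Agent.S41.PDNondeg
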