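/-
S41, block [PD], leaf (3iii) NONDEGENERACY — B copy (owner: helper45; A = helper57, PDNondeg.lean).

Hypothesis-style and name-independent: the lift predicate, the symbol map and the `ℤ`-valued
pairing enter as parameters together with the statements of the leaves (0), (D), (2c), (3i).
The only input used from the landed library is `PDSym` (symbols, `B3`, the Poincare dual
identity `B3_dual`).
-/
import Mathlib
import Fermat.Prelude.Def_ModularCurve_PeriodMap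
import Fermat.Agent.S41.PDSym

set_option autoImplicit false

namespace Fermat.Agent.S41.PDNondegB

open ModularCurve.Period
open scoped MatrixGroups

variable (Γ : Subgroup SL(2, ℤ)) [Fintype (SL(2, ℤ) ⧸ Γ)]

/-- The dual class of `γ`: a parabolic `ψ` with `pdZ φ ψ = -4 * φ γ` for every parabolic `φ`. -/
theorem exists_dual_class (s u : SL(2, ℤ) ⧸ Γ → SL(2, ℤ) ⧸ Γ)
    (hs : ∀ x, s (s x) = x) (hu : ∀ x, u (u (u x)) = x)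
    (isLift : (Additive Γ →+ ℤ) → (SL(2, ℤ) → ℤ) → Prop)
    (sym : (SL(2, ℤ) → ℤ) → SL(2, ℤ) ⧸ Γ → ℤ)
    (pdZ : (Additive Γ →+ ℤ) → (Additive Γ →+ ℤ) → ℤ)
    (hsym : ∀ φ F, IsParabolicHom Γ φ → isLift φ F → PDSym.IsSym s u (sym F))
    (hex : ∀ φ, IsParabolicHom Γ φ → ∃ F, isLift φ F)
    (hpd : ∀ φ ψ F F', IsParabolicHom Γ φ → IsParabolicHom Γ ψ → isLift φ F → isLift ψ F' →
      3 * pdZ φ ψ = PDSym.B3 u (sym F) (sym F'))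
    (hsurj : ∀ η, PDSym.IsSym s u η → ∃ ψ F', IsParabolicHom Γ ψ ∧ isLift ψ F' ∧ sym F' = η)
    (hcyc : ∀ γ : Γ, ∃ ζ E : SL(2, ℤ) ⧸ Γ → ℤ, (∀ x, ζ (s x) = - ζ x) ∧
      (∀ y, E (u (s y)) - E y = ζ (u (s y)) + ζ y) ∧
      ∀ φ F, IsParabolicHom Γ φ → isLift φ F →
        ∑ x, sym F x * ζ x = 2 * φ (Additive.ofMul γ))
    (γ : Γ) :
    ∃ ψ, IsParabolicHom Γ ψ ∧
      ∀ φ, IsParabolicHom Γ φ → pdZ φ ψ = -4 * φ (Additive.ofMul γ) := by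
  obtain ⟨ζ, E, hζ, hE, hζφ⟩ := hcyc γ
  obtain ⟨ψ, F', hψ, hF', hη⟩ := hsurj _ (PDSym.isSym_dual hs hu hζ hE)
  refine ⟨ψ, hψ, fun φ hφ => ?_⟩
  obtain ⟨F, hF⟩ := hex φ hφ
  have h1 := hpd φ ψ F F' hφ hψ hF hF'
  rw [hη, PDSym.B3_dual hs hu (hsym φ F hφ hF) hζ hE, hζφ φ F hφ hF] at h1
  linarith

/-- **Nondegeneracy modulo an odd prime**: if `p ∣ pdZ φ ψ` for all parabolic `ψ`, then `p`
divides every value of `φ`. -/
theorem dvd_of_forall_dvd (s u : SL(2, ℤ) ⧸ Γ → SL(2, ℤ) ⧸ Γ)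
    (hs : ∀ x, s (s x) = x) (hu : ∀ x, u (u (u x)) = x)
    (isLift : (Additive Γ →+ ℤ) → (SL(2, ℤ) → ℤ) → Prop)
    (sym : (SL(2, ℤ) → ℤ) → SL(2, ℤ) ⧸ Γ → ℤ)
    (pdZ : (Additive Γ →+ ℤ) → (Additive Γ →+ ℤ) → ℤ)
    (hsym : ∀ φ F, IsParabolicHom Γ φ → isLift φ F → PDSym.IsSym s u (sym F))
    (hex : ∀ φ, IsParabolicHom Γ φ → ∃ F, isLift φ F)
    (hpd : ∀ φ ψ F F', IsParabolicHom Γ φ → IsParabolicHom Γ ψ → isLift φ F → isLift ψ F' →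
      3 * pdZ φ ψ = PDSym.B3 u (sym F) (sym F'))
    (hsurj : ∀ η, PDSym.IsSym s u η → ∃ ψ F', IsParabolicHom Γ ψ ∧ isLift ψ F' ∧ sym F' = η)
    (hcyc : ∀ γ : Γ, ∃ ζ E : SL(2, ℤ) ⧸ Γ → ℤ, (∀ x, ζ (s x) = - ζ x) ∧
      (∀ y, E (u (s y)) - E y = ζ (u (s y)) + ζ y) ∧
      ∀ φ F, IsParabolicHom Γ φ → isLift φ F →
        ∑ x, sym F x * ζ x = 2 * φ (Additive.ofMul γ))
    {p : ℕ} (hp : p.Prime) (hp2 : p ≠ 2) (φ : Additive Γ →+ ℤ) (hφ : IsParabolicHom Γ φ)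
    (h : ∀ ψ, IsParabolicHom Γ ψ → (p : ℤ) ∣ pdZ φ ψ) :
    ∀ γ : Γ, (p : ℤ) ∣ φ (Additive.ofMul γ) := by
  intro γ
  obtain ⟨ψ, hψ, hψφ⟩ :=
    exists_dual_class Γ s u hs hu isLift sym pdZ hsym hex hpd hsurj hcyc γ
  have h1 : (p : ℤ) ∣ -4 * φ (Additive.ofMul γ) := by
    rw [← hψφ φ hφ]; exact h ψ hψ
  have hpZ : Prime (p : ℤ) := Nat.prime_iff_prime_int.mp hp
  rcases hpZ.dvd_or_dvd h1 with h2 | h2
  · exfalso
    have h3 : (p : ℤ) ∣ 4 := (dvd_neg).mp h2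
    have h4 : p ∣ 4 := by exact_mod_cast h3
    have h5 : p ∣ 2 ^ 2 := by simpa using h4
    have h6 : p ∣ 2 := hp.dvd_of_dvd_pow h5
    exact hp2 ((Nat.prime_dvd_prime_iff_eq hp Nat.prime_two).mp h6)
  · exact h2

end Fermat.Agent.S41.PDNondegB
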