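/-
S41 / [PD] leaf (2) (owner: helper94): the POTENTIAL LEMMA (helper68's design #1385).

`ξ : SL(2, ℤ) → A` with `ξ (S g) = - ξ g` and `ξ g + ξ (T S g) + ξ ((T S)² g) = 0` (the two loop
conditions `S² = -1`, `(T S)³ = -1`) is the `S`-coboundary of a left-`T`-invariant function:
`∃ F, F (T g) = F g ∧ F (S g) = F g + ξ g`.

Proof: `F = pot ξ` is defined by Euclidean recursion on the bottom-left entry
(`pot ξ g = 0` if `c = 0`; otherwise reduce `±g` by a power of `T` to `0 ≤ a < |c|` and put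
`pot ξ g = pot ξ (S * red g) - ξ (red g)`).  It is `T`-invariant and even by construction, the
edge relation holds on the "tree edges" (`0 ≤ a < c`) by definition, and for `a ≥ c > 0` it
follows from the triangle `{g, T S g, (T S)² g}` by induction on `a + c`; the general case is
reduced to `a ≥ 0, c > 0` by the rotations `g ↦ S g`, `g ↦ -g`.
-/
import Mathlib

set_option autoImplicit false

namespace Fermat.Agent.S41.PDPot

open Matrix ModularGroup
open scoped MatrixGroups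

section Entries

theorem S_mul_apply_zero (g : SL(2, ℤ)) (j : Fin 2) : (S * g) 0 j = - g 1 j := by
  simp [Matrix.SpecialLinearGroup.coe_mul, Matrix.mul_apply, Fin.sum_univ_two]

theorem S_mul_apply_one (g : SL(2, ℤ)) (j : Fin 2) : (S * g) 1 j = g 0 j := by
  simp [Matrix.SpecialLinearGroup.coe_mul, Matrix.mul_apply, Fin.sum_univ_two]

theorem T_zpow_mul_apply_zero (n : ℤ) (g : SL(2, ℤ)) (j : Fin 2) :
    (T ^ n * g) 0 j = g 0 j + n * g 1 j := by
  simp [Matrix.SpecialLinearGroup.coe_mul, coe_T_zpow, Matrix.mul_apply, Fin.sum_univ_two]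

theorem T_zpow_mul_apply_one (n : ℤ) (g : SL(2, ℤ)) (j : Fin 2) :
    (T ^ n * g) 1 j = g 1 j := by
  simp

theorem neg_apply' (g : SL(2, ℤ)) (i j : Fin 2) : (-g) i j = - g i j := by
  simp

theorem S_mul_S : S * S = -1 := by decide

theorem S_mul_S_mul (g : SL(2, ℤ)) : S * (S * g) = -g := by
  rw [← mul_assoc, S_mul_S, neg_mul, one_mul]

theorem S_T_S : S * (T * S) = T⁻¹ * (S * T⁻¹) := by decide

theorem TS_sq : (T * S) ^ 2 = S * T⁻¹ := by decide

end Entries

/-- Normalisation of the sign: bottom-left entry positive (when nonzero). -/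
def nrm (g : SL(2, ℤ)) : SL(2, ℤ) := if 0 < g 1 0 then g else -g

theorem nrm_apply_one_zero (g : SL(2, ℤ)) : (nrm g) 1 0 = |g 1 0| := by
  unfold nrm
  split_ifs with h
  · exact (abs_of_pos h).symm
  · rw [neg_apply', abs_of_nonpos (not_lt.mp h)]

/-- The Euclidean reduction of `g`: top-left entry in `[0, |c|)`. -/
def red (g : SL(2, ℤ)) : SL(2, ℤ) := T ^ (-((nrm g) 0 0 / (nrm g) 1 0)) * nrm g

theorem red_apply_one_zero (g : SL(2, ℤ)) : (red g) 1 0 = |g 1 0| := by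
  unfold red
  rw [T_zpow_mul_apply_one, nrm_apply_one_zero]

theorem red_apply_zero_zero (g : SL(2, ℤ)) : (red g) 0 0 = (nrm g) 0 0 % |g 1 0| := by
  unfold red
  rw [T_zpow_mul_apply_zero, nrm_apply_one_zero, Int.emod_def]
  ring

variable {A : Type*} [AddCommGroup A]

/-- The potential, by Euclidean recursion on the bottom-left entry. -/
noncomputable def pot (ξ : SL(2, ℤ) → A) (g : SL(2, ℤ)) : A :=
  if g 1 0 = 0 then 0 else pot ξ (S * red g) - ξ (red g)
termination_by (g 1 0).natAbs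
decreasing_by
  rw [S_mul_apply_one, red_apply_zero_zero]
  rename_i h
  have hpos : 0 < |g 1 0| := abs_pos.mpr h
  have h1 : 0 ≤ (nrm g) 0 0 % |g 1 0| := Int.emod_nonneg _ hpos.ne'
  have h2 : (nrm g) 0 0 % |g 1 0| < |g 1 0| := Int.emod_lt_of_pos _ hpos
  have h3 := Int.natAbs_lt_natAbs_of_nonneg_of_lt h1 h2
  rwa [Int.natAbs_abs] at h3

theorem pot_of_eq_zero (ξ : SL(2, ℤ) → A) {g : SL(2, ℤ)} (h : g 1 0 = 0) : pot ξ g = 0 := by
  rw [pot, if_pos h]

theorem pot_of_ne_zero (ξ : SL(2, ℤ) → A) {g : SL(2, ℤ)} (h : g 1 0 ≠ 0) :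
    pot ξ g = pot ξ (S * red g) - ξ (red g) := by
  rw [pot, if_neg h]


theorem nrm_neg {g : SL(2, ℤ)} (h : g 1 0 ≠ 0) : nrm (-g) = nrm g := by
  unfold nrm
  rw [neg_apply']
  rcases lt_or_gt_of_ne h with h1 | h1
  · rw [if_pos (by omega), if_neg (by omega)]
  · rw [if_neg (by omega), if_pos h1, neg_neg]

theorem red_neg {g : SL(2, ℤ)} (h : g 1 0 ≠ 0) : red (-g) = red g := by
  unfold red
  rw [nrm_neg h]

theorem pot_neg (ξ : SL(2, ℤ) → A) (g : SL(2, ℤ)) : pot ξ (-g) = pot ξ g := by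
  by_cases h : g 1 0 = 0
  · rw [pot_of_eq_zero ξ h, pot_of_eq_zero ξ (by rw [neg_apply', h, neg_zero])]
  · rw [pot_of_ne_zero ξ h, pot_of_ne_zero ξ (by rw [neg_apply']; exact neg_ne_zero.mpr h),
      red_neg h]

theorem nrm_T_mul (g : SL(2, ℤ)) : nrm (T * g) = T * nrm g := by
  unfold nrm
  have h : (T * g) 1 0 = g 1 0 := by simp
  rw [h]
  split_ifs
  · rfl
  · rw [mul_neg]

theorem red_T_mul {g : SL(2, ℤ)} (h : g 1 0 ≠ 0) : red (T * g) = red g := by
  unfold red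
  rw [nrm_T_mul]
  have h10 : (T * nrm g) 1 0 = (nrm g) 1 0 := by simp
  have h00 : (T * nrm g) 0 0 = (nrm g) 0 0 + (nrm g) 1 0 := by
    simpa using T_zpow_mul_apply_zero 1 (nrm g) 0
  have hc : (nrm g) 1 0 ≠ 0 := by
    rw [nrm_apply_one_zero]; exact abs_ne_zero.mpr h
  rw [h10, h00, Int.add_ediv_of_dvd_right (dvd_refl _), Int.ediv_self hc, ← mul_assoc]
  congr 1
  rw [neg_add, _root_.zpow_add, _root_.zpow_neg_one, inv_mul_cancel_right]

theorem pot_T_mul (ξ : SL(2, ℤ) → A) (g : SL(2, ℤ)) : pot ξ (T * g) = pot ξ g := by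
  have h10 : (T * g) 1 0 = g 1 0 := by simp
  by_cases h : g 1 0 = 0
  · rw [pot_of_eq_zero ξ h, pot_of_eq_zero ξ (by rw [h10, h])]
  · rw [pot_of_ne_zero ξ h, pot_of_ne_zero ξ (by rw [h10]; exact h), red_T_mul h]

theorem pot_T_inv_mul (ξ : SL(2, ℤ) → A) (g : SL(2, ℤ)) : pot ξ (T⁻¹ * g) = pot ξ g := by
  have := pot_T_mul ξ (T⁻¹ * g)
  rw [mul_inv_cancel_left] at this
  exact this.symm

/-- Tree edges: the defining relation. -/
theorem pot_tree (ξ : SL(2, ℤ) → A) {g : SL(2, ℤ)} (h0 : 0 ≤ g 0 0) (h1 : g 0 0 < g 1 0) :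
    pot ξ (S * g) = pot ξ g + ξ g := by
  have hc : g 1 0 ≠ 0 := by omega
  have hn : nrm g = g := by unfold nrm; rw [if_pos (by omega)]
  have hr : red g = g := by
    unfold red
    rw [hn, Int.ediv_eq_zero_of_lt h0 h1, neg_zero, zpow_zero, one_mul]
  rw [pot_of_ne_zero ξ hc, hr, sub_add_cancel]


section Main

variable (ξ : SL(2, ℤ) → A) (hS : ∀ g, ξ (S * g) = - ξ g)
  (hU : ∀ g, ξ g + ξ (T * S * g) + ξ ((T * S) ^ 2 * g) = 0)

include hS in
theorem xi_neg (g : SL(2, ℤ)) : ξ (-g) = ξ g := by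
  rw [← S_mul_S_mul, hS, hS, neg_neg]

include hS hU in
/-- The edge relation for `g` with first column `(a, c)`, `a ≥ 0`, `c > 0`. -/
theorem pot_S_mul_of_nonneg (n : ℕ) : ∀ g : SL(2, ℤ), 0 ≤ g 0 0 → 0 < g 1 0 →
    g 0 0 + g 1 0 ≤ n → pot ξ (S * g) = pot ξ g + ξ g := by
  induction n with
  | zero => intro g h0 h1 h2; omega
  | succ n ih =>
    intro g h0 h1 h2
    by_cases hlt : g 0 0 < g 1 0
    · exact pot_tree ξ h0 hlt
    · -- `g₁ = T⁻¹ g`, `g₂ = T S g`
      have e1 : (T⁻¹ * g) 0 0 = g 0 0 - g 1 0 := by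
        have := T_zpow_mul_apply_zero (-1) g 0
        rw [_root_.zpow_neg_one] at this
        rw [this]; ring
      have e2 : (T⁻¹ * g) 1 0 = g 1 0 := by simp
      have e3 : (T * S * g) 0 0 = g 0 0 - g 1 0 := by
        have := T_zpow_mul_apply_zero 1 (S * g) 0
        rw [zpow_one, S_mul_apply_zero, S_mul_apply_one] at this
        rw [mul_assoc, this]; ring
      have e4 : (T * S * g) 1 0 = g 0 0 := by
        rw [mul_assoc]
        have : (T * (S * g)) 1 0 = (S * g) 1 0 := by simp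
        rw [this, S_mul_apply_one]
      have ih1 : pot ξ (S * (T⁻¹ * g)) = pot ξ (T⁻¹ * g) + ξ (T⁻¹ * g) :=
        ih (T⁻¹ * g) (by rw [e1]; omega) (by rw [e2]; exact h1) (by rw [e1, e2]; omega)
      have tree2 : pot ξ (S * (T * S * g)) = pot ξ (T * S * g) + ξ (T * S * g) :=
        pot_tree ξ (by rw [e3]; omega) (by rw [e3, e4]; omega)
      have k1 : pot ξ (T * S * g) = pot ξ (S * g) := by rw [mul_assoc, pot_T_mul]
      have k2 : S * (T * S * g) = T⁻¹ * (S * (T⁻¹ * g)) := by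
        rw [← mul_assoc, ← mul_assoc, ← mul_assoc, ← mul_assoc, mul_assoc S T S, S_T_S]
        simp only [mul_assoc]
      have k3 : pot ξ (S * (T * S * g)) = pot ξ (S * (T⁻¹ * g)) := by
        rw [k2, pot_T_inv_mul]
      have k4 : (T * S) ^ 2 * g = S * (T⁻¹ * g) := by rw [TS_sq, mul_assoc]
      have hu := hU g
      rw [k4, hS] at hu
      -- `ξ g = ξ g₁ - ξ g₂`
      have hξ : ξ g = ξ (T⁻¹ * g) - ξ (T * S * g) := by
        have : ξ g = - ξ (T * S * g) + ξ (T⁻¹ * g) := by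
          rw [← sub_eq_zero]
          rw [← hu]; abel
        rw [this]; abel
      rw [k3, ih1, pot_T_inv_mul, k1] at tree2
      -- tree2 : pot g + ξ g₁ = pot (S g) + ξ g₂
      rw [hξ]
      have : pot ξ (S * g) = pot ξ g + ξ (T⁻¹ * g) - ξ (T * S * g) := by
        rw [tree2]; abel
      rw [this]; abel

include hS hU in
/-- **Potential lemma**: the edge relation for every `g`. -/
theorem pot_S_mul (g : SL(2, ℤ)) : pot ξ (S * g) = pot ξ g + ξ g := by
  have main : ∀ g : SL(2, ℤ), 0 ≤ g 0 0 → 0 < g 1 0 → pot ξ (S * g) = pot ξ g + ξ g :=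
    fun g h0 h1 => pot_S_mul_of_nonneg ξ hS hU (g 0 0 + g 1 0).toNat g h0 h1 (by omega)
  -- `E (S g) → E g`
  have stepS : ∀ g : SL(2, ℤ), pot ξ (S * (S * g)) = pot ξ (S * g) + ξ (S * g) →
      pot ξ (S * g) = pot ξ g + ξ g := by
    intro g h
    rw [S_mul_S_mul, pot_neg, hS] at h
    rw [h]; abel
  -- `E (-g) → E g`
  have stepN : ∀ g : SL(2, ℤ), pot ξ (S * (-g)) = pot ξ (-g) + ξ (-g) →
      pot ξ (S * g) = pot ξ g + ξ g := by
    intro g h
    rw [mul_neg, pot_neg, pot_neg, xi_neg ξ hS] at h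
    exact h
  have hdet : g 0 0 * g 1 1 - g 0 1 * g 1 0 = 1 := by
    have := g.det_coe
    rwa [Matrix.det_fin_two] at this
  rcases lt_trichotomy (g 1 0) 0 with hc | hc | hc
  · rcases le_or_gt (g 0 0) 0 with ha | ha
    · -- case 3: `-g`
      exact stepN g (main (-g) (by rw [neg_apply']; omega) (by rw [neg_apply']; omega))
    · -- case 2: `S g`
      exact stepS g (main (S * g) (by rw [S_mul_apply_zero]; omega)
        (by rw [S_mul_apply_one]; exact ha))
  · rcases lt_trichotomy (g 0 0) 0 with ha | ha | ha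
    · -- case 4: `S (-g)`
      refine stepN g (stepS (-g) (main (S * (-g)) ?_ ?_))
      · rw [S_mul_apply_zero, neg_apply']; omega
      · rw [S_mul_apply_one, neg_apply']; omega
    · rw [ha, hc] at hdet; simp at hdet
    · exact stepS g (main (S * g) (by rw [S_mul_apply_zero]; omega)
        (by rw [S_mul_apply_one]; exact ha))
  · rcases lt_or_ge (g 0 0) 0 with ha | ha
    · refine stepN g (stepS (-g) (main (S * (-g)) ?_ ?_))
      · rw [S_mul_apply_zero, neg_apply']; omega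
      · rw [S_mul_apply_one, neg_apply']; omega
    · exact main g ha hc

end Main

/-- **[PD] potential lemma.** A function `ξ` on `SL(2, ℤ)` satisfying the two loop conditions
(`S² = -1`, `(TS)³ = -1`) is the `S`-coboundary of a left-`T`-invariant function `F`. -/
theorem exists_potential (ξ : SL(2, ℤ) → A)
    (hS : ∀ g, ξ (S * g) = - ξ g)
    (hU : ∀ g, ξ g + ξ (T * S * g) + ξ ((T * S) ^ 2 * g) = 0) :
    ∃ F : SL(2, ℤ) → A, (∀ g, F (T * g) = F g) ∧ ∀ g, F (S * g) = F g + ξ g :=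
  ⟨pot ξ, pot_T_mul ξ, pot_S_mul ξ hS hU⟩

/-- The same with the normalisations `F 1 = 0`, `F (-g) = F g`, `F (T ^ n * g) = F g`. -/
theorem exists_potential' (ξ : SL(2, ℤ) → A)
    (hS : ∀ g, ξ (S * g) = - ξ g)
    (hU : ∀ g, ξ g + ξ (T * S * g) + ξ ((T * S) ^ 2 * g) = 0) :
    ∃ F : SL(2, ℤ) → A, (∀ g, F (T * g) = F g) ∧ (∀ g, F (S * g) = F g + ξ g) ∧ F 1 = 0 ∧
      (∀ g, F (-g) = F g) ∧ ∀ (n : ℤ) g, F (T ^ n * g) = F g := by
  refine ⟨pot ξ, pot_T_mul ξ, pot_S_mul ξ hS hU, pot_of_eq_zero ξ (by simp), pot_neg ξ, ?_⟩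
  intro n g
  induction n with
  | zero => simp
  | succ n ih =>
    have h : T ^ ((n : ℤ) + 1) * g = T * (T ^ (n : ℤ) * g) := by
      rw [← mul_assoc, ← _root_.zpow_one_add, add_comm]
    rw [h, pot_T_mul, ih]
  | pred n ih =>
    have h : T ^ (-(n : ℤ) - 1) * g = T⁻¹ * (T ^ (-(n : ℤ)) * g) := by
      rw [← mul_assoc, ← _root_.zpow_neg_one, ← _root_.zpow_add, add_comm, sub_eq_add_neg]
    rw [h, pot_T_inv_mul, ih]

end Fermat.Agent.S41.PDPot
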