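import Mathlib
import Fermat.Agent.S41.PDPotential

/-!
# S41 / [PD] leaf (5b): existence of the primitive `H`

`G = SL(2, ℤ)`, `S, T = ModularGroup.S, ModularGroup.T`.

* `exists_T_primitive` : every even function `a` on `G` is the left-`T`-increment of an even
  function `H` (`H (T * g) = H g + a g`), by signed partial sums along the `T`-orbits.
* `exists_tree` : the **tree lemma** — increments `dS`, `dU` along `S` and `T * S` satisfying the
  two loop conditions (`S ^ 2 = -1`, `(T S) ^ 3 = -1`) integrate to a function `J` on `G`.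
  It is deduced from the potential lemma `PDPotential.exists_potential`.
* `const_of_S_T` : a function on `G` that is left-invariant under `S` and `T` is constant.
* `exists_prim` : for lifts `F`, `F'` of `phi`, `psi : Γ → ℚ` there are `H : G → ℚ` and
  `f : Γ → ℚ` with `H (g * c) = H g + f c - F g * psi c`.
-/

set_option autoImplicit false

namespace Fermat.Agent.S41.PDPrim

open Matrix ModularGroup MatrixGroups

section partial_sums

variable {A : Type*} [AddCommGroup A]

/-- Signed partial sums of a function on `ℤ`: `psum a n = a 0 + ⋯ + a (n - 1)` for `n ≥ 0`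
and `psum a n = -(a (-1) + ⋯ + a n)` for `n < 0`. -/
def psum (a : ℤ → A) (n : ℤ) : A :=
  if 0 ≤ n then ∑ i ∈ Finset.range n.toNat, a i
  else - ∑ i ∈ Finset.range (-n).toNat, a (-((i : ℤ) + 1))

theorem psum_succ (a : ℤ → A) (n : ℤ) : psum a (n + 1) = psum a n + a n := by
  unfold psum
  rcases lt_trichotomy n (-1) with h | h | h
  · rw [if_neg (by omega), if_neg (by omega)]
    obtain ⟨k, hk⟩ : ∃ k : ℕ, (-n).toNat = k + 1 := ⟨(-n).toNat - 1, by omega⟩
    have hk' : (-(n + 1)).toNat = k := by omega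
    rw [hk, hk', Finset.sum_range_succ]
    have hn : (-((k : ℤ) + 1)) = n := by omega
    rw [hn]; abel
  · subst h
    simp
  · rw [if_pos (by omega), if_pos (by omega)]
    have h1 : (n + 1).toNat = n.toNat + 1 := by omega
    rw [h1, Finset.sum_range_succ]
    have h2 : ((n.toNat : ℕ) : ℤ) = n := by omega
    rw [h2]

end partial_sums

section orbit

/-- A `ℤ`-valued function on `SL(2, ℤ)` that is even and increases by `1` under left
multiplication by `T`. -/
noncomputable def nT (g : SL(2, ℤ)) : ℤ :=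
  if g 1 0 = 0 then g 0 1 * g 1 1 else ⌊(g 0 0 : ℚ) / (g 1 0 : ℚ)⌋

theorem nT_T_mul (g : SL(2, ℤ)) : nT (T * g) = nT g + 1 := by
  unfold nT
  rw [PDPotential.T_mul_apply_one, PDPotential.T_mul_apply_zero, PDPotential.T_mul_apply_zero,
    PDPotential.T_mul_apply_one]
  split_ifs with h
  · have hdet := PDPotential.det_eq g
    rw [h] at hdet
    have h11 : g 1 1 * g 1 1 = 1 := by
      rcases Int.mul_eq_one_iff_eq_one_or_neg_one.mp (by linarith : g 0 0 * g 1 1 = 1) with
        ⟨_, h1⟩ | ⟨_, h1⟩ <;> rw [h1] <;> norm_num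
    linear_combination h11
  · have hc : (g 1 0 : ℚ) ≠ 0 := by exact_mod_cast h
    rw [Int.cast_add, add_div, div_self hc, Int.floor_add_one]

theorem nT_neg (g : SL(2, ℤ)) : nT (-g) = nT g := by
  unfold nT
  simp only [PDPotential.neg_apply]
  split_ifs with h1 h2 h2
  · ring
  · exact absurd (by linarith : g 1 0 = 0) h2
  · exact absurd (by rw [h2]; simp : - g 1 0 = 0) h1
  · rw [Int.cast_neg, Int.cast_neg, neg_div_neg_eq]

variable {A : Type*} [AddCommGroup A]

/-- Every even function on `SL(2, ℤ)` is the left-`T`-increment of an even function. -/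
theorem exists_T_primitive (a : SL(2, ℤ) → A) (ha : ∀ g, a (-g) = a g) :
    ∃ H : SL(2, ℤ) → A, (∀ g, H (T * g) = H g + a g) ∧ ∀ g, H (-g) = H g := by
  refine ⟨fun g => psum (fun i => a (T ^ i * (T ^ (- nT g) * g))) (nT g), fun g => ?_,
    fun g => ?_⟩
  · show psum (fun i => a (T ^ i * (T ^ (- nT (T * g)) * (T * g)))) (nT (T * g)) =
      psum (fun i => a (T ^ i * (T ^ (- nT g) * g))) (nT g) + a g
    have h1 : T ^ (- nT (T * g)) * (T * g) = T ^ (- nT g) * g := by
      rw [nT_T_mul, ← mul_assoc]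
      congr 1
      rw [neg_add, _root_.zpow_add, _root_.zpow_neg_one, inv_mul_cancel_right]
    rw [h1, nT_T_mul, psum_succ]
    congr 1
    show a (T ^ nT g * (T ^ (- nT g) * g)) = a g
    rw [← mul_assoc, ← _root_.zpow_add, add_neg_cancel, _root_.zpow_zero, one_mul]
  · show psum (fun i => a (T ^ i * (T ^ (- nT (-g)) * (-g)))) (nT (-g)) = _
    rw [nT_neg]
    congr 1
    funext i
    rw [mul_neg, mul_neg, ha]

end orbit

section tree

variable {A : Type*} [AddCommGroup A]

theorem TS_cube_mul (g : SL(2, ℤ)) : T * S * (T * S * (T * S * g)) = -g := by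
  have h : ((T * S) * ((T * S) * (T * S)) : SL(2, ℤ)) = -1 := by decide
  calc T * S * (T * S * (T * S * g)) = (T * S * (T * S * (T * S))) * g := by
        simp only [mul_assoc]
    _ = -g := by rw [h, neg_one_mul]

/-- **Tree lemma.** Increments `dS` (along `S`) and `dU` (along `T * S`) on `SL(2, ℤ)` satisfying
the loop conditions coming from `S ^ 2 = -1` and `(T S) ^ 3 = -1` integrate to a function `J`. -/
theorem exists_tree (dS dU : SL(2, ℤ) → A) (hS : ∀ g, dS g + dS (S * g) = 0)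
    (hU : ∀ g, dU g + dU (T * S * g) + dU (T * S * (T * S * g)) = 0) :
    ∃ J : SL(2, ℤ) → A, (∀ g, J (S * g) = J g + dS g) ∧ (∀ g, J (T * S * g) = J g + dU g) := by
  have hSS : ∀ g : SL(2, ℤ), S * (S * g) = -g := PDPotential.S_mul_S_mul
  have hdS_even : ∀ g, dS (-g) = dS g := by
    intro g
    have h1 := hS g
    have h2 := hS (S * g)
    rw [hSS] at h2
    linear_combination (norm := abel) h2 - h1
  have hdU_even : ∀ g, dU (-g) = dU g := by
    intro g
    have h1 := hU g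
    have h2 := hU (T * S * g)
    rw [TS_cube_mul] at h2
    linear_combination (norm := abel) h2 - h1
  obtain ⟨H0, hH0T, hH0neg⟩ := exists_T_primitive (fun g => dU (S⁻¹ * g) - dS (S⁻¹ * g))
    (fun g => by simp only [mul_neg, hdS_even, hdU_even])
  have hH0U : ∀ g, H0 (T * S * g) = H0 (S * g) + (dU g - dS g) := by
    intro g
    have := hH0T (S * g)
    rwa [inv_mul_cancel_left, ← mul_assoc] at this
  have hxS : ∀ g, dS (S * g) - (H0 (S * (S * g)) - H0 (S * g)) = -(dS g - (H0 (S * g) - H0 g)) := by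
    intro g
    rw [hSS, hH0neg]
    linear_combination (norm := abel) hS g
  have hxU : ∀ g, dS g - (H0 (S * g) - H0 g)
      + (dS (T * S * g) - (H0 (S * (T * S * g)) - H0 (T * S * g)))
      + (dS (T * S * (T * S * g)) - (H0 (S * (T * S * (T * S * g))) - H0 (T * S * (T * S * g))))
      = 0 := by
    intro g
    have e1 := hH0U g
    have e2 := hH0U (T * S * g)
    have e3 := hH0U (T * S * (T * S * g))
    rw [TS_cube_mul, hH0neg] at e3
    linear_combination (norm := abel) e1 + e2 + e3 + hU g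
  obtain ⟨F1, hF1T, hF1S⟩ := PDPotential.exists_potential
    (fun g => dS g - (H0 (S * g) - H0 g)) hxS hxU
  refine ⟨fun g => H0 g + F1 g, fun g => ?_, fun g => ?_⟩
  · show H0 (S * g) + F1 (S * g) = H0 g + F1 g + dS g
    rw [hF1S]; abel
  · show H0 (T * S * g) + F1 (T * S * g) = H0 g + F1 g + dU g
    rw [mul_assoc T S g, hF1T, hF1S, ← mul_assoc, hH0U]; abel

end tree

section prim

/-- A function on `SL(2, ℤ)` that is left-invariant under `S` and `T` is constant. -/
theorem const_of_S_T {B : Type*} (D : SL(2, ℤ) → B) (hS : ∀ g, D (S * g) = D g)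
    (hT : ∀ g, D (T * g) = D g) (g : SL(2, ℤ)) : D g = D 1 := by
  have key : ∀ x : SL(2, ℤ), ∀ g, D (x * g) = D g := by
    intro x
    have hx : x ∈ Subgroup.closure ({S, T} : Set SL(2, ℤ)) := by
      rw [SpecialLinearGroup.SL2Z_generators]; trivial
    induction hx using Subgroup.closure_induction with
    | mem y hy =>
      rcases hy with rfl | rfl
      · exact hS
      · exact hT
    | one => intro g; rw [one_mul]
    | mul a b _ _ iha ihb => intro g; rw [mul_assoc, iha, ihb]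
    | inv a _ iha =>
      intro g
      have := iha (a⁻¹ * g)
      rw [mul_inv_cancel_left] at this
      exact this.symm
  simpa using key g 1

/-- **Existence of the primitive** ([PD] leaf (5b)). For lifts `F`, `F'` of `phi`, `psi` (any
functions `Γ → ℚ`; `-1 ∈ Γ`) there are `H : SL(2, ℤ) → ℚ` and `f : Γ → ℚ` with
`H (g * c) = H g + f c - F g * psi c`. -/
theorem exists_prim (Γ : Subgroup SL(2, ℤ)) (hneg : (-1 : SL(2, ℤ)) ∈ Γ) (phi psi : Γ → ℚ)
    (F F' : SL(2, ℤ) → ℚ) (hF : ∀ (g : SL(2, ℤ)) (c : Γ), F (g * c) = F g + phi c)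
    (hFT : ∀ g, F (T * g) = F g) (hF' : ∀ (g : SL(2, ℤ)) (c : Γ), F' (g * c) = F' g + psi c)
    (hF'T : ∀ g, F' (T * g) = F' g) :
    ∃ (H : SL(2, ℤ) → ℚ) (f : Γ → ℚ), ∀ (g : SL(2, ℤ)) (c : Γ),
      H (g * c) = H g + f c - F g * psi c := by
  -- evenness of the lifts
  have even_of : ∀ (φ : Γ → ℚ) (K : SL(2, ℤ) → ℚ),
      (∀ (g : SL(2, ℤ)) (c : Γ), K (g * c) = K g + φ c) → ∀ g, K (-g) = K g := by
    intro φ K hK g
    have h1 := hK g ⟨-1, hneg⟩
    have h2 := hK (-g) ⟨-1, hneg⟩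
    simp only [mul_neg, mul_one, neg_neg] at h1 h2
    linarith
  have hFneg := even_of phi F hF
  have hF'neg := even_of psi F' hF'
  -- the symbols
  obtain ⟨ξ, hξ⟩ : ∃ ξ : SL(2, ℤ) → ℚ, ∀ g, ξ g = F (S * g) - F g := ⟨_, fun _ => rfl⟩
  obtain ⟨ξ', hξ'⟩ : ∃ ξ' : SL(2, ℤ) → ℚ, ∀ g, ξ' g = F' (S * g) - F' g := ⟨_, fun _ => rfl⟩
  have hSS : ∀ g : SL(2, ℤ), S * (S * g) = -g := PDPotential.S_mul_S_mul
  have sym_props : ∀ (φ : Γ → ℚ) (K η : SL(2, ℤ) → ℚ),
      (∀ (g : SL(2, ℤ)) (c : Γ), K (g * c) = K g + φ c) → (∀ g, K (T * g) = K g) →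
      (∀ g, K (-g) = K g) → (∀ g, η g = K (S * g) - K g) →
      (∀ g, η (S * g) = - η g) ∧ (∀ g, η g + η (T * S * g) + η (T * S * (T * S * g)) = 0) ∧
      (∀ g, η (-g) = η g) ∧ (∀ (g : SL(2, ℤ)) (c : Γ), η (g * c) = η g) ∧
      (∀ g, K (S * g) = K g + η g) ∧ (∀ g, K (T * S * g) = K g + η g) := by
    intro φ K η hK hKT hKneg hη
    have hKU : ∀ g, K (T * S * g) = K g + η g := by
      intro g; rw [mul_assoc, hKT, hη]; ring
    refine ⟨fun g => ?_, fun g => ?_, fun g => ?_, fun g c => ?_, fun g => ?_, hKU⟩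
    · rw [hη, hη, hSS, hKneg]; ring
    · have h1 := hKU g
      have h2 := hKU (T * S * g)
      have h3 := hKU (T * S * (T * S * g))
      rw [TS_cube_mul, hKneg] at h3
      linarith
    · rw [hη, hη, mul_neg, hKneg, hKneg]
    · rw [hη, hη, ← mul_assoc, hK, hK]; ring
    · rw [hη]; ring
  obtain ⟨hξS, hξtri, hξneg, hξΓ, -, -⟩ := sym_props phi F ξ hF hFT hFneg hξ
  obtain ⟨hξ'S, hξ'tri, hξ'neg, hξ'Γ, hF'S, hF'U⟩ := sym_props psi F' ξ' hF' hF'T hF'neg hξ'
  -- the increments
  obtain ⟨dS, hdS⟩ : ∃ dS : SL(2, ℤ) → ℚ, ∀ g, dS g = -(ξ g * ξ' g) / 2 - ξ g * F' g :=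
    ⟨_, fun _ => rfl⟩
  obtain ⟨R, hR⟩ : ∃ R : SL(2, ℤ) → ℚ, ∀ g, R g =
      (ξ g * ξ' g + ξ (T * S * g) * ξ' (T * S * g)
        + ξ (T * S * (T * S * g)) * ξ' (T * S * (T * S * g))) / 2
      + ξ (T * S * g) * ξ' g + ξ (T * S * (T * S * g)) * ξ' g
      + ξ (T * S * (T * S * g)) * ξ' (T * S * g) := ⟨_, fun _ => rfl⟩
  have hRΓ : ∀ (g : SL(2, ℤ)) (c : Γ), R (g * c) = R g := by
    intro g c
    have e1 : T * S * (g * c) = T * S * g * c := by simp only [mul_assoc]
    have e2 : T * S * (T * S * g * c) = T * S * (T * S * g) * c := by simp only [mul_assoc]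
    rw [hR, hR, e1, e2, hξΓ, hξ'Γ, hξΓ, hξ'Γ, hξΓ, hξ'Γ]
  have hdSΓ : ∀ (g : SL(2, ℤ)) (c : Γ), dS (g * c) = dS g - ξ g * psi c := by
    intro g c
    rw [hdS, hdS, hξΓ, hξ'Γ, hF']; ring
  have hdS_S : ∀ g, dS g + dS (S * g) = 0 := by
    intro g
    rw [hdS, hdS, hξS, hξ'S, hF'S]; ring
  have hdU_U : ∀ g, (R g / 3 + dS g) + (R (T * S * g) / 3 + dS (T * S * g))
      + (R (T * S * (T * S * g)) / 3 + dS (T * S * (T * S * g))) = 0 := by
    intro g
    have hF'UU : F' (T * S * (T * S * g)) = F' g + ξ' g + ξ' (T * S * g) := by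
      rw [hF'U, hF'U]
    simp only [hR, hdS, TS_cube_mul, mul_neg, hξneg, hξ'neg, hF'U]
    linear_combination (-(F' g) + (ξ' (T * S * g) + 2 * ξ' (T * S * (T * S * g))) / 3) * hξtri g
      + ((-(ξ (T * S * g)) - 2 * ξ (T * S * (T * S * g))) / 3) * hξ'tri g
  obtain ⟨H, hHS, hHU⟩ := exists_tree dS (fun g => R g / 3 + dS g) hdS_S hdU_U
  have hHT : ∀ g, H (T * g) = H g + R (S⁻¹ * g) / 3 := by
    intro g
    have h1 := hHU (S⁻¹ * g)
    have h2 := hHS (S⁻¹ * g)
    rw [mul_assoc, mul_inv_cancel_left] at h1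
    rw [mul_inv_cancel_left] at h2
    linarith
  -- constancy of `g ↦ H (g * c) - H g + F g * psi c`
  refine ⟨H, fun c => H ((1 : SL(2, ℤ)) * c) - H 1 + F 1 * psi c, fun g c => ?_⟩
  have hS' : ∀ g : SL(2, ℤ), H (S * g * c) - H (S * g) + F (S * g) * psi c
      = H (g * c) - H g + F g * psi c := by
    intro g
    have h1 := hHS (g * c)
    rw [← mul_assoc] at h1
    rw [h1, hHS, hdSΓ, hξ g]
    ring
  have hT' : ∀ g : SL(2, ℤ), H (T * g * c) - H (T * g) + F (T * g) * psi c
      = H (g * c) - H g + F g * psi c := by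
    intro g
    have h1 := hHT (g * c)
    rw [← mul_assoc, ← mul_assoc, hRΓ] at h1
    rw [h1, hHT, hFT]
    ring
  have hconst : H (g * c) - H g + F g * psi c = H ((1 : SL(2, ℤ)) * c) - H 1 + F 1 * psi c :=
    const_of_S_T (fun g : SL(2, ℤ) => H (g * c) - H g + F g * psi c) hS' hT' g
  linarith

end prim

end Fermat.Agent.S41.PDPrim
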