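/-
S41, block [PD], hedge leaf (S-N)/(LA-rad) (helper75): the radical of the area form on symbols is
exactly the space of coboundaries, over any field of characteristic `≠ 2` (characteristic `3`
included).

Setting (pure finite combinatorics): a finite set `X`, permutations `s`, `u` with `s² = 1`,
`u³ = 1`.  A *symbol* is `ξ : X → k` with `ξ ∘ s = -ξ`, `ξ + ξ∘u + ξ∘u² = 0` and `ξ = 0` on the
fixed points of `u`.  For a set `R` of representatives of the `u`-orbits the area form is
`B_R(ξ, η) = ∑ x ∈ R, (ξ x * η (u x) - ξ (u x) * η x)`.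

* `BR_eq_sum_zeta` : `B_R(ξ, η) = ∑ x, ξ x * ζ_η x` for the explicit vector `ζ_η = zeta u R η`;
* `isSym_of_orthogonal` : a vector orthogonal to the `s`-invariant and to the `u`-invariant
  functions is a symbol;
* `exists_boundary` : if `η` is a symbol with `B_R(ξ, η) = 0` for all symbols `ξ`, then
  `η = w ∘ s - w` for some `w` with `w ∘ (u ∘ s) = w`.
-/
import Mathlib

set_option autoImplicit false

namespace Fermat.Agent.S41.PDRad

open Finset

variable {X : Type*} [Fintype X] [DecidableEq X] {k : Type*} [Field k]

/-- The symbol conditions. -/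
def IsSym (s u : X → X) (ξ : X → k) : Prop :=
  (∀ x, ξ (s x) = - ξ x) ∧ (∀ x, ξ x + ξ (u x) + ξ (u (u x)) = 0) ∧ (∀ x, u x = x → ξ x = 0)

/-- The area form summed over a finite set `R` of points. -/
def BR (u : X → X) (R : Finset X) (ξ η : X → k) : k :=
  ∑ x ∈ R, (ξ x * η (u x) - ξ (u x) * η x)

/-- The vector `ζ_η` representing `B_R(·, η)` for the dot product. -/
def zeta (u : X → X) (R : Finset X) (η : X → k) (x : X) : k :=
  (if x ∈ R then η (u x) else 0) - (if u (u x) ∈ R then η (u (u x)) else 0)

theorem BR_eq_sum_zeta (u : Equiv.Perm X) (hu : ∀ x, u (u (u x)) = x) (R : Finset X)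
    (ξ η : X → k) : BR (⇑u) R ξ η = ∑ x, ξ x * zeta (⇑u) R η x := by
  unfold BR zeta
  simp only [mul_sub, Finset.sum_sub_distrib]
  congr 1
  · rw [← Finset.sum_filter_add_sum_filter_not Finset.univ (fun x => x ∈ R)]
    have h1 : ∑ x ∈ Finset.univ.filter (fun x => ¬ x ∈ R),
        ξ x * (if x ∈ R then η (u x) else 0) = 0 := by
      apply Finset.sum_eq_zero
      intro x hx
      rw [Finset.mem_filter] at hx
      rw [if_neg hx.2, mul_zero]
    rw [h1, add_zero]
    have h2 : Finset.univ.filter (fun x => x ∈ R) = R := by
      ext x; simp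
    rw [h2]
    apply Finset.sum_congr rfl
    intro x hx
    rw [if_pos hx]
  · have h1 : ∑ x, ξ x * (if u (u x) ∈ R then η (u (u x)) else 0)
        = ∑ y, ξ (u y) * (if y ∈ R then η y else 0) := by
      rw [← Equiv.sum_comp u (fun x => ξ x * (if u (u x) ∈ R then η (u (u x)) else 0))]
      apply Finset.sum_congr rfl
      intro y _
      rw [hu y]
    rw [h1]
    rw [← Finset.sum_filter_add_sum_filter_not Finset.univ (fun x => x ∈ R)]
    have h3 : ∑ x ∈ Finset.univ.filter (fun x => ¬ x ∈ R),
        ξ (u x) * (if x ∈ R then η x else 0) = 0 := by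
      apply Finset.sum_eq_zero
      intro x hx
      rw [Finset.mem_filter] at hx
      rw [if_neg hx.2, mul_zero]
    rw [h3, add_zero]
    have h2 : Finset.univ.filter (fun x => x ∈ R) = R := by
      ext x; simp
    rw [h2]
    apply Finset.sum_congr rfl
    intro x hx
    rw [if_pos hx]

omit [Fintype X] in
/-- The key property of `ζ_η`: its `u`-coboundary is `η + η ∘ u`. -/
theorem zeta_sub (s u : Equiv.Perm X) (hu : ∀ x, u (u (u x)) = x) (R : Finset X)
    (hR1 : ∀ x, x ∈ R ∨ u x ∈ R ∨ u (u x) ∈ R) (hR2 : ∀ x, x ∈ R → u x ∈ R → u x = x)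
    (η : X → k) (hη : IsSym (⇑s) (⇑u) η) (x : X) :
    zeta (⇑u) R η x - zeta (⇑u) R η (u x) = η x + η (u x) := by
  obtain ⟨-, hsum, hfix⟩ := hη
  have habc := hsum x
  unfold zeta
  rw [hu x]
  by_cases h0 : x ∈ R
  · by_cases h1 : u x ∈ R
    · have hx : u x = x := hR2 x h0 h1
      have hz : η x = 0 := hfix x hx
      simp only [hx, h0, if_true, hz]
      ring
    · have h2 : ¬ u (u x) ∈ R := by
        intro h2
        have h3 : u (u (u x)) = u (u x) := hR2 (u (u x)) h2 (by rw [hu x]; exact h0)
        rw [hu x] at h3
        apply h1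
        have h4 : u x = u (u (u x)) := by rw [← h3]
        rw [hu x] at h4
        rw [h4]
        exact h0
      rw [if_pos h0, if_neg h2, if_neg h1, if_pos h0]
      ring
  · by_cases h1 : u x ∈ R
    · have h2 : ¬ u (u x) ∈ R := by
        intro h2
        have h3 : u (u x) = u x := hR2 (u x) h1 h2
        have h4 : u x = x := u.injective h3
        apply h0
        rw [← h4]
        exact h1
      rw [if_neg h0, if_neg h2, if_pos h1, if_neg h0]
      linear_combination -habc
    · have h2 : u (u x) ∈ R := by
        rcases hR1 x with h | h | h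
        · exact absurd h h0
        · exact absurd h h1
        · exact h
      rw [if_neg h0, if_pos h2, if_neg h1, if_neg h0]
      linear_combination -habc

/-- A vector orthogonal (for the dot product) to the `s`-invariant functions and to the
`u`-invariant functions is a symbol. -/
theorem isSym_of_orthogonal (s u : Equiv.Perm X) (hs : ∀ x, s (s x) = x)
    (hu : ∀ x, u (u (u x)) = x) (ξ : X → k)
    (hS : ∀ v : X → k, (∀ x, v (s x) = v x) → ∑ x, v x * ξ x = 0)
    (hU : ∀ v : X → k, (∀ x, v (u x) = v x) → ∑ x, v x * ξ x = 0) :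
    IsSym (⇑s) (⇑u) ξ := by
  have key : ∀ A : Finset X, ∑ y, (if y ∈ A then (1 : k) else 0) * ξ y = ∑ y ∈ A, ξ y := by
    intro A
    simp only [ite_mul, one_mul, zero_mul]
    rw [Finset.sum_ite_mem, Finset.univ_inter]
  refine ⟨?_, ?_, ?_⟩
  · intro x
    have hinv : ∀ y, (if s y ∈ ({x, s x} : Finset X) then (1 : k) else 0)
        = if y ∈ ({x, s x} : Finset X) then (1 : k) else 0 := by
      intro y
      have : s y ∈ ({x, s x} : Finset X) ↔ y ∈ ({x, s x} : Finset X) := by
        simp only [Finset.mem_insert, Finset.mem_singleton]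
        constructor
        · rintro (h | h)
          · right; rw [← h, hs]
          · left; exact s.injective h
        · rintro (h | h)
          · right; rw [h]
          · left; rw [h, hs]
      simp only [this]
    have h1 := hS (fun y => if y ∈ ({x, s x} : Finset X) then (1 : k) else 0) hinv
    rw [key] at h1
    by_cases hx : s x = x
    · rw [hx] at h1 ⊢
      simp only [Finset.pair_eq_singleton, Finset.sum_singleton] at h1
      rw [h1, neg_zero]
    · rw [Finset.sum_pair (Ne.symm hx)] at h1
      linear_combination h1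
  · intro x
    have hinv : ∀ y, (if u y ∈ ({x, u x, u (u x)} : Finset X) then (1 : k) else 0)
        = if y ∈ ({x, u x, u (u x)} : Finset X) then (1 : k) else 0 := by
      intro y
      have : u y ∈ ({x, u x, u (u x)} : Finset X) ↔ y ∈ ({x, u x, u (u x)} : Finset X) := by
        simp only [Finset.mem_insert, Finset.mem_singleton]
        constructor
        · rintro (h | h | h)
          · right; right; rw [← h, hu]
          · left; exact u.injective h
          · right; left; exact u.injective h
        · rintro (h | h | h)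
          · right; left; rw [h]
          · right; right; rw [h]
          · left; rw [h, hu]
      simp only [this]
    have h1 := hU (fun y => if y ∈ ({x, u x, u (u x)} : Finset X) then (1 : k) else 0) hinv
    rw [key] at h1
    by_cases hx : u x = x
    · have h2 : ({x, u x, u (u x)} : Finset X) = {x} := by
        rw [hx, hx]; simp
      rw [h2, Finset.sum_singleton] at h1
      rw [hx, hx, h1]; ring
    · have hne1 : x ≠ u x := Ne.symm hx
      have hne2 : x ≠ u (u x) := by
        intro h
        apply hx
        have h' : u x = u (u (u x)) := congrArg u h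
        rw [hu x] at h'
        exact h'
      have hne3 : u x ≠ u (u x) := by
        intro h
        exact hne1 (u.injective h)
      rw [Finset.sum_insert (by simp [hne1, hne2]), Finset.sum_pair hne3] at h1
      linear_combination h1
  · intro x hx
    have hinv : ∀ y, (if u y ∈ ({x} : Finset X) then (1 : k) else 0)
        = if y ∈ ({x} : Finset X) then (1 : k) else 0 := by
      intro y
      have : u y ∈ ({x} : Finset X) ↔ y ∈ ({x} : Finset X) := by
        simp only [Finset.mem_singleton]
        constructor
        · intro h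
          apply u.injective
          rw [h, hx]
        · intro h
          rw [h, hx]
      simp only [this]
    have h1 := hU (fun y => if y ∈ ({x} : Finset X) then (1 : k) else 0) hinv
    rw [key, Finset.sum_singleton] at h1
    exact h1

/-- **The radical of the area form is the space of coboundaries** (any characteristic `≠ 2`).
`R` is a set of representatives of the `u`-orbits. -/
theorem exists_boundary (s u : Equiv.Perm X) (hs : ∀ x, s (s x) = x)
    (hu : ∀ x, u (u (u x)) = x) (h2 : (2 : k) ≠ 0) (R : Finset X)
    (hR1 : ∀ x, x ∈ R ∨ u x ∈ R ∨ u (u x) ∈ R) (hR2 : ∀ x, x ∈ R → u x ∈ R → u x = x)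
    (η : X → k) (hη : IsSym (⇑s) (⇑u) η)
    (h : ∀ ξ : X → k, IsSym (⇑s) (⇑u) ξ → BR (⇑u) R ξ η = 0) :
    ∃ w : X → k, (∀ x, w (u (s x)) = w x) ∧ ∀ x, η x = w (s x) - w x := by
  classical
  let Vs : Submodule k (X → k) :=
    { carrier := {v | ∀ x, v (s x) = v x}
      add_mem' := by
        intro a b ha hb x
        simp only [Pi.add_apply, ha x, hb x]
      zero_mem' := by intro x; rfl
      smul_mem' := by
        intro c a ha x
        simp only [Pi.smul_apply, ha x] }
  let Vu : Submodule k (X → k) :=
    { carrier := {v | ∀ x, v (u x) = v x}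
      add_mem' := by
        intro a b ha hb x
        simp only [Pi.add_apply, ha x, hb x]
      zero_mem' := by intro x; rfl
      smul_mem' := by
        intro c a ha x
        simp only [Pi.smul_apply, ha x] }
  have hmem : zeta (⇑u) R η ∈ Vs ⊔ Vu := by
    by_contra hnot
    obtain ⟨f, hf, hle⟩ := Submodule.exists_le_ker_of_notMem hnot
    set ξ : X → k := fun i => f (fun j => if i = j then 1 else 0) with hξ
    have hfv : ∀ v : X → k, f v = ∑ i, v i * ξ i := by
      intro v
      rw [LinearMap.pi_apply_eq_sum_univ f v]
      rfl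
    have hξS : ∀ v : X → k, (∀ x, v (s x) = v x) → ∑ x, v x * ξ x = 0 := by
      intro v hv
      rw [← hfv v]
      have : v ∈ Vs ⊔ Vu := Submodule.mem_sup_left hv
      exact hle this
    have hξU : ∀ v : X → k, (∀ x, v (u x) = v x) → ∑ x, v x * ξ x = 0 := by
      intro v hv
      rw [← hfv v]
      have : v ∈ Vs ⊔ Vu := Submodule.mem_sup_right hv
      exact hle this
    have hsym := isSym_of_orthogonal s u hs hu ξ hξS hξU
    have h0 := h ξ hsym
    rw [BR_eq_sum_zeta u hu] at h0
    apply hf
    rw [hfv]
    rw [← h0]
    apply Finset.sum_congr rfl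
    intro x _
    ring
  obtain ⟨v₁, hv₁, v₂, hv₂, hsum⟩ := Submodule.mem_sup.mp hmem
  have hv₁' : ∀ x, v₁ (s x) = v₁ x := hv₁
  have hv₂' : ∀ x, v₂ (u x) = v₂ x := hv₂
  have hdiff : ∀ x, v₁ x - v₁ (u x) = η x + η (u x) := by
    intro x
    have hz := zeta_sub s u hu R hR1 hR2 η hη x
    have e1 : zeta (⇑u) R η x = v₁ x + v₂ x := by rw [← hsum]; rfl
    have e2 : zeta (⇑u) R η (u x) = v₁ (u x) + v₂ (u x) := by rw [← hsum]; rfl
    rw [e1, e2, hv₂' x] at hz
    linear_combination hz
  have hηs : ∀ x, η (s x) = - η x := hη.1
  set w : X → k := fun x => -(v₁ x + η x) / 2 with hw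
  have hwS : ∀ x, w (s x) - w x = η x := by
    intro x
    simp only [hw, hv₁' x, hηs x]
    field_simp
    ring
  have hwU : ∀ x, w (u x) - w x = η x := by
    intro x
    have hd := hdiff x
    simp only [hw]
    field_simp
    linear_combination hd
  refine ⟨w, ?_, ?_⟩
  · intro x
    have e1 := hwU (s x)
    have e2 := hwS x
    rw [hηs x] at e1
    linear_combination e1 + e2
  · intro x
    exact (hwS x).symm

end Fermat.Agent.S41.PDRad
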