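/-
S41, block [PD], hedge leaf (S-N) (helper75): the abstract half of "nondegeneracy by dimension
count".

* `exists_reps` : representatives of the orbits of a permutation of order three;
* `sum_eq_sum_reps` : orbit decomposition of a sum;
* `sym_orth_s`, `sym_orth_u` : symbols are orthogonal to the invariant functions;
* `dim_bound` : a space of symbols meeting the coboundaries trivially has dimension
  `≤ #X + 2 - #ΩS - #ΩU - #ΩT` (from `S16.OrbitDim.finrank_add_card_le`);
* `exists_decomp` : if a family of `r` symbols is independent modulo coboundaries and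
  `#X + 2 ≤ r + #ΩS + #ΩU + #ΩT`, every symbol is a combination of the family plus a coboundary;
* `nondeg_abstract` : then a symbol orthogonal (for the area form) to the family and to the
  coboundaries is a coboundary;
* bridges to the integral symbols of `PDSym`: `B3_eq_three_mul`, `cast_sum_D`, `isSym_cast`.
-/
import Mathlib
import Fermat.Agent.S16.OrbitDim
import Fermat.Agent.S41.PDRad
import Fermat.Agent.S41.PDSym

set_option autoImplicit false
set_option linter.unusedSectionVars false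

namespace Fermat.Agent.S41.PDRad

open Finset Module

section Reps

variable {X : Type*} [Fintype X] [DecidableEq X]

/-- Representatives of the orbits of a permutation of order (dividing) three. -/
theorem exists_reps (u : Equiv.Perm X) (hu : ∀ x, u (u (u x)) = x) :
    ∃ R : Finset X, (∀ x, x ∈ R ∨ u x ∈ R ∨ u (u x) ∈ R) ∧
      (∀ x, x ∈ R → u x ∈ R → u x = x) := by
  classical
  let e : X ≃ Fin (Fintype.card X) := Fintype.equivFin X
  refine ⟨Finset.univ.filter (fun x => e x ≤ e (u x) ∧ e x ≤ e (u (u x))), ?_, ?_⟩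
  · intro x
    simp only [Finset.mem_filter, Finset.mem_univ, true_and, hu x]
    rcases le_total (e x) (e (u x)) with h1 | h1 <;>
    rcases le_total (e x) (e (u (u x))) with h2 | h2 <;>
    rcases le_total (e (u x)) (e (u (u x))) with h3 | h3
    · exact Or.inl ⟨h1, h2⟩
    · exact Or.inl ⟨h1, h2⟩
    · exact Or.inr (Or.inr ⟨h2, le_trans h2 h1⟩)
    · exact Or.inr (Or.inr ⟨h2, h3⟩)
    · exact Or.inr (Or.inl ⟨h3, h1⟩)
    · exact Or.inr (Or.inl ⟨le_trans h1 h2, h1⟩)
    · exact Or.inr (Or.inl ⟨h3, h1⟩)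
    · exact Or.inr (Or.inr ⟨h2, h3⟩)
  · intro x hx hux
    simp only [Finset.mem_filter, Finset.mem_univ, true_and, hu x] at hx hux
    have h : e (u x) = e x := le_antisymm hux.2 hx.1
    exact e.injective h

variable (u : Equiv.Perm X) (hu : ∀ x, u (u (u x)) = x) (R : Finset X)
  (hR1 : ∀ x, x ∈ R ∨ u x ∈ R ∨ u (u x) ∈ R) (hR2 : ∀ x, x ∈ R → u x ∈ R → u x = x)

include hR2 in
omit [Fintype X] [DecidableEq X] in
theorem mem_reps_iff₁ {y : X} (hy : y ∈ R) : u y ∈ R ↔ u y = y := by
  constructor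
  · exact hR2 y hy
  · intro h; rw [h]; exact hy

include hu hR2 in
omit [Fintype X] [DecidableEq X] in
theorem mem_reps_iff₂ {y : X} (hy : y ∈ R) : u (u y) ∈ R ↔ u y = y := by
  constructor
  · intro h
    have h3 : u (u (u y)) = u (u y) := hR2 (u (u y)) h (by rw [hu y]; exact hy)
    rw [hu y] at h3
    have h4 : u y = u (u (u y)) := by rw [← h3]
    rw [hu y] at h4
    exact h4
  · intro h; rw [h, h]; exact hy

include hu hR1 hR2 in
/-- Orbit decomposition of a sum along a set of orbit representatives. -/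
theorem sum_eq_sum_reps {M : Type*} [AddCommMonoid M] (f : X → M) :
    ∑ x, f x = ∑ x ∈ R, (f x + if u x = x then 0 else f (u x) + f (u (u x))) := by
  classical
  have key : ∀ x, f x = (if x ∈ R then f x else 0) +
      ((if ¬ x ∈ R ∧ u (u x) ∈ R then f x else 0) +
       (if ¬ x ∈ R ∧ u x ∈ R then f x else 0)) := by
    intro x
    by_cases h0 : x ∈ R
    · simp [h0]
    · by_cases h1 : u x ∈ R
      · have h2 : ¬ u (u x) ∈ R := by
          intro h2
          have := hR2 (u x) h1 h2
          exact h0 (by rw [← u.injective this]; exact h1)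
        simp [h0, h1, h2]
      · have h2 : u (u x) ∈ R := by
          rcases hR1 x with h | h | h
          · exact absurd h h0
          · exact absurd h h1
          · exact h
        simp [h0, h1, h2]
  have e1 : ∑ x, (if x ∈ R then f x else 0) = ∑ x ∈ R, f x := by
    rw [Finset.sum_ite_mem, Finset.univ_inter]
  have e2 : ∑ x, (if ¬ x ∈ R ∧ u (u x) ∈ R then f x else 0)
      = ∑ x ∈ R, (if u x = x then 0 else f (u x)) := by
    have h1 : ∑ x, (if ¬ x ∈ R ∧ u (u x) ∈ R then f x else 0)
        = ∑ y, (if y ∈ R then (if u y = y then 0 else f (u y)) else 0) := by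
      rw [← Equiv.sum_comp u (fun x => if ¬ x ∈ R ∧ u (u x) ∈ R then f x else 0)]
      apply Finset.sum_congr rfl
      intro y _
      have hy3 := hu y
      simp only [hy3]
      by_cases hy : y ∈ R
      · rw [if_pos hy]
        by_cases hfix : u y = y
        · have : ¬ (¬ u y ∈ R ∧ y ∈ R) := fun h => h.1 (by rw [hfix]; exact hy)
          rw [if_neg this, if_pos hfix]
        · have h1 : ¬ u y ∈ R := fun h => hfix ((mem_reps_iff₁ u R hR2 hy).mp h)
          rw [if_pos ⟨h1, hy⟩, if_neg hfix]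
      · have : ¬ (¬ u y ∈ R ∧ y ∈ R) := fun h => hy h.2
        rw [if_neg this, if_neg hy]
    rw [h1, Finset.sum_ite_mem, Finset.univ_inter]
  have e3 : ∑ x, (if ¬ x ∈ R ∧ u x ∈ R then f x else 0)
      = ∑ x ∈ R, (if u x = x then 0 else f (u (u x))) := by
    have h1 : ∑ x, (if ¬ x ∈ R ∧ u x ∈ R then f x else 0)
        = ∑ y, (if y ∈ R then (if u y = y then 0 else f (u (u y))) else 0) := by
      rw [← Equiv.sum_comp (u * u) (fun x => if ¬ x ∈ R ∧ u x ∈ R then f x else 0)]
      apply Finset.sum_congr rfl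
      intro y _
      have hy3 := hu y
      simp only [Equiv.Perm.mul_apply, hy3]
      by_cases hy : y ∈ R
      · rw [if_pos hy]
        by_cases hfix : u y = y
        · have : ¬ (¬ u (u y) ∈ R ∧ y ∈ R) := fun h => h.1 (by rw [hfix, hfix]; exact hy)
          rw [if_neg this, if_pos hfix]
        · have h1 : ¬ u (u y) ∈ R := fun h => hfix ((mem_reps_iff₂ u hu R hR2 hy).mp h)
          rw [if_pos ⟨h1, hy⟩, if_neg hfix]
      · have : ¬ (¬ u (u y) ∈ R ∧ y ∈ R) := fun h => hy h.2
        rw [if_neg this, if_neg hy]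
    rw [h1, Finset.sum_ite_mem, Finset.univ_inter]
  calc ∑ x, f x
      = ∑ x, ((if x ∈ R then f x else 0) +
          ((if ¬ x ∈ R ∧ u (u x) ∈ R then f x else 0) +
           (if ¬ x ∈ R ∧ u x ∈ R then f x else 0))) := Finset.sum_congr rfl (fun x _ => key x)
    _ = ∑ x ∈ R, f x + (∑ x ∈ R, (if u x = x then 0 else f (u x)) +
          ∑ x ∈ R, (if u x = x then 0 else f (u (u x)))) := by
        rw [Finset.sum_add_distrib, Finset.sum_add_distrib, e1, e2, e3]
    _ = ∑ x ∈ R, (f x + if u x = x then 0 else f (u x) + f (u (u x))) := by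
        rw [← Finset.sum_add_distrib, ← Finset.sum_add_distrib]
        apply Finset.sum_congr rfl
        intro x _
        by_cases hfix : u x = x
        · simp [hfix]
        · simp [hfix]

end Reps

section Field

variable {X : Type*} [Fintype X] [DecidableEq X] {k : Type*} [Field k]

theorem IsSym.zero (s u : X → X) : IsSym s u (0 : X → k) :=
  ⟨fun _ => by simp, fun _ => by simp, fun _ _ => rfl⟩

theorem IsSym.add {s u : X → X} {ξ₁ ξ₂ : X → k} (h₁ : IsSym s u ξ₁) (h₂ : IsSym s u ξ₂) :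
    IsSym s u (ξ₁ + ξ₂) := by
  refine ⟨fun x => ?_, fun x => ?_, fun x hx => ?_⟩
  · simp only [Pi.add_apply, h₁.1 x, h₂.1 x]; ring
  · have a := h₁.2.1 x
    have b := h₂.2.1 x
    simp only [Pi.add_apply]
    linear_combination a + b
  · simp only [Pi.add_apply, h₁.2.2 x hx, h₂.2.2 x hx, add_zero]

theorem IsSym.smul {s u : X → X} {ξ : X → k} (h : IsSym s u ξ) (c : k) : IsSym s u (c • ξ) := by
  refine ⟨fun x => ?_, fun x => ?_, fun x hx => ?_⟩
  · simp only [Pi.smul_apply, smul_eq_mul, h.1 x]; ring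
  · have a := h.2.1 x
    simp only [Pi.smul_apply, smul_eq_mul]
    linear_combination c * a
  · simp only [Pi.smul_apply, smul_eq_mul, h.2.2 x hx, mul_zero]

/-- The submodule of symbols. -/
def symSubmodule (s u : X → X) : Submodule k (X → k) where
  carrier := {ξ | IsSym s u ξ}
  add_mem' := fun h₁ h₂ => IsSym.add h₁ h₂
  zero_mem' := IsSym.zero s u
  smul_mem' := fun c _ h => IsSym.smul h c

theorem mem_symSubmodule {s u : X → X} {ξ : X → k} : ξ ∈ symSubmodule (k := k) s u ↔ IsSym s u ξ :=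
  Iff.rfl

/-- The boundary of a function. -/
def bd (s : X → X) (w : X → k) : X → k := fun x => w (s x) - w x

omit [Fintype X] [DecidableEq X] in
theorem isSym_bd (s u : Equiv.Perm X) (hs : ∀ x, s (s x) = x) (hu : ∀ x, u (u (u x)) = x)
    (w : X → k) (hw : ∀ x, w (u (s x)) = w x) : IsSym (⇑s) (⇑u) (bd (⇑s) w) := by
  have hws : ∀ x, w (u x) = w (s x) := fun x => by
    have := hw (s x); rw [hs] at this; exact this
  refine ⟨fun x => ?_, fun x => ?_, fun x hx => ?_⟩
  · simp only [bd, hs x]; ring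
  · simp only [bd]
    have e1 := hws x
    have e2 := hws (u x)
    have e3 := hws (u (u x))
    rw [hu x] at e3
    linear_combination -e1 - e2 - e3
  · simp only [bd]
    rw [← hws x, hx, sub_self]

omit [Fintype X] in
theorem BR_comb {ι : Type*} [Fintype ι] (u : X → X) (R : Finset X) (c : ι → k) (ξ : ι → X → k)
    (b η : X → k) :
    BR u R (fun x => ∑ i, c i * ξ i x + b x) η = ∑ i, c i * BR u R (ξ i) η + BR u R b η := by
  unfold BR
  have h : ∀ x, (∑ i, c i * ξ i x + b x) * η (u x) - (∑ i, c i * ξ i (u x) + b (u x)) * η x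
      = ∑ i, c i * (ξ i x * η (u x) - ξ i (u x) * η x) + (b x * η (u x) - b (u x) * η x) := by
    intro x
    have e1 : ∑ i, c i * (ξ i x * η (u x) - ξ i (u x) * η x)
        = (∑ i, c i * ξ i x) * η (u x) - (∑ i, c i * ξ i (u x)) * η x := by
      rw [Finset.sum_mul, Finset.sum_mul, ← Finset.sum_sub_distrib]
      apply Finset.sum_congr rfl
      intro i _
      ring
    rw [e1]; ring
  simp only [h]
  rw [Finset.sum_add_distrib, Finset.sum_comm]
  congr 1
  apply Finset.sum_congr rfl
  intro i _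
  rw [Finset.mul_sum]

/-- Symbols are orthogonal to the `s`-invariant functions (characteristic `≠ 2`). -/
theorem sym_orth_s (s u : Equiv.Perm X) (h2 : (2 : k) ≠ 0) {ξ : X → k} (hξ : IsSym (⇑s) (⇑u) ξ)
    (v : X → k) (hv : ∀ x, v (s x) = v x) : ∑ x, ξ x * v x = 0 := by
  have h1 : ∑ x, ξ x * v x = ∑ x, ξ (s x) * v (s x) :=
    (Equiv.sum_comp s (fun x => ξ x * v x)).symm
  have h3 : ∑ x, ξ (s x) * v (s x) = - ∑ x, ξ x * v x := by
    rw [← Finset.sum_neg_distrib]
    apply Finset.sum_congr rfl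
    intro x _
    rw [hξ.1 x, hv x]; ring
  rw [h3] at h1
  have h4 : (2 : k) * ∑ x, ξ x * v x = 0 := by linear_combination h1
  rcases mul_eq_zero.mp h4 with h | h
  · exact absurd h h2
  · exact h

/-- Symbols are orthogonal to the `u`-invariant functions (any characteristic). -/
theorem sym_orth_u (s u : Equiv.Perm X) (hu : ∀ x, u (u (u x)) = x) {ξ : X → k}
    (hξ : IsSym (⇑s) (⇑u) ξ) (v : X → k) (hv : ∀ x, v (u x) = v x) : ∑ x, ξ x * v x = 0 := by
  obtain ⟨R, hR1, hR2⟩ := exists_reps u hu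
  rw [sum_eq_sum_reps u hu R hR1 hR2 (fun x => ξ x * v x)]
  apply Finset.sum_eq_zero
  intro x _
  by_cases hx : u x = x
  · rw [if_pos hx, hξ.2.2 x hx]; ring
  · rw [if_neg hx, hv (u x), hv x]
    have := hξ.2.1 x
    linear_combination v x * this

/-- Reindexing along `t = u ∘ s`: a `t`-invariant function is orthogonal to `η ∘ u` for every
symbol `η` (no division needed). -/
theorem sum_mul_comp_u (s u : Equiv.Perm X) {η : X → k} (hη : IsSym (⇑s) (⇑u) η) (w : X → k)
    (hw : ∀ x, w (u (s x)) = w x) : ∑ y, w y * η (u y) = 0 := by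
  have e1 : ∑ y, w y * η (u y) = ∑ z, w (u (s z)) * η (u (u (s z))) :=
    (Equiv.sum_comp (u * s) (fun y => w y * η (u y))).symm
  have e2 : ∑ z, w z * η z = ∑ z, w (u (s z)) * η (u (s z)) :=
    (Equiv.sum_comp (u * s) (fun y => w y * η y)).symm
  have e3 : ∑ z, w (u (s z)) * η (u (u (s z)))
      = ∑ z, w z * η z - ∑ z, w (u (s z)) * η (u (s z)) := by
    rw [← Finset.sum_sub_distrib]
    apply Finset.sum_congr rfl
    intro z _
    have h1 := hη.2.1 (s z)
    have h2 := hη.1 z
    rw [hw z]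
    linear_combination w z * h1 - w z * h2
  rw [e1, e3, e2, sub_self]

/-- Coboundaries are orthogonal to all symbols for the area form, over any field. -/
theorem BR_bd_left (s u : Equiv.Perm X) (hs : ∀ x, s (s x) = x) (hu : ∀ x, u (u (u x)) = x)
    (R : Finset X) (hR1 : ∀ x, x ∈ R ∨ u x ∈ R ∨ u (u x) ∈ R)
    (hR2 : ∀ x, x ∈ R → u x ∈ R → u x = x) {η : X → k} (hη : IsSym (⇑s) (⇑u) η) (w : X → k)
    (hw : ∀ x, w (u (s x)) = w x) : BR (⇑u) R (bd (⇑s) w) η = 0 := by
  rw [BR_eq_sum_zeta u hu R]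
  have hws : ∀ x, w (s x) = w (u x) := fun x => by
    have := hw (s x); rw [hs] at this; exact this.symm
  have e1 : ∑ x, w (u x) * zeta (⇑u) R η x = ∑ z, w z * zeta (⇑u) R η (u (u z)) := by
    rw [← Equiv.sum_comp (u * u) (fun x => w (u x) * zeta (⇑u) R η x)]
    apply Finset.sum_congr rfl
    intro z _
    simp only [Equiv.Perm.mul_apply, hu z]
  have e2 : ∀ z, zeta (⇑u) R η (u (u z)) - zeta (⇑u) R η z = - η (u z) := by
    intro z
    have h := zeta_sub s u hu R hR1 hR2 η hη (u (u z))
    rw [hu z] at h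
    have h3 := hη.2.1 z
    linear_combination h + h3
  calc ∑ x, bd (⇑s) w x * zeta (⇑u) R η x
      = ∑ x, w (u x) * zeta (⇑u) R η x - ∑ x, w x * zeta (⇑u) R η x := by
        rw [← Finset.sum_sub_distrib]
        apply Finset.sum_congr rfl
        intro x _
        simp only [bd]
        rw [hws x]
        ring
    _ = ∑ z, w z * (zeta (⇑u) R η (u (u z)) - zeta (⇑u) R η z) := by
        rw [e1, ← Finset.sum_sub_distrib]
        apply Finset.sum_congr rfl
        intro z _
        ring
    _ = - ∑ z, w z * η (u z) := by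
        rw [← Finset.sum_neg_distrib]
        apply Finset.sum_congr rfl
        intro z _
        rw [e2 z]
        ring
    _ = 0 := by rw [sum_mul_comp_u s u hη w hw, neg_zero]

end Field

section Dim

variable {X : Type*} [Fintype X] [DecidableEq X] {k : Type*} [Field k]
  {ΩS ΩU ΩT : Type*} [Fintype ΩS] [Fintype ΩU] [Fintype ΩT]

omit [DecidableEq X] in
theorem fibSum_eq_sum_mul {Ω : Type*} [DecidableEq Ω] (q : X → Ω) (f : X → k) (ω : Ω) :
    Fermat.Agent.S16.OrbitDim.fibSum q f ω = ∑ x, f x * (if q x = ω then 1 else 0) := by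
  rw [Fermat.Agent.S16.OrbitDim.fibSum_apply]
  apply Finset.sum_congr rfl
  intro x _
  split_ifs <;> simp

/-- **Dimension bound.**  A space of symbols meeting the coboundaries trivially has dimension at
most `#X + 2 - #ΩS - #ΩU - #ΩT`, where `ΩS, ΩU, ΩT` are (quotients onto which) the orbit spaces of
`s`, `r = s ∘ u ∘ s` and `t = u ∘ s` (surject). -/
theorem dim_bound [Nonempty X] (s u : Equiv.Perm X) (hs : ∀ x, s (s x) = x)
    (hu : ∀ x, u (u (u x)) = x) (h2 : (2 : k) ≠ 0)
    (hconn : ∀ P : X → Prop, (∀ x, P x → P (s (u (s x)))) → (∀ x, P x → P (u (s x))) →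
      ∀ x y, P x → P y)
    (qS : X → ΩS) (hqS : Function.Surjective qS) (hS : ∀ x, qS (s x) = qS x)
    (qU : X → ΩU) (hqU : Function.Surjective qU) (hU : ∀ x, qU (s (u (s x))) = qU x)
    (qT : X → ΩT) (hqT : Function.Surjective qT) (hT : ∀ x, qT (u (s x)) = qT x)
    (H : Submodule k (X → k)) (hsym : ∀ ξ ∈ H, IsSym (⇑s) (⇑u) ξ)
    (hdisj : ∀ ξ ∈ H, ∀ w : X → k, (∀ x, w (u (s x)) = w x) → (∀ x, ξ x = w (s x) - w x) →
      ξ = 0) :
    finrank k H + Fintype.card ΩS + Fintype.card ΩU + Fintype.card ΩT ≤ Fintype.card X + 2 := by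
  classical
  let t : Equiv.Perm X := u * s
  let r : Equiv.Perm X := s * (u * s)
  have main := Fermat.Agent.S16.OrbitDim.finrank_add_card_le (k := k) (H := ↥H) s r t
    (fun x => rfl) hconn qS hqS hS qU hqU hU qT hqT hT H.subtype
    ((LinearMap.funLeft k k (⇑t)).comp H.subtype) ?_ ?_ ?_ ?_
  · exact main.2
  · intro ξ
    funext ω
    rw [fibSum_eq_sum_mul]
    exact sym_orth_s s u h2 (hsym _ ξ.2) _ (fun x => by rw [hS x])
  · intro ξ
    funext ω
    rw [fibSum_eq_sum_mul]
    have e : ∑ x, ((LinearMap.funLeft k k (⇑t)).comp H.subtype ξ) x *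
          (if qU x = ω then (1 : k) else 0)
        = ∑ y, (ξ : X → k) y * (if qU (t.symm y) = ω then (1 : k) else 0) := by
      rw [← Equiv.sum_comp t (fun y => (ξ : X → k) y * (if qU (t.symm y) = ω then (1 : k) else 0))]
      apply Finset.sum_congr rfl
      intro x _
      rw [Equiv.symm_apply_apply]
      rfl
    rw [e]
    refine sym_orth_u s u hu (hsym _ ξ.2) _ (fun y => ?_)
    have hy : t.symm (u y) = r (t.symm y) := by
      apply t.injective
      rw [Equiv.apply_symm_apply]
      show u y = u (s (s (u (s (t.symm y)))))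
      rw [hs]
      have h' : u (s (t.symm y)) = y := t.apply_symm_apply y
      rw [h']
    rw [hy]
    show (if qU (s (u (s (t.symm y)))) = ω then (1 : k) else 0) = _
    rw [hU]
  · intro ξ
    have e : (fun x => ((LinearMap.funLeft k k (⇑t)).comp H.subtype ξ) x - (H.subtype ξ) (t x))
        = 0 := by
      funext x
      show (ξ : X → k) (t x) - (ξ : X → k) (t x) = 0
      ring
    rw [e, map_zero]
  · intro ξ v h1 h2'
    have hv : ∀ x, v (u (s x)) = v x := by
      intro x
      have a1 : (ξ : X → k) (t x) = v (t x) - v (s (t x)) := h1 (t x)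
      have a2 : (ξ : X → k) (t x) = v x - v (s (t x)) := h2' x
      show v (t x) = v x
      linear_combination a2 - a1
    apply Subtype.ext
    refine hdisj (ξ : X → k) ξ.2 (fun x => - v x) (fun x => by rw [hv x]) (fun x => ?_)
    have a1 : (ξ : X → k) x = v x - v (s x) := h1 x
    rw [a1]
    ring

/-- **Decomposition.**  If a family of symbols is independent modulo coboundaries and is as large
as the dimension bound allows, then every symbol is a combination of the family plus a
coboundary. -/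
theorem exists_decomp [Nonempty X] (s u : Equiv.Perm X) (hs : ∀ x, s (s x) = x)
    (hu : ∀ x, u (u (u x)) = x) (h2 : (2 : k) ≠ 0)
    (hconn : ∀ P : X → Prop, (∀ x, P x → P (s (u (s x)))) → (∀ x, P x → P (u (s x))) →
      ∀ x y, P x → P y)
    (qS : X → ΩS) (hqS : Function.Surjective qS) (hS : ∀ x, qS (s x) = qS x)
    (qU : X → ΩU) (hqU : Function.Surjective qU) (hU : ∀ x, qU (s (u (s x))) = qU x)
    (qT : X → ΩT) (hqT : Function.Surjective qT) (hT : ∀ x, qT (u (s x)) = qT x)
    {ι : Type*} [Fintype ι] (ξ : ι → X → k) (hξ : ∀ i, IsSym (⇑s) (⇑u) (ξ i))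
    (hinj : ∀ (c : ι → k) (w : X → k), (∀ x, w (u (s x)) = w x) →
      (∀ x, ∑ i, c i * ξ i x = w (s x) - w x) → ∀ i, c i = 0)
    (hcount : Fintype.card X + 2
      ≤ Fintype.card ι + Fintype.card ΩS + Fintype.card ΩU + Fintype.card ΩT)
    (η : X → k) (hη : IsSym (⇑s) (⇑u) η) :
    ∃ (c : ι → k) (w : X → k), (∀ x, w (u (s x)) = w x) ∧
      ∀ x, η x = ∑ i, c i * ξ i x + (w (s x) - w x) := by
  classical
  by_contra hne
  let ζ : Option ι → X → k := fun j => j.elim η ξ
  have hζsym : ∀ j, IsSym (⇑s) (⇑u) (ζ j) := by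
    intro j
    cases j with
    | none => exact hη
    | some i => exact hξ i
  have core : ∀ (d : Option ι → k) (w : X → k), (∀ x, w (u (s x)) = w x) →
      (∀ x, ∑ j, d j * ζ j x = w (s x) - w x) → ∀ j, d j = 0 := by
    intro d w hw hd
    have hd' : ∀ x, d none * η x + ∑ i, d (some i) * ξ i x = w (s x) - w x := by
      intro x
      have h := hd x
      rw [Fintype.sum_option] at h
      exact h
    have h0 : d none = 0 := by
      by_contra hd0
      apply hne
      refine ⟨fun i => - (d none)⁻¹ * d (some i), fun x => (d none)⁻¹ * w x, ?_, ?_⟩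
      · intro x
        show (d none)⁻¹ * w (u (s x)) = (d none)⁻¹ * w x
        rw [hw x]
      · intro x
        have e := hd' x
        have e2 : ∑ i, (-(d none)⁻¹ * d (some i)) * ξ i x
            = -(d none)⁻¹ * ∑ i, d (some i) * ξ i x := by
          rw [Finset.mul_sum]
          apply Finset.sum_congr rfl
          intro i _
          ring
        rw [e2]
        have e3 : ∑ i, d (some i) * ξ i x = w (s x) - w x - d none * η x := by
          linear_combination e
        rw [e3]
        field_simp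
        ring
    intro j
    cases j with
    | none => exact h0
    | some i =>
      refine hinj (fun i => d (some i)) w hw ?_ i
      intro x
      have e := hd' x
      rw [h0, zero_mul, zero_add] at e
      exact e
  have hli : LinearIndependent k ζ := by
    rw [Fintype.linearIndependent_iff]
    intro d hd j
    refine core d 0 (fun _ => rfl) ?_ j
    intro x
    have h := congrFun hd x
    simp only [Finset.sum_apply, Pi.smul_apply, smul_eq_mul, Pi.zero_apply] at h
    rw [h]
    simp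
  let H : Submodule k (X → k) := Submodule.span k (Set.range ζ)
  have hHsym : ∀ ξ' ∈ H, IsSym (⇑s) (⇑u) ξ' := by
    intro ξ' hξ'
    have hle : H ≤ symSubmodule (k := k) (⇑s) (⇑u) :=
      Submodule.span_le.mpr (by rintro _ ⟨j, rfl⟩; exact hζsym j)
    exact hle hξ'
  have hHdisj : ∀ ξ' ∈ H, ∀ w : X → k, (∀ x, w (u (s x)) = w x) →
      (∀ x, ξ' x = w (s x) - w x) → ξ' = 0 := by
    intro ξ' hξ' w hw hbd
    obtain ⟨d, rfl⟩ := (Submodule.mem_span_range_iff_exists_fun k).mp hξ'
    have hd0 := core d w hw (fun x => by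
      have h := hbd x
      simp only [Finset.sum_apply, Pi.smul_apply, smul_eq_mul] at h
      exact h)
    simp [hd0]
  have hdim := dim_bound s u hs hu h2 hconn qS hqS hS qU hqU hU qT hqT hT H hHsym hHdisj
  have hrank : finrank k H = Fintype.card (Option ι) := finrank_span_eq_card hli
  rw [hrank, Fintype.card_option] at hdim
  omega

/-- **Abstract nondegeneracy by dimension count.**  Under the hypotheses of `exists_decomp`, a
symbol orthogonal (for the area form) to the family is a coboundary. -/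
theorem nondeg_abstract [Nonempty X] (s u : Equiv.Perm X) (hs : ∀ x, s (s x) = x)
    (hu : ∀ x, u (u (u x)) = x) (h2 : (2 : k) ≠ 0)
    (hconn : ∀ P : X → Prop, (∀ x, P x → P (s (u (s x)))) → (∀ x, P x → P (u (s x))) →
      ∀ x y, P x → P y)
    (qS : X → ΩS) (hqS : Function.Surjective qS) (hS : ∀ x, qS (s x) = qS x)
    (qU : X → ΩU) (hqU : Function.Surjective qU) (hU : ∀ x, qU (s (u (s x))) = qU x)
    (qT : X → ΩT) (hqT : Function.Surjective qT) (hT : ∀ x, qT (u (s x)) = qT x)
    {ι : Type*} [Fintype ι] (ξ : ι → X → k) (hξ : ∀ i, IsSym (⇑s) (⇑u) (ξ i))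
    (hinj : ∀ (c : ι → k) (w : X → k), (∀ x, w (u (s x)) = w x) →
      (∀ x, ∑ i, c i * ξ i x = w (s x) - w x) → ∀ i, c i = 0)
    (hcount : Fintype.card X + 2
      ≤ Fintype.card ι + Fintype.card ΩS + Fintype.card ΩU + Fintype.card ΩT)
    (R : Finset X) (hR1 : ∀ x, x ∈ R ∨ u x ∈ R ∨ u (u x) ∈ R)
    (hR2 : ∀ x, x ∈ R → u x ∈ R → u x = x)
    (η : X → k) (hη : IsSym (⇑s) (⇑u) η) (horth : ∀ i, BR (⇑u) R (ξ i) η = 0) :
    ∃ w : X → k, (∀ x, w (u (s x)) = w x) ∧ ∀ x, η x = w (s x) - w x := by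
  refine exists_boundary s u hs hu h2 R hR1 hR2 η hη ?_
  intro ξ' hξ'
  obtain ⟨c, w, hw, hdec⟩ := exists_decomp s u hs hu h2 hconn qS hqS hS qU hqU hU qT hqT hT ξ hξ
    hinj hcount ξ' hξ'
  have e : ξ' = fun x => ∑ i, c i * ξ i x + bd (⇑s) w x := by
    funext x
    exact hdec x
  rw [e, BR_comb, BR_bd_left s u hs hu R hR1 hR2 hη w hw, add_zero]
  apply Finset.sum_eq_zero
  intro i _
  rw [horth i, mul_zero]

end Dim

section IntBridge

variable {X : Type*} [Fintype X] [DecidableEq X]

/-- Over `ℤ` the pairing `B3` is three times the sum of the local terms over a set of orbit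
representatives of `u`. -/
theorem B3_eq_three_mul (u : Equiv.Perm X) (hu : ∀ x, u (u (u x)) = x) (R : Finset X)
    (hR1 : ∀ x, x ∈ R ∨ u x ∈ R ∨ u (u x) ∈ R) (hR2 : ∀ x, x ∈ R → u x ∈ R → u x = x)
    {ξ η : X → ℤ} (hξ : ∀ x, ξ x + ξ (u x) + ξ (u (u x)) = 0)
    (hη : ∀ x, η x + η (u x) + η (u (u x)) = 0) :
    PDSym.B3 (⇑u) ξ η = 3 * ∑ x ∈ R, PDSym.D (⇑u) ξ η x := by
  unfold PDSym.B3
  rw [sum_eq_sum_reps u hu R hR1 hR2, Finset.mul_sum]
  apply Finset.sum_congr rfl
  intro x _
  by_cases hx : u x = x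
  · rw [if_pos hx, PDSym.D_fixed (⇑u) ξ η hx]
    ring
  · rw [if_neg hx, PDSym.D_comp hξ hη (u x), PDSym.D_comp hξ hη x]
    ring

omit [Fintype X] [DecidableEq X] in
theorem cast_sum_D {k : Type*} [Field k] (u : X → X) (R : Finset X) (ξ η : X → ℤ) :
    ((∑ x ∈ R, PDSym.D u ξ η x : ℤ) : k)
      = BR u R (fun x => (ξ x : k)) (fun x => (η x : k)) := by
  unfold BR PDSym.D
  push_cast
  rfl

omit [DecidableEq X] in
/-- The reduction of an integral symbol is a symbol (the vanishing at the fixed points of `u` is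
automatic over `ℤ`). -/
theorem isSym_cast {k : Type*} [Field k] {s u : X → X} {ξ : X → ℤ} (h : PDSym.IsSym s u ξ) :
    IsSym s u (fun x => (ξ x : k)) := by
  refine ⟨fun x => ?_, fun x => ?_, fun x hx => ?_⟩
  · show ((ξ (s x) : ℤ) : k) = - (ξ x : k)
    rw [h.anti x]
    push_cast
    ring
  · have h3 := h.tri x
    show ((ξ x : ℤ) : k) + (ξ (u x) : k) + (ξ (u (u x)) : k) = 0
    exact_mod_cast congrArg (Int.cast : ℤ → k) h3
  · have h3 := h.tri x
    rw [hx, hx] at h3
    have h0 : ξ x = 0 := by omega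
    show ((ξ x : ℤ) : k) = 0
    rw [h0]
    simp

variable {ΩS ΩU ΩT : Type*} [Fintype ΩS] [Fintype ΩU] [Fintype ΩT]

/-- **Nondegeneracy by dimension count, integral form.**  Let `Ξ i` be integral symbols whose
reductions mod `p` are independent modulo coboundaries (hypothesis `hinj`), as many as the
dimension bound allows (hypothesis `hcount`).  If an integral symbol `H` satisfies
`3 p ∣ B3 (Ξ i) H` for all `i`, then `H` is a coboundary mod `p`. -/
theorem nondeg_int [Nonempty X] (p : ℕ) [Fact p.Prime] (hp2 : p ≠ 2) (s u : Equiv.Perm X)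
    (hs : ∀ x, s (s x) = x) (hu : ∀ x, u (u (u x)) = x)
    (hconn : ∀ P : X → Prop, (∀ x, P x → P (s (u (s x)))) → (∀ x, P x → P (u (s x))) →
      ∀ x y, P x → P y)
    (qS : X → ΩS) (hqS : Function.Surjective qS) (hS : ∀ x, qS (s x) = qS x)
    (qU : X → ΩU) (hqU : Function.Surjective qU) (hU : ∀ x, qU (s (u (s x))) = qU x)
    (qT : X → ΩT) (hqT : Function.Surjective qT) (hT : ∀ x, qT (u (s x)) = qT x)
    {ι : Type*} [Fintype ι] (Ξ : ι → X → ℤ) (hΞ : ∀ i, PDSym.IsSym (⇑s) (⇑u) (Ξ i))
    (hinj : ∀ (c : ι → ℤ) (w : X → ZMod p), (∀ x, w (u (s x)) = w x) →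
      (∀ x, ((∑ i, c i * Ξ i x : ℤ) : ZMod p) = w (s x) - w x) → ∀ i, (p : ℤ) ∣ c i)
    (hcount : Fintype.card X + 2
      ≤ Fintype.card ι + Fintype.card ΩS + Fintype.card ΩU + Fintype.card ΩT)
    (H : X → ℤ) (hH : PDSym.IsSym (⇑s) (⇑u) H)
    (hdiv : ∀ i, ((3 * p : ℕ) : ℤ) ∣ PDSym.B3 (⇑u) (Ξ i) H) :
    ∃ w : X → ZMod p, (∀ x, w (u (s x)) = w x) ∧ ∀ x, ((H x : ℤ) : ZMod p) = w (s x) - w x := by
  classical
  have hp : p.Prime := Fact.out
  have h2 : (2 : ZMod p) ≠ 0 := by
    intro h
    have h' : ((2 : ℕ) : ZMod p) = 0 := by exact_mod_cast h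
    rw [ZMod.natCast_eq_zero_iff] at h'
    exact hp2 ((Nat.prime_dvd_prime_iff_eq hp Nat.prime_two).mp h')
  obtain ⟨R, hR1, hR2⟩ := exists_reps u hu
  refine nondeg_abstract (k := ZMod p) s u hs hu h2 hconn qS hqS hS qU hqU hU qT hqT hT
    (fun i x => ((Ξ i x : ℤ) : ZMod p)) (fun i => isSym_cast (hΞ i)) ?_ hcount R hR1 hR2
    (fun x => ((H x : ℤ) : ZMod p)) (isSym_cast hH) ?_
  · intro c w hw hc i
    have hlift : ∀ j, ∃ n : ℤ, (n : ZMod p) = c j := fun j => ZMod.intCast_surjective (c j)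
    choose c' hc' using hlift
    have h := hinj c' w hw (fun x => by
      rw [← hc x]
      push_cast
      apply Finset.sum_congr rfl
      intro j _
      rw [hc' j])
    rw [← hc' i]
    exact (ZMod.intCast_zmod_eq_zero_iff_dvd _ p).mpr (h i)
  · intro i
    rw [← cast_sum_D]
    have h3 := B3_eq_three_mul u hu R hR1 hR2 (hΞ i).tri hH.tri
    have hd := hdiv i
    rw [h3] at hd
    have hd' : (p : ℤ) ∣ ∑ x ∈ R, PDSym.D (⇑u) (Ξ i) H x := by
      have e : ((3 * p : ℕ) : ℤ) = 3 * (p : ℤ) := by push_cast; ring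
      rw [e] at hd
      exact (mul_dvd_mul_iff_left (by norm_num : (3 : ℤ) ≠ 0)).mp hd
    exact (ZMod.intCast_zmod_eq_zero_iff_dvd _ p).mpr hd'

end IntBridge

end Fermat.Agent.S41.PDRad
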