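/-
S41, block [PD], leaf (4) FINAL (helper96): the adjunction `res ⊣ tr` for the integral pairing
`pd3` along an inclusion `j : Γ₂ →* Γ₁` of finite index subgroups of `SL(2, ℤ)`:

  `pd3 Γ₂ (φ ∘ j) ψ = pd3 Γ₁ φ (transferAlong j ψ)`.

Assembly of `PDBridgeB.exists_lift_transfer_of_coe` (the fibre sum of a lift of `ψ` is a lift of
the transfer, and `B3` is compatible) with `PDPair.pd3_eq` (any lifts compute `pd3`).

* `isParabolicHom_of_isLift` : an integral homomorphism having a lift is parabolic (`-1 ∈ Γ`);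
* `isParabolicHom_comp_of_coe` : restriction preserves parabolicity;
* `isParabolicHom_transferAlong_of_coe` : the transfer preserves parabolicity (integral case);
* `pd3_res_transfer` : the adjunction;
* `pd3_res₁` : the adjunction for `res₁ / tr₁` of `S41/Defs.lean`.
-/
import Mathlib
import Fermat.Prelude.Def_ModularCurve_PeriodMap
import Fermat.Agent.S21.Parabolic
import Fermat.Agent.S41.Transfer
import Fermat.Agent.S41.Defs
import Fermat.Agent.S41.PDDefs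
import Fermat.Agent.S41.PDPair
import Fermat.Agent.S41.PDBridgeB

set_option autoImplicit false

open scoped MatrixGroups
open ModularGroup ModularCurve.Period CongruenceSubgroup

namespace Fermat.Agent.S41.PDResTr

open Fermat.Agent.S41 (transferAlong incl₁ incl₁_coe res₁ tr₁)
open Fermat.Agent.S41.PD (IsLift)

/-- An integral homomorphism of `Γ ∋ -1` which has a lift is parabolic. -/
theorem isParabolicHom_of_isLift {Γ : Subgroup SL(2, ℤ)} (hneg : (-1 : SL(2, ℤ)) ∈ Γ)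
    {χ : Additive Γ →+ ℤ} {F : SL(2, ℤ) → ℤ} (hF : IsLift Γ χ F) : IsParabolicHom Γ χ := by
  have hm1 : χ (Additive.ofMul (⟨-1, hneg⟩ : Γ)) = 0 := by
    have h1 : (⟨-1, hneg⟩ : Γ) * ⟨-1, hneg⟩ = 1 := by
      apply Subtype.ext
      simp
    have h2 : χ (Additive.ofMul ((⟨-1, hneg⟩ : Γ) * ⟨-1, hneg⟩)) = 0 := by
      rw [h1]
      exact map_zero χ
    rw [ofMul_mul, map_add] at h2
    omega
  have hFneg : ∀ g, F (-g) = F g := by
    intro g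
    have h3 := hF.mul_right g ⟨-1, hneg⟩
    rw [hm1, add_zero] at h3
    rw [← h3]
    congr 1
    simp
  intro γ hγ
  obtain ⟨δ, m, h | h⟩ := Fermat.Agent.S21.exists_conj_T_zpow_of_trace_sq (γ : SL(2, ℤ)) hγ
  · have e : δ⁻¹ * (γ : SL(2, ℤ)) = T ^ m * δ⁻¹ := by rw [h]; group
    have h3 := hF.mul_right δ⁻¹ γ
    rw [e, PDPair.isLift_T_zpow_left hF] at h3
    linarith
  · have e : δ⁻¹ * (γ : SL(2, ℤ)) = -(T ^ m * δ⁻¹) := by
      rw [h, mul_neg]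
      congr 1
      group
    have h3 := hF.mul_right δ⁻¹ γ
    rw [e, hFneg, PDPair.isLift_T_zpow_left hF] at h3
    linarith

variable {Γ₁ Γ₂ : Subgroup SL(2, ℤ)}

/-- Restriction along an inclusion preserves parabolicity. -/
theorem isParabolicHom_comp_of_coe (j : Γ₂ →* Γ₁)
    (hj : ∀ γ : Γ₂, ((j γ : Γ₁) : SL(2, ℤ)) = (γ : SL(2, ℤ)))
    {A : Type*} [AddCommGroup A] {φ : Additive Γ₁ →+ A} (hφ : IsParabolicHom Γ₁ φ) :
    IsParabolicHom Γ₂ (φ.comp (MonoidHom.toAdditive j)) := by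
  intro γ hγ
  show φ (Additive.ofMul (j γ)) = 0
  apply hφ
  rw [hj]
  exact hγ

/-- The transfer along an inclusion of finite index preserves parabolicity (integral
coefficients). -/
theorem isParabolicHom_transferAlong_of_coe [Finite (SL(2, ℤ) ⧸ Γ₂)]
    (hneg : (-1 : SL(2, ℤ)) ∈ Γ₂) (j : Γ₂ →* Γ₁)
    (hj : ∀ γ : Γ₂, ((j γ : Γ₁) : SL(2, ℤ)) = (γ : SL(2, ℤ)))
    {ψ : Additive Γ₂ →+ ℤ} (hψ : IsParabolicHom Γ₂ ψ) :
    IsParabolicHom Γ₁ (transferAlong j ψ) := by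
  have hneg₁ : (-1 : SL(2, ℤ)) ∈ Γ₁ := by
    have h := (j ⟨-1, hneg⟩).2
    rwa [hj] at h
  obtain ⟨F', hF'⟩ := PDPair.exists_isLift Γ₂ ψ hψ
  have := PDBridgeB.finite_quotient_range_of_coe j hj
  obtain ⟨n, t, hcov, hinj⟩ := PDBridgeB.exists_leftReps j
  exact isParabolicHom_of_isLift hneg₁ (PDBridgeB.isLift_sum_of_coe j hj t hcov hinj hF')

/-- **The adjunction `res ⊣ tr` for `pd3`** along an inclusion `j : Γ₂ →* Γ₁`. -/
theorem pd3_res_transfer [Fintype (SL(2, ℤ) ⧸ Γ₁)] [Fintype (SL(2, ℤ) ⧸ Γ₂)]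
    (hneg : (-1 : SL(2, ℤ)) ∈ Γ₂) (j : Γ₂ →* Γ₁)
    (hj : ∀ γ : Γ₂, ((j γ : Γ₁) : SL(2, ℤ)) = (γ : SL(2, ℤ)))
    (φ : Additive Γ₁ →+ ℤ) (hφ : IsParabolicHom Γ₁ φ)
    (ψ : Additive Γ₂ →+ ℤ) (hψ : IsParabolicHom Γ₂ ψ) :
    PDPair.pd3 Γ₂ (φ.comp (MonoidHom.toAdditive j)) ψ = PDPair.pd3 Γ₁ φ (transferAlong j ψ) := by
  have hneg₁ : (-1 : SL(2, ℤ)) ∈ Γ₁ := by
    have h := (j ⟨-1, hneg⟩).2
    rwa [hj] at h
  obtain ⟨F, hF⟩ := PDPair.exists_isLift Γ₁ φ hφ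
  obtain ⟨F', hF'⟩ := PDPair.exists_isLift Γ₂ ψ hψ
  obtain ⟨hFr, F'', hF'', hB⟩ := PDBridgeB.exists_lift_transfer_of_coe j hneg hj hF hF'
  have htr : IsParabolicHom Γ₁ (transferAlong j ψ) := isParabolicHom_of_isLift hneg₁ hF''
  rw [PDPair.pd3_eq hneg (isParabolicHom_comp_of_coe j hj hφ) hψ hFr hF',
    PDPair.pd3_eq hneg₁ hφ htr hF hF'', hB]

theorem neg_one_mem_Gamma0 (M : ℕ) : (-1 : SL(2, ℤ)) ∈ Gamma0 M := by
  rw [Gamma0_mem]
  simp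

/-- The adjunction `res₁ ⊣ tr₁` for `pd3` (levels `N` and `N q`). -/
theorem pd3_res₁ (N q : ℕ) [Fintype (SL(2, ℤ) ⧸ Gamma0 N)] [Fintype (SL(2, ℤ) ⧸ Gamma0 (N * q))]
    (φ : Additive (Gamma0 N) →+ ℤ) (hφ : IsParabolicHom (Gamma0 N) φ)
    (ψ : Additive (Gamma0 (N * q)) →+ ℤ) (hψ : IsParabolicHom (Gamma0 (N * q)) ψ) :
    PDPair.pd3 (Gamma0 (N * q)) (res₁ N q φ) ψ = PDPair.pd3 (Gamma0 N) φ (tr₁ N q ψ) :=
  pd3_res_transfer (neg_one_mem_Gamma0 (N * q)) (incl₁ N q) (incl₁_coe N q)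
    φ hφ ψ hψ

end Fermat.Agent.S41.PDResTr
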