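/-
S41, block [PD], hedge leaf (S-N), part (N1) (helper34; partner helper75 = PDRad / PDRadDim).

If `F` is a lift of `φ : Γ → ℤ` and the reduction mod `p` of its symbol is a coboundary
`w ∘ s - w` of a `T`-invariant function `w : X → ZMod p`, then all values of `φ` are divisible
by `p`, hence `φ = p • φ'`.
-/
import Mathlib
import Fermat.Prelude.Def_ModularCurve_PeriodMap
import Fermat.Agent.S41.PDDefs
import Fermat.Agent.S41.LparFree

set_option autoImplicit false

open scoped MatrixGroups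
open ModularGroup ModularCurve.Period

namespace Fermat.Agent.S41.PDSNOne

open Fermat.Agent.S41.PD

/-- A function on `SL(2, ℤ)` invariant under left multiplication by `S` and `T` is constant. -/
theorem const_of_left_invariant {A : Type*} (E : SL(2, ℤ) → A) (hS : ∀ g, E (S * g) = E g)
    (hT : ∀ g, E (T * g) = E g) (g : SL(2, ℤ)) : E g = E 1 := by
  have hall : ∀ h : SL(2, ℤ), ∀ g, E (h * g) = E g := by
    intro h
    have hh : h ∈ Subgroup.closure ({S, T} : Set SL(2, ℤ)) := by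
      rw [SpecialLinearGroup.SL2Z_generators]
      trivial
    induction hh using Subgroup.closure_induction with
    | mem a ha =>
      rcases ha with rfl | ha
      · exact hS
      · rw [Set.mem_singleton_iff] at ha
        subst ha
        exact hT
    | one => intro g; rw [one_mul]
    | mul a b _ _ iha ihb => intro g; rw [mul_assoc, iha, ihb]
    | inv a _ iha =>
      intro g
      have := iha (a⁻¹ * g)
      rw [mul_inv_cancel_left] at this
      exact this.symm
  have := hall g 1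
  rw [mul_one] at this
  exact this

variable {Γ : Subgroup SL(2, ℤ)}

/-- **(N1)** If the symbol of a lift `F` of `φ` is, modulo `p`, the coboundary of a `T`-invariant
function on `X = SL(2, ℤ) ⧸ Γ`, then `p` divides every value of `φ`. -/
theorem dvd_of_boundary (hneg : (-1 : SL(2, ℤ)) ∈ Γ) (p : ℕ) {φ : Additive Γ →+ ℤ}
    {F : SL(2, ℤ) → ℤ} (hF : IsLift Γ φ F) (w : SL(2, ℤ) ⧸ Γ → ZMod p)
    (hw : ∀ x, w (uX Γ (sX Γ x)) = w x)
    (h : ∀ x, ((sym Γ F x : ℤ) : ZMod p) = w (sX Γ x) - w x) (γ : Γ) :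
    (p : ℤ) ∣ φ (Additive.ofMul γ) := by
  set E : SL(2, ℤ) → ZMod p := fun g => ((F g : ℤ) : ZMod p) - w (g : SL(2, ℤ) ⧸ Γ) with hE
  have hES : ∀ g, E (S * g) = E g := by
    intro g
    have h1 := h (g : SL(2, ℤ) ⧸ Γ)
    rw [sym_mk hF g, sX_mk] at h1
    simp only [hE]
    push_cast at h1
    linear_combination h1
  have hET : ∀ g, E (T * g) = E g := by
    intro g
    have h1 := hw (g : SL(2, ℤ) ⧸ Γ)
    rw [uX_sX hneg] at h1
    have h2 : ((T * g : SL(2, ℤ)) : SL(2, ℤ) ⧸ Γ) = T • (g : SL(2, ℤ) ⧸ Γ) := rfl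
    simp only [hE]
    rw [hF.T_left, h2, h1]
  have h1 := const_of_left_invariant E hES hET (γ : SL(2, ℤ))
  have h2 : (((γ : SL(2, ℤ)) : SL(2, ℤ)) : SL(2, ℤ) ⧸ Γ) = ((1 : SL(2, ℤ)) : SL(2, ℤ) ⧸ Γ) := by
    have := QuotientGroup.mk_mul_of_mem (s := Γ) (1 : SL(2, ℤ)) γ.2
    rw [one_mul] at this
    exact this
  have h3 : F (γ : SL(2, ℤ)) = F 1 + φ (Additive.ofMul γ) := by
    have := hF.mul_right 1 γ
    rw [one_mul] at this
    exact this
  simp only [hE] at h1
  rw [h2, h3] at h1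
  rw [← ZMod.intCast_zmod_eq_zero_iff_dvd]
  push_cast at h1
  linear_combination h1

/-- **(N1)**, conclusion in `Hom(Γ, ℤ)`. -/
theorem exists_eq_smul_of_boundary (hneg : (-1 : SL(2, ℤ)) ∈ Γ) (p : ℕ) {φ : Additive Γ →+ ℤ}
    {F : SL(2, ℤ) → ℤ} (hF : IsLift Γ φ F) (w : SL(2, ℤ) ⧸ Γ → ZMod p)
    (hw : ∀ x, w (uX Γ (sX Γ x)) = w x)
    (h : ∀ x, ((sym Γ F x : ℤ) : ZMod p) = w (sX Γ x) - w x) :
    ∃ φ' : Additive Γ →+ ℤ, φ = (p : ℤ) • φ' :=
  LparFree.exists_eq_smul_of_dvd_hom Γ (p : ℤ) φ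
    (fun γ => dvd_of_boundary hneg p hF w hw h (Additive.toMul γ))

end Fermat.Agent.S41.PDSNOne
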