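/-
S41, block [PD], hedge leaf (S-N), part (rank) (helper34; partner helper75 = PDRad / PDRadDim).

The rank of the parabolic lattice `Hom_par(Γ₀(M), ℤ)` is at least
`[SL(2, ℤ) : Γ₀(M)] + 2 - #(X/S) - #(X/ST) - #(X/T)`, `X = SL(2, ℤ) ⧸ Γ₀(M)`
(Eichler–Shimura + the genus formula + the four coset counts).
-/
import Fermat.Agent.S16.ParLift
import Fermat.Agent.S41.CohLat

set_option autoImplicit false

open scoped MatrixGroups
open ModularGroup ModularCurve ModularCurve.Period CongruenceSubgroup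

namespace Fermat.Agent.S41.PDSNRank

open Fermat.Agent.S16

/-- The complex dimension of `Hom_par(Γ₀(M), ℂ)` is at most the rank of `Hom_par(Γ₀(M), ℤ)`. -/
theorem finrank_complex_le (M : ℕ) [NeZero M] :
    Module.finrank ℂ (parabolicHoms ℂ (Gamma0 M) ℂ) ≤
      Module.finrank ℤ (parabolicHoms ℤ (Gamma0 M) ℤ) := by
  have hfg : Group.FG ↥(Gamma0 M) := Fermat.Agent.S22.gamma0_fg M
  have hfin : Module.Finite ℂ (parabolicHoms ℂ (Gamma0 M) ℂ) :=
    Fermat.Agent.S21.finite_parabolicHoms_Gamma0 M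
  let b := Module.finBasis ℂ (parabolicHoms ℂ (Gamma0 M) ℂ)
  have h := LiftLemma.card_le_finrank_killHoms (CohLat.parSet M) _
    (fun i => (b i : Additive (Gamma0 M) →+ ℂ))
    (b.linearIndependent.map' (Submodule.subtype _) (Submodule.ker_subtype _))
    (fun i γ hγ => (b i).2 γ hγ)
  rw [← CohLat.parabolicHoms_eq_killHoms] at h
  exact h

/-- `6 · dim_ℂ Hom_par(Γ₀(M), ℂ) + 6 c + 3 ν₂ + 4 ν₃ = ψ(M) + 12`. -/
theorem six_mul_finrank_complex (M : ℕ) [NeZero M] :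
    6 * Module.finrank ℂ (parabolicHoms ℂ (Gamma0 M) ℂ) + 6 * cuspCount M + 3 * nuTwo M
      + 4 * nuThree M = dedekindPsi M + 12 := by
  have h1 := ParLift.finrank_parabolicHoms_eq M
  have h2 := Fermat.Agent.S20.result M
  unfold genusFormula at h2
  have h3 : (6 * (Module.finrank ℂ (parabolicHoms ℂ (Gamma0 M) ℂ) : ℚ) + 6 * (cuspCount M : ℚ)
      + 3 * (nuTwo M : ℚ) + 4 * (nuThree M : ℚ)) = (dedekindPsi M : ℚ) + 12 := by
    rw [h1]
    push_cast
    rw [h2]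
    ring
  exact_mod_cast h3

/-- **(rank)** `#X + 2 ≤ rank Hom_par(Γ₀(M), ℤ) + #(X/S) + #(X/ST) + #(X/T)`. -/
theorem card_add_two_le (M : ℕ) [NeZero M] :
    Nat.card (SL(2, ℤ) ⧸ Gamma0 M) + 2 ≤
      Module.finrank ℤ (parabolicHoms ℤ (Gamma0 M) ℤ)
        + Nat.card (MulAction.orbitRel.Quotient (Subgroup.zpowers S) (SL(2, ℤ) ⧸ Gamma0 M))
        + Nat.card (MulAction.orbitRel.Quotient (Subgroup.zpowers (S * T)) (SL(2, ℤ) ⧸ Gamma0 M))
        + Nat.card (MulAction.orbitRel.Quotient (Subgroup.zpowers T) (SL(2, ℤ) ⧸ Gamma0 M)) := by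
  have h0 := finrank_complex_le M
  have h1 := six_mul_finrank_complex M
  have h2 := Fermat.Agent.S21.two_mul_card_orbits_S (Gamma0 M)
    (Fermat.Agent.S21.neg_one_mem_Gamma0 M)
  have h3 := Fermat.Agent.S21.three_mul_card_orbits_ST (Gamma0 M)
    (Fermat.Agent.S21.neg_one_mem_Gamma0 M)
  rw [Fermat.Agent.S20.card_Q, Fermat.Agent.S20.card_fixedBy_S] at h2
  rw [Fermat.Agent.S20.card_Q, Fermat.Agent.S20.card_fixedBy_ST] at h3
  rw [Fermat.Agent.S20.card_Q, Fermat.Agent.S20.card_orbits_T]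
  omega

end Fermat.Agent.S41.PDSNRank
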