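/-
S41 / block [PD], hedge (S-E): Sanov's free subgroup of `SL(2, ℤ)` (helper86).

`gA = [[1,2],[0,1]]`, `gB = [[1,0],[2,1]]` generate a free subgroup of finite index:
* `sanovHom_injective` : `FreeGroup.lift ![gA, gB]` is injective (ping-pong on nonzero vectors);
* `mem_range_of`       : every `g` with `4 ∣ g 0 0 - 1`, `2 ∣ g 0 1`, `2 ∣ g 1 0` is in the range
  (Euclid descent on the first column);
* `gamma4_le_range`, `finiteIndex_range`;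
* `exists_free_finiteIndex` : every subgroup `Γ` of `SL(2, ℤ)` has a free subgroup of finite index.
Mathlib only.
-/
import Mathlib

set_option autoImplicit false

open Matrix
open scoped MatrixGroups

namespace Fermat.Agent.S41.PDSanov

/-- `[[1,2],[0,1]]`. -/
def gA : SL(2, ℤ) := ⟨!![1, 2; 0, 1], by simp [Matrix.det_fin_two]⟩
/-- `[[1,0],[2,1]]`. -/
def gB : SL(2, ℤ) := ⟨!![1, 0; 2, 1], by simp [Matrix.det_fin_two]⟩
/-- `[[1,-2],[0,1]]`. -/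
def gAi : SL(2, ℤ) := ⟨!![1, -2; 0, 1], by simp [Matrix.det_fin_two]⟩
/-- `[[1,0],[-2,1]]`. -/
def gBi : SL(2, ℤ) := ⟨!![1, 0; -2, 1], by simp [Matrix.det_fin_two]⟩

theorem gA_mul_gAi : gA * gAi = 1 := by decide
theorem gAi_mul_gA : gAi * gA = 1 := by decide
theorem gB_mul_gBi : gB * gBi = 1 := by decide
theorem gBi_mul_gB : gBi * gB = 1 := by decide

theorem gAi_eq : gAi = gA⁻¹ := eq_inv_of_mul_eq_one_left gAi_mul_gA
theorem gBi_eq : gBi = gB⁻¹ := eq_inv_of_mul_eq_one_left gBi_mul_gB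

/-- Sanov's generators. -/
def gen : Fin 2 → SL(2, ℤ) := ![gA, gB]

/-- The homomorphism from the free group on two generators. -/
def sanovHom : FreeGroup (Fin 2) →* SL(2, ℤ) := FreeGroup.lift gen

theorem gA_mem : gA ∈ sanovHom.range := ⟨FreeGroup.of 0, by simp [sanovHom, gen]⟩
theorem gB_mem : gB ∈ sanovHom.range := ⟨FreeGroup.of 1, by simp [sanovHom, gen]⟩
theorem gAi_mem : gAi ∈ sanovHom.range := gAi_eq ▸ inv_mem gA_mem
theorem gBi_mem : gBi ∈ sanovHom.range := gBi_eq ▸ inv_mem gB_mem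

section entries

variable (g : SL(2, ℤ))

theorem det_eq : g 0 0 * g 1 1 - g 0 1 * g 1 0 = 1 := by
  have h := g.det_coe
  rw [Matrix.det_fin_two] at h
  exact h

theorem gA_mul_00 : (gA * g) 0 0 = g 0 0 + 2 * g 1 0 := by
  rw [Matrix.SpecialLinearGroup.coe_mul, Matrix.mul_apply, Fin.sum_univ_two]
  simp [gA]
theorem gA_mul_01 : (gA * g) 0 1 = g 0 1 + 2 * g 1 1 := by
  rw [Matrix.SpecialLinearGroup.coe_mul, Matrix.mul_apply, Fin.sum_univ_two]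
  simp [gA]
theorem gA_mul_10 : (gA * g) 1 0 = g 1 0 := by
  rw [Matrix.SpecialLinearGroup.coe_mul, Matrix.mul_apply, Fin.sum_univ_two]
  simp [gA]
theorem gA_mul_11 : (gA * g) 1 1 = g 1 1 := by
  rw [Matrix.SpecialLinearGroup.coe_mul, Matrix.mul_apply, Fin.sum_univ_two]
  simp [gA]

theorem gAi_mul_00 : (gAi * g) 0 0 = g 0 0 - 2 * g 1 0 := by
  rw [Matrix.SpecialLinearGroup.coe_mul, Matrix.mul_apply, Fin.sum_univ_two]
  simp [gAi]
  ring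
theorem gAi_mul_01 : (gAi * g) 0 1 = g 0 1 - 2 * g 1 1 := by
  rw [Matrix.SpecialLinearGroup.coe_mul, Matrix.mul_apply, Fin.sum_univ_two]
  simp [gAi]
  ring
theorem gAi_mul_10 : (gAi * g) 1 0 = g 1 0 := by
  rw [Matrix.SpecialLinearGroup.coe_mul, Matrix.mul_apply, Fin.sum_univ_two]
  simp [gAi]
theorem gAi_mul_11 : (gAi * g) 1 1 = g 1 1 := by
  rw [Matrix.SpecialLinearGroup.coe_mul, Matrix.mul_apply, Fin.sum_univ_two]
  simp [gAi]

theorem gB_mul_00 : (gB * g) 0 0 = g 0 0 := by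
  rw [Matrix.SpecialLinearGroup.coe_mul, Matrix.mul_apply, Fin.sum_univ_two]
  simp [gB]
theorem gB_mul_01 : (gB * g) 0 1 = g 0 1 := by
  rw [Matrix.SpecialLinearGroup.coe_mul, Matrix.mul_apply, Fin.sum_univ_two]
  simp [gB]
theorem gB_mul_10 : (gB * g) 1 0 = 2 * g 0 0 + g 1 0 := by
  rw [Matrix.SpecialLinearGroup.coe_mul, Matrix.mul_apply, Fin.sum_univ_two]
  simp [gB]
theorem gB_mul_11 : (gB * g) 1 1 = 2 * g 0 1 + g 1 1 := by
  rw [Matrix.SpecialLinearGroup.coe_mul, Matrix.mul_apply, Fin.sum_univ_two]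
  simp [gB]

theorem gBi_mul_00 : (gBi * g) 0 0 = g 0 0 := by
  rw [Matrix.SpecialLinearGroup.coe_mul, Matrix.mul_apply, Fin.sum_univ_two]
  simp [gBi]
theorem gBi_mul_01 : (gBi * g) 0 1 = g 0 1 := by
  rw [Matrix.SpecialLinearGroup.coe_mul, Matrix.mul_apply, Fin.sum_univ_two]
  simp [gBi]
theorem gBi_mul_10 : (gBi * g) 1 0 = -(2 * g 0 0) + g 1 0 := by
  rw [Matrix.SpecialLinearGroup.coe_mul, Matrix.mul_apply, Fin.sum_univ_two]
  simp [gBi]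
theorem gBi_mul_11 : (gBi * g) 1 1 = -(2 * g 0 1) + g 1 1 := by
  rw [Matrix.SpecialLinearGroup.coe_mul, Matrix.mul_apply, Fin.sum_univ_two]
  simp [gBi]

end entries

/-! ### The descent: `mem_range_of` -/

/-- The congruence conditions cutting out the Sanov subgroup. -/
def SanovCond (g : SL(2, ℤ)) : Prop :=
  (4 : ℤ) ∣ g 0 0 - 1 ∧ (2 : ℤ) ∣ g 0 1 ∧ (2 : ℤ) ∣ g 1 0

theorem sanovCond_gA_mul {g : SL(2, ℤ)} (h : SanovCond g) : SanovCond (gA * g) := by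
  obtain ⟨⟨k, hk⟩, ⟨l, hl⟩, ⟨m, hm⟩⟩ := h
  refine ⟨⟨k + m, ?_⟩, ⟨l + g 1 1, ?_⟩, ⟨m, ?_⟩⟩
  · rw [gA_mul_00]; linarith
  · rw [gA_mul_01]; linarith
  · rw [gA_mul_10]; exact hm

theorem sanovCond_gAi_mul {g : SL(2, ℤ)} (h : SanovCond g) : SanovCond (gAi * g) := by
  obtain ⟨⟨k, hk⟩, ⟨l, hl⟩, ⟨m, hm⟩⟩ := h
  refine ⟨⟨k - m, ?_⟩, ⟨l - g 1 1, ?_⟩, ⟨m, ?_⟩⟩
  · rw [gAi_mul_00]; linarith
  · rw [gAi_mul_01]; linarith
  · rw [gAi_mul_10]; exact hm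

theorem sanovCond_gB_mul {g : SL(2, ℤ)} (h : SanovCond g) : SanovCond (gB * g) := by
  obtain ⟨⟨k, hk⟩, ⟨l, hl⟩, ⟨m, hm⟩⟩ := h
  refine ⟨⟨k, ?_⟩, ⟨l, ?_⟩, ⟨g 0 0 + m, ?_⟩⟩
  · rw [gB_mul_00]; exact hk
  · rw [gB_mul_01]; exact hl
  · rw [gB_mul_10]; linarith

theorem sanovCond_gBi_mul {g : SL(2, ℤ)} (h : SanovCond g) : SanovCond (gBi * g) := by
  obtain ⟨⟨k, hk⟩, ⟨l, hl⟩, ⟨m, hm⟩⟩ := h
  refine ⟨⟨k, ?_⟩, ⟨l, ?_⟩, ⟨m - g 0 0, ?_⟩⟩
  · rw [gBi_mul_00]; exact hk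
  · rw [gBi_mul_01]; exact hl
  · rw [gBi_mul_10]; linarith

theorem gA_eq_T_zpow : gA = ModularGroup.T ^ (2 : ℤ) := by
  apply Subtype.ext
  rw [ModularGroup.coe_T_zpow]
  rfl

/-- Base case of the descent: upper unitriangular with even off-diagonal entry. -/
theorem mem_range_of_c_eq_zero {g : SL(2, ℤ)} (h : SanovCond g) (hc : g 1 0 = 0) :
    g ∈ sanovHom.range := by
  obtain ⟨⟨k, hk⟩, ⟨l, hl⟩, -⟩ := h
  have hdet := det_eq g
  rw [hc, mul_zero, sub_zero] at hdet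
  have ha : g 0 0 = 1 := by
    rcases Int.eq_one_or_neg_one_of_mul_eq_one hdet with h1 | h1
    · exact h1
    · omega
  have hd : g 1 1 = 1 := by rw [ha, one_mul] at hdet; exact hdet
  have hg : g = gA ^ l := by
    rw [gA_eq_T_zpow, ← _root_.zpow_mul]
    ext i j
    fin_cases i <;> fin_cases j <;>
      simp [ha, hc, hd, hl, ModularGroup.coe_T_zpow, show (1 : Fin (0 + 2)) = (1 : Fin 2) from rfl]
  rw [hg]
  exact zpow_mem gA_mem l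

theorem mem_range_of_aux (n : ℕ) : ∀ g : SL(2, ℤ), SanovCond g →
    (g 0 0) ^ 2 + (g 1 0) ^ 2 = (n : ℤ) → g ∈ sanovHom.range := by
  induction n using Nat.strong_induction_on with
  | _ n ih =>
    intro g hg hn
    have step : ∀ x : SL(2, ℤ), x ∈ sanovHom.range → ∀ y : SL(2, ℤ), y * x = 1 →
        SanovCond (x * g) → (x * g) 0 0 ^ 2 + (x * g) 1 0 ^ 2 < (n : ℤ) → g ∈ sanovHom.range := by
      intro x hx y hyx hcond hlt
      have hnn : (0 : ℤ) ≤ (x * g) 0 0 ^ 2 + (x * g) 1 0 ^ 2 := by positivity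
      obtain ⟨m, hm⟩ := Int.eq_ofNat_of_zero_le hnn
      have hmn : m < n := by omega
      have hmem := ih m hmn (x * g) hcond hm
      have hy : y ∈ sanovHom.range := by
        have : y = x⁻¹ := eq_inv_of_mul_eq_one_left hyx
        rw [this]; exact inv_mem hx
      have : g = y * (x * g) := by rw [← mul_assoc, hyx, one_mul]
      rw [this]
      exact mul_mem hy hmem
    by_cases h1 : (g 1 0) ^ 2 < g 0 0 * g 1 0
    · refine step gAi gAi_mem gA gA_mul_gAi (sanovCond_gAi_mul hg) ?_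
      rw [gAi_mul_00, gAi_mul_10]; nlinarith
    by_cases h2 : (g 1 0) ^ 2 < -(g 0 0 * g 1 0)
    · refine step gA gA_mem gAi gAi_mul_gA (sanovCond_gA_mul hg) ?_
      rw [gA_mul_00, gA_mul_10]; nlinarith
    by_cases h3 : (g 0 0) ^ 2 < g 0 0 * g 1 0
    · refine step gBi gBi_mem gB gB_mul_gBi (sanovCond_gBi_mul hg) ?_
      rw [gBi_mul_00, gBi_mul_10]; nlinarith
    by_cases h4 : (g 0 0) ^ 2 < -(g 0 0 * g 1 0)
    · refine step gB gB_mem gBi gBi_mul_gB (sanovCond_gB_mul hg) ?_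
      rw [gB_mul_00, gB_mul_10]; nlinarith
    -- no step applies: then `g 1 0 = 0`
    apply mem_range_of_c_eq_zero hg
    by_contra hc
    obtain ⟨⟨k, hk⟩, -, ⟨m, hm⟩⟩ := hg
    have hsq : (g 0 0) ^ 2 = (g 1 0) ^ 2 := by
      have ha0 : g 0 0 ≠ 0 := by omega
      have e1 : (g 0 0 * g 1 0) ^ 2 = (g 0 0) ^ 2 * (g 1 0) ^ 2 := by ring
      have hc2 : 0 < (g 1 0) ^ 2 := by positivity
      have ha2 : 0 < (g 0 0) ^ 2 := by positivity
      have hq : (g 0 0 * g 1 0) ^ 2 ≤ ((g 1 0) ^ 2) ^ 2 := by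
        apply sq_le_sq'
        · linarith
        · linarith
      have hq' : (g 0 0 * g 1 0) ^ 2 ≤ ((g 0 0) ^ 2) ^ 2 := by
        apply sq_le_sq'
        · linarith
        · linarith
      have i1 : (g 0 0) ^ 2 ≤ (g 1 0) ^ 2 := by
        rw [e1] at hq
        by_contra hlt
        push Not at hlt
        nlinarith
      have i2 : (g 1 0) ^ 2 ≤ (g 0 0) ^ 2 := by
        rw [e1] at hq'
        by_contra hlt
        push Not at hlt
        nlinarith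
      exact le_antisymm i1 i2
    have hpar : (g 0 0) ^ 2 % 2 = 1 := by
      have : g 0 0 = 4 * k + 1 := by linarith
      rw [this]; ring_nf; omega
    have hpar' : (g 1 0) ^ 2 % 2 = 0 := by
      rw [hm]; ring_nf; omega
    omega

/-- Every matrix with `a ≡ 1 (4)`, `b ≡ c ≡ 0 (2)` lies in the Sanov subgroup. -/
theorem mem_range_of {g : SL(2, ℤ)} (ha : (4 : ℤ) ∣ g 0 0 - 1) (hb : (2 : ℤ) ∣ g 0 1)
    (hc : (2 : ℤ) ∣ g 1 0) : g ∈ sanovHom.range := by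
  have hnn : (0 : ℤ) ≤ (g 0 0) ^ 2 + (g 1 0) ^ 2 := by positivity
  obtain ⟨m, hm⟩ := Int.eq_ofNat_of_zero_le hnn
  exact mem_range_of_aux m g ⟨ha, hb, hc⟩ hm

theorem gamma4_le_range : CongruenceSubgroup.Gamma 4 ≤ sanovHom.range := by
  intro g hg
  rw [CongruenceSubgroup.Gamma_mem] at hg
  obtain ⟨h00, h01, h10, -⟩ := hg
  have e4 : ((4 : ℕ) : ℤ) = 4 := rfl
  have d00 : (4 : ℤ) ∣ g 0 0 - 1 := by
    have : ((g 0 0 - 1 : ℤ) : ZMod 4) = 0 := by push_cast; rw [h00]; ring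
    rw [ZMod.intCast_zmod_eq_zero_iff_dvd] at this
    exact_mod_cast this
  have d01 : (4 : ℤ) ∣ g 0 1 := by
    rw [ZMod.intCast_zmod_eq_zero_iff_dvd] at h01
    exact_mod_cast h01
  have d10 : (4 : ℤ) ∣ g 1 0 := by
    rw [ZMod.intCast_zmod_eq_zero_iff_dvd] at h10
    exact_mod_cast h10
  exact mem_range_of d00 (Dvd.dvd.trans ⟨2, by norm_num⟩ d01) (Dvd.dvd.trans ⟨2, by norm_num⟩ d10)

instance finiteIndex_range : sanovHom.range.FiniteIndex :=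
  Subgroup.finiteIndex_of_le gamma4_le_range

/-! ### Ping-pong: `sanovHom_injective` -/

/-- The nonzero integer vectors, as a `SL(2, ℤ)`-stable subset of `Fin 2 → ℤ`. -/
def nzVec : SubMulAction SL(2, ℤ) (Fin 2 → ℤ) where
  carrier := {v | v ≠ 0}
  smul_mem' := by
    intro g v hv hgv
    apply hv
    have : g⁻¹ • g • v = g⁻¹ • (0 : Fin 2 → ℤ) := by rw [hgv]
    rwa [inv_smul_smul, smul_zero] at this

theorem smul_vec_zero (g : SL(2, ℤ)) (v : Fin 2 → ℤ) :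
    (g • v) 0 = g 0 0 * v 0 + g 0 1 * v 1 := by
  rw [Matrix.SpecialLinearGroup.smul_def, Matrix.smul_eq_mulVec, Matrix.mulVec, dotProduct,
    Fin.sum_univ_two]

theorem smul_vec_one (g : SL(2, ℤ)) (v : Fin 2 → ℤ) :
    (g • v) 1 = g 1 0 * v 0 + g 1 1 * v 1 := by
  rw [Matrix.SpecialLinearGroup.smul_def, Matrix.smul_eq_mulVec, Matrix.mulVec, dotProduct,
    Fin.sum_univ_two]

theorem gA_smul_zero (v : Fin 2 → ℤ) : (gA • v) 0 = v 0 + 2 * v 1 := by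
  rw [smul_vec_zero]; simp [gA]
theorem gA_smul_one (v : Fin 2 → ℤ) : (gA • v) 1 = v 1 := by
  rw [smul_vec_one]; simp [gA]
theorem gAi_smul_zero (v : Fin 2 → ℤ) : (gAi • v) 0 = v 0 - 2 * v 1 := by
  rw [smul_vec_zero]; simp [gAi]; ring
theorem gAi_smul_one (v : Fin 2 → ℤ) : (gAi • v) 1 = v 1 := by
  rw [smul_vec_one]; simp [gAi]
theorem gB_smul_zero (v : Fin 2 → ℤ) : (gB • v) 0 = v 0 := by
  rw [smul_vec_zero]; simp [gB]
theorem gB_smul_one (v : Fin 2 → ℤ) : (gB • v) 1 = 2 * v 0 + v 1 := by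
  rw [smul_vec_one]; simp [gB]
theorem gBi_smul_zero (v : Fin 2 → ℤ) : (gBi • v) 0 = v 0 := by
  rw [smul_vec_zero]; simp [gBi]
theorem gBi_smul_one (v : Fin 2 → ℤ) : (gBi • v) 1 = v 1 - 2 * v 0 := by
  rw [smul_vec_one]; simp [gBi]; ring

/-- Ping-pong sets. -/
def setXA : Set nzVec := {v | (v : Fin 2 → ℤ) 1 ^ 2 ≤ (v : Fin 2 → ℤ) 0 * (v : Fin 2 → ℤ) 1}
def setYA : Set nzVec := {v | (v : Fin 2 → ℤ) 0 * (v : Fin 2 → ℤ) 1 < -((v : Fin 2 → ℤ) 1 ^ 2)}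
def setXB : Set nzVec := {v | 0 ≤ (v : Fin 2 → ℤ) 0 * (v : Fin 2 → ℤ) 1 ∧
  (v : Fin 2 → ℤ) 0 * (v : Fin 2 → ℤ) 1 < (v : Fin 2 → ℤ) 1 ^ 2}
def setYB : Set nzVec := {v | -((v : Fin 2 → ℤ) 1 ^ 2) ≤ (v : Fin 2 → ℤ) 0 * (v : Fin 2 → ℤ) 1 ∧
  (v : Fin 2 → ℤ) 0 * (v : Fin 2 → ℤ) 1 < 0}

/-- The two coordinates of a nonzero vector are not both zero. -/
theorem nzVec_ne (v : nzVec) : (v : Fin 2 → ℤ) 0 ≠ 0 ∨ (v : Fin 2 → ℤ) 1 ≠ 0 := by
  by_contra h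
  push Not at h
  apply v.2
  funext i
  fin_cases i
  · exact h.1
  · exact h.2

theorem pp_XA (v : nzVec) (hv : v ∉ setYA) : gA • v ∈ setXA := by
  have hv' : ¬ ((v : Fin 2 → ℤ) 0 * (v : Fin 2 → ℤ) 1 < -((v : Fin 2 → ℤ) 1 ^ 2)) := hv
  show ((gA • v : nzVec) : Fin 2 → ℤ) 1 ^ 2 ≤
    ((gA • v : nzVec) : Fin 2 → ℤ) 0 * ((gA • v : nzVec) : Fin 2 → ℤ) 1
  rw [SubMulAction.val_smul, gA_smul_zero, gA_smul_one]
  nlinarith

theorem pp_YA (v : nzVec) (hv : v ∉ setXA) : gAi • v ∈ setYA := by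
  have hv' : ¬ ((v : Fin 2 → ℤ) 1 ^ 2 ≤ (v : Fin 2 → ℤ) 0 * (v : Fin 2 → ℤ) 1) := hv
  show ((gAi • v : nzVec) : Fin 2 → ℤ) 0 * ((gAi • v : nzVec) : Fin 2 → ℤ) 1 <
    -(((gAi • v : nzVec) : Fin 2 → ℤ) 1 ^ 2)
  rw [SubMulAction.val_smul, gAi_smul_zero, gAi_smul_one]
  nlinarith

theorem pp_XB (v : nzVec) (hv : v ∉ setYB) : gB • v ∈ setXB := by
  have hv' : ¬ (-((v : Fin 2 → ℤ) 1 ^ 2) ≤ (v : Fin 2 → ℤ) 0 * (v : Fin 2 → ℤ) 1 ∧
    (v : Fin 2 → ℤ) 0 * (v : Fin 2 → ℤ) 1 < 0) := hv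
  have hne := nzVec_ne v
  show 0 ≤ ((gB • v : nzVec) : Fin 2 → ℤ) 0 * ((gB • v : nzVec) : Fin 2 → ℤ) 1 ∧
    ((gB • v : nzVec) : Fin 2 → ℤ) 0 * ((gB • v : nzVec) : Fin 2 → ℤ) 1 <
      ((gB • v : nzVec) : Fin 2 → ℤ) 1 ^ 2
  rw [SubMulAction.val_smul, gB_smul_zero, gB_smul_one]
  generalize (v : Fin 2 → ℤ) 0 = x at *
  generalize (v : Fin 2 → ℤ) 1 = y at *
  by_cases hxy : 0 ≤ x * y
  · constructor
    · nlinarith [sq_nonneg x]
    · have hpos : 0 < 2 * x ^ 2 + y ^ 2 := by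
        rcases hne with h | h
        · have := pow_pos (abs_pos.mpr h) 2
          rw [sq_abs] at this
          nlinarith [sq_nonneg y]
        · have := pow_pos (abs_pos.mpr h) 2
          rw [sq_abs] at this
          nlinarith [sq_nonneg x]
      nlinarith
  · have hlt : x * y < -(y ^ 2) := by
      by_contra hcon
      exact hv' ⟨by linarith, by linarith⟩
    constructor
    · nlinarith [sq_nonneg (x + y), sq_nonneg y]
    · nlinarith [sq_nonneg (x + y), sq_nonneg y]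

theorem pp_YB (v : nzVec) (hv : v ∉ setXB) : gBi • v ∈ setYB := by
  have hv' : ¬ (0 ≤ (v : Fin 2 → ℤ) 0 * (v : Fin 2 → ℤ) 1 ∧
    (v : Fin 2 → ℤ) 0 * (v : Fin 2 → ℤ) 1 < (v : Fin 2 → ℤ) 1 ^ 2) := hv
  have hne := nzVec_ne v
  show -(((gBi • v : nzVec) : Fin 2 → ℤ) 1 ^ 2) ≤
      ((gBi • v : nzVec) : Fin 2 → ℤ) 0 * ((gBi • v : nzVec) : Fin 2 → ℤ) 1 ∧
    ((gBi • v : nzVec) : Fin 2 → ℤ) 0 * ((gBi • v : nzVec) : Fin 2 → ℤ) 1 < 0
  rw [SubMulAction.val_smul, gBi_smul_zero, gBi_smul_one]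
  generalize (v : Fin 2 → ℤ) 0 = x at *
  generalize (v : Fin 2 → ℤ) 1 = y at *
  by_cases hxy : x * y < 0
  · constructor
    · nlinarith [sq_nonneg x, sq_nonneg y]
    · nlinarith [sq_nonneg x]
  · have hge : y ^ 2 ≤ x * y := by
      by_contra hcon
      exact hv' ⟨by linarith, by linarith⟩
    constructor
    · nlinarith [sq_nonneg (x - y)]
    · have hpos : 0 < 2 * x ^ 2 + y ^ 2 := by
        rcases hne with h | h
        · have := pow_pos (abs_pos.mpr h) 2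
          rw [sq_abs] at this
          nlinarith [sq_nonneg y]
        · have := pow_pos (abs_pos.mpr h) 2
          rw [sq_abs] at this
          nlinarith [sq_nonneg x]
      by_cases hy : y = 0
      · subst hy
        nlinarith
      · have := pow_pos (abs_pos.mpr hy) 2
        rw [sq_abs] at this
        nlinarith [sq_nonneg (x - y)]

/-- **Sanov**: `gA`, `gB` freely generate a free group. -/
theorem sanovHom_injective : Function.Injective sanovHom := by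
  refine FreeGroup.injective_lift_of_ping_pong (α := nzVec) gen ![setXA, setXB] ![setYA, setYB]
    ?_ ?_ ?_ ?_ ?_ ?_
  · intro i
    fin_cases i
    · refine ⟨⟨![1, 0], ?_⟩, ?_⟩
      · intro h
        have := congrFun h 0
        simp at this
      · show (![1, 0] : Fin 2 → ℤ) 1 ^ 2 ≤ (![1, 0] : Fin 2 → ℤ) 0 * (![1, 0] : Fin 2 → ℤ) 1
        simp
    · refine ⟨⟨![0, 1], ?_⟩, ?_⟩
      · intro h
        have := congrFun h 1
        simp at this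
      · show 0 ≤ (![0, 1] : Fin 2 → ℤ) 0 * (![0, 1] : Fin 2 → ℤ) 1 ∧
          (![0, 1] : Fin 2 → ℤ) 0 * (![0, 1] : Fin 2 → ℤ) 1 < (![0, 1] : Fin 2 → ℤ) 1 ^ 2
        simp
  · intro i j hij
    fin_cases i <;> fin_cases j
    · exact absurd rfl hij
    · refine Set.disjoint_left.mpr fun v h1 h2 => ?_
      have h1' : (v : Fin 2 → ℤ) 1 ^ 2 ≤ (v : Fin 2 → ℤ) 0 * (v : Fin 2 → ℤ) 1 := h1
      have h2' : 0 ≤ (v : Fin 2 → ℤ) 0 * (v : Fin 2 → ℤ) 1 ∧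
        (v : Fin 2 → ℤ) 0 * (v : Fin 2 → ℤ) 1 < (v : Fin 2 → ℤ) 1 ^ 2 := h2
      linarith [h2'.2]
    · refine Set.disjoint_left.mpr fun v h2 h1 => ?_
      have h1' : (v : Fin 2 → ℤ) 1 ^ 2 ≤ (v : Fin 2 → ℤ) 0 * (v : Fin 2 → ℤ) 1 := h1
      have h2' : 0 ≤ (v : Fin 2 → ℤ) 0 * (v : Fin 2 → ℤ) 1 ∧
        (v : Fin 2 → ℤ) 0 * (v : Fin 2 → ℤ) 1 < (v : Fin 2 → ℤ) 1 ^ 2 := h2
      linarith [h2'.2]
    · exact absurd rfl hij
  · intro i j hij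
    fin_cases i <;> fin_cases j
    · exact absurd rfl hij
    · refine Set.disjoint_left.mpr fun v h1 h2 => ?_
      have h1' : (v : Fin 2 → ℤ) 0 * (v : Fin 2 → ℤ) 1 < -((v : Fin 2 → ℤ) 1 ^ 2) := h1
      have h2' : -((v : Fin 2 → ℤ) 1 ^ 2) ≤ (v : Fin 2 → ℤ) 0 * (v : Fin 2 → ℤ) 1 ∧
        (v : Fin 2 → ℤ) 0 * (v : Fin 2 → ℤ) 1 < 0 := h2
      linarith [h2'.1]
    · refine Set.disjoint_left.mpr fun v h2 h1 => ?_
      have h1' : (v : Fin 2 → ℤ) 0 * (v : Fin 2 → ℤ) 1 < -((v : Fin 2 → ℤ) 1 ^ 2) := h1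
      have h2' : -((v : Fin 2 → ℤ) 1 ^ 2) ≤ (v : Fin 2 → ℤ) 0 * (v : Fin 2 → ℤ) 1 ∧
        (v : Fin 2 → ℤ) 0 * (v : Fin 2 → ℤ) 1 < 0 := h2
      linarith [h2'.1]
    · exact absurd rfl hij
  · intro i j
    fin_cases i <;> fin_cases j
    · refine Set.disjoint_left.mpr fun v h1 h2 => ?_
      have h1' : (v : Fin 2 → ℤ) 1 ^ 2 ≤ (v : Fin 2 → ℤ) 0 * (v : Fin 2 → ℤ) 1 := h1
      have h2' : (v : Fin 2 → ℤ) 0 * (v : Fin 2 → ℤ) 1 < -((v : Fin 2 → ℤ) 1 ^ 2) := h2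
      nlinarith [sq_nonneg ((v : Fin 2 → ℤ) 1)]
    · refine Set.disjoint_left.mpr fun v h1 h2 => ?_
      have h1' : (v : Fin 2 → ℤ) 1 ^ 2 ≤ (v : Fin 2 → ℤ) 0 * (v : Fin 2 → ℤ) 1 := h1
      have h2' : -((v : Fin 2 → ℤ) 1 ^ 2) ≤ (v : Fin 2 → ℤ) 0 * (v : Fin 2 → ℤ) 1 ∧
        (v : Fin 2 → ℤ) 0 * (v : Fin 2 → ℤ) 1 < 0 := h2
      nlinarith [sq_nonneg ((v : Fin 2 → ℤ) 1), h2'.2]
    · refine Set.disjoint_left.mpr fun v h1 h2 => ?_
      have h1' : 0 ≤ (v : Fin 2 → ℤ) 0 * (v : Fin 2 → ℤ) 1 ∧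
        (v : Fin 2 → ℤ) 0 * (v : Fin 2 → ℤ) 1 < (v : Fin 2 → ℤ) 1 ^ 2 := h1
      have h2' : (v : Fin 2 → ℤ) 0 * (v : Fin 2 → ℤ) 1 < -((v : Fin 2 → ℤ) 1 ^ 2) := h2
      nlinarith [sq_nonneg ((v : Fin 2 → ℤ) 1), h1'.1]
    · refine Set.disjoint_left.mpr fun v h1 h2 => ?_
      have h1' : 0 ≤ (v : Fin 2 → ℤ) 0 * (v : Fin 2 → ℤ) 1 ∧
        (v : Fin 2 → ℤ) 0 * (v : Fin 2 → ℤ) 1 < (v : Fin 2 → ℤ) 1 ^ 2 := h1
      have h2' : -((v : Fin 2 → ℤ) 1 ^ 2) ≤ (v : Fin 2 → ℤ) 0 * (v : Fin 2 → ℤ) 1 ∧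
        (v : Fin 2 → ℤ) 0 * (v : Fin 2 → ℤ) 1 < 0 := h2
      linarith [h1'.1, h2'.2]
  · intro i
    fin_cases i
    · exact Set.smul_set_subset_iff.mpr fun v hv => pp_XA v hv
    · exact Set.smul_set_subset_iff.mpr fun v hv => pp_XB v hv
  · intro i
    fin_cases i
    · refine Set.smul_set_subset_iff.mpr fun v hv => ?_
      have : (gen⁻¹ : Fin 2 → SL(2, ℤ)) 0 = gAi := by rw [gAi_eq]; rfl
      show (gen⁻¹ : Fin 2 → SL(2, ℤ)) 0 • v ∈ setYA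
      rw [this]
      exact pp_YA v hv
    · refine Set.smul_set_subset_iff.mpr fun v hv => ?_
      have : (gen⁻¹ : Fin 2 → SL(2, ℤ)) 1 = gBi := by rw [gBi_eq]; rfl
      show (gen⁻¹ : Fin 2 → SL(2, ℤ)) 1 • v ∈ setYB
      rw [this]
      exact pp_YB v hv

/-! ### The export -/

/-- Every subgroup of `SL(2, ℤ)` has a free subgroup of finite index. -/
theorem exists_free_finiteIndex (Γ : Subgroup SL(2, ℤ)) :
    ∃ Δ : Subgroup Γ, Δ.FiniteIndex ∧ Nonempty (IsFreeGroup Δ) := by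
  -- the preimage of `Γ` in the free group, and its injective map to `Γ`
  let D : Subgroup (FreeGroup (Fin 2)) := Γ.comap sanovHom
  let ι : D →* Γ := sanovHom.subgroupComap Γ
  have hι : Function.Injective ι := by
    intro x y hxy
    apply Subtype.ext
    apply sanovHom_injective
    exact congrArg Subtype.val hxy
  have hrange : sanovHom.range.subgroupOf Γ ≤ ι.range := by
    intro y hy
    rw [Subgroup.mem_subgroupOf] at hy
    obtain ⟨x, hx⟩ := hy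
    have hxD : x ∈ D := by
      show sanovHom x ∈ Γ
      rw [hx]; exact y.2
    exact ⟨⟨x, hxD⟩, Subtype.ext hx⟩
  refine ⟨ι.range, Subgroup.finiteIndex_of_le hrange, ⟨?_⟩⟩
  exact IsFreeGroup.ofMulEquiv (MonoidHom.ofInjective hι)


end Fermat.Agent.S41.PDSanov
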