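import Mathlib
import Fermat.Agent.S21.Parabolic
import Fermat.Agent.S41.PDDefs
import Fermat.Agent.S41.PDPotential

/-!
# S41 / [PD] leaf (2c): surjectivity of the symbol map

Every symbol `η` on `X = SL(2, ℤ) ⧸ Γ` (`η ∘ s = -η`, `η + η ∘ u + η ∘ u² = 0`) is the symbol
`sym Γ F` of a lift `F` of a *parabolic* homomorphism `ψ` of `Γ`.

Proof: the potential lemma (`PDPotential.exists_potential'`) applied to `ξ g = η (g Γ)` gives
`F` with `F (T g) = F g`, `F (S g) = F g + ξ g`; `g ↦ F (g γ) - F g` is left `S`- and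
`T`-invariant, hence constant, which defines `ψ`; `ψ` kills the elements of trace `±2`
because these are `± δ T ^ m δ⁻¹`.
-/

set_option autoImplicit false

namespace Fermat.Agent.S41.PDSurj

open scoped MatrixGroups
open ModularGroup ModularCurve.Period Fermat.Agent.S41.PD

/-- A function on `SL(2, ℤ)` invariant under left multiplication by `S` and `T` is constant. -/
theorem eq_of_left_invariant {B : Type*} (c : SL(2, ℤ) → B) (hS : ∀ g, c (S * g) = c g)
    (hT : ∀ g, c (T * g) = c g) (g : SL(2, ℤ)) : c g = c 1 := by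
  let H : Subgroup SL(2, ℤ) :=
    { carrier := {h | ∀ g, c (h * g) = c g}
      mul_mem' := fun {a b} ha hb g => by
        show c (a * b * g) = c g
        rw [mul_assoc, ha, hb]
      one_mem' := fun g => by
        show c (1 * g) = c g
        rw [one_mul]
      inv_mem' := fun {a} ha g => by
        show c (a⁻¹ * g) = c g
        have := ha (a⁻¹ * g)
        rw [mul_inv_cancel_left] at this
        exact this.symm }
  have hH : H = ⊤ := by
    rw [eq_top_iff, ← SpecialLinearGroup.SL2Z_generators, Subgroup.closure_le]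
    rintro x (rfl | rfl)
    · exact hS
    · exact hT
  have hg : g ∈ H := hH ▸ Subgroup.mem_top g
  have := hg 1
  rwa [mul_one] at this

/-- **Surjectivity of the symbol map**, raw form for an arbitrary coefficient group. -/
theorem exists_lift_of_symbol {A : Type*} [AddCommGroup A] (Γ : Subgroup SL(2, ℤ))
    (η : SL(2, ℤ) ⧸ Γ → A) (h1 : ∀ x, η (sX Γ x) = - η x)
    (h2 : ∀ x, η x + η (uX Γ x) + η (uX Γ (uX Γ x)) = 0) :
    ∃ (ψ : Additive Γ →+ A) (F : SL(2, ℤ) → A),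
      IsParabolicHom Γ ψ ∧ IsLift Γ ψ F ∧ sym Γ F = η ∧
      (∀ g : SL(2, ℤ), F (S * g) - F g = η (g : SL(2, ℤ) ⧸ Γ)) ∧ F 1 = 0 ∧
      (∀ g : SL(2, ℤ), F (-g) = F g) := by
  set ξ : SL(2, ℤ) → A := fun g => η (g : SL(2, ℤ) ⧸ Γ) with hξ
  have hS : ∀ g, ξ (S * g) = - ξ g := fun g => h1 (g : SL(2, ℤ) ⧸ Γ)
  have hU : ∀ g, ξ g + ξ (T * S * g) + ξ (T * S * (T * S * g)) = 0 :=
    fun g => h2 (g : SL(2, ℤ) ⧸ Γ)
  obtain ⟨F, hFT, hFS, hFneg, hFTn, hF1⟩ := PDPotential.exists_potential' ξ hS hU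
  have hξΓ : ∀ (g : SL(2, ℤ)) (γ : Γ), ξ (g * γ) = ξ g := by
    intro g γ
    simp only [hξ]
    congr 1
    exact QuotientGroup.mk_mul_of_mem g γ.2
  have hconst : ∀ (γ : Γ) (g : SL(2, ℤ)), F (g * γ) - F g = F γ - F 1 := by
    intro γ g
    have := eq_of_left_invariant (fun g => F (g * γ) - F g) ?_ ?_ g
    · simpa using this
    · intro g
      show F (S * g * γ) - F (S * g) = F (g * γ) - F g
      rw [mul_assoc, hFS, hFS, hξΓ]
      abel
    · intro g
      show F (T * g * γ) - F (T * g) = F (g * γ) - F g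
      rw [mul_assoc, hFT, hFT]
  let ψ : Additive Γ →+ A := AddMonoidHom.mk'
    (fun γ => F ((Additive.toMul γ : Γ) : SL(2, ℤ)) - F 1) (by
      intro a b
      have h := hconst (Additive.toMul b) ((Additive.toMul a : Γ) : SL(2, ℤ))
      show F (((Additive.toMul a * Additive.toMul b : Γ) : Γ) : SL(2, ℤ)) - F 1 = _
      rw [Subgroup.coe_mul, ← h]
      abel)
  have hψ : ∀ γ : Γ, ψ (Additive.ofMul γ) = F (γ : SL(2, ℤ)) - F 1 := fun γ => rfl
  have hlift : IsLift Γ ψ F := by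
    refine ⟨fun g γ => ?_, hFT⟩
    rw [hψ, ← hconst γ g]
    abel
  refine ⟨ψ, F, ?_, hlift, ?_, ?_, hF1, hFneg⟩
  · intro γ hγ
    obtain ⟨δ, m, hδ⟩ := Fermat.Agent.S21.exists_conj_T_zpow_of_trace_sq (γ : SL(2, ℤ)) hγ
    rw [hψ, ← hconst γ δ⁻¹]
    rcases hδ with h | h
    · have e : δ⁻¹ * (γ : SL(2, ℤ)) = T ^ m * δ⁻¹ := by rw [h]; group
      rw [e, hFTn, sub_self]
    · have e : δ⁻¹ * (γ : SL(2, ℤ)) = -(T ^ m * δ⁻¹) := by
        rw [h, mul_neg]
        congr 1
        group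
      rw [e, hFneg, hFTn, sub_self]
  · funext x
    induction x using QuotientGroup.induction_on with
    | H g =>
      rw [sym_mk hlift g, hFS]
      simp [hξ]
  · intro g
    rw [hFS]
    simp [hξ]

/-- **Surjectivity of the symbol map**: every symbol (in the sense of `PDSym.IsSym`) is the
symbol of a lift of a parabolic homomorphism. -/
theorem exists_lift_of_isSym (Γ : Subgroup SL(2, ℤ)) [Fintype (SL(2, ℤ) ⧸ Γ)]
    (η : SL(2, ℤ) ⧸ Γ → ℤ) (hη : PDSym.IsSym (sX Γ) (uX Γ) η) :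
    ∃ (ψ : Additive Γ →+ ℤ) (F : SL(2, ℤ) → ℤ),
      IsParabolicHom Γ ψ ∧ IsLift Γ ψ F ∧ sym Γ F = η := by
  obtain ⟨ψ, F, h1, h2, h3, -⟩ := exists_lift_of_symbol Γ η hη.anti hη.tri
  exact ⟨ψ, F, h1, h2, h3⟩

end Fermat.Agent.S41.PDSurj
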