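import Mathlib

/-!
# S41, block [PD], leaf (6a) (B-copy): the twist core for `δ = diag(q, 1)`

OWNER: helper46 (only the owner edits this file).  Mathlib-only.

For `g = [[a, b], [c, d]] ∈ SL(2, ℤ)` and a prime `q`:

* `hq q g = β(g) · g · δ⁻¹` where `β(g) = [[q, 0], [0, 1]]` if `q ∣ c`, and
  `β(g) = [[1, y], [0, q]]` with `0 ≤ y < q`, `q ∣ a + y c` if `q ∤ c`; explicitly
  `hq q g = [[a, q b], [c / q, d]]` resp. `[[(a + y c) / q, b + y d], [c, q d]]`;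
* `jq q g = q` if `q ∣ c`, `1` if `q ∤ c` and `q ∣ a`, `0` otherwise.

Then `hq q (g γ) = hq q g · (δ γ δ⁻¹)` for `γ ∈ Γ₀(q)`, `hq q (T g) = T ^ (jq q g) · hq q g`, and
`(g, i) ↦ T ^ i · hq q g` is a bijection `{(g, i) | i < jq q g} → SL(2, ℤ)`.
-/

set_option autoImplicit false

open Matrix
open scoped MatrixGroups

namespace Fermat.Agent.S41.PDTwistB

/-! ### Entries of elements of `SL(2, ℤ)` -/

/-- An element of `SL(2, ℤ)` from its entries. -/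
def mk (a b c d : ℤ) (h : a * d - b * c = 1) : SL(2, ℤ) :=
  ⟨!![a, b; c, d], by rw [Matrix.det_fin_two_of]; exact h⟩

@[simp] theorem mk_zero_zero (a b c d : ℤ) (h : a * d - b * c = 1) : mk a b c d h 0 0 = a := rfl

@[simp] theorem mk_zero_one (a b c d : ℤ) (h : a * d - b * c = 1) : mk a b c d h 0 1 = b := rfl

@[simp] theorem mk_one_zero (a b c d : ℤ) (h : a * d - b * c = 1) : mk a b c d h 1 0 = c := rfl

@[simp] theorem mk_one_one (a b c d : ℤ) (h : a * d - b * c = 1) : mk a b c d h 1 1 = d := rfl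

theorem det_entries (g : SL(2, ℤ)) : g 0 0 * g 1 1 - g 0 1 * g 1 0 = 1 := by
  have h := g.det_coe
  rw [Matrix.det_fin_two] at h
  exact h

theorem ext_entries {g k : SL(2, ℤ)} (h00 : g 0 0 = k 0 0) (h01 : g 0 1 = k 0 1)
    (h10 : g 1 0 = k 1 0) (h11 : g 1 1 = k 1 1) : g = k := by
  ext i j
  fin_cases i <;> fin_cases j <;> assumption

theorem mul_zero_zero (g k : SL(2, ℤ)) : (g * k) 0 0 = g 0 0 * k 0 0 + g 0 1 * k 1 0 := by
  simp [Matrix.mul_apply, Fin.sum_univ_two]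

theorem mul_zero_one (g k : SL(2, ℤ)) : (g * k) 0 1 = g 0 0 * k 0 1 + g 0 1 * k 1 1 := by
  simp [Matrix.mul_apply, Fin.sum_univ_two]

theorem mul_one_zero (g k : SL(2, ℤ)) : (g * k) 1 0 = g 1 0 * k 0 0 + g 1 1 * k 1 0 := by
  simp [Matrix.mul_apply, Fin.sum_univ_two]

theorem mul_one_one (g k : SL(2, ℤ)) : (g * k) 1 1 = g 1 0 * k 0 1 + g 1 1 * k 1 1 := by
  simp [Matrix.mul_apply, Fin.sum_univ_two]

theorem T_pow_entries (n : ℕ) :
    (ModularGroup.T ^ n) 0 0 = 1 ∧ (ModularGroup.T ^ n) 0 1 = n ∧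
      (ModularGroup.T ^ n) 1 0 = 0 ∧ (ModularGroup.T ^ n) 1 1 = 1 := by
  have h := ModularGroup.coe_T_zpow (n : ℤ)
  rw [zpow_natCast] at h
  have h' : ∀ i j, (ModularGroup.T ^ n) i j = (!![1, (n : ℤ); 0, 1] : Matrix (Fin 2) (Fin 2) ℤ) i j :=
    fun i j => congrFun (congrFun h i) j
  exact ⟨h' 0 0, h' 0 1, h' 1 0, h' 1 1⟩

theorem T_pow_mul_zero_zero (n : ℕ) (g : SL(2, ℤ)) :
    (ModularGroup.T ^ n * g) 0 0 = g 0 0 + n * g 1 0 := by
  obtain ⟨h1, h2, -, -⟩ := T_pow_entries n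
  rw [mul_zero_zero, h1, h2, one_mul]

theorem T_pow_mul_zero_one (n : ℕ) (g : SL(2, ℤ)) :
    (ModularGroup.T ^ n * g) 0 1 = g 0 1 + n * g 1 1 := by
  obtain ⟨h1, h2, -, -⟩ := T_pow_entries n
  rw [mul_zero_one, h1, h2, one_mul]

theorem T_pow_mul_one_zero (n : ℕ) (g : SL(2, ℤ)) : (ModularGroup.T ^ n * g) 1 0 = g 1 0 := by
  obtain ⟨-, -, h3, h4⟩ := T_pow_entries n
  rw [mul_one_zero, h3, h4, zero_mul, zero_add, one_mul]

theorem T_pow_mul_one_one (n : ℕ) (g : SL(2, ℤ)) : (ModularGroup.T ^ n * g) 1 1 = g 1 1 := by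
  obtain ⟨-, -, h3, h4⟩ := T_pow_entries n
  rw [mul_one_one, h3, h4, zero_mul, zero_add, one_mul]

/-! ### Arithmetic modulo a prime -/

section Prime

variable (q : ℕ)

/-- The solution `y` in `[0, q)` of `a + y c ≡ 0 (mod q)` (for `q` prime, `q ∤ c`). -/
def yq (a c : ℤ) : ℤ := ((-(a : ZMod q) * (c : ZMod q)⁻¹ : ZMod q).val : ℤ)

theorem yq_nonneg (a c : ℤ) : 0 ≤ yq q a c := by
  unfold yq
  positivity

variable [Fact q.Prime]

theorem yq_lt (a c : ℤ) : yq q a c < q := by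
  unfold yq
  exact_mod_cast ZMod.val_lt _

theorem dvd_add_yq_mul (a c : ℤ) (hc : ¬ (q : ℤ) ∣ c) : (q : ℤ) ∣ a + yq q a c * c := by
  have hc' : (c : ZMod q) ≠ 0 := fun h => hc ((ZMod.intCast_zmod_eq_zero_iff_dvd c q).mp h)
  rw [← ZMod.intCast_zmod_eq_zero_iff_dvd]
  unfold yq
  push_cast
  rw [ZMod.natCast_zmod_val, mul_assoc, inv_mul_cancel₀ hc', mul_one, add_neg_cancel]

theorem prime_q : Prime (q : ℤ) := Nat.prime_iff_prime_int.mp (Fact.out : q.Prime)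

omit [Fact q.Prime] in
/-- `q ∣ x`, `-q < x < q` implies `x = 0`. -/
theorem eq_zero_of_dvd_of_lt {x : ℤ} (h : (q : ℤ) ∣ x) (h1 : -(q : ℤ) < x) (h2 : x < q) :
    x = 0 := by
  apply Int.eq_zero_of_abs_lt_dvd h
  rw [abs_lt]
  exact ⟨h1, h2⟩

/-- Uniqueness of the solution `y`. -/
theorem y_unique {a c y y' : ℤ} (hc : ¬ (q : ℤ) ∣ c) (hy0 : 0 ≤ y) (hyq : y < q) (hy'0 : 0 ≤ y')
    (hy'q : y' < q) (h : (q : ℤ) ∣ a + y * c) (h' : (q : ℤ) ∣ a + y' * c) : y = y' := by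
  have h1 : (q : ℤ) ∣ (y - y') * c := by
    have := dvd_sub h h'
    have e : a + y * c - (a + y' * c) = (y - y') * c := by ring
    rwa [e] at this
  have h2 : (q : ℤ) ∣ y - y' := ((prime_q q).dvd_or_dvd h1).resolve_right hc
  have := eq_zero_of_dvd_of_lt q h2 (by linarith) (by linarith)
  linarith

/-- If `q ∣ c` then `q ∤ d` and `q ∤ a`, for `[[a, b], [c, d]] ∈ SL(2, ℤ)`. -/
theorem not_dvd_one_one (g : SL(2, ℤ)) (hc : (q : ℤ) ∣ g 1 0) : ¬ (q : ℤ) ∣ g 1 1 := by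
  intro hd
  have h := det_entries g
  have h1 : (q : ℤ) ∣ g 0 0 * g 1 1 - g 0 1 * g 1 0 :=
    dvd_sub (Dvd.dvd.mul_left hd _) (Dvd.dvd.mul_left hc _)
  rw [h] at h1
  exact (prime_q q).not_dvd_one h1

theorem not_dvd_zero_zero (g : SL(2, ℤ)) (hc : (q : ℤ) ∣ g 1 0) : ¬ (q : ℤ) ∣ g 0 0 := by
  intro ha
  have h := det_entries g
  have h1 : (q : ℤ) ∣ g 0 0 * g 1 1 - g 0 1 * g 1 0 :=
    dvd_sub (Dvd.dvd.mul_right ha _) (Dvd.dvd.mul_left hc _)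
  rw [h] at h1
  exact (prime_q q).not_dvd_one h1

/-- If `q ∣ d` then `q ∤ c`. -/
theorem not_dvd_one_zero (g : SL(2, ℤ)) (hd : (q : ℤ) ∣ g 1 1) : ¬ (q : ℤ) ∣ g 1 0 :=
  fun hc => not_dvd_one_one q g hc hd

end Prime

/-! ### The maps `hq` and `jq` -/

section Defs

variable (q : ℕ)

open Classical in
/-- The twist `h(g) = β(g) · g · δ⁻¹` (see the file header). Junk value `1` if the relevant
divisibility fails (it never does for `q` prime). -/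
noncomputable def hq (g : SL(2, ℤ)) : SL(2, ℤ) :=
  if hc : (q : ℤ) ∣ g 1 0 then
    mk (g 0 0) (q * g 0 1) (g 1 0 / q) (g 1 1) (by
      have h := det_entries g
      have e : (q : ℤ) * (g 1 0 / q) = g 1 0 := Int.mul_ediv_cancel' hc
      linear_combination h - g 0 1 * e)
  else if ha : (q : ℤ) ∣ g 0 0 + yq q (g 0 0) (g 1 0) * g 1 0 then
    mk ((g 0 0 + yq q (g 0 0) (g 1 0) * g 1 0) / q) (g 0 1 + yq q (g 0 0) (g 1 0) * g 1 1)
      (g 1 0) (q * g 1 1) (by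
      have h := det_entries g
      have e : (q : ℤ) * ((g 0 0 + yq q (g 0 0) (g 1 0) * g 1 0) / q)
          = g 0 0 + yq q (g 0 0) (g 1 0) * g 1 0 := Int.mul_ediv_cancel' ha
      linear_combination h + g 1 1 * e)
  else 1

open Classical in
/-- The exponent `j(g)` with `h(T g) = T ^ j(g) · h(g)`. -/
noncomputable def jq (g : SL(2, ℤ)) : ℕ :=
  if (q : ℤ) ∣ g 1 0 then q else if (q : ℤ) ∣ g 0 0 then 1 else 0

theorem jq_of_dvd {g : SL(2, ℤ)} (hc : (q : ℤ) ∣ g 1 0) : jq q g = q := by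
  unfold jq
  rw [if_pos hc]

theorem jq_of_not_dvd_of_dvd {g : SL(2, ℤ)} (hc : ¬ (q : ℤ) ∣ g 1 0) (ha : (q : ℤ) ∣ g 0 0) :
    jq q g = 1 := by
  unfold jq
  rw [if_neg hc, if_pos ha]

theorem jq_of_not_dvd_of_not_dvd {g : SL(2, ℤ)} (hc : ¬ (q : ℤ) ∣ g 1 0)
    (ha : ¬ (q : ℤ) ∣ g 0 0) : jq q g = 0 := by
  unfold jq
  rw [if_neg hc, if_neg ha]

/-- Entries of `hq q g` when `q ∣ c`. -/
theorem hq_spec_of_dvd {g : SL(2, ℤ)} (hc : (q : ℤ) ∣ g 1 0) :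
    hq q g 0 0 = g 0 0 ∧ hq q g 0 1 = q * g 0 1 ∧ q * hq q g 1 0 = g 1 0 ∧
      hq q g 1 1 = g 1 1 := by
  unfold hq
  rw [dif_pos hc]
  refine ⟨rfl, rfl, ?_, rfl⟩
  rw [mk_one_zero]
  exact Int.mul_ediv_cancel' hc

variable [Fact q.Prime]

/-- Entries of `hq q g` when `q ∤ c`. -/
theorem hq_spec_of_not_dvd {g : SL(2, ℤ)} (hc : ¬ (q : ℤ) ∣ g 1 0) :
    ∃ y : ℤ, 0 ≤ y ∧ y < q ∧ (q : ℤ) ∣ g 0 0 + y * g 1 0 ∧
      q * hq q g 0 0 = g 0 0 + y * g 1 0 ∧ hq q g 0 1 = g 0 1 + y * g 1 1 ∧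
      hq q g 1 0 = g 1 0 ∧ hq q g 1 1 = q * g 1 1 := by
  have ha := dvd_add_yq_mul q (g 0 0) (g 1 0) hc
  refine ⟨yq q (g 0 0) (g 1 0), yq_nonneg q _ _, yq_lt q _ _, ha, ?_⟩
  unfold hq
  rw [dif_neg hc, dif_pos ha]
  refine ⟨?_, rfl, rfl, rfl⟩
  rw [mk_zero_zero]
  exact Int.mul_ediv_cancel' ha

/-- Characterisation of `hq q g` when `q ∣ c`. -/
theorem hq_eq_of_dvd {g k : SL(2, ℤ)} (hc : (q : ℤ) ∣ g 1 0) (h00 : k 0 0 = g 0 0)
    (h01 : k 0 1 = q * g 0 1) (h10 : q * k 1 0 = g 1 0) (h11 : k 1 1 = g 1 1) : hq q g = k := by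
  obtain ⟨e00, e01, e10, e11⟩ := hq_spec_of_dvd q hc
  have hq0 : (q : ℤ) ≠ 0 := (prime_q q).ne_zero
  refine ext_entries (by rw [e00, h00]) (by rw [e01, h01]) ?_ (by rw [e11, h11])
  exact mul_left_cancel₀ hq0 (by rw [e10, h10])

/-- Characterisation of `hq q g` when `q ∤ c`. -/
theorem hq_eq_of_not_dvd {g k : SL(2, ℤ)} (hc : ¬ (q : ℤ) ∣ g 1 0) (y : ℤ) (hy0 : 0 ≤ y)
    (hyq : y < q) (h00 : q * k 0 0 = g 0 0 + y * g 1 0) (h01 : k 0 1 = g 0 1 + y * g 1 1)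
    (h10 : k 1 0 = g 1 0) (h11 : k 1 1 = q * g 1 1) : hq q g = k := by
  obtain ⟨y', hy'0, hy'q, hdvd, e00, e01, e10, e11⟩ := hq_spec_of_not_dvd q hc
  have hq0 : (q : ℤ) ≠ 0 := (prime_q q).ne_zero
  have hyy : y' = y := y_unique q hc hy'0 hy'q hy0 hyq hdvd ⟨k 0 0, h00.symm⟩
  subst hyy
  refine ext_entries ?_ (by rw [e01, h01]) (by rw [e10, h10]) (by rw [e11, h11])
  exact mul_left_cancel₀ hq0 (by rw [e00, h00])

end Defs

/-! ### The four statements of leaf (6a) -/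

section Main

variable (q : ℕ) [Fact q.Prime]

/-- Right multiplication by `γ ∈ Γ₀(q)` does not change divisibility of the lower left entry. -/
theorem dvd_mul_one_zero_iff (g γ : SL(2, ℤ)) (hγ : (q : ℤ) ∣ γ 1 0) :
    (q : ℤ) ∣ (g * γ) 1 0 ↔ (q : ℤ) ∣ g 1 0 := by
  rw [mul_one_zero]
  have h2 : (q : ℤ) ∣ g 1 1 * γ 1 0 := Dvd.dvd.mul_left hγ _
  constructor
  · intro h
    have h3 : (q : ℤ) ∣ g 1 0 * γ 0 0 := (Int.dvd_add_left h2).mp h
    exact ((prime_q q).dvd_or_dvd h3).resolve_right (not_dvd_zero_zero q γ hγ)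
  · intro h
    exact dvd_add (Dvd.dvd.mul_right h _) h2

theorem dvd_mul_zero_zero_iff (g γ : SL(2, ℤ)) (hγ : (q : ℤ) ∣ γ 1 0) :
    (q : ℤ) ∣ (g * γ) 0 0 ↔ (q : ℤ) ∣ g 0 0 := by
  rw [mul_zero_zero]
  have h2 : (q : ℤ) ∣ g 0 1 * γ 1 0 := Dvd.dvd.mul_left hγ _
  constructor
  · intro h
    have h3 : (q : ℤ) ∣ g 0 0 * γ 0 0 := (Int.dvd_add_left h2).mp h
    exact ((prime_q q).dvd_or_dvd h3).resolve_right (not_dvd_zero_zero q γ hγ)
  · intro h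
    exact dvd_add (Dvd.dvd.mul_right h _) h2

/-- **(D2)** `h(g γ) = h(g) · δ γ δ⁻¹` for `γ ∈ Γ₀(q)`. -/
theorem hq_mul (g γ : SL(2, ℤ)) (hγ : (q : ℤ) ∣ γ 1 0) :
    ∃ γ' : SL(2, ℤ), γ' 0 0 = γ 0 0 ∧ γ' 0 1 = q * γ 0 1 ∧ q * γ' 1 0 = γ 1 0 ∧
      γ' 1 1 = γ 1 1 ∧ hq q (g * γ) = hq q g * γ' := by
  obtain ⟨m, hm⟩ := hγ
  have hγ' : (q : ℤ) ∣ γ 1 0 := ⟨m, hm⟩
  have hdet := det_entries γ
  refine ⟨mk (γ 0 0) (q * γ 0 1) m (γ 1 1) (by rw [hm] at hdet; linear_combination hdet),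
    rfl, rfl, by rw [mk_one_zero, hm], rfl, ?_⟩
  by_cases hc : (q : ℤ) ∣ g 1 0
  · obtain ⟨e00, e01, e10, e11⟩ := hq_spec_of_dvd q hc
    refine hq_eq_of_dvd q ((dvd_mul_one_zero_iff q g γ hγ').mpr hc) ?_ ?_ ?_ ?_
    · rw [mul_zero_zero, mul_zero_zero, mk_zero_zero, mk_one_zero, e00, e01, hm]
      ring
    · rw [mul_zero_one, mul_zero_one, mk_zero_one, mk_one_one, e00, e01]
      ring
    · rw [mul_one_zero, mul_one_zero, mk_zero_zero, mk_one_zero, e11, hm, ← e10]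
      ring
    · rw [mul_one_one, mul_one_one, mk_zero_one, mk_one_one, e11, ← e10]
      ring
  · obtain ⟨y, hy0, hyq, -, e00, e01, e10, e11⟩ := hq_spec_of_not_dvd q hc
    refine hq_eq_of_not_dvd q (fun h => hc ((dvd_mul_one_zero_iff q g γ hγ').mp h)) y hy0 hyq
      ?_ ?_ ?_ ?_
    · rw [mul_zero_zero, mul_zero_zero, mul_one_zero, mk_zero_zero, mk_one_zero, e01, hm]
      linear_combination γ 0 0 * e00
    · rw [mul_zero_one, mul_zero_one, mul_one_one, mk_zero_one, mk_one_one, e01]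
      linear_combination γ 0 1 * e00
    · rw [mul_one_zero, mul_one_zero, mk_zero_zero, mk_one_zero, e10, e11, hm]
      ring
    · rw [mul_one_one, mul_one_one, mk_zero_one, mk_one_one, e10, e11]
      ring

/-- **(D2)** `j(g γ) = j(g)` for `γ ∈ Γ₀(q)`. -/
theorem jq_mul (g γ : SL(2, ℤ)) (hγ : (q : ℤ) ∣ γ 1 0) : jq q (g * γ) = jq q g := by
  by_cases hc : (q : ℤ) ∣ g 1 0
  · rw [jq_of_dvd q hc, jq_of_dvd q ((dvd_mul_one_zero_iff q g γ hγ).mpr hc)]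
  · have hc' : ¬ (q : ℤ) ∣ (g * γ) 1 0 := fun h => hc ((dvd_mul_one_zero_iff q g γ hγ).mp h)
    by_cases ha : (q : ℤ) ∣ g 0 0
    · rw [jq_of_not_dvd_of_dvd q hc ha,
        jq_of_not_dvd_of_dvd q hc' ((dvd_mul_zero_zero_iff q g γ hγ).mpr ha)]
    · rw [jq_of_not_dvd_of_not_dvd q hc ha,
        jq_of_not_dvd_of_not_dvd q hc' (fun h => ha ((dvd_mul_zero_zero_iff q g γ hγ).mp h))]

theorem T_mul_entries (g : SL(2, ℤ)) :
    (ModularGroup.T * g) 0 0 = g 0 0 + g 1 0 ∧ (ModularGroup.T * g) 0 1 = g 0 1 + g 1 1 ∧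
      (ModularGroup.T * g) 1 0 = g 1 0 ∧ (ModularGroup.T * g) 1 1 = g 1 1 := by
  have h0 := T_pow_mul_zero_zero 1 g
  have h1 := T_pow_mul_zero_one 1 g
  have h2 := T_pow_mul_one_zero 1 g
  have h3 := T_pow_mul_one_one 1 g
  rw [pow_one] at h0 h1 h2 h3
  rw [Nat.cast_one, one_mul] at h0 h1
  exact ⟨h0, h1, h2, h3⟩

/-- **(D3)** `h(T g) = T ^ j(g) · h(g)`. -/
theorem hq_T (g : SL(2, ℤ)) : hq q (ModularGroup.T * g) = ModularGroup.T ^ (jq q g) * hq q g := by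
  obtain ⟨t00, t01, t10, t11⟩ := T_mul_entries g
  by_cases hc : (q : ℤ) ∣ g 1 0
  · obtain ⟨e00, e01, e10, e11⟩ := hq_spec_of_dvd q hc
    rw [jq_of_dvd q hc]
    refine hq_eq_of_dvd q (by rw [t10]; exact hc) ?_ ?_ ?_ ?_
    · rw [T_pow_mul_zero_zero, t00, e00, e10]
    · rw [T_pow_mul_zero_one, t01, e01, e11]
      ring
    · rw [T_pow_mul_one_zero, t10, e10]
    · rw [T_pow_mul_one_one, t11, e11]
  · obtain ⟨y, hy0, hyq, hdvd, e00, e01, e10, e11⟩ := hq_spec_of_not_dvd q hc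
    have hc' : ¬ (q : ℤ) ∣ (ModularGroup.T * g) 1 0 := by rw [t10]; exact hc
    by_cases ha : (q : ℤ) ∣ g 0 0
    · -- `y = 0`, and `y(T g) = q - 1`
      have hy : y = 0 := by
        have h1 : (q : ℤ) ∣ y * g 1 0 := (Int.dvd_add_right ha).mp hdvd
        have h2 : (q : ℤ) ∣ y := ((prime_q q).dvd_or_dvd h1).resolve_right hc
        exact eq_zero_of_dvd_of_lt q h2 (by linarith) hyq
      subst hy
      rw [jq_of_not_dvd_of_dvd q hc ha]
      have hq1 : (1 : ℤ) ≤ q := by exact_mod_cast (Fact.out : q.Prime).one_lt.le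
      refine hq_eq_of_not_dvd q hc' ((q : ℤ) - 1) (by linarith) (by linarith) ?_ ?_ ?_ ?_
      · rw [T_pow_mul_zero_zero, t00, t10, e10]
        linear_combination e00
      · rw [T_pow_mul_zero_one, t01, t11, e01, e11]
        push_cast
        ring
      · rw [T_pow_mul_one_zero, t10, e10]
      · rw [T_pow_mul_one_one, t11, e11]
    · -- `y ≥ 1`, and `y(T g) = y - 1`
      have hy : 1 ≤ y := by
        by_contra hlt
        have hy0' : y = 0 := by linarith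
        rw [hy0', zero_mul, add_zero] at hdvd
        exact ha hdvd
      rw [jq_of_not_dvd_of_not_dvd q hc ha, pow_zero, one_mul]
      refine hq_eq_of_not_dvd q hc' (y - 1) (by linarith) (by linarith) ?_ ?_ ?_ ?_
      · rw [t00, t10]
        linear_combination e00
      · rw [t01, t11, e01]
        ring
      · rw [t10, e10]
      · rw [t11, e11]

/-- Entries of `hq q g` when `q ∤ c` and `q ∣ a` (then `y = 0`). -/
theorem hq_spec_of_not_dvd_of_dvd {g : SL(2, ℤ)} (hc : ¬ (q : ℤ) ∣ g 1 0)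
    (ha : (q : ℤ) ∣ g 0 0) :
    q * hq q g 0 0 = g 0 0 ∧ hq q g 0 1 = g 0 1 ∧ hq q g 1 0 = g 1 0 ∧
      hq q g 1 1 = q * g 1 1 := by
  obtain ⟨y, hy0, hyq, hdvd, e00, e01, e10, e11⟩ := hq_spec_of_not_dvd q hc
  have hy : y = 0 := by
    have h1 : (q : ℤ) ∣ y * g 1 0 := (Int.dvd_add_right ha).mp hdvd
    have h2 : (q : ℤ) ∣ y := ((prime_q q).dvd_or_dvd h1).resolve_right hc
    exact eq_zero_of_dvd_of_lt q h2 (by linarith) hyq
  subst hy
  refine ⟨by rw [e00]; ring, by rw [e01]; ring, e10, e11⟩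

omit [Fact q.Prime] in
/-- If `q ∤ c` and `i < j(g)` then `q ∣ a` and `i = 0`. -/
theorem of_lt_jq_of_not_dvd {g : SL(2, ℤ)} (hc : ¬ (q : ℤ) ∣ g 1 0) {i : ℕ} (hi : i < jq q g) :
    (q : ℤ) ∣ g 0 0 ∧ i = 0 := by
  by_cases ha : (q : ℤ) ∣ g 0 0
  · rw [jq_of_not_dvd_of_dvd q hc ha] at hi
    exact ⟨ha, by omega⟩
  · rw [jq_of_not_dvd_of_not_dvd q hc ha] at hi
    omega

/-- Injectivity of `(g, i) ↦ T ^ i · h(g)` on `{(g, i) | i < j(g)}`. -/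
theorem eq_of_T_pow_mul_hq_eq {g g' : SL(2, ℤ)} {i i' : ℕ} (hi : i < jq q g) (hi' : i' < jq q g')
    (h : ModularGroup.T ^ i * hq q g = ModularGroup.T ^ i' * hq q g') : g = g' ∧ i = i' := by
  have hq0 : (q : ℤ) ≠ 0 := (prime_q q).ne_zero
  have h00 := congrArg (fun k : SL(2, ℤ) => k 0 0) h
  have h01 := congrArg (fun k : SL(2, ℤ) => k 0 1) h
  have h10 := congrArg (fun k : SL(2, ℤ) => k 1 0) h
  have h11 := congrArg (fun k : SL(2, ℤ) => k 1 1) h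
  simp only [T_pow_mul_zero_zero, T_pow_mul_zero_one, T_pow_mul_one_zero, T_pow_mul_one_one]
    at h00 h01 h10 h11
  by_cases hc : (q : ℤ) ∣ g 1 0
  · obtain ⟨e00, e01, e10, e11⟩ := hq_spec_of_dvd q hc
    have hd : ¬ (q : ℤ) ∣ g 1 1 := not_dvd_one_one q g hc
    by_cases hc' : (q : ℤ) ∣ g' 1 0
    · obtain ⟨e00', e01', e10', e11'⟩ := hq_spec_of_dvd q hc'
      rw [jq_of_dvd q hc] at hi
      rw [jq_of_dvd q hc'] at hi'
      have hd' : g 1 1 = g' 1 1 := by rw [← e11, ← e11', h11]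
      have hii : (i : ℤ) = i' := by
        have h1 : (q : ℤ) ∣ ((i : ℤ) - i') * g 1 1 := by
          refine ⟨g' 0 1 - g 0 1, ?_⟩
          rw [e01, e11, e01', e11', ← hd'] at h01
          linear_combination h01
        have h2 : (q : ℤ) ∣ (i : ℤ) - i' := ((prime_q q).dvd_or_dvd h1).resolve_right hd
        have hiq : (i : ℤ) < q := by exact_mod_cast hi
        have hiq' : (i' : ℤ) < q := by exact_mod_cast hi'
        have := eq_zero_of_dvd_of_lt q h2 (by linarith) (by linarith)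
        linarith
      have hii' : i = i' := by exact_mod_cast hii
      refine ⟨ext_entries ?_ ?_ ?_ hd', hii'⟩
      · rw [← e00, ← e00']
        rw [hii, h10] at h00
        linarith
      · have : (q : ℤ) * g 0 1 = q * g' 0 1 := by
          rw [← e01, ← e01']
          rw [hii, h11] at h01
          linarith
        exact mul_left_cancel₀ hq0 this
      · rw [← e10, ← e10', h10]
    · exfalso
      obtain ⟨-, -, -, -, -, -, -, e11'⟩ := hq_spec_of_not_dvd q hc'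
      rw [e11, e11'] at h11
      exact hd ⟨g' 1 1, h11⟩
  · obtain ⟨ha, rfl⟩ := of_lt_jq_of_not_dvd q hc hi
    obtain ⟨e00, e01, e10, e11⟩ := hq_spec_of_not_dvd_of_dvd q hc ha
    by_cases hc' : (q : ℤ) ∣ g' 1 0
    · exfalso
      obtain ⟨-, -, -, e11'⟩ := hq_spec_of_dvd q hc'
      rw [e11, e11'] at h11
      exact not_dvd_one_one q g' hc' ⟨g 1 1, h11.symm⟩
    · obtain ⟨ha', rfl⟩ := of_lt_jq_of_not_dvd q hc' hi'
      obtain ⟨e00', e01', e10', e11'⟩ := hq_spec_of_not_dvd_of_dvd q hc' ha'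
      simp only [Nat.cast_zero, zero_mul, add_zero] at h00 h01
      refine ⟨ext_entries ?_ ?_ ?_ ?_, rfl⟩
      · rw [← e00, ← e00', h00]
      · rw [← e01, ← e01', h01]
      · rw [← e10, ← e10', h10]
      · have : (q : ℤ) * g 1 1 = q * g' 1 1 := by rw [← e11, ← e11', h11]
        exact mul_left_cancel₀ hq0 this

/-- Surjectivity of `(g, i) ↦ T ^ i · h(g)` on `{(g, i) | i < j(g)}`. -/
theorem exists_T_pow_mul_hq_eq (h0 : SL(2, ℤ)) :
    ∃ (g : SL(2, ℤ)) (i : ℕ), i < jq q g ∧ ModularGroup.T ^ i * hq q g = h0 := by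
  have hq0 : (q : ℤ) ≠ 0 := (prime_q q).ne_zero
  have hdet := det_entries h0
  by_cases hD : (q : ℤ) ∣ h0 1 1
  · -- `h0 = h(g)` with `g = [[q A, B], [C, D / q]]`
    obtain ⟨m, hm⟩ := hD
    have hC : ¬ (q : ℤ) ∣ h0 1 0 := not_dvd_one_zero q h0 ⟨m, hm⟩
    refine ⟨mk (q * h0 0 0) (h0 0 1) (h0 1 0) m (by rw [hm] at hdet; linear_combination hdet),
      0, ?_, ?_⟩
    · rw [jq_of_not_dvd_of_dvd q (by rw [mk_one_zero]; exact hC)
        (by rw [mk_zero_zero]; exact dvd_mul_right _ _)]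
      exact Nat.zero_lt_one
    · rw [pow_zero, one_mul]
      refine hq_eq_of_not_dvd q (by rw [mk_one_zero]; exact hC) 0 le_rfl
        (by exact_mod_cast (Fact.out : q.Prime).pos) ?_ ?_ ?_ ?_
      · rw [mk_zero_zero, mk_one_zero]; ring
      · rw [mk_zero_one, mk_one_one]; ring
      · rw [mk_one_zero]
      · rw [mk_one_one, hm]
  · -- `h0 = T ^ i · h(g)` with `g = [[A - i C, (B - i D) / q], [q C, D]]`
    have hy0 := yq_nonneg q (-(h0 0 1)) (h0 1 1)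
    have hyq := yq_lt q (-(h0 0 1)) (h0 1 1)
    obtain ⟨m, hm⟩ := dvd_add_yq_mul q (-(h0 0 1)) (h0 1 1) hD
    obtain ⟨i, hi⟩ := Int.eq_ofNat_of_zero_le hy0
    rw [hi] at hm hyq
    have hiq : i < q := by exact_mod_cast hyq
    have hdetg : (h0 0 0 - i * h0 1 0) * h0 1 1 - (-m) * (q * h0 1 0) = 1 := by
      linear_combination hdet - h0 1 0 * hm
    have hcg : (q : ℤ) ∣ (mk (h0 0 0 - i * h0 1 0) (-m) (q * h0 1 0) (h0 1 1) hdetg) 1 0 := by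
      rw [mk_one_zero]
      exact dvd_mul_right _ _
    obtain ⟨e00, e01, e10, e11⟩ := hq_spec_of_dvd q hcg
    rw [mk_zero_zero] at e00
    rw [mk_zero_one] at e01
    rw [mk_one_zero] at e10
    rw [mk_one_one] at e11
    have e10' := mul_left_cancel₀ hq0 e10
    refine ⟨mk (h0 0 0 - i * h0 1 0) (-m) (q * h0 1 0) (h0 1 1) hdetg, i, ?_, ?_⟩
    · rw [jq_of_dvd q hcg]
      exact hiq
    · refine ext_entries ?_ ?_ ?_ ?_
      · rw [T_pow_mul_zero_zero, e00, e10']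
        ring
      · rw [T_pow_mul_zero_one, e01, e11]
        linear_combination hm
      · rw [T_pow_mul_one_zero, e10']
      · rw [T_pow_mul_one_one, e11]

/-- **(D4)** `(g, i) ↦ T ^ i · h(g)` is a bijection `{(g, i) | i < j(g)} → SL(2, ℤ)`. -/
theorem exists_unique_hq (h0 : SL(2, ℤ)) :
    ∃! p : SL(2, ℤ) × ℕ, p.2 < jq q p.1 ∧ ModularGroup.T ^ p.2 * hq q p.1 = h0 := by
  obtain ⟨g, i, hi, h⟩ := exists_T_pow_mul_hq_eq q h0
  refine ⟨(g, i), ⟨hi, h⟩, ?_⟩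
  rintro ⟨g', i'⟩ ⟨hi', h'⟩
  obtain ⟨hg, hii⟩ := eq_of_T_pow_mul_hq_eq q hi' hi (h'.trans h.symm)
  exact Prod.ext hg hii

end Main

end Fermat.Agent.S41.PDTwistB
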