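/-
S41 team, block [T1] of the [NE] table (owner: helper12; short-model half by helper97).

`card_torsion`: for an elliptic curve over an algebraically closed field of characteristic zero
and a prime `p`, the `p`-torsion has exactly `p²` points.
(`exists_short_model` is in `T1Transport.lean`, same namespace.)
-/
import Fermat.Agent.S41.T1Transport
import Fermat.Agent.S41.T1Short

set_option autoImplicit false

namespace Fermat.Agent.S41.T1

open WeierstrassCurve WeierstrassCurve.Affine

theorem card_torsion {L : Type*} [Field L] [CharZero L] [IsAlgClosed L] [DecidableEq L]
    (W : WeierstrassCurve L) [W.IsElliptic] (p : ℕ) (hp : p.Prime) :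
    Nat.card (Submodule.torsionBy ℤ W.toAffine.Point p) = p ^ 2 :=
  card_torsion_of_short p
    (fun α β hβ hd => T1Short.card_torsion_short α β hβ hd p hp) W

end Fermat.Agent.S41.T1
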