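/-
S41 team, block [VC] of the [NE] table, Galois-equivariance wrapper (owner: helper12).

For Weierstrass curves `W₁ W₂` over a base ring `R` and a variable change `C` over `R` with
`C • W₁ = W₂`, the induced isomorphism on `K`-points `(W₂⁄K).Point ≃+ (W₁⁄K).Point` commutes
with the action of `K ≃ₐ[S] K` (the prelude action `σ • P = Point.map σ P`), and restricts to
the `n`-torsion.
-/
import Fermat.Agent.S41.VC
import Fermat.Prelude.Def_FLTPrelim_GaloisRep

set_option autoImplicit false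

namespace Fermat.Agent.S41.VC

open WeierstrassCurve WeierstrassCurve.Affine

variable {R : Type*} {S : Type*} {K : Type*} [CommRing R] [CommRing S] [Field K] [DecidableEq K]
  [Algebra R S] [Algebra R K] [Algebra S K] [IsScalarTower R S K]

omit [DecidableEq K] in
theorem baseChange_smul (W₁ W₂ : WeierstrassCurve R) (C : VariableChange R) (h : C • W₁ = W₂) :
    (C.baseChange K) • (W₁⁄K) = W₂⁄K := by
  rw [← h]
  exact map_variableChange W₁ C (algebraMap R K)

/-- The base change to `K` of the point isomorphism of a variable change over `R`. -/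
noncomputable def vcEquivBC (W₁ W₂ : WeierstrassCurve R) (C : VariableChange R)
    (h : C • W₁ = W₂) : (W₂⁄K).Point ≃+ (W₁⁄K).Point :=
  vcEquiv (W₁⁄K) (W₂⁄K) (C.baseChange K) (baseChange_smul W₁ W₂ C h)

theorem vcEquivBC_some (W₁ W₂ : WeierstrassCurve R) (C : VariableChange R) (h : C • W₁ = W₂)
    {x y : K} (hxy : (W₂⁄K).Nonsingular x y) :
    ∃ hxy' : (W₁⁄K).Nonsingular
        (algebraMap R K (C.u : R) ^ 2 * x + algebraMap R K C.r)
        (algebraMap R K (C.u : R) ^ 3 * y + algebraMap R K (C.u : R) ^ 2 * algebraMap R K C.s * x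
          + algebraMap R K C.t),
      vcEquivBC W₁ W₂ C h (Point.some x y hxy) = Point.some _ _ hxy' :=
  vcEquiv_some (W₁⁄K) (W₂⁄K) (C.baseChange K) (baseChange_smul W₁ W₂ C h) hxy

/-- **Galois equivariance** of the variable-change isomorphism. -/
theorem vcEquivBC_smul (W₁ W₂ : WeierstrassCurve R) (C : VariableChange R) (h : C • W₁ = W₂)
    (σ : K ≃ₐ[S] K) (P : (W₂⁄K).Point) :
    vcEquivBC W₁ W₂ C h (σ • P) = σ • vcEquivBC W₁ W₂ C h P := by
  have hσ : ∀ a : R, σ.toAlgHom (algebraMap R K a) = algebraMap R K a := fun a => by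
    rw [IsScalarTower.algebraMap_apply R S K]
    exact σ.toAlgHom.commutes _
  rcases P with _ | ⟨x, y, hxy⟩
  · change vcEquivBC W₁ W₂ C h (σ • (0 : (W₂⁄K).Point)) =
      σ • vcEquivBC W₁ W₂ C h (0 : (W₂⁄K).Point)
    rw [smul_zero, map_zero, smul_zero]
  · obtain ⟨h1, e1⟩ := vcEquivBC_some W₁ W₂ C h hxy
    rw [e1, Point.algEquiv_smul_def, Point.algEquiv_smul_def, Point.map_some, Point.map_some]
    obtain ⟨h2, e2⟩ := vcEquivBC_some W₁ W₂ C h
      ((Affine.baseChange_nonsingular W₂ (f := σ.toAlgHom) σ.toAlgHom.injective x y).mpr hxy)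
    rw [e2]
    congr 1
    · simp only [map_add, map_mul, map_pow, hσ]
    · simp only [map_add, map_mul, map_pow, hσ]

omit [Algebra R S] [Algebra S K] [IsScalarTower R S K] in
theorem vcEquivBC_mem_torsionBy_iff (W₁ W₂ : WeierstrassCurve R) (C : VariableChange R)
    (h : C • W₁ = W₂) (n : ℕ) (P : (W₂⁄K).Point) :
    vcEquivBC W₁ W₂ C h P ∈ Submodule.torsionBy ℤ (W₁⁄K).Point n ↔
      P ∈ Submodule.torsionBy ℤ (W₂⁄K).Point n := by
  simp only [Submodule.mem_torsionBy_iff]
  rw [← map_zsmul, map_eq_zero_iff _ (vcEquivBC W₁ W₂ C h).injective]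

/-- The induced additive isomorphism on `n`-torsion. -/
noncomputable def torsionEquivBC (W₁ W₂ : WeierstrassCurve R) (C : VariableChange R)
    (h : C • W₁ = W₂) (n : ℕ) :
    Submodule.torsionBy ℤ (W₂⁄K).Point n ≃+ Submodule.torsionBy ℤ (W₁⁄K).Point n where
  toFun P := ⟨vcEquivBC W₁ W₂ C h (P : (W₂⁄K).Point),
    (vcEquivBC_mem_torsionBy_iff W₁ W₂ C h n (P : (W₂⁄K).Point)).mpr P.2⟩
  invFun Q := ⟨(vcEquivBC W₁ W₂ C h).symm (Q : (W₁⁄K).Point), by
    rw [← vcEquivBC_mem_torsionBy_iff W₁ W₂ C h n, AddEquiv.apply_symm_apply]; exact Q.2⟩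
  left_inv P := Subtype.ext (AddEquiv.symm_apply_apply _ _)
  right_inv Q := Subtype.ext (AddEquiv.apply_symm_apply _ _)
  map_add' P Q := Subtype.ext (map_add (vcEquivBC W₁ W₂ C h) (P : (W₂⁄K).Point) Q)

omit [Algebra R S] [Algebra S K] [IsScalarTower R S K] in
theorem coe_torsionEquivBC (W₁ W₂ : WeierstrassCurve R) (C : VariableChange R)
    (h : C • W₁ = W₂) (n : ℕ) (P : Submodule.torsionBy ℤ (W₂⁄K).Point n) :
    ((torsionEquivBC W₁ W₂ C h n P : Submodule.torsionBy ℤ (W₁⁄K).Point n) : (W₁⁄K).Point) =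
      vcEquivBC W₁ W₂ C h P := rfl

/-- Galois equivariance on `n`-torsion (prelude action on `Submodule.torsionBy`). -/
theorem torsionEquivBC_smul (W₁ W₂ : WeierstrassCurve R) (C : VariableChange R)
    (h : C • W₁ = W₂) (n : ℕ) (σ : K ≃ₐ[S] K) (P : Submodule.torsionBy ℤ (W₂⁄K).Point n) :
    torsionEquivBC W₁ W₂ C h n (σ • P) = σ • torsionEquivBC W₁ W₂ C h n P :=
  Subtype.ext (vcEquivBC_smul W₁ W₂ C h σ (P : (W₂⁄K).Point))

/-- The torsion isomorphism is `ZMod n`-linear (prelude module structure). -/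
theorem torsionEquivBC_zmod_smul (W₁ W₂ : WeierstrassCurve R) (C : VariableChange R)
    (h : C • W₁ = W₂) (n : ℕ) (c : ZMod n) (P : Submodule.torsionBy ℤ (W₂⁄K).Point n) :
    torsionEquivBC (K := K) W₁ W₂ C h n (c • P) = c • torsionEquivBC W₁ W₂ C h n P := by
  obtain ⟨m, rfl⟩ := ZMod.intCast_surjective c
  rw [Int.cast_smul_eq_zsmul, Int.cast_smul_eq_zsmul, map_zsmul]

end Fermat.Agent.S41.VC
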